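import Mathlib

/-!
# S36, family BASE, leaf (L-A): the trace-dual basis in Galois-sum form

`L / K` a finite Galois extension, `v` a `K`-basis of `L` (given by spanning and independence).
There is a family `d` of `L` with `a = ∑ i, (∑ σ, σ (d i * a)) * v i` for all `a ∈ L`
(the coordinates of `a` in the basis `v` are the traces `Tr (d i * a)`): `s36bv_dual`;
`s36bv_dual_trace` is the same statement with `algebraMap K L (Algebra.trace K L (d i * a))`, and
`s36bv_sum_eq_trace` identifies the two.
-/

set_option autoImplicit false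

namespace Fermat.Agent.S36

/-- **Trace-dual basis, Galois-sum form.** -/
theorem s36bv_dual {K L : Type*} [Field K] [Field L] [Algebra K L] [FiniteDimensional K L]
    [IsGalois K L] {n : ℕ} (v : Fin n → L)
    (hspan : ∀ x : L, ∃ a : Fin n → K, x = ∑ i, algebraMap K L (a i) * v i)
    (hind : ∀ a : Fin n → K, ∑ i, algebraMap K L (a i) * v i = 0 → ∀ i, a i = 0) :
    ∃ d : Fin n → L, ∀ a : L, a = ∑ i, (∑ σ : L ≃ₐ[K] L, σ (d i * a)) * v i := by
  classical
  have hli : LinearIndependent K v := by
    rw [Fintype.linearIndependent_iff]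
    intro g hg i
    refine hind g ?_ i
    rw [← hg]
    exact Finset.sum_congr rfl fun j _ => (Algebra.smul_def _ _).symm
  have hsp : ⊤ ≤ Submodule.span K (Set.range v) := by
    intro x _
    obtain ⟨a, rfl⟩ := hspan x
    refine Submodule.sum_mem _ fun i _ => ?_
    rw [← Algebra.smul_def]
    exact Submodule.smul_mem _ _ (Submodule.subset_span ⟨i, rfl⟩)
  set b : Module.Basis (Fin n) K L := Module.Basis.mk hli hsp with hb
  have hbv : ∀ i, b i = v i := fun i => by rw [hb, Module.Basis.mk_apply]
  have hnd : (Algebra.traceForm K L).Nondegenerate := traceForm_nondegenerate K L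
  set d : Module.Basis (Fin n) K L := (Algebra.traceForm K L).dualBasis hnd b with hd
  refine ⟨fun i => d i, fun a => ?_⟩
  have h1 : ∀ i, b.repr a i = Algebra.trace K L (d i * a) := by
    intro i
    have h2 := LinearMap.BilinForm.dualBasis_repr_apply hnd d a i
    rw [hd, LinearMap.BilinForm.dualBasis_dualBasis hnd (Algebra.traceForm_isSymm K) b] at h2
    rw [h2, Algebra.traceForm_apply, mul_comm]
  have h3 : a = ∑ i, b.repr a i • b i := (b.sum_repr a).symm
  conv_lhs => rw [h3]
  refine Finset.sum_congr rfl fun i _ => ?_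
  rw [h1 i, Algebra.smul_def, trace_eq_sum_automorphisms, hbv]

/-- the Galois sum is the trace (in `L`) -/
theorem s36bv_sum_eq_trace {K L : Type*} [Field K] [Field L] [Algebra K L]
    [FiniteDimensional K L] [IsGalois K L] (x : L) :
    ∑ σ : L ≃ₐ[K] L, σ x = algebraMap K L (Algebra.trace K L x) :=
  (trace_eq_sum_automorphisms x).symm

/-- **Trace-dual basis, trace form**: the coordinates of `a` in the basis `v` are
`Tr (d i * a)`. -/
theorem s36bv_dual_trace {K L : Type*} [Field K] [Field L] [Algebra K L] [FiniteDimensional K L]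
    [IsGalois K L] {n : ℕ} (v : Fin n → L)
    (hspan : ∀ x : L, ∃ a : Fin n → K, x = ∑ i, algebraMap K L (a i) * v i)
    (hind : ∀ a : Fin n → K, ∑ i, algebraMap K L (a i) * v i = 0 → ∀ i, a i = 0) :
    ∃ d : Fin n → L, ∀ a : L,
      a = ∑ i, algebraMap K L (Algebra.trace K L (d i * a)) * v i := by
  obtain ⟨d, hd⟩ := s36bv_dual v hspan hind
  refine ⟨d, fun a => ?_⟩
  conv_lhs => rw [hd a]
  exact Finset.sum_congr rfl fun i _ => by rw [s36bv_sum_eq_trace]

end Fermat.Agent.S36
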