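import Mathlib
import Fermat.Prelude.Def_FLTPrelim_Ramification
import Fermat.Agent.S05.Inertia

/-!
# S36 [BASE-GAL]: `K1 / (K1 ∩ ℚ̄^I)` is Galois with group the restriction of inertia
-/

set_option autoImplicit false

namespace Fermat.Agent.S36

/-- for `K1 ⊆ ℚ̄` finite normal over `ℚ` and `K2 := K1 ⊓ ℚ̄^I` (`I` the inertia group of `A` in
`Gal(ℚ̄/ℚ)`): `K1 / K2` is Galois and every element of `Gal(K1/K2)` is the restriction of an element
of `I` -/
theorem s36bg_main (A : ValuationSubring (AlgebraicClosure ℚ))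
    (K1 : IntermediateField ℚ (AlgebraicClosure ℚ)) [FiniteDimensional ℚ K1] [Normal ℚ K1] :
    letI : Algebra ↥(K1 ⊓ IntermediateField.fixedField (A.inertiaSubgroupIn ℚ)) ↥K1 :=
      (IntermediateField.inclusion inf_le_left).toRingHom.toAlgebra
    IsGalois ↥(K1 ⊓ IntermediateField.fixedField (A.inertiaSubgroupIn ℚ)) ↥K1 ∧
    ∀ σ : ↥K1 ≃ₐ[↥(K1 ⊓ IntermediateField.fixedField (A.inertiaSubgroupIn ℚ))] ↥K1,
      ∃ σ' ∈ A.inertiaSubgroupIn ℚ, ∀ x : ↥K1,
        ((σ x : ↥K1) : AlgebraicClosure ℚ) = σ' (x : AlgebraicClosure ℚ) := by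
  classical
  let _ : Algebra ↥(K1 ⊓ IntermediateField.fixedField (A.inertiaSubgroupIn ℚ)) ↥K1 :=
    (IntermediateField.inclusion inf_le_left).toRingHom.toAlgebra
  have hamap : ∀ z : ↥(K1 ⊓ IntermediateField.fixedField (A.inertiaSubgroupIn ℚ)),
      ((algebraMap ↥(K1 ⊓ IntermediateField.fixedField (A.inertiaSubgroupIn ℚ)) ↥K1 z : ↥K1) :
        AlgebraicClosure ℚ) = (z : AlgebraicClosure ℚ) := fun z => rfl
  have htower : IsScalarTower ℚ ↥(K1 ⊓ IntermediateField.fixedField (A.inertiaSubgroupIn ℚ)) ↥K1 :=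
    IsScalarTower.of_algebraMap_eq (fun x => Subtype.ext rfl)
  have hgal1 : IsGalois ℚ ↥K1 := {}
  refine ⟨IsGalois.tower_top_of_isGalois ℚ
    ↥(K1 ⊓ IntermediateField.fixedField (A.inertiaSubgroupIn ℚ)) ↥K1, ?_⟩
  intro σ
  -- the image of inertia in `Gal(K1/ℚ)`
  let H : Subgroup (↥K1 ≃ₐ[ℚ] ↥K1) :=
    (A.inertiaSubgroupIn ℚ).map (AlgEquiv.restrictNormalHom (F := ℚ) (K₁ := AlgebraicClosure ℚ) ↥K1)
  have hHfix : (IntermediateField.fixedField H).fixingSubgroup = H :=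
    IntermediateField.fixingSubgroup_fixedField H
  let σ₀ : ↥K1 ≃ₐ[ℚ] ↥K1 := σ.restrictScalars ℚ
  have hσ₀ : σ₀ ∈ (IntermediateField.fixedField H).fixingSubgroup := by
    rw [IntermediateField.mem_fixingSubgroup_iff]
    intro y hy
    rw [IntermediateField.mem_fixedField_iff] at hy
    -- `y` lies in `K2`
    have hyK2 : (y : AlgebraicClosure ℚ) ∈
        K1 ⊓ IntermediateField.fixedField (A.inertiaSubgroupIn ℚ) := by
      refine ⟨y.2, ?_⟩
      show (y : AlgebraicClosure ℚ) ∈ IntermediateField.fixedField (A.inertiaSubgroupIn ℚ)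
      rw [IntermediateField.mem_fixedField_iff]
      intro σ' hσ'
      have h1 := hy (AlgEquiv.restrictNormalHom (F := ℚ) (K₁ := AlgebraicClosure ℚ) ↥K1 σ')
        (Subgroup.mem_map_of_mem _ hσ')
      have h2 : ((AlgEquiv.restrictNormalHom (F := ℚ) (K₁ := AlgebraicClosure ℚ) ↥K1 σ' y : ↥K1) :
          AlgebraicClosure ℚ) = σ' (y : AlgebraicClosure ℚ) :=
        AlgEquiv.restrictNormal_commutes σ' ↥K1 y
      rw [← h2, h1]
    have h3 : y = algebraMap ↥(K1 ⊓ IntermediateField.fixedField (A.inertiaSubgroupIn ℚ)) ↥K1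
        ⟨(y : AlgebraicClosure ℚ), hyK2⟩ := Subtype.ext rfl
    show σ y = y
    rw [h3]
    exact σ.commutes _
  rw [hHfix] at hσ₀
  obtain ⟨σ', hσ', hσ'eq⟩ := hσ₀
  refine ⟨σ', hσ', fun x => ?_⟩
  have h4 : ((AlgEquiv.restrictNormalHom (F := ℚ) (K₁ := AlgebraicClosure ℚ) ↥K1 σ' x : ↥K1) :
      AlgebraicClosure ℚ) = σ' (x : AlgebraicClosure ℚ) :=
    AlgEquiv.restrictNormal_commutes σ' ↥K1 x
  rw [← h4, hσ'eq]
  rfl

/-- membership in the nonunits of the trace of `A` on a subfield -/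
theorem s36bg_comap_nu (A : ValuationSubring (AlgebraicClosure ℚ))
    (K : IntermediateField ℚ (AlgebraicClosure ℚ)) (x : ↥K) :
    x ∈ (A.comap (algebraMap ↥K (AlgebraicClosure ℚ))).nonunits ↔
      (x : AlgebraicClosure ℚ) ∈ A.nonunits := by
  rw [ValuationSubring.mem_nonunits_iff_or, ValuationSubring.mem_nonunits_iff_or,
    ValuationSubring.mem_comap, map_inv₀]
  have h0 : x = 0 ↔ (x : AlgebraicClosure ℚ) = 0 := by
    constructor
    · intro h; rw [h]; rfl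
    · intro h; exact Subtype.ext h
  rw [h0]
  rfl

/-- the carrier facts consumed by `s36bt_main` (BASE-TR) at `(K1, K2 := K1 ⊓ ℚ̄^I)`:
`K1 / K2` is finite Galois, compatible with `ℚ`, and every `σ ∈ Gal(K1/K2)` preserves
`A ∩ K1` and acts trivially on its residue field (`hinv`) -/
theorem s36bg_hinv (A : ValuationSubring (AlgebraicClosure ℚ))
    (K1 : IntermediateField ℚ (AlgebraicClosure ℚ)) [FiniteDimensional ℚ K1] [Normal ℚ K1] :
    letI : Algebra ↥(K1 ⊓ IntermediateField.fixedField (A.inertiaSubgroupIn ℚ)) ↥K1 :=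
      (IntermediateField.inclusion inf_le_left).toRingHom.toAlgebra
    IsGalois ↥(K1 ⊓ IntermediateField.fixedField (A.inertiaSubgroupIn ℚ)) ↥K1 ∧
    FiniteDimensional ↥(K1 ⊓ IntermediateField.fixedField (A.inertiaSubgroupIn ℚ)) ↥K1 ∧
    IsScalarTower ℚ ↥(K1 ⊓ IntermediateField.fixedField (A.inertiaSubgroupIn ℚ)) ↥K1 ∧
    (∀ z : ↥(K1 ⊓ IntermediateField.fixedField (A.inertiaSubgroupIn ℚ)),
      ((algebraMap ↥(K1 ⊓ IntermediateField.fixedField (A.inertiaSubgroupIn ℚ)) ↥K1 z : ↥K1) :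
        AlgebraicClosure ℚ) = (z : AlgebraicClosure ℚ)) ∧
    ∀ (σ : ↥K1 ≃ₐ[↥(K1 ⊓ IntermediateField.fixedField (A.inertiaSubgroupIn ℚ))] ↥K1) (x : ↥K1),
      x ∈ A.comap (algebraMap ↥K1 (AlgebraicClosure ℚ)) →
        σ x ∈ A.comap (algebraMap ↥K1 (AlgebraicClosure ℚ)) ∧
        σ x - x ∈ (A.comap (algebraMap ↥K1 (AlgebraicClosure ℚ))).nonunits := by
  classical
  let _ : Algebra ↥(K1 ⊓ IntermediateField.fixedField (A.inertiaSubgroupIn ℚ)) ↥K1 :=
    (IntermediateField.inclusion inf_le_left).toRingHom.toAlgebra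
  have htower : IsScalarTower ℚ ↥(K1 ⊓ IntermediateField.fixedField (A.inertiaSubgroupIn ℚ)) ↥K1 :=
    IsScalarTower.of_algebraMap_eq (fun x => Subtype.ext rfl)
  obtain ⟨hgal, hres⟩ := s36bg_main A K1
  refine ⟨hgal, FiniteDimensional.right ℚ _ ↥K1, htower, fun z => rfl, ?_⟩
  intro σ x hx
  obtain ⟨σ', hσ', hσx⟩ := hres σ
  have hxA : (x : AlgebraicClosure ℚ) ∈ A := hx
  have h1 : σ' (x : AlgebraicClosure ℚ) - (x : AlgebraicClosure ℚ) ∈ A.nonunits :=
    Fermat.Agent.S05.inertia_sub_mem_nonunits A σ' hσ' _ hxA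
  have h2 : σ' (x : AlgebraicClosure ℚ) ∈ A := by
    have := A.add_mem _ _ (ValuationSubring.nonunits_subset h1) hxA
    simpa using this
  refine ⟨?_, ?_⟩
  · show ((σ x : ↥K1) : AlgebraicClosure ℚ) ∈ A
    rw [hσx x]
    exact h2
  · rw [s36bg_comap_nu]
    show ((σ x : ↥K1) : AlgebraicClosure ℚ) - (x : AlgebraicClosure ℚ) ∈ A.nonunits
    rw [hσx x]
    exact h1

end Fermat.Agent.S36
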