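import Mathlib
import Fermat.Prelude.Def_ModularCurve_LaurentCoeff
import Fermat.Prelude.Def_ModularCurve_ArithmeticGalois
import Fermat.Prelude.Def_FLTPrelim_Ramification
import Fermat.Agent.S18.BaseChangeField

/-!
# S36, package DESCENT-FIX: coefficients in a subfield `K` imply definition over `K`

`K → L` an algebraic extension of fields of characteristic zero, `F₀ ⊆ ℚ((q))`.

* `s36df_range_of_coeff`: an element of `laurentBaseChange L F₀` all of whose coefficients lie
  in (the image of) `K` is in the range of `bcfHom K L F₀`.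
-/

set_option autoImplicit false

noncomputable section

open ModularCurve Fermat.Agent.S18

namespace Fermat.Agent.S36

section Coeff

variable (K L : Type*) [Field K] [Field L] [Algebra ℚ K] [Algebra ℚ L] [Algebra K L]
variable (F₀ : IntermediateField ℚ (LaurentSeries ℚ))

/-- the constants of `L` are algebraic over (the image of) `laurentBaseChange K F₀` -/
theorem s36df_const_isAlgebraic [Algebra.IsAlgebraic K L] (c : L) :
    letI := bcfAlgebra K L F₀
    IsAlgebraic ↥(laurentBaseChange K F₀) (algebraMap L ↥(laurentBaseChange L F₀) c) := by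
  letI := bcfAlgebraConst K L F₀
  letI := bcfAlgebra K L F₀
  haveI := bcf_isScalarTower_const K L F₀
  haveI := bcf_isScalarTower K L F₀
  have h1 : IsAlgebraic K c := Algebra.IsAlgebraic.isAlgebraic c
  have h2 : IsAlgebraic K (algebraMap L ↥(laurentBaseChange L F₀) c) := h1.algebraMap
  exact h2.tower_top _

/-- every element of `laurentBaseChange L F₀` is a finite sum `∑ c • bcf (a c)` with constants
`c ∈ L` and `a c` defined over `K` -/
theorem s36df_exists_sum [Algebra.IsAlgebraic K L] (x : ↥(laurentBaseChange L F₀)) :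
    ∃ (s : Finset L) (a : L → ↥(laurentBaseChange K F₀)),
      (x : LaurentSeries L) = ∑ c ∈ s, c • coeffMap (algebraMap K L) (a c : LaurentSeries K) := by
  classical
  letI := bcfAlgebra K L F₀
  have htop := bcf_adjoin_eq_top K L F₀
  have hmem : x ∈ (IntermediateField.adjoin ↥(laurentBaseChange K F₀)
      (Set.range (algebraMap L ↥(laurentBaseChange L F₀)))).toSubalgebra := by
    rw [htop]; trivial
  rw [IntermediateField.adjoin_toSubalgebra_of_isAlgebraic] at hmem
  swap
  · rintro _ ⟨c, rfl⟩
    exact s36df_const_isAlgebraic K L F₀ c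
  have hmem2 : x ∈ Subalgebra.toSubmodule (Algebra.adjoin ↥(laurentBaseChange K F₀)
      (Set.range (algebraMap L ↥(laurentBaseChange L F₀)))) := hmem
  rw [Algebra.adjoin_eq_span] at hmem2
  have hcl : (Submonoid.closure (Set.range (algebraMap L ↥(laurentBaseChange L F₀))) :
      Set ↥(laurentBaseChange L F₀)) = Set.range (algebraMap L ↥(laurentBaseChange L F₀)) := by
    have : Set.range (algebraMap L ↥(laurentBaseChange L F₀)) =
        ((algebraMap L ↥(laurentBaseChange L F₀)).rangeS.toSubmonoid : Set _) := rfl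
    rw [this, Submonoid.closure_eq]
  rw [hcl, Finsupp.mem_span_range_iff_exists_finsupp] at hmem2
  obtain ⟨f, hf⟩ := hmem2
  refine ⟨f.support, fun c => f c, ?_⟩
  rw [← hf, Finsupp.sum]
  rw [show ((∑ c ∈ f.support, f c • algebraMap L ↥(laurentBaseChange L F₀) c :
      ↥(laurentBaseChange L F₀)) : LaurentSeries L) =
      ∑ c ∈ f.support, ((f c • algebraMap L ↥(laurentBaseChange L F₀) c :
      ↥(laurentBaseChange L F₀)) : LaurentSeries L) from
    map_sum (algebraMap ↥(laurentBaseChange L F₀) (LaurentSeries L)) _ _]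
  refine Finset.sum_congr rfl fun c _ => ?_
  rw [Algebra.smul_def (f c)]
  show coeffMap (algebraMap K L) (f c : LaurentSeries K) * algebraMap L (LaurentSeries L) c = _
  rw [mul_comm, algebraMap_laurentSeries_eq_single, HahnSeries.single_zero_mul_eq_smul]

/-- **Coefficient descent**: an element of `laurentBaseChange L F₀` all of whose coefficients
lie in the image of `K` comes from `laurentBaseChange K F₀` (`L / K` algebraic). -/
theorem s36df_range_of_coeff [Algebra.IsAlgebraic K L] (x : ↥(laurentBaseChange L F₀))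
    (hx : ∀ n, (x : LaurentSeries L).coeff n ∈ (algebraMap K L).range) :
    x ∈ (bcfHom K L F₀).range := by
  classical
  obtain ⟨s, a, hs⟩ := s36df_exists_sum K L F₀ x
  obtain ⟨φ, hφ⟩ := LinearMap.exists_leftInverse_of_injective (Algebra.linearMap K L)
    (LinearMap.ker_eq_bot.mpr (algebraMap K L).injective)
  have hφ' : ∀ k : K, φ (algebraMap K L k) = k := fun k => LinearMap.congr_fun hφ k
  refine ⟨∑ c ∈ s, algebraMap K ↥(laurentBaseChange K F₀) (φ c) * a c, ?_⟩
  apply Subtype.ext
  rw [bcfHom_coe]
  ext n
  rw [coeffMap_coeff]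
  obtain ⟨k, hk⟩ := hx n
  rw [← hk]
  congr 1
  have h1 : (x : LaurentSeries L).coeff n =
      ∑ c ∈ s, ((a c : LaurentSeries K).coeff n) • c := by
    rw [hs, HahnSeries.coeff_sum]
    refine Finset.sum_congr rfl fun c _ => ?_
    rw [HahnSeries.coeff_smul, coeffMap_coeff, smul_eq_mul, Algebra.smul_def, mul_comm]
  have h2 : k = ∑ c ∈ s, ((a c : LaurentSeries K).coeff n) * φ c := by
    rw [← hφ' k, hk, h1, map_sum]
    refine Finset.sum_congr rfl fun c _ => ?_
    rw [map_smul, smul_eq_mul]
  rw [h2]
  rw [show ((∑ c ∈ s, algebraMap K ↥(laurentBaseChange K F₀) (φ c) * a c :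
      ↥(laurentBaseChange K F₀)) : LaurentSeries K) =
      ∑ c ∈ s, ((algebraMap K ↥(laurentBaseChange K F₀) (φ c) * a c :
      ↥(laurentBaseChange K F₀)) : LaurentSeries K) from
    map_sum (algebraMap ↥(laurentBaseChange K F₀) (LaurentSeries K)) _ _]
  rw [HahnSeries.coeff_sum]
  refine Finset.sum_congr rfl fun c _ => ?_
  rw [show ((algebraMap K ↥(laurentBaseChange K F₀) (φ c) * a c :
      ↥(laurentBaseChange K F₀)) : LaurentSeries K) =
      (φ c) • (a c : LaurentSeries K) from by
    show algebraMap K (LaurentSeries K) (φ c) * (a c : LaurentSeries K) = _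
    rw [algebraMap_laurentSeries_eq_single, HahnSeries.single_zero_mul_eq_smul]]
  rw [HahnSeries.coeff_smul, smul_eq_mul, mul_comm]

end Coeff

end Fermat.Agent.S36
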