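import Mathlib
import Fermat.Agent.S36.DescentFix
import Fermat.Agent.S36.BaseGal
import Fermat.Agent.S36.BaseDual

/-!
# S36 [BASE-GALDEC]: Galois decomposition of integral elements along `K1 / K2`

`K ⊆ L` finite Galois, `v : Fin n → L` a `K`-basis of `L` (in the application `v i = π ^ i`),
`t2` an element of `F₀ · K`.  Every element `x1` of `F₀ · L` which is integral over `L[t2]`
is `∑ v i * bc (z i)` with `z i ∈ F₀ · K` integral over `K[t2]`:
`bc (z i) = ∑_σ σ(d i) σ(x1)` (coefficientwise Galois sums; `d` the trace-dual basis of `v`).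

* `s36bq_abs`: the abstract statement, with the dual family `d` as a hypothesis;
* `s36bq_galdec`: the statement at the carrier `K1 ⊆ ℚ̄` finite normal,
  `K2 := K1 ⊓ ℚ̄^I`, `v i := π ^ i`.
-/

set_option autoImplicit false
set_option linter.style.haveILetI false

noncomputable section

open ModularCurve Polynomial
open Fermat.Agent.S18

namespace Fermat.Agent.S36

local notation "Qb" => AlgebraicClosure ℚ

/-- transitivity of integrality of an element along an integral ring homomorphism -/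
theorem s36bq_elem_trans {R S T : Type*} [CommRing R] [CommRing S] [CommRing T]
    (f : R →+* S) (g : S →+* T) (hf : f.IsIntegral) (x : T) (hx : g.IsIntegralElem x) :
    (g.comp f).IsIntegralElem x := by
  letI := f.toAlgebra
  letI := g.toAlgebra
  letI := (g.comp f).toAlgebra
  haveI : IsScalarTower R S T := IsScalarTower.of_algebraMap_eq fun _ => rfl
  haveI : Algebra.IsIntegral R S := ⟨hf⟩
  exact isIntegral_trans (R := R) (A := S) x hx

/-- a finite sum of integral elements is integral -/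
theorem s36bq_sum {R S ι : Type*} [CommRing R] [CommRing S] (f : R →+* S) (s : Finset ι)
    (y : ι → S) (h : ∀ i ∈ s, f.IsIntegralElem (y i)) : f.IsIntegralElem (∑ i ∈ s, y i) := by
  classical
  induction s using Finset.induction_on with
  | empty =>
    rw [Finset.sum_empty, ← map_zero f]
    exact f.isIntegralElem_map
  | insert a s ha ih =>
    rw [Finset.sum_insert ha]
    exact RingHom.IsIntegralElem.add f (h a (Finset.mem_insert_self a s))
      (ih fun i hi => h i (Finset.mem_insert_of_mem hi))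

section Abs

variable {K L : Type*} [Field K] [Field L] [Algebra ℚ K] [Algebra ℚ L] [Algebra K L]
variable (F₀ : IntermediateField ℚ (LaurentSeries ℚ))

omit [Algebra ℚ L] in
/-- coefficient of a constant multiple -/
theorem s36bq_coeff_const_mul [Algebra ℚ L] (c : L) (y : ↥(laurentBaseChange L F₀)) (k : ℤ) :
    ((algebraMap L ↥(laurentBaseChange L F₀) c * y : ↥(laurentBaseChange L F₀)) :
      LaurentSeries L).coeff k = c * (y : LaurentSeries L).coeff k := by
  show (algebraMap L (LaurentSeries L) c * (y : LaurentSeries L)).coeff k = _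
  rw [algebraMap_laurentSeries_eq_single, HahnSeries.single_zero_mul_eq_smul, HahnSeries.coeff_smul,
    smul_eq_mul]

/-- coefficient of a finite sum -/
theorem s36bq_coeff_sum {ι : Type*} (s : Finset ι) (f : ι → ↥(laurentBaseChange L F₀)) (k : ℤ) :
    ((∑ i ∈ s, f i : ↥(laurentBaseChange L F₀)) : LaurentSeries L).coeff k =
      ∑ i ∈ s, ((f i : ↥(laurentBaseChange L F₀)) : LaurentSeries L).coeff k := by
  have h1 : ((∑ i ∈ s, f i : ↥(laurentBaseChange L F₀)) : LaurentSeries L) =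
      ∑ i ∈ s, ((f i : ↥(laurentBaseChange L F₀)) : LaurentSeries L) :=
    map_sum (algebraMap ↥(laurentBaseChange L F₀) (LaurentSeries L)) f s
  rw [h1, HahnSeries.coeff_sum]

/-- constants are integral over `L[t]` -/
theorem s36bq_const (t : ↥(laurentBaseChange L F₀)) (c : L) :
    (aeval t : L[X] →ₐ[L] ↥(laurentBaseChange L F₀)).toRingHom.IsIntegralElem
      (algebraMap L ↥(laurentBaseChange L F₀) c) := by
  have h : algebraMap L ↥(laurentBaseChange L F₀) c =
      (aeval t : L[X] →ₐ[L] ↥(laurentBaseChange L F₀)).toRingHom (C c) := by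
    show _ = aeval t (C c)
    rw [aeval_C]
  rw [h]
  exact RingHom.isIntegralElem_map _

/-- integrality over `L[t]` is preserved by a coefficientwise automorphism fixing `t` -/
theorem s36bq_aut (σ : L ≃ₐ[ℚ] L) (t x : ↥(laurentBaseChange L F₀))
    (ht : arithmeticRingAut F₀ σ t = t)
    (hx : (aeval t : L[X] →ₐ[L] ↥(laurentBaseChange L F₀)).toRingHom.IsIntegralElem x) :
    (aeval t : L[X] →ₐ[L] ↥(laurentBaseChange L F₀)).toRingHom.IsIntegralElem
      (arithmeticRingAut F₀ σ x) := by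
  obtain ⟨p, hp, hpx⟩ := hx
  have hcomp : ((arithmeticRingAut F₀ σ : ↥(laurentBaseChange L F₀) ≃+* ↥(laurentBaseChange L F₀)) :
      ↥(laurentBaseChange L F₀) →+* ↥(laurentBaseChange L F₀)).comp
      (aeval t : L[X] →ₐ[L] ↥(laurentBaseChange L F₀)).toRingHom =
      ((aeval t : L[X] →ₐ[L] ↥(laurentBaseChange L F₀)).toRingHom).comp
        (mapRingHom (σ : L →+* L)) := by
    apply Polynomial.ringHom_ext
    · intro a
      show arithmeticRingAut F₀ σ (aeval t (C a)) = aeval t (Polynomial.map (σ : L →+* L) (C a))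
      rw [aeval_C, Polynomial.map_C, aeval_C, arithmeticRingAut_algebraMap]
      rfl
    · show arithmeticRingAut F₀ σ (aeval t X) = aeval t (Polynomial.map (σ : L →+* L) X)
      rw [aeval_X, Polynomial.map_X, aeval_X, ht]
  refine ⟨p.map (mapRingHom (σ : L →+* L)), hp.map _, ?_⟩
  rw [eval₂_map, ← hcomp]
  have h2 := Polynomial.hom_eval₂ p (aeval t : L[X] →ₐ[L] ↥(laurentBaseChange L F₀)).toRingHom
    ((arithmeticRingAut F₀ σ : ↥(laurentBaseChange L F₀) ≃+* ↥(laurentBaseChange L F₀)) :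
      ↥(laurentBaseChange L F₀) →+* ↥(laurentBaseChange L F₀)) x
  rw [hpx, map_zero] at h2
  exact h2.symm

/-- descent of integrality: `z ∈ F₀ · K` with `bc z` integral over `L[bc t2]` is integral over
`K[t2]` (`L / K` integral) -/
theorem s36bq_desc [Algebra.IsIntegral K L] (t2 z : ↥(laurentBaseChange K F₀))
    (hy : (aeval (bcfHom K L F₀ t2) : L[X] →ₐ[L] ↥(laurentBaseChange L F₀)).toRingHom.IsIntegralElem
      (bcfHom K L F₀ z)) :
    (aeval t2 : K[X] →ₐ[K] ↥(laurentBaseChange K F₀)).toRingHom.IsIntegralElem z := by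
  have hj : (mapRingHom (algebraMap K L)).IsIntegral := by
    letI := Polynomial.algebra K L
    intro x
    exact Algebra.IsIntegral.isIntegral (R := K[X]) x
  have h1 := s36bq_elem_trans (mapRingHom (algebraMap K L))
    (aeval (bcfHom K L F₀ t2) : L[X] →ₐ[L] ↥(laurentBaseChange L F₀)).toRingHom hj _ hy
  have hcomp : ((aeval (bcfHom K L F₀ t2) : L[X] →ₐ[L] ↥(laurentBaseChange L F₀)).toRingHom).comp
      (mapRingHom (algebraMap K L)) =
      (bcfHom K L F₀).comp (aeval t2 : K[X] →ₐ[K] ↥(laurentBaseChange K F₀)).toRingHom := by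
    apply Polynomial.ringHom_ext
    · intro a
      show aeval (bcfHom K L F₀ t2) (Polynomial.map (algebraMap K L) (C a)) =
        bcfHom K L F₀ (aeval t2 (C a))
      rw [Polynomial.map_C, aeval_C, aeval_C, bcfHom_algebraMap]
    · show aeval (bcfHom K L F₀ t2) (Polynomial.map (algebraMap K L) X) =
        bcfHom K L F₀ (aeval t2 X)
      rw [Polynomial.map_X, aeval_X, aeval_X]
  rw [hcomp] at h1
  obtain ⟨p, hp, hpx⟩ := h1
  refine ⟨p, hp, ?_⟩
  have h2 := Polynomial.hom_eval₂ p (aeval t2 : K[X] →ₐ[K] ↥(laurentBaseChange K F₀)).toRingHom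
    (bcfHom K L F₀) z
  rw [hpx] at h2
  exact bcfHom_injective K L F₀ (by rw [h2, map_zero])

/-- **Galois decomposition, abstract form.** -/
theorem s36bq_abs [IsScalarTower ℚ K L] [FiniteDimensional K L] [IsGalois K L] {n : ℕ}
    (v d : Fin n → L)
    (hd : ∀ a : L, a = ∑ i, (∑ σ : L ≃ₐ[K] L, σ (d i * a)) * v i)
    (t2 : ↥(laurentBaseChange K F₀)) (x1 : ↥(laurentBaseChange L F₀))
    (hx1 : (aeval (bcfHom K L F₀ t2) :
      L[X] →ₐ[L] ↥(laurentBaseChange L F₀)).toRingHom.IsIntegralElem x1) :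
    ∃ z : Fin n → ↥(laurentBaseChange K F₀),
      (∀ i, (aeval t2 : K[X] →ₐ[K] ↥(laurentBaseChange K F₀)).toRingHom.IsIntegralElem (z i)) ∧
      x1 = ∑ i : Fin n, algebraMap L ↥(laurentBaseChange L F₀) (v i) * bcfHom K L F₀ (z i) := by
  have hΦcoeff : ∀ (σ : L ≃ₐ[K] L) (y : ↥(laurentBaseChange L F₀)) (k : ℤ),
      ((arithmeticRingAut F₀ (σ.restrictScalars ℚ) y : ↥(laurentBaseChange L F₀)) :
        LaurentSeries L).coeff k = σ ((y : LaurentSeries L).coeff k) := fun σ y k => rfl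
  have hΦt : ∀ σ : L ≃ₐ[K] L,
      arithmeticRingAut F₀ (σ.restrictScalars ℚ) (bcfHom K L F₀ t2) = bcfHom K L F₀ t2 := by
    intro σ
    apply Subtype.ext
    ext k
    rw [hΦcoeff, bcfHom_coe, coeffMap_coeff]
    exact σ.commutes _
  have hycoeff : ∀ (i : Fin n) (k : ℤ),
      ((∑ σ : L ≃ₐ[K] L, algebraMap L ↥(laurentBaseChange L F₀) (σ (d i)) *
        arithmeticRingAut F₀ (σ.restrictScalars ℚ) x1 : ↥(laurentBaseChange L F₀)) :
          LaurentSeries L).coeff k =
        ∑ σ : L ≃ₐ[K] L, σ (d i * (x1 : LaurentSeries L).coeff k) := by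
    intro i k
    rw [s36bq_coeff_sum]
    refine Finset.sum_congr rfl fun σ _ => ?_
    rw [s36bq_coeff_const_mul, hΦcoeff, map_mul]
  have hyrange : ∀ i : Fin n, ∃ z : ↥(laurentBaseChange K F₀), bcfHom K L F₀ z =
      ∑ σ : L ≃ₐ[K] L, algebraMap L ↥(laurentBaseChange L F₀) (σ (d i)) *
        arithmeticRingAut F₀ (σ.restrictScalars ℚ) x1 := by
    intro i
    apply s36df_range_of_coeff K L F₀
    intro k
    rw [hycoeff, ← trace_eq_sum_automorphisms]
    exact ⟨_, rfl⟩
  choose z hz using hyrange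
  refine ⟨z, fun i => ?_, ?_⟩
  · apply s36bq_desc (L := L) F₀ t2 (z i)
    rw [hz i]
    apply s36bq_sum
    intro σ _
    exact RingHom.IsIntegralElem.mul _ (s36bq_const F₀ _ _)
      (s36bq_aut F₀ (σ.restrictScalars ℚ) _ x1 (hΦt σ) hx1)
  · apply Subtype.ext
    ext k
    rw [s36bq_coeff_sum]
    have h1 : ∀ i : Fin n, ((algebraMap L ↥(laurentBaseChange L F₀) (v i) * bcfHom K L F₀ (z i) :
        ↥(laurentBaseChange L F₀)) : LaurentSeries L).coeff k =
        (∑ σ : L ≃ₐ[K] L, σ (d i * (x1 : LaurentSeries L).coeff k)) * v i := by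
      intro i
      rw [s36bq_coeff_const_mul, hz i, hycoeff, mul_comm]
    rw [Finset.sum_congr rfl fun i _ => h1 i]
    exact hd _

end Abs

/-- transitivity of the base-change embeddings `K2 ⊆ K1 ⊆ ℚ̄` -/
theorem s36bq_bcf_trans (F₀ : IntermediateField ℚ (LaurentSeries ℚ))
    (K1 K2 : IntermediateField ℚ Qb) (h : K2 ≤ K1)
    (w : ↥(laurentBaseChange ↥K2 F₀)) :
    letI : Algebra ↥K2 ↥K1 := (IntermediateField.inclusion h).toRingHom.toAlgebra
    bcfHom ↥K1 Qb F₀ (bcfHom ↥K2 ↥K1 F₀ w) = bcfHom ↥K2 Qb F₀ w := by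
  letI : Algebra ↥K2 ↥K1 := (IntermediateField.inclusion h).toRingHom.toAlgebra
  apply Subtype.ext
  rw [bcfHom_coe, bcfHom_coe, bcfHom_coe, coeffMap_coeffMap]
  exact coeffMap_congr (RingHom.ext fun x => rfl) _

/-- **Galois decomposition at the carrier.**  `K1 ⊆ ℚ̄` finite normal over `ℚ`,
`K2 := K1 ⊓ ℚ̄^I`, `π ∈ K1` with `K1 = ⊕_{i<n} K2 π^i`; `t1 = t2` a function defined over `K2`.
Every `x1 ∈ F₀ · K1` integral over `K1[t1]` is `∑ π^i z_i` with `z_i ∈ F₀ · K2` integral over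
`K2[t2]` (identity in `F₀ · ℚ̄`). -/
theorem s36bq_galdec (F₀ : IntermediateField ℚ (LaurentSeries ℚ)) (A : ValuationSubring Qb)
    (K1 : IntermediateField ℚ Qb) [FiniteDimensional ℚ K1] [Normal ℚ K1] {n : ℕ} (π : ↥K1)
    (hspan : letI : Algebra ↥(K1 ⊓ IntermediateField.fixedField (A.inertiaSubgroupIn ℚ)) ↥K1 :=
        (IntermediateField.inclusion inf_le_left).toRingHom.toAlgebra
      ∀ x : ↥K1, ∃ a : Fin n → ↥(K1 ⊓ IntermediateField.fixedField (A.inertiaSubgroupIn ℚ)),
        x = ∑ i, algebraMap ↥(K1 ⊓ IntermediateField.fixedField (A.inertiaSubgroupIn ℚ)) ↥K1 (a i) *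
          π ^ (i : ℕ))
    (hind : letI : Algebra ↥(K1 ⊓ IntermediateField.fixedField (A.inertiaSubgroupIn ℚ)) ↥K1 :=
        (IntermediateField.inclusion inf_le_left).toRingHom.toAlgebra
      ∀ a : Fin n → ↥(K1 ⊓ IntermediateField.fixedField (A.inertiaSubgroupIn ℚ)),
        (∑ i, algebraMap ↥(K1 ⊓ IntermediateField.fixedField (A.inertiaSubgroupIn ℚ)) ↥K1 (a i) *
          π ^ (i : ℕ)) = 0 → ∀ i, a i = 0)
    (t1 : ↥(laurentBaseChange ↥K1 F₀))
    (t2 : ↥(laurentBaseChange ↥(K1 ⊓ IntermediateField.fixedField (A.inertiaSubgroupIn ℚ)) F₀))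
    (ht : bcfHom ↥K1 Qb F₀ t1 =
      bcfHom ↥(K1 ⊓ IntermediateField.fixedField (A.inertiaSubgroupIn ℚ)) Qb F₀ t2)
    (x1 : ↥(laurentBaseChange ↥K1 F₀))
    (hx1 : (aeval t1 : (↥K1)[X] →ₐ[↥K1] ↥(laurentBaseChange ↥K1 F₀)).toRingHom.IsIntegralElem x1) :
    ∃ z : Fin n →
        ↥(laurentBaseChange ↥(K1 ⊓ IntermediateField.fixedField (A.inertiaSubgroupIn ℚ)) F₀),
      (∀ i, (aeval t2 : (↥(K1 ⊓ IntermediateField.fixedField (A.inertiaSubgroupIn ℚ)))[X] →ₐ[
          ↥(K1 ⊓ IntermediateField.fixedField (A.inertiaSubgroupIn ℚ))]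
          ↥(laurentBaseChange ↥(K1 ⊓ IntermediateField.fixedField (A.inertiaSubgroupIn ℚ))
            F₀)).toRingHom.IsIntegralElem (z i)) ∧
      bcfHom ↥K1 Qb F₀ x1 = ∑ i : Fin n,
        algebraMap Qb ↥(laurentBaseChange Qb F₀) (((π : ↥K1) : Qb) ^ (i : ℕ)) *
          bcfHom ↥(K1 ⊓ IntermediateField.fixedField (A.inertiaSubgroupIn ℚ)) Qb F₀ (z i) := by
  letI : Algebra ↥(K1 ⊓ IntermediateField.fixedField (A.inertiaSubgroupIn ℚ)) ↥K1 :=
    (IntermediateField.inclusion inf_le_left).toRingHom.toAlgebra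
  obtain ⟨hgal, hfd, htower, -, -⟩ := s36bg_hinv A K1
  -- `t1` is the image of `t2`
  have ht1 : t1 = bcfHom ↥(K1 ⊓ IntermediateField.fixedField (A.inertiaSubgroupIn ℚ)) ↥K1 F₀ t2 := by
    apply bcfHom_injective ↥K1 Qb F₀
    rw [ht]
    exact (s36bq_bcf_trans F₀ K1 _ inf_le_left t2).symm
  rw [ht1] at hx1
  obtain ⟨d, hd⟩ := s36bv_dual (K := ↥(K1 ⊓ IntermediateField.fixedField (A.inertiaSubgroupIn ℚ)))
    (L := ↥K1) (fun i : Fin n => π ^ (i : ℕ)) hspan hind
  obtain ⟨z, hz, hsum⟩ := s36bq_abs (K := ↥(K1 ⊓ IntermediateField.fixedField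
    (A.inertiaSubgroupIn ℚ))) (L := ↥K1) F₀ (fun i : Fin n => π ^ (i : ℕ)) d hd t2 x1 hx1
  refine ⟨z, hz, ?_⟩
  rw [hsum, map_sum]
  refine Finset.sum_congr rfl fun i _ => ?_
  rw [map_mul, bcfHom_algebraMap, s36bq_bcf_trans F₀ K1 _ inf_le_left (z i), map_pow]
  rfl

end Fermat.Agent.S36
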