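import Mathlib
import Fermat.Agent.S34.InstInputs

/-!
# S36, family BASE: the carrier seam between BASE-DEC and BASE-OUT

`A` a valuation subring of `ℚ̄` over `q ∤ M`, `K2 ≤ K1` two subfields of `ℚ̄` (in the application
`K1` is a finite normal number field and `K2 = K1 ⊓ (ℚ̄)^I` its inertia field), `c0, c1 ∈ K2` the
base points of the level-`M` Hauptmodul chart `t = (h - c1) / (h - c0)`.

`s36bsDec`: every element of the level-`M` function field over `K1` which is integral over
`(A ∩ K1)[t]` is congruent, modulo the maximal ideal of the Gauss valuation ring of the function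
field over `ℚ̄`, to an element of the function field over `K2` which is integral over
`(A ∩ K2)[t]`.  (The constant term of the decomposition `O1 = ⊕ π^i O2` along a totally ramified
extension.)
-/

set_option autoImplicit false

noncomputable section

open ModularCurve Polynomial
open Fermat.Agent.S18

namespace Fermat.Agent.S36

local notation "Qb" => AlgebraicClosure ℚ

/-- **The carrier seam of family BASE**: integral elements over `K1` are congruent to integral
elements over `K2` modulo the Gauss maximal ideal. -/
def s36bsDec (M : ℕ) [NeZero M] {q : ℕ} [Fact q.Prime] (hqM : ¬ q ∣ M)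
    (A : ValuationSubring Qb) (hA : A.LiesOverPrime q) {a2 : ℕ} (H : HauptRec a2 q)
    (K1 K2 : IntermediateField ℚ Qb) (c0 c1 : ↥K2) : Prop :=
  ∀ (t1 : ↥(laurentBaseChange ↥K1 (modularFunctionFieldFull M)))
    (t2 : ↥(laurentBaseChange ↥K2 (modularFunctionFieldFull M))),
    (t2 : LaurentSeries ↥K2) = cinstU H ↥K2 c0 c1 →
    bcfHom ↥K1 Qb (modularFunctionFieldFull M) t1 =
      bcfHom ↥K2 Qb (modularFunctionFieldFull M) t2 →
    ∀ x1 : ↥(laurentBaseChange ↥K1 (modularFunctionFieldFull M)),
      ((((Polynomial.aeval t1 :
          (↥K1)[X] →ₐ[↥K1] ↥(laurentBaseChange ↥K1 (modularFunctionFieldFull M))) :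
          (↥K1)[X] →+* _).comp
        (Polynomial.mapRingHom (A.comap (algebraMap ↥K1 Qb)).subtype)).IsIntegralElem x1) →
      ∃ x2 : ↥(laurentBaseChange ↥K2 (modularFunctionFieldFull M)),
        ((((Polynomial.aeval t2 :
            (↥K2)[X] →ₐ[↥K2] ↥(laurentBaseChange ↥K2 (modularFunctionFieldFull M))) :
            (↥K2)[X] →+* _).comp
          (Polynomial.mapRingHom (A.comap (algebraMap ↥K2 Qb)).subtype)).IsIntegralElem x2) ∧
        bcfHom ↥K1 Qb (modularFunctionFieldFull M) x1 -
            bcfHom ↥K2 Qb (modularFunctionFieldFull M) x2 ∈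
          (grO A hA M hqM).nonunits

end Fermat.Agent.S36
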