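import Mathlib
import Fermat.Agent.S36.BaseSeam

/-!
# S36, family BASE, leaf BASE-OUT: the chart inputs over every field containing the inertia field

`A` a valuation subring of `ℚ̄` over `q ∤ N'`.  On main the two chart statements `cinstSMChart`
(Dedekind special fibre) and `unrChart` (unramifiedness away from the cusps) of the level-`N'`
Hauptmodul chart are available over the number fields `K1 ⊇ T`, where `T` is a finite set of
coefficients which is not fixed by inertia.  Here they are obtained over EVERY subfield `K0 ⊇ K2`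
of `ℚ̄` (with `A ∩ K0` a DVR), for a field `K2` supplied by the carrier seam `s36bsDec` of
BASE-DEC (in the application: the inertia field `K2 = K1 ⊓ (ℚ̄)^I` of a finite normal `K1 ⊇ T`).

* `s36bc_smib`: a family of the function field over `K2`, integral over `(A ∩ K2)[t]`, satisfies
  the descent statement `smibStmt K0 A M t b` for every `K0 ⊇ K2`.
* `s36bc_chart`: one orientation of the chart.
* `s36bc_both`: both orientations.
-/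

set_option autoImplicit false
set_option linter.style.haveILetI false

noncomputable section

open ModularCurve Polynomial
open Fermat.Agent.S18 Fermat.Agent.S34 Fermat.Agent.S28

namespace Fermat.Agent.S36

local notation "Qb" => AlgebraicClosure ℚ

/-- **Descent to every field containing `K2`**: a family of the level-`M` function field over
`K2`, integral over `(A ∩ K2)[t2]`, gives a family over `ℚ̄` which descends, with integrality, to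
every intermediate field `K0 ⊇ K2`. -/
theorem s36bc_smib (M : ℕ) (A : ValuationSubring Qb) (K2 K0 : IntermediateField ℚ Qb)
    (hle : K2 ≤ K0) {d : ℕ}
    (t2 : ↥(laurentBaseChange ↥K2 (modularFunctionFieldFull M)))
    (b2 : Fin d → ↥(laurentBaseChange ↥K2 (modularFunctionFieldFull M)))
    (hb2 : ∀ i, ((((Polynomial.aeval t2 :
            (↥K2)[X] →ₐ[↥K2] ↥(laurentBaseChange ↥K2 (modularFunctionFieldFull M))) :
            (↥K2)[X] →+* _).comp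
          (Polynomial.mapRingHom (A.comap (algebraMap ↥K2 Qb)).subtype)).IsIntegralElem (b2 i))) :
    smibStmt ↥K0 A M (bcfHom ↥K2 Qb (modularFunctionFieldFull M) t2)
      (fun i => bcfHom ↥K2 Qb (modularFunctionFieldFull M) (b2 i)) := by
  classical
  choose P2 hP2m hP2 using hb2
  refine smib_of_lift (K₀ := ↥K0) A M _ _
    (fun i => (P2 i).map (Polynomial.mapRingHom (bcfInc (K₀ := ↥K2) A))) (fun i => (hP2m i).map _)
    (fun i => ?_) (fun i n m => ?_) (fun i => ?_)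
  · rw [Polynomial.eval₂_map, ← smib_comp (K₀ := ↥K2) A M _ t2 rfl, ← Polynomial.hom_eval₂,
      hP2 i, map_zero]
  · rw [Polynomial.coeff_map, Polynomial.coe_mapRingHom, Polynomial.coeff_map]
    exact ⟨⟨((((P2 i).coeff n).coeff m : ↥(A.comap (algebraMap ↥K2 Qb))) : ↥K2),
      hle (((P2 i).coeff n).coeff m : ↥K2).2⟩, rfl⟩
  · letI : Algebra ↥K2 ↥K0 := (IntermediateField.inclusion hle).toRingHom.toAlgebra
    refine ⟨coeffMap (algebraMap ↥K2 ↥K0)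
      ((b2 i : ↥(laurentBaseChange ↥K2 (modularFunctionFieldFull M))) : LaurentSeries ↥K2),
      dvd_bc_mem (algebraMap ↥K2 ↥K0) (modularFunctionFieldFull M) (b2 i).2, ?_⟩
    rw [coeffMap_coeffMap, bcfHom_coe]
    rfl

/-- transfer of the Gauss residue along a congruence modulo the Gauss maximal ideal -/
theorem s36bc_res {K : Type*} [Field K] [Algebra ℚ K] (A : ValuationSubring K) {ℓ : ℕ}
    [Fact ℓ.Prime] (hA : A.LiesOverPrime ℓ) (M : ℕ) [NeZero M] (hℓM : ¬ ℓ ∣ M)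
    (x y : ↥(laurentBaseChange K (modularFunctionFieldFull M)))
    (hx : x ∈ grO A hA M hℓM) (hxy : x - y ∈ (grO A hA M hℓM).nonunits) :
    ∃ hy : y ∈ grO A hA M hℓM, grRes A hA M hℓM ⟨y, hy⟩ = grRes A hA M hℓM ⟨x, hx⟩ := by
  have h1 : x - y ∈ grO A hA M hℓM := ((gr_mem_nonunits_iff A hA M hℓM _).mp hxy).1
  have hy : y ∈ grO A hA M hℓM := by
    have h2 := (grO A hA M hℓM).sub_mem hx h1
    rwa [sub_sub_cancel] at h2
  refine ⟨hy, ?_⟩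
  have h3 : grRes A hA M hℓM ⟨x - y, h1⟩ = 0 :=
    (gr_mem_nonunits_iff_grRes A hA M hℓM ⟨x - y, h1⟩).mp hxy
  have h4 : (⟨x - y, h1⟩ : ↥(grO A hA M hℓM)) = ⟨x, hx⟩ - ⟨y, hy⟩ := rfl
  rw [h4, map_sub, sub_eq_zero] at h3
  exact h3.symm

/-- **Replacing the family**: a family `b` over `ℚ̄` with the residue properties of (SMQ) and a
family `b'` congruent to it modulo the Gauss maximal ideal: `b'` has the same properties. -/
theorem s36bc_basis (N' : ℕ) [NeZero N'] {q : ℕ} [Fact q.Prime] (hqN' : ¬ q ∣ N')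
    (A : ValuationSubring Qb) (hA : A.LiesOverPrime q) {d : ℕ}
    (t : ↥(laurentBaseChange Qb (modularFunctionFieldFull N')))
    (b b' : Fin d → ↥(laurentBaseChange Qb (modularFunctionFieldFull N')))
    (hQ : sminstBasis A hA N' hqN' t b)
    (hnu : ∀ i, b i - b' i ∈ (grO A hA N' hqN').nonunits) :
    sminstBasis A hA N' hqN' t b' ∧
      ∀ (hb : ∀ i, b i ∈ grO A hA N' hqN') (hb' : ∀ i, b' i ∈ grO A hA N' hqN') (i : Fin d),
        grRes A hA N' hqN' ⟨b' i, hb' i⟩ = grRes A hA N' hqN' ⟨b i, hb i⟩ := by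
  obtain ⟨htV, hb, hli, hspan⟩ := hQ
  have hres : ∀ (hb : ∀ i, b i ∈ grO A hA N' hqN') (hb' : ∀ i, b' i ∈ grO A hA N' hqN')
      (i : Fin d), grRes A hA N' hqN' ⟨b' i, hb' i⟩ = grRes A hA N' hqN' ⟨b i, hb i⟩ :=
    fun hb hb' i => (s36bc_res A hA N' hqN' (b i) (b' i) (hb i) (hnu i)).2
  have hb'V : ∀ i, b' i ∈ grO A hA N' hqN' := fun i =>
    (s36bc_res A hA N' hqN' (b i) (b' i) (hb i) (hnu i)).1
  refine ⟨⟨htV, hb'V, fun g hg => hli g ?_, fun y hy => ?_⟩, hres⟩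
  · rw [← hg]
    exact Finset.sum_congr rfl fun i _ => by rw [hres hb hb'V i]
  · obtain ⟨g, hg⟩ := hspan y hy
    refine ⟨g, ?_⟩
    rw [hg]
    exact Finset.sum_congr rfl fun i _ => by rw [hres hb hb'V i]

/-- the family over `K2` -/
theorem s36bc_family (N' : ℕ) [NeZero N'] {q : ℕ} [Fact q.Prime] (hqN' : ¬ q ∣ N') {a2 : ℕ}
    (H : HauptRec a2 q) (ha2 : a2 ∣ N') (A : ValuationSubring Qb) (hA : A.LiesOverPrime q)
    (c0 c1 : Qb) {d : ℕ}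
    (b : Fin d → ↥(laurentBaseChange Qb (modularFunctionFieldFull N')))
    (K1 K2 : IntermediateField ℚ Qb) (h0 : c0 ∈ K2) (h1 : c1 ∈ K2) (hle : K2 ≤ K1)
    (hD : s36bsDec N' hqN' A hA H K1 K2 ⟨c0, h0⟩ ⟨c1, h1⟩)
    (hs : smibStmt ↥K1 A N' ⟨cinstU H Qb c0 c1, cinstU_mem H Qb ha2 c0 c1⟩ b) :
    ∃ (t2 : ↥(laurentBaseChange ↥K2 (modularFunctionFieldFull N')))
      (x2 : Fin d → ↥(laurentBaseChange ↥K2 (modularFunctionFieldFull N'))),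
      bcfHom ↥K2 Qb (modularFunctionFieldFull N') t2 =
        ⟨cinstU H Qb c0 c1, cinstU_mem H Qb ha2 c0 c1⟩ ∧
      (∀ i, ((((Polynomial.aeval t2 :
            (↥K2)[X] →ₐ[↥K2] ↥(laurentBaseChange ↥K2 (modularFunctionFieldFull N'))) :
            (↥K2)[X] →+* _).comp
          (Polynomial.mapRingHom (A.comap (algebraMap ↥K2 Qb)).subtype)).IsIntegralElem (x2 i))) ∧
      ∀ i, b i - bcfHom ↥K2 Qb (modularFunctionFieldFull N') (x2 i) ∈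
        (grO A hA N' hqN').nonunits := by
  have ht1 : bcfHom ↥K1 Qb (modularFunctionFieldFull N')
      ⟨cinstU H ↥K1 ⟨c0, hle h0⟩ ⟨c1, hle h1⟩, cinstU_mem H ↥K1 ha2 _ _⟩ =
      ⟨cinstU H Qb c0 c1, cinstU_mem H Qb ha2 c0 c1⟩ :=
    Subtype.ext (by rw [bcfHom_coe, cinstU_coeffMap]; rfl)
  have ht2 : bcfHom ↥K2 Qb (modularFunctionFieldFull N')
      ⟨cinstU H ↥K2 ⟨c0, h0⟩ ⟨c1, h1⟩, cinstU_mem H ↥K2 ha2 _ _⟩ =
      ⟨cinstU H Qb c0 c1, cinstU_mem H Qb ha2 c0 c1⟩ :=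
    Subtype.ext (by rw [bcfHom_coe, cinstU_coeffMap]; rfl)
  obtain ⟨b1, hb1, hb1int⟩ := hs _ ht1
  have hD' := fun i => hD _ ⟨cinstU H ↥K2 ⟨c0, h0⟩ ⟨c1, h1⟩, cinstU_mem H ↥K2 ha2 _ _⟩ rfl
    (ht1.trans ht2.symm) (b1 i) (hb1int i)
  choose x2 hx2int hx2 using hD'
  refine ⟨_, x2, ht2, hx2int, fun i => ?_⟩
  rw [← hb1 i]
  exact hx2 i

/-- **(BASE-OUT), one orientation.** -/
theorem s36bc_chart (N' : ℕ) [NeZero N'] {q : ℕ} [Fact q.Prime] (hqN' : ¬ q ∣ N') {a2 : ℕ}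
    (H : HauptRec a2 q) (ha2 : a2 ∣ N') (A : ValuationSubring Qb) (hA : A.LiesOverPrime q)
    (c0 c1 : Qb) (hc0 : c0 ∈ A) (hc1 : c1 ∈ A) (h01 : (c0 - c1)⁻¹ ∈ A) (hc : c0 ≠ c1)
    (hq0 : (Polynomial.aeval c0 H.Qrad)⁻¹ ∈ A) (hq0' : Polynomial.aeval c0 H.Qrad ≠ 0)
    (P : IntermediateField ℚ Qb → Prop)
    (hdec : ∀ T : Finset Qb, ∃ (K1 K2 : IntermediateField ℚ Qb) (h0 : c0 ∈ K2) (h1 : c1 ∈ K2),
      (∀ c ∈ T, c ∈ K1) ∧ K2 ≤ K1 ∧ P K2 ∧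
        s36bsDec N' hqN' A hA H K1 K2 ⟨c0, h0⟩ ⟨c1, h1⟩) :
    ∃ K2 : IntermediateField ℚ Qb, P K2 ∧ c0 ∈ K2 ∧ c1 ∈ K2 ∧
      ∀ (K0 : IntermediateField ℚ Qb)
        [IsDiscreteValuationRing ↥(A.comap (algebraMap ↥K0 Qb))], K2 ≤ K0 →
        ∀ (h0 : c0 ∈ K0) (h1 : c1 ∈ K0),
          cinstSMChart ↥K0 (A.comap (algebraMap ↥K0 Qb)) N' H ⟨c0, h0⟩ ⟨c1, h1⟩ ∧
          unrChart ↥K0 (A.comap (algebraMap ↥K0 Qb)) N' H
            ⟨⟨c0, h0⟩, ValuationSubring.mem_comap.mpr hc0⟩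
            ⟨⟨c1, h1⟩, ValuationSubring.mem_comap.mpr hc1⟩ := by
  classical
  obtain ⟨htV, b, hb, hbint, hli, hspan⟩ := smq_main N' hqN' H ha2 A hA c0 c1 hc0 hc1 h01 hc hq0
    hq0' ⟨cinstU H Qb c0 c1, cinstU_mem H Qb ha2 c0 c1⟩ rfl
  obtain ⟨T, hT⟩ := smib_main N' A _ b hbint
  obtain ⟨K1, K2, h0, h1, hTK1, hle, hP, hD⟩ := hdec T
  obtain ⟨t2, x2, ht2, hx2int, hnu⟩ := s36bc_family N' hqN' H ha2 A hA c0 c1 b K1 K2 h0 h1 hle hD
    (hT K1 hTK1)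
  refine ⟨K2, hP, h0, h1, fun K0 _ hK0 h0' h1' => ?_⟩
  have _algQ : Algebra.IsAlgebraic ℚ Qb := AlgebraicClosure.isAlgebraic ℚ
  have : Algebra.IsAlgebraic ↥K0 Qb := Algebra.IsAlgebraic.tower_top (K := ℚ) ↥K0
  obtain ⟨hQ', hres⟩ := s36bc_basis N' hqN' A hA _ b
    (fun i => bcfHom ↥K2 Qb (modularFunctionFieldFull N') (x2 i)) ⟨htV, hb, hli, hspan⟩ hnu
  have hdesc' : smibStmt ↥K0 A N' ⟨cinstU H Qb c0 c1, cinstU_mem H Qb ha2 c0 c1⟩
      (fun i => bcfHom ↥K2 Qb (modularFunctionFieldFull N') (x2 i)) := by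
    rw [← ht2]
    exact s36bc_smib N' A K2 K0 hK0 t2 x2 hx2int
  refine ⟨?_, ?_⟩
  · exact sminst_chart_stmt (K₀ := ↥K0) A hA N' hqN' H ⟨c0, h0'⟩ ⟨c1, h1'⟩ hc0 hc1
      (fun h => hc (congrArg Subtype.val h)) h01 _ rfl _ hQ' hdesc'
  · refine unr_chart_stmt (K₀ := ↥K0) A hA N' hqN' H ⟨c0, h0'⟩ ⟨c1, h1'⟩ hc0 hc1
      (fun h => hc (congrArg Subtype.val h)) h01 _ rfl _ hQ' hdesc'
      (fun htV' hb' π' hsep hcop a w haw => ?_)
    refine unr_smq N' hqN' H ha2 A hA c0 c1 hc0 hc1 h01 hc hq0 hq0' _ rfl htV' b hb hbint hli hspan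
      π' hsep hcop a w ?_
    have e1 : ∀ v : Fin (psi N' / psi a2) → (IsLocalRing.ResidueField A)[X],
        ∑ i, aeval (grRes A hA N' hqN' ⟨_, htV'⟩) (v i) * grRes A hA N' hqN' ⟨b i, hb i⟩ =
        ∑ i, aeval (grRes A hA N' hqN' ⟨_, htV'⟩) (v i) * grRes A hA N' hqN' ⟨_, hb' i⟩ :=
      fun v => Finset.sum_congr rfl fun i _ => by rw [hres hb hb' i]
    rw [e1 a, e1 w]
    exact haw

/-- **(BASE-OUT), both orientations.**  `P` is any property of subfields of `ℚ̄` stable under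
suprema (in the application: finite over `ℚ` and fixed by inertia). -/
theorem s36bc_both (N' : ℕ) [NeZero N'] {q : ℕ} [Fact q.Prime] (hqN' : ¬ q ∣ N') {a2 : ℕ}
    (H : HauptRec a2 q) (ha2 : a2 ∣ N') (A : ValuationSubring Qb) (hA : A.LiesOverPrime q)
    (c0 c1 : Qb) (hc0 : c0 ∈ A) (hc1 : c1 ∈ A) (h01 : (c0 - c1)⁻¹ ∈ A) (hc : c0 ≠ c1)
    (hq0 : (Polynomial.aeval c0 H.Qrad)⁻¹ ∈ A) (hq0' : Polynomial.aeval c0 H.Qrad ≠ 0)
    (hq1 : (Polynomial.aeval c1 H.Qrad)⁻¹ ∈ A) (hq1' : Polynomial.aeval c1 H.Qrad ≠ 0)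
    (P : IntermediateField ℚ Qb → Prop) (hP : ∀ K K', P K → P K' → P (K ⊔ K'))
    (hdec : ∀ T : Finset Qb, ∃ (K1 K2 : IntermediateField ℚ Qb) (h0 : c0 ∈ K2) (h1 : c1 ∈ K2),
      (∀ c ∈ T, c ∈ K1) ∧ K2 ≤ K1 ∧ P K2 ∧
        s36bsDec N' hqN' A hA H K1 K2 ⟨c0, h0⟩ ⟨c1, h1⟩)
    (hdec' : ∀ T : Finset Qb, ∃ (K1 K2 : IntermediateField ℚ Qb) (h1 : c1 ∈ K2) (h0 : c0 ∈ K2),
      (∀ c ∈ T, c ∈ K1) ∧ K2 ≤ K1 ∧ P K2 ∧
        s36bsDec N' hqN' A hA H K1 K2 ⟨c1, h1⟩ ⟨c0, h0⟩) :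
    ∃ K2 : IntermediateField ℚ Qb, P K2 ∧ c0 ∈ K2 ∧ c1 ∈ K2 ∧
      ∀ (K0 : IntermediateField ℚ Qb)
        [IsDiscreteValuationRing ↥(A.comap (algebraMap ↥K0 Qb))], K2 ≤ K0 →
        ∀ (h0 : c0 ∈ K0) (h1 : c1 ∈ K0),
          cinstSMChart ↥K0 (A.comap (algebraMap ↥K0 Qb)) N' H ⟨c0, h0⟩ ⟨c1, h1⟩ ∧
          cinstSMChart ↥K0 (A.comap (algebraMap ↥K0 Qb)) N' H ⟨c1, h1⟩ ⟨c0, h0⟩ ∧
          unrChart ↥K0 (A.comap (algebraMap ↥K0 Qb)) N' H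
            ⟨⟨c0, h0⟩, ValuationSubring.mem_comap.mpr hc0⟩
            ⟨⟨c1, h1⟩, ValuationSubring.mem_comap.mpr hc1⟩ ∧
          unrChart ↥K0 (A.comap (algebraMap ↥K0 Qb)) N' H
            ⟨⟨c1, h1⟩, ValuationSubring.mem_comap.mpr hc1⟩
            ⟨⟨c0, h0⟩, ValuationSubring.mem_comap.mpr hc0⟩ := by
  have h10 : (c1 - c0)⁻¹ ∈ A := by
    rw [← neg_sub, inv_neg]
    exact A.neg_mem _ h01
  obtain ⟨K2, hPK2, hc0K, hc1K, hK2⟩ := s36bc_chart N' hqN' H ha2 A hA c0 c1 hc0 hc1 h01 hc hq0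
    hq0' P hdec
  obtain ⟨K2', hPK2', -, -, hK2'⟩ := s36bc_chart N' hqN' H ha2 A hA c1 c0 hc1 hc0 h10 hc.symm hq1
    hq1' P hdec'
  refine ⟨K2 ⊔ K2', hP _ _ hPK2 hPK2', le_sup_left (a := K2) hc0K, le_sup_left (a := K2) hc1K,
    fun K0 _ hK0 h0 h1 => ?_⟩
  obtain ⟨hSM, hU⟩ := hK2 K0 (le_sup_left.trans hK0) h0 h1
  obtain ⟨hSM', hU'⟩ := hK2' K0 (le_sup_right.trans hK0) h1 h0
  exact ⟨hSM, hSM', hU, hU'⟩

end Fermat.Agent.S36
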