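import Mathlib
import Fermat.Agent.S36.BaseChart

/-!
# S36, family BASE: the chart inputs over the unramified fields, from the carrier statement of
BASE-DEC

* `s36biDec`: the carrier statement of BASE-DEC for all finite normal `K1` (the seam `s36bsDec`
  for the pair `K1`, `K2 = K1 ⊓ (ℚ̄)^I`).
* `s36bi_inputs_of_dec`: given it, for base points `c0, c1` fixed by inertia there is a number
  field `K2`, fixed by inertia, such that over EVERY subfield `K0 ⊇ K2` of `ℚ̄` with `A ∩ K0` a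
  DVR the four chart statements `cinstSMChart` / `unrChart` (both orientations) hold.
* `s36bi_hbase_of_dec`: the same in the shape of the hypothesis `hbase` of `s36ir_reduce_of_base`.
-/

set_option autoImplicit false
set_option linter.style.haveILetI false

noncomputable section

open ModularCurve Polynomial
open Fermat.Agent.S18 Fermat.Agent.S34 Fermat.Agent.S28

namespace Fermat.Agent.S36

local notation "Qb" => AlgebraicClosure ℚ

/-- The carrier statement of BASE-DEC: the seam `s36bsDec` for every finite normal `K1` and its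
inertia field `K2 = K1 ⊓ (ℚ̄)^I`. -/
def s36biDec (M : ℕ) [NeZero M] {q : ℕ} [Fact q.Prime] (hqM : ¬ q ∣ M)
    (A : ValuationSubring Qb) (hA : A.LiesOverPrime q) {a2 : ℕ} (H : HauptRec a2 q) : Prop :=
  ∀ (K1 : IntermediateField ℚ Qb) [FiniteDimensional ℚ K1] [Normal ℚ K1]
    (c0 c1 : ↥(K1 ⊓ IntermediateField.fixedField (A.inertiaSubgroupIn ℚ))),
    (c0 : Qb) ∈ A → (c1 : Qb) ∈ A → smi2U A ((c0 : Qb) - (c1 : Qb)) →
    s36bsDec M hqM A hA H K1 (K1 ⊓ IntermediateField.fixedField (A.inertiaSubgroupIn ℚ)) c0 c1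

/-- a finite normal subfield of `ℚ̄` containing a given finite set and two given elements -/
theorem s36bi_exists_normal (T : Finset Qb) (c0 c1 : Qb) :
    ∃ K1 : IntermediateField ℚ Qb, FiniteDimensional ℚ K1 ∧ Normal ℚ K1 ∧
      (∀ c ∈ T, c ∈ K1) ∧ c0 ∈ K1 ∧ c1 ∈ K1 := by
  classical
  have halg : Algebra.IsAlgebraic ℚ Qb := AlgebraicClosure.isAlgebraic ℚ
  have hac : IsAlgClosure ℚ Qb := ⟨inferInstance, inferInstance⟩
  have hnQb : Normal ℚ Qb := IsAlgClosure.normal ℚ Qb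
  have hfd : FiniteDimensional ℚ
      (IntermediateField.adjoin ℚ ((↑(insert c0 (insert c1 T)) : Set Qb))) :=
    IntermediateField.finiteDimensional_adjoin (fun x _ => (halg.isAlgebraic x).isIntegral)
  refine ⟨IntermediateField.normalClosure ℚ
      (IntermediateField.adjoin ℚ ((↑(insert c0 (insert c1 T)) : Set Qb))) Qb,
    normalClosure.is_finiteDimensional ℚ _ Qb, normalClosure.normal ℚ _ Qb, fun c hc => ?_, ?_, ?_⟩
  · exact IntermediateField.le_normalClosure _ (IntermediateField.subset_adjoin ℚ _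
      (by simp [hc]))
  · exact IntermediateField.le_normalClosure _ (IntermediateField.subset_adjoin ℚ _ (by simp))
  · exact IntermediateField.le_normalClosure _ (IntermediateField.subset_adjoin ℚ _ (by simp))

/-- **The chart inputs over the fields containing the inertia field**, from the carrier
statement of BASE-DEC. -/
theorem s36bi_inputs_of_dec (M q : ℕ) [NeZero M] [hq : Fact q.Prime] (hM : ¬ q ∣ M) {a2 : ℕ}
    (H : HauptRec a2 q) (ha2 : a2 ∣ M) (A : ValuationSubring Qb) (hA : A.LiesOverPrime q)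
    (hDEC : s36biDec M hM A hA H)
    (c0 c1 : Qb) (hc0 : c0 ∈ A) (hc1 : c1 ∈ A) (h01 : smi2U A (c0 - c1))
    (hQ0 : smi2U A (aeval c0 H.Qrad)) (hQ1 : smi2U A (aeval c1 H.Qrad))
    (hI0 : ∀ σ ∈ A.inertiaSubgroupIn ℚ, σ c0 = c0)
    (hI1 : ∀ σ ∈ A.inertiaSubgroupIn ℚ, σ c1 = c1) :
    ∃ K2 : IntermediateField ℚ Qb, (FiniteDimensional ℚ K2 ∧
        ∀ x ∈ K2, ∀ σ ∈ A.inertiaSubgroupIn ℚ, σ x = x) ∧ c0 ∈ K2 ∧ c1 ∈ K2 ∧
      ∀ (K0 : IntermediateField ℚ Qb)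
        [IsDiscreteValuationRing ↥(A.comap (algebraMap ↥K0 Qb))], K2 ≤ K0 →
        ∀ (h0 : c0 ∈ K0) (h1 : c1 ∈ K0),
          cinstSMChart ↥K0 (A.comap (algebraMap ↥K0 Qb)) M H ⟨c0, h0⟩ ⟨c1, h1⟩ ∧
          cinstSMChart ↥K0 (A.comap (algebraMap ↥K0 Qb)) M H ⟨c1, h1⟩ ⟨c0, h0⟩ ∧
          unrChart ↥K0 (A.comap (algebraMap ↥K0 Qb)) M H
            ⟨⟨c0, h0⟩, ValuationSubring.mem_comap.mpr hc0⟩
            ⟨⟨c1, h1⟩, ValuationSubring.mem_comap.mpr hc1⟩ ∧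
          unrChart ↥K0 (A.comap (algebraMap ↥K0 Qb)) M H
            ⟨⟨c1, h1⟩, ValuationSubring.mem_comap.mpr hc1⟩
            ⟨⟨c0, h0⟩, ValuationSubring.mem_comap.mpr hc0⟩ := by
  classical
  have hne : c0 ≠ c1 := sub_ne_zero.mp h01.2.1
  have h10 : smi2U A (c1 - c0) := by
    refine ⟨A.sub_mem hc1 hc0, sub_ne_zero.mpr hne.symm, ?_⟩
    rw [← neg_sub c0 c1, inv_neg]
    exact A.neg_mem _ h01.2.2
  -- the property carried along
  have hPsup : ∀ K K' : IntermediateField ℚ Qb,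
      (FiniteDimensional ℚ K ∧ ∀ x ∈ K, ∀ σ ∈ A.inertiaSubgroupIn ℚ, σ x = x) →
      (FiniteDimensional ℚ K' ∧ ∀ x ∈ K', ∀ σ ∈ A.inertiaSubgroupIn ℚ, σ x = x) →
      (FiniteDimensional ℚ ↥(K ⊔ K') ∧ ∀ x ∈ K ⊔ K', ∀ σ ∈ A.inertiaSubgroupIn ℚ, σ x = x) := by
    rintro K K' ⟨hf, hK⟩ ⟨hf', hK'⟩
    refine ⟨IntermediateField.finiteDimensional_sup K K', fun x hx σ hσ => ?_⟩
    have hle : K ⊔ K' ≤ IntermediateField.fixedField (A.inertiaSubgroupIn ℚ) :=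
      sup_le (fun y hy => (IntermediateField.mem_fixedField_iff _ _).mpr fun f hf => hK y hy f hf)
        (fun y hy => (IntermediateField.mem_fixedField_iff _ _).mpr fun f hf => hK' y hy f hf)
    exact (IntermediateField.mem_fixedField_iff _ _).mp (hle hx) σ hσ
  -- the seam for the two orientations
  have hdec : ∀ (d0 d1 : Qb), d0 ∈ A → d1 ∈ A → smi2U A (d0 - d1) →
      (∀ σ ∈ A.inertiaSubgroupIn ℚ, σ d0 = d0) → (∀ σ ∈ A.inertiaSubgroupIn ℚ, σ d1 = d1) →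
      ∀ T : Finset Qb, ∃ (K1 K2 : IntermediateField ℚ Qb) (h0 : d0 ∈ K2) (h1 : d1 ∈ K2),
        (∀ c ∈ T, c ∈ K1) ∧ K2 ≤ K1 ∧
        (FiniteDimensional ℚ K2 ∧ ∀ x ∈ K2, ∀ σ ∈ A.inertiaSubgroupIn ℚ, σ x = x) ∧
          s36bsDec M hM A hA H K1 K2 ⟨d0, h0⟩ ⟨d1, h1⟩ := by
    intro d0 d1 hd0 hd1 hd01 hJ0 hJ1 T
    obtain ⟨K1, hfd, hn, hT, h0, h1⟩ := s36bi_exists_normal T d0 d1
    have h0' : d0 ∈ K1 ⊓ IntermediateField.fixedField (A.inertiaSubgroupIn ℚ) :=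
      ⟨h0, (IntermediateField.mem_fixedField_iff _ _).mpr fun f hf => hJ0 f hf⟩
    have h1' : d1 ∈ K1 ⊓ IntermediateField.fixedField (A.inertiaSubgroupIn ℚ) :=
      ⟨h1, (IntermediateField.mem_fixedField_iff _ _).mpr fun f hf => hJ1 f hf⟩
    refine ⟨K1, K1 ⊓ IntermediateField.fixedField (A.inertiaSubgroupIn ℚ), h0', h1', hT,
      inf_le_left, ⟨?_, fun x hx σ hσ => ?_⟩, hDEC K1 ⟨d0, h0'⟩ ⟨d1, h1'⟩ hd0 hd1 hd01⟩
    · exact FiniteDimensional.of_injective (IntermediateField.inclusion (inf_le_left :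
        K1 ⊓ IntermediateField.fixedField (A.inertiaSubgroupIn ℚ) ≤ K1)).toLinearMap
        (IntermediateField.inclusion_injective (inf_le_left :
          K1 ⊓ IntermediateField.fixedField (A.inertiaSubgroupIn ℚ) ≤ K1))
    · exact (IntermediateField.mem_fixedField_iff _ _).mp hx.2 σ hσ
  exact s36bc_both M hM H ha2 A hA c0 c1 hc0 hc1 h01.2.2 hne hQ0.2.2 hQ0.2.1 hQ1.2.2 hQ1.2.1
    (fun K => FiniteDimensional ℚ K ∧ ∀ x ∈ K, ∀ σ ∈ A.inertiaSubgroupIn ℚ, σ x = x) hPsup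
    (hdec c0 c1 hc0 hc1 h01 hI0 hI1) (hdec c1 c0 hc1 hc0 h10 hI1 hI0)

/-- The same, in the shape of the hypothesis `hbase` of `s36ir_reduce_of_base`. -/
theorem s36bi_hbase_of_dec (M q : ℕ) [NeZero M] [hq : Fact q.Prime] (hM : ¬ q ∣ M) {a2 : ℕ}
    (H : HauptRec a2 q) (ha2 : a2 ∣ M) (A : ValuationSubring Qb) (hA : A.LiesOverPrime q)
    (hDEC : s36biDec M hM A hA H) :
    ∀ (c0 c1 : Qb) (hc0 : c0 ∈ A) (hc1 : c1 ∈ A), smi2U A (c0 - c1) →
      smi2U A (aeval c0 H.Qrad) → smi2U A (aeval c1 H.Qrad) →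
      (∀ σ ∈ A.inertiaSubgroupIn ℚ, σ c0 = c0) → (∀ σ ∈ A.inertiaSubgroupIn ℚ, σ c1 = c1) →
      ∃ K2 : IntermediateField ℚ Qb, FiniteDimensional ℚ K2 ∧
        (∀ x ∈ K2, ∀ σ ∈ A.inertiaSubgroupIn ℚ, σ x = x) ∧
        ∀ (K0 : IntermediateField ℚ Qb) [FiniteDimensional ℚ K0]
          [IsDiscreteValuationRing ↥(A.comap (algebraMap ↥K0 Qb))], K2 ≤ K0 →
          (∀ x ∈ K0, ∀ σ ∈ A.inertiaSubgroupIn ℚ, σ x = x) → ∀ (h0 : c0 ∈ K0) (h1 : c1 ∈ K0),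
          cinstSMChart ↥K0 (A.comap (algebraMap ↥K0 Qb)) M H ⟨c0, h0⟩ ⟨c1, h1⟩ ∧
          cinstSMChart ↥K0 (A.comap (algebraMap ↥K0 Qb)) M H ⟨c1, h1⟩ ⟨c0, h0⟩ ∧
          unrChart ↥K0 (A.comap (algebraMap ↥K0 Qb)) M H
            ⟨⟨c0, h0⟩, ValuationSubring.mem_comap.mpr hc0⟩
            ⟨⟨c1, h1⟩, ValuationSubring.mem_comap.mpr hc1⟩ ∧
          unrChart ↥K0 (A.comap (algebraMap ↥K0 Qb)) M H
            ⟨⟨c1, h1⟩, ValuationSubring.mem_comap.mpr hc1⟩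
            ⟨⟨c0, h0⟩, ValuationSubring.mem_comap.mpr hc0⟩ := by
  intro c0 c1 hc0 hc1 h01 hQ0 hQ1 hI0 hI1
  obtain ⟨K2, ⟨hfd, hfix⟩, -, -, hK2⟩ := s36bi_inputs_of_dec M q hM H ha2 A hA hDEC c0 c1 hc0 hc1
    h01 hQ0 hQ1 hI0 hI1
  exact ⟨K2, hfd, hfix, fun K0 _ _ hle _ h0 h1 => hK2 K0 hle h0 h1⟩

end Fermat.Agent.S36
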