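import Mathlib
import Fermat.Prelude.Def_FLTPrelim_Ramification

/-!
# S36 [BASE-U], part (F): the inertia field is unramified (finite level)

* `s36bf_inertiaField_ramificationIdx_eq`: in the AKLB setup with `L/K` Galois, the prime of the
  inertia field `E` of `P` below `P` has ramification index one over the base (the inertia-field
  companion of Mathlib's `IsDecompositionField.ramificationIdx_eq`; the cardinality of the
  inertia group is the ramification index, applied to `L/K` and to `L/E`, and multiplicativity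
  in towers).
* `s36bf_unram_elt`: elementwise form of "ramification index one" over `ℤ`.
* `s36bf_nf`: the number-field instance (`K = ℚ`, `E` the fixed field of the inertia group).
* `s36bf_fin` (the statement (F) of the BASE-U contract): for `N ⊆ ℚ̄` finite normal over `ℚ` and
  a valuation subring `A` of `ℚ̄` over `q`, an element `x ∈ N ∩ 𝔪_A` fixed by every automorphism
  of `ℚ̄` acting trivially modulo `𝔪_A` on the integers of `N` satisfies `x / q ∈ A`.
-/

set_option autoImplicit false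

open MulAction Pointwise Ideal NumberField

namespace Fermat.Agent.S36

section

variable (A K L : Type*) {B : Type*} [Field K] [Field L] [Algebra K L] [CommRing A] [CommRing B]
  [Algebra A B] {p : Ideal A} (P : Ideal B) [P.LiesOver p]

variable [Algebra A K] [IsFractionRing A K] [Algebra A L] [IsScalarTower A K L] [Algebra B L]
  [IsScalarTower A B L] [IsFractionRing B L] [MulSemiringAction Gal(L/K) B]
  [SMulDistribClass Gal(L/K) B L]

variable (E 𝓞E : Type*) [Field E] [Algebra E L] [IsInertiaField K L P E] [CommRing 𝓞E]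
  [Algebra 𝓞E E] [IsFractionRing 𝓞E E] [Algebra 𝓞E B] [Algebra 𝓞E L] [IsScalarTower 𝓞E E L]
  [IsScalarTower 𝓞E B L] (𝓟E : Ideal 𝓞E) [hE : P.LiesOver 𝓟E]

variable [IsGalois K L] [IsDedekindDomain A] [IsDedekindDomain B] [Module.Finite A B]
  [Module.IsTorsionFree A B] [Algebra A 𝓞E] [Module.Finite A 𝓞E] [IsScalarTower A 𝓞E B]
  [IsDedekindDomain 𝓞E] [𝓟E.LiesOver p]

variable [FiniteDimensional K L] [Ring.HasFiniteQuotients A] [𝓟E.IsMaximal] [P.IsMaximal]

include K L E P in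
/-- The prime of the inertia field below `P` is unramified over the base. -/
theorem s36bf_inertiaField_ramificationIdx_eq (hp : p ≠ ⊥) :
    𝓟E.ramificationIdx A = 1 := by
  have inst₁ : Module.Finite 𝓞E B := Module.Finite.right A 𝓞E B
  have inst₂ : Module.IsTorsionFree 𝓞E B := by
    rw [Module.isTorsionFree_iff_faithfulSMul]
    apply Algebra.IsAlgebraic.faithfulSMul_tower_top A
  have inst₃ : Module.IsTorsionFree A 𝓞E := Module.IsTorsionFree.of_faithfulSMul _ _ B
  have inst₄ : IsGaloisGroup Gal(L/K) A B := .of_isFractionRing _ _ _ K L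
  have inst₅ : IsGaloisGroup (inertia Gal(L/K) P) 𝓞E B := .of_isFractionRing _ _ _ E L
  have h𝓟 : 𝓟E ≠ ⊥ := Ideal.ne_bot_of_liesOver_of_ne_bot hp 𝓟E
  have : p.IsMaximal := over_def P p ▸ Ideal.IsMaximal.under A P
  have : Finite (A ⧸ p) := Ring.HasFiniteQuotients.finiteQuotient hp
  have h1 : Nat.card (inertia Gal(L/K) P) = p.ramificationIdxIn B :=
    card_inertia_eq_ramificationIdxIn p P
  have : Ring.HasFiniteQuotients 𝓞E := Ring.HasFiniteQuotients.of_module_finite A 𝓞E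
  have : Finite (𝓞E ⧸ 𝓟E) := Ring.HasFiniteQuotients.finiteQuotient h𝓟
  have h2 : Nat.card (P.inertia (inertia Gal(L/K) P)) = 𝓟E.ramificationIdxIn B :=
    card_inertia_eq_ramificationIdxIn 𝓟E P
  have h3 : P.inertia (inertia Gal(L/K) P) = ⊤ := by
    ext σ
    simp only [Subgroup.mem_top, iff_true]
    intro x
    exact σ.2 x
  rw [h3, Subgroup.card_top, h1] at h2
  have := ramificationIdx_tower (R := A) 𝓟E P
  rwa [← ramificationIdxIn_eq_ramificationIdx 𝓟E P (inertia Gal(L/K) P),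
    ← h2, ramificationIdxIn_eq_ramificationIdx p P Gal(L/K),
    right_eq_mul₀ <| (ramificationIdx_pos P A).ne'] at this

end

/-- Elementwise form of "ramification index one" in a Dedekind domain over `ℤ`. -/
theorem s36bf_unram_elt {R : Type*} [CommRing R] [IsDedekindDomain R] [Module.IsTorsionFree ℤ R]
    (𝔭 : Ideal R) [𝔭.IsPrime] (q : ℕ) (hq : q ≠ 0) [h𝔭q : 𝔭.LiesOver (Ideal.span {(q : ℤ)})]
    (he : 𝔭.ramificationIdx ℤ = 1) :
    ∃ j : R, j ∉ 𝔭 ∧ ∀ a ∈ 𝔭, ∃ b : R, a * j = (q : R) * b := by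
  have hp : (Ideal.span {(q : ℤ)}) ≠ ⊥ := by simp [hq]
  have he' : (Ideal.span {(q : ℤ)}).ramificationIdx' 𝔭 = 1 := by
    rw [ramificationIdx'_eq_ramificationIdx _ _ hp]; exact he
  have hmap : (Ideal.span {(q : ℤ)}).map (algebraMap ℤ R) = Ideal.span {(q : R)} := by
    rw [Ideal.map_span, Set.image_singleton]; simp
  have hle1 : Ideal.span {(q : R)} ≤ 𝔭 := by
    rw [← hmap]
    exact Ideal.map_le_of_le_comap (𝔭.over_def (Ideal.span {(q : ℤ)})).le
  have hnle2 : ¬ Ideal.span {(q : R)} ≤ 𝔭 ^ 2 := by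
    intro hle
    rw [← hmap] at hle
    by_cases hb : ∃ n, ∀ k, (Ideal.span {(q : ℤ)}).map (algebraMap ℤ R) ≤ 𝔭 ^ k → k ≤ n
    · classical
      rw [ramificationIdx'_eq_find hb] at he'
      have := Nat.find_spec hb 2 hle
      omega
    · push Not at hb
      rw [ramificationIdx'_eq_zero hb] at he'
      exact zero_ne_one he'
  obtain ⟨J, hJ⟩ := Ideal.dvd_iff_le.mpr hle1
  have hJ' : ¬ J ≤ 𝔭 := by
    intro hJle
    apply hnle2
    rw [hJ, pow_two]
    exact Ideal.mul_mono_right hJle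
  obtain ⟨j, hjJ, hj⟩ := SetLike.not_le_iff_exists.mp hJ'
  refine ⟨j, hj, fun a ha => ?_⟩
  have : a * j ∈ Ideal.span {(q : R)} := by
    rw [hJ]; exact Ideal.mul_mem_mul ha hjJ
  obtain ⟨b, hb⟩ := Ideal.mem_span_singleton'.mp this
  exact ⟨b, by rw [← hb, mul_comm]⟩

/-- Number-field form: the prime below `P` in the inertia field of `P` is unramified over `ℚ`. -/
theorem s36bf_nf (L : Type*) [Field L] [NumberField L] [IsGalois ℚ L] (P : Ideal (𝓞 L))
    [P.IsMaximal] (q : ℕ) (hq : q.Prime) (hqP : (q : 𝓞 L) ∈ P) :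
    ∃ j : 𝓞 (FixedPoints.intermediateField (inertia Gal(L/ℚ) P) : IntermediateField ℚ L),
      j ∉ P.under (𝓞 (FixedPoints.intermediateField (inertia Gal(L/ℚ) P) : IntermediateField ℚ L)) ∧
      ∀ a ∈ P.under (𝓞 (FixedPoints.intermediateField (inertia Gal(L/ℚ) P) : IntermediateField ℚ L)),
        ∃ b, a * j = (q : 𝓞 (FixedPoints.intermediateField (inertia Gal(L/ℚ) P) : IntermediateField ℚ L)) * b := by
  set E : IntermediateField ℚ L := FixedPoints.intermediateField (inertia Gal(L/ℚ) P) with hE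
  have hp : (Ideal.span {(q : ℤ)}) ≠ ⊥ := by
    simp [hq.ne_zero]
  have hPq : P.LiesOver (Ideal.span {(q : ℤ)}) :=
    (Ideal.liesOver_span_iff (P := P) Ideal.IsPrime.ne_top' (Nat.prime_iff_prime_int.mp hq)).mpr
      (by simpa using hqP)
  have h𝓟q : (P.under (𝓞 E)).LiesOver (Ideal.span {(q : ℤ)}) := inferInstance
  have hmax : (P.under (𝓞 E)).IsMaximal := inferInstance
  have he : (P.under (𝓞 E)).ramificationIdx ℤ = 1 :=
    s36bf_inertiaField_ramificationIdx_eq ℤ ℚ L P E (𝓞 E) (P.under (𝓞 E)) hp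
  exact s36bf_unram_elt (P.under (𝓞 E)) q hq.ne_zero he


/-- Integral elements of `ℚ̄` lie in every valuation subring. -/
theorem s36bf_int_mem (A : ValuationSubring (AlgebraicClosure ℚ)) (y : AlgebraicClosure ℚ)
    (hy : IsIntegral ℤ y) : y ∈ A := by
  have hy' : IsIntegral A y := hy.tower_top
  obtain ⟨z, hz⟩ := IsIntegrallyClosed.isIntegral_iff.mp hy'
  rw [← hz]; exact z.2

/-- A non-unit times an element of a valuation subring is a non-unit. -/
theorem s36bf_nu_mul {K : Type*} [Field K] (A : ValuationSubring K) {u v : K}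
    (hu : u ∈ A.nonunits) (hv : v ∈ A) : u * v ∈ A.nonunits := by
  rw [ValuationSubring.mem_nonunits_iff_exists_mem_maximalIdeal] at hu ⊢
  obtain ⟨hu1, hu2⟩ := hu
  exact ⟨A.mul_mem _ _ hu1 hv, Ideal.mul_mem_right (⟨v, hv⟩ : A) _ hu2⟩

/-- An element of a valuation subring which is not a non-unit has its inverse in it. -/
theorem s36bf_inv_mem {K : Type*} [Field K] (A : ValuationSubring K) {u : K}
    (hu : u ∉ A.nonunits) : u⁻¹ ∈ A := by
  by_contra h
  exact hu ((ValuationSubring.mem_nonunits_iff_or A).mpr (Or.inr h))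

/-- **BASE-U, finite level.** Let `N ⊆ ℚ̄` be finite and normal over `ℚ`, `A` a valuation
subring of `ℚ̄` over the prime `q`. An element `x ∈ N ∩ 𝔪_A` fixed by every automorphism which is
trivial modulo `𝔪_A` on the integers of `N` satisfies `x / q ∈ A`. -/
theorem s36bf_fin (q : ℕ) (hq : q.Prime) (A : ValuationSubring (AlgebraicClosure ℚ))
    (hA : A.LiesOverPrime q) (N : IntermediateField ℚ (AlgebraicClosure ℚ))
    [FiniteDimensional ℚ N] [Normal ℚ N] (x : AlgebraicClosure ℚ) (hxN : x ∈ N)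
    (hfix : ∀ τ : AlgebraicClosure ℚ ≃ₐ[ℚ] AlgebraicClosure ℚ,
      (∀ y ∈ N, IsIntegral ℤ y → τ y - y ∈ A.nonunits) → τ x = x)
    (hx : x ∈ A.nonunits) : x / (q : AlgebraicClosure ℚ) ∈ A := by
  classical
  have : NumberField N := { to_charZero := inferInstance, to_finiteDimensional := inferInstance }
  have : IsGalois ℚ N := isGalois_iff.mpr ⟨inferInstance, inferInstance⟩
  have : Algebra.IsAlgebraic ℚ (AlgebraicClosure ℚ) := AlgebraicClosure.isAlgebraic ℚ
  have : IsAlgClosure ℚ (AlgebraicClosure ℚ) := ⟨inferInstance, inferInstance⟩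
  have hnQb : Normal ℚ (AlgebraicClosure ℚ) := IsAlgClosure.normal ℚ (AlgebraicClosure ℚ)
  -- the prime of `𝓞 N` below `A`
  have hintN : ∀ b : 𝓞 N, algebraMap N (AlgebraicClosure ℚ) (b : N) ∈ A := fun b =>
    s36bf_int_mem A _ ((RingOfIntegers.isIntegral_coe b).map
      (IsScalarTower.toAlgHom ℤ N (AlgebraicClosure ℚ)))
  let φ : 𝓞 N →+* A :=
    ((algebraMap N (AlgebraicClosure ℚ)).comp (algebraMap (𝓞 N) N)).codRestrict A.toSubring hintN
  let P : Ideal (𝓞 N) := (IsLocalRing.maximalIdeal A).comap φ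
  have hPmem : ∀ b : 𝓞 N, b ∈ P ↔ algebraMap N (AlgebraicClosure ℚ) (b : N) ∈ A.nonunits := by
    intro b
    rw [ValuationSubring.mem_nonunits_iff_exists_mem_maximalIdeal]
    constructor
    · intro h; exact ⟨hintN b, h⟩
    · rintro ⟨_, h⟩; exact h
  have hPprime : P.IsPrime := Ideal.comap_isPrime φ _
  have hqP : (q : 𝓞 N) ∈ P := by
    rw [hPmem]
    have : algebraMap N (AlgebraicClosure ℚ) (((q : 𝓞 N) : 𝓞 N) : N) = (q : AlgebraicClosure ℚ) := by
      simp
    rw [this]; exact hA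
  have hPne : P ≠ ⊥ := by
    intro hbot
    rw [hbot, Ideal.mem_bot] at hqP
    have : (q : 𝓞 N) ≠ 0 := Nat.cast_ne_zero.mpr hq.ne_zero
    exact this hqP
  have hPmax : P.IsMaximal := hPprime.isMaximal hPne
  -- the inertia field
  let E : IntermediateField ℚ N := FixedPoints.intermediateField (inertia Gal(N/ℚ) P)
  -- `x` lies in the inertia field
  have hxE : (⟨x, hxN⟩ : N) ∈ E := by
    show (⟨x, hxN⟩ : N) ∈ (FixedPoints.intermediateField (inertia Gal(N/ℚ) P) : IntermediateField ℚ N)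
    rw [FixedPoints.mem_intermediateField_iff]
    rintro ⟨σ, hσ⟩
    have hσ' : ∀ b : 𝓞 N, σ • b - b ∈ P := hσ
    have key := hfix (σ.liftNormal (AlgebraicClosure ℚ)) (by
      intro y hyN hyint
      have hyint' : IsIntegral ℤ (⟨y, hyN⟩ : N) := by
        have : IsIntegral ℤ (algebraMap N (AlgebraicClosure ℚ) ⟨y, hyN⟩) := hyint
        exact (isIntegral_algebraMap_iff (FaithfulSMul.algebraMap_injective N (AlgebraicClosure ℚ))).mp this
      let b : 𝓞 N := ⟨⟨y, hyN⟩, hyint'⟩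
      have h1 := (hPmem (σ • b - b)).mp (hσ' b)
      have h2 : σ.liftNormal (AlgebraicClosure ℚ) y = algebraMap N (AlgebraicClosure ℚ) (σ ⟨y, hyN⟩) :=
        σ.liftNormal_commutes (AlgebraicClosure ℚ) ⟨y, hyN⟩
      rw [h2]
      have h3 : algebraMap N (AlgebraicClosure ℚ) (((σ • b - b : 𝓞 N)) : N)
          = algebraMap N (AlgebraicClosure ℚ) (σ ⟨y, hyN⟩) - y := by
        have h4 : ((σ • b - b : 𝓞 N) : N) = σ ⟨y, hyN⟩ - ⟨y, hyN⟩ := rfl
        rw [h4, map_sub]
        rfl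
      rw [← h3]; exact h1)
    have h2 : σ.liftNormal (AlgebraicClosure ℚ) x = algebraMap N (AlgebraicClosure ℚ) (σ ⟨x, hxN⟩) :=
      σ.liftNormal_commutes (AlgebraicClosure ℚ) ⟨x, hxN⟩
    rw [h2] at key
    apply (FaithfulSMul.algebraMap_injective N (AlgebraicClosure ℚ))
    exact key
  -- unramifiedness of the inertia field
  obtain ⟨j, hj, hunr⟩ : ∃ j : 𝓞 E, j ∉ P.under (𝓞 E) ∧ ∀ a ∈ P.under (𝓞 E),
      ∃ b, a * j = (q : 𝓞 E) * b := s36bf_nf N P q hq hqP
  -- the embedding of the inertia field and its integers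
  let ι' : E →+* AlgebraicClosure ℚ := (algebraMap N (AlgebraicClosure ℚ)).comp (algebraMap E N)
  have hF1 : ∀ c : 𝓞 E, c ∈ P.under (𝓞 E) ↔ ι' (c : E) ∈ A.nonunits := by
    intro c
    rw [Ideal.under_def, Ideal.mem_comap, hPmem]
    rfl
  have hF2 : ∀ c : 𝓞 E, ι' (c : E) ∈ A := by
    intro c
    have h1 : IsIntegral ℤ (c : E) := RingOfIntegers.isIntegral_coe c
    exact s36bf_int_mem A _ (h1.map ((IsScalarTower.toAlgHom ℤ N (AlgebraicClosure ℚ)).comp
      (IsScalarTower.toAlgHom ℤ E N)))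
  have hF3 : ι' (⟨⟨x, hxN⟩, hxE⟩ : E) = x := rfl
  have h𝓟ne : P.under (𝓞 E) ≠ ⊥ := by
    intro hbot
    have h1 : (q : 𝓞 E) ∈ P.under (𝓞 E) := by
      rw [hF1]
      have : ι' (((q : 𝓞 E) : 𝓞 E) : E) = (q : AlgebraicClosure ℚ) := by simp
      rw [this]; exact hA
    rw [hbot, Ideal.mem_bot] at h1
    exact (Nat.cast_ne_zero.mpr hq.ne_zero : (q : 𝓞 E) ≠ 0) h1
  let v : IsDedekindDomain.HeightOneSpectrum (𝓞 E) := ⟨P.under (𝓞 E), inferInstance, h𝓟ne⟩
  obtain ⟨n, d, hnd⟩ := v.exists_primeCompl_mul_eq_or_mul_eq (K := E) (⟨⟨x, hxN⟩, hxE⟩ : E)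
  have hd : ι' ((d : 𝓞 E) : E) ∉ A.nonunits := fun h => d.2 ((hF1 _).mpr h)
  rcases hnd with hnd | hnd
  · have h1 : x * ι' ((d : 𝓞 E) : E) = ι' (n : E) := by
      rw [← hF3, ← map_mul]; exact congrArg ι' hnd
    have hn : n ∈ P.under (𝓞 E) := by
      rw [hF1, ← h1]
      exact s36bf_nu_mul A hx (hF2 _)
    obtain ⟨b, hb⟩ := hunr n hn
    have h2 : ι' (n : E) * ι' (j : E) = (q : AlgebraicClosure ℚ) * ι' (b : E) := by
      have := congrArg (fun z : 𝓞 E => ι' (z : E)) hb
      simpa using this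
    have hjA : ι' (j : E) ∉ A.nonunits := fun h => hj ((hF1 _).mpr h)
    have hd0 : ι' ((d : 𝓞 E) : E) ≠ 0 := fun h => hd (h ▸ A.nonunits.zero_mem)
    have hj0 : ι' (j : E) ≠ 0 := fun h => hjA (h ▸ A.nonunits.zero_mem)
    have hq0 : (q : AlgebraicClosure ℚ) ≠ 0 := Nat.cast_ne_zero.mpr hq.ne_zero
    have h3 : x / (q : AlgebraicClosure ℚ)
        = ι' (b : E) * (ι' ((d : 𝓞 E) : E))⁻¹ * (ι' (j : E))⁻¹ := by
      field_simp
      linear_combination ι' (j : E) * h1 + h2
    rw [h3]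
    exact A.mul_mem _ _ (A.mul_mem _ _ (hF2 b) (s36bf_inv_mem A hd)) (s36bf_inv_mem A hjA)
  · exfalso
    have h1 : x * ι' (n : E) = ι' ((d : 𝓞 E) : E) := by
      rw [← hF3, ← map_mul]; exact congrArg ι' hnd
    exact hd (h1 ▸ s36bf_nu_mul A hx (hF2 _))

end Fermat.Agent.S36
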