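import Mathlib
import Fermat.Prelude.Def_FLTPrelim_Ramification

/-!
# S36 [BASE-U]: a valuation subring of `ℚ̄` is the localisation of the algebraic integers

`s36bl_frac`: every element `a` of a valuation subring `A` of `ℚ̄` lying in a number field
`K0 ⊆ ℚ̄` is `b / s` with `b, s ∈ K0` algebraic integers and `s` a unit of `A`.
-/

set_option autoImplicit false

open NumberField IsDedekindDomain

namespace Fermat.Agent.S36

/-- algebraic integers lie in every valuation subring -/
theorem s36bl_int_mem {K : Type*} [Field K] (A : ValuationSubring K) (x : K)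
    (hx : IsIntegral ℤ x) : x ∈ A := by
  have hx' : IsIntegral A x := hx.tower_top
  obtain ⟨y, hy⟩ := IsIntegrallyClosed.isIntegral_iff.mp hx'
  rw [← hy]; exact y.2

/-- nonunits of a valuation subring form an ideal -/
theorem s36bl_nonunits_mul {K : Type*} [Field K] (A : ValuationSubring K) {x y : K}
    (hx : x ∈ A.nonunits) (hy : y ∈ A) : x * y ∈ A.nonunits := by
  rw [ValuationSubring.mem_nonunits_iff] at hx ⊢
  rw [map_mul]
  have hy' : A.valuation y ≤ 1 := (A.valuation_le_one_iff y).mpr hy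
  exact mul_lt_one_of_lt_of_le hx hy'

/-- every element of a valuation subring `A` of `ℚ̄` lying in a number field `K0` is a quotient
`b / s` of algebraic integers of `K0` with `s` a unit of `A` -/
theorem s36bl_frac (A : ValuationSubring (AlgebraicClosure ℚ))
    (K0 : IntermediateField ℚ (AlgebraicClosure ℚ)) [FiniteDimensional ℚ K0]
    (a : AlgebraicClosure ℚ) (haK : a ∈ K0) (ha : a ∈ A) :
    ∃ b s : AlgebraicClosure ℚ, b ∈ K0 ∧ s ∈ K0 ∧ IsIntegral ℤ b ∧ IsIntegral ℤ s ∧
      s ∉ A.nonunits ∧ s ≠ 0 ∧ a * s = b := by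
  classical
  have : NumberField K0 := { to_charZero := inferInstance, to_finiteDimensional := inferInstance }
  -- the embedding of the ring of integers
  let ι : 𝓞 K0 →+* AlgebraicClosure ℚ :=
    (algebraMap K0 (AlgebraicClosure ℚ)).comp (algebraMap (𝓞 K0) K0)
  have hιK : ∀ x : 𝓞 K0, ι x ∈ K0 := fun x => (algebraMap (𝓞 K0) K0 x).2
  have hιint : ∀ x : 𝓞 K0, IsIntegral ℤ (ι x) := fun x =>
    (RingOfIntegers.isIntegral_coe x).map
      ((algebraMap K0 (AlgebraicClosure ℚ)).toIntAlgHom)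
  have hιinj : Function.Injective ι :=
    (algebraMap K0 (AlgebraicClosure ℚ)).injective.comp
      (FaithfulSMul.algebraMap_injective (𝓞 K0) K0)
  have hιA : ∀ x : 𝓞 K0, ι x ∈ A := fun x => s36bl_int_mem A _ (hιint x)
  let φ : 𝓞 K0 →+* A := ι.codRestrict A.toSubring hιA
  let 𝔭 : Ideal (𝓞 K0) := (IsLocalRing.maximalIdeal A).comap φ
  have h𝔭prime : 𝔭.IsPrime := Ideal.comap_isPrime φ _
  have h𝔭mem : ∀ x : 𝓞 K0, x ∈ 𝔭 ↔ ι x ∈ A.nonunits := by
    intro x
    show φ x ∈ IsLocalRing.maximalIdeal A ↔ _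
    rw [ValuationSubring.mem_nonunits_iff_exists_mem_maximalIdeal]
    constructor
    · intro h
      exact ⟨hιA x, h⟩
    · rintro ⟨h1, h2⟩
      exact h2
  -- `a` as an element of `K0`
  let a0 : K0 := ⟨a, haK⟩
  have key : ∀ (b s : 𝓞 K0), s ∉ 𝔭 → s ≠ 0 →
      a0 * algebraMap (𝓞 K0) K0 s = algebraMap (𝓞 K0) K0 b →
      ∃ b s : AlgebraicClosure ℚ, b ∈ K0 ∧ s ∈ K0 ∧ IsIntegral ℤ b ∧ IsIntegral ℤ s ∧
        s ∉ A.nonunits ∧ s ≠ 0 ∧ a * s = b := by
    intro b s hs hs0 hbs
    refine ⟨ι b, ι s, hιK b, hιK s, hιint b, hιint s, fun h => hs ((h𝔭mem s).mpr h), ?_, ?_⟩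
    · intro h
      exact hs0 (hιinj (by rw [h, map_zero]))
    · have := congrArg (algebraMap K0 (AlgebraicClosure ℚ)) hbs
      rw [map_mul] at this
      exact this
  by_cases h𝔭 : 𝔭 = ⊥
  · obtain ⟨b, s, hs, hbs⟩ := IsFractionRing.div_surjective (A := 𝓞 K0) a0
    have hs0 : s ≠ 0 := nonZeroDivisors.ne_zero hs
    have hs0' : algebraMap (𝓞 K0) K0 s ≠ 0 := by
      intro h
      exact hs0 ((FaithfulSMul.algebraMap_injective (𝓞 K0) K0) (by rw [h, map_zero]))
    refine key b s ?_ hs0 ?_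
    · rw [h𝔭, Ideal.mem_bot]; exact hs0
    · rw [← hbs]; field_simp
  · let v : HeightOneSpectrum (𝓞 K0) := ⟨𝔭, h𝔭prime, h𝔭⟩
    rcases (v.valuationSubringAtPrime K0).mem_or_inv_mem a0 with h | h
    · obtain ⟨b, s, hs, hbs⟩ := h
      have hs' : s ∉ 𝔭 := hs
      have hs0 : s ≠ 0 := fun h0 => hs' (h0 ▸ 𝔭.zero_mem)
      have hs0' : algebraMap (𝓞 K0) K0 s ≠ 0 := by
        intro h
        exact hs0 ((FaithfulSMul.algebraMap_injective (𝓞 K0) K0) (by rw [h, map_zero]))
      refine key b s hs' hs0 ?_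
      rw [hbs]; field_simp
    · obtain ⟨b, s, hs, hbs⟩ := h
      have hs' : s ∉ 𝔭 := hs
      have hs0 : s ≠ 0 := fun h0 => hs' (h0 ▸ 𝔭.zero_mem)
      have hs0' : algebraMap (𝓞 K0) K0 s ≠ 0 := by
        intro h
        exact hs0 ((FaithfulSMul.algebraMap_injective (𝓞 K0) K0) (by rw [h, map_zero]))
      by_cases ha0 : a0 = 0
      · refine key 0 1 ?_ one_ne_zero ?_
        · exact fun h1 => h𝔭prime.ne_top ((Ideal.eq_top_iff_one _).mpr h1)
        · rw [ha0, zero_mul, map_zero]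
      -- `a⁻¹ = b / s`; if `b ∉ 𝔭` then `a = s / b`
      by_cases hb : b ∈ 𝔭
      · exfalso
        -- `a⁻¹ = b / s` is a nonunit of `A`, but `a ∈ A`
        have h1 : ι b ∈ A.nonunits := (h𝔭mem b).mp hb
        have h2 : ι s ∉ A.nonunits := fun h => hs' ((h𝔭mem s).mpr h)
        have h3 : a⁻¹ * ι s = ι b := by
          have := congrArg (algebraMap K0 (AlgebraicClosure ℚ)) hbs
          rw [map_inv₀, map_mul, map_inv₀] at this
          have hιs0 : ι s ≠ 0 := fun h => hs0 (hιinj (by rw [h, map_zero]))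
          show a⁻¹ * ι s = ι b
          have h4 : (algebraMap K0 (AlgebraicClosure ℚ)) a0 = a := rfl
          rw [h4] at this
          rw [this]
          show ι b * (ι s)⁻¹ * ι s = ι b
          field_simp
        have ha0' : a ≠ 0 := fun h => ha0 (Subtype.ext h)
        -- `ι s = a * ι b` is then a nonunit
        have h5 : ι s = a * ι b := by
          rw [← h3]; field_simp
        apply h2
        rw [h5]
        have h6 : ι b * a ∈ A.nonunits := s36bl_nonunits_mul A h1 ha
        rwa [mul_comm] at h6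
      · have hb0 : b ≠ 0 := fun h0 => hb (h0 ▸ 𝔭.zero_mem)
        have hb0' : algebraMap (𝓞 K0) K0 b ≠ 0 := by
          intro h
          exact hb0 ((FaithfulSMul.algebraMap_injective (𝓞 K0) K0) (by rw [h, map_zero]))
        refine key s b hb hb0 ?_
        have h7 : a0 = (a0⁻¹)⁻¹ := (inv_inv a0).symm
        rw [h7, hbs]
        field_simp

end Fermat.Agent.S36
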