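import Mathlib
import Fermat.Prelude.Def_FLTPrelim_Ramification
import Fermat.Agent.S36.BaseFrac

/-!
# S36 [BASE-U], part (L): lifting finite-level inertia to `Gal(ℚ̄/ℚ)`
-/

set_option autoImplicit false

open scoped Pointwise

namespace Fermat.Agent.S36

universe u

/-- generic profinite lifting: if `τ ∈ G` acts trivially modulo `P` on the invariants of a closed
normal subgroup `H`, then some `h τ` (`h ∈ H`) acts trivially modulo `P` on the whole ring -/
theorem s36bl_generic {B : Type*} [CommRing B] {G : Type u} [Group G] [MulSemiringAction G B]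
    [TopologicalSpace G] [CompactSpace G] [TotallyDisconnectedSpace G] [IsTopologicalGroup G]
    [TopologicalSpace B] [DiscreteTopology B] [ContinuousSMul G B]
    (H : Subgroup G) [hHn : H.Normal] (hH : IsClosed (H : Set G))
    (P : Ideal B) [hP : P.IsPrime] (τ : G)
    (hτ : ∀ x : B, (∀ h ∈ H, h • x = x) → τ • x - x ∈ P) :
    ∃ h ∈ H, ∀ x : B, (h * τ) • x - x ∈ P := by
  classical
  have : CompactSpace ↥H := isCompact_iff_compactSpace.mp hH.isCompact
  -- invariants of `H`
  let A' : Subring B := FixedPoints.subring B ↥H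
  have hA'mem : ∀ x : B, x ∈ A' ↔ ∀ h ∈ H, h • x = x := by
    intro x
    constructor
    · intro hx h hh
      exact hx ⟨h, hh⟩
    · intro hx h
      exact hx h.1 h.2
  have : Algebra.IsInvariant ↥A' B ↥H := ⟨fun b hb => ⟨⟨b, hb⟩, rfl⟩⟩
  -- normality: `τ` and `τ⁻¹` preserve the invariants
  have hnorm : ∀ (g : G) (x : B), x ∈ A' → g • x ∈ A' := by
    intro g x hx
    rw [hA'mem] at hx ⊢
    intro h hh
    have h1 : g⁻¹ * h * g ∈ H := by
      have := hHn.conj_mem h hh g⁻¹
      simpa using this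
    have h2 := hx _ h1
    calc h • g • x = g • (g⁻¹ * h * g) • x := by
          rw [← mul_smul, ← mul_smul]
          congr 1
          group
      _ = g • x := by rw [h2]
  -- step 1: `τ • P` and `P` have the same trace on the invariants
  have hQ : (τ • P).IsPrime := by
    rw [Ideal.pointwise_smul_eq_comap]
    exact Ideal.comap_isPrime _ _
  have hunder : P.under ↥A' = (τ • P).under ↥A' := by
    ext x
    rw [Ideal.mem_comap, Ideal.mem_comap]
    show (x : B) ∈ P ↔ (x : B) ∈ τ • P
    rw [Ideal.mem_pointwise_smul_iff_inv_smul_mem]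
    have h1 : τ⁻¹ • (x : B) ∈ A' := hnorm τ⁻¹ _ x.2
    have h2 := hτ (τ⁻¹ • (x : B)) ((hA'mem _).mp h1)
    rw [smul_inv_smul] at h2
    constructor
    · intro hx
      have := P.sub_mem hx h2
      simpa using this
    · intro hx
      have := P.add_mem hx h2
      simpa using this
  obtain ⟨g, hg⟩ := Algebra.IsInvariant.exists_smul_of_under_eq_of_profinite
    (A := ↥A') (G := ↥H) P (τ • P) hunder
  -- `τ' = g⁻¹ τ` stabilises `P` and is still trivial on the invariants modulo `P`
  let τ' : G := (g : G)⁻¹ * τ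
  have hτ'P : τ' • P = P := by
    show ((g : G)⁻¹ * τ) • P = P
    rw [mul_smul, hg]
    exact inv_smul_smul (g : G) P
  have hτ'A : ∀ x : B, x ∈ A' → τ' • x - x ∈ P := by
    intro x hx
    have h1 : τ • x ∈ A' := hnorm τ x hx
    have h2 : (g : G)⁻¹ • (τ • x) = τ • x := ((hA'mem _).mp h1) _ (H.inv_mem g.2)
    show ((g : G)⁻¹ * τ) • x - x ∈ P
    rw [mul_smul, h2]
    exact hτ x ((hA'mem _).mp hx)
  have hτ'mem : ∀ x : B, x ∈ P → τ' • x ∈ P := by
    intro x hx
    have : τ' • x ∈ τ' • P := Ideal.smul_mem_pointwise_smul τ' x P hx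
    rwa [hτ'P] at this
  -- the induced automorphism of `B ⧸ P` over the residue ring of the invariants
  let p : Ideal ↥A' := P.under ↥A'
  have hmap : P = P.map (MulSemiringAction.toRingEquiv G B τ') := by
    have h3 : P.map (MulSemiringAction.toRingEquiv G B τ') = τ' • P := rfl
    rw [h3, hτ'P]
  let σ' : (B ⧸ P) ≃ₐ[↥A' ⧸ p] (B ⧸ P) :=
    { Ideal.quotientEquiv P P (MulSemiringAction.toRingEquiv G B τ') hmap with
      commutes' := by
        rintro ⟨x⟩
        show Ideal.Quotient.mk P (τ' • (x : B)) = Ideal.Quotient.mk P (x : B)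
        rw [Ideal.Quotient.eq]
        exact hτ'A _ x.2 }
  have hσ' : ∀ b : B, σ' (Ideal.Quotient.mk P b) = Ideal.Quotient.mk P (τ' • b) := fun b => rfl
  obtain ⟨h0, hh0⟩ := Ideal.Quotient.stabilizerHom_surjective_of_profinite (G := ↥H) p P σ'
  have hh0' : ∀ b : B, ((h0 : ↥H) : G) • b - τ' • b ∈ P := by
    intro b
    have h4 := DFunLike.congr_fun hh0 (Ideal.Quotient.mk P b)
    rw [hσ'] at h4
    have h5 : (Ideal.Quotient.stabilizerHom P p ↥H h0) (Ideal.Quotient.mk P b)
        = Ideal.Quotient.mk P (((h0 : ↥H) : G) • b) := rfl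
    rw [h5, Ideal.Quotient.eq] at h4
    exact h4
  have hh0P : ((h0 : ↥H) : G)⁻¹ • P = P := by
    have h6 : (h0 : ↥H) • P = P := h0.2
    have h7 : ((h0 : ↥H) : G) • P = P := h6
    rw [inv_smul_eq_iff, h7]
  refine ⟨((h0 : ↥H) : G)⁻¹ * (g : G)⁻¹, H.mul_mem (H.inv_mem (h0 : ↥H).2) (H.inv_mem g.2), ?_⟩
  intro x
  have h8 : (((h0 : ↥H) : G)⁻¹ * (g : G)⁻¹ * τ) • x - x
      = ((h0 : ↥H) : G)⁻¹ • (τ' • x - ((h0 : ↥H) : G) • x) := by
    rw [smul_sub, inv_smul_smul, mul_assoc, mul_smul]
  rw [h8]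
  have h9 : τ' • x - ((h0 : ↥H) : G) • x ∈ P := by
    have := P.neg_mem (hh0' x)
    simpa using this
  have h10 : ((h0 : ↥H) : G)⁻¹ • (τ' • x - ((h0 : ↥H) : G) • x) ∈ ((h0 : ↥H) : G)⁻¹ • P :=
    Ideal.smul_mem_pointwise_smul _ _ P h9
  rwa [hh0P] at h10

end Fermat.Agent.S36

namespace Fermat.Agent.S36

/-- membership in the inertia subgroup: an automorphism moving every element of `A` by a nonunit
lies in `A.inertiaSubgroupIn` -/
theorem s36bl_mem_inertia (A : ValuationSubring (AlgebraicClosure ℚ))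
    (σ : AlgebraicClosure ℚ ≃ₐ[ℚ] AlgebraicClosure ℚ)
    (hσ : ∀ a ∈ A, σ a - a ∈ A.nonunits) : σ ∈ A.inertiaSubgroupIn ℚ := by
  have hσA : ∀ a ∈ A, σ a ∈ A := by
    intro a ha
    have h1 : σ a - a ∈ A := ValuationSubring.nonunits_subset (hσ a ha)
    have := A.add_mem _ _ h1 ha
    simpa using this
  have hσinv : ∀ a ∈ A, σ⁻¹ a ∈ A := by
    intro a ha
    by_contra hb
    -- `b = σ⁻¹ a ∉ A`, so `b⁻¹` is a nonunit, and so is `σ b⁻¹ = a⁻¹`
    have h1 : (σ⁻¹ a)⁻¹ ∈ A.nonunits := by
      rw [ValuationSubring.inv_mem_nonunits_iff]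
      exact Or.inr hb
    have h2 : σ ((σ⁻¹ a)⁻¹) - (σ⁻¹ a)⁻¹ ∈ A.nonunits :=
      hσ _ (ValuationSubring.nonunits_subset h1)
    have h3 : σ ((σ⁻¹ a)⁻¹) ∈ A.nonunits := by
      have := A.nonunits.add_mem h2 h1
      simpa using this
    have h4 : σ ((σ⁻¹ a)⁻¹) = a⁻¹ := by
      rw [map_inv₀]
      congr 1
      exact σ.apply_symm_apply a
    rw [h4, ValuationSubring.inv_mem_nonunits_iff] at h3
    rcases h3 with h0 | h0
    · apply hb
      rw [h0, map_zero]
      exact A.zero_mem
    · exact h0 ha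
  have hdec : σ ∈ A.decompositionSubgroup ℚ := by
    rw [MulAction.mem_stabilizer_iff]
    apply le_antisymm
    · intro x hx
      rw [ValuationSubring.mem_pointwise_smul_iff_inv_smul_mem] at hx
      have := hσA _ hx
      have h5 : σ (σ⁻¹ • x) = x := σ.apply_symm_apply x
      rwa [h5] at this
    · intro x hx
      rw [ValuationSubring.mem_pointwise_smul_iff_inv_smul_mem]
      exact hσinv x hx
  refine ⟨⟨σ, hdec⟩, ?_, rfl⟩
  show MulSemiringAction.toRingAut (A.decompositionSubgroup ℚ)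
      (IsLocalRing.ResidueField A) ⟨σ, hdec⟩ = 1
  ext z
  obtain ⟨a, rfl⟩ := IsLocalRing.residue_surjective z
  show (⟨σ, hdec⟩ : A.decompositionSubgroup ℚ) • IsLocalRing.residue A a = IsLocalRing.residue A a
  rw [← IsLocalRing.ResidueField.residue_smul, ← sub_eq_zero, ← map_sub,
    IsLocalRing.residue_eq_zero_iff]
  have h6 := hσ a a.2
  rw [ValuationSubring.mem_nonunits_iff_exists_mem_maximalIdeal] at h6
  obtain ⟨h7, h8⟩ := h6
  exact h8

/-- **LIFT**: an automorphism of `ℚ̄` acting trivially modulo the maximal ideal of `A` on the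
integers of a finite normal subfield `N` agrees on `N` with an element of the inertia group
of `A` in `Gal(ℚ̄/ℚ)` -/
theorem s36bl_lift (A : ValuationSubring (AlgebraicClosure ℚ))
    (N : IntermediateField ℚ (AlgebraicClosure ℚ)) [FiniteDimensional ℚ N] [Normal ℚ N]
    (τ : AlgebraicClosure ℚ ≃ₐ[ℚ] AlgebraicClosure ℚ)
    (hτ : ∀ y ∈ N, IsIntegral ℤ y → τ y - y ∈ A.nonunits) :
    ∃ σ ∈ A.inertiaSubgroupIn ℚ, ∀ y ∈ N, σ y = τ y := by
  classical
  have halg : Algebra.IsAlgebraic ℚ (AlgebraicClosure ℚ) := AlgebraicClosure.isAlgebraic ℚ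
  have hac : IsAlgClosure ℚ (AlgebraicClosure ℚ) := ⟨inferInstance, inferInstance⟩
  have hgalQb : IsGalois ℚ (AlgebraicClosure ℚ) := IsAlgClosure.isGalois ℚ (AlgebraicClosure ℚ)
  have hgalN : @IsGalois ℚ _ N _ N.algebra' := by
    have h1 : @Normal ℚ N _ _ N.algebra' := ‹Normal ℚ N›
    exact @IsGalois.mk ℚ _ N _ N.algebra' inferInstance h1
  -- the ring of algebraic integers, with the discrete topology
  let B : Type := ↥(integralClosure ℤ (AlgebraicClosure ℚ))
  let _ : TopologicalSpace B := ⊥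
  have : DiscreteTopology B := ⟨rfl⟩
  have hsm : ∀ (g : AlgebraicClosure ℚ ≃ₐ[ℚ] AlgebraicClosure ℚ) (b : B),
      ((g • b : B) : AlgebraicClosure ℚ) = g (b : AlgebraicClosure ℚ) := fun g b => rfl
  have : ContinuousSMul (AlgebraicClosure ℚ ≃ₐ[ℚ] AlgebraicClosure ℚ) B := by
    rw [continuousSMul_iff_stabilizer_isOpen]
    intro b
    have h1 := stabilizer_isOpen_of_isIntegral (K := ℚ) (L := AlgebraicClosure ℚ)
      (b : AlgebraicClosure ℚ)
    convert h1 using 1
    ext g
    simp only [SetLike.mem_coe, MulAction.mem_stabilizer_iff]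
    constructor
    · intro h
      have := congrArg (fun z : B => (z : AlgebraicClosure ℚ)) h
      exact this
    · intro h
      exact Subtype.ext h
  -- the centre of `A` on the algebraic integers
  let φ : B →+* A :=
    (algebraMap B (AlgebraicClosure ℚ)).codRestrict A.toSubring
      (fun b => s36bl_int_mem A _ b.2)
  let P : Ideal B := (IsLocalRing.maximalIdeal A).comap φ
  have hPprime : P.IsPrime := Ideal.comap_isPrime φ _
  have hPmem : ∀ x : B, x ∈ P ↔ (x : AlgebraicClosure ℚ) ∈ A.nonunits := by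
    intro x
    show φ x ∈ IsLocalRing.maximalIdeal A ↔ _
    rw [ValuationSubring.mem_nonunits_iff_exists_mem_maximalIdeal]
    constructor
    · intro h
      exact ⟨s36bl_int_mem A _ x.2, h⟩
    · rintro ⟨h1, h2⟩
      exact h2
  -- the closed normal subgroup `Gal(ℚ̄/N)`
  let H : Subgroup (AlgebraicClosure ℚ ≃ₐ[ℚ] AlgebraicClosure ℚ) := N.fixingSubgroup
  have hHn : H.Normal := IsGalois.fixingSubgroup_normal_of_isGalois N
  have hHc : IsClosed (H : Set (AlgebraicClosure ℚ ≃ₐ[ℚ] AlgebraicClosure ℚ)) :=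
    N.fixingSubgroup_isClosed
  have hτB : ∀ x : B, (∀ h ∈ H, h • x = x) → τ • x - x ∈ P := by
    intro x hx
    rw [hPmem]
    have hxN : (x : AlgebraicClosure ℚ) ∈ N := by
      rw [← InfiniteGalois.fixedField_fixingSubgroup N, IntermediateField.mem_fixedField_iff]
      intro h hh
      have := congrArg (fun z : B => (z : AlgebraicClosure ℚ)) (hx h hh)
      exact this
    exact hτ _ hxN x.2
  obtain ⟨h, hhH, hh⟩ := s36bl_generic H hHc P τ hτB
  have hh' : ∀ x : AlgebraicClosure ℚ, IsIntegral ℤ x → (h * τ) x - x ∈ A.nonunits := by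
    intro x hx
    have := (hPmem _).mp (hh ⟨x, hx⟩)
    exact this
  refine ⟨h * τ, s36bl_mem_inertia A _ ?_, ?_⟩
  · -- `h τ` moves every element of `A` by a nonunit
    intro a ha
    have hfd : FiniteDimensional ℚ (IntermediateField.adjoin ℚ {a}) :=
      IntermediateField.adjoin.finiteDimensional
        ((AlgebraicClosure.isAlgebraic ℚ).isAlgebraic a).isIntegral
    obtain ⟨b, s, -, -, hb, hs, hsu, hs0, hab⟩ :=
      s36bl_frac A (IntermediateField.adjoin ℚ {a}) a
        (IntermediateField.mem_adjoin_simple_self ℚ a) ha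
    set σ := h * τ with hσdef
    have hbA : b ∈ A := s36bl_int_mem A b hb
    have hsA : s ∈ A := s36bl_int_mem A s hs
    have h1 : σ b - b ∈ A.nonunits := hh' b hb
    have h2 : σ s - s ∈ A.nonunits := hh' s hs
    have hσsA : σ s ∈ A := by
      have := A.add_mem _ _ (ValuationSubring.nonunits_subset h2) hsA
      simpa using this
    have hσsu : σ s ∉ A.nonunits := by
      intro h3
      apply hsu
      have := A.nonunits.sub_mem h3 h2
      simpa using this
    have hσs0 : σ s ≠ 0 := by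
      intro h3
      apply hs0
      have : σ s = σ 0 := by rw [h3, map_zero]
      exact σ.injective this
    have hsinv : s⁻¹ ∈ A := by
      by_contra h3
      exact hsu ((ValuationSubring.mem_nonunits_iff_or A).mpr (Or.inr h3))
    have hσsinv : (σ s)⁻¹ ∈ A := by
      by_contra h3
      exact hσsu ((ValuationSubring.mem_nonunits_iff_or A).mpr (Or.inr h3))
    have ha' : a = b / s := by
      rw [← hab]; field_simp
    have hkey : σ a - a = ((σ b - b) * s - (σ s - s) * b) * (s⁻¹ * (σ s)⁻¹) := by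
      rw [ha', map_div₀]
      field_simp
      ring
    rw [hkey]
    refine s36bl_nonunits_mul A ?_ (A.mul_mem _ _ hsinv hσsinv)
    exact A.nonunits.sub_mem (s36bl_nonunits_mul A h1 hsA) (s36bl_nonunits_mul A h2 hbA)
  · intro y hy
    have h1 : τ y ∈ N := by
      have := AlgEquiv.restrictNormal_commutes τ N ⟨y, hy⟩
      have h2 : τ y = ((τ.restrictNormal N ⟨y, hy⟩ : N) : AlgebraicClosure ℚ) := this.symm
      rw [h2]
      exact (τ.restrictNormal N ⟨y, hy⟩).2
    show h (τ y) = τ y
    exact (IntermediateField.mem_fixingSubgroup_iff N h).mp hhH _ h1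

end Fermat.Agent.S36
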