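import Mathlib
import Fermat.Prelude.Def_FLTPrelim_Ramification
import Fermat.Agent.S36.BaseLift
import Fermat.Agent.S36.BaseFin

/-!
# S36 [BASE-U]: the fixed field of inertia is unramified

* `s36bu_main`: for a valuation subring `A` of `ℚ̄` over a prime `q`, an element `x` of the
  maximal ideal of `A` fixed by the inertia group `A.inertiaSubgroupIn ℚ` satisfies `x / q ∈ A`.
* `s36bu_field`: hence for every intermediate field `K2 ⊆ ℚ̄` fixed pointwise by inertia, the
  maximal ideal of `A ∩ K2` is generated by `q`.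

Assembly of `s36bl_lift` (finite-level inertia lifts to `Gal(ℚ̄/ℚ)`) and `s36bf_fin` (the inertia
field of a finite Galois extension is unramified).
-/

set_option autoImplicit false

namespace Fermat.Agent.S36

/-- **(U)**: an element of the maximal ideal of `A` fixed by the inertia group of `A` in
`Gal(ℚ̄/ℚ)` is divisible by `q` in `A` -/
theorem s36bu_main (q : ℕ) (hq : q.Prime) (A : ValuationSubring (AlgebraicClosure ℚ))
    (hA : A.LiesOverPrime q) (x : AlgebraicClosure ℚ)
    (hfix : ∀ σ ∈ A.inertiaSubgroupIn ℚ, σ x = x) (hx : x ∈ A.nonunits) :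
    x / (q : AlgebraicClosure ℚ) ∈ A := by
  classical
  -- the normal closure of ℚ(x)
  let N : IntermediateField ℚ (AlgebraicClosure ℚ) :=
    IntermediateField.normalClosure ℚ (IntermediateField.adjoin ℚ {x}) (AlgebraicClosure ℚ)
  have hxN : x ∈ N := by
    have h1 : IntermediateField.adjoin ℚ {x} ≤ N := IntermediateField.le_normalClosure _
    exact h1 (IntermediateField.mem_adjoin_simple_self ℚ x)
  have hfdx : FiniteDimensional ℚ (IntermediateField.adjoin ℚ {x}) :=
    IntermediateField.adjoin.finiteDimensional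
      ((AlgebraicClosure.isAlgebraic ℚ).isAlgebraic x).isIntegral
  have halg : Algebra.IsAlgebraic ℚ (AlgebraicClosure ℚ) := AlgebraicClosure.isAlgebraic ℚ
  have hac : IsAlgClosure ℚ (AlgebraicClosure ℚ) := ⟨inferInstance, inferInstance⟩
  have hnQb : Normal ℚ (AlgebraicClosure ℚ) := IsAlgClosure.normal ℚ (AlgebraicClosure ℚ)
  have hfdN : FiniteDimensional ℚ N :=
    normalClosure.is_finiteDimensional ℚ (IntermediateField.adjoin ℚ {x}) (AlgebraicClosure ℚ)
  have hnN : Normal ℚ N :=
    normalClosure.normal ℚ (IntermediateField.adjoin ℚ {x}) (AlgebraicClosure ℚ)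
  refine s36bf_fin q hq A hA N x hxN (fun τ hτ => ?_) hx
  obtain ⟨σ, hσ, hστ⟩ := s36bl_lift A N τ hτ
  rw [← hστ x hxN]
  exact hfix σ hσ

/-- the maximal ideal of `A ∩ K2` is generated by `q` for every subfield `K2` fixed by inertia -/
theorem s36bu_field (q : ℕ) (hq : q.Prime) (A : ValuationSubring (AlgebraicClosure ℚ))
    (hA : A.LiesOverPrime q)
    (K2 : IntermediateField ℚ (AlgebraicClosure ℚ))
    (hK2 : ∀ x ∈ K2, ∀ σ ∈ A.inertiaSubgroupIn ℚ, σ x = x) (x : K2)
    (hx : x ∈ (A.comap (algebraMap K2 (AlgebraicClosure ℚ))).nonunits) :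
    ∃ a ∈ A.comap (algebraMap K2 (AlgebraicClosure ℚ)), x = (q : K2) * a := by
  have hq0 : (q : AlgebraicClosure ℚ) ≠ 0 := by exact_mod_cast hq.ne_zero
  have hq0' : (q : K2) ≠ 0 := by exact_mod_cast hq.ne_zero
  have hx' : (x : AlgebraicClosure ℚ) ∈ A.nonunits := by
    rw [ValuationSubring.mem_nonunits_iff_or] at hx ⊢
    rcases hx with h | h
    · left; rw [h]; rfl
    · right
      intro h2
      apply h
      rw [ValuationSubring.mem_comap, map_inv₀]
      exact h2
  have h := s36bu_main q hq A hA (x : AlgebraicClosure ℚ) (hK2 _ x.2) hx'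
  refine ⟨x / (q : K2), ?_, ?_⟩
  · rw [ValuationSubring.mem_comap, map_div₀, map_natCast]
    exact h
  · field_simp

end Fermat.Agent.S36
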