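import Mathlib
import Fermat.Agent.S36.BaseInputs
import Fermat.Agent.S36.BaseUnram

/-!
# S36, family BASE: Gauss-ring lemmas over the inertia field (carrier lemmas for BASE-DEC)

`A` a valuation subring of `ℚ̄` over `q ∤ M`, `K2` a number field fixed by the inertia group of
`A` (so `q` is a uniformiser of `A ∩ K2`, `s36bu_field`).

* `s36bx_irreducible`: `q` is irreducible in `A ∩ K2`.
* `s36bx_unit` (G1): a nonzero element of the level-`M` function field over `K2` is, over `ℚ̄`,
  `q ^ k` times a unit of the Gauss valuation ring `grO A`.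
* `s36bx_cht_int`: the integrality lemma of the charts in general form (proof of `cht_h5`):
  Gauss-integral and integral over `K0[t]` implies integral over `A0[t]`.
* `s36bx_mem_chart` (G2): the same at the carrier, for any DVR `(K0, A0)` over `ℓ ∤ M`.
* `s36bx_grO_of_bcf`: Gauss-integrality descends from `ℚ̄` to `K2`.
* `s36bx_integral` (G2 in the `smibStmt` form): integral over `K2[t2]` and Gauss-integral over
  `ℚ̄` implies integral over `(A ∩ K2)[t2]`.
-/

set_option autoImplicit false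
set_option linter.style.haveILetI false
set_option linter.unusedSectionVars false

noncomputable section
open ModularCurve Polynomial
open Fermat.Agent.S18 Fermat.Agent.S34 Fermat.Agent.S28
open scoped IntermediateField
namespace Fermat.Agent.S36
local notation "Qb" => AlgebraicClosure ℚ

/-- `q` is irreducible in `A ∩ K2` for a number field `K2` fixed by inertia -/
theorem s36bx_irreducible (q : ℕ) [hq : Fact q.Prime] (A : ValuationSubring Qb)
    (hA : A.LiesOverPrime q) (K2 : IntermediateField ℚ Qb) [FiniteDimensional ℚ K2]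
    (hK2 : ∀ x ∈ K2, ∀ σ ∈ A.inertiaSubgroupIn ℚ, σ x = x)
    [IsDiscreteValuationRing ↥(A.comap (algebraMap ↥K2 Qb))] :
    ∃ hq2 : (q : ↥K2) ∈ A.comap (algebraMap ↥K2 Qb),
      Irreducible (⟨(q : ↥K2), hq2⟩ : ↥(A.comap (algebraMap ↥K2 Qb))) := by
  have hnon : (q : ↥K2) ∈ (A.comap (algebraMap ↥K2 Qb)).nonunits :=
    (dvd_isDVR_comap q hq.out.ne_zero A hA K2).2.2
  obtain ⟨hq2, hqmax⟩ := ValuationSubring.mem_nonunits_iff_exists_mem_maximalIdeal.mp hnon
  refine ⟨hq2, ?_⟩
  rw [IsDiscreteValuationRing.irreducible_iff_uniformizer]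
  apply le_antisymm
  · intro y hy
    rw [Ideal.mem_span_singleton]
    have hy' : (y : ↥K2) ∈ (A.comap (algebraMap ↥K2 Qb)).nonunits :=
      ValuationSubring.mem_nonunits_iff_exists_mem_maximalIdeal.mpr ⟨y.2, hy⟩
    obtain ⟨a, ha, hya⟩ := s36bu_field q hq.out A hA K2 hK2 (y : ↥K2) hy'
    exact ⟨⟨a, ha⟩, Subtype.ext hya⟩
  · rw [Ideal.span_singleton_le_iff_mem]
    exact hqmax

/-- **(G1) Gauss unit decomposition over the inertia field, read over `ℚ̄`**: a nonzero element
of the level-`M` function field over a number field `K2` fixed by inertia is, over `ℚ̄`, a power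
of `q` times a unit of the Gauss valuation ring. -/
theorem s36bx_unit (M : ℕ) [NeZero M] {q : ℕ} [hq : Fact q.Prime] (hqM : ¬ q ∣ M)
    (A : ValuationSubring Qb) (hA : A.LiesOverPrime q)
    (K2 : IntermediateField ℚ Qb) [FiniteDimensional ℚ K2]
    (hK2 : ∀ x ∈ K2, ∀ σ ∈ A.inertiaSubgroupIn ℚ, σ x = x)
    (x2 : ↥(laurentBaseChange ↥K2 (modularFunctionFieldFull M))) (hx2 : x2 ≠ 0) :
    ∃ (k : ℤ) (u : ↥(laurentBaseChange Qb (modularFunctionFieldFull M))),
      u ∈ grO A hA M hqM ∧ u⁻¹ ∈ grO A hA M hqM ∧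
      bcfHom ↥K2 Qb (modularFunctionFieldFull M) x2 =
        algebraMap Qb ↥(laurentBaseChange Qb (modularFunctionFieldFull M)) ((q : Qb) ^ k) * u := by
  classical
  have hdvr := dvd_isDVR_comap q hq.out.ne_zero A hA K2
  haveI := hdvr.1
  have hA2 : (A.comap (algebraMap ↥K2 Qb)).LiesOverPrime q := hdvr.2.2
  obtain ⟨hq2, hirr⟩ := s36bx_irreducible q A hA K2 hK2
  have hx2' : ((x2 : ↥(laurentBaseChange ↥K2 (modularFunctionFieldFull M))) :
      LaurentSeries ↥K2) ≠ 0 := fun h => hx2 (Subtype.ext h)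
  obtain ⟨c, u0, hc, hu0, hxu⟩ := gr_exists_unit (A.comap (algebraMap ↥K2 Qb)) hA2 M hqM _ x2.2
    hx2'
  obtain ⟨n, w, hcw⟩ := IsDiscreteValuationRing.exists_units_eq_smul_zpow_of_irreducible
    (K := ↥K2) hirr hc
  obtain ⟨w0, wi, hw1, hcw0⟩ : ∃ w0 wi : ↥(A.comap (algebraMap ↥K2 Qb)), w0 * wi = 1 ∧
      c = (w0 : ↥K2) * (q : ↥K2) ^ n := by
    refine ⟨(w : ↥(A.comap (algebraMap ↥K2 Qb))),
      ((w⁻¹ : (↥(A.comap (algebraMap ↥K2 Qb)))ˣ) : ↥(A.comap (algebraMap ↥K2 Qb))), w.mul_inv, ?_⟩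
    rw [hcw, Units.smul_def, Algebra.smul_def]
    rfl
  have hq0 : (q : Qb) ≠ 0 := by exact_mod_cast hq.out.ne_zero
  have hqn : algebraMap Qb ↥(laurentBaseChange Qb (modularFunctionFieldFull M)) ((q : Qb) ^ n) ≠ 0 := by
    rw [Ne, map_eq_zero]
    exact zpow_ne_zero _ hq0
  -- the constant in `ℚ̄`
  have hcQ : algebraMap ↥K2 Qb c = ((w0 : ↥K2) : Qb) * (q : Qb) ^ n := by
    rw [hcw0, map_mul, map_zpow₀, map_natCast]
    rfl
  have hwA : ((w0 : ↥K2) : Qb) ∈ A := w0.2
  have hwA' : ((wi : ↥K2) : Qb) ∈ A := wi.2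
  have hww : ((w0 : ↥K2) : Qb) * ((wi : ↥K2) : Qb) = 1 := by
    have h2 := congrArg (fun z : ↥(A.comap (algebraMap ↥K2 Qb)) => ((z : ↥K2) : Qb)) hw1
    simpa using h2
  -- the Laurent series of the unit
  have hser : coeffMap (algebraMap ↥K2 Qb)
      ((x2 : ↥(laurentBaseChange ↥K2 (modularFunctionFieldFull M))) : LaurentSeries ↥K2) =
      algebraMap Qb (LaurentSeries Qb) ((q : Qb) ^ n) *
        (algebraMap Qb (LaurentSeries Qb) ((w0 : ↥K2) : Qb) *
          coeffMap (algebraMap ↥K2 Qb) (u0 : LaurentSeries ↥K2)) := by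
    rw [hxu, map_mul, bcf_coeffMap_algebraMap, hcQ, map_mul]
    ring
  have hu0V : coeffMap (algebraMap ↥K2 Qb) (u0 : LaurentSeries ↥K2) ∈ grV A := bcf_grV_mem A u0.2
  have hu0V' : (coeffMap (algebraMap ↥K2 Qb) (u0 : LaurentSeries ↥K2))⁻¹ ∈ grV A := by
    rw [← map_inv₀]
    exact bcf_grV_mem A (gr_inv_mem _ u0 hu0)
  have hqn' : algebraMap Qb (LaurentSeries Qb) ((q : Qb) ^ n) ≠ 0 := by
    rw [Ne, map_eq_zero]
    exact zpow_ne_zero _ hq0
  have hcoe : (((algebraMap Qb ↥(laurentBaseChange Qb (modularFunctionFieldFull M))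
      ((q : Qb) ^ n))⁻¹ * bcfHom ↥K2 Qb (modularFunctionFieldFull M) x2 :
        ↥(laurentBaseChange Qb (modularFunctionFieldFull M))) : LaurentSeries Qb) =
      algebraMap Qb (LaurentSeries Qb) ((w0 : ↥K2) : Qb) *
        coeffMap (algebraMap ↥K2 Qb) (u0 : LaurentSeries ↥K2) := by
    rw [IntermediateField.coe_mul, IntermediateField.coe_inv, bcfHom_coe, hser]
    have h1 : ((algebraMap Qb ↥(laurentBaseChange Qb (modularFunctionFieldFull M))
        ((q : Qb) ^ n) : ↥(laurentBaseChange Qb (modularFunctionFieldFull M))) :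
          LaurentSeries Qb) = algebraMap Qb (LaurentSeries Qb) ((q : Qb) ^ n) := rfl
    rw [h1, inv_mul_cancel_left₀ hqn']
  have hinv : (((w0 : ↥K2) : Qb))⁻¹ = ((wi : ↥K2) : Qb) := inv_eq_of_mul_eq_one_right hww
  refine ⟨n, (algebraMap Qb ↥(laurentBaseChange Qb (modularFunctionFieldFull M)) ((q : Qb) ^ n))⁻¹ *
    bcfHom ↥K2 Qb (modularFunctionFieldFull M) x2, ?_, ?_, ?_⟩
  · rw [mem_grO_iff, hcoe]
    exact (grV A).mul_mem (gr_algebraMap_mem A ⟨_, hwA⟩) hu0V
  · rw [mem_grO_iff, IntermediateField.coe_inv, hcoe, mul_inv, ← map_inv₀, hinv]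
    exact (grV A).mul_mem (gr_algebraMap_mem A ⟨_, hwA'⟩) hu0V'
  · rw [mul_inv_cancel_left₀ hqn]

section AbsInt

variable {A0 K0 F : Type*} [CommRing A0] [IsDomain A0] [IsDiscreteValuationRing A0]
  [Field K0] [Algebra A0 K0] [IsFractionRing A0 K0]
  [Field F] [Algebra A0 F] [Algebra K0 F] [IsScalarTower A0 K0 F]

/-- The integrality lemma on a chart, general form (the proof of `cht_h5`): an element of the
Gauss ring `V` which is integral over `K0[t]` lies in the chart ring `chtO A0 {t}`. -/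
theorem s36bx_cht_int (V : ValuationSubring F) (hA : ∀ a : A0, algebraMap A0 F a ∈ V)
    {τ : A0} (hτ : Irreducible τ) (hτV : algebraMap A0 F τ ∈ V.nonunits) (t : F)
    (ht : Transcendental K0 t)
    (hG : ∀ p : A0[X], (∃ i, ¬ τ ∣ p.coeff i) → aeval t p ∉ V.nonunits)
    (hfin : ∃ (n : ℕ) (β : Fin n → F), ∀ x : F, ∃ (a : Fin n → A0[X]) (d : A0[X]),
      aeval t d ≠ 0 ∧ aeval t d * x = ∑ i, aeval t (a i) * β i)
    (huniq : ∀ O' : ValuationSubring F,
      (∀ p q : K0[X], aeval t q ≠ 0 →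
        (aeval t p / aeval t q ∈ O' ↔ aeval t p / aeval t q ∈ V)) → O' = V)
    {y : F} (hyV : y ∈ V)
    (hyK : (aeval t : K0[X] →ₐ[K0] F).toRingHom.IsIntegralElem y) :
    y ∈ chtO A0 {t} := by
  classical
  let _ : Algebra K0[X] F := (aeval t : K0[X] →ₐ[K0] F).toRingHom.toAlgebra
  have halgK : ∀ p : K0[X], algebraMap K0[X] F p = aeval t p := fun p => rfl
  have hinj : Function.Injective (algebraMap K0[X] F) := transcendental_iff_injective.mp ht
  have : FaithfulSMul K0[X] F := (faithfulSMul_iff_algebraMap_injective _ _).mpr hinj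
  let _ : Algebra (FractionRing K0[X]) F := FractionRing.liftAlgebra K0[X] F
  have : IsScalarTower K0[X] (FractionRing K0[X]) F :=
    FractionRing.isScalarTower_liftAlgebra K0[X] F
  have : FiniteDimensional (FractionRing K0[X]) F := by
    obtain ⟨n, β, hβ⟩ := hfin
    refine ⟨⟨Finset.univ.image β, ?_⟩⟩
    rw [eq_top_iff]
    intro x _
    obtain ⟨a, d, hd, hx⟩ := hβ x
    have hx' : x = ∑ i, (algebraMap K0[X] (FractionRing K0[X]) ((a i).map (algebraMap A0 K0)) /
        algebraMap K0[X] (FractionRing K0[X]) (d.map (algebraMap A0 K0))) • β i := by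
      have h1 : ∀ i, (algebraMap K0[X] (FractionRing K0[X]) ((a i).map (algebraMap A0 K0)) /
          algebraMap K0[X] (FractionRing K0[X]) (d.map (algebraMap A0 K0))) • β i =
          aeval t (a i) * β i / aeval t d := by
        intro i
        rw [Algebra.smul_def, map_div₀, ← IsScalarTower.algebraMap_apply,
          ← IsScalarTower.algebraMap_apply, halgK, halgK, aeval_map_algebraMap,
          aeval_map_algebraMap]
        ring
      rw [Finset.sum_congr rfl fun i _ => h1 i, ← Finset.sum_div, ← hx]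
      field_simp
    rw [hx']
    refine Submodule.sum_mem _ fun i _ => Submodule.smul_mem _ _ (Submodule.subset_span ?_)
    simp
  let _ : Algebra A0[X] K0[X] := (mapRingHom (algebraMap A0 K0)).toAlgebra
  let _ : Algebra A0[X] F := (aeval t : A0[X] →ₐ[A0] F).toRingHom.toAlgebra
  have : IsScalarTower A0[X] K0[X] F := IsScalarTower.of_algebraMap_eq fun p => by
    show aeval t p = aeval t (p.map (algebraMap A0 K0))
    rw [aeval_map_algebraMap]
  have hyK' : IsIntegral K0[X] y := hyK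
  have hU : ∀ O' : ValuationSubring F,
      (∀ y : FractionRing K0[X], algebraMap (FractionRing K0[X]) F y ∈ O' ↔
        algebraMap (FractionRing K0[X]) F y ∈ V) → O' = V := by
    intro O' h
    apply huniq O'
    intro p q _
    have := h (algebraMap K0[X] (FractionRing K0[X]) p / algebraMap K0[X] (FractionRing K0[X]) q)
    rw [map_div₀, ← IsScalarTower.algebraMap_apply, ← IsScalarTower.algebraMap_apply, halgK,
      halgK] at this
    exact this
  have hR₀ : ∀ r : K0[X], algebraMap K0[X] F r ∈ V →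
      ∃ r₀ : A0[X], algebraMap A0[X] K0[X] r₀ = r := by
    intro r hr
    exact cht_gauss V hA hτ hτV t hG r hr
  have hfinal : IsIntegral A0[X] y :=
    valext_integral (L := FractionRing K0[X]) (R := K0[X]) V hU (R₀ := A0[X]) hR₀ _ hyV hyK'
  exact cht_mem_iff.mpr ((cht_isIntegral_adjoin_iff t _).mpr hfinal)

end AbsInt

/-- **(G2) Integrality from Gauss-integrality**, for a discrete valuation subring `A0` of a field
`K0` over `ℓ ∤ M` and the Hauptmodul chart coordinate `t = (h - c1) / (h - c0)`: an element of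
the level-`M` function field over `K0` which lies in the Gauss valuation ring `grO A0` and is
integral over `K0[t]` lies in the chart ring `chtO A0 {t}`. -/
theorem s36bx_mem_chart {K0 : Type*} [Field K0] [Algebra ℚ K0] (A0 : ValuationSubring K0)
    [IsDiscreteValuationRing A0] {ℓ : ℕ} [Fact ℓ.Prime] (hA0 : A0.LiesOverPrime ℓ) (M : ℕ)
    [NeZero M] (hℓM : ¬ ℓ ∣ M) {a2 : ℕ} (H : HauptRec a2 ℓ)
    [Algebra A0 ↥(laurentBaseChange K0 (modularFunctionFieldFull M))]
    [IsScalarTower A0 K0 ↥(laurentBaseChange K0 (modularFunctionFieldFull M))]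
    (c0 c1 : A0) (hc : IsLocalRing.residue A0 c0 ≠ IsLocalRing.residue A0 c1)
    (t : ↥(laurentBaseChange K0 (modularFunctionFieldFull M)))
    (ht : (t : LaurentSeries K0) = cinstU H K0 (c0 : K0) (c1 : K0))
    (x : ↥(laurentBaseChange K0 (modularFunctionFieldFull M)))
    (hxV : x ∈ grO A0 hA0 M hℓM)
    (hxK : (aeval t : K0[X] →ₐ[K0]
      ↥(laurentBaseChange K0 (modularFunctionFieldFull M))).toRingHom.IsIntegralElem x) :
    x ∈ chtO A0 {t} := by
  classical
  have : CharZero K0 := algebraRat.charZero K0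
  obtain ⟨τ, hτ⟩ := IsDiscreteValuationRing.exists_irreducible A0
  have hVG : ∀ x : ↥(laurentBaseChange K0 (modularFunctionFieldFull M)),
      x ∈ grO A0 hA0 M hℓM ↔ (x : LaurentSeries K0) ∈ grV A0 := fun x => Iff.rfl
  have hmap : ∀ a : A0, algebraMap A0 ↥(laurentBaseChange K0 (modularFunctionFieldFull M)) a =
      algebraMap K0 ↥(laurentBaseChange K0 (modularFunctionFieldFull M)) (a : K0) := fun a =>
    IsScalarTower.algebraMap_apply A0 K0 ↥(laurentBaseChange K0 (modularFunctionFieldFull M)) a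
  have hτmax : τ ∈ IsLocalRing.maximalIdeal A0 := by
    rw [IsLocalRing.mem_maximalIdeal, mem_nonunits_iff]
    exact hτ.not_isUnit
  -- the constants
  have hA : ∀ a : A0, algebraMap A0 ↥(laurentBaseChange K0 (modularFunctionFieldFull M)) a ∈
      grO A0 hA0 M hℓM := fun a => by
    rw [hmap]
    exact (cinst_algebraMap_mem_iff (grO A0 hA0 M hℓM) hVG _).mpr a.2
  have hτV : algebraMap A0 ↥(laurentBaseChange K0 (modularFunctionFieldFull M)) τ ∈
      (grO A0 hA0 M hℓM).nonunits := by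
    rw [hmap]
    exact cinst_algebraMap_mem_nonunits (grO A0 hA0 M hℓM) hVG τ hτmax
  -- the chart coordinate
  have hc' : (c0 : K0) ≠ (c1 : K0) := by
    intro h0
    apply hc
    rw [Subtype.ext h0]
  have htt : Transcendental K0 t := cinst_transcendental_t M H _ _ hc' t ht
  -- the residue of the chart coordinate is transcendental
  have hres : Transcendental (IsLocalRing.ResidueField A0)
      (cinstU H (IsLocalRing.ResidueField A0) (IsLocalRing.residue A0 c0)
        (IsLocalRing.residue A0 c1)) :=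
    cinstU_transcendental H _ _ _ hc
  have hG : ∀ p : A0[X], (∃ i, ¬ τ ∣ p.coeff i) →
      aeval t p ∉ (grO A0 hA0 M hℓM).nonunits := by
    rintro p ⟨i, hi⟩ hmem
    rw [cinst_mem_nonunits_iff (grO A0 hA0 M hℓM) hVG] at hmem
    obtain ⟨hmemV, hρ⟩ := hmem
    have hcoe : ((aeval t p : ↥(laurentBaseChange K0 (modularFunctionFieldFull M))) :
        LaurentSeries K0) = aeval (cinstU H K0 (c0 : K0) (c1 : K0)) (p.map A0.subtype) := by
      rw [← ht, aeval_def, aeval_def, eval₂_map]
      have h1 := Polynomial.hom_eval₂ p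
        (algebraMap A0 ↥(laurentBaseChange K0 (modularFunctionFieldFull M)))
        (laurentBaseChange K0 (modularFunctionFieldFull M)).val.toRingHom t
      refine h1.trans ?_
      congr 1
      refine RingHom.ext fun a => ?_
      show ((algebraMap A0 ↥(laurentBaseChange K0 (modularFunctionFieldFull M)) a :
        ↥(laurentBaseChange K0 (modularFunctionFieldFull M))) : LaurentSeries K0) = _
      rw [hmap]
      rfl
    have hρ' := gab_rho_aeval (gr_gabHyp A0) ⟨cinstU H K0 (c0 : K0) (c1 : K0),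
      cinstU_mem_grV H A0 c0 c1⟩ p
    rw [cinstU_grRho] at hρ'
    have hzero : aeval (cinstU H (IsLocalRing.ResidueField A0) (IsLocalRing.residue A0 c0)
        (IsLocalRing.residue A0 c1)) (p.map (IsLocalRing.residue A0)) = 0 := by
      rw [← hρ', ← hρ]
      congr 1
      exact Subtype.ext hcoe.symm
    have hp0 : p.map (IsLocalRing.residue A0) = 0 := by
      by_contra hne
      exact hres ⟨_, hne, hzero⟩
    have hci : IsLocalRing.residue A0 (p.coeff i) = 0 := by
      rw [← coeff_map, hp0, coeff_zero]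
    rw [IsLocalRing.residue_eq_zero_iff, hτ.maximalIdeal_eq, Ideal.mem_span_singleton] at hci
    exact hi hci
  -- finiteness and uniqueness over `K0(t)` from those over `K0(j)`
  have hL := cinst_adjoin_grJ_le M H _ _ hc' t ht
  obtain ⟨b, -, hspan, -, -⟩ := gr_hind_j A0 hA0 M hℓM
  have hfin := cht_hfin_of_span (A0 := A0) (K0 := K0) (L := ↥K0⟮grJ K0 M⟯) t htt hL b hspan
  have huniq := cht_huniq_of_sub (K0 := K0) (L := ↥K0⟮grJ K0 M⟯) (grO A0 hA0 M hℓM) t hL
    (gr_unique_j A0 hA0 M hℓM)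
  exact s36bx_cht_int (K0 := K0) (grO A0 hA0 M hℓM) hA hτ hτV t htt hG hfin huniq hxV hxK

/-- Gauss-integrality descends along base change: an element of the function field over a
number field `K2` whose image over `ℚ̄` lies in the Gauss ring of `A` lies in the Gauss ring of
`A ∩ K2`. -/
theorem s36bx_grO_of_bcf (M : ℕ) [NeZero M] {q : ℕ} [hq : Fact q.Prime] (hqM : ¬ q ∣ M)
    (A : ValuationSubring Qb) (hA : A.LiesOverPrime q)
    (K2 : IntermediateField ℚ Qb)
    (hA2 : (A.comap (algebraMap ↥K2 Qb)).LiesOverPrime q)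
    (x2 : ↥(laurentBaseChange ↥K2 (modularFunctionFieldFull M)))
    (hx : bcfHom ↥K2 Qb (modularFunctionFieldFull M) x2 ∈ grO A hA M hqM) :
    x2 ∈ grO (A.comap (algebraMap ↥K2 Qb)) hA2 M hqM := by
  by_cases hx2 : x2 = 0
  · rw [hx2]
    exact (grO _ hA2 M hqM).zero_mem
  have hx2' : ((x2 : ↥(laurentBaseChange ↥K2 (modularFunctionFieldFull M))) :
      LaurentSeries ↥K2) ≠ 0 := fun h => hx2 (Subtype.ext h)
  obtain ⟨c, u0, hc, hu0, hxu⟩ := gr_exists_unit (A.comap (algebraMap ↥K2 Qb)) hA2 M hqM _ x2.2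
    hx2'
  rw [mem_grO_iff, hxu]
  refine (bcf_grV_mem_iff_of_unit A c (u0 : LaurentSeries ↥K2) u0.2 (gr_inv_mem _ u0 hu0)).mp ?_
  rw [← hxu]
  exact hx

/-- **(G2) at the carrier, in the `smibStmt` form**: an element of the level-`M` function field
over a number field `K2` which is integral over `K2[t2]` and whose image over `ℚ̄` lies in the
Gauss ring of `A` is integral over `(A ∩ K2)[t2]`. -/
theorem s36bx_integral (M : ℕ) [NeZero M] {q : ℕ} [hq : Fact q.Prime] (hqM : ¬ q ∣ M)
    (A : ValuationSubring Qb) (hA : A.LiesOverPrime q) {a2 : ℕ} (H : HauptRec a2 q)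
    (K2 : IntermediateField ℚ Qb) [FiniteDimensional ℚ K2] (c0 c1 : ↥K2)
    (hc0 : (c0 : Qb) ∈ A) (hc1 : (c1 : Qb) ∈ A) (h01 : smi2U A ((c0 : Qb) - (c1 : Qb)))
    (t2 : ↥(laurentBaseChange ↥K2 (modularFunctionFieldFull M)))
    (ht2 : (t2 : LaurentSeries ↥K2) = cinstU H ↥K2 c0 c1)
    (x2 : ↥(laurentBaseChange ↥K2 (modularFunctionFieldFull M)))
    (hxV : bcfHom ↥K2 Qb (modularFunctionFieldFull M) x2 ∈ grO A hA M hqM)
    (hxK : (aeval t2 : (↥K2)[X] →ₐ[↥K2]
      ↥(laurentBaseChange ↥K2 (modularFunctionFieldFull M))).toRingHom.IsIntegralElem x2) :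
    ((((Polynomial.aeval t2 :
        (↥K2)[X] →ₐ[↥K2] ↥(laurentBaseChange ↥K2 (modularFunctionFieldFull M))) :
        (↥K2)[X] →+* _).comp
      (Polynomial.mapRingHom (A.comap (algebraMap ↥K2 Qb)).subtype)).IsIntegralElem x2) := by
  classical
  have hdvr := dvd_isDVR_comap q hq.out.ne_zero A hA K2
  haveI := hdvr.1
  have hA2 : (A.comap (algebraMap ↥K2 Qb)).LiesOverPrime q := hdvr.2.2
  letI : Algebra ↥(A.comap (algebraMap ↥K2 Qb))
      ↥(laurentBaseChange ↥K2 (modularFunctionFieldFull M)) :=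
    ((algebraMap ↥K2 ↥(laurentBaseChange ↥K2 (modularFunctionFieldFull M))).comp
      (A.comap (algebraMap ↥K2 Qb)).subtype).toAlgebra
  haveI : IsScalarTower ↥(A.comap (algebraMap ↥K2 Qb)) ↥K2
      ↥(laurentBaseChange ↥K2 (modularFunctionFieldFull M)) :=
    IsScalarTower.of_algebraMap_eq fun _ => rfl
  have hres := s34if_residue_ne A K2 (c0 : Qb) (c1 : Qb) hc0 hc1 h01 c0.2 c1.2
  have hmem := s36bx_mem_chart (A.comap (algebraMap ↥K2 Qb)) hA2 M hqM H
    ⟨c0, ValuationSubring.mem_comap.mpr hc0⟩ ⟨c1, ValuationSubring.mem_comap.mpr hc1⟩ hres t2 ht2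
    x2 (s36bx_grO_of_bcf M hqM A hA K2 hA2 x2 hxV) hxK
  have h1 := (cht_isIntegral_adjoin_iff t2 x2).mp (cht_mem_iff.mp hmem)
  have hhomeq : (aeval t2 : (↥(A.comap (algebraMap ↥K2 Qb)))[X] →ₐ[↥(A.comap (algebraMap ↥K2 Qb))]
      ↥(laurentBaseChange ↥K2 (modularFunctionFieldFull M))).toRingHom =
      ((Polynomial.aeval t2 :
        (↥K2)[X] →ₐ[↥K2] ↥(laurentBaseChange ↥K2 (modularFunctionFieldFull M))) :
        (↥K2)[X] →+* _).comp
      (Polynomial.mapRingHom (A.comap (algebraMap ↥K2 Qb)).subtype) := by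
    refine Polynomial.ringHom_ext (fun a => ?_) ?_
    · show aeval t2 (C a) = aeval t2 ((C a).map (A.comap (algebraMap ↥K2 Qb)).subtype)
      rw [aeval_C, map_C, aeval_C]
      rfl
    · show aeval t2 X = aeval t2 ((X : (↥(A.comap (algebraMap ↥K2 Qb)))[X]).map
        (A.comap (algebraMap ↥K2 Qb)).subtype)
      rw [aeval_X, map_X, aeval_X]
  rw [← hhomeq]
  exact h1

end Fermat.Agent.S36
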