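import Mathlib

/-!
# S36, package BASE-TR: the totally ramified basis (abstract, Mathlib only)

`K1 / K2` a finite Galois extension of fields, `A1` a discrete valuation subring of `K1` such
that every `K2`-automorphism of `K1` stabilises `A1` and acts trivially on its residue field
(in the application: `K2 = K1 ∩ (fixed field of an inertia group)`), `A2 = A1 ∩ K2`
(`A1.comap (algebraMap K2 K1)`) with perfect residue field of characteristic `p`, `π` a
uniformiser of `A1`, `τ` a uniformiser of `A2`, `n = [K1 : K2]`.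

* `s36bt_charpoly`: the norm polynomial `∏ σ, (X - σ x)` of `x ∈ A1` descends to `K2`, with
  coefficients in `A1`.
* `s36bt_integral`: `A1` is integral over `A2`.
* `s36bt_res_one`: the residue degree is one (every `x ∈ A1` is congruent to an element of
  `A2`).
* `s36bt_main`: (a) residue degree one; (d) `π ^ n / τ` is a unit of `A1`; (b) the powers
  `1, π, …, π ^ (n - 1)` span `K1` over `K2`; (b') they span `A1` over `A2`; (c) a combination
  `Σ a_i π ^ i` (`a_i ∈ K2`) lying in `A1` has all `a_i ∈ A2`; (c') the powers are linearly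
  independent over `K2`.
* `s36bt_perf_of_finite`: the perfectness hypothesis when the residue field of `A2` is finite.
* `s36bt_comap_nu`: the maximal ideal of `A2` is the trace of the maximal ideal of `A1`.
-/


set_option autoImplicit false

open Polynomial

namespace Fermat.Agent.S36

section BaseTotRam

variable {K2 K1 : Type*} [Field K2] [Field K1] [Algebra K2 K1]

/-- `𝔪_A · A ⊆ 𝔪_A` for a valuation subring. -/
theorem s36bt_nu_mul {K : Type*} [Field K] (A : ValuationSubring K) {x y : K}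
    (hx : x ∈ A.nonunits) (hy : y ∈ A) : x * y ∈ A.nonunits := by
  obtain ⟨hxA, hxm⟩ := ValuationSubring.mem_nonunits_iff_exists_mem_maximalIdeal.mp hx
  exact ValuationSubring.mem_nonunits_iff_exists_mem_maximalIdeal.mpr
    ⟨A.mul_mem _ _ hxA hy, Ideal.mul_mem_right (⟨y, hy⟩ : A) _ hxm⟩

/-- `1 ∉ 𝔪_A`. -/
theorem s36bt_one_not_nu {K : Type*} [Field K] (A : ValuationSubring K) :
    (1 : K) ∉ A.nonunits := by
  intro h
  obtain ⟨h1, hm⟩ := ValuationSubring.mem_nonunits_iff_exists_mem_maximalIdeal.mp h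
  exact (IsLocalRing.maximalIdeal.isMaximal A).ne_top
    ((Ideal.eq_top_iff_one _).mpr hm)

/-- an element of `𝔪_A` lies in `A` -/
theorem s36bt_nu_mem {K : Type*} [Field K] (A : ValuationSubring K) {x : K}
    (hx : x ∈ A.nonunits) : x ∈ A :=
  (ValuationSubring.mem_nonunits_iff_exists_mem_maximalIdeal.mp hx).1

/-- `z * π ^ l / π ^ k ∈ A` for `z ∈ A`, `k ≤ l`. -/
theorem s36bt_div_pow {K : Type*} [Field K] (A : ValuationSubring K) (π : K) (hπ0 : π ≠ 0)
    (hπA : π ∈ A) {z : K} (hz : z ∈ A) {k l : ℕ} (hkl : k ≤ l) :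
    z * π ^ l * (π ^ k)⁻¹ ∈ A := by
  have h : z * π ^ l * (π ^ k)⁻¹ = z * π ^ (l - k) := by
    obtain ⟨d, rfl⟩ := Nat.exists_eq_add_of_le hkl
    rw [Nat.add_sub_cancel_left, pow_add]
    field_simp
  rw [h]
  exact A.mul_mem _ _ hz (pow_mem hπA _)

/-- In a discrete valuation subring with uniformiser `π`, every nonzero element is a unit times
a power of `π`. -/
theorem s36bt_unit_pow {K : Type*} [Field K] (A : ValuationSubring K)
    [IsDiscreteValuationRing A] (π : K) (hπ0 : π ≠ 0) (hπ : π ∈ A.nonunits)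
    (hπgen : ∀ x ∈ A.nonunits, x * π⁻¹ ∈ A) (x : K) (hx : x ∈ A) (hx0 : x ≠ 0) :
    ∃ n : ℕ, x * (π ^ n)⁻¹ ∈ A ∧ (x * (π ^ n)⁻¹)⁻¹ ∈ A := by
  have hπA : π ∈ A := s36bt_nu_mem A hπ
  have hirr : Irreducible (⟨π, hπA⟩ : A) := by
    rw [IsDiscreteValuationRing.irreducible_iff_uniformizer]
    apply le_antisymm
    · intro y hy
      have hy' : (y : K) ∈ A.nonunits :=
        ValuationSubring.mem_nonunits_iff_exists_mem_maximalIdeal.mpr ⟨y.2, hy⟩
      rw [Ideal.mem_span_singleton']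
      refine ⟨⟨(y : K) * π⁻¹, hπgen _ hy'⟩, Subtype.ext ?_⟩
      show (y : K) * π⁻¹ * π = y
      field_simp
    · rw [Ideal.span_singleton_le_iff_mem]
      obtain ⟨_, h⟩ := ValuationSubring.mem_nonunits_iff_exists_mem_maximalIdeal.mp hπ
      exact h
  have hx0' : (⟨x, hx⟩ : A) ≠ 0 := fun h => hx0 (congrArg Subtype.val h)
  obtain ⟨n, u, hu⟩ := IsDiscreteValuationRing.eq_unit_mul_pow_irreducible hx0' hirr
  have hu' : x = ((u : A) : K) * π ^ n := by
    have := congrArg Subtype.val hu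
    simpa using this
  have h1 : x * (π ^ n)⁻¹ = ((u : A) : K) := by
    rw [hu']
    field_simp
  have h2 : ((u : A) : K) * (((u⁻¹ : Aˣ) : A) : K) = 1 := by
    exact congrArg Subtype.val (Units.mul_inv u)
  refine ⟨n, ?_, ?_⟩
  · rw [h1]; exact (u : A).2
  · rw [h1, inv_eq_of_mul_eq_one_right h2]; exact ((u⁻¹ : Aˣ) : A).2

/-- The norm polynomial `∏ σ, (X - σ x)` of an element `x` of a valuation subring `A1` stable under
the Galois group: it descends to a monic polynomial over `K2` of degree `[K1 : K2]` whose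
coefficients lie in `A1`. -/
theorem s36bt_charpoly [FiniteDimensional K2 K1] [IsGalois K2 K1] (A1 : ValuationSubring K1)
    (hinv : ∀ (σ : K1 ≃ₐ[K2] K1) (x : K1), x ∈ A1 → σ x ∈ A1) (x : K1) (hx : x ∈ A1) :
    ∃ P : K2[X], P.Monic ∧ P.natDegree = Module.finrank K2 K1 ∧
      (∀ k, algebraMap K2 K1 (P.coeff k) ∈ A1) ∧
      P.map (algebraMap K2 K1) = ∏ σ : K1 ≃ₐ[K2] K1, (X - C (σ x)) := by
  classical
  set Q : K1[X] := ∏ σ : K1 ≃ₐ[K2] K1, (X - C (σ x)) with hQ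
  have hQmonic : Q.Monic := monic_prod_of_monic _ _ (fun σ _ => monic_X_sub_C _)
  have hQdeg : Q.natDegree = Module.finrank K2 K1 := by
    rw [hQ, natDegree_prod_of_monic _ _ (fun σ _ => monic_X_sub_C _)]
    simp only [natDegree_X_sub_C, Finset.sum_const, Finset.card_univ, smul_eq_mul, mul_one]
    rw [← IsGalois.card_aut_eq_finrank K2 K1, Nat.card_eq_fintype_card]
  -- the coefficients are fixed by the Galois group
  have hfix : ∀ τ : K1 ≃ₐ[K2] K1, Q.map (τ : K1 →+* K1) = Q := by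
    intro τ
    rw [hQ, Polynomial.map_prod]
    simp only [Polynomial.map_sub, Polynomial.map_X, Polynomial.map_C, RingHom.coe_coe]
    exact Fintype.prod_equiv (Equiv.mulLeft τ) _ _ (fun σ => rfl)
  have hlift : Q ∈ Polynomial.lifts (algebraMap K2 K1) := by
    rw [Polynomial.lifts_iff_coeff_lifts]
    intro n
    rw [IsGalois.mem_range_algebraMap_iff_fixed]
    intro τ
    have h := congrArg (fun R : K1[X] => R.coeff n) (hfix τ)
    simpa [Polynomial.coeff_map] using h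
  obtain ⟨P, hP⟩ := (Polynomial.mem_lifts Q).mp hlift
  have hinj : Function.Injective (algebraMap K2 K1) := (algebraMap K2 K1).injective
  refine ⟨P, ?_, ?_, ?_, hP⟩
  · exact Polynomial.monic_of_injective hinj (by rw [hP]; exact hQmonic)
  · rw [← hQdeg, ← hP, Polynomial.natDegree_map_eq_of_injective hinj]
  · intro k
    have h1 : algebraMap K2 K1 (P.coeff k) = Q.coeff k := by
      rw [← hP, Polynomial.coeff_map]
    rw [h1]
    -- `Q` comes from a polynomial over `A1`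
    have h2 : Q = (∏ σ : K1 ≃ₐ[K2] K1,
        (X - C (⟨σ x, hinv σ x hx⟩ : A1))).map A1.subtype := by
      rw [hQ, Polynomial.map_prod]
      refine Finset.prod_congr rfl (fun σ _ => ?_)
      simp [Polynomial.map_sub]
    rw [h2, Polynomial.coeff_map]
    exact Subtype.property _



/-- A coefficient of `(X - C c) ^ (p ^ a * (k + 1))` in characteristic `p`. -/
theorem s36bt_coeff {κ : Type*} [Field κ] (p : ℕ) [hpp : Fact p.Prime] [CharP κ p] (c : κ)
    (a k : ℕ) :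
    ((X - C c : κ[X]) ^ (p ^ a * (k + 1))).coeff (k * p ^ a) = -(c ^ p ^ a) * ((k + 1 : ℕ) : κ) := by
  have h1 : (X - C c : κ[X]) ^ (p ^ a * (k + 1)) =
      Polynomial.expand κ (p ^ a) ((X + C (-(c ^ p ^ a))) ^ (k + 1)) := by
    rw [map_pow, map_add, Polynomial.expand_X, Polynomial.expand_C, pow_mul, sub_pow_char_pow,
      C_neg, C_pow, sub_eq_add_neg]
  rw [h1, Polynomial.coeff_expand_mul (pow_pos hpp.out.pos a), Polynomial.coeff_X_add_C_pow]
  simp

/-- **Residue degree one.**  If every `K2`-automorphism of `K1` stabilises `A1` and acts trivially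
on its residue field, and the residue field of `A1 ∩ K2` is perfect, then every element of `A1`
is congruent to an element of `K2`. -/
theorem s36bt_res_one [FiniteDimensional K2 K1] [IsGalois K2 K1] (A1 : ValuationSubring K1)
    (hinv : ∀ (σ : K1 ≃ₐ[K2] K1) (x : K1), x ∈ A1 → σ x ∈ A1 ∧ σ x - x ∈ A1.nonunits)
    (p : ℕ) [hpp : Fact p.Prime] (hp : (p : K1) ∈ A1.nonunits)
    (hperf : ∀ x : K2, algebraMap K2 K1 x ∈ A1 →
      ∃ y : K2, algebraMap K2 K1 y ∈ A1 ∧ algebraMap K2 K1 (y ^ p - x) ∈ A1.nonunits)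
    (x : K1) (hx : x ∈ A1) :
    ∃ y : K2, algebraMap K2 K1 y ∈ A1 ∧ x - algebraMap K2 K1 y ∈ A1.nonunits := by
  classical
  obtain ⟨P, -, -, hPc, hPQ⟩ := s36bt_charpoly A1 (fun σ x hx => (hinv σ x hx).1) x hx
  let φ : A1 →+* IsLocalRing.ResidueField A1 := IsLocalRing.residue A1
  have hφ0 : ∀ (z : K1) (hz : z ∈ A1), φ ⟨z, hz⟩ = 0 ↔ z ∈ A1.nonunits := by
    intro z hz
    rw [show φ ⟨z, hz⟩ = IsLocalRing.residue A1 ⟨z, hz⟩ from rfl, IsLocalRing.residue_eq_zero_iff,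
      ValuationSubring.mem_nonunits_iff_exists_mem_maximalIdeal]
    exact ⟨fun h => ⟨hz, h⟩, fun ⟨_, h⟩ => h⟩
  -- the characteristic of the residue field
  have hp0 : ((p : ℕ) : IsLocalRing.ResidueField A1) = 0 := by
    have hpA : (p : K1) ∈ A1 := natCast_mem A1 p
    have h1 : φ ⟨(p : K1), hpA⟩ = 0 := (hφ0 _ hpA).mpr hp
    have h2 : (⟨(p : K1), hpA⟩ : A1) = ((p : ℕ) : A1) := Subtype.ext (by simp)
    rw [h2, map_natCast] at h1
    exact h1
  have : CharP (IsLocalRing.ResidueField A1) p := (CharP.charP_iff_prime_eq_zero hpp.out).mpr hp0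
  -- the restriction `ψ` of `φ` to `A1 ∩ K2`
  have hmem : ∀ y : K2, y ∈ A1.comap (algebraMap K2 K1) ↔ algebraMap K2 K1 y ∈ A1 :=
    fun y => ValuationSubring.mem_comap
  let g : ↥(A1.comap (algebraMap K2 K1)) →+* ↥A1 :=
    RingHom.restrict (algebraMap K2 K1) (A1.comap (algebraMap K2 K1)) A1
      (fun y hy => (hmem y).mp hy)
  let ψ : ↥(A1.comap (algebraMap K2 K1)) →+* IsLocalRing.ResidueField A1 := φ.comp g
  have hψ : ∀ y : ↥(A1.comap (algebraMap K2 K1)),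
      ψ y = φ ⟨algebraMap K2 K1 y.1, (hmem y.1).mp y.2⟩ := fun y => rfl
  -- the polynomial over `A1` and its reduction
  set QA : (↥A1)[X] := ∏ σ : K1 ≃ₐ[K2] K1, (X - C (⟨σ x, (hinv σ x hx).1⟩ : A1)) with hQA
  have hQA1 : QA.map A1.subtype = P.map (algebraMap K2 K1) := by
    rw [hPQ, hQA, Polynomial.map_prod]
    refine Finset.prod_congr rfl (fun σ _ => ?_)
    simp [Polynomial.map_sub]
  have hn : Fintype.card (K1 ≃ₐ[K2] K1) = Module.finrank K2 K1 := by
    rw [← IsGalois.card_aut_eq_finrank K2 K1, Nat.card_eq_fintype_card]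
  have hQA2 : QA.map φ = (X - C (φ ⟨x, hx⟩)) ^ Module.finrank K2 K1 := by
    rw [hQA, Polynomial.map_prod, ← hn, ← Finset.card_univ, ← Finset.prod_const]
    refine Finset.prod_congr rfl (fun σ _ => ?_)
    rw [Polynomial.map_sub, Polynomial.map_X, Polynomial.map_C]
    congr 2
    rw [← sub_eq_zero, ← map_sub]
    exact (hφ0 _ (sub_mem (hinv σ x hx).1 hx)).mpr (hinv σ x hx).2
  have hcoef : ∀ k, ((X - C (φ ⟨x, hx⟩)) ^ Module.finrank K2 K1 :
      (IsLocalRing.ResidueField A1)[X]).coeff k ∈ ψ.range := by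
    intro k
    rw [← hQA2, Polynomial.coeff_map]
    refine ⟨⟨P.coeff k, (hmem _).mpr (hPc k)⟩, ?_⟩
    rw [hψ]
    congr 1
    apply Subtype.ext
    have h := congrArg (fun R : K1[X] => R.coeff k) hQA1
    simp only [Polynomial.coeff_map] at h
    exact h.symm
  -- `[K1 : K2] = p ^ a * (k + 1)` with `p ∤ k + 1`
  have hn0 : Module.finrank K2 K1 ≠ 0 := (Module.finrank_pos).ne'
  obtain ⟨a, n', hn', hnn⟩ := Nat.exists_eq_pow_mul_and_not_dvd hn0 p hpp.out.ne_one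
  obtain ⟨k, rfl⟩ : ∃ k, n' = k + 1 := by
    refine ⟨n' - 1, ?_⟩
    have : n' ≠ 0 := by
      rintro rfl
      exact hn' (dvd_zero p)
    omega
  have h1 := hcoef (k * p ^ a)
  rw [hnn, s36bt_coeff] at h1
  -- `k + 1` is invertible modulo `p`
  have hcop : IsCoprime ((k + 1 : ℕ) : ℤ) (p : ℤ) := by
    rw [Nat.isCoprime_iff_coprime]
    exact ((Nat.Prime.coprime_iff_not_dvd hpp.out).mpr hn').symm
  obtain ⟨u, v, huv⟩ := hcop
  have huv' : (u : IsLocalRing.ResidueField A1) * ((k + 1 : ℕ) : IsLocalRing.ResidueField A1) = 1 := by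
    have h := congrArg (fun z : ℤ => (z : IsLocalRing.ResidueField A1)) huv
    simp only [Int.cast_add, Int.cast_mul, Int.cast_natCast, Int.cast_one] at h
    rw [hp0, mul_zero, add_zero] at h
    exact h
  have h2 : (φ ⟨x, hx⟩) ^ p ^ a ∈ ψ.range := by
    have h3 : (φ ⟨x, hx⟩) ^ p ^ a =
        -(u : IsLocalRing.ResidueField A1) * (-(φ ⟨x, hx⟩ ^ p ^ a) *
          ((k + 1 : ℕ) : IsLocalRing.ResidueField A1)) := by
      linear_combination (-(φ ⟨x, hx⟩ ^ p ^ a)) * huv'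
    rw [h3]
    exact ψ.range.mul_mem (ψ.range.neg_mem (intCast_mem _ u)) h1
  -- perfectness
  have hperf' : ∀ (a : ℕ) (y0 : ↥(A1.comap (algebraMap K2 K1))),
      ∃ y : ↥(A1.comap (algebraMap K2 K1)), ψ y ^ p ^ a = ψ y0 := by
    intro a
    induction a with
    | zero => intro y0; exact ⟨y0, by simp⟩
    | succ a ih =>
      intro y0
      obtain ⟨y1, hy1, hy1'⟩ := hperf y0.1 ((hmem _).mp y0.2)
      obtain ⟨y, hy⟩ := ih ⟨y1, (hmem _).mpr hy1⟩
      refine ⟨y, ?_⟩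
      rw [pow_succ, pow_mul, hy]
      have h4 : ψ (⟨y1, (hmem _).mpr hy1⟩ ^ p - y0) = 0 := by
        rw [hψ]
        refine (hφ0 _ _).mpr ?_
        simpa using hy1'
      rw [map_sub, map_pow, sub_eq_zero] at h4
      exact h4
  obtain ⟨y0, hy0⟩ := h2
  obtain ⟨y, hy⟩ := hperf' a y0
  refine ⟨y.1, (hmem _).mp y.2, ?_⟩
  have h6 : (ψ y - φ ⟨x, hx⟩) ^ p ^ a = 0 := by
    rw [sub_pow_char_pow, hy, hy0, sub_self]
  have h7 : ψ y = φ ⟨x, hx⟩ :=
    sub_eq_zero.mp ((pow_eq_zero_iff (pow_ne_zero a hpp.out.ne_zero)).mp h6)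
  have h8 : φ (⟨x, hx⟩ - ⟨algebraMap K2 K1 y.1, (hmem _).mp y.2⟩) = 0 := by
    rw [map_sub, ← hψ y, h7, sub_self]
  exact (hφ0 _ (sub_mem hx ((hmem _).mp y.2))).mp h8


/-- Integrality of `A1` over `A1 ∩ K2`. -/
theorem s36bt_integral [FiniteDimensional K2 K1] [IsGalois K2 K1] (A1 : ValuationSubring K1)
    (hinv : ∀ (σ : K1 ≃ₐ[K2] K1) (x : K1), x ∈ A1 → σ x ∈ A1) (x : K1) (hx : x ∈ A1) :
    IsIntegral ↥(A1.comap (algebraMap K2 K1)) x := by
  classical
  obtain ⟨P, hPm, -, hPc, hPQ⟩ := s36bt_charpoly A1 hinv x hx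
  have hmem : ∀ y : K2, y ∈ A1.comap (algebraMap K2 K1) ↔ algebraMap K2 K1 y ∈ A1 :=
    fun y => ValuationSubring.mem_comap
  have hlift : P ∈ Polynomial.lifts (algebraMap ↥(A1.comap (algebraMap K2 K1)) K2) := by
    rw [Polynomial.lifts_iff_coeff_lifts]
    intro n
    exact ⟨⟨P.coeff n, (hmem _).mpr (hPc n)⟩, rfl⟩
  obtain ⟨p0, hp0, -, hp0m⟩ := Polynomial.lifts_and_degree_eq_and_monic hlift hPm
  refine ⟨p0, hp0m, ?_⟩
  rw [← Polynomial.eval_map]
  have h1 : p0.map (algebraMap ↥(A1.comap (algebraMap K2 K1)) K1) =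
      P.map (algebraMap K2 K1) := by
    rw [← hp0, Polynomial.map_map]
    rfl
  rw [h1, hPQ, Polynomial.eval_prod]
  exact Finset.prod_eq_zero (Finset.mem_univ (1 : K1 ≃ₐ[K2] K1)) (by simp)

/-- The `π`-adic expansion to any finite order with coefficients in `A1 ∩ K2`, from residue
degree one. -/
theorem s36bt_expand (A1 : ValuationSubring K1) (π : K1) (hπ0 : π ≠ 0)
    (hπgen : ∀ x ∈ A1.nonunits, x * π⁻¹ ∈ A1)
    (hres : ∀ x ∈ A1, ∃ y : K2, algebraMap K2 K1 y ∈ A1 ∧ x - algebraMap K2 K1 y ∈ A1.nonunits)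
    (e : ℕ) : ∀ x ∈ A1, ∃ a : Fin e → K2, (∀ i, algebraMap K2 K1 (a i) ∈ A1) ∧
      ∃ x' ∈ A1, x = ∑ i, algebraMap K2 K1 (a i) * π ^ (i : ℕ) + π ^ e * x' := by
  induction e with
  | zero =>
    intro x hx
    exact ⟨Fin.elim0, fun i => i.elim0, x, hx, by simp⟩
  | succ e ih =>
    intro x hx
    obtain ⟨a, ha, x', hx', hxe⟩ := ih x hx
    obtain ⟨y, hy, hxy⟩ := hres x' hx'
    refine ⟨Fin.snoc a y, ?_, (x' - algebraMap K2 K1 y) * π⁻¹, hπgen _ hxy, ?_⟩
    · intro i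
      refine Fin.lastCases ?_ (fun j => ?_) i
      · simpa using hy
      · simpa using ha j
    · rw [Fin.sum_univ_castSucc]
      simp only [Fin.snoc_castSucc, Fin.snoc_last, Fin.val_castSucc, Fin.val_last]
      rw [hxe]
      field_simp
      ring

/-- **Nakayama step.**  If `A1 = Σ_{i<e} (A1 ∩ K2) π^i + τ A1` with `τ` in the maximal ideal of
`A1 ∩ K2`, then `A1 = Σ_{i<e} (A1 ∩ K2) π^i`. -/
theorem s36bt_span [FiniteDimensional K2 K1] [IsGalois K2 K1] (A1 : ValuationSubring K1)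
    [IsNoetherianRing ↥(A1.comap (algebraMap K2 K1))]
    (hinv : ∀ (σ : K1 ≃ₐ[K2] K1) (x : K1), x ∈ A1 → σ x ∈ A1)
    (e : ℕ) (π : K1) (hπA : π ∈ A1) (τ : K2) (hτ : algebraMap K2 K1 τ ∈ A1.nonunits)
    (hexp : ∀ x ∈ A1, ∃ a : Fin e → K2, (∀ i, algebraMap K2 K1 (a i) ∈ A1) ∧
      ∃ x' ∈ A1, x = ∑ i, algebraMap K2 K1 (a i) * π ^ (i : ℕ) + algebraMap K2 K1 τ * x') :
    ∀ x ∈ A1, ∃ a : Fin e → K2, (∀ i, algebraMap K2 K1 (a i) ∈ A1) ∧
      x = ∑ i, algebraMap K2 K1 (a i) * π ^ (i : ℕ) := by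
  classical
  have hmem : ∀ y : K2, y ∈ A1.comap (algebraMap K2 K1) ↔ algebraMap K2 K1 y ∈ A1 :=
    fun y => ValuationSubring.mem_comap
  let g : ↥(A1.comap (algebraMap K2 K1)) →+* ↥A1 :=
    RingHom.restrict (algebraMap K2 K1) (A1.comap (algebraMap K2 K1)) A1
      (fun y hy => (hmem y).mp hy)
  let _ : Algebra ↥(A1.comap (algebraMap K2 K1)) ↥A1 := g.toAlgebra
  have hsm : ∀ (c : ↥(A1.comap (algebraMap K2 K1))) (y : ↥A1),
      ((c • y : ↥A1) : K1) = algebraMap K2 K1 c.1 * y.1 := fun c y => rfl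
  have : IsScalarTower ↥(A1.comap (algebraMap K2 K1)) ↥A1 K1 :=
    IsScalarTower.of_algebraMap_eq (fun y => rfl)
  have : IsIntegralClosure ↥A1 ↥(A1.comap (algebraMap K2 K1)) K1 :=
    { algebraMap_injective := Subtype.val_injective
      isIntegral_iff := by
        intro z
        constructor
        · intro hz
          have hz' : IsIntegral ↥A1 z := hz.tower_top
          exact (IsIntegrallyClosed.isIntegral_iff).mp hz'
        · rintro ⟨y, rfl⟩
          exact s36bt_integral A1 hinv y.1 y.2 }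
  have : Module.Finite ↥(A1.comap (algebraMap K2 K1)) ↥A1 :=
    IsIntegralClosure.finite ↥(A1.comap (algebraMap K2 K1)) K2 K1 ↥A1
  have hτm : (⟨τ, (hmem τ).mpr (s36bt_nu_mem A1 hτ)⟩ : ↥(A1.comap (algebraMap K2 K1))) ∈
      IsLocalRing.maximalIdeal ↥(A1.comap (algebraMap K2 K1)) := by
    rw [IsLocalRing.mem_maximalIdeal, mem_nonunits_iff]
    rintro ⟨v, hv⟩
    have h1 : algebraMap K2 K1 τ * algebraMap K2 K1 ((v⁻¹ : (↥(A1.comap (algebraMap K2 K1)))ˣ) :
        ↥(A1.comap (algebraMap K2 K1))).1 = 1 := by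
      have h2 := congrArg Subtype.val (Units.mul_inv v)
      rw [hv] at h2
      have h3 : τ * (((v⁻¹ : (↥(A1.comap (algebraMap K2 K1)))ˣ) :
          ↥(A1.comap (algebraMap K2 K1))) : K2) = 1 := by simpa using h2
      rw [← map_mul, h3, map_one]
    exact s36bt_one_not_nu A1 (h1 ▸ s36bt_nu_mul A1 hτ ((hmem _).mp
      ((v⁻¹ : (↥(A1.comap (algebraMap K2 K1)))ˣ) : ↥(A1.comap (algebraMap K2 K1))).2))
  let N : Submodule ↥(A1.comap (algebraMap K2 K1)) ↥A1 :=
    Submodule.span _ (Set.range (fun i : Fin e => (⟨π, hπA⟩ : ↥A1) ^ (i : ℕ)))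
  have hN : (⊤ : Submodule ↥(A1.comap (algebraMap K2 K1)) ↥A1) ≤ N := by
    apply Submodule.le_of_le_smul_of_le_jacobson_bot
      (I := IsLocalRing.maximalIdeal ↥(A1.comap (algebraMap K2 K1))) Module.Finite.fg_top
    · rw [IsLocalRing.jacobson_eq_maximalIdeal ⊥ bot_ne_top]
    · intro x _
      obtain ⟨a, ha, x', hx', hxe⟩ := hexp x.1 x.2
      rw [Submodule.mem_sup]
      refine ⟨∑ i, (⟨a i, (hmem _).mpr (ha i)⟩ : ↥(A1.comap (algebraMap K2 K1))) •
          (⟨π, hπA⟩ : ↥A1) ^ (i : ℕ), ?_,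
        (⟨τ, (hmem τ).mpr (s36bt_nu_mem A1 hτ)⟩ : ↥(A1.comap (algebraMap K2 K1))) •
          (⟨x', hx'⟩ : ↥A1), ?_, ?_⟩
      · exact Submodule.sum_mem _
          (fun i _ => Submodule.smul_mem _ _ (Submodule.subset_span ⟨i, rfl⟩))
      · exact Submodule.smul_mem_smul hτm Submodule.mem_top
      · apply Subtype.ext
        rw [hxe]
        simp only [AddMemClass.coe_add, AddSubmonoidClass.coe_finsetSum, hsm,
          SubmonoidClass.coe_pow]
  intro x hx
  have hxN : (⟨x, hx⟩ : ↥A1) ∈ N := hN Submodule.mem_top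
  obtain ⟨c, hc⟩ := (Submodule.mem_span_range_iff_exists_fun _).mp hxN
  refine ⟨fun i => (c i).1, fun i => (hmem _).mp (c i).2, ?_⟩
  have h := congrArg Subtype.val hc
  simp only [AddSubmonoidClass.coe_finsetSum, hsm, SubmonoidClass.coe_pow] at h
  exact h.symm

/-- **Coefficient step.**  If `Σ b_i π^i ∈ τ A1` with `b_i ∈ A1 ∩ K2`, `τ = u π^e`, then every
`b_i` lies in the maximal ideal. -/
theorem s36bt_coeff_step (A1 : ValuationSubring K1) (π : K1) (hπ0 : π ≠ 0)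
    (hπ : π ∈ A1.nonunits) (τ : K2) (hτ0 : τ ≠ 0)
    (hτgen : ∀ x : K2, algebraMap K2 K1 x ∈ A1.nonunits → algebraMap K2 K1 (x * τ⁻¹) ∈ A1)
    (e : ℕ) (u : K1) (hu : u ∈ A1) (hτπ : algebraMap K2 K1 τ = u * π ^ e)
    (b : Fin e → K2) (hb : ∀ i, algebraMap K2 K1 (b i) ∈ A1)
    (hS : (∑ i, algebraMap K2 K1 (b i) * π ^ (i : ℕ)) * (algebraMap K2 K1 τ)⁻¹ ∈ A1) :
    ∀ i, algebraMap K2 K1 (b i) ∈ A1.nonunits := by
  classical
  have hπA : π ∈ A1 := s36bt_nu_mem A1 hπ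
  have hτ0' : algebraMap K2 K1 τ ≠ 0 := (_root_.map_ne_zero _).mpr hτ0
  have key : ∀ n : ℕ, ∀ i : Fin e, (i : ℕ) = n → algebraMap K2 K1 (b i) ∈ A1.nonunits := by
    intro n
    induction n using Nat.strong_induction_on with
    | _ n ih =>
      intro i hi
      have hie : (i : ℕ) + 1 ≤ e := i.2
      have h1 : algebraMap K2 K1 (b i) * π⁻¹ =
          (∑ j, algebraMap K2 K1 (b j) * π ^ (j : ℕ)) * (π ^ ((i : ℕ) + 1))⁻¹ -
            ∑ j ∈ Finset.univ.erase i,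
              algebraMap K2 K1 (b j) * π ^ (j : ℕ) * (π ^ ((i : ℕ) + 1))⁻¹ := by
        rw [← Finset.add_sum_erase Finset.univ _ (Finset.mem_univ i), add_mul, Finset.sum_mul,
          add_sub_cancel_right, pow_succ]
        field_simp
      have h2 : algebraMap K2 K1 (b i) * π⁻¹ ∈ A1 := by
        rw [h1]
        refine sub_mem ?_ (sum_mem (fun j hj => ?_))
        · have h3 : (∑ j, algebraMap K2 K1 (b j) * π ^ (j : ℕ)) * (π ^ ((i : ℕ) + 1))⁻¹ =
              (∑ j, algebraMap K2 K1 (b j) * π ^ (j : ℕ)) * (algebraMap K2 K1 τ)⁻¹ *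
                (u * π ^ e * (π ^ ((i : ℕ) + 1))⁻¹) := by
            rw [← hτπ]
            field_simp
          rw [h3]
          exact A1.mul_mem _ _ hS (s36bt_div_pow A1 π hπ0 hπA hu hie)
        · have hji : j ≠ i := Finset.ne_of_mem_erase hj
          rcases lt_or_gt_of_ne (fun h => hji (Fin.ext h) : (j : ℕ) ≠ (i : ℕ)) with hlt | hgt
          · have h4 : algebraMap K2 K1 (b j) ∈ A1.nonunits := ih (j : ℕ) (hi ▸ hlt) j rfl
            have h5 := hτgen _ h4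
            have h6 : algebraMap K2 K1 (b j) * π ^ (j : ℕ) * (π ^ ((i : ℕ) + 1))⁻¹ =
                algebraMap K2 K1 (b j * τ⁻¹) * π ^ (j : ℕ) *
                  (u * π ^ e * (π ^ ((i : ℕ) + 1))⁻¹) := by
              rw [map_mul, map_inv₀, ← hτπ]
              field_simp
            rw [h6]
            exact A1.mul_mem _ _ (A1.mul_mem _ _ h5 (pow_mem hπA _))
              (s36bt_div_pow A1 π hπ0 hπA hu hie)
          · exact s36bt_div_pow A1 π hπ0 hπA (hb j) (Nat.succ_le_of_lt hgt)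
      have h7 : algebraMap K2 K1 (b i) = π * (algebraMap K2 K1 (b i) * π⁻¹) := by
        field_simp
      rw [h7]
      exact s36bt_nu_mul A1 hπ h2
  exact fun i => key i i rfl

/-- **Integrality of the coefficients.**  If `Σ a_i π^i ∈ A1` with `a_i ∈ K2`, then every `a_i`
lies in `A1`. -/
theorem s36bt_coeff_int (A1 : ValuationSubring K1) (π : K1) (hπ0 : π ≠ 0)
    (hπ : π ∈ A1.nonunits) (τ : K2) (hτ0 : τ ≠ 0) (hτ : algebraMap K2 K1 τ ∈ A1.nonunits)
    (hτgen : ∀ x : K2, algebraMap K2 K1 x ∈ A1.nonunits → algebraMap K2 K1 (x * τ⁻¹) ∈ A1)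
    (e : ℕ) (u : K1) (hu : u ∈ A1) (hτπ : algebraMap K2 K1 τ = u * π ^ e)
    (hdec : ∀ z : K1, ∃ n : ℕ, z * algebraMap K2 K1 τ ^ n ∈ A1)
    (a : Fin e → K2) (hS : (∑ i, algebraMap K2 K1 (a i) * π ^ (i : ℕ)) ∈ A1) :
    ∀ i, algebraMap K2 K1 (a i) ∈ A1 := by
  classical
  have hτA : algebraMap K2 K1 τ ∈ A1 := s36bt_nu_mem A1 hτ
  have hτ0' : algebraMap K2 K1 τ ≠ 0 := (_root_.map_ne_zero _).mpr hτ0
  have step : ∀ k : ℕ, ∀ a : Fin e → K2, (∀ i, algebraMap K2 K1 (τ ^ k * a i) ∈ A1) →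
      (∑ i, algebraMap K2 K1 (a i) * π ^ (i : ℕ)) ∈ A1 → ∀ i, algebraMap K2 K1 (a i) ∈ A1 := by
    intro k
    induction k with
    | zero =>
      intro a ha _ i
      simpa using ha i
    | succ k ih =>
      intro a ha hSa
      refine ih a (fun i => ?_) hSa
      have h1 : (∑ i, algebraMap K2 K1 (τ ^ (k + 1) * a i) * π ^ (i : ℕ)) *
          (algebraMap K2 K1 τ)⁻¹ ∈ A1 := by
        have h2 : (∑ i, algebraMap K2 K1 (τ ^ (k + 1) * a i) * π ^ (i : ℕ)) *
            (algebraMap K2 K1 τ)⁻¹ =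
            algebraMap K2 K1 τ ^ k * ∑ i, algebraMap K2 K1 (a i) * π ^ (i : ℕ) := by
          rw [Finset.mul_sum, Finset.sum_mul]
          refine Finset.sum_congr rfl (fun i _ => ?_)
          rw [map_mul, map_pow, pow_succ]
          field_simp
        rw [h2]
        exact A1.mul_mem _ _ (pow_mem hτA k) hSa
      have h3 := s36bt_coeff_step A1 π hπ0 hπ τ hτ0 hτgen e u hu hτπ
        (fun i => τ ^ (k + 1) * a i) ha h1 i
      have h4 := hτgen _ h3
      have h5 : τ ^ (k + 1) * a i * τ⁻¹ = τ ^ k * a i := by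
        rw [pow_succ]
        field_simp
      rwa [h5] at h4
  -- a common exponent
  choose kk hkk using fun i : Fin e => hdec (algebraMap K2 K1 (a i))
  refine step (∑ i, kk i) a (fun i => ?_) hS
  have h1 : kk i ≤ ∑ j, kk j := Finset.single_le_sum (fun _ _ => Nat.zero_le _) (Finset.mem_univ i)
  obtain ⟨d, hd⟩ := Nat.exists_eq_add_of_le h1
  rw [hd, map_mul, map_pow, pow_add]
  have h2 : algebraMap K2 K1 τ ^ kk i * algebraMap K2 K1 τ ^ d * algebraMap K2 K1 (a i) =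
      algebraMap K2 K1 (a i) * algebraMap K2 K1 τ ^ kk i * algebraMap K2 K1 τ ^ d := by ring
  rw [h2]
  exact A1.mul_mem _ _ (hkk i) (pow_mem hτA d)

/-- **BASE-TR: the totally ramified basis.**  `K1 / K2` finite Galois, `A1` a discrete valuation
subring of `K1` such that every `K2`-automorphism of `K1` stabilises `A1` and acts trivially on
its residue field (an "inertia" extension), the residue field of `A2 = A1 ∩ K2` perfect of
characteristic `p`, `π` a uniformiser of `A1`, `τ` a uniformiser of `A2`, `n = [K1 : K2]`.  Then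
(a) the residue degree is one; (d) `π ^ n / τ` is a unit of `A1`; (b) `1, π, …, π ^ (n-1)` span
`K1` over `K2`, and (b') `A1` over `A2`; (c) `Σ a_i π^i ∈ A1` forces `a_i ∈ A2`; (c') the powers
are linearly independent. -/
theorem s36bt_main [FiniteDimensional K2 K1] [IsGalois K2 K1]
    (A1 : ValuationSubring K1) [IsDiscreteValuationRing ↥A1]
    [IsNoetherianRing ↥(A1.comap (algebraMap K2 K1))]
    (hinv : ∀ (σ : K1 ≃ₐ[K2] K1) (x : K1), x ∈ A1 → σ x ∈ A1 ∧ σ x - x ∈ A1.nonunits)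
    (p : ℕ) [Fact p.Prime] (hp : (p : K1) ∈ A1.nonunits)
    (hperf : ∀ x : K2, algebraMap K2 K1 x ∈ A1 →
      ∃ y : K2, algebraMap K2 K1 y ∈ A1 ∧ algebraMap K2 K1 (y ^ p - x) ∈ A1.nonunits)
    (π : K1) (hπ0 : π ≠ 0) (hπ : π ∈ A1.nonunits) (hπgen : ∀ x ∈ A1.nonunits, x * π⁻¹ ∈ A1)
    (τ : K2) (hτ0 : τ ≠ 0) (hτ : algebraMap K2 K1 τ ∈ A1.nonunits)
    (hτgen : ∀ x : K2, algebraMap K2 K1 x ∈ A1.nonunits → algebraMap K2 K1 (x * τ⁻¹) ∈ A1) :
    (∀ x ∈ A1, ∃ y : K2, algebraMap K2 K1 y ∈ A1 ∧ x - algebraMap K2 K1 y ∈ A1.nonunits) ∧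
    (π ^ Module.finrank K2 K1 * (algebraMap K2 K1 τ)⁻¹ ∈ A1 ∧
      algebraMap K2 K1 τ * (π ^ Module.finrank K2 K1)⁻¹ ∈ A1) ∧
    (∀ x : K1, ∃ a : Fin (Module.finrank K2 K1) → K2,
      x = ∑ i, algebraMap K2 K1 (a i) * π ^ (i : ℕ)) ∧
    (∀ x ∈ A1, ∃ a : Fin (Module.finrank K2 K1) → K2, (∀ i, algebraMap K2 K1 (a i) ∈ A1) ∧
      x = ∑ i, algebraMap K2 K1 (a i) * π ^ (i : ℕ)) ∧
    (∀ a : Fin (Module.finrank K2 K1) → K2,
      (∑ i, algebraMap K2 K1 (a i) * π ^ (i : ℕ)) ∈ A1 → ∀ i, algebraMap K2 K1 (a i) ∈ A1) ∧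
    (∀ a : Fin (Module.finrank K2 K1) → K2,
      (∑ i, algebraMap K2 K1 (a i) * π ^ (i : ℕ)) = 0 → ∀ i, a i = 0) := by
  classical
  have hπA := s36bt_nu_mem A1 hπ
  have hτA := s36bt_nu_mem A1 hτ
  have hτ0' : algebraMap K2 K1 τ ≠ 0 := (_root_.map_ne_zero _).mpr hτ0
  have hinv' : ∀ (σ : K1 ≃ₐ[K2] K1) (x : K1), x ∈ A1 → σ x ∈ A1 :=
    fun σ x hx => (hinv σ x hx).1
  have hres := s36bt_res_one A1 hinv p hp hperf
  -- the ramification index
  obtain ⟨e, hu, hu'⟩ := s36bt_unit_pow A1 π hπ0 hπ hπgen (algebraMap K2 K1 τ) hτA hτ0'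
  have hπe0 : π ^ e ≠ 0 := pow_ne_zero e hπ0
  obtain ⟨u, hu_def⟩ : ∃ u : K1, u = algebraMap K2 K1 τ * (π ^ e)⁻¹ := ⟨_, rfl⟩
  rw [← hu_def] at hu hu'
  have hτπ : algebraMap K2 K1 τ = u * π ^ e := by
    rw [hu_def]
    field_simp
  have hu0 : u ≠ 0 := by
    rintro rfl
    rw [zero_mul] at hτπ
    exact hτ0' hτπ
  have he : 1 ≤ e := by
    by_contra h
    have he0 : e = 0 := by omega
    rw [he0, pow_zero, mul_one] at hτπ
    rw [← hτπ] at hu'
    have h1 := s36bt_nu_mul A1 hτ hu'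
    rw [mul_inv_cancel₀ hτ0'] at h1
    exact s36bt_one_not_nu A1 h1
  have hdecπ : ∀ z : K1, ∃ n : ℕ, z * π ^ n ∈ A1 := by
    intro z
    by_cases hz0 : z = 0
    · exact ⟨0, by rw [hz0, zero_mul]; exact A1.zero_mem⟩
    rcases A1.mem_or_inv_mem z with hz | hz
    · exact ⟨0, by simpa using hz⟩
    · obtain ⟨n, -, hn⟩ := s36bt_unit_pow A1 π hπ0 hπ hπgen z⁻¹ hz (inv_ne_zero hz0)
      refine ⟨n, ?_⟩
      have h1 : (z⁻¹ * (π ^ n)⁻¹)⁻¹ = z * π ^ n := by rw [mul_inv, inv_inv, inv_inv]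
      rwa [h1] at hn
  have hdec : ∀ z : K1, ∃ n : ℕ, z * algebraMap K2 K1 τ ^ n ∈ A1 := by
    intro z
    obtain ⟨n, hn⟩ := hdecπ z
    refine ⟨n, ?_⟩
    have h1 : z * algebraMap K2 K1 τ ^ n = z * π ^ n * (u ^ n * π ^ ((e - 1) * n)) := by
      obtain ⟨d, rfl⟩ := Nat.exists_eq_add_of_le he
      rw [hτπ, mul_pow, Nat.add_sub_cancel_left, ← pow_mul, add_mul, one_mul, pow_add]
      ring
    rw [h1]
    exact A1.mul_mem _ _ hn (A1.mul_mem _ _ (pow_mem hu n) (pow_mem hπA _))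
  have hexp : ∀ x ∈ A1, ∃ a : Fin e → K2, (∀ i, algebraMap K2 K1 (a i) ∈ A1) ∧
      ∃ x' ∈ A1, x = ∑ i, algebraMap K2 K1 (a i) * π ^ (i : ℕ) + algebraMap K2 K1 τ * x' := by
    intro x hx
    obtain ⟨a, ha, x', hx', hxe⟩ := s36bt_expand A1 π hπ0 hπgen hres e x hx
    refine ⟨a, ha, u⁻¹ * x', A1.mul_mem _ _ hu' hx', ?_⟩
    rw [hxe, hτπ]
    field_simp
  have hspanA := s36bt_span A1 hinv' e π hπA τ hτ hexp
  have hcoef := s36bt_coeff_int A1 π hπ0 hπ τ hτ0 hτ hτgen e u hu hτπ hdec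
  have hspanK : ∀ x : K1, ∃ a : Fin e → K2,
      x = ∑ i, algebraMap K2 K1 (a i) * π ^ (i : ℕ) := by
    intro x
    obtain ⟨n, hn⟩ := hdec x
    obtain ⟨c, -, hc⟩ := hspanA _ hn
    refine ⟨fun i => c i * (τ ^ n)⁻¹, ?_⟩
    have h1 : x = (x * algebraMap K2 K1 τ ^ n) * (algebraMap K2 K1 τ ^ n)⁻¹ := by
      field_simp
    rw [h1, hc, Finset.sum_mul]
    refine Finset.sum_congr rfl (fun i _ => ?_)
    rw [map_mul, map_inv₀, map_pow]
    ring
  have hindep : ∀ a : Fin e → K2,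
      (∑ i, algebraMap K2 K1 (a i) * π ^ (i : ℕ)) = 0 → ∀ i, a i = 0 := by
    intro a ha i
    by_contra hai
    have hai' : algebraMap K2 K1 (a i) ≠ 0 := (_root_.map_ne_zero _).mpr hai
    obtain ⟨n, hn⟩ := hdec (algebraMap K2 K1 (a i))⁻¹
    have h1 : (∑ j, algebraMap K2 K1 (a j * (τ ^ (n + 1))⁻¹) * π ^ (j : ℕ)) ∈ A1 := by
      have h0 : (∑ j, algebraMap K2 K1 (a j * (τ ^ (n + 1))⁻¹) * π ^ (j : ℕ)) =
          (∑ j, algebraMap K2 K1 (a j) * π ^ (j : ℕ)) * (algebraMap K2 K1 τ ^ (n + 1))⁻¹ := by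
        rw [Finset.sum_mul]
        refine Finset.sum_congr rfl (fun j _ => ?_)
        rw [map_mul, map_inv₀, map_pow]
        ring
      rw [h0, ha, zero_mul]
      exact A1.zero_mem
    have h2 := hcoef (fun j => a j * (τ ^ (n + 1))⁻¹) h1 i
    have h3 : (algebraMap K2 K1 τ)⁻¹ ∈ A1 := by
      have h4 : (algebraMap K2 K1 τ)⁻¹ = algebraMap K2 K1 (a i * (τ ^ (n + 1))⁻¹) *
          ((algebraMap K2 K1 (a i))⁻¹ * algebraMap K2 K1 τ ^ n) := by
        rw [map_mul, map_inv₀, map_pow, pow_succ]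
        field_simp
      rw [h4]
      exact A1.mul_mem _ _ h2 hn
    have h5 := s36bt_nu_mul A1 hτ h3
    rw [mul_inv_cancel₀ hτ0'] at h5
    exact s36bt_one_not_nu A1 h5
  have hfin : Module.finrank K2 K1 = e := by
    have hli : LinearIndependent K2 (fun i : Fin e => π ^ (i : ℕ)) := by
      rw [Fintype.linearIndependent_iff]
      intro g hg i
      refine hindep g ?_ i
      rw [← hg]
      exact Finset.sum_congr rfl (fun j _ => (Algebra.smul_def _ _).symm)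
    have hsp : ⊤ ≤ Submodule.span K2 (Set.range (fun i : Fin e => π ^ (i : ℕ))) := by
      intro x _
      obtain ⟨a, ha⟩ := hspanK x
      rw [Submodule.mem_span_range_iff_exists_fun]
      refine ⟨a, ?_⟩
      rw [ha]
      exact Finset.sum_congr rfl (fun j _ => Algebra.smul_def _ _)
    have h1 := Module.finrank_eq_card_basis (Module.Basis.mk hli hsp)
    rw [h1, Fintype.card_fin]
  rw [hfin]
  refine ⟨hres, ⟨?_, ?_⟩, hspanK, hspanA, hcoef, hindep⟩
  · have h1 : π ^ e * (algebraMap K2 K1 τ)⁻¹ = u⁻¹ := by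
      rw [hτπ]
      field_simp
    rw [h1]
    exact hu'
  · rw [← hu_def]
    exact hu

/-- The maximal ideal of `A1 ∩ K2`. -/
theorem s36bt_comap_nu (A1 : ValuationSubring K1) (y : K2) :
    y ∈ (A1.comap (algebraMap K2 K1)).nonunits ↔ algebraMap K2 K1 y ∈ A1.nonunits := by
  rw [ValuationSubring.mem_nonunits_iff_or, ValuationSubring.mem_nonunits_iff_or,
    ValuationSubring.mem_comap, map_inv₀, _root_.map_eq_zero]

/-- The perfectness hypothesis `hperf` of `s36bt_main` when the residue field of `A1 ∩ K2` is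
finite. -/
theorem s36bt_perf_of_finite (A1 : ValuationSubring K1)
    [Finite (IsLocalRing.ResidueField ↥(A1.comap (algebraMap K2 K1)))]
    (p : ℕ) [hpp : Fact p.Prime] (hp : (p : K1) ∈ A1.nonunits) :
    ∀ x : K2, algebraMap K2 K1 x ∈ A1 →
      ∃ y : K2, algebraMap K2 K1 y ∈ A1 ∧ algebraMap K2 K1 (y ^ p - x) ∈ A1.nonunits := by
  intro x hx
  have hmem : ∀ y : K2, y ∈ A1.comap (algebraMap K2 K1) ↔ algebraMap K2 K1 y ∈ A1 :=
    fun y => ValuationSubring.mem_comap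
  have hp2 : ((p : ℕ) : IsLocalRing.ResidueField ↥(A1.comap (algebraMap K2 K1))) = 0 := by
    have h1 : ((p : ℕ) : K2) ∈ (A1.comap (algebraMap K2 K1)).nonunits :=
      (s36bt_comap_nu A1 _).mpr (by simpa using hp)
    obtain ⟨h2, h3⟩ := ValuationSubring.mem_nonunits_iff_exists_mem_maximalIdeal.mp h1
    have h4 : IsLocalRing.residue ↥(A1.comap (algebraMap K2 K1)) ⟨(p : K2), h2⟩ = 0 :=
      (IsLocalRing.residue_eq_zero_iff _).mpr h3
    have h5 : (⟨(p : K2), h2⟩ : ↥(A1.comap (algebraMap K2 K1))) =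
        ((p : ℕ) : ↥(A1.comap (algebraMap K2 K1))) := Subtype.ext (by simp)
    rw [h5, map_natCast] at h4
    exact h4
  have : CharP (IsLocalRing.ResidueField ↥(A1.comap (algebraMap K2 K1))) p :=
    (CharP.charP_iff_prime_eq_zero hpp.out).mpr hp2
  have hsurj : Function.Surjective
      (frobenius (IsLocalRing.ResidueField ↥(A1.comap (algebraMap K2 K1))) p) :=
    Finite.surjective_of_injective (frobenius_inj _ p)
  obtain ⟨ybar, hy⟩ := hsurj
    (IsLocalRing.residue ↥(A1.comap (algebraMap K2 K1)) ⟨x, (hmem x).mpr hx⟩)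
  obtain ⟨y, rfl⟩ := IsLocalRing.residue_surjective ybar
  refine ⟨y.1, (hmem _).mp y.2, ?_⟩
  rw [← s36bt_comap_nu, ValuationSubring.mem_nonunits_iff_exists_mem_maximalIdeal]
  refine ⟨sub_mem (pow_mem y.2 p) ((hmem x).mpr hx), ?_⟩
  rw [← IsLocalRing.residue_eq_zero_iff]
  have h6 : (⟨y.1 ^ p - x, sub_mem (pow_mem y.2 p) ((hmem x).mpr hx)⟩ :
      ↥(A1.comap (algebraMap K2 K1))) = y ^ p - ⟨x, (hmem x).mpr hx⟩ := rfl
  rw [h6, map_sub, map_pow, sub_eq_zero]
  exact hy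

end BaseTotRam

end Fermat.Agent.S36
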