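import Mathlib
import Fermat.Prelude.Def_FLTPrelim_Ramification
import Fermat.Agent.S18.DvrDef
import Fermat.Agent.S36.BaseGal
import Fermat.Agent.S36.BaseTotRam
import Fermat.Agent.S36.BaseUnram

/-!
# S36 [BASE-TR at the carrier]: the totally ramified basis of `K1 / (K1 ⊓ ℚ̄^I)`

`s36bw_main`: the conclusion of `s36bt_main` (BASE-TR) at the carrier
`K1 ⊆ ℚ̄` finite normal, `K2 := K1 ⊓ ℚ̄^I` (`I` the inertia group of `A`), `A1 := A ∩ K1`,
`τ := q` (a uniformiser of `A ∩ K2` by BASE-U), `π` any uniformiser of `A1`.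
`s36bw_exists_unif`: a uniformiser of `A ∩ K1` exists.
-/

set_option autoImplicit false

namespace Fermat.Agent.S36

/-- a uniformiser of `A ∩ K1` in the `(π ≠ 0, π ∈ 𝔪, 𝔪 ⊆ π A1)` shape -/
theorem s36bw_exists_unif (q : ℕ) [Fact q.Prime] (A : ValuationSubring (AlgebraicClosure ℚ))
    (hA : A.LiesOverPrime q)
    (K1 : IntermediateField ℚ (AlgebraicClosure ℚ)) [FiniteDimensional ℚ K1] :
    ∃ π : ↥K1, π ≠ 0 ∧ π ∈ (A.comap (algebraMap ↥K1 (AlgebraicClosure ℚ))).nonunits ∧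
      ∀ x ∈ (A.comap (algebraMap ↥K1 (AlgebraicClosure ℚ))).nonunits,
        x * π⁻¹ ∈ A.comap (algebraMap ↥K1 (AlgebraicClosure ℚ)) := by
  have hdvr := (Fermat.Agent.S18.dvd_isDVR_comap q (Fact.out : q.Prime).ne_zero A hA K1).1
  obtain ⟨ϖ, hϖ⟩ := IsDiscreteValuationRing.exists_irreducible
    ↥(A.comap (algebraMap ↥K1 (AlgebraicClosure ℚ)))
  have hϖ0 : (ϖ : ↥K1) ≠ 0 := by
    intro h
    exact hϖ.ne_zero (Subtype.ext h)
  refine ⟨(ϖ : ↥K1), hϖ0, ?_, ?_⟩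
  · rw [ValuationSubring.mem_nonunits_iff_exists_mem_maximalIdeal]
    exact ⟨ϖ.2, (IsLocalRing.mem_maximalIdeal _).mpr hϖ.not_isUnit⟩
  · intro x hx
    rw [ValuationSubring.mem_nonunits_iff_exists_mem_maximalIdeal] at hx
    obtain ⟨hxA, hxm⟩ := hx
    rw [hϖ.maximalIdeal_eq, Ideal.mem_span_singleton'] at hxm
    obtain ⟨c, hc⟩ := hxm
    have h1 : x = (c : ↥K1) * (ϖ : ↥K1) := by
      have := congrArg (fun z : ↥(A.comap (algebraMap ↥K1 (AlgebraicClosure ℚ))) => (z : ↥K1)) hc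
      exact this.symm
    rw [h1, mul_assoc, mul_inv_cancel₀ hϖ0, mul_one]
    exact c.2

/-- the trace of `A ∩ K1` on `K2 = K1 ⊓ ℚ̄^I` is `A ∩ K2` -/
theorem s36bw_comap_comap (A : ValuationSubring (AlgebraicClosure ℚ))
    (K1 : IntermediateField ℚ (AlgebraicClosure ℚ)) :
    letI : Algebra ↥(K1 ⊓ IntermediateField.fixedField (A.inertiaSubgroupIn ℚ)) ↥K1 :=
      (IntermediateField.inclusion inf_le_left).toRingHom.toAlgebra
    (A.comap (algebraMap ↥K1 (AlgebraicClosure ℚ))).comap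
        (algebraMap ↥(K1 ⊓ IntermediateField.fixedField (A.inertiaSubgroupIn ℚ)) ↥K1) =
      A.comap (algebraMap ↥(K1 ⊓ IntermediateField.fixedField (A.inertiaSubgroupIn ℚ))
        (AlgebraicClosure ℚ)) := by
  ext x
  rfl

/-- **BASE-TR at the carrier**: for `K1 ⊆ ℚ̄` finite normal over `ℚ`, `K2 := K1 ⊓ ℚ̄^I`,
`A1 := A ∩ K1` and a uniformiser `π` of `A1`, with `n := [K1 : K2]`: residue degree one,
`π ^ n / q` is a unit of `A1`, `K1 = ⊕ K2 π^i`, `A1 = ⊕ (A ∩ K2) π^i`, coefficient integrality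
and independence -/
theorem s36bw_main (q : ℕ) [Fact q.Prime] (A : ValuationSubring (AlgebraicClosure ℚ))
    (hA : A.LiesOverPrime q)
    (K1 : IntermediateField ℚ (AlgebraicClosure ℚ)) [FiniteDimensional ℚ K1] [Normal ℚ K1]
    (π : ↥K1) (hπ0 : π ≠ 0)
    (hπ : π ∈ (A.comap (algebraMap ↥K1 (AlgebraicClosure ℚ))).nonunits)
    (hπgen : ∀ x ∈ (A.comap (algebraMap ↥K1 (AlgebraicClosure ℚ))).nonunits,
      x * π⁻¹ ∈ A.comap (algebraMap ↥K1 (AlgebraicClosure ℚ))) :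
    letI : Algebra ↥(K1 ⊓ IntermediateField.fixedField (A.inertiaSubgroupIn ℚ)) ↥K1 :=
      (IntermediateField.inclusion inf_le_left).toRingHom.toAlgebra
    (∀ x ∈ A.comap (algebraMap ↥K1 (AlgebraicClosure ℚ)),
      ∃ y : ↥(K1 ⊓ IntermediateField.fixedField (A.inertiaSubgroupIn ℚ)),
        algebraMap ↥(K1 ⊓ IntermediateField.fixedField (A.inertiaSubgroupIn ℚ)) ↥K1 y ∈
          A.comap (algebraMap ↥K1 (AlgebraicClosure ℚ)) ∧
        x - algebraMap ↥(K1 ⊓ IntermediateField.fixedField (A.inertiaSubgroupIn ℚ)) ↥K1 y ∈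
          (A.comap (algebraMap ↥K1 (AlgebraicClosure ℚ))).nonunits) ∧
    (π ^ Module.finrank ↥(K1 ⊓ IntermediateField.fixedField (A.inertiaSubgroupIn ℚ)) ↥K1 *
        (algebraMap ↥(K1 ⊓ IntermediateField.fixedField (A.inertiaSubgroupIn ℚ)) ↥K1
          ((q : ℕ) : ↥(K1 ⊓ IntermediateField.fixedField (A.inertiaSubgroupIn ℚ))))⁻¹ ∈
          A.comap (algebraMap ↥K1 (AlgebraicClosure ℚ)) ∧
      algebraMap ↥(K1 ⊓ IntermediateField.fixedField (A.inertiaSubgroupIn ℚ)) ↥K1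
          ((q : ℕ) : ↥(K1 ⊓ IntermediateField.fixedField (A.inertiaSubgroupIn ℚ))) *
        (π ^ Module.finrank ↥(K1 ⊓ IntermediateField.fixedField (A.inertiaSubgroupIn ℚ)) ↥K1)⁻¹ ∈
          A.comap (algebraMap ↥K1 (AlgebraicClosure ℚ))) ∧
    (∀ x : ↥K1, ∃ a : Fin (Module.finrank
        ↥(K1 ⊓ IntermediateField.fixedField (A.inertiaSubgroupIn ℚ)) ↥K1) →
          ↥(K1 ⊓ IntermediateField.fixedField (A.inertiaSubgroupIn ℚ)),
      x = ∑ i, algebraMap ↥(K1 ⊓ IntermediateField.fixedField (A.inertiaSubgroupIn ℚ)) ↥K1 (a i) *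
        π ^ (i : ℕ)) ∧
    (∀ x ∈ A.comap (algebraMap ↥K1 (AlgebraicClosure ℚ)), ∃ a : Fin (Module.finrank
        ↥(K1 ⊓ IntermediateField.fixedField (A.inertiaSubgroupIn ℚ)) ↥K1) →
          ↥(K1 ⊓ IntermediateField.fixedField (A.inertiaSubgroupIn ℚ)),
      (∀ i, algebraMap ↥(K1 ⊓ IntermediateField.fixedField (A.inertiaSubgroupIn ℚ)) ↥K1 (a i) ∈
        A.comap (algebraMap ↥K1 (AlgebraicClosure ℚ))) ∧
      x = ∑ i, algebraMap ↥(K1 ⊓ IntermediateField.fixedField (A.inertiaSubgroupIn ℚ)) ↥K1 (a i) *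
        π ^ (i : ℕ)) ∧
    (∀ a : Fin (Module.finrank
        ↥(K1 ⊓ IntermediateField.fixedField (A.inertiaSubgroupIn ℚ)) ↥K1) →
          ↥(K1 ⊓ IntermediateField.fixedField (A.inertiaSubgroupIn ℚ)),
      (∑ i, algebraMap ↥(K1 ⊓ IntermediateField.fixedField (A.inertiaSubgroupIn ℚ)) ↥K1 (a i) *
        π ^ (i : ℕ)) ∈ A.comap (algebraMap ↥K1 (AlgebraicClosure ℚ)) →
      ∀ i, algebraMap ↥(K1 ⊓ IntermediateField.fixedField (A.inertiaSubgroupIn ℚ)) ↥K1 (a i) ∈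
        A.comap (algebraMap ↥K1 (AlgebraicClosure ℚ))) ∧
    (∀ a : Fin (Module.finrank
        ↥(K1 ⊓ IntermediateField.fixedField (A.inertiaSubgroupIn ℚ)) ↥K1) →
          ↥(K1 ⊓ IntermediateField.fixedField (A.inertiaSubgroupIn ℚ)),
      (∑ i, algebraMap ↥(K1 ⊓ IntermediateField.fixedField (A.inertiaSubgroupIn ℚ)) ↥K1 (a i) *
        π ^ (i : ℕ)) = 0 → ∀ i, a i = 0) := by
  classical
  let _ : Algebra ↥(K1 ⊓ IntermediateField.fixedField (A.inertiaSubgroupIn ℚ)) ↥K1 :=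
    (IntermediateField.inclusion inf_le_left).toRingHom.toAlgebra
  have hq : q.Prime := Fact.out
  obtain ⟨hgal, hfd, htower, hcoe, hinv⟩ := s36bg_hinv A K1
  -- DVR facts at `K1` and `K2`
  obtain ⟨hdvr1, -, hq1⟩ := Fermat.Agent.S18.dvd_isDVR_comap q hq.ne_zero A hA K1
  have hfd2 : FiniteDimensional ℚ ↥(K1 ⊓ IntermediateField.fixedField (A.inertiaSubgroupIn ℚ)) :=
    FiniteDimensional.left ℚ _ ↥K1
  obtain ⟨hdvr2, hfin2, -⟩ := Fermat.Agent.S18.dvd_isDVR_comap q hq.ne_zero A hA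
    (K1 ⊓ IntermediateField.fixedField (A.inertiaSubgroupIn ℚ))
  have hcc := s36bw_comap_comap A K1
  have hnoeth : IsNoetherianRing ↥((A.comap (algebraMap ↥K1 (AlgebraicClosure ℚ))).comap
      (algebraMap ↥(K1 ⊓ IntermediateField.fixedField (A.inertiaSubgroupIn ℚ)) ↥K1)) := by
    rw [hcc]
    infer_instance
  have hfinres : Finite (IsLocalRing.ResidueField
      ↥((A.comap (algebraMap ↥K1 (AlgebraicClosure ℚ))).comap
        (algebraMap ↥(K1 ⊓ IntermediateField.fixedField (A.inertiaSubgroupIn ℚ)) ↥K1))) := by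
    rw [hcc]
    exact hfin2
  have hperf := s36bt_perf_of_finite (K2 := ↥(K1 ⊓ IntermediateField.fixedField
    (A.inertiaSubgroupIn ℚ))) (A.comap (algebraMap ↥K1 (AlgebraicClosure ℚ))) q hq1
  -- `τ := q`
  have hτ0 : ((q : ℕ) : ↥(K1 ⊓ IntermediateField.fixedField (A.inertiaSubgroupIn ℚ))) ≠ 0 := by
    exact_mod_cast hq.ne_zero
  have hτmap : algebraMap ↥(K1 ⊓ IntermediateField.fixedField (A.inertiaSubgroupIn ℚ)) ↥K1
      ((q : ℕ) : ↥(K1 ⊓ IntermediateField.fixedField (A.inertiaSubgroupIn ℚ))) = ((q : ℕ) : ↥K1) :=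
    map_natCast _ q
  have hτ : algebraMap ↥(K1 ⊓ IntermediateField.fixedField (A.inertiaSubgroupIn ℚ)) ↥K1
      ((q : ℕ) : ↥(K1 ⊓ IntermediateField.fixedField (A.inertiaSubgroupIn ℚ))) ∈
      (A.comap (algebraMap ↥K1 (AlgebraicClosure ℚ))).nonunits := by
    rw [hτmap]; exact hq1
  have hτgen : ∀ x : ↥(K1 ⊓ IntermediateField.fixedField (A.inertiaSubgroupIn ℚ)),
      algebraMap ↥(K1 ⊓ IntermediateField.fixedField (A.inertiaSubgroupIn ℚ)) ↥K1 x ∈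
        (A.comap (algebraMap ↥K1 (AlgebraicClosure ℚ))).nonunits →
      algebraMap ↥(K1 ⊓ IntermediateField.fixedField (A.inertiaSubgroupIn ℚ)) ↥K1
        (x * ((q : ℕ) : ↥(K1 ⊓ IntermediateField.fixedField (A.inertiaSubgroupIn ℚ)))⁻¹) ∈
        A.comap (algebraMap ↥K1 (AlgebraicClosure ℚ)) := by
    intro x hx
    rw [s36bg_comap_nu] at hx
    have hx' : (x : AlgebraicClosure ℚ) ∈ A.nonunits := hx
    have hxfix : ∀ σ ∈ A.inertiaSubgroupIn ℚ, σ (x : AlgebraicClosure ℚ) = x := by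
      intro σ hσ
      have h1 : (x : AlgebraicClosure ℚ) ∈ IntermediateField.fixedField (A.inertiaSubgroupIn ℚ) :=
        x.2.2
      exact (IntermediateField.mem_fixedField_iff _ _).mp h1 σ hσ
    have h2 := s36bu_main q hq A hA (x : AlgebraicClosure ℚ) hxfix hx'
    show ((algebraMap ↥(K1 ⊓ IntermediateField.fixedField (A.inertiaSubgroupIn ℚ)) ↥K1
        (x * ((q : ℕ) : ↥(K1 ⊓ IntermediateField.fixedField (A.inertiaSubgroupIn ℚ)))⁻¹) : ↥K1) :
          AlgebraicClosure ℚ) ∈ A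
    rw [hcoe]
    have h3 : ((x * ((q : ℕ) : ↥(K1 ⊓ IntermediateField.fixedField (A.inertiaSubgroupIn ℚ)))⁻¹ :
        ↥(K1 ⊓ IntermediateField.fixedField (A.inertiaSubgroupIn ℚ))) : AlgebraicClosure ℚ)
        = (x : AlgebraicClosure ℚ) / (q : AlgebraicClosure ℚ) := by
      push_cast
      rw [div_eq_mul_inv]
    rw [h3]
    exact h2
  exact s36bt_main (A.comap (algebraMap ↥K1 (AlgebraicClosure ℚ))) hinv q hq1 hperf π hπ0 hπ hπgen
    ((q : ℕ) : ↥(K1 ⊓ IntermediateField.fixedField (A.inertiaSubgroupIn ℚ))) hτ0 hτ hτgen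

end Fermat.Agent.S36
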