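import Mathlib

/-!
# S36, family BASE, leaf (L-D): valuations of the terms of a `π`-adic decomposition

`V` a valuation subring of a field `F`, `π ∈ 𝔪_V`, `τ ≠ 0` with `π^n / τ` a unit of `V`, and
`x i` (`i < n`) each zero or of the form `τ^k * unit`.  If `∑ i, π^i * x i ∈ V` then every term
`π^i * x i` lies in `V`, and the terms with `i ≠ 0` lie in `𝔪_V` (`s36bk_val`): the nonzero
terms have pairwise distinct valuations `g^(i + n k_i)`.

Names are prefixed `s36bk`.
-/

set_option autoImplicit false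

namespace Fermat.Agent.S36

/-- powers of an element `0 < g < 1` of a linearly ordered group with zero are injective -/
theorem s36bk_zpow_inj {Γ : Type*} [LinearOrderedCommGroupWithZero Γ] (g : Γ) (hg0 : g ≠ 0)
    (hg1 : g < 1) (a b : ℤ) (h : g ^ a = g ^ b) : a = b := by
  by_contra hab
  have key : ∀ a b : ℤ, a < b → g ^ a = g ^ b → False := by
    intro a b hlt h
    have h1 : g ^ (b - a) = 1 := by
      rw [zpow_sub₀ hg0, h, div_self (zpow_ne_zero _ hg0)]
    obtain ⟨m, hm⟩ := Int.eq_ofNat_of_zero_le (sub_nonneg.mpr hlt.le)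
    have hm0 : m ≠ 0 := by
      rintro rfl
      simp at hm
      omega
    rw [hm, zpow_natCast] at h1
    have h2 : g ^ m < 1 := pow_lt_one₀ zero_le hg1 hm0
    exact h2.ne h1
  rcases lt_or_gt_of_ne hab with h' | h'
  · exact key a b h' h
  · exact key b a h' h.symm

/-- **(L-D)**: the terms of a `π`-adic decomposition of an element of `V`. -/
theorem s36bk_val {F : Type*} [Field F] (V : ValuationSubring F) (π τ : F) (n : ℕ) (hτ0 : τ ≠ 0)
    (hπV : π ∈ V.nonunits) (h1 : π ^ n * τ⁻¹ ∈ V) (h2 : τ * (π ^ n)⁻¹ ∈ V)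
    (x : Fin n → F)
    (hx : ∀ i, x i = 0 ∨ ∃ (k : ℤ) (u : F), u ∈ V ∧ u⁻¹ ∈ V ∧ x i = τ ^ k * u)
    (hsum : ∑ i : Fin n, π ^ (i : ℕ) * x i ∈ V) :
    ∀ i : Fin n, π ^ (i : ℕ) * x i ∈ V ∧ ((i : ℕ) ≠ 0 → π ^ (i : ℕ) * x i ∈ V.nonunits) := by
  classical
  have h0non : (0 : F) ∈ V.nonunits := by
    rw [ValuationSubring.mem_nonunits_iff, map_zero]
    exact zero_lt_one
  by_cases hπ0 : π = 0
  · subst hπ0
    intro i
    by_cases hi : (i : ℕ) = 0
    · have hs : ∑ j : Fin n, (0 : F) ^ (j : ℕ) * x j = (0 : F) ^ (i : ℕ) * x i := by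
        apply Finset.sum_eq_single i
        · intro j _ hj
          have hj0 : (j : ℕ) ≠ 0 := fun h => hj (Fin.ext (h.trans hi.symm))
          rw [zero_pow hj0, zero_mul]
        · intro h
          exact absurd (Finset.mem_univ i) h
      rw [hs] at hsum
      exact ⟨hsum, fun h => absurd hi h⟩
    · rw [zero_pow hi, zero_mul]
      exact ⟨V.zero_mem, fun _ => h0non⟩
  -- the main case
  set g := V.valuation π with hg
  have hg0 : g ≠ 0 := (Valuation.ne_zero_iff _).mpr hπ0
  have hg1 : g < 1 := (ValuationSubring.mem_nonunits_iff V).mp hπV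
  have hτpos : 0 < V.valuation τ := zero_lt_iff.mpr ((Valuation.ne_zero_iff _).mpr hτ0)
  have hπn0 : π ^ n ≠ 0 := pow_ne_zero _ hπ0
  have hπnpos : 0 < V.valuation (π ^ n) := zero_lt_iff.mpr ((Valuation.ne_zero_iff _).mpr hπn0)
  have hτ : V.valuation τ = g ^ n := by
    apply le_antisymm
    · have h := (ValuationSubring.valuation_le_one_iff V _).mpr h2
      rw [map_mul, map_inv₀, mul_inv_le_iff₀ hπnpos, one_mul, map_pow] at h
      exact h
    · have h := (ValuationSubring.valuation_le_one_iff V _).mpr h1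
      rw [map_mul, map_inv₀, mul_inv_le_iff₀ hτpos, one_mul, map_pow] at h
      exact h
  -- valuations of the terms
  have hval : ∀ i : Fin n, x i = 0 ∨
      ∃ k : ℤ, V.valuation (π ^ (i : ℕ) * x i) = g ^ (((i : ℕ) : ℤ) + (n : ℤ) * k) := by
    intro i
    rcases hx i with h | ⟨k, u, hu, hu', hxi⟩
    · exact Or.inl h
    · by_cases hu0 : u = 0
      · left
        rw [hxi, hu0, mul_zero]
      refine Or.inr ⟨k, ?_⟩
      have hu0' : V.valuation u ≠ 0 := (Valuation.ne_zero_iff _).mpr hu0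
      have hu1 : V.valuation u = 1 := by
        apply le_antisymm ((ValuationSubring.valuation_le_one_iff V _).mpr hu)
        have h := (ValuationSubring.valuation_le_one_iff V _).mpr hu'
        rw [map_inv₀] at h
        by_contra hlt
        rw [not_le] at hlt
        have h3 : (1 : V.ValueGroup) < (V.valuation u)⁻¹ := by
          rw [one_lt_inv₀ (zero_lt_iff.mpr hu0')]
          exact hlt
        exact absurd h (not_le.mpr h3)
      rw [hxi, map_mul, map_mul, map_pow, map_zpow₀, hu1, mul_one, hτ, ← hg, ← zpow_natCast g n,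
        ← zpow_mul, ← zpow_natCast g (i : ℕ), ← zpow_add₀ hg0]
  -- if all `x i` vanish the claim is trivial
  by_cases hall : ∀ i, x i = 0
  · intro i
    rw [hall i, mul_zero]
    exact ⟨V.zero_mem, fun _ => h0non⟩
  have hS : (Finset.univ.filter (fun i : Fin n => x i ≠ 0)).Nonempty := by
    obtain ⟨i, hi⟩ := not_forall.mp hall
    exact ⟨i, Finset.mem_filter.mpr ⟨Finset.mem_univ _, hi⟩⟩
  obtain ⟨j, hjS, hjmax⟩ := Finset.exists_max_image _
    (fun i : Fin n => V.valuation (π ^ (i : ℕ) * x i)) hS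
  have hxj : x j ≠ 0 := (Finset.mem_filter.mp hjS).2
  have hTj : π ^ (j : ℕ) * x j ≠ 0 := mul_ne_zero (pow_ne_zero _ hπ0) hxj
  have hmodinj : ∀ (a b : Fin n) (ka kb : ℤ),
      (((a : ℕ) : ℤ) + (n : ℤ) * ka) = (((b : ℕ) : ℤ) + (n : ℤ) * kb) → a = b := by
    intro a b ka kb h
    have h' := congrArg (fun z : ℤ => z % (n : ℤ)) h
    simp only [Int.add_mul_emod_self_left] at h'
    rw [Int.emod_eq_of_lt (by positivity) (by exact_mod_cast a.2),
      Int.emod_eq_of_lt (by positivity) (by exact_mod_cast b.2)] at h'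
    exact Fin.ext (by exact_mod_cast h')
  have hlt : ∀ i ∈ (Finset.univ : Finset (Fin n)) \ {j},
      V.valuation (π ^ (i : ℕ) * x i) < V.valuation (π ^ (j : ℕ) * x j) := by
    intro i hi
    have hij : i ≠ j := by
      intro h
      rw [Finset.mem_sdiff, Finset.mem_singleton] at hi
      exact hi.2 h
    rcases hval i with h | ⟨ki, hki⟩
    · rw [h, mul_zero, map_zero]
      exact zero_lt_iff.mpr ((Valuation.ne_zero_iff _).mpr hTj)
    · have hxi : x i ≠ 0 := by
        intro h
        rw [h, mul_zero, map_zero] at hki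
        exact (zpow_ne_zero _ hg0) hki.symm
      have hle := hjmax i (Finset.mem_filter.mpr ⟨Finset.mem_univ _, hxi⟩)
      refine lt_of_le_of_ne hle ?_
      intro heq
      rcases hval j with h | ⟨kj, hkj⟩
      · exact hxj h
      · rw [hki, hkj] at heq
        exact hij (hmodinj i j ki kj (s36bk_zpow_inj g hg0 hg1 _ _ heq))
  have hsumval : V.valuation (∑ i : Fin n, π ^ (i : ℕ) * x i)
      = V.valuation (π ^ (j : ℕ) * x j) :=
    Valuation.map_sum_eq_of_lt _ (Finset.mem_univ j) hlt
  have hj1 : V.valuation (π ^ (j : ℕ) * x j) ≤ 1 := by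
    rw [← hsumval]
    exact (ValuationSubring.valuation_le_one_iff V _).mpr hsum
  have hle1 : ∀ i : Fin n, V.valuation (π ^ (i : ℕ) * x i) ≤ 1 := by
    intro i
    by_cases hij : i = j
    · rw [hij]
      exact hj1
    · exact (hlt i (by
        rw [Finset.mem_sdiff, Finset.mem_singleton]
        exact ⟨Finset.mem_univ _, hij⟩)).le.trans hj1
  intro i
  refine ⟨(ValuationSubring.valuation_le_one_iff V _).mp (hle1 i), fun hi0 => ?_⟩
  rcases hval i with h | ⟨ki, hki⟩
  · rw [h, mul_zero]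
    exact h0non
  · rw [ValuationSubring.mem_nonunits_iff]
    refine lt_of_le_of_ne (hle1 i) ?_
    intro h1'
    rw [hki] at h1'
    have h0' : g ^ (((i : ℕ) : ℤ) + (n : ℤ) * ki) = g ^ (0 : ℤ) := by
      rw [h1', zpow_zero]
    have h2' := s36bk_zpow_inj g hg0 hg1 _ _ h0'
    have h3' := congrArg (fun z : ℤ => z % (n : ℤ)) h2'
    simp only [Int.add_mul_emod_self_left, Int.zero_emod] at h3'
    rw [Int.emod_eq_of_lt (by positivity) (by exact_mod_cast i.2)] at h3'
    exact hi0 (by exact_mod_cast h3')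

end Fermat.Agent.S36
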