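import Mathlib
import Fermat.Agent.S36.BaseGauss
import Fermat.Agent.S36.BaseTrCar
import Fermat.Agent.S36.BaseTrVal
import Fermat.Agent.S36.BaseGalDec

/-!
# S36, family BASE, leaf BASE-DEC at the carrier

`s36by_carrier : s36biDec M hqM A hA H`: for every finite normal `K1 ⊆ ℚ̄` with inertia field
`K2 = K1 ⊓ (ℚ̄)^I`, every element of the level-`M` function field over `K1` which is integral over
`(A ∩ K1)[t]` is congruent, modulo the Gauss maximal ideal over `ℚ̄`, to an element of the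
function field over `K2` which is integral over `(A ∩ K2)[t]`.

Proof: `K1 / K2` is totally ramified with `π`-power basis (`s36bw_main`); the Galois
decomposition `x1 = ∑ π^i z_i` with `z_i` over `K2`, integral over `K2[t]` (`s36bq_galdec`);
each `z_i` is a power of `q` times a Gauss unit (`s36bx_unit`: the Gauss valuation of the
function field over `K2` is unramified), so the Gauss values of the terms are pairwise distinct
and every term is Gauss-integral, the terms with `i ≥ 1` being non-units (`s36bk_val`); finally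
`z_0` is integral over `(A ∩ K2)[t]` (`s36bx_integral`).
-/

set_option autoImplicit false
set_option linter.style.haveILetI false
set_option linter.unusedSectionVars false

noncomputable section

open ModularCurve Polynomial
open Fermat.Agent.S18 Fermat.Agent.S34 Fermat.Agent.S28

namespace Fermat.Agent.S36

local notation "Qb" => AlgebraicClosure ℚ

/-- integral over `(A ∩ K1)[t1]` implies Gauss-integral over `ℚ̄` -/
theorem s36by_mem_grO (M : ℕ) [NeZero M] {q : ℕ} [hq : Fact q.Prime] (hqM : ¬ q ∣ M)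
    (A : ValuationSubring Qb) (hA : A.LiesOverPrime q)
    (K1 : IntermediateField ℚ Qb)
    (t1 x1 : ↥(laurentBaseChange ↥K1 (modularFunctionFieldFull M)))
    (htV : bcfHom ↥K1 Qb (modularFunctionFieldFull M) t1 ∈ grO A hA M hqM)
    (hx1 : ((((Polynomial.aeval t1 :
          (↥K1)[X] →ₐ[↥K1] ↥(laurentBaseChange ↥K1 (modularFunctionFieldFull M))) :
          (↥K1)[X] →+* _).comp
        (Polynomial.mapRingHom (A.comap (algebraMap ↥K1 Qb)).subtype)).IsIntegralElem x1)) :
    bcfHom ↥K1 Qb (modularFunctionFieldFull M) x1 ∈ grO A hA M hqM := by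
  classical
  obtain ⟨P, hPm, hP⟩ := hx1
  -- the ring hom `A[X] → F_Qb`
  let f : (↥A)[X] →+* ↥(laurentBaseChange Qb (modularFunctionFieldFull M)) :=
    ((Polynomial.aeval (bcfHom ↥K1 Qb (modularFunctionFieldFull M) t1) :
      Qb[X] →ₐ[Qb] ↥(laurentBaseChange Qb (modularFunctionFieldFull M))) :
      Qb[X] →+* ↥(laurentBaseChange Qb (modularFunctionFieldFull M))).comp
        (Polynomial.mapRingHom A.subtype)
  letI : Algebra (↥A)[X] ↥(laurentBaseChange Qb (modularFunctionFieldFull M)) := f.toAlgebra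
  have hS : ∀ p : (↥A)[X], algebraMap (↥A)[X]
      ↥(laurentBaseChange Qb (modularFunctionFieldFull M)) p ∈ grO A hA M hqM := by
    intro p
    show aeval (bcfHom ↥K1 Qb (modularFunctionFieldFull M) t1) (p.map A.subtype) ∈ _
    rw [aeval_eq_sum_range]
    refine sum_mem fun i _ => ?_
    rw [coeff_map, Algebra.smul_def]
    refine mul_mem ?_ (pow_mem htV i)
    exact (cinst_algebraMap_mem_iff (grO A hA M hqM) (fun _ => Iff.rfl) _).mpr (p.coeff i).2
  have hint : f.IsIntegralElem (bcfHom ↥K1 Qb (modularFunctionFieldFull M) x1) := by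
    refine ⟨P.map (Polynomial.mapRingHom (bcfInc (K₀ := ↥K1) A)), hPm.map _, ?_⟩
    rw [Polynomial.eval₂_map]
    have hcomp := smib_comp (K₀ := ↥K1) A M _ t1 rfl
    rw [show f.comp (Polynomial.mapRingHom (bcfInc (K₀ := ↥K1) A)) = _ from hcomp.symm,
      ← Polynomial.hom_eval₂, hP, map_zero]
  exact valext_mem_of_isIntegral (grO A hA M hqM) hS _ hint

/-- **(BASE-DEC) at the carrier**: the seam `s36bsDec` for every finite normal `K1` and its
inertia field. -/
theorem s36by_carrier (M : ℕ) [NeZero M] {q : ℕ} [hq : Fact q.Prime] (hqM : ¬ q ∣ M)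
    (A : ValuationSubring Qb) (hA : A.LiesOverPrime q) {a2 : ℕ} (H : HauptRec a2 q) :
    s36biDec M hqM A hA H := by
  intro K1 _ _ c0 c1 hc0 hc1 h01 t1 t2 ht2 ht x1 hx1
  classical
  letI : Algebra ↥(K1 ⊓ IntermediateField.fixedField (A.inertiaSubgroupIn ℚ)) ↥K1 :=
    (IntermediateField.inclusion inf_le_left).toRingHom.toAlgebra
  -- facts on `K2`
  have hK2fix : ∀ x ∈ K1 ⊓ IntermediateField.fixedField (A.inertiaSubgroupIn ℚ),
      ∀ σ ∈ A.inertiaSubgroupIn ℚ, σ x = x := fun x hx σ hσ =>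
    (IntermediateField.mem_fixedField_iff _ _).mp hx.2 σ hσ
  haveI hfd2 : FiniteDimensional ℚ ↥(K1 ⊓ IntermediateField.fixedField (A.inertiaSubgroupIn ℚ)) :=
    FiniteDimensional.of_injective (IntermediateField.inclusion (inf_le_left :
      K1 ⊓ IntermediateField.fixedField (A.inertiaSubgroupIn ℚ) ≤ K1)).toLinearMap
      (IntermediateField.inclusion_injective (inf_le_left :
        K1 ⊓ IntermediateField.fixedField (A.inertiaSubgroupIn ℚ) ≤ K1))
  haveI : FiniteDimensional ↥(K1 ⊓ IntermediateField.fixedField (A.inertiaSubgroupIn ℚ)) ↥K1 :=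
    (s36bg_hinv A K1).2.1
  have hn : 0 < Module.finrank ↥(K1 ⊓ IntermediateField.fixedField (A.inertiaSubgroupIn ℚ)) ↥K1 :=
    Module.finrank_pos
  -- the uniformiser and the basis
  obtain ⟨π, hπ0, hπ, hπgen⟩ := s36bw_exists_unif q A hA K1
  obtain ⟨-, ⟨hd1, hd2⟩, hb, -, -, hc'⟩ := s36bw_main q A hA K1 π hπ0 hπ hπgen
  -- the decomposition
  have hx1K : (aeval t1 : (↥K1)[X] →ₐ[↥K1]
      ↥(laurentBaseChange ↥K1 (modularFunctionFieldFull M))).toRingHom.IsIntegralElem x1 := by
    obtain ⟨P, hPm, hP⟩ := hx1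
    exact ⟨P.map (Polynomial.mapRingHom (A.comap (algebraMap ↥K1 Qb)).subtype), hPm.map _, by
      rw [Polynomial.eval₂_map]; exact hP⟩
  obtain ⟨z, hzint, hsum⟩ := s36bq_galdec (modularFunctionFieldFull M) A K1 π hb hc' t1 t2 ht x1
    hx1K
  -- the chart coordinate is Gauss-integral
  have htV : bcfHom ↥K1 Qb (modularFunctionFieldFull M) t1 ∈ grO A hA M hqM := by
    rw [ht, mem_grO_iff, bcfHom_coe, ht2, cinstU_coeffMap]
    exact cinstU_mem_grV H A ⟨_, hc0⟩ ⟨_, hc1⟩
  have hx1V := s36by_mem_grO M hqM A hA K1 t1 x1 htV hx1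
  -- the constants
  have hq0 : ((q : ℕ) : Qb) ≠ 0 := by exact_mod_cast hq.out.ne_zero
  have hπQ : ((π : ↥K1) : Qb) ≠ 0 := fun h => hπ0 (Subtype.ext h)
  have hτ0 : algebraMap Qb ↥(laurentBaseChange Qb (modularFunctionFieldFull M)) ((q : ℕ) : Qb) ≠ 0 := by
    rw [Ne, map_eq_zero]; exact hq0
  have hπV : algebraMap Qb ↥(laurentBaseChange Qb (modularFunctionFieldFull M)) ((π : ↥K1) : Qb) ∈
      (grO A hA M hqM).nonunits := by
    have h1 : ((π : ↥K1) : Qb) ∈ A.nonunits :=
      (dvd_mem_nonunits_comap (algebraMap ↥K1 Qb) A π).mp hπ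
    obtain ⟨hmem, hmax⟩ := ValuationSubring.mem_nonunits_iff_exists_mem_maximalIdeal.mp h1
    exact cinst_algebraMap_mem_nonunits (grO A hA M hqM) (fun _ => Iff.rfl) ⟨_, hmem⟩ hmax
  have h1 : algebraMap Qb ↥(laurentBaseChange Qb (modularFunctionFieldFull M)) ((π : ↥K1) : Qb) ^
      Module.finrank ↥(K1 ⊓ IntermediateField.fixedField (A.inertiaSubgroupIn ℚ)) ↥K1 *
      (algebraMap Qb ↥(laurentBaseChange Qb (modularFunctionFieldFull M)) ((q : ℕ) : Qb))⁻¹ ∈
      grO A hA M hqM := by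
    rw [← map_pow, ← map_inv₀, ← map_mul]
    refine (cinst_algebraMap_mem_iff (grO A hA M hqM) (fun _ => Iff.rfl) _).mpr ?_
    have h := ValuationSubring.mem_comap.mp hd1
    rw [map_mul, map_pow, map_inv₀] at h
    exact h
  have h2 : algebraMap Qb ↥(laurentBaseChange Qb (modularFunctionFieldFull M)) ((q : ℕ) : Qb) *
      (algebraMap Qb ↥(laurentBaseChange Qb (modularFunctionFieldFull M)) ((π : ↥K1) : Qb) ^
      Module.finrank ↥(K1 ⊓ IntermediateField.fixedField (A.inertiaSubgroupIn ℚ)) ↥K1)⁻¹ ∈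
      grO A hA M hqM := by
    rw [← map_pow, ← map_inv₀, ← map_mul]
    refine (cinst_algebraMap_mem_iff (grO A hA M hqM) (fun _ => Iff.rfl) _).mpr ?_
    have h := ValuationSubring.mem_comap.mp hd2
    rw [map_mul, map_inv₀, map_pow] at h
    exact h
  -- the Gauss unit decompositions
  have hxu : ∀ i, bcfHom ↥(K1 ⊓ IntermediateField.fixedField (A.inertiaSubgroupIn ℚ)) Qb
        (modularFunctionFieldFull M) (z i) = 0 ∨
      ∃ (k : ℤ) (u : ↥(laurentBaseChange Qb (modularFunctionFieldFull M))),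
        u ∈ grO A hA M hqM ∧ u⁻¹ ∈ grO A hA M hqM ∧
        bcfHom ↥(K1 ⊓ IntermediateField.fixedField (A.inertiaSubgroupIn ℚ)) Qb
          (modularFunctionFieldFull M) (z i) =
          algebraMap Qb ↥(laurentBaseChange Qb (modularFunctionFieldFull M)) ((q : ℕ) : Qb) ^ k *
            u := by
    intro i
    by_cases hz : z i = 0
    · left; rw [hz, map_zero]
    · right
      obtain ⟨k, u, hu, hu', he⟩ := s36bx_unit M hqM A hA _ hK2fix (z i) hz
      exact ⟨k, u, hu, hu', by rw [he, map_zpow₀]⟩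
  have hsumV : ∑ i : Fin (Module.finrank
      ↥(K1 ⊓ IntermediateField.fixedField (A.inertiaSubgroupIn ℚ)) ↥K1),
      algebraMap Qb ↥(laurentBaseChange Qb (modularFunctionFieldFull M)) ((π : ↥K1) : Qb) ^ (i : ℕ) *
        bcfHom ↥(K1 ⊓ IntermediateField.fixedField (A.inertiaSubgroupIn ℚ)) Qb
          (modularFunctionFieldFull M) (z i) ∈ grO A hA M hqM := by
    have e : ∑ i : Fin (Module.finrank
        ↥(K1 ⊓ IntermediateField.fixedField (A.inertiaSubgroupIn ℚ)) ↥K1),
        algebraMap Qb ↥(laurentBaseChange Qb (modularFunctionFieldFull M)) ((π : ↥K1) : Qb) ^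
          (i : ℕ) * bcfHom ↥(K1 ⊓ IntermediateField.fixedField (A.inertiaSubgroupIn ℚ)) Qb
          (modularFunctionFieldFull M) (z i) =
        bcfHom ↥K1 Qb (modularFunctionFieldFull M) x1 := by
      rw [hsum]
      exact Finset.sum_congr rfl fun i _ => by rw [map_pow]
    rw [e]
    exact hx1V
  have hval := s36bk_val (grO A hA M hqM) _ _ _ hτ0 hπV h1 h2 _ hxu hsumV
  -- the constant term
  have hz0V : bcfHom ↥(K1 ⊓ IntermediateField.fixedField (A.inertiaSubgroupIn ℚ)) Qb
      (modularFunctionFieldFull M) (z ⟨0, hn⟩) ∈ grO A hA M hqM := by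
    have h := (hval ⟨0, hn⟩).1
    rwa [pow_zero, one_mul] at h
  refine ⟨z ⟨0, hn⟩, s36bx_integral M hqM A hA H _ c0 c1 hc0 hc1 h01 t2 ht2 _ hz0V (hzint _), ?_⟩
  rw [hsum, ← Finset.add_sum_erase Finset.univ _ (Finset.mem_univ (⟨0, hn⟩ : Fin _))]
  simp only [pow_zero, map_one, one_mul, add_sub_cancel_left]
  rw [ValuationSubring.mem_nonunits_iff]
  refine Valuation.map_sum_lt _ one_ne_zero (fun i hi => ?_)
  have hi0 : (i : ℕ) ≠ 0 := fun h => (Finset.ne_of_mem_erase hi) (Fin.ext h)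
  have h := (ValuationSubring.mem_nonunits_iff _).mp ((hval i).2 hi0)
  rwa [← map_pow] at h

end Fermat.Agent.S36
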