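import Mathlib
import Fermat.Agent.S34.Val2Gen
import Fermat.Agent.S34.Val2Swap
import Fermat.Agent.S35.NormSquare

/-!
# S36, [VAL3-DEG]: degrees and generation at level `N q²` over level `N q`

`K0` a field of characteristic zero, `q` a prime, `F_N = K0(X₀(N))`, `α = heckeAlphaBar`,
`β = heckeBetaBar`.

* `s36dDeg φ`: the degree of a field embedding; `s36dDeg_comp`, `s36dDeg_eq_of_range`,
  `s36dDeg_equiv_comp`;
* `s36d_finrank_alpha`: `[F_{Mq} : α F_M] = q` for `q ∣ M`;
* `s36d_finrank_beta`: `[F_{Nq²} : β F_{Nq}] = q` for `q ∤ N`;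
* `s36d_beta_alpha`: `β₁ ∘ α₀ = α₁ ∘ β₀` (`F_N → F_{Nq²}`);
* `s36d_gen_alpha_closure`, `s36d_gen_beta_closure`, `s36d_gen_alpha`, `s36d_gen_beta`:
  `F_{Nq²} = α₁(F_{Nq})(j(t^{q²})) = β₁(F_{Nq})(j(t))`, given the generation at level `N q`;
* `s36d_natDegree_alpha`, `s36d_natDegree_beta`: the minimal polynomials have degree `q`.

Names are prefixed `s36d`.
-/

set_option autoImplicit false
set_option linter.style.haveILetI false

noncomputable section

open AlgebraicCurve ModularCurve Fermat.Agent.S37 Fermat.Agent.S18 Fermat.Agent.S34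
  Fermat.Agent.S24 Fermat.Agent.S28 Fermat.Agent.S35

open scoped IntermediateField

namespace Fermat.Agent.S36

local notation "Qb" => AlgebraicClosure ℚ

/-! ### the degree of a field embedding -/

section deg

/-- the degree `[F : φ E]` of a field embedding -/
def s36dDeg {E F : Type*} [Field E] [Field F] (φ : E →+* F) : ℕ :=
  letI := φ.toAlgebra
  Module.finrank E F

theorem s36dDeg_comp {D E F : Type*} [Field D] [Field E] [Field F] (ψ : D →+* E) (φ : E →+* F) :
    s36dDeg (φ.comp ψ) = s36dDeg ψ * s36dDeg φ := by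
  letI := ψ.toAlgebra
  letI := φ.toAlgebra
  letI := (φ.comp ψ).toAlgebra
  haveI : IsScalarTower D E F := IsScalarTower.of_algebraMap_eq fun _ => rfl
  haveI : Module.Free D E := Module.Free.of_divisionRing _ _
  haveI : Module.Free E F := Module.Free.of_divisionRing _ _
  exact (Module.finrank_mul_finrank D E F).symm

theorem s36dDeg_eq_of_range {E₁ E₂ F : Type*} [Field E₁] [Field E₂] [Field F]
    (φ₁ : E₁ →+* F) (φ₂ : E₂ →+* F)
    (h : ∀ x : F, x ∈ Set.range φ₁ ↔ x ∈ Set.range φ₂) : s36dDeg φ₁ = s36dDeg φ₂ := by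
  letI := φ₁.toAlgebra
  letI := φ₂.toAlgebra
  exact va2d_finrank_eq_of_range h

theorem s36dDeg_equiv_comp {D E : Type*} [Field D] [Field E] (ψ : D →+* E) (u : E ≃+* E) :
    s36dDeg ((u : E →+* E).comp ψ) = s36dDeg ψ := by
  have h := @Algebra.finrank_eq_of_equiv_equiv D E _ _ ψ.toAlgebra D E _ _
    ((u : E →+* E).comp ψ).toAlgebra (RingEquiv.refl D) u (RingHom.ext fun _ => rfl)
  exact h.symm

theorem s36dDeg_algebraMap {E F : Type*} [Field E] [Field F] [Algebra E F] :
    s36dDeg (algebraMap E F) = Module.finrank E F := by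
  have h := @Algebra.finrank_eq_of_equiv_equiv E F _ _ (algebraMap E F).toAlgebra E F _ _ _
    (RingEquiv.refl E) (RingEquiv.refl F) (RingHom.ext fun _ => rfl)
  exact h

theorem s36dDeg_along {K F F' : Type*} [Field K] [Field F] [Field F'] [Algebra K F]
    [Algebra K F'] (φ : F →ₐ[K] F') : finrankAlong K φ = s36dDeg φ.toRingHom := rfl

end deg

section level

variable (K0 : Type*) [Field K0] [Algebra ℚ K0]

/-- `ψ(M) > 0` -/
theorem s36d_psi_pos (M : ℕ) : 0 < psi M := by
  unfold psi
  refine Finset.prod_pos fun r hr => ?_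
  have hr0 : 0 < r := (Nat.prime_of_mem_primeFactors hr).pos
  exact Nat.mul_pos (Nat.succ_pos r) (pow_pos hr0 _)

/-- **(D1)** `[K0(X₀(M q)) : α K0(X₀(M))] = q` for a prime `q ∣ M`. -/
theorem s36d_finrank_alpha (M q : ℕ) [NeZero M] [NeZero q] (hq : q.Prime) (h : q ∣ M) :
    finrankAlong K0 (heckeAlphaBar K0 M q) = q := by
  have h1 := va2d_finrank_mul K0 M q
  have h2 : psi (M * q) = q * psi M := by
    rw [mul_comm M q]
    exact psi_mul_of_dvd hq (NeZero.pos M) h
  rw [h2, mul_comm] at h1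
  exact Nat.eq_of_mul_eq_mul_right (s36d_psi_pos M) h1

/-- `K0(X₀(M q))` is finite over `α K0(X₀(M))` for a prime `q ∣ M`. -/
theorem s36d_finite_alpha (M q : ℕ) [NeZero M] [NeZero q] (hq : q.Prime) (h : q ∣ M) :
    FiniteAlong K0 (heckeAlphaBar K0 M q) := by
  have h1 := s36d_finrank_alpha K0 M q hq h
  letI := algebraAlong (heckeAlphaBar K0 M q)
  show Module.Finite ↥(laurentBaseChange K0 (modularFunctionFieldFull M))
    ↥(laurentBaseChange K0 (modularFunctionFieldFull (M * q)))
  exact Module.finite_of_finrank_pos (by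
    have h' : Module.finrank ↥(laurentBaseChange K0 (modularFunctionFieldFull M))
      ↥(laurentBaseChange K0 (modularFunctionFieldFull (M * q))) = q := h1
    rw [h']
    exact hq.pos)

/-- `β₁ ∘ α₀ = α₁ ∘ β₀` as maps `F_N → F_{N q q}` -/
theorem s36d_beta_alpha (N q : ℕ) [NeZero N] [NeZero q]
    (x : ↥(laurentBaseChange K0 (modularFunctionFieldFull N))) :
    heckeBetaBar K0 (N * q) q (heckeAlphaBar K0 N q x) =
      heckeAlphaBar K0 (N * q) q (heckeBetaBar K0 N q x) := by
  apply Subtype.ext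
  rw [coe_heckeBetaBar, coe_heckeAlphaBar, coe_heckeAlphaBar, coe_heckeBetaBar]

/-- `α` on the generators `j(t^d)` -/
theorem s36d_alpha_jd (M q : ℕ) [NeZero M] [NeZero q] (d : ℕ) [NeZero d] (hd : d ∣ M)
    (hd' : d ∣ M * q) :
    heckeAlphaBar K0 M q (va2Jd K0 M d hd) = va2Jd K0 (M * q) d hd' := by
  apply Subtype.ext
  rw [coe_heckeAlphaBar, va2Jd_coe, va2Jd_coe]

/-- `β` on the generators `j(t^d)` -/
theorem s36d_beta_jd (M q : ℕ) [NeZero M] [NeZero q] (d : ℕ) [NeZero d] (hd : d ∣ M)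
    (hd' : q * d ∣ M * q) :
    heckeBetaBar K0 M q (va2Jd K0 M d hd) = va2Jd K0 (M * q) (q * d) hd' := by
  apply Subtype.ext
  rw [coe_heckeBetaBar, va2Jd_coe, va2Jd_coe, ← qExpand_qExpand d q, coeffEmb, coeffMap_qExpand,
    coeffMap_qExpand, coeffMap_qExpand]

end level

/-! ### the degree along `β` at level `N q²` -/

section beta

variable (K0 : Type*) [Field K0] [Algebra ℚ K0] [Algebra K0 Qb]
  (N q : ℕ) [NeZero N] [NeZero q] (hq : q.Prime) (hN : ¬ q ∣ N)

/-- the swap of level `(N, q)` as a `K0`-algebra endomorphism -/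
def s36dSwapAlg :
    ↥(laurentBaseChange K0 (modularFunctionFieldFull (N * q))) →ₐ[K0]
      ↥(laurentBaseChange K0 (modularFunctionFieldFull (N * q))) :=
  { va2Swap N q hq hN K0 with
    commutes' := fun c => va2Swap_const N q hq hN K0 c }

theorem s36dSwapAlg_apply (x : ↥(laurentBaseChange K0 (modularFunctionFieldFull (N * q)))) :
    s36dSwapAlg K0 N q hq hN x = va2Swap N q hq hN K0 x := rfl

include hq hN in
/-- `β₁ j = α₁ (w j)` -/
theorem s36d_beta_grJ :
    heckeBetaBar K0 (N * q) q (grJ K0 (N * q)) =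
      heckeAlphaBar K0 (N * q) q (va2Swap N q hq hN K0 (grJ K0 (N * q))) := by
  rw [← va2d_alpha_grJ K0 N q, va2Swap_alpha, s36d_beta_alpha]

include hq hN in
/-- **(D2)** `[K0(X₀(N q²)) : β K0(X₀(N q))] = q` for a prime `q ∤ N`. -/
theorem s36d_finrank_beta :
    finrankAlong K0 (heckeBetaBar K0 (N * q) q) = q := by
  have hNq : q ∣ N * q := dvd_mul_left q N
  set J : ↥(laurentBaseChange K0 (modularFunctionFieldFull (N * q))) := grJ K0 (N * q) with hJ
  set incl : ↥(K0⟮J⟯) →+* ↥(laurentBaseChange K0 (modularFunctionFieldFull (N * q))) :=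
    algebraMap ↥(K0⟮J⟯) ↥(laurentBaseChange K0 (modularFunctionFieldFull (N * q))) with hincl
  have hdeg_incl : s36dDeg incl = psi (N * q) := by
    rw [hincl, s36dDeg_algebraMap]
    exact (va2d_finrank_j K0 (N * q)).1
  -- the two chains
  have ha : s36dDeg ((heckeBetaBar K0 (N * q) q).toRingHom.comp incl) =
      psi (N * q) * s36dDeg (heckeBetaBar K0 (N * q) q).toRingHom := by
    rw [s36dDeg_comp, hdeg_incl]
  have hb : s36dDeg ((heckeAlphaBar K0 (N * q) q).toRingHom.comp
      (((va2SwapEquiv N q hq hN K0 : _ ≃+* _) : _ →+* _).comp incl)) = psi (N * q) * q := by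
    rw [s36dDeg_comp, s36dDeg_equiv_comp, hdeg_incl, ← s36dDeg_along,
      s36d_finrank_alpha K0 (N * q) q hq hNq]
  -- the two embeddings of `K0(j)` have the same image
  have hrange : ∀ x : ↥(laurentBaseChange K0 (modularFunctionFieldFull (N * q * q))),
      x ∈ Set.range ((heckeBetaBar K0 (N * q) q).toRingHom.comp incl) ↔
        x ∈ Set.range ((heckeAlphaBar K0 (N * q) q).toRingHom.comp
          (((va2SwapEquiv N q hq hN K0 : _ ≃+* _) : _ →+* _).comp incl)) := by
    intro x
    have h1 : (K0⟮J⟯).map (heckeBetaBar K0 (N * q) q) =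
        K0⟮heckeBetaBar K0 (N * q) q J⟯ := by
      rw [IntermediateField.adjoin_map, Set.image_singleton]
    have h2 : (K0⟮J⟯).map ((heckeAlphaBar K0 (N * q) q).comp (s36dSwapAlg K0 N q hq hN)) =
        K0⟮heckeAlphaBar K0 (N * q) q (va2Swap N q hq hN K0 J)⟯ := by
      rw [IntermediateField.adjoin_map, Set.image_singleton]
      rfl
    have h3 : (K0⟮J⟯).map (heckeBetaBar K0 (N * q) q) =
        (K0⟮J⟯).map ((heckeAlphaBar K0 (N * q) q).comp (s36dSwapAlg K0 N q hq hN)) := by
      rw [h1, h2, hJ, s36d_beta_grJ K0 N q hq hN]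
    constructor
    · rintro ⟨d, rfl⟩
      have hd : heckeBetaBar K0 (N * q) q (d : ↥(laurentBaseChange K0
          (modularFunctionFieldFull (N * q)))) ∈ (K0⟮J⟯).map (heckeBetaBar K0 (N * q) q) :=
        ⟨d, d.2, rfl⟩
      rw [h3] at hd
      obtain ⟨y, hy, hyd⟩ := hd
      exact ⟨⟨y, hy⟩, hyd⟩
    · rintro ⟨d, rfl⟩
      have hd : (heckeAlphaBar K0 (N * q) q).comp (s36dSwapAlg K0 N q hq hN)
          (d : ↥(laurentBaseChange K0 (modularFunctionFieldFull (N * q)))) ∈
          (K0⟮J⟯).map ((heckeAlphaBar K0 (N * q) q).comp (s36dSwapAlg K0 N q hq hN)) :=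
        ⟨d, d.2, rfl⟩
      rw [← h3] at hd
      obtain ⟨y, hy, hyd⟩ := hd
      exact ⟨⟨y, hy⟩, hyd⟩
  have hab := s36dDeg_eq_of_range _ _ hrange
  rw [ha, hb] at hab
  rw [s36dDeg_along]
  exact Nat.eq_of_mul_eq_mul_left (s36d_psi_pos (N * q)) hab

include hq hN in
/-- `K0(X₀(N q²))` is finite over `β K0(X₀(N q))` for a prime `q ∤ N`. -/
theorem s36d_finite_beta : FiniteAlong K0 (heckeBetaBar K0 (N * q) q) := by
  have h1 := s36d_finrank_beta K0 N q hq hN
  letI := algebraAlong (heckeBetaBar K0 (N * q) q)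
  show Module.Finite ↥(laurentBaseChange K0 (modularFunctionFieldFull (N * q)))
    ↥(laurentBaseChange K0 (modularFunctionFieldFull (N * q * q)))
  exact Module.finite_of_finrank_pos (by
    have h' : Module.finrank ↥(laurentBaseChange K0 (modularFunctionFieldFull (N * q)))
      ↥(laurentBaseChange K0 (modularFunctionFieldFull (N * q * q))) = q := h1
    rw [h']
    exact hq.pos)

end beta

/-! ### generation at level `N q²` -/

section gen

theorem s36d_toRingHom_apply {K A B : Type*} [CommSemiring K] [Semiring A] [Semiring B]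
    [Algebra K A] [Algebra K B] (φ : A →ₐ[K] B) (x : A) : φ.toRingHom x = φ x := rfl

variable (K0 : Type*) [Field K0] [Algebra ℚ K0] (N q : ℕ) [NeZero N] [NeZero q]

/-- `β₁(F_{Nq})` lies in the subfield generated by `α₁(F_{Nq})` and `β₁ β₀ j` -/
theorem s36d_beta_mem (x : ↥(laurentBaseChange K0 (modularFunctionFieldFull N)))
    (hgen0 : ∀ z : ↥(laurentBaseChange K0 (modularFunctionFieldFull (N * q))),
      z ∈ Subfield.closure (Set.range (heckeAlphaBar K0 N q) ∪
        {heckeBetaBar K0 N q x}))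
    (z : ↥(laurentBaseChange K0 (modularFunctionFieldFull (N * q)))) :
    heckeBetaBar K0 (N * q) q z ∈
      Subfield.closure (Set.range (heckeAlphaBar K0 (N * q) q) ∪
        {heckeBetaBar K0 (N * q) q (heckeBetaBar K0 N q x)}) := by
  have hle : Subfield.closure (Set.range (heckeAlphaBar K0 N q) ∪
      {heckeBetaBar K0 N q x}) ≤
      (Subfield.closure (Set.range (heckeAlphaBar K0 (N * q) q) ∪
        {heckeBetaBar K0 (N * q) q (heckeBetaBar K0 N q x)})).comap
        (heckeBetaBar K0 (N * q) q).toRingHom := by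
    rw [Subfield.closure_le]
    rintro _ (⟨a, rfl⟩ | hb)
    · rw [SetLike.mem_coe, Subfield.mem_comap, s36d_toRingHom_apply, s36d_beta_alpha]
      exact Subfield.subset_closure (Or.inl ⟨_, rfl⟩)
    · rw [Set.mem_singleton_iff] at hb
      rw [hb, SetLike.mem_coe, Subfield.mem_comap, s36d_toRingHom_apply]
      exact Subfield.subset_closure (Or.inr rfl)
  have h := hle (hgen0 z)
  rw [Subfield.mem_comap, s36d_toRingHom_apply] at h
  exact h

/-- `α₁(F_{Nq})` lies in the subfield generated by `β₁(F_{Nq})` and `α₁ α₀ j` -/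
theorem s36d_alpha_mem (x : ↥(laurentBaseChange K0 (modularFunctionFieldFull N)))
    (hgen0 : ∀ z : ↥(laurentBaseChange K0 (modularFunctionFieldFull (N * q))),
      z ∈ Subfield.closure (Set.range (heckeBetaBar K0 N q) ∪
        {heckeAlphaBar K0 N q x}))
    (z : ↥(laurentBaseChange K0 (modularFunctionFieldFull (N * q)))) :
    heckeAlphaBar K0 (N * q) q z ∈
      Subfield.closure (Set.range (heckeBetaBar K0 (N * q) q) ∪
        {heckeAlphaBar K0 (N * q) q (heckeAlphaBar K0 N q x)}) := by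
  have hle : Subfield.closure (Set.range (heckeBetaBar K0 N q) ∪
      {heckeAlphaBar K0 N q x}) ≤
      (Subfield.closure (Set.range (heckeBetaBar K0 (N * q) q) ∪
        {heckeAlphaBar K0 (N * q) q (heckeAlphaBar K0 N q x)})).comap
        (heckeAlphaBar K0 (N * q) q).toRingHom := by
    rw [Subfield.closure_le]
    rintro _ (⟨a, rfl⟩ | hb)
    · rw [SetLike.mem_coe, Subfield.mem_comap, s36d_toRingHom_apply, ← s36d_beta_alpha]
      exact Subfield.subset_closure (Or.inl ⟨_, rfl⟩)
    · rw [Set.mem_singleton_iff] at hb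
      rw [hb, SetLike.mem_coe, Subfield.mem_comap, s36d_toRingHom_apply]
      exact Subfield.subset_closure (Or.inr rfl)
  have h := hle (hgen0 z)
  rw [Subfield.mem_comap, s36d_toRingHom_apply] at h
  exact h

/-- **(D3, α)** every function of level `N q²` lies in the subfield generated by `α₁(F_{Nq})`
and `β₁ β₀ x` (e.g. `j(t^{q²})` for `x = j`), given the generation `F_{Nq} = α₀(F_N)(β₀ x)`
at level `N q`. -/
theorem s36d_gen_alpha_closure (hq : q.Prime)
    (x : ↥(laurentBaseChange K0 (modularFunctionFieldFull N)))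
    (hgen0 : ∀ z : ↥(laurentBaseChange K0 (modularFunctionFieldFull (N * q))),
      z ∈ Subfield.closure (Set.range (heckeAlphaBar K0 N q) ∪
        {heckeBetaBar K0 N q x}))
    (y : ↥(laurentBaseChange K0 (modularFunctionFieldFull (N * q * q)))) :
    y ∈ Subfield.closure (Set.range (heckeAlphaBar K0 (N * q) q) ∪
      {heckeBetaBar K0 (N * q) q (heckeBetaBar K0 N q x)}) := by
  refine va2_mem_of_gen _ (fun c => ?_) (fun d _ hd => ?_) y
  · rw [← AlgHom.commutes (heckeAlphaBar K0 (N * q) q) c]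
    exact Subfield.subset_closure (Or.inl ⟨_, rfl⟩)
  · rcases swp_dvd_cases (N * q) q hq hd with h | ⟨e, he, rfl⟩
    · rw [← s36d_alpha_jd K0 (N * q) q d h hd]
      exact Subfield.subset_closure (Or.inl ⟨_, rfl⟩)
    · haveI : NeZero e := ⟨fun h0 => by
        subst h0
        exact (NeZero.ne (q * 0)) (Nat.mul_zero q)⟩
      rw [← s36d_beta_jd K0 (N * q) q e he hd]
      exact s36d_beta_mem K0 N q x hgen0 _

/-- **(D3, β)** every function of level `N q²` lies in the subfield generated by `β₁(F_{Nq})`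
and `α₁ α₀ x` (e.g. `j` for `x = j`), given the generation `F_{Nq} = β₀(F_N)(α₀ x)` at level
`N q`. -/
theorem s36d_gen_beta_closure (hq : q.Prime)
    (x : ↥(laurentBaseChange K0 (modularFunctionFieldFull N)))
    (hgen0 : ∀ z : ↥(laurentBaseChange K0 (modularFunctionFieldFull (N * q))),
      z ∈ Subfield.closure (Set.range (heckeBetaBar K0 N q) ∪
        {heckeAlphaBar K0 N q x}))
    (y : ↥(laurentBaseChange K0 (modularFunctionFieldFull (N * q * q)))) :
    y ∈ Subfield.closure (Set.range (heckeBetaBar K0 (N * q) q) ∪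
      {heckeAlphaBar K0 (N * q) q (heckeAlphaBar K0 N q x)}) := by
  refine va2_mem_of_gen _ (fun c => ?_) (fun d _ hd => ?_) y
  · rw [← AlgHom.commutes (heckeBetaBar K0 (N * q) q) c]
    exact Subfield.subset_closure (Or.inl ⟨_, rfl⟩)
  · rcases swp_dvd_cases (N * q) q hq hd with h | ⟨e, he, rfl⟩
    · rw [← s36d_alpha_jd K0 (N * q) q d h hd]
      exact s36d_alpha_mem K0 N q x hgen0 _
    · haveI : NeZero e := ⟨fun h0 => by
        subst h0
        exact (NeZero.ne (q * 0)) (Nat.mul_zero q)⟩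
      rw [← s36d_beta_jd K0 (N * q) q e he hd]
      exact Subfield.subset_closure (Or.inl ⟨_, rfl⟩)

/-- **(D3, α)**, adjoin form: `F_{Nq²} = α₁(F_{Nq})(j(t^{q²}))`. -/
theorem s36d_gen_alpha (hq : q.Prime)
    (x : ↥(laurentBaseChange K0 (modularFunctionFieldFull N)))
    (hgen0 : ∀ z : ↥(laurentBaseChange K0 (modularFunctionFieldFull (N * q))),
      z ∈ Subfield.closure (Set.range (heckeAlphaBar K0 N q) ∪
        {heckeBetaBar K0 N q x})) :
    letI := algebraAlong (heckeAlphaBar K0 (N * q) q)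
    IntermediateField.adjoin ↥(laurentBaseChange K0 (modularFunctionFieldFull (N * q)))
      ({heckeBetaBar K0 (N * q) q (heckeBetaBar K0 N q x)} :
        Set ↥(laurentBaseChange K0 (modularFunctionFieldFull (N * q * q)))) = ⊤ := by
  letI := algebraAlong (heckeAlphaBar K0 (N * q) q)
  rw [eq_top_iff]
  intro y _
  exact s36d_gen_alpha_closure K0 N q hq x hgen0 y

/-- **(D3, β)**, adjoin form: `F_{Nq²} = β₁(F_{Nq})(j)`. -/
theorem s36d_gen_beta (hq : q.Prime)
    (x : ↥(laurentBaseChange K0 (modularFunctionFieldFull N)))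
    (hgen0 : ∀ z : ↥(laurentBaseChange K0 (modularFunctionFieldFull (N * q))),
      z ∈ Subfield.closure (Set.range (heckeBetaBar K0 N q) ∪
        {heckeAlphaBar K0 N q x})) :
    letI := algebraAlong (heckeBetaBar K0 (N * q) q)
    IntermediateField.adjoin ↥(laurentBaseChange K0 (modularFunctionFieldFull (N * q)))
      ({heckeAlphaBar K0 (N * q) q (heckeAlphaBar K0 N q x)} :
        Set ↥(laurentBaseChange K0 (modularFunctionFieldFull (N * q * q)))) = ⊤ := by
  letI := algebraAlong (heckeBetaBar K0 (N * q) q)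
  rw [eq_top_iff]
  intro y _
  exact s36d_gen_beta_closure K0 N q hq x hgen0 y

/-- `α₁ α₀ j = j` -/
theorem s36d_alpha_alpha_grJ :
    heckeAlphaBar K0 (N * q) q (heckeAlphaBar K0 N q (grJ K0 N)) = grJ K0 (N * q * q) := by
  rw [va2d_alpha_grJ, va2d_alpha_grJ]

end gen

/-! ### the swapped generation at level `N q` -/

section swapgen

variable (K0 : Type*) [Field K0] [Algebra ℚ K0] [Algebra K0 Qb]
  (N q : ℕ) [NeZero N] [NeZero q] (hq : q.Prime) (hN : ¬ q ∣ N)

include hq hN in
/-- the generation `F_{Nq} = β₀(F_N)(α₀ j)` from `F_{Nq} = α₀(F_N)(β₀ j)`, by the swap -/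
theorem s36d_gen_swap (x : ↥(laurentBaseChange K0 (modularFunctionFieldFull N)))
    (hgen0 : ∀ z : ↥(laurentBaseChange K0 (modularFunctionFieldFull (N * q))),
      z ∈ Subfield.closure (Set.range (heckeAlphaBar K0 N q) ∪
        {heckeBetaBar K0 N q x}))
    (z : ↥(laurentBaseChange K0 (modularFunctionFieldFull (N * q)))) :
    z ∈ Subfield.closure (Set.range (heckeBetaBar K0 N q) ∪
      {heckeAlphaBar K0 N q x}) := by
  have hle : Subfield.closure (Set.range (heckeAlphaBar K0 N q) ∪
      {heckeBetaBar K0 N q x}) ≤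
      (Subfield.closure (Set.range (heckeBetaBar K0 N q) ∪
        {heckeAlphaBar K0 N q x})).comap (va2Swap N q hq hN K0) := by
    rw [Subfield.closure_le]
    rintro _ (⟨a, rfl⟩ | hb)
    · rw [SetLike.mem_coe, Subfield.mem_comap, va2Swap_alpha]
      exact Subfield.subset_closure (Or.inl ⟨_, rfl⟩)
    · rw [Set.mem_singleton_iff] at hb
      rw [hb, SetLike.mem_coe, Subfield.mem_comap, va2Swap_beta]
      exact Subfield.subset_closure (Or.inr rfl)
  have h := hle (hgen0 (va2Swap N q hq hN K0 z))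
  rw [Subfield.mem_comap, va2Swap_swap] at h
  exact h

end swapgen

/-! ### instances of the generation hypothesis -/

section inst

variable (K0 : Type*) [Field K0] [Algebra ℚ K0] [Algebra K0 Qb]
  (N q : ℕ) [NeZero N] [NeZero q] (hq : q.Prime) (hN : ¬ q ∣ N)
  (A0 : ValuationSubring K0) [IsDiscreteValuationRing ↥A0] (hA0 : A0.LiesOverPrime q)

include hq hN hA0 in
/-- **(D3, α)** over a field `K0` with a discrete valuation subring over `q`:
`F_{Nq²} = α₁(F_{Nq})(j(t^{q²}))`. -/
theorem s36d_gen_alpha_base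
    (y : ↥(laurentBaseChange K0 (modularFunctionFieldFull (N * q * q)))) :
    y ∈ Subfield.closure (Set.range (heckeAlphaBar K0 (N * q) q) ∪
      {heckeBetaBar K0 (N * q) q (heckeBetaBar K0 N q (grJ K0 N))}) :=
  s36d_gen_alpha_closure K0 N q hq (grJ K0 N) (nsq_gen_base N q K0 hq hN A0 hA0) y

include hq hN hA0 in
/-- **(D3, β)** over a field `K0` with a discrete valuation subring over `q`:
`F_{Nq²} = β₁(F_{Nq})(j)`. -/
theorem s36d_gen_beta_base
    (y : ↥(laurentBaseChange K0 (modularFunctionFieldFull (N * q * q)))) :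
    y ∈ Subfield.closure (Set.range (heckeBetaBar K0 (N * q) q) ∪
      {heckeAlphaBar K0 (N * q) q (heckeAlphaBar K0 N q (grJ K0 N))}) :=
  s36d_gen_beta_closure K0 N q hq (grJ K0 N)
    (s36d_gen_swap K0 N q hq hN (grJ K0 N) (nsq_gen_base N q K0 hq hN A0 hA0)) y

end inst

section bar

variable (N q : ℕ) [NeZero N] [NeZero q] (hq : q.Prime) (hN : ¬ q ∣ N)

include hq hN in
/-- **(D3, α)** over `ℚ̄` -/
theorem s36d_gen_alpha_bar (y : ↥(modularFunctionFieldBar (N * q * q))) :
    y ∈ Subfield.closure (Set.range (heckeAlphaBar Qb (N * q) q) ∪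
      {heckeBetaBar Qb (N * q) q (heckeBetaBar Qb N q (grJ Qb N))}) :=
  s36d_gen_alpha_closure Qb N q hq (grJ Qb N) (nsq_gen_closure N q hq hN) y

include hq hN in
/-- **(D3, β)** over `ℚ̄` -/
theorem s36d_gen_beta_bar (y : ↥(modularFunctionFieldBar (N * q * q))) :
    y ∈ Subfield.closure (Set.range (heckeBetaBar Qb (N * q) q) ∪
      {heckeAlphaBar Qb (N * q) q (heckeAlphaBar Qb N q (grJ Qb N))}) :=
  s36d_gen_beta_closure Qb N q hq (grJ Qb N)
    (s36d_gen_swap Qb N q hq hN (grJ Qb N) (nsq_gen_closure N q hq hN)) y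

end bar

end Fermat.Agent.S36
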