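import Mathlib
import Fermat.Agent.S35.HCoreDef

/-!
# S36, packages KUMMER36 / INST36: the core statement over an (unramified) field of definition
(definition only)

`S36hCore K' M q m B`: the Kummer form of the geometric core of S36 (blueprint `[GEO36]`) over
an intermediate field `K'` of `ℚ̄/ℚ` (in the application `K'` is unramified at the chosen
place above `q`, e.g. the inertia-fixed part of a finite normal extension, and `q ∣ M`): a
nonzero function `f₁` of the function field of `X₀(M q)` over `K'`, all of whose orders are
divisible by `m` and whose norms along both degeneracy maps to the level `M` are constants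
times `m`-th powers, has `f₁ ^ B` equal to a constant times an `m`-th power.
-/

set_option autoImplicit false

noncomputable section

open ModularCurve AlgebraicCurve

namespace Fermat.Agent.S36

local notation "Qb" => AlgebraicClosure ℚ

/-- **The core statement of S36 over a field of definition `K'`**, for the levels `M q → M`,
the exponent `m` and the bound `B`: a nonzero function `f₁` of the function field of `X₀(M q)`
over `K'`, all of whose orders are divisible by `m` and whose norms along both degeneracy maps
are constants times `m`-th powers, satisfies `f₁ ^ B = w · G ^ m` with `w ∈ K'`, `G ≠ 0`. -/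
def S36hCore (K' : IntermediateField ℚ Qb) (M q m B : ℕ) [NeZero M] [NeZero q] : Prop :=
  ∀ f1 : ↥(laurentBaseChange ↥K' (modularFunctionFieldFull (M * q))), f1 ≠ 0 →
    (∀ Q : Place ↥K' ↥(laurentBaseChange ↥K' (modularFunctionFieldFull (M * q))),
      (m : ℤ) ∣ Q.ord f1) →
    (∃ (c : ↥K') (e : ↥(laurentBaseChange ↥K' (modularFunctionFieldFull M))),
      Fermat.Agent.S35.s35NormA ↥K' M q f1 =
        algebraMap ↥K' ↥(laurentBaseChange ↥K' (modularFunctionFieldFull M)) c * e ^ m) →
    (∃ (c : ↥K') (e : ↥(laurentBaseChange ↥K' (modularFunctionFieldFull M))),
      Fermat.Agent.S35.s35NormB ↥K' M q f1 =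
        algebraMap ↥K' ↥(laurentBaseChange ↥K' (modularFunctionFieldFull M)) c * e ^ m) →
    ∃ (w : ↥K') (G : ↥(laurentBaseChange ↥K' (modularFunctionFieldFull (M * q)))), G ≠ 0 ∧
      f1 ^ B =
        algebraMap ↥K' ↥(laurentBaseChange ↥K' (modularFunctionFieldFull (M * q))) w * G ^ m

end Fermat.Agent.S36
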