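import Mathlib
import Fermat.Agent.S35.HCoreDef
import Fermat.Agent.S34.InstInputs
import Fermat.Agent.S34.InstChoice
import Fermat.Agent.S36.HCoreDef36
import Fermat.Agent.S36.BaseUnram

/-!
# S36, package INST36, layer REDUCE: reduction to a statement over a generic unramified field

* `S36inField N q m B K0`: the Kummer form of the geometric core of S36 over a field `K0`
  (the body of `S36hCore K' N q m B` for a generic coefficient field): a nonzero function `f₁`
  of the function field of `X₀(N q)` over `K0`, all of whose orders are divisible by `m` and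
  whose two norms to the level `N` are constants times `m`-th powers, satisfies
  `f₁ ^ B = w · G ^ m`.
* `s36ir_one`: the statement for `m = 1`.
* `s36ir_reduce_of_base`: if `S36inField (M q) q m B K0` holds for every GENERIC field of
  definition `K0` with a discrete valuation subring `A0` over `q` in which `q` is a uniformiser,
  and base points `c0, c1 ∈ A0` with the chart inputs, then for all number fields `K1`
  containing a finite set, `S36hCore K' (M q) q m B` holds for the inertia-fixed part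
  `K' = K1 ⊓ ℚ̄^I` of `K1`; the chart inputs over the inertia-fixed fields (package BASE) are
  a hypothesis `hbase`.
-/

set_option autoImplicit false

noncomputable section

open ModularCurve AlgebraicCurve Polynomial
open Fermat.Agent.S18 Fermat.Agent.S37 Fermat.Agent.S34

namespace Fermat.Agent.S36

local notation "Qb" => AlgebraicClosure ℚ

/-- **The core statement of S36 over a field of definition `K0`** (levels `N q → N`, exponent
`m`, bound `B`). -/
def S36inField (N q m B : ℕ) [NeZero N] [NeZero q] (K0 : Type*) [Field K0] [Algebra ℚ K0] :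
    Prop :=
  ∀ f1 : ↥(laurentBaseChange K0 (modularFunctionFieldFull (N * q))), f1 ≠ 0 →
    (∀ Q : Place K0 ↥(laurentBaseChange K0 (modularFunctionFieldFull (N * q))),
      (m : ℤ) ∣ Q.ord f1) →
    (∃ (c : K0) (e : ↥(laurentBaseChange K0 (modularFunctionFieldFull N))),
      Fermat.Agent.S35.s35NormA K0 N q f1 =
        algebraMap K0 ↥(laurentBaseChange K0 (modularFunctionFieldFull N)) c * e ^ m) →
    (∃ (c : K0) (e : ↥(laurentBaseChange K0 (modularFunctionFieldFull N))),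
      Fermat.Agent.S35.s35NormB K0 N q f1 =
        algebraMap K0 ↥(laurentBaseChange K0 (modularFunctionFieldFull N)) c * e ^ m) →
    ∃ (w : K0) (G : ↥(laurentBaseChange K0 (modularFunctionFieldFull (N * q)))), G ≠ 0 ∧
      f1 ^ B = algebraMap K0 ↥(laurentBaseChange K0 (modularFunctionFieldFull (N * q))) w * G ^ m

/-- over an intermediate field the generic statement is the statement of record -/
theorem s36ir_hCore_iff (K' : IntermediateField ℚ Qb) (N q m B : ℕ) [NeZero N] [NeZero q] :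
    S36hCore K' N q m B ↔ S36inField N q m B ↥K' := Iff.rfl

/-- the case `m = 1` -/
theorem s36ir_one (N q B : ℕ) [NeZero N] [NeZero q] (K0 : Type*) [Field K0] [Algebra ℚ K0] :
    S36inField N q 1 B K0 := by
  intro f1 hf1 _ _ _
  exact ⟨1, f1 ^ B, pow_ne_zero B hf1, by rw [map_one, one_mul, pow_one]⟩

/-- a finite-dimensional intermediate field is contained in every intermediate field containing
a suitable finite set -/
theorem s36ir_finset (K2 : IntermediateField ℚ Qb) [FiniteDimensional ℚ K2] :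
    ∃ T : Finset Qb, ∀ K1 : IntermediateField ℚ Qb, (∀ c ∈ T, c ∈ K1) → K2 ≤ K1 := by
  classical
  obtain ⟨b⟩ : Nonempty (Module.Basis (Fin (Module.finrank ℚ ↥K2)) ℚ ↥K2) :=
    ⟨Module.finBasis ℚ ↥K2⟩
  refine ⟨Finset.univ.image (fun i => ((b i : ↥K2) : Qb)), fun K1 hT x hx => ?_⟩
  have hb : ∀ i, ((b i : ↥K2) : Qb) ∈ K1 := fun i =>
    hT _ (Finset.mem_image.mpr ⟨i, Finset.mem_univ i, rfl⟩)
  have key : ∀ y : ↥K2, y ∈ Submodule.span ℚ (Set.range b) → (y : Qb) ∈ K1 := by
    intro y hy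
    induction hy using Submodule.span_induction with
    | mem z hz =>
      obtain ⟨i, rfl⟩ := hz
      exact hb i
    | zero => exact K1.zero_mem
    | add y z _ _ hy hz => exact K1.add_mem hy hz
    | smul c y _ hy => exact K1.smul_mem hy
  exact key ⟨x, hx⟩ (by rw [b.span_eq]; exact Submodule.mem_top)

/-- **INST36, reduction to the generic unramified field form** (the chart inputs over the
inertia-fixed fields are the hypothesis `hbase`). -/
theorem s36ir_reduce_of_base (M q : ℕ) [NeZero M] [hq : Fact q.Prime] {a2 : ℕ}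
    (H : HauptRec a2 q) (A : ValuationSubring Qb) (hA : A.LiesOverPrime q)
    (m : ℕ) (hm : m ≠ 0) (B : ℕ)
    (hbase : ∀ (c0 c1 : Qb) (hc0 : c0 ∈ A) (hc1 : c1 ∈ A), smi2U A (c0 - c1) →
      smi2U A (aeval c0 H.Qrad) → smi2U A (aeval c1 H.Qrad) →
      (∀ σ ∈ A.inertiaSubgroupIn ℚ, σ c0 = c0) → (∀ σ ∈ A.inertiaSubgroupIn ℚ, σ c1 = c1) →
      ∃ K2 : IntermediateField ℚ Qb, FiniteDimensional ℚ K2 ∧
        (∀ x ∈ K2, ∀ σ ∈ A.inertiaSubgroupIn ℚ, σ x = x) ∧
        ∀ (K0 : IntermediateField ℚ Qb) [FiniteDimensional ℚ K0]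
          [IsDiscreteValuationRing ↥(A.comap (algebraMap ↥K0 Qb))], K2 ≤ K0 →
          (∀ x ∈ K0, ∀ σ ∈ A.inertiaSubgroupIn ℚ, σ x = x) → ∀ (h0 : c0 ∈ K0) (h1 : c1 ∈ K0),
          cinstSMChart ↥K0 (A.comap (algebraMap ↥K0 Qb)) M H ⟨c0, h0⟩ ⟨c1, h1⟩ ∧
          cinstSMChart ↥K0 (A.comap (algebraMap ↥K0 Qb)) M H ⟨c1, h1⟩ ⟨c0, h0⟩ ∧
          unrChart ↥K0 (A.comap (algebraMap ↥K0 Qb)) M H
            ⟨⟨c0, h0⟩, ValuationSubring.mem_comap.mpr hc0⟩
            ⟨⟨c1, h1⟩, ValuationSubring.mem_comap.mpr hc1⟩ ∧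
          unrChart ↥K0 (A.comap (algebraMap ↥K0 Qb)) M H
            ⟨⟨c1, h1⟩, ValuationSubring.mem_comap.mpr hc1⟩
            ⟨⟨c0, h0⟩, ValuationSubring.mem_comap.mpr hc0⟩)
    (hfield : ∀ (K0 : Type) [Field K0] [Algebra ℚ K0] [Algebra K0 Qb]
      (A0 : ValuationSubring K0) [IsDiscreteValuationRing ↥A0]
      [Finite (IsLocalRing.ResidueField ↥A0)],
      A0.LiesOverPrime q → (∀ x ∈ A0.nonunits, ∃ a ∈ A0, x = (q : K0) * a) → ∀ c0 c1 : A0,
      IsLocalRing.residue ↥A0 c0 ≠ IsLocalRing.residue ↥A0 c1 →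
      smi2U A0 (aeval (c0 : K0) H.Qrad) → smi2U A0 (aeval (c1 : K0) H.Qrad) →
      cinstSMChart K0 A0 M H (c0 : K0) (c1 : K0) →
      cinstSMChart K0 A0 M H (c1 : K0) (c0 : K0) →
      unrChart K0 A0 M H c0 c1 → unrChart K0 A0 M H c1 c0 →
      2 ≤ m → S36inField (M * q) q m B K0) :
    ∃ T : Finset Qb, ∀ (K1 : IntermediateField ℚ Qb) [FiniteDimensional ℚ K1] [Normal ℚ K1],
      (∀ c ∈ T, c ∈ K1) → ∃ K' : IntermediateField ℚ Qb,
        K1 ⊓ IntermediateField.fixedField (A.inertiaSubgroupIn ℚ) ≤ K' ∧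
          S36hCore K' (M * q) q m B := by
  classical
  obtain ⟨c0, c1, hc0, hc1, h01, hQ0, hQ1, hI0, hI1⟩ := s34ic_choice hq.out H A hA
  obtain ⟨K2, hK2fin, hK2fix, hK2⟩ := hbase c0 c1 hc0 hc1 h01 hQ0 hQ1 hI0 hI1
  obtain ⟨T, hT⟩ := s36ir_finset K2
  refine ⟨T ∪ {c0, c1}, fun K1 _ _ hTK => ?_⟩
  obtain ⟨K', hK'⟩ : ∃ K' : IntermediateField ℚ Qb,
      K' = K1 ⊓ IntermediateField.fixedField (A.inertiaSubgroupIn ℚ) := ⟨_, rfl⟩
  refine ⟨K', hK'.ge, ?_⟩
  by_cases hm1 : m = 1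
  · subst hm1
    exact s36ir_one (M * q) q B _
  have hmem : ∀ x : Qb, x ∈ K1 → (∀ σ ∈ A.inertiaSubgroupIn ℚ, σ x = x) → x ∈ K' := by
    intro x hx1 hx
    rw [hK']
    refine IntermediateField.mem_inf.mpr ⟨hx1, ?_⟩
    rw [IntermediateField.mem_fixedField_iff]
    exact hx
  have hK'fix : ∀ x ∈ K', ∀ σ ∈ A.inertiaSubgroupIn ℚ, σ x = x := by
    intro x hx σ hσ
    rw [hK'] at hx
    exact (IntermediateField.mem_fixedField_iff _ x).mp (IntermediateField.mem_inf.mp hx).2 σ hσ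
  have hK'le : K' ≤ K1 := by
    rw [hK']
    exact inf_le_left
  have h0 : c0 ∈ K' := hmem c0 (hTK c0 (by simp)) hI0
  have h1 : c1 ∈ K' := hmem c1 (hTK c1 (by simp)) hI1
  have hK2le : K2 ≤ K' := fun x hx =>
    hmem x (hT K1 (fun c hc => hTK c (Finset.mem_union_left _ hc)) hx) (hK2fix x hx)
  have hfinK' : FiniteDimensional ℚ ↥K' :=
    FiniteDimensional.of_injective (IntermediateField.inclusion hK'le).toLinearMap
      (IntermediateField.inclusion_injective hK'le)
  obtain ⟨hdvr, hfin, hA0⟩ := dvd_isDVR_comap q hq.out.ne_zero A hA K'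
  obtain ⟨hSM0, hSM1, hu0, hu1⟩ := hK2 K' hK2le hK'fix h0 h1
  have hunif : ∀ x ∈ (A.comap (algebraMap ↥K' Qb)).nonunits,
      ∃ a ∈ A.comap (algebraMap ↥K' Qb), x = (q : ↥K') * a :=
    fun x hx => s36bu_field q hq.out A hA K' hK'fix x hx
  have key : S36inField (M * q) q m B ↥K' :=
    hfield ↥K' (A.comap (algebraMap ↥K' Qb)) hA0 hunif
      ⟨⟨c0, h0⟩, ValuationSubring.mem_comap.mpr hc0⟩
      ⟨⟨c1, h1⟩, ValuationSubring.mem_comap.mpr hc1⟩
      (s34if_residue_ne A K' c0 c1 hc0 hc1 h01 h0 h1)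
      ((dmi_smi2U_comap_aeval (algebraMap ↥K' Qb) A ⟨c0, h0⟩ H.Qrad).mpr hQ0)
      ((dmi_smi2U_comap_aeval (algebraMap ↥K' Qb) A ⟨c1, h1⟩ H.Qrad).mpr hQ1)
      hSM0 hSM1 hu0 hu1 (by omega)
  exact key

end Fermat.Agent.S36
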