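/-
S36 [DESCENT-ABS]: unramified descent of a Kummer generator by two applications of Hilbert's
Theorem 90 (Mathlib only).

Setting: `F` a field, `G` a finite group acting faithfully on `F` by ring automorphisms,
`C : Subfield F` ("constants"), `lc : F →*₀ F` ("leading coefficient") with values in `C`,
`lc c = c` on `C`, `lc (σ • u) = σ • lc u`, and constants closed under `m`-th roots inside `F`
(`hroot`).

* `s36da_h90`   : Hilbert 90 for a finite group acting faithfully on a field;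
* `s36da_main`  : if `σ • f₀ = c_σ * g_σ ^ m * f₀` for every `σ` (`c_σ ∈ C`), then
                  `a * b ^ m * f₀` is fixed by `G` for suitable `a ∈ C`, `b ≠ 0`;
* `s36da_pow`   : a fixed element of the form `c * e ^ m` (`c ∈ C`) is of the form `c' * e' ^ m`
                  with `c' ∈ C` and `e'` both fixed.
-/
import Mathlib

set_option autoImplicit false

namespace Fermat.Agent.S36

section DescentAbs

variable {G F : Type*} [Group G] [Finite G] [Field F] [MulSemiringAction G F] [FaithfulSMul G F]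

/-- **Hilbert 90** for a finite group acting faithfully on a field. -/
theorem s36da_h90 (f : G → F) (hf0 : ∀ g, f g ≠ 0)
    (hf : ∀ g h : G, f (g * h) = g • f h * f g) :
    ∃ β : F, β ≠ 0 ∧ ∀ g : G, g • β = f g * β := by
  classical
  let e : G ≃* (F ≃ₐ[FixedPoints.subfield G F] F) := FixedPoints.toAlgAutMulEquiv G F
  have he : ∀ (g : G) (x : F), e g x = g • x := fun g x => rfl
  let f' : (F ≃ₐ[FixedPoints.subfield G F] F) → Fˣ := fun φ => Units.mk0 (f (e.symm φ)) (hf0 _)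
  have hf' : groupCohomology.IsMulCocycle₁ f' := by
    intro φ ψ
    apply Units.ext
    show f (e.symm (φ * ψ)) = φ (f (e.symm ψ)) * f (e.symm φ)
    rw [map_mul, hf]
    congr 1
    rw [← he, MulEquiv.apply_symm_apply]
  obtain ⟨β, hβ⟩ := groupCohomology.isMulCoboundary₁_of_isMulCocycle₁_of_aut_to_units f' hf'
  refine ⟨(β : F), β.ne_zero, fun g => ?_⟩
  have h1 := hβ (e g)
  have h2 : ((e g • β / β : Fˣ) : F) = (f' (e g) : F) := congrArg Units.val h1
  have h3 : ((e g • β / β : Fˣ) : F) = g • (β : F) / (β : F) := by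
    rw [Units.val_div_eq_div_val]
    rfl
  have h4 : (f' (e g) : F) = f g := by
    show f (e.symm (e g)) = f g
    rw [MulEquiv.symm_apply_apply]
  rw [h3, h4] at h2
  rw [← h2, div_mul_cancel₀ _ β.ne_zero]

variable (C : Subfield F) (lc : F →*₀ F) (hlcC : ∀ x : F, lc x ∈ C)
  (hlc_id : ∀ c ∈ C, lc c = c) (hlc_smul : ∀ (σ : G) (x : F), lc (σ • x) = σ • lc x)
  (m : ℕ) (hroot : ∀ u : F, u ≠ 0 → u ^ m ∈ C → u ∈ C)

include hlcC hlc_id hlc_smul in
omit [Finite G] [FaithfulSMul G F] in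
/-- the constants are stable under the group -/
theorem s36da_smul_mem (σ : G) {c : F} (hc : c ∈ C) : σ • c ∈ C := by
  rw [← hlc_id c hc, ← hlc_smul]
  exact hlcC _

include hlcC hlc_id hlc_smul in
/-- a cocycle with values in the constants is a coboundary of a constant -/
theorem s36da_h90_const (f : G → F) (hf0 : ∀ g, f g ≠ 0) (hfC : ∀ g, f g ∈ C)
    (hf : ∀ g h : G, f (g * h) = g • f h * f g) :
    ∃ α : F, α ≠ 0 ∧ α ∈ C ∧ ∀ g : G, g • α = f g * α := by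
  obtain ⟨β, hβ0, hβ⟩ := s36da_h90 f hf0 hf
  refine ⟨lc β, (map_ne_zero lc).mpr hβ0, hlcC β, fun g => ?_⟩
  rw [← hlc_smul, hβ, map_mul, hlc_id _ (hfC g)]

include hlcC hlc_id hlc_smul hroot in
/-- **Descent of a Kummer generator**: if `σ • f₀ = c_σ * g_σ ^ m * f₀` for all `σ`, then
`a * b ^ m * f₀` is `G`-invariant for some constant `a ≠ 0` and some `b ≠ 0`. -/
theorem s36da_main (f₀ : F) (hf₀ : f₀ ≠ 0)
    (h : ∀ σ : G, ∃ c ∈ C, ∃ g : F, g ≠ 0 ∧ σ • f₀ = c * g ^ m * f₀) :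
    ∃ a ∈ C, a ≠ 0 ∧ ∃ b : F, b ≠ 0 ∧ ∀ σ : G, σ • (a * b ^ m * f₀) = a * b ^ m * f₀ := by
  choose c hcC g hg0 hσ using h
  have hσf₀ : ∀ σ : G, σ • f₀ ≠ 0 := fun σ => (smul_ne_zero_iff_ne σ).mpr hf₀
  have hc0 : ∀ σ, c σ ≠ 0 := by
    intro σ h0
    apply hσf₀ σ
    rw [hσ, h0, zero_mul, zero_mul]
  have hlg0 : ∀ σ, lc (g σ) ≠ 0 := fun σ => (map_ne_zero lc).mpr (hg0 σ)
  -- normalisation
  set g' : G → F := fun σ => g σ / lc (g σ) with hg'
  set c' : G → F := fun σ => c σ * lc (g σ) ^ m with hc'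
  have hg'0 : ∀ σ, g' σ ≠ 0 := fun σ => div_ne_zero (hg0 σ) (hlg0 σ)
  have hc'0 : ∀ σ, c' σ ≠ 0 := fun σ => mul_ne_zero (hc0 σ) (pow_ne_zero _ (hlg0 σ))
  have hc'C : ∀ σ, c' σ ∈ C := fun σ => C.mul_mem (hcC σ) (C.pow_mem (hlcC _) _)
  have hσ' : ∀ σ, σ • f₀ = c' σ * g' σ ^ m * f₀ := by
    intro σ
    rw [hσ σ]
    simp only [hg', hc']
    rw [div_pow]
    field_simp [hlg0 σ]
  have hlcg' : ∀ σ, lc (g' σ) = 1 := by
    intro σ
    simp only [hg']
    rw [map_div₀, hlc_id _ (hlcC _), div_self (hlg0 σ)]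
  -- the normalised `g'` is a cocycle
  have hcoc : ∀ σ τ : G, g' (σ * τ) = σ • g' τ * g' σ := by
    intro σ τ
    have h1 : (σ * τ) • f₀ = σ • c' τ * (σ • g' τ) ^ m * (c' σ * g' σ ^ m * f₀) := by
      rw [mul_smul, hσ' τ, smul_mul', smul_mul', smul_pow', hσ' σ]
    have h2 : c' (σ * τ) * g' (σ * τ) ^ m = σ • c' τ * c' σ * (σ • g' τ * g' σ) ^ m := by
      have h3 := (hσ' (σ * τ)).symm.trans h1
      have h4 : c' (σ * τ) * g' (σ * τ) ^ m * f₀
          = σ • c' τ * c' σ * (σ • g' τ * g' σ) ^ m * f₀ := by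
        rw [h3]; ring
      exact mul_right_cancel₀ hf₀ h4
    have hden : σ • g' τ * g' σ ≠ 0 :=
      mul_ne_zero ((smul_ne_zero_iff_ne σ).mpr (hg'0 τ)) (hg'0 σ)
    set u : F := g' (σ * τ) / (σ • g' τ * g' σ) with hu
    have hu0 : u ≠ 0 := div_ne_zero (hg'0 _) hden
    have hum : u ^ m = σ • c' τ * c' σ / c' (σ * τ) := by
      rw [hu, div_pow, eq_div_iff (hc'0 _), div_mul_eq_mul_div, div_eq_iff (pow_ne_zero _ hden)]
      rw [mul_comm, h2]
    have huC : u ∈ C := by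
      apply hroot u hu0
      rw [hum]
      exact C.div_mem (C.mul_mem (s36da_smul_mem C lc hlcC hlc_id hlc_smul σ (hc'C τ)) (hc'C σ))
        (hc'C _)
    have hlu : lc u = 1 := by
      rw [hu, map_div₀, map_mul, hlc_smul, hlcg', hlcg', hlcg', smul_one, mul_one, div_one]
    have hu1 : u = 1 := by rw [← hlc_id u huC, hlu]
    rw [hu, div_eq_one_iff_eq hden] at hu1
    exact hu1
  -- first Hilbert 90
  obtain ⟨β, hβ0, hβ⟩ := s36da_h90 g' hg'0 hcoc
  set f₁ : F := f₀ / β ^ m with hf₁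
  have hf₁0 : f₁ ≠ 0 := div_ne_zero hf₀ (pow_ne_zero _ hβ0)
  have hσf₁ : ∀ σ : G, σ • f₁ = c' σ * f₁ := by
    intro σ
    rw [hf₁, smul_div₀', smul_pow', hβ σ, hσ' σ, mul_pow]
    field_simp [hg'0 σ, hβ0]
  -- the constants form a cocycle
  have hcoc' : ∀ σ τ : G, c' (σ * τ) = σ • c' τ * c' σ := by
    intro σ τ
    have h1 : (σ * τ) • f₁ = σ • c' τ * (c' σ * f₁) := by
      rw [mul_smul, hσf₁ τ, smul_mul', hσf₁ σ]
    have h2 : c' (σ * τ) * f₁ = σ • c' τ * c' σ * f₁ := by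
      rw [← hσf₁ (σ * τ), h1]; ring
    exact mul_right_cancel₀ hf₁0 h2
  -- second Hilbert 90, in the constants
  obtain ⟨α, hα0, hαC, hα⟩ := s36da_h90_const C lc hlcC hlc_id hlc_smul c' hc'0 hc'C hcoc'
  refine ⟨α⁻¹, C.inv_mem hαC, inv_ne_zero hα0, β⁻¹, inv_ne_zero hβ0, fun σ => ?_⟩
  have e : α⁻¹ * β⁻¹ ^ m * f₀ = f₁ / α := by
    rw [hf₁, inv_pow]
    field_simp
  rw [e, smul_div₀', hσf₁ σ, hα σ, mul_div_mul_left _ _ (hc'0 σ)]

include hlcC hlc_id hlc_smul hroot in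
/-- a `G`-invariant element of the form `c * e ^ m` with `c` constant is of the form
`c' * e' ^ m` with `c'` a `G`-invariant constant and `e'` `G`-invariant -/
theorem s36da_pow (x : F) (hx : ∀ σ : G, σ • x = x)
    (c : F) (hcC : c ∈ C) (hc0 : c ≠ 0) (e : F) (he0 : e ≠ 0) (hxe : x = c * e ^ m) :
    ∃ c' ∈ C, ∃ e' : F, e' ≠ 0 ∧ (∀ σ : G, σ • c' = c') ∧ (∀ σ : G, σ • e' = e') ∧
      x = c' * e' ^ m := by
  have hσe0 : ∀ σ : G, σ • e ≠ 0 := fun σ => (smul_ne_zero_iff_ne σ).mpr he0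
  have hσc0 : ∀ σ : G, σ • c ≠ 0 := fun σ => (smul_ne_zero_iff_ne σ).mpr hc0
  set l : G → F := fun σ => σ • e / e with hl
  have hl0 : ∀ σ, l σ ≠ 0 := fun σ => div_ne_zero (hσe0 σ) he0
  have hle : ∀ σ, σ • e = l σ * e := fun σ => by
    simp only [hl]
    rw [div_mul_cancel₀ _ he0]
  have hlC : ∀ σ, l σ ∈ C := by
    intro σ
    apply hroot _ (hl0 σ)
    have h1 : σ • c * (σ • e) ^ m = c * e ^ m := by
      rw [← smul_pow', ← smul_mul', ← hxe, hx σ, hxe]
    have h2 : l σ ^ m = c / σ • c := by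
      simp only [hl]
      rw [div_pow, div_eq_div_iff (pow_ne_zero _ he0) (hσc0 σ)]
      rw [mul_comm, h1, mul_comm]
    rw [h2]
    exact C.div_mem hcC (s36da_smul_mem C lc hlcC hlc_id hlc_smul σ hcC)
  have hcoc : ∀ σ τ : G, l (σ * τ) = σ • l τ * l σ := by
    intro σ τ
    have h1 : (σ * τ) • e = σ • l τ * (l σ * e) := by
      rw [mul_smul, hle τ, smul_mul', hle σ]
    have h2 : l (σ * τ) * e = σ • l τ * l σ * e := by
      rw [← hle (σ * τ), h1]; ring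
    exact mul_right_cancel₀ he0 h2
  obtain ⟨μ, hμ0, hμC, hμ⟩ := s36da_h90_const C lc hlcC hlc_id hlc_smul l hl0 hlC hcoc
  have he' : ∀ σ : G, σ • (e / μ) = e / μ := by
    intro σ
    rw [smul_div₀', hle σ, hμ σ, mul_div_mul_left _ _ (hl0 σ)]
  have hx' : x = c * μ ^ m * (e / μ) ^ m := by
    rw [hxe, div_pow]
    field_simp
  refine ⟨c * μ ^ m, C.mul_mem hcC (C.pow_mem hμC _), e / μ, div_ne_zero he0 hμ0, fun σ => ?_,
    he', hx'⟩
  have h3 : c * μ ^ m = x / (e / μ) ^ m := by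
    rw [hx', mul_div_cancel_right₀ _ (pow_ne_zero _ (div_ne_zero he0 hμ0))]
  rw [h3, smul_div₀', smul_pow', he' σ, hx σ]

end DescentAbs

end Fermat.Agent.S36
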