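import Mathlib
import Fermat.Prelude.Def_ModularCurve_LaurentCoeff
import Fermat.Prelude.Def_ModularCurve_ArithmeticGalois
import Fermat.Prelude.Def_FLTPrelim_Ramification
import Fermat.Agent.S18.BaseChangeField
import Fermat.Agent.S18.BaseChangePlace
import Fermat.Agent.S18.ChartsAdapt
import Fermat.Agent.S36.DescentAbs
import Fermat.Agent.S36.DescentFix

/-!
# S36, package DESCENT-CAR: descent of a Kummer generator to the fixed field of inertia

`F₀ ⊆ ℚ((q))`, `K₁ ⊆ Qb` a finite normal extension of `ℚ`, `A` a valuation subring of `Qb`,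
`K₂ = K₁ ⊓ Qb ^ I` with `I = A.inertiaSubgroupIn ℚ`.

* `s36dc_gen_main`, `s36dc_gen_pow`: the carrier of `s36da_main`, `s36da_pow` for the function
  field `laurentBaseChange L F₀` and a finite group `H` of automorphisms of `L`
  (constants = `L`, normalisation = leading coefficient of the `q`-expansion).
* `s36dc_fixed`: an element of `laurentBaseChange K₁ F₀` fixed by (the restriction of) inertia
  is defined over `K₂`.
* `s36dc_main`: if `σ f = c_σ g_σ ^ m f` for all `σ ∈ I`, then `a b ^ m f` is defined over `K₂`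
  for some constant `a ≠ 0` and some `b ≠ 0`.
* `s36dc_pow`: an inertia-fixed `x = c e ^ m` is `c₂ e₂ ^ m` with `c₂`, `e₂` defined over `K₂`.
-/

set_option autoImplicit false

noncomputable section

open ModularCurve Fermat.Agent.S18

namespace Fermat.Agent.S36

local notation "Qb" => AlgebraicClosure ℚ

section Generic

variable {L : Type*} [Field L] [Algebra ℚ L]
variable (F₀ : IntermediateField ℚ (LaurentSeries ℚ))

/-- the order of a series is invariant under an injective map of the coefficients -/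
theorem s36dc_order_coeffMap (σ : L →+* L) (x : LaurentSeries L) :
    (coeffMap σ x).order = x.order := by
  by_cases hx : x = 0
  · rw [hx, map_zero]
  have hy : coeffMap σ x ≠ 0 := fun h => hx ((coeffMap σ).injective (by rw [h, map_zero]))
  apply le_antisymm
  · apply HahnSeries.order_le_of_coeff_ne_zero
    rw [coeffMap_coeff]
    exact (map_ne_zero σ).mpr (fun h => hx (HahnSeries.coeff_order_eq_zero.mp h))
  · apply HahnSeries.order_le_of_coeff_ne_zero
    have h : (coeffMap σ x).coeff (coeffMap σ x).order ≠ 0 :=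
      fun h => hy (HahnSeries.coeff_order_eq_zero.mp h)
    rw [coeffMap_coeff] at h
    exact fun h0 => h (by rw [h0, map_zero])

/-- the leading coefficient of the `q`-expansion, as a constant function -/
def s36dcLc : ↥(laurentBaseChange L F₀) →*₀ ↥(laurentBaseChange L F₀) where
  toFun x := algebraMap L ↥(laurentBaseChange L F₀) ((x : LaurentSeries L).leadingCoeff)
  map_zero' := by
    show algebraMap L ↥(laurentBaseChange L F₀) ((0 : LaurentSeries L).leadingCoeff) = 0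
    rw [HahnSeries.leadingCoeff_zero, map_zero]
  map_one' := by
    show algebraMap L ↥(laurentBaseChange L F₀) ((1 : LaurentSeries L).leadingCoeff) = 1
    rw [HahnSeries.leadingCoeff_one, map_one]
  map_mul' x y := by
    show algebraMap L ↥(laurentBaseChange L F₀)
        (((x : LaurentSeries L) * (y : LaurentSeries L)).leadingCoeff) = _
    rw [HahnSeries.leadingCoeff_mul, map_mul]

theorem s36dcLc_apply (x : ↥(laurentBaseChange L F₀)) :
    s36dcLc F₀ x = algebraMap L ↥(laurentBaseChange L F₀) ((x : LaurentSeries L).leadingCoeff) :=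
  rfl

theorem s36dcLc_algebraMap (c : L) :
    s36dcLc F₀ (algebraMap L ↥(laurentBaseChange L F₀) c) =
      algebraMap L ↥(laurentBaseChange L F₀) c := by
  rw [s36dcLc_apply]
  congr 1
  show (algebraMap L (LaurentSeries L) c).leadingCoeff = c
  rw [algebraMap_laurentSeries_eq_single, HahnSeries.leadingCoeff_of_single]

theorem s36dcLc_aut (σ : L ≃ₐ[ℚ] L) (x : ↥(laurentBaseChange L F₀)) :
    s36dcLc F₀ (arithmeticRingAut F₀ σ x) = arithmeticRingAut F₀ σ (s36dcLc F₀ x) := by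
  rw [s36dcLc_apply, s36dcLc_apply, arithmeticRingAut_algebraMap]
  congr 1
  rw [coe_arithmeticRingAut_apply, HahnSeries.leadingCoeff_eq, HahnSeries.leadingCoeff_eq,
    s36dc_order_coeffMap, coeffMap_coeff]
  rfl

/-- a function whose `m`-th power is a constant is a constant (`m ≠ 0`) -/
theorem s36dc_root (m : ℕ) (hm : m ≠ 0) (u : ↥(laurentBaseChange L F₀))
    (hu : u ^ m ∈ (algebraMap L ↥(laurentBaseChange L F₀)).fieldRange) :
    u ∈ (algebraMap L ↥(laurentBaseChange L F₀)).fieldRange := by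
  obtain ⟨c, hc⟩ := hu
  have halg : IsAlgebraic L u := by
    refine ⟨Polynomial.X ^ m - Polynomial.C c,
      Polynomial.X_pow_sub_C_ne_zero (Nat.pos_of_ne_zero hm) c, ?_⟩
    rw [map_sub, map_pow, Polynomial.aeval_X, Polynomial.aeval_C, hc, sub_self]
  obtain ⟨d, hd⟩ := cht_hconst_intermediateField (laurentBaseChange L F₀) u halg
  exact ⟨d, hd⟩

variable (H : Subgroup (L ≃ₐ[ℚ] L))

/-- the action of a group of automorphisms of `L` on the function field (coefficientwise) -/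
@[reducible] def s36dcAction : MulSemiringAction ↥H ↥(laurentBaseChange L F₀) :=
  MulSemiringAction.compHom ↥(laurentBaseChange L F₀) ((arithmeticGalois F₀).comp H.subtype)

theorem s36dc_smul_def (σ : ↥H) (x : ↥(laurentBaseChange L F₀)) :
    letI := s36dcAction F₀ H
    σ • x = arithmeticRingAut F₀ (σ : L ≃ₐ[ℚ] L) x := rfl

theorem s36dc_faithful :
    letI := s36dcAction F₀ H
    FaithfulSMul ↥H ↥(laurentBaseChange L F₀) := by
  letI := s36dcAction F₀ H
  refine ⟨fun {σ τ} h => ?_⟩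
  apply Subtype.ext
  apply AlgEquiv.ext
  intro a
  have h1 := h (algebraMap L ↥(laurentBaseChange L F₀) a)
  rw [s36dc_smul_def, s36dc_smul_def, arithmeticRingAut_algebraMap,
    arithmeticRingAut_algebraMap] at h1
  exact (algebraMap L ↥(laurentBaseChange L F₀)).injective h1

/-- **Carrier of `s36da_main`**: descent of a Kummer generator along a finite group of
automorphisms of the constant field. -/
theorem s36dc_gen_main [Finite ↥H] (m : ℕ) (hm : m ≠ 0)
    (f : ↥(laurentBaseChange L F₀)) (hf : f ≠ 0)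
    (h : ∀ σ ∈ H, ∃ (c : L) (g : ↥(laurentBaseChange L F₀)), g ≠ 0 ∧
      arithmeticRingAut F₀ σ f = algebraMap L ↥(laurentBaseChange L F₀) c * g ^ m * f) :
    ∃ a : L, a ≠ 0 ∧ ∃ b : ↥(laurentBaseChange L F₀), b ≠ 0 ∧ ∀ σ ∈ H,
      arithmeticRingAut F₀ σ (algebraMap L ↥(laurentBaseChange L F₀) a * b ^ m * f) =
        algebraMap L ↥(laurentBaseChange L F₀) a * b ^ m * f := by
  letI := s36dcAction F₀ H
  haveI := s36dc_faithful F₀ H
  obtain ⟨a, ⟨a', rfl⟩, ha0, b, hb0, hab⟩ :=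
    s36da_main (G := ↥H) (algebraMap L ↥(laurentBaseChange L F₀)).fieldRange (s36dcLc F₀)
      (fun x => ⟨_, rfl⟩)
      (by rintro _ ⟨c, rfl⟩; exact s36dcLc_algebraMap F₀ c)
      (fun σ x => s36dcLc_aut F₀ (σ : L ≃ₐ[ℚ] L) x) m
      (fun u _ hu => s36dc_root F₀ m hm u hu) f hf
      (fun σ => by
        obtain ⟨c, g, hg0, hg⟩ := h σ σ.2
        exact ⟨_, ⟨c, rfl⟩, g, hg0, hg⟩)
  refine ⟨a', fun h0 => ha0 (by rw [h0, map_zero]), b, hb0, fun σ hσ => ?_⟩
  exact hab ⟨σ, hσ⟩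

/-- **Carrier of `s36da_pow`**. -/
theorem s36dc_gen_pow [Finite ↥H] (m : ℕ) (hm : m ≠ 0)
    (x : ↥(laurentBaseChange L F₀)) (hx : ∀ σ ∈ H, arithmeticRingAut F₀ σ x = x)
    (c : L) (hc0 : c ≠ 0) (e : ↥(laurentBaseChange L F₀)) (he0 : e ≠ 0)
    (hxe : x = algebraMap L ↥(laurentBaseChange L F₀) c * e ^ m) :
    ∃ (c' : L) (e' : ↥(laurentBaseChange L F₀)), e' ≠ 0 ∧ (∀ σ ∈ H, σ c' = c') ∧
      (∀ σ ∈ H, arithmeticRingAut F₀ σ e' = e') ∧
      x = algebraMap L ↥(laurentBaseChange L F₀) c' * e' ^ m := by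
  letI := s36dcAction F₀ H
  haveI := s36dc_faithful F₀ H
  obtain ⟨_, ⟨c', rfl⟩, e', he'0, hc', he', hx'⟩ :=
    s36da_pow (G := ↥H) (algebraMap L ↥(laurentBaseChange L F₀)).fieldRange (s36dcLc F₀)
      (fun x => ⟨_, rfl⟩)
      (by rintro _ ⟨c, rfl⟩; exact s36dcLc_algebraMap F₀ c)
      (fun σ x => s36dcLc_aut F₀ (σ : L ≃ₐ[ℚ] L) x) m
      (fun u _ hu => s36dc_root F₀ m hm u hu) x (fun σ => hx σ σ.2)
      (algebraMap L ↥(laurentBaseChange L F₀) c) ⟨c, rfl⟩
      (fun h0 => hc0 ((algebraMap L ↥(laurentBaseChange L F₀)).injective (by rw [h0, map_zero])))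
      e he0 hxe
  refine ⟨c', e', he'0, fun σ hσ => ?_, fun σ hσ => he' ⟨σ, hσ⟩, hx'⟩
  have h1 := hc' ⟨σ, hσ⟩
  rw [s36dc_smul_def, arithmeticRingAut_algebraMap] at h1
  exact (algebraMap L ↥(laurentBaseChange L F₀)).injective h1

end Generic

section Inertia

variable (F₀ : IntermediateField ℚ (LaurentSeries ℚ))
variable (K1 : IntermediateField ℚ Qb) [FiniteDimensional ℚ K1] [Normal ℚ K1]
variable (A : ValuationSubring Qb)

omit [FiniteDimensional ℚ K1] in
/-- **Fixed by inertia implies defined over the fixed field**: an element of the function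
field over `K₁` which is fixed by (the restrictions of) all elements of the inertia group is
defined over `K₂ = K₁ ⊓ Qb ^ I`. -/
theorem s36dc_fixed (x : ↥(laurentBaseChange ↥K1 F₀))
    (hx : ∀ σ ∈ A.inertiaSubgroupIn ℚ, arithmeticRingAut F₀ (σ.restrictNormal ↥K1) x = x) :
    ∃ x2 : ↥(laurentBaseChange
        ↥(K1 ⊓ IntermediateField.fixedField (A.inertiaSubgroupIn ℚ)) F₀),
      bcfHom ↥(K1 ⊓ IntermediateField.fixedField (A.inertiaSubgroupIn ℚ)) Qb F₀ x2 =
        bcfHom ↥K1 Qb F₀ x := by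
  haveI : Algebra.IsAlgebraic ℚ Qb := AlgebraicClosure.isAlgebraic ℚ
  haveI : Algebra.IsAlgebraic ↥(K1 ⊓ IntermediateField.fixedField (A.inertiaSubgroupIn ℚ)) Qb :=
    bcf_isAlgebraic _ _
  have key := s36df_range_of_coeff
    ↥(K1 ⊓ IntermediateField.fixedField (A.inertiaSubgroupIn ℚ)) Qb F₀ (bcfHom ↥K1 Qb F₀ x) ?_
  · obtain ⟨x2, hx2⟩ := key
    exact ⟨x2, hx2⟩
  intro n
  rw [bcfHom_coe, coeffMap_coeff]
  have hmem : algebraMap ↥K1 Qb ((x : LaurentSeries ↥K1).coeff n) ∈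
      K1 ⊓ IntermediateField.fixedField (A.inertiaSubgroupIn ℚ) := by
    rw [IntermediateField.mem_inf]
    refine ⟨((x : LaurentSeries ↥K1).coeff n).2, ?_⟩
    rw [IntermediateField.mem_fixedField_iff]
    intro σ hσ
    rw [← AlgEquiv.restrictNormal_commutes]
    congr 1
    exact congrArg (fun y : ↥(laurentBaseChange ↥K1 F₀) => (y : LaurentSeries ↥K1).coeff n)
      (hx σ hσ)
  exact ⟨⟨_, hmem⟩, rfl⟩

/-- the image of the inertia group in the Galois group of `K₁` -/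
def s36dcH : Subgroup (↥K1 ≃ₐ[ℚ] ↥K1) :=
  (A.inertiaSubgroupIn ℚ).map (AlgEquiv.restrictNormalHom (F := ℚ) (K₁ := Qb) ↥K1)

omit [FiniteDimensional ℚ K1] in
theorem s36dc_mem_H {τ : ↥K1 ≃ₐ[ℚ] ↥K1} :
    τ ∈ s36dcH K1 A ↔ ∃ σ ∈ A.inertiaSubgroupIn ℚ, σ.restrictNormal ↥K1 = τ :=
  Iff.rfl

/-- **Descent of a Kummer generator to the fixed field of inertia.** -/
theorem s36dc_main (m : ℕ) (hm : m ≠ 0) (f : ↥(laurentBaseChange ↥K1 F₀)) (hf : f ≠ 0)
    (h : ∀ σ ∈ A.inertiaSubgroupIn ℚ, ∃ (c : ↥K1) (g : ↥(laurentBaseChange ↥K1 F₀)), g ≠ 0 ∧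
      arithmeticRingAut F₀ (σ.restrictNormal ↥K1) f =
        algebraMap ↥K1 ↥(laurentBaseChange ↥K1 F₀) c * g ^ m * f) :
    ∃ a : ↥K1, a ≠ 0 ∧ ∃ b : ↥(laurentBaseChange ↥K1 F₀), b ≠ 0 ∧
      ∃ f2 : ↥(laurentBaseChange
          ↥(K1 ⊓ IntermediateField.fixedField (A.inertiaSubgroupIn ℚ)) F₀),
        bcfHom ↥(K1 ⊓ IntermediateField.fixedField (A.inertiaSubgroupIn ℚ)) Qb F₀ f2 =
          bcfHom ↥K1 Qb F₀ (algebraMap ↥K1 ↥(laurentBaseChange ↥K1 F₀) a * b ^ m * f) := by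
  haveI : Finite ↥(s36dcH K1 A) := inferInstance
  obtain ⟨a, ha0, b, hb0, hab⟩ := s36dc_gen_main F₀ (s36dcH K1 A) m hm f hf (by
    rintro τ ⟨σ, hσ, rfl⟩
    exact h σ hσ)
  exact ⟨a, ha0, b, hb0, s36dc_fixed F₀ K1 A _ (fun σ hσ => hab _ ⟨σ, hσ, rfl⟩)⟩

/-- **Descent of the constant and of the root**: an inertia-fixed function of the form
`c * e ^ m` over `K₁` is of the same form over `K₂`. -/
theorem s36dc_pow (m : ℕ) (hm : m ≠ 0) (x : ↥(laurentBaseChange ↥K1 F₀))
    (hx : ∀ σ ∈ A.inertiaSubgroupIn ℚ, arithmeticRingAut F₀ (σ.restrictNormal ↥K1) x = x)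
    (c : ↥K1) (hc0 : c ≠ 0) (e : ↥(laurentBaseChange ↥K1 F₀)) (he0 : e ≠ 0)
    (hxe : x = algebraMap ↥K1 ↥(laurentBaseChange ↥K1 F₀) c * e ^ m) :
    ∃ (c2 : ↥(K1 ⊓ IntermediateField.fixedField (A.inertiaSubgroupIn ℚ)))
      (e2 : ↥(laurentBaseChange
        ↥(K1 ⊓ IntermediateField.fixedField (A.inertiaSubgroupIn ℚ)) F₀)),
      bcfHom ↥K1 Qb F₀ x = algebraMap Qb ↥(laurentBaseChange Qb F₀) (c2 : Qb) *
        (bcfHom ↥(K1 ⊓ IntermediateField.fixedField (A.inertiaSubgroupIn ℚ)) Qb F₀ e2) ^ m := by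
  haveI : Finite ↥(s36dcH K1 A) := inferInstance
  obtain ⟨c', e', -, hc', he', hx'⟩ := s36dc_gen_pow F₀ (s36dcH K1 A) m hm x (by
    rintro τ ⟨σ, hσ, rfl⟩
    exact hx σ hσ) c hc0 e he0 hxe
  obtain ⟨e2, he2⟩ := s36dc_fixed F₀ K1 A e' (fun σ hσ => he' _ ⟨σ, hσ, rfl⟩)
  have hmem : (c' : Qb) ∈ K1 ⊓ IntermediateField.fixedField (A.inertiaSubgroupIn ℚ) := by
    rw [IntermediateField.mem_inf]
    refine ⟨c'.2, ?_⟩
    rw [IntermediateField.mem_fixedField_iff]
    intro σ hσ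
    have h1 := hc' _ ⟨σ, hσ, rfl⟩
    have h2 := AlgEquiv.restrictNormal_commutes σ ↥K1 c'
    rw [show (AlgEquiv.restrictNormalHom (F := ℚ) (K₁ := Qb) ↥K1) σ = σ.restrictNormal ↥K1
      from rfl] at h1
    rw [h1] at h2
    exact h2.symm
  refine ⟨⟨(c' : Qb), hmem⟩, e2, ?_⟩
  rw [he2, hx', map_mul, map_pow, bcfHom_algebraMap]
  rfl

end Inertia

end Fermat.Agent.S36
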