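import Mathlib
import Fermat.Agent.S34.KummerJ
import Fermat.Agent.S34.Val2Swap
import Fermat.Agent.S34.SigmaInst
import Fermat.Agent.S35.PushGal
import Fermat.Agent.S35.NormBC
import Fermat.Agent.S35.HCoreDef
import Fermat.Agent.S35.KummerNew
import Fermat.Agent.S37.LevelUp
import Fermat.Agent.S36.HCoreDef36
import Fermat.Agent.S36.DescentCar

/-!
# S36 [KUMMER36]: from the core statement over inertia-fixed fields to `J₀(N q)`

An `m`-torsion class `y` of `J₀(N q)` which is fixed by an inertia group `I` at a place `A` of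
`ℚ̄` and killed by the two degeneracy push-forwards to `J₀(N)` is killed by `B`, given the core
statement `S36hCore K' N q m B` over (fields containing) the inertia-fixed parts
`K₁ ⊓ fixedField I` of all sufficiently large finite normal extensions `K₁` of `ℚ`.

* `s36km_normA_bc`, `s36km_normB_bc`: base change of the two norms, for given degrees.
* `s36km_rel`: `σ y = y` and `m D = div f` give `σ f = c G ^ m f`.
* `s36km_finite`: the Kummer relations hold over every sufficiently large normal extension.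
* `s36km_norm_desc`: descent of a norm condition to the inertia-fixed field.
* `s36km_descend`: descent of the Kummer function (via `s36dc_main`, `s36dc_pow`).
* `s36km_fun`, `s36km_main`: the function form and the class form.
-/

set_option autoImplicit false
set_option linter.style.haveILetI false

open ModularCurve AlgebraicCurve

namespace Fermat.Agent.S36

local notation "Qb" => AlgebraicClosure ℚ

/-! ### Base change of the two norms, for given degrees -/

section norms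

variable (N q : ℕ) [NeZero N] [NeZero q] (d : ℕ) (hd : 0 < d)

include hd in
/-- the norm along `α` over `ℚ̄` of a function defined over `K0` -/
theorem s36km_normA_bc
    (hdeg : ∀ (K0 : Type) [Field K0] [Algebra ℚ K0] [Algebra K0 Qb],
      finrankAlong K0 (heckeAlphaBar K0 N q) = d)
    (K0 : Type) [Field K0] [Algebra ℚ K0] [Algebra K0 Qb]
    (x : ↥(laurentBaseChange K0 (modularFunctionFieldFull (N * q)))) :
    Fermat.Agent.S37.hkdNorm N q
        (Fermat.Agent.S18.bcfHom K0 Qb (modularFunctionFieldFull (N * q)) x) =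
      Fermat.Agent.S18.bcfHom K0 Qb (modularFunctionFieldFull N)
        (Fermat.Agent.S35.s35NormA K0 N q x) := by
  have h1 : finrankAlong K0 (heckeAlphaBar K0 N q) = d := hdeg K0
  have h2 : finrankAlong Qb (heckeAlphaBar Qb N q) = d := hdeg Qb
  exact Fermat.Agent.S35.s35k_norm_bc K0 (modularFunctionFieldFull N)
    (modularFunctionFieldFull (N * q))
    (heckeAlphaBar K0 N q) (heckeAlphaBar Qb N q)
    (Fermat.Agent.S34.va2_bcf_alpha N q K0) (h2.trans h1.symm) (by rw [h1]; exact hd) x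

include hd in
omit [NeZero N] in
/-- the norm along `β` over `ℚ̄` of a function defined over `K0` -/
theorem s36km_normB_bc
    (hdeg : ∀ (K0 : Type) [Field K0] [Algebra ℚ K0] [Algebra K0 Qb],
      finrankAlong K0 (heckeBetaBar K0 N q) = d)
    (K0 : Type) [Field K0] [Algebra ℚ K0] [Algebra K0 Qb]
    (x : ↥(laurentBaseChange K0 (modularFunctionFieldFull (N * q)))) :
    Fermat.Agent.S37.hkdNormBeta N q
        (Fermat.Agent.S18.bcfHom K0 Qb (modularFunctionFieldFull (N * q)) x) =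
      Fermat.Agent.S18.bcfHom K0 Qb (modularFunctionFieldFull N)
        (Fermat.Agent.S35.s35NormB K0 N q x) := by
  have h1 : finrankAlong K0 (heckeBetaBar K0 N q) = d := hdeg K0
  have h2 : finrankAlong Qb (heckeBetaBar Qb N q) = d := hdeg Qb
  exact Fermat.Agent.S35.s35k_norm_bc K0 (modularFunctionFieldFull N)
    (modularFunctionFieldFull (N * q))
    (heckeBetaBar K0 N q) (heckeBetaBar Qb N q)
    (Fermat.Agent.S34.va2_bcf_beta N q K0) (h2.trans h1.symm) (by rw [h1]; exact hd) x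

end norms

/-! ### Enlarging the field of definition -/

/-- a function defined over `K2` is defined over every larger field `K'` -/
theorem s36km_mono (K2 K' : IntermediateField ℚ Qb) (hle : K2 ≤ K')
    (F₀ : IntermediateField ℚ (LaurentSeries ℚ)) (z : ↥(laurentBaseChange ↥K2 F₀)) :
    ∃ z' : ↥(laurentBaseChange ↥K' F₀),
      Fermat.Agent.S18.bcfHom ↥K' Qb F₀ z' = Fermat.Agent.S18.bcfHom ↥K2 Qb F₀ z := by
  refine ⟨⟨coeffMap ((IntermediateField.inclusion hle : ↥K2 →ₐ[ℚ] ↥K') : ↥K2 →+* ↥K')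
    (z : LaurentSeries ↥K2), Fermat.Agent.S18.dvd_bc_mem _ F₀ z.2⟩, ?_⟩
  apply Subtype.ext
  rw [Fermat.Agent.S18.bcfHom_coe, Fermat.Agent.S18.bcfHom_coe, coeffMap_coeffMap]
  exact coeffMap_congr (RingHom.ext fun x => rfl) _

/-! ### The inertia relation over `ℚ̄` -/

/-- if the class of `D` is fixed by `g` and `m D = div f`, then `g f = c G ^ m f` -/
theorem s36km_rel (M : ℕ) [NeZero M] (m : ℕ)
    (g : SemilinearAut Qb ↥(modularFunctionFieldBar M))
    (D : Divisor.degZero (K := Qb) (F := ↥(modularFunctionFieldBar M)))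
    (f : ↥(modularFunctionFieldBar M)) (hf0 : f ≠ 0)
    (hfD : ∀ w : Place Qb ↥(modularFunctionFieldBar M),
      (m : ℤ) * (D : Divisor Qb ↥(modularFunctionFieldBar M)) w = w.ord f)
    (hg : g • (Pic0.mk D : JZero M) = Pic0.mk D) :
    ∃ (c : Qb) (G : ↥(modularFunctionFieldBar M)), G ≠ 0 ∧
      g • f = algebraMap Qb ↥(modularFunctionFieldBar M) c * G ^ m * f := by
  rw [SemilinearAut.pic0_smul_mk] at hg
  have h1 := QuotientAddGroup.eq.mp hg
  have h2 := AddSubgroup.mem_addSubgroupOf.mp h1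
  obtain ⟨G0, hG0, hG⟩ := h2
  have hgf0 : g • f ≠ 0 := by
    rw [Ne, smul_eq_zero_iff_eq]
    exact hf0
  have e1 := Fermat.Agent.S34.s34h_ord_smul M g f
    (D : Divisor Qb ↥(modularFunctionFieldBar M)) (m : ℤ) hfD
  obtain ⟨b1, hb1⟩ : ∃ b1 : ↥(modularFunctionFieldBar M), b1 = g • f := ⟨_, rfl⟩
  rw [← hb1] at hgf0
  -- the quotient has trivial divisor
  have hq0 : b1 * G0 ^ m * f⁻¹ ≠ 0 :=
    mul_ne_zero (mul_ne_zero hgf0 (pow_ne_zero m hG0)) (inv_ne_zero hf0)
  have hord : ∀ w : Place Qb ↥(modularFunctionFieldBar M), w.ord (b1 * G0 ^ m * f⁻¹) = 0 := by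
    intro w
    have e1w : (m : ℤ) * (g • (D : Divisor Qb ↥(modularFunctionFieldBar M))) w = w.ord b1 := by
      rw [hb1]
      exact e1 w
    have hGw := hG w
    have hcoe : ((-(SemilinearAut.degZeroSMulHom g D) + D :
        Divisor.degZero (K := Qb) (F := ↥(modularFunctionFieldBar M))) :
        Divisor Qb ↥(modularFunctionFieldBar M)) w =
        -((g • (D : Divisor Qb ↥(modularFunctionFieldBar M))) w) +
          (D : Divisor Qb ↥(modularFunctionFieldBar M)) w := by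
      rw [AddSubgroup.coe_add, AddSubgroup.coe_neg, SemilinearAut.coe_degZeroSMulHom,
        Finsupp.add_apply, Finsupp.neg_apply]
    rw [hcoe] at hGw
    rw [Place.ord_mul _ (mul_ne_zero hgf0 (pow_ne_zero m hG0)) (inv_ne_zero hf0),
      Place.ord_mul _ hgf0 (pow_ne_zero m hG0), Fermat.Agent.S24.sf_ord_pow,
      Place.ord_inv, ← e1w, ← hfD w, ← hGw]
    ring
  obtain ⟨c, hc⟩ := Fermat.Agent.S37.lvl_const M _ hq0 hord
  refine ⟨c, G0⁻¹, inv_ne_zero hG0, ?_⟩
  have hGm : G0 ^ m ≠ 0 := pow_ne_zero m hG0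
  rw [← hb1, hc, inv_pow]
  field_simp

/-! ### Finitely many Kummer relations -/

/-- the Kummer relations `σ f = c_σ G_σ ^ m f` for all `σ` of a set `S` of automorphisms hold
over every sufficiently large normal extension (only finitely many restrictions of `σ` to a
field of definition of `f` occur) -/
theorem s36km_finite (F₀ : IntermediateField ℚ (LaurentSeries ℚ)) (m : ℕ)
    (S : Set (Qb ≃ₐ[ℚ] Qb))
    (K1 : IntermediateField ℚ Qb) [FiniteDimensional ℚ K1] [Normal ℚ K1]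
    (f0 : ↥(laurentBaseChange ↥K1 F₀))
    (hI : ∀ σ ∈ S, ∃ (c : Qb) (G : ↥(laurentBaseChange Qb F₀)), G ≠ 0 ∧
      arithmeticGalois F₀ σ • Fermat.Agent.S18.bcfHom ↥K1 Qb F₀ f0 =
        algebraMap Qb ↥(laurentBaseChange Qb F₀) c * G ^ m *
          Fermat.Agent.S18.bcfHom ↥K1 Qb F₀ f0) :
    ∃ T' : Finset Qb, ∀ (K1' : IntermediateField ℚ Qb) [Normal ℚ K1'],
      (∀ c ∈ T', c ∈ K1') → ∀ f0' : ↥(laurentBaseChange ↥K1' F₀),
        Fermat.Agent.S18.bcfHom ↥K1' Qb F₀ f0' = Fermat.Agent.S18.bcfHom ↥K1 Qb F₀ f0 →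
        ∀ σ ∈ S, ∃ (c : ↥K1') (g : ↥(laurentBaseChange ↥K1' F₀)), g ≠ 0 ∧
          arithmeticGalois F₀ (σ.restrictNormal ↥K1') • f0' =
            algebraMap ↥K1' ↥(laurentBaseChange ↥K1' F₀) c * g ^ m * f0' := by
  classical
  have key : ∀ s : ↥K1 ≃ₐ[ℚ] ↥K1, ∃ (c : Qb) (G : ↥(laurentBaseChange Qb F₀))
      (Ts : Finset Qb), (∃ σ ∈ S, σ.restrictNormal ↥K1 = s) →
        G ≠ 0 ∧
        Fermat.Agent.S18.bcfHom ↥K1 Qb F₀ (arithmeticGalois F₀ s • f0) =
          algebraMap Qb ↥(laurentBaseChange Qb F₀) c * G ^ m *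
            Fermat.Agent.S18.bcfHom ↥K1 Qb F₀ f0 ∧
        ∀ K₀ : IntermediateField ℚ Qb, (∀ t ∈ Ts, t ∈ K₀) →
          ∃ x₀ ∈ laurentBaseChange ↥K₀ F₀,
            coeffMap (algebraMap ↥K₀ Qb) x₀ = (G : LaurentSeries Qb) := by
    intro s
    by_cases hs : ∃ σ ∈ S, σ.restrictNormal ↥K1 = s
    · obtain ⟨σ, hσ, rfl⟩ := hs
      obtain ⟨c, G, hG0, hrel⟩ := hI σ hσ
      obtain ⟨Ts, hTs⟩ := Fermat.Agent.S18.dvd_descend_bc Qb F₀ (G : LaurentSeries Qb) G.2
      refine ⟨c, G, Ts, fun _ => ⟨hG0, ?_, hTs⟩⟩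
      rw [Fermat.Agent.S34.s34h_bcf_smul]
      exact hrel
    · exact ⟨0, 0, ∅, fun h => absurd h hs⟩
  choose c G Ts hkey using key
  haveI : Fintype (↥K1 ≃ₐ[ℚ] ↥K1) := Fintype.ofFinite _
  refine ⟨Finset.univ.biUnion (fun s => insert (c s) (Ts s)), ?_⟩
  intro K1' _ hK1' f0' hff σ hσ
  obtain ⟨s, hs⟩ : ∃ s : ↥K1 ≃ₐ[ℚ] ↥K1, s = σ.restrictNormal ↥K1 := ⟨_, rfl⟩
  obtain ⟨hG0, hrel, hdesc⟩ := hkey s ⟨σ, hσ, hs.symm⟩
  have hcK : c s ∈ K1' :=
    hK1' _ (Finset.mem_biUnion.mpr ⟨s, Finset.mem_univ _, Finset.mem_insert_self _ _⟩)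
  have hTK : ∀ t ∈ Ts s, t ∈ K1' := fun t ht =>
    hK1' _ (Finset.mem_biUnion.mpr ⟨s, Finset.mem_univ _, Finset.mem_insert_of_mem ht⟩)
  obtain ⟨x₀, hx₀mem, hx₀⟩ := hdesc K1' hTK
  obtain ⟨g, hgdef⟩ : ∃ g : ↥(laurentBaseChange ↥K1' F₀), g = ⟨x₀, hx₀mem⟩ := ⟨_, rfl⟩
  have hbg : Fermat.Agent.S18.bcfHom ↥K1' Qb F₀ g = G s := by
    apply Subtype.ext
    rw [Fermat.Agent.S18.bcfHom_coe, hgdef]
    exact hx₀
  refine ⟨⟨c s, hcK⟩, g, ?_, ?_⟩
  · rintro rfl
    rw [map_zero] at hbg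
    exact hG0 hbg.symm
  · apply Fermat.Agent.S18.bcfHom_injective ↥K1' Qb F₀
    rw [Fermat.Agent.S34.s34h_bcf_smul, hff, ← Fermat.Agent.S34.s34h_bcf_smul, ← hs, hrel,
      map_mul, map_mul, map_pow, Fermat.Agent.S18.bcfHom_algebraMap, hbg, hff]
    rfl

/-! ### Descent of one norm condition -/

/-- the norm of a constant is a constant (`α`) -/
theorem s36km_constA (N q : ℕ) [NeZero N] [NeZero q] (K0 : Type) [Field K0] [Algebra ℚ K0]
    (a : K0) : ∃ a' : K0,
      Fermat.Agent.S35.s35NormA K0 N q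
          (algebraMap K0 ↥(laurentBaseChange K0 (modularFunctionFieldFull (N * q))) a) =
        algebraMap K0 ↥(laurentBaseChange K0 (modularFunctionFieldFull N)) a' := by
  letI := algebraAlong (heckeAlphaBar K0 N q)
  refine ⟨a ^ Module.finrank ↥(laurentBaseChange K0 (modularFunctionFieldFull N))
    ↥(laurentBaseChange K0 (modularFunctionFieldFull (N * q))), ?_⟩
  have h1 : algebraMap K0 ↥(laurentBaseChange K0 (modularFunctionFieldFull (N * q))) a =
      algebraMap ↥(laurentBaseChange K0 (modularFunctionFieldFull N))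
        ↥(laurentBaseChange K0 (modularFunctionFieldFull (N * q)))
        (algebraMap K0 ↥(laurentBaseChange K0 (modularFunctionFieldFull N)) a) :=
    ((heckeAlphaBar K0 N q).commutes a).symm
  rw [Fermat.Agent.S35.s35NormA_def, h1, Algebra.norm_algebraMap, map_pow]

/-- the norm of a constant is a constant (`β`) -/
theorem s36km_constB (N q : ℕ) [NeZero N] [NeZero q] (K0 : Type) [Field K0] [Algebra ℚ K0]
    (a : K0) : ∃ a' : K0,
      Fermat.Agent.S35.s35NormB K0 N q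
          (algebraMap K0 ↥(laurentBaseChange K0 (modularFunctionFieldFull (N * q))) a) =
        algebraMap K0 ↥(laurentBaseChange K0 (modularFunctionFieldFull N)) a' := by
  letI := algebraAlong (heckeBetaBar K0 N q)
  refine ⟨a ^ Module.finrank ↥(laurentBaseChange K0 (modularFunctionFieldFull N))
    ↥(laurentBaseChange K0 (modularFunctionFieldFull (N * q))), ?_⟩
  have h1 : algebraMap K0 ↥(laurentBaseChange K0 (modularFunctionFieldFull (N * q))) a =
      algebraMap ↥(laurentBaseChange K0 (modularFunctionFieldFull N))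
        ↥(laurentBaseChange K0 (modularFunctionFieldFull (N * q)))
        (algebraMap K0 ↥(laurentBaseChange K0 (modularFunctionFieldFull N)) a) :=
    ((heckeBetaBar K0 N q).commutes a).symm
  rw [Fermat.Agent.S35.s35NormB_def, h1, Algebra.norm_algebraMap, map_pow]

/-- **Descent of a norm condition to the inertia-fixed field.** -/
theorem s36km_norm_desc (F₁ F₂ : IntermediateField ℚ (LaurentSeries ℚ)) (m : ℕ) (hm : m ≠ 0)
    (A : ValuationSubring Qb)
    (nK : ∀ K0 : IntermediateField ℚ Qb,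
      ↥(laurentBaseChange ↥K0 F₂) →* ↥(laurentBaseChange ↥K0 F₁))
    (nQ : ↥(laurentBaseChange Qb F₂) →* ↥(laurentBaseChange Qb F₁))
    (hbc : ∀ (K0 : IntermediateField ℚ Qb) (x : ↥(laurentBaseChange ↥K0 F₂)),
      nQ (Fermat.Agent.S18.bcfHom ↥K0 Qb F₂ x) = Fermat.Agent.S18.bcfHom ↥K0 Qb F₁ (nK K0 x))
    (hconst : ∀ (K0 : IntermediateField ℚ Qb) (a : ↥K0), ∃ a' : ↥K0,
      nK K0 (algebraMap ↥K0 ↥(laurentBaseChange ↥K0 F₂) a) =
        algebraMap ↥K0 ↥(laurentBaseChange ↥K0 F₁) a')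
    (K1 : IntermediateField ℚ Qb) [FiniteDimensional ℚ K1] [Normal ℚ K1]
    (K' : IntermediateField ℚ Qb)
    (hle : K1 ⊓ IntermediateField.fixedField (A.inertiaSubgroupIn ℚ) ≤ K')
    (f0 : ↥(laurentBaseChange ↥K1 F₂)) (hf0 : f0 ≠ 0)
    (a : ↥K1) (ha : a ≠ 0) (b : ↥(laurentBaseChange ↥K1 F₂)) (hb : b ≠ 0)
    (f' : ↥(laurentBaseChange ↥K' F₂))
    (hf' : Fermat.Agent.S18.bcfHom ↥K' Qb F₂ f' =
      Fermat.Agent.S18.bcfHom ↥K1 Qb F₂
        (algebraMap ↥K1 ↥(laurentBaseChange ↥K1 F₂) a * b ^ m * f0))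
    (f2 : ↥(laurentBaseChange
      ↥(K1 ⊓ IntermediateField.fixedField (A.inertiaSubgroupIn ℚ)) F₂))
    (hf2 : Fermat.Agent.S18.bcfHom
        ↥(K1 ⊓ IntermediateField.fixedField (A.inertiaSubgroupIn ℚ)) Qb F₂ f2 =
      Fermat.Agent.S18.bcfHom ↥K1 Qb F₂
        (algebraMap ↥K1 ↥(laurentBaseChange ↥K1 F₂) a * b ^ m * f0))
    (cA : ↥K1) (eA : ↥(laurentBaseChange ↥K1 F₁))
    (hN : nK K1 f0 = algebraMap ↥K1 ↥(laurentBaseChange ↥K1 F₁) cA * eA ^ m) :
    ∃ (c : ↥K') (e : ↥(laurentBaseChange ↥K' F₁)),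
      nK K' f' = algebraMap ↥K' ↥(laurentBaseChange ↥K' F₁) c * e ^ m := by
  obtain ⟨x, hxdef⟩ : ∃ x : ↥(laurentBaseChange ↥K1 F₁),
      x = nK K1 (algebraMap ↥K1 ↥(laurentBaseChange ↥K1 F₂) a * b ^ m * f0) := ⟨_, rfl⟩
  obtain ⟨a', ha'⟩ := hconst K1 a
  have hx : x = algebraMap ↥K1 ↥(laurentBaseChange ↥K1 F₁) (a' * cA) * (nK K1 b * eA) ^ m := by
    rw [hxdef, map_mul, map_mul, map_pow, ha', hN, map_mul]
    ring
  have hx0 : x ≠ 0 := by
    rw [hxdef]
    have hne : algebraMap ↥K1 ↥(laurentBaseChange ↥K1 F₂) a * b ^ m * f0 ≠ 0 :=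
      mul_ne_zero (mul_ne_zero ((map_ne_zero _).mpr ha) (pow_ne_zero m hb)) hf0
    exact (IsUnit.map (nK K1) (isUnit_iff_ne_zero.mpr hne)).ne_zero
  have hc0 : a' * cA ≠ 0 := by
    intro h0
    rw [h0, map_zero, zero_mul] at hx
    exact hx0 hx
  have he0 : nK K1 b * eA ≠ 0 := by
    intro h0
    rw [h0, zero_pow hm, mul_zero] at hx
    exact hx0 hx
  -- `x` is fixed by inertia
  have hbx : Fermat.Agent.S18.bcfHom ↥K1 Qb F₁ x =
      Fermat.Agent.S18.bcfHom ↥(K1 ⊓ IntermediateField.fixedField (A.inertiaSubgroupIn ℚ))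
        Qb F₁ (nK _ f2) := by
    rw [hxdef, ← hbc K1, ← hf2, hbc]
  have hfix : ∀ σ ∈ A.inertiaSubgroupIn ℚ,
      arithmeticRingAut F₁ (σ.restrictNormal ↥K1) x = x := by
    intro σ hσ
    apply Fermat.Agent.S18.bcfHom_injective ↥K1 Qb F₁
    have h1 := Fermat.Agent.S34.s34h_bcf_smul (F₀ := F₁) K1 σ x
    rw [Fermat.Agent.S34.sgi_smul] at h1
    rw [h1, hbx]
    refine Fermat.Agent.S34.s34h_fixed_smul F₁ _ σ (fun z hz => ?_) _
    exact (IntermediateField.mem_fixedField_iff _ z).mp (IntermediateField.mem_inf.mp hz).2 σ hσ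
  obtain ⟨c2, e2, h2⟩ := s36dc_pow F₁ K1 A m hm x hfix (a' * cA) hc0 (nK K1 b * eA) he0 hx
  obtain ⟨e', he'⟩ := s36km_mono _ K' hle F₁ e2
  refine ⟨⟨(c2 : Qb), hle c2.2⟩, e', ?_⟩
  apply Fermat.Agent.S18.bcfHom_injective ↥K' Qb F₁
  rw [← hbc K', hf', hbc K1, ← hxdef, h2, map_mul, map_pow,
    Fermat.Agent.S18.bcfHom_algebraMap, he']
  rfl

/-! ### The descent of the Kummer function -/

/-- **KUMMER36, descent.** A Kummer function `f` over `ℚ̄` whose class is inertia-invariant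
and whose two norms are constants times `m`-th powers has, up to a constant and an `m`-th
power, a model over every field `K'` containing the inertia-fixed part of a suitable finite
normal extension `K₁ ⊇ T`, with both norm conditions over `K'`. -/
theorem s36km_descend (N q : ℕ) [NeZero N] [NeZero q] (m : ℕ) (hm : m ≠ 0)
    (A : ValuationSubring Qb) (dA dB : ℕ) (hdA : 0 < dA) (hdB : 0 < dB)
    (hdegA : ∀ (K0 : Type) [Field K0] [Algebra ℚ K0] [Algebra K0 Qb],
      finrankAlong K0 (heckeAlphaBar K0 N q) = dA)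
    (hdegB : ∀ (K0 : Type) [Field K0] [Algebra ℚ K0] [Algebra K0 Qb],
      finrankAlong K0 (heckeBetaBar K0 N q) = dB)
    (T : Finset Qb)
    (f : ↥(modularFunctionFieldBar (N * q))) (hf0 : f ≠ 0)
    (hI : ∀ σ ∈ A.inertiaSubgroupIn ℚ,
      ∃ (c : Qb) (G : ↥(modularFunctionFieldBar (N * q))), G ≠ 0 ∧
        arithmeticGalois (modularFunctionFieldFull (N * q)) σ • f =
          algebraMap Qb ↥(modularFunctionFieldBar (N * q)) c * G ^ m * f)
    (cA : Qb) (eA : ↥(modularFunctionFieldBar N))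
    (hNA : Fermat.Agent.S37.hkdNorm N q f =
      algebraMap Qb ↥(modularFunctionFieldBar N) cA * eA ^ m)
    (cB : Qb) (eB : ↥(modularFunctionFieldBar N))
    (hNB : Fermat.Agent.S37.hkdNormBeta N q f =
      algebraMap Qb ↥(modularFunctionFieldBar N) cB * eB ^ m) :
    ∃ (K1 : IntermediateField ℚ Qb) (_ : FiniteDimensional ℚ K1) (_ : Normal ℚ K1),
      (∀ c ∈ T, c ∈ K1) ∧
      ∀ K' : IntermediateField ℚ Qb,
        K1 ⊓ IntermediateField.fixedField (A.inertiaSubgroupIn ℚ) ≤ K' →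
        ∃ (f' : ↥(laurentBaseChange ↥K' (modularFunctionFieldFull (N * q))))
          (a : Qb) (b : ↥(modularFunctionFieldBar (N * q))), a ≠ 0 ∧ b ≠ 0 ∧
          Fermat.Agent.S18.bcfHom ↥K' Qb (modularFunctionFieldFull (N * q)) f' =
            algebraMap Qb ↥(modularFunctionFieldBar (N * q)) a * b ^ m * f ∧
          (∃ (c : ↥K') (e : ↥(laurentBaseChange ↥K' (modularFunctionFieldFull N))),
            Fermat.Agent.S35.s35NormA ↥K' N q f' =
              algebraMap ↥K' ↥(laurentBaseChange ↥K' (modularFunctionFieldFull N)) c * e ^ m) ∧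
          (∃ (c : ↥K') (e : ↥(laurentBaseChange ↥K' (modularFunctionFieldFull N))),
            Fermat.Agent.S35.s35NormB ↥K' N q f' =
              algebraMap ↥K' ↥(laurentBaseChange ↥K' (modularFunctionFieldFull N)) c * e ^ m) := by
  classical
  -- descent of `f`, `eA`, `eB`
  obtain ⟨Tf, hTf⟩ := Fermat.Agent.S18.dvd_descend_bc Qb (modularFunctionFieldFull (N * q))
    (f : LaurentSeries Qb) f.2
  obtain ⟨TA, hTA⟩ := Fermat.Agent.S18.dvd_descend_bc Qb (modularFunctionFieldFull N)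
    (eA : LaurentSeries Qb) eA.2
  obtain ⟨TB, hTB⟩ := Fermat.Agent.S18.dvd_descend_bc Qb (modularFunctionFieldFull N)
    (eB : LaurentSeries Qb) eB.2
  -- a first field of definition of `f`
  have := Fermat.Agent.S18.dvd_adjoin_finite Tf
  obtain ⟨K0, hK0fin, hK0gal, hle0⟩ := Fermat.Agent.S29.ost_exists_galois
    (IntermediateField.adjoin ℚ ((Tf : Finset Qb) : Set Qb))
  have := hK0fin
  have : Normal ℚ ↥K0 := hK0gal.to_normal
  obtain ⟨y0, hy0mem, hy0f⟩ := hTf K0 (fun c hc =>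
    hle0 (IntermediateField.subset_adjoin ℚ _ (Finset.mem_coe.mpr hc)))
  obtain ⟨f00, hf00def⟩ : ∃ f00 : ↥(laurentBaseChange ↥K0 (modularFunctionFieldFull (N * q))),
      f00 = ⟨y0, hy0mem⟩ := ⟨_, rfl⟩
  have hbf00 : Fermat.Agent.S18.bcfHom ↥K0 Qb (modularFunctionFieldFull (N * q)) f00 = f := by
    apply Subtype.ext
    rw [Fermat.Agent.S18.bcfHom_coe, hf00def]
    exact hy0f
  -- finitely many Kummer relations
  obtain ⟨T', hT'⟩ := s36km_finite (modularFunctionFieldFull (N * q)) m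
    ((A.inertiaSubgroupIn ℚ : Subgroup (Qb ≃ₐ[ℚ] Qb)) : Set (Qb ≃ₐ[ℚ] Qb)) K0 f00
    (fun σ hσ => by
      rw [hbf00]
      exact hI σ hσ)
  -- the number field
  obtain ⟨TT, hTTdef⟩ : ∃ TT : Finset Qb, TT = T ∪ Tf ∪ (TA ∪ TB) ∪ {cA, cB} ∪ T' := ⟨_, rfl⟩
  have := Fermat.Agent.S18.dvd_adjoin_finite TT
  obtain ⟨K1, hK1fin, hK1gal, hle⟩ := Fermat.Agent.S29.ost_exists_galois
    (IntermediateField.adjoin ℚ ((TT : Finset Qb) : Set Qb))
  have := hK1fin
  have : Normal ℚ ↥K1 := hK1gal.to_normal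
  have hTK : ∀ c ∈ TT, c ∈ K1 := fun c hc =>
    hle (IntermediateField.subset_adjoin ℚ _ (Finset.mem_coe.mpr hc))
  have hTK1 : ∀ c ∈ T, c ∈ K1 := fun c hc => hTK c (by
    rw [hTTdef]
    exact Finset.mem_union_left _ (Finset.mem_union_left _ (Finset.mem_union_left _
      (Finset.mem_union_left _ hc))))
  have hTK2 : ∀ c ∈ Tf, c ∈ K1 := fun c hc => hTK c (by
    rw [hTTdef]
    exact Finset.mem_union_left _ (Finset.mem_union_left _ (Finset.mem_union_left _
      (Finset.mem_union_right _ hc))))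
  have hTK3 : ∀ c ∈ TA, c ∈ K1 := fun c hc => hTK c (by
    rw [hTTdef]
    exact Finset.mem_union_left _ (Finset.mem_union_left _ (Finset.mem_union_right _
      (Finset.mem_union_left _ hc))))
  have hTK4 : ∀ c ∈ TB, c ∈ K1 := fun c hc => hTK c (by
    rw [hTTdef]
    exact Finset.mem_union_left _ (Finset.mem_union_left _ (Finset.mem_union_right _
      (Finset.mem_union_right _ hc))))
  have hcAK : cA ∈ K1 := hTK cA (by
    rw [hTTdef]
    exact Finset.mem_union_left _ (Finset.mem_union_right _ (Finset.mem_insert_self _ _)))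
  have hcBK : cB ∈ K1 := hTK cB (by
    rw [hTTdef]
    exact Finset.mem_union_left _ (Finset.mem_union_right _
      (Finset.mem_insert_of_mem (Finset.mem_singleton_self _))))
  have hTK5 : ∀ c ∈ T', c ∈ K1 := fun c hc => hTK c (by
    rw [hTTdef]
    exact Finset.mem_union_right _ hc)
  obtain ⟨x0, hx0mem, hx0f⟩ := hTf K1 hTK2
  obtain ⟨xA, hxAmem, hxAe⟩ := hTA K1 hTK3
  obtain ⟨xB, hxBmem, hxBe⟩ := hTB K1 hTK4
  obtain ⟨f0, hf0def⟩ : ∃ f0 : ↥(laurentBaseChange ↥K1 (modularFunctionFieldFull (N * q))),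
      f0 = ⟨x0, hx0mem⟩ := ⟨_, rfl⟩
  obtain ⟨eA0, heA0def⟩ : ∃ e0 : ↥(laurentBaseChange ↥K1 (modularFunctionFieldFull N)),
      e0 = ⟨xA, hxAmem⟩ := ⟨_, rfl⟩
  obtain ⟨eB0, heB0def⟩ : ∃ e0 : ↥(laurentBaseChange ↥K1 (modularFunctionFieldFull N)),
      e0 = ⟨xB, hxBmem⟩ := ⟨_, rfl⟩
  have hbf : Fermat.Agent.S18.bcfHom ↥K1 Qb (modularFunctionFieldFull (N * q)) f0 = f := by
    apply Subtype.ext
    rw [Fermat.Agent.S18.bcfHom_coe, hf0def]
    exact hx0f
  have hbA : Fermat.Agent.S18.bcfHom ↥K1 Qb (modularFunctionFieldFull N) eA0 = eA := by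
    apply Subtype.ext
    rw [Fermat.Agent.S18.bcfHom_coe, heA0def]
    exact hxAe
  have hbB : Fermat.Agent.S18.bcfHom ↥K1 Qb (modularFunctionFieldFull N) eB0 = eB := by
    apply Subtype.ext
    rw [Fermat.Agent.S18.bcfHom_coe, heB0def]
    exact hxBe
  have hf00' : f0 ≠ 0 := by
    rintro rfl
    rw [map_zero] at hbf
    exact hf0 hbf.symm
  -- the Kummer relations over `K1`
  have hrel := hT' K1 hTK5 f0 (hbf.trans hbf00.symm)
  -- the two norms over `K1`
  have h3 : Fermat.Agent.S35.s35NormA ↥K1 N q f0 =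
      algebraMap ↥K1 ↥(laurentBaseChange ↥K1 (modularFunctionFieldFull N)) ⟨cA, hcAK⟩ *
        eA0 ^ m := by
    apply Fermat.Agent.S18.bcfHom_injective ↥K1 Qb (modularFunctionFieldFull N)
    rw [← s36km_normA_bc N q dA hdA hdegA ↥K1 f0, hbf, hNA, map_mul, map_pow,
      Fermat.Agent.S18.bcfHom_algebraMap, hbA]
    rfl
  have h4 : Fermat.Agent.S35.s35NormB ↥K1 N q f0 =
      algebraMap ↥K1 ↥(laurentBaseChange ↥K1 (modularFunctionFieldFull N)) ⟨cB, hcBK⟩ *
        eB0 ^ m := by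
    apply Fermat.Agent.S18.bcfHom_injective ↥K1 Qb (modularFunctionFieldFull N)
    rw [← s36km_normB_bc N q dB hdB hdegB ↥K1 f0, hbf, hNB, map_mul, map_pow,
      Fermat.Agent.S18.bcfHom_algebraMap, hbB]
    rfl
  -- the descent
  obtain ⟨a, ha, b, hb, f2, hf2⟩ := s36dc_main (modularFunctionFieldFull (N * q)) K1 A m hm
    f0 hf00' (fun σ hσ => hrel σ hσ)
  refine ⟨K1, hK1fin, inferInstance, hTK1, fun K' hle' => ?_⟩
  obtain ⟨f', hf'⟩ := s36km_mono _ K' hle' (modularFunctionFieldFull (N * q)) f2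
  refine ⟨f', (a : Qb), Fermat.Agent.S18.bcfHom ↥K1 Qb (modularFunctionFieldFull (N * q)) b,
    ?_, (map_ne_zero _).mpr hb, ?_, ?_, ?_⟩
  · intro h0
    exact ha (Subtype.ext h0)
  · rw [hf', hf2, map_mul, map_mul, map_pow, Fermat.Agent.S18.bcfHom_algebraMap, hbf]
    rfl
  · exact s36km_norm_desc (modularFunctionFieldFull N) (modularFunctionFieldFull (N * q)) m hm A
      (fun K0 => Fermat.Agent.S35.s35NormA ↥K0 N q) (Fermat.Agent.S37.hkdNorm N q)
      (fun K0 x => s36km_normA_bc N q dA hdA hdegA ↥K0 x)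
      (fun K0 a => s36km_constA N q ↥K0 a)
      K1 K' hle' f0 hf00' a ha b hb f' (hf'.trans hf2) f2 hf2 ⟨cA, hcAK⟩ eA0 h3
  · exact s36km_norm_desc (modularFunctionFieldFull N) (modularFunctionFieldFull (N * q)) m hm A
      (fun K0 => Fermat.Agent.S35.s35NormB ↥K0 N q) (Fermat.Agent.S37.hkdNormBeta N q)
      (fun K0 x => s36km_normB_bc N q dB hdB hdegB ↥K0 x)
      (fun K0 a => s36km_constB N q ↥K0 a)
      K1 K' hle' f0 hf00' a ha b hb f' (hf'.trans hf2) f2 hf2 ⟨cB, hcBK⟩ eB0 h4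

/-! ### The function form and the class form -/

/-- **KUMMER36, function form.** For a Kummer function `f` (all orders divisible by `m`) over
`ℚ̄` whose class is inertia-invariant and whose two norms are constants times `m`-th powers,
`(a b ^ m f) ^ B` is a constant times an `m`-th power, for suitable `a ≠ 0`, `b ≠ 0`. -/
theorem s36km_fun (N q : ℕ) [NeZero N] [NeZero q] (m : ℕ) (hm : m ≠ 0) (B : ℕ)
    (A : ValuationSubring Qb) (dA dB : ℕ) (hdA : 0 < dA) (hdB : 0 < dB)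
    (hdegA : ∀ (K0 : Type) [Field K0] [Algebra ℚ K0] [Algebra K0 Qb],
      finrankAlong K0 (heckeAlphaBar K0 N q) = dA)
    (hdegB : ∀ (K0 : Type) [Field K0] [Algebra ℚ K0] [Algebra K0 Qb],
      finrankAlong K0 (heckeBetaBar K0 N q) = dB)
    (hcore : ∃ T : Finset Qb, ∀ (K1 : IntermediateField ℚ Qb) [FiniteDimensional ℚ K1]
      [Normal ℚ K1], (∀ c ∈ T, c ∈ K1) →
        ∃ K' : IntermediateField ℚ Qb,
          K1 ⊓ IntermediateField.fixedField (A.inertiaSubgroupIn ℚ) ≤ K' ∧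
          S36hCore K' N q m B)
    (f : ↥(modularFunctionFieldBar (N * q))) (hf0 : f ≠ 0)
    (hord : ∀ w : Place Qb ↥(modularFunctionFieldBar (N * q)), (m : ℤ) ∣ w.ord f)
    (hI : ∀ σ ∈ A.inertiaSubgroupIn ℚ,
      ∃ (c : Qb) (G : ↥(modularFunctionFieldBar (N * q))), G ≠ 0 ∧
        arithmeticGalois (modularFunctionFieldFull (N * q)) σ • f =
          algebraMap Qb ↥(modularFunctionFieldBar (N * q)) c * G ^ m * f)
    (cA : Qb) (eA : ↥(modularFunctionFieldBar N))
    (hNA : Fermat.Agent.S37.hkdNorm N q f =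
      algebraMap Qb ↥(modularFunctionFieldBar N) cA * eA ^ m)
    (cB : Qb) (eB : ↥(modularFunctionFieldBar N))
    (hNB : Fermat.Agent.S37.hkdNormBeta N q f =
      algebraMap Qb ↥(modularFunctionFieldBar N) cB * eB ^ m) :
    ∃ (c : Qb) (Gb b : ↥(modularFunctionFieldBar (N * q))) (a : Qb), Gb ≠ 0 ∧ b ≠ 0 ∧ a ≠ 0 ∧
      (algebraMap Qb ↥(modularFunctionFieldBar (N * q)) a * b ^ m * f) ^ B =
        algebraMap Qb ↥(modularFunctionFieldBar (N * q)) c * Gb ^ m := by
  obtain ⟨T, hT⟩ := hcore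
  obtain ⟨K1, hfin, hnorm, hTK, hdesc⟩ := s36km_descend N q m hm A dA dB hdA hdB hdegA hdegB T
    f hf0 hI cA eA hNA cB eB hNB
  obtain ⟨K', hle, hcoreK⟩ := @hT K1 hfin hnorm hTK
  obtain ⟨f', a, b, ha, hb, hf', hA', hB'⟩ := hdesc K' hle
  have ha' : algebraMap Qb ↥(modularFunctionFieldBar (N * q)) a ≠ 0 := (map_ne_zero _).mpr ha
  have hf'0 : f' ≠ 0 := by
    rintro rfl
    rw [map_zero] at hf'
    exact mul_ne_zero (mul_ne_zero ha' (pow_ne_zero m hb)) hf0 hf'.symm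
  have _alg : Algebra.IsAlgebraic ℚ Qb := AlgebraicClosure.isAlgebraic ℚ
  have _algK : Algebra.IsAlgebraic ↥K' Qb := Fermat.Agent.S18.bcf_isAlgebraic ↥K' Qb
  have h1 : ∀ Q : Place ↥K' ↥(laurentBaseChange ↥K' (modularFunctionFieldFull (N * q))),
      (m : ℤ) ∣ Q.ord f' := by
    intro Q
    apply Fermat.Agent.S18.bcf_dvd_ord ↥K' Qb (modularFunctionFieldFull (N * q)) (m : ℤ) f'
    intro P
    rw [hf', Place.ord_mul _ (mul_ne_zero ha' (pow_ne_zero m hb)) hf0,
      Place.ord_mul _ ha' (pow_ne_zero m hb), Fermat.Agent.S24.sf_ord_algebraMap,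
      Fermat.Agent.S24.sf_ord_pow]
    exact dvd_add (dvd_add (dvd_zero _) (dvd_mul_right _ _)) (hord P)
  obtain ⟨w, G, hG0, hEq⟩ := hcoreK f' hf'0 h1 hA' hB'
  refine ⟨algebraMap ↥K' Qb w,
    Fermat.Agent.S18.bcfHom ↥K' Qb (modularFunctionFieldFull (N * q)) G, b, a,
    (map_ne_zero _).mpr hG0, hb, ha, ?_⟩
  have h := congrArg (Fermat.Agent.S18.bcfHom ↥K' Qb (modularFunctionFieldFull (N * q))) hEq
  rw [map_pow, hf', map_mul, map_pow, Fermat.Agent.S18.bcfHom_algebraMap] at h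
  exact h

/-- **KUMMER36, class form.** An `m`-torsion class `y` of `J₀(N q)` which is fixed by the
inertia group of `A` and killed by both degeneracy push-forwards is killed by `B`, given the
core statement `S36hCore` over (fields containing) the inertia-fixed parts of all sufficiently
large finite normal extensions of `ℚ`, and the degrees of the two degeneracy maps. -/
theorem s36km_main (N q : ℕ) [NeZero N] [NeZero q] (m : ℕ) (hm : m ≠ 0) (B : ℕ)
    (A : ValuationSubring Qb) (dA dB : ℕ) (hdA : 0 < dA) (hdB : 0 < dB)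
    (hdegA : ∀ (K0 : Type) [Field K0] [Algebra ℚ K0] [Algebra K0 Qb],
      finrankAlong K0 (heckeAlphaBar K0 N q) = dA)
    (hdegB : ∀ (K0 : Type) [Field K0] [Algebra ℚ K0] [Algebra K0 Qb],
      finrankAlong K0 (heckeBetaBar K0 N q) = dB)
    (hcore : ∃ T : Finset Qb, ∀ (K1 : IntermediateField ℚ Qb) [FiniteDimensional ℚ K1]
      [Normal ℚ K1], (∀ c ∈ T, c ∈ K1) →
        ∃ K' : IntermediateField ℚ Qb,
          K1 ⊓ IntermediateField.fixedField (A.inertiaSubgroupIn ℚ) ≤ K' ∧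
          S36hCore K' N q m B)
    (y : JZero (N * q)) (hy : m • y = 0)
    (hI : ∀ σ ∈ A.inertiaSubgroupIn ℚ, σ • y = y)
    (hα : Fermat.Agent.S35.s35pAlpha N q y = 0) (hβ : Fermat.Agent.S35.s35pBeta N q y = 0) :
    B • y = 0 := by
  classical
  obtain ⟨D, rfl⟩ := Pic0.mk_surjective y
  -- `m D` is principal
  have hmD : ((m • D : Divisor.degZero (K := Qb) (F := ↥(modularFunctionFieldBar (N * q)))) :
      Divisor Qb ↥(modularFunctionFieldBar (N * q))) ∈
      Divisor.principal (K := Qb) (F := ↥(modularFunctionFieldBar (N * q))) := by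
    have h1 : Pic0.mk (m • D) = (0 : JZero (N * q)) := by
      rw [← hy]
      rfl
    have h2 := (QuotientAddGroup.eq_zero_iff (m • D)).mp h1
    exact AddSubgroup.mem_addSubgroupOf.mp h2
  obtain ⟨f, hf0, hf⟩ := hmD
  have hfD : ∀ w : Place Qb ↥(modularFunctionFieldBar (N * q)),
      (m : ℤ) * (D : Divisor Qb ↥(modularFunctionFieldBar (N * q))) w = w.ord f := by
    intro w
    rw [← hf w, AddSubgroupClass.coe_nsmul, Finsupp.smul_apply, nsmul_eq_mul]
  -- the two norms over `ℚ̄`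
  obtain ⟨cA, eA, -, -, hNA⟩ := Fermat.Agent.S35.pgl_alpha_eq_zero N q m f hf0 D hfD hα
  obtain ⟨cB, eB, -, -, hNB⟩ := Fermat.Agent.S35.pgl_beta_eq_zero N q m f hf0 D hfD hβ
  -- the inertia relations
  have hIf : ∀ σ ∈ A.inertiaSubgroupIn ℚ,
      ∃ (c : Qb) (G : ↥(modularFunctionFieldBar (N * q))), G ≠ 0 ∧
        arithmeticGalois (modularFunctionFieldFull (N * q)) σ • f =
          algebraMap Qb ↥(modularFunctionFieldBar (N * q)) c * G ^ m * f := by
    intro σ hσ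
    exact s36km_rel (N * q) m (arithmeticGalois (modularFunctionFieldFull (N * q)) σ) D f hf0
      hfD (hI σ hσ)
  obtain ⟨c, Gb, b, a, hGb0, hb0, ha0, hEq⟩ := s36km_fun N q m hm B A dA dB hdA hdB hdegA hdegB
    hcore f hf0 (fun w => ⟨_, (hfD w).symm⟩) hIf cA eA hNA cB eB hNB
  -- the divisor of `Gb / b ^ B`
  have ha' : algebraMap Qb ↥(modularFunctionFieldBar (N * q)) a ≠ 0 := (map_ne_zero _).mpr ha0
  have hc0 : algebraMap Qb ↥(modularFunctionFieldBar (N * q)) c ≠ 0 := by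
    intro h0
    rw [h0, zero_mul] at hEq
    exact pow_ne_zero B (mul_ne_zero (mul_ne_zero ha' (pow_ne_zero m hb0)) hf0) hEq
  have hdiv : ∀ v : Place Qb ↥(modularFunctionFieldBar (N * q)),
      (B : ℤ) * (D : Divisor Qb ↥(modularFunctionFieldBar (N * q))) v =
        v.ord (Gb * (b ^ B)⁻¹) := by
    intro v
    have h := congrArg v.ord hEq
    rw [Fermat.Agent.S24.sf_ord_pow,
      Place.ord_mul _ (mul_ne_zero ha' (pow_ne_zero m hb0)) hf0,
      Place.ord_mul _ ha' (pow_ne_zero m hb0), Fermat.Agent.S24.sf_ord_algebraMap,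
      Fermat.Agent.S24.sf_ord_pow, Place.ord_mul _ hc0 (pow_ne_zero m hGb0),
      Fermat.Agent.S24.sf_ord_algebraMap, Fermat.Agent.S24.sf_ord_pow, ← hfD v] at h
    rw [Place.ord_mul _ hGb0 (inv_ne_zero (pow_ne_zero B hb0)), Place.ord_inv,
      Fermat.Agent.S24.sf_ord_pow]
    have hm' : (m : ℤ) ≠ 0 := Nat.cast_ne_zero.mpr hm
    apply mul_left_cancel₀ hm'
    linear_combination h
  -- conclude
  have hgoal : (B • Pic0.mk D : JZero (N * q)) = Pic0.mk (B • D) := rfl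
  rw [hgoal]
  refine (QuotientAddGroup.eq_zero_iff _).mpr (AddSubgroup.mem_addSubgroupOf.mpr ?_)
  refine ⟨Gb * (b ^ B)⁻¹, mul_ne_zero hGb0 (inv_ne_zero (pow_ne_zero B hb0)), fun v => ?_⟩
  rw [← hdiv v, AddSubgroupClass.coe_nsmul, Finsupp.smul_apply, nsmul_eq_mul]

end Fermat.Agent.S36
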