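import Fermat.Agent.S35.NormSquare

/-!
# S36, [DEG-SQ36], the degree half: the degrees along `α` and `β` at two levels divisible by `q`

`F_N` the function field of `X₀(N)` over `ℚ̄`, `q` a prime with `q ∣ N ∣ N'`.

* `s36sd_square` : the tower law in a commuting square of fields;
* `s36sd_finrank_of_jBar` : a `ℚ̄`-embedding `F_N → F_{N'}` mapping `j` to `j` has degree
  `ψ(N') / ψ(N)`;
* `s36sd_lvl_finrank`, `s36sd_lvl_finrank_eq` : the level inclusions `F_N → F_{N'}` and
  `F_{N q} → F_{N' q}` have the same degree when `q ∣ N`;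
* `s36sd_hdeg_alpha`, `s36sd_hdeg_beta` : the degrees of `F_{N' q}` over `F_{N'}` and of
  `F_{N q}` over `F_N` along `α` (resp. `β`) agree (the hypothesis `hdeg` of
  `nbc_norm_eq_of_closure`, in the shape of `nsq_hdeg`).

Names are prefixed `s36sd_`.
-/

set_option autoImplicit false
set_option linter.style.haveILetI false
set_option linter.unusedSectionVars false

open AlgebraicCurve ModularCurve IntermediateField

namespace Fermat.Agent.S36

open Fermat.Agent.S24 Fermat.Agent.S35 Fermat.Agent.S37

local notation "Qb" => AlgebraicClosure ℚ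

/-- **Tower law in a commuting square of fields.** -/
theorem s36sd_square {E F E' F' : Type*} [Field E] [Field F] [Field E'] [Field F']
    [Algebra E F] [Algebra E' F'] [Algebra E E'] [Algebra F F']
    (hcomm : ∀ a : E, algebraMap F F' (algebraMap E F a) = algebraMap E' F' (algebraMap E E' a)) :
    Module.finrank E E' * Module.finrank E' F' = Module.finrank E F * Module.finrank F F' := by
  letI : Algebra E F' := ((algebraMap F F').comp (algebraMap E F)).toAlgebra
  haveI : IsScalarTower E F F' := IsScalarTower.of_algebraMap_eq fun _ => rfl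
  haveI : IsScalarTower E E' F' := IsScalarTower.of_algebraMap_eq fun a => hcomm a
  haveI : Module.Free E F := Module.Free.of_divisionRing _ _
  haveI : Module.Free E E' := Module.Free.of_divisionRing _ _
  haveI : Module.Free F F' := Module.Free.of_divisionRing _ _
  haveI : Module.Free E' F' := Module.Free.of_divisionRing _ _
  rw [Module.finrank_mul_finrank E E' F', Module.finrank_mul_finrank E F F']

/-- `ψ(N) · [F_{N'} : φ F_N] = ψ(N')` for a `ℚ̄`-embedding `φ` with `φ j = j`. -/
theorem s36sd_finrank_of_jBar (N N' : ℕ) [NeZero N] [NeZero N']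
    (φ : ↥(modularFunctionFieldBar N) →ₐ[Qb] ↥(modularFunctionFieldBar N'))
    (hφ : φ (jBar N) = jBar N') :
    dedekindPsi N * finrankAlong Qb φ = dedekindPsi N' := by
  letI := algebraAlong φ
  letI algJ : Algebra Qb⟮jBar N⟯ ↥(modularFunctionFieldBar N') :=
    ((algebraMap ↥(modularFunctionFieldBar N) ↥(modularFunctionFieldBar N')).comp
      (algebraMap Qb⟮jBar N⟯ ↥(modularFunctionFieldBar N))).toAlgebra
  haveI : IsScalarTower Qb⟮jBar N⟯ ↥(modularFunctionFieldBar N)
      ↥(modularFunctionFieldBar N') := IsScalarTower.of_algebraMap_eq fun _ => rfl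
  haveI : Module.Free Qb⟮jBar N⟯ ↥(modularFunctionFieldBar N) :=
    Module.Free.of_divisionRing _ _
  haveI : Module.Free ↥(modularFunctionFieldBar N) ↥(modularFunctionFieldBar N') :=
    Module.Free.of_divisionRing _ _
  have h1 := Module.finrank_mul_finrank Qb⟮jBar N⟯
    ↥(modularFunctionFieldBar N) ↥(modularFunctionFieldBar N')
  have h2 : Module.finrank Qb⟮jBar N⟯ ↥(modularFunctionFieldBar N')
      = Module.finrank Qb⟮jBar N'⟯ ↥(modularFunctionFieldBar N') := by
    apply hkd_finrank_eq_of_range
    intro y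
    have hmap : Qb⟮jBar N⟯.map φ = Qb⟮jBar N'⟯ := by
      rw [IntermediateField.adjoin_map, Set.image_singleton, hφ]
    constructor
    · rintro ⟨a, rfl⟩
      have ha : φ (a : ↥(modularFunctionFieldBar N)) ∈ Qb⟮jBar N'⟯ := by
        rw [← hmap]
        exact ⟨a, a.2, rfl⟩
      exact ⟨⟨_, ha⟩, rfl⟩
    · rintro ⟨b, rfl⟩
      have hb : (b : ↥(modularFunctionFieldBar N')) ∈ Qb⟮jBar N⟯.map φ := by
        rw [hmap]
        exact b.2
      obtain ⟨a, ha, hab⟩ := hb
      exact ⟨⟨a, ha⟩, hab⟩
  rw [hkd_finrank_jBar N, h2, hkd_finrank_jBar N'] at h1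
  exact h1

section level

variable (N N' q : ℕ) [NeZero N] [NeZero N'] [NeZero q] (h : N ∣ N') (h' : N * q ∣ N' * q)

/-- `ψ(N) · [F_{N'} : F_N] = ψ(N')`. -/
theorem s36sd_lvl_finrank :
    dedekindPsi N * finrankAlong Qb (lvlIncl N N' h) = dedekindPsi N' :=
  s36sd_finrank_of_jBar N N' (lvlIncl N N' h) (Subtype.ext rfl)

/-- the degree of a level inclusion is positive -/
theorem s36sd_lvl_finrank_pos : 0 < finrankAlong Qb (lvlIncl N N' h) := by
  rcases Nat.eq_zero_or_pos (finrankAlong Qb (lvlIncl N N' h)) with h0 | h0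
  · have h1 := s36sd_lvl_finrank N N' h
    rw [h0, mul_zero] at h1
    exact absurd h1.symm (dedekindPsi_pos N' (NeZero.ne N')).ne'
  · exact h0

include h in
/-- for `q ∣ N ∣ N'` the level inclusions `F_N → F_{N'}` and `F_{N q} → F_{N' q}` have the same
degree -/
theorem s36sd_lvl_finrank_eq (hq : q.Prime) (hqN : q ∣ N) :
    finrankAlong Qb (lvlIncl (N * q) (N' * q) h') = finrankAlong Qb (lvlIncl N N' h) := by
  have h1 := s36sd_lvl_finrank N N' h
  have h2 := s36sd_lvl_finrank (N * q) (N' * q) h'
  have e1 : dedekindPsi (N * q) = q * dedekindPsi N := by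
    rw [mul_comm N q]
    exact dedekindPsi_mul_of_dvd hq (NeZero.pos N) hqN
  have e2 : dedekindPsi (N' * q) = q * dedekindPsi N' := by
    rw [mul_comm N' q]
    exact dedekindPsi_mul_of_dvd hq (NeZero.pos N') (hqN.trans h)
  rw [e1, e2, ← h1, mul_assoc] at h2
  exact Nat.eq_of_mul_eq_mul_left (dedekindPsi_pos N (NeZero.ne N))
    (Nat.eq_of_mul_eq_mul_left hq.pos h2)

include h h' in
/-- **(HDEG, `α`)**: for `q ∣ N ∣ N'` the degrees along `α` at the two levels agree -/
theorem s36sd_hdeg_alpha (hq : q.Prime) (hqN : q ∣ N) :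
    letI : Algebra ↥(modularFunctionFieldBar N) ↥(modularFunctionFieldBar (N * q)) :=
      algebraAlong (heckeAlphaBar Qb N q)
    letI : Algebra ↥(modularFunctionFieldBar N') ↥(modularFunctionFieldBar (N' * q)) :=
      algebraAlong (heckeAlphaBar Qb N' q)
    Module.finrank ↥(modularFunctionFieldBar N') ↥(modularFunctionFieldBar (N' * q)) =
      Module.finrank ↥(modularFunctionFieldBar N) ↥(modularFunctionFieldBar (N * q)) := by
  letI algE : Algebra ↥(modularFunctionFieldBar N) ↥(modularFunctionFieldBar (N * q)) :=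
    algebraAlong (heckeAlphaBar Qb N q)
  letI algE' : Algebra ↥(modularFunctionFieldBar N') ↥(modularFunctionFieldBar (N' * q)) :=
    algebraAlong (heckeAlphaBar Qb N' q)
  letI algV : Algebra ↥(modularFunctionFieldBar N) ↥(modularFunctionFieldBar N') :=
    algebraAlong (lvlIncl N N' h)
  letI algV' : Algebra ↥(modularFunctionFieldBar (N * q)) ↥(modularFunctionFieldBar (N' * q)) :=
    algebraAlong (lvlIncl (N * q) (N' * q) h')
  have hsq := s36sd_square (E := ↥(modularFunctionFieldBar N))
    (F := ↥(modularFunctionFieldBar (N * q))) (E' := ↥(modularFunctionFieldBar N'))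
    (F' := ↥(modularFunctionFieldBar (N' * q)))
    (fun a => nsq_lvlIncl_alpha N N' q h h' a)
  have hv : Module.finrank ↥(modularFunctionFieldBar (N * q))
      ↥(modularFunctionFieldBar (N' * q)) =
      Module.finrank ↥(modularFunctionFieldBar N) ↥(modularFunctionFieldBar N') :=
    s36sd_lvl_finrank_eq N N' q h h' hq hqN
  have hpos : 0 < Module.finrank ↥(modularFunctionFieldBar N) ↥(modularFunctionFieldBar N') :=
    s36sd_lvl_finrank_pos N N' h
  rw [hv, mul_comm (Module.finrank ↥(modularFunctionFieldBar N)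
    ↥(modularFunctionFieldBar (N * q)))] at hsq
  exact Nat.eq_of_mul_eq_mul_left hpos hsq

include h h' in
/-- **(HDEG, `β`)**: for `q ∣ N ∣ N'` the degrees along `β` at the two levels agree -/
theorem s36sd_hdeg_beta (hq : q.Prime) (hqN : q ∣ N) :
    letI : Algebra ↥(modularFunctionFieldBar N) ↥(modularFunctionFieldBar (N * q)) :=
      algebraAlong (heckeBetaBar Qb N q)
    letI : Algebra ↥(modularFunctionFieldBar N') ↥(modularFunctionFieldBar (N' * q)) :=
      algebraAlong (heckeBetaBar Qb N' q)
    Module.finrank ↥(modularFunctionFieldBar N') ↥(modularFunctionFieldBar (N' * q)) =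
      Module.finrank ↥(modularFunctionFieldBar N) ↥(modularFunctionFieldBar (N * q)) := by
  letI algE : Algebra ↥(modularFunctionFieldBar N) ↥(modularFunctionFieldBar (N * q)) :=
    algebraAlong (heckeBetaBar Qb N q)
  letI algE' : Algebra ↥(modularFunctionFieldBar N') ↥(modularFunctionFieldBar (N' * q)) :=
    algebraAlong (heckeBetaBar Qb N' q)
  letI algV : Algebra ↥(modularFunctionFieldBar N) ↥(modularFunctionFieldBar N') :=
    algebraAlong (lvlIncl N N' h)
  letI algV' : Algebra ↥(modularFunctionFieldBar (N * q)) ↥(modularFunctionFieldBar (N' * q)) :=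
    algebraAlong (lvlIncl (N * q) (N' * q) h')
  have hsq := s36sd_square (E := ↥(modularFunctionFieldBar N))
    (F := ↥(modularFunctionFieldBar (N * q))) (E' := ↥(modularFunctionFieldBar N'))
    (F' := ↥(modularFunctionFieldBar (N' * q)))
    (fun a => nsq_lvlIncl_beta N N' q h h' a)
  have hv : Module.finrank ↥(modularFunctionFieldBar (N * q))
      ↥(modularFunctionFieldBar (N' * q)) =
      Module.finrank ↥(modularFunctionFieldBar N) ↥(modularFunctionFieldBar N') :=
    s36sd_lvl_finrank_eq N N' q h h' hq hqN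
  have hpos : 0 < Module.finrank ↥(modularFunctionFieldBar N) ↥(modularFunctionFieldBar N') :=
    s36sd_lvl_finrank_pos N N' h
  rw [hv, mul_comm (Module.finrank ↥(modularFunctionFieldBar N)
    ↥(modularFunctionFieldBar (N * q)))] at hsq
  exact Nat.eq_of_mul_eq_mul_left hpos hsq

end level

end Fermat.Agent.S36
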