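import Fermat.Agent.S36.Deg3
import Fermat.Agent.S36.NormSqDeg

/-!
# S36, [DEG-SQ36]: the norm squares of the level inclusions at a prime `q` dividing the level

`F_N` the function field of `X₀(N)` over `ℚ̄`, `q` a prime, `L ∣ M0`, `q ∤ M0`.  The norms
`F_{M0 q²} → F_{M0 q}` along `α` and along `β` restrict on `F_{L q²}` to the norms
`F_{L q²} → F_{L q}` along `α`, resp. `β`:

* `s36sq_level_alpha` : `N_α (ι x) = ι (N_α x)`;
* `s36sq_level_beta`  : `N_β (ι x) = ι (N_β x)`.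

Proof: `nbc_norm_eq_of_closure` (S35/NormBC) with the degrees of `s36sd_hdeg_alpha`,
`s36sd_hdeg_beta` (S36/NormSqDeg) and the generation `F_{M0 q²} = α(F_{M0 q})(j(t^{q²}))
= β(F_{M0 q})(j)` of `s36d_gen_alpha_bar`, `s36d_gen_beta_bar` (S36/Deg3).

Names are prefixed `s36sq_`.
-/

set_option autoImplicit false
set_option linter.style.haveILetI false

open AlgebraicCurve ModularCurve

namespace Fermat.Agent.S36

open Fermat.Agent.S18 Fermat.Agent.S24 Fermat.Agent.S34 Fermat.Agent.S35 Fermat.Agent.S37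

local notation "Qb" => AlgebraicClosure ℚ

/-- **(SQ-LEVEL, `α`)** at a prime `q` dividing the level. -/
theorem s36sq_level_alpha (L M0 q : ℕ) [NeZero L] [NeZero M0] [NeZero q] (hq : q.Prime)
    (hM0 : ¬ q ∣ M0) (h : L ∣ M0) (h1 : L * q ∣ M0 * q) (h2 : L * q * q ∣ M0 * q * q)
    (x : ↥(modularFunctionFieldBar (L * q * q))) :
    hkdNorm (M0 * q) q (lvlIncl (L * q * q) (M0 * q * q) h2 x) =
      lvlIncl (L * q) (M0 * q) h1 (hkdNorm (L * q) q x) := by
  letI algE : Algebra ↥(modularFunctionFieldBar (L * q))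
      ↥(modularFunctionFieldBar (L * q * q)) := algebraAlong (heckeAlphaBar Qb (L * q) q)
  letI algE' : Algebra ↥(modularFunctionFieldBar (M0 * q))
      ↥(modularFunctionFieldBar (M0 * q * q)) := algebraAlong (heckeAlphaBar Qb (M0 * q) q)
  haveI : FiniteDimensional ↥(modularFunctionFieldBar (L * q))
      ↥(modularFunctionFieldBar (L * q * q)) :=
    hki_finiteAlong (L * q) (L * q * q) (heckeAlphaBar Qb (L * q) q)
  refine nbc_norm_eq_of_closure (lvlIncl (L * q) (M0 * q) h1).toRingHom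
    (lvlIncl (L * q * q) (M0 * q * q) h2).toRingHom (nsq_hcomm (L * q) (M0 * q) q h1 h2)
    (s36sd_hdeg_alpha (L * q) (M0 * q) q h1 h2 hq (dvd_mul_left q L)) (fun y => ?_) x
  refine Subfield.closure_mono ?_ (s36d_gen_alpha_bar M0 q hq hM0 y)
  rintro _ (hz | hz)
  · exact Or.inl hz
  · rw [Set.mem_singleton_iff] at hz
    rw [hz]
    refine Or.inr ⟨heckeBetaBar Qb (L * q) q (heckeBetaBar Qb L q (grJ Qb L)), ?_⟩
    show lvlIncl (L * q * q) (M0 * q * q) h2
      (heckeBetaBar Qb (L * q) q (heckeBetaBar Qb L q (grJ Qb L))) = _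
    rw [nsq_lvlIncl_beta (L * q) (M0 * q) q h1 h2, nsq_lvlIncl_beta L M0 q h h1,
      nsq_lvlIncl_grJ L M0 h]

/-- **(SQ-LEVEL, `β`)** at a prime `q` dividing the level. -/
theorem s36sq_level_beta (L M0 q : ℕ) [NeZero L] [NeZero M0] [NeZero q] (hq : q.Prime)
    (hM0 : ¬ q ∣ M0) (h : L ∣ M0) (h1 : L * q ∣ M0 * q) (h2 : L * q * q ∣ M0 * q * q)
    (x : ↥(modularFunctionFieldBar (L * q * q))) :
    hkdNormBeta (M0 * q) q (lvlIncl (L * q * q) (M0 * q * q) h2 x) =
      lvlIncl (L * q) (M0 * q) h1 (hkdNormBeta (L * q) q x) := by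
  letI algE : Algebra ↥(modularFunctionFieldBar (L * q))
      ↥(modularFunctionFieldBar (L * q * q)) := algebraAlong (heckeBetaBar Qb (L * q) q)
  letI algE' : Algebra ↥(modularFunctionFieldBar (M0 * q))
      ↥(modularFunctionFieldBar (M0 * q * q)) := algebraAlong (heckeBetaBar Qb (M0 * q) q)
  haveI : FiniteDimensional ↥(modularFunctionFieldBar (L * q))
      ↥(modularFunctionFieldBar (L * q * q)) :=
    hki_finiteAlong (L * q) (L * q * q) (heckeBetaBar Qb (L * q) q)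
  refine nbc_norm_eq_of_closure (lvlIncl (L * q) (M0 * q) h1).toRingHom
    (lvlIncl (L * q * q) (M0 * q * q) h2).toRingHom
    (fun a => nsq_lvlIncl_beta (L * q) (M0 * q) q h1 h2 a)
    (s36sd_hdeg_beta (L * q) (M0 * q) q h1 h2 hq (dvd_mul_left q L)) (fun y => ?_) x
  refine Subfield.closure_mono ?_ (s36d_gen_beta_bar M0 q hq hM0 y)
  rintro _ (hz | hz)
  · exact Or.inl hz
  · rw [Set.mem_singleton_iff] at hz
    rw [hz]
    refine Or.inr ⟨heckeAlphaBar Qb (L * q) q (heckeAlphaBar Qb L q (grJ Qb L)), ?_⟩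
    show lvlIncl (L * q * q) (M0 * q * q) h2
      (heckeAlphaBar Qb (L * q) q (heckeAlphaBar Qb L q (grJ Qb L))) = _
    rw [nsq_lvlIncl_alpha (L * q) (M0 * q) q h1 h2, nsq_lvlIncl_alpha L M0 q h h1,
      nsq_lvlIncl_grJ L M0 h]

end Fermat.Agent.S36
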