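import Fermat.Agent.S36.CoreTop
import Fermat.Agent.S36.Deg3
import Fermat.Agent.S36.HCoreDef36
import Fermat.Agent.S36.NormSq2
import Fermat.Agent.S36.InstReduce36
import Fermat.Agent.S36.Kummer36

/-!
# S36, [CORE-FINAL]: the torsion statement CORE36 of the front end from the field-level core

* `s36cf_kum_of_core`: the class form of the geometric core at the auxiliary level
  `a ^ k * L * q * q` (the hypothesis `hKUM` of `s36ct_core_of_kum`) from the core statement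
  `S36hCore` over the inertia-fixed fields with a bound `B` independent of the exponent
  (`s36km_main` with the degrees `s36d_finrank_alpha`, `s36d_finrank_beta`).
* `s36cf_core_of_field`: the hypothesis `hCORE` of the front end `s36f_main` for a newform `g` of
  level `M`, from
  - `hbase`: the chart inputs over the inertia-fixed number fields (package BASE), and
  - `hfield`: the geometric core `S36inField (M q) q m (B q) K0` over every generic unramified
    field of definition `(K0, A0)` with the chart inputs (package INST36).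
  Assembly: `s36ct_core_of_kum` with the norm squares `s36sq_level_alpha`, `s36sq_level_beta`,
  `s36cf_kum_of_core` and `s36ir_reduce_of_base`.

Names are prefixed `s36cf_`.
-/

set_option autoImplicit false

open AlgebraicCurve ModularCurve CongruenceSubgroup CuspForm Polynomial

namespace Fermat.Agent.S36

open Fermat.Agent.S18 Fermat.Agent.S31 Fermat.Agent.S34 Fermat.Agent.S35 Fermat.Agent.S37

local notation "Qb" => AlgebraicClosure ℚ

/-- **The class form of the geometric core** at the auxiliary level `a ^ k * L * q * q`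
(the hypothesis `hKUM` of `s36ct_core_of_kum`), from a core statement with a bound `B`
independent of the exponent. -/
theorem s36cf_kum_of_core (lam : ℕ) (hlam : lam.Prime) (L q a k : ℕ) [NeZero (a ^ k * L)]
    [NeZero (a ^ k * L * q)] [NeZero q] (hq : q.Prime) (hqlam : q ≠ lam) (hqaL : ¬ q ∣ a ^ k * L)
    (A : ValuationSubring Qb) (B : ℕ)
    (hcore : ∀ m : ℕ, m ≠ 0 → m.Coprime q →
      ∃ T : Finset Qb, ∀ (K1 : IntermediateField ℚ Qb) [FiniteDimensional ℚ K1] [Normal ℚ K1],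
        (∀ c ∈ T, c ∈ K1) → ∃ K' : IntermediateField ℚ Qb,
          K1 ⊓ IntermediateField.fixedField (A.inertiaSubgroupIn ℚ) ≤ K' ∧
            S36hCore K' (a ^ k * L * q) q m B)
    (n : ℕ) (y : JZero (a ^ k * L * q * q)) (hy : lam ^ n • y = 0)
    (hI : ∀ σ ∈ A.inertiaSubgroupIn ℚ, σ • y = y)
    (hα : s35pAlpha (a ^ k * L * q) q y = 0) (hβ : s35pBeta (a ^ k * L * q) q y = 0) :
    B • y = 0 :=
  s36km_main (a ^ k * L * q) q (lam ^ n) (pow_ne_zero n hlam.ne_zero) B A q q hq.pos hq.pos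
    (fun K0 _ _ _ => s36d_finrank_alpha K0 (a ^ k * L * q) q hq (dvd_mul_left q (a ^ k * L)))
    (fun K0 _ _ _ => s36d_finrank_beta K0 (a ^ k * L) q hq hqaL)
    (hcore (lam ^ n) (pow_ne_zero n hlam.ne_zero)
      (Nat.Coprime.pow_left n ((Nat.coprime_primes hlam hq).mpr hqlam.symm)))
    y hy hI hα hβ

/-- **CORE36** (the hypothesis `hCORE` of the front end `s36f_main`) from the chart inputs over
the inertia-fixed fields (`hbase`) and the geometric core over the generic unramified fields of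
definition (`hfield`), with a bound `B q` independent of the exponent `m`. -/
theorem s36cf_core_of_field
    {M : ℕ} [NeZero M] {g : CuspForm (CongruenceSubgroup.Gamma0 M) 2} (hg : g.IsNewform)
    (lam : ℕ) [Fact lam.Prime] (S : Finset ℕ)
    (O' : Type) [CommRing O'] [IsDomain O'] [CharZero O']
    (chig : CuspForm.heckeAlgebra M 2 (↑S : Set ℕ) →+* ℂ)
    (hchig : ∀ (ℓ : ℕ) (hℓ : ℓ.Prime) (hℓM : ¬ ℓ ∣ M) (hℓS : ℓ ∉ (↑S : Set ℕ)),
      chig (CuspForm.heckeAlgebra.T hℓ hℓM hℓS) = ModularFormClass.qCoeff g ℓ)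
    (iota : chig.range →+* O') (hlamS : lam ∈ S) (hMS : ∀ q : ℕ, q.Prime → q ∣ M → q ∈ S)
    (B : ℕ → ℕ) (hB : ∀ q : ℕ, q.Prime → B q ≠ 0)
    (hbase : ∀ (M0 q : ℕ) [NeZero M0] [Fact q.Prime], ¬ q ∣ M0 → ∀ {a2 : ℕ} (H : HauptRec a2 q),
      a2 ∣ M0 → ∀ (A : ValuationSubring Qb), A.LiesOverPrime q →
      ∀ (c0 c1 : Qb) (hc0 : c0 ∈ A) (hc1 : c1 ∈ A), smi2U A (c0 - c1) →
      smi2U A (aeval c0 H.Qrad) → smi2U A (aeval c1 H.Qrad) →
      (∀ σ ∈ A.inertiaSubgroupIn ℚ, σ c0 = c0) → (∀ σ ∈ A.inertiaSubgroupIn ℚ, σ c1 = c1) →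
      ∃ K2 : IntermediateField ℚ Qb, FiniteDimensional ℚ K2 ∧
        (∀ x ∈ K2, ∀ σ ∈ A.inertiaSubgroupIn ℚ, σ x = x) ∧
        ∀ (K0 : IntermediateField ℚ Qb) [FiniteDimensional ℚ K0]
          [IsDiscreteValuationRing ↥(A.comap (algebraMap ↥K0 Qb))], K2 ≤ K0 →
          (∀ x ∈ K0, ∀ σ ∈ A.inertiaSubgroupIn ℚ, σ x = x) → ∀ (h0 : c0 ∈ K0) (h1 : c1 ∈ K0),
          cinstSMChart ↥K0 (A.comap (algebraMap ↥K0 Qb)) M0 H ⟨c0, h0⟩ ⟨c1, h1⟩ ∧
          cinstSMChart ↥K0 (A.comap (algebraMap ↥K0 Qb)) M0 H ⟨c1, h1⟩ ⟨c0, h0⟩ ∧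
          unrChart ↥K0 (A.comap (algebraMap ↥K0 Qb)) M0 H
            ⟨⟨c0, h0⟩, ValuationSubring.mem_comap.mpr hc0⟩
            ⟨⟨c1, h1⟩, ValuationSubring.mem_comap.mpr hc1⟩ ∧
          unrChart ↥K0 (A.comap (algebraMap ↥K0 Qb)) M0 H
            ⟨⟨c1, h1⟩, ValuationSubring.mem_comap.mpr hc1⟩
            ⟨⟨c0, h0⟩, ValuationSubring.mem_comap.mpr hc0⟩)
    (hfield : ∀ (M0 q : ℕ) [NeZero M0] [Fact q.Prime], ¬ q ∣ M0 → ∀ {a2 : ℕ} (H : HauptRec a2 q),
      a2 ∣ M0 → ∀ m : ℕ, m.Coprime q →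
      ∀ (K0 : Type) [Field K0] [Algebra ℚ K0] [Algebra K0 Qb]
      (A0 : ValuationSubring K0) [IsDiscreteValuationRing ↥A0]
      [Finite (IsLocalRing.ResidueField ↥A0)],
      A0.LiesOverPrime q → (∀ x ∈ A0.nonunits, ∃ a ∈ A0, x = (q : K0) * a) → ∀ c0 c1 : A0,
      IsLocalRing.residue ↥A0 c0 ≠ IsLocalRing.residue ↥A0 c1 →
      smi2U A0 (aeval (c0 : K0) H.Qrad) → smi2U A0 (aeval (c1 : K0) H.Qrad) →
      cinstSMChart K0 A0 M0 H (c0 : K0) (c1 : K0) →
      cinstSMChart K0 A0 M0 H (c1 : K0) (c0 : K0) →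
      unrChart K0 A0 M0 H c0 c1 → unrChart K0 A0 M0 H c1 c0 →
      2 ≤ m → S36inField (M0 * q) q m (B q) K0) :
    ∀ q : ℕ, q.Prime → q ≠ lam → M.factorization q = 2 →
      ∃ A : ValuationSubring Qb, A.LiesOverPrime q ∧
        ∃ (P : FreeAlgebra ℤ (HresIdx M (↑S : Set ℕ))) (c : ℕ), c ≠ 0 ∧
          (iota.comp chig.rangeRestrict) (hresT M (↑S : Set ℕ) P) ≠ 0 ∧
          ∀ (n : ℕ) (y : JZero M), lam ^ n • y = 0 →
            (∀ σ ∈ A.inertiaSubgroupIn ℚ, σ • y = y) →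
              c • hresJ (fun l : HresIdx M (↑S : Set ℕ) => heckeOperatorBar M ⟨l.1, l.2.1⟩) P y
                = 0 := by
  have hlam : lam.Prime := Fact.out
  refine s36ct_core_of_kum hg lam S O' chig hchig iota hlamS hMS ?_ ?_
  · intro L q a k _ _ _ hq hqaL h1 h2
    have hL0 : L ≠ 0 := fun h => NeZero.ne (L * q) (by rw [h, zero_mul])
    have haL0 : a ^ k * L ≠ 0 := fun h => NeZero.ne (a ^ k * L * q) (by rw [h, zero_mul])
    have : NeZero L := ⟨hL0⟩
    have : NeZero (a ^ k * L) := ⟨haL0⟩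
    exact ⟨fun f => s36sq_level_alpha L (a ^ k * L) q hq hqaL (dvd_mul_left L (a ^ k)) h1 h2 f,
      fun f => s36sq_level_beta L (a ^ k * L) q hq hqaL (dvd_mul_left L (a ^ k)) h1 h2 f⟩
  · intro L q a k _ _ hq hqlam hqL hL0 ha Hr
    obtain ⟨Hr⟩ := Hr
    have haL0 : a ^ k * L ≠ 0 := fun h => NeZero.ne (a ^ k * L * q) (by rw [h, zero_mul])
    have : NeZero (a ^ k * L) := ⟨haL0⟩
    have : Fact q.Prime := ⟨hq⟩
    have hqaL : ¬ q ∣ a ^ k * L := fun h => (hq.dvd_mul.mp h).elim Hr.not_dvd hqL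
    have ha2 : a ^ k ∣ a ^ k * L := dvd_mul_right (a ^ k) L
    obtain ⟨A, hA⟩ := va2d_exists_liesOver Qb q hq
    refine ⟨A, hA, B q, hB q hq, fun n y hy hI hα hβ => ?_⟩
    exact s36cf_kum_of_core lam hlam L q a k hq hqlam hqaL A (B q)
      (fun m hm hmq => s36ir_reduce_of_base (a ^ k * L) q Hr A hA m hm (B q)
        (hbase (a ^ k * L) q hqaL Hr ha2 A hA)
        (hfield (a ^ k * L) q hqaL Hr ha2 m hmq))
      n y hy hI hα hβ

end Fermat.Agent.S36
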