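import Mathlib

/-!
# S36, front end, abstract part A: invariants and flat base change

`s36f_bc_kill`: `R` noetherian, `O` a flat `R`-algebra, `Λ` a finite free `R`-module with a
representation `ρ` of a group `G`, `I ⊆ G` a subset and `D` an endomorphism of `Λ` killing the
`I`-invariants of `Λ`.  Then `D.baseChange O` kills the `I`-invariants of `O ⊗[R] Λ`.
-/

set_option autoImplicit false

open TensorProduct

namespace Fermat.Agent.S36

/-- **Invariants and flat base change.** -/
theorem s36f_bc_kill {R O : Type*} [CommRing R] [IsNoetherianRing R] [CommRing O] [Algebra R O]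
    [Module.Flat R O] {Λ : Type*} [AddCommGroup Λ] [Module R Λ] [Module.Free R Λ]
    [Module.Finite R Λ] {G : Type*} [Group G] (ρ : G →* Module.End R Λ) (I : Set G)
    (D : Module.End R Λ) (hD : ∀ u : Λ, (∀ g ∈ I, ρ g u = u) → D u = 0)
    (z : O ⊗[R] Λ) (hz : ∀ g ∈ I, (ρ g).baseChange O z = z) :
    D.baseChange O z = 0 := by
  classical
  set W : Set (Module.End R Λ) := {f | ∃ g ∈ I, f = ρ g - 1} with hW
  have hnoeth : IsNoetherian R (Module.End R Λ) := isNoetherian_of_isNoetherianRing_of_finite R _
  have hfg : (Submodule.span R W).FG := IsNoetherian.noetherian _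
  obtain ⟨t, htW, hspan⟩ := (Submodule.fg_span_iff_fg_span_finset_subset W).mp hfg
  let Ψ : Λ →ₗ[R] (t → Λ) := LinearMap.pi (fun f : t => (f : Module.End R Λ))
  have hex : Function.Exact (LinearMap.ker Ψ).subtype Ψ := LinearMap.exact_subtype_ker_map Ψ
  have hex' := Module.Flat.lTensor_exact O hex
  have hcomp : ∀ (y : O ⊗[R] Λ) (f : t),
      (TensorProduct.piRight R R O (fun _ : t => Λ)) ((Ψ.lTensor O) y) f =
        ((f : Module.End R Λ).lTensor O) y := by
    intro y f
    induction y using TensorProduct.induction_on with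
    | zero => simp
    | tmul o x =>
      rw [LinearMap.lTensor_tmul, TensorProduct.piRight_apply, TensorProduct.piRightHom_tmul,
        LinearMap.lTensor_tmul]
      rfl
    | add a b ha hb =>
      rw [map_add, map_add, Pi.add_apply, ha, hb, map_add]
  have hzker : (Ψ.lTensor O) z = 0 := by
    apply (TensorProduct.piRight R R O (fun _ : t => Λ)).injective
    rw [map_zero]
    funext f
    rw [hcomp z f]
    obtain ⟨g, hg, hfg'⟩ := htW f.2
    rw [hfg', Pi.zero_apply, ← LinearMap.baseChange_eq_ltensor, LinearMap.baseChange_sub,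
      LinearMap.sub_apply, hz g hg, Module.End.one_eq_id, LinearMap.baseChange_id,
      LinearMap.id_apply, sub_self]
  obtain ⟨z', hz'⟩ := (hex' z).mp hzker
  have hDk : D ∘ₗ (LinearMap.ker Ψ).subtype = 0 := by
    ext u
    rw [LinearMap.comp_apply, Submodule.subtype_apply, LinearMap.zero_apply]
    apply hD
    intro g hg
    have hmem : ρ g - 1 ∈ Submodule.span R (t : Set (Module.End R Λ)) := by
      rw [← hspan]
      exact Submodule.subset_span ⟨g, hg, rfl⟩
    have hkill : ∀ f ∈ Submodule.span R (t : Set (Module.End R Λ)), f (u : Λ) = 0 := by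
      intro f hf
      induction hf using Submodule.span_induction with
      | mem f hf => exact congrFun (LinearMap.mem_ker.mp u.2) ⟨f, hf⟩
      | zero => rfl
      | add a b _ _ ha hb => rw [LinearMap.add_apply, ha, hb, add_zero]
      | smul r a _ ha => rw [LinearMap.smul_apply, ha, smul_zero]
    have h1 := hkill _ hmem
    rw [LinearMap.sub_apply, Module.End.one_apply, sub_eq_zero] at h1
    exact h1
  rw [← hz', LinearMap.baseChange_eq_ltensor, ← LinearMap.comp_apply, ← LinearMap.lTensor_comp,
    hDk, LinearMap.lTensor_zero, LinearMap.zero_apply]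

end Fermat.Agent.S36
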