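import Mathlib
import Fermat.Agent.S30.FrontAbs
import Fermat.Agent.S36.FrontInv

/-!
# S36, the abstract front end

`s36f_abs`: the abstract front end `frt_abs` of S30 (same binders, same construction: the Tate
module `Λ' = taterLam`, the joint eigenspace `V` of the transfer-sum Hecke operators in `𝒪 ⊗ Λ'`),
with ONE further conclusion:

* (h4) for a subset `I ⊆ G`, a Hecke polynomial `P₀` and `c ≠ 0`: if the eigenvalue `P₀(a)` is
  nonzero and `c • P₀(TJ)` kills every `I`-fixed point of every level `Jn n`, then `V` has no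
  nonzero vector fixed by `ρ(I)`.

Pieces: `s36f_level_poly` (level maps and Hecke polynomials), `s36f_tater_inv` (an `I`-fixed
element of `Λ'` is killed by `c • P₀(T)`), `s36f_eig_poly` (a Hecke polynomial acts on a joint
eigenvector by the eigenvalue), `s36f_bc_kill` (flat base change, `FrontInv.lean`).
-/

set_option autoImplicit false
set_option maxSynthPendingDepth 3

open TensorProduct

namespace Fermat.Agent.S36

open Fermat.Agent.S30 PadicInt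

section Level

variable {p : ℕ} [hp : Fact p.Prime] {X : Type*} [AddGroup X]
  {J : Type*} [AddCommGroup J] {G : Type*} [Group G] [DistribMulAction G J]
  (Jn : ℕ → AddSubgroup J)
  (Φ : ∀ n, Jn n →+ (X →+ ZMod (p ^ n)))
  (hJn : ∀ n (c : J), c ∈ Jn n ↔ (p ^ n) • c = 0)
  (hinj : ∀ n, Function.Injective (Φ n))
  {ι : Type*} {K : ι → Type*} [∀ i, Fintype (K i)] (s : ∀ i, K i → X → X)
  (hs : ∀ (i : ι) (ψ : X →+ ℤ_[p]) (x y : X),
    ∑ k, ψ (s i k (x + y)) = ∑ k, ψ (s i k x) + ∑ k, ψ (s i k y))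
  (TJ : ι → J →+ J)
  (hΦT : ∀ (i : ι) (n : ℕ) (y y' : Jn n), (y' : J) = TJ i (y : J) →
    ∀ x, Φ n y' x = ∑ k, Φ n y (s i k x))

/-- the level maps intertwine a Hecke polynomial on `Λ'` with the same polynomial on `J` -/
theorem s36f_level_poly (P₀ : FreeAlgebra ℤ ι) (n : ℕ) :
    ∀ ψ : taterLam Jn Φ,
    ((taterLevel Jn Φ hinj n
        (FreeAlgebra.lift ℤ (fun i => taterSum Jn Φ hJn hinj (s i) (hs i) (TJ i) (hΦT i)) P₀ ψ) :
          Jn n) : J) =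
      FreeAlgebra.lift ℤ (fun i => (TJ i).toIntLinearMap) P₀
        ((taterLevel Jn Φ hinj n ψ : Jn n) : J) := by
  induction P₀ using FreeAlgebra.induction with
  | grade0 r =>
    intro ψ
    rw [AlgHom.commutes, AlgHom.commutes, eq_intCast, eq_intCast, Module.End.intCast_apply,
      map_zsmul, AddSubgroup.coe_zsmul]
    rfl
  | grade1 i =>
    intro ψ
    rw [FreeAlgebra.lift_ι_apply, FreeAlgebra.lift_ι_apply]
    exact taterLevel_taterSum Jn Φ hJn hinj (s i) (hs i) (TJ i) (hΦT i) ψ n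
  | mul a b ha hb =>
    intro ψ
    rw [map_mul, map_mul, Module.End.mul_apply, ha, hb]
    rfl
  | add a b ha hb =>
    intro ψ
    rw [map_add, map_add, LinearMap.add_apply, map_add, AddSubgroup.coe_add, ha, hb]
    rfl

variable (ρ : G →* Module.End ℤ_[p] (taterLam Jn Φ))
  (hρ : TaterSpec Jn Φ (fun g ψ => ρ g ψ))

include hρ in
/-- an `I`-fixed element of the Tate module is killed by `c • P₀(T)` as soon as `c • P₀(TJ)`
kills the `I`-fixed points of every level -/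
theorem s36f_tater_inv (I : Set G) (P₀ : FreeAlgebra ℤ ι) (c : ℕ)
    (hJ : ∀ (n : ℕ) (y : J), y ∈ Jn n → (∀ g ∈ I, g • y = y) →
      c • (FreeAlgebra.lift ℤ (fun i => (TJ i).toIntLinearMap) P₀) y = 0)
    (ψ : taterLam Jn Φ) (hψ : ∀ g ∈ I, ρ g ψ = ψ) :
    (c • FreeAlgebra.lift ℤ (fun i => taterSum Jn Φ hJn hinj (s i) (hs i) (TJ i) (hΦT i)) P₀) ψ
      = 0 := by
  apply tater_ext Jn Φ hinj
  intro n
  apply Subtype.ext
  rw [LinearMap.smul_apply, map_nsmul, AddSubgroup.coe_nsmul,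
    s36f_level_poly Jn Φ hJn hinj s hs TJ hΦT P₀ n ψ, map_zero, AddSubgroup.coe_zero]
  refine hJ n _ (Subtype.prop _) ?_
  intro g hg
  rw [← taterLevel_act Jn Φ hJn hinj ρ hρ g ψ n, hψ g hg]

end Level

section Eig

variable {R O : Type*} [CommRing R] [CommRing O] [Algebra R O]
  {Λ : Type*} [AddCommGroup Λ] [Module R Λ] {ι : Type*}
  (T : ι → Module.End R Λ) (a : ι → O)

/-- a Hecke polynomial acts on a joint eigenvector of the base-changed operators by the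
polynomial in the eigenvalues -/
theorem s36f_eig_poly (P₀ : FreeAlgebra ℤ ι) :
    ∀ w : O ⊗[R] Λ, (∀ i, (T i).baseChange O w = a i • w) →
      (FreeAlgebra.lift ℤ T P₀).baseChange O w = FreeAlgebra.lift ℤ a P₀ • w := by
  induction P₀ using FreeAlgebra.induction with
  | grade0 r =>
    intro w _
    rw [AlgHom.commutes, AlgHom.commutes, eq_intCast, eq_intCast]
    have h1 : ((r : ℤ) : Module.End R Λ) = ((r : ℤ) : R) • (1 : Module.End R Λ) := by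
      rw [Int.cast_smul_eq_zsmul, zsmul_one]
    rw [h1, LinearMap.baseChange_smul, Module.End.one_eq_id, LinearMap.baseChange_id,
      LinearMap.smul_apply, LinearMap.id_apply, Int.cast_smul_eq_zsmul, Int.cast_smul_eq_zsmul]
  | grade1 i =>
    intro w hw
    rw [FreeAlgebra.lift_ι_apply, FreeAlgebra.lift_ι_apply]
    exact hw i
  | mul x y hx hy =>
    intro w hw
    rw [map_mul, map_mul, LinearMap.baseChange_mul, Module.End.mul_apply, hy w hw, map_smul,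
      hx w hw, smul_smul, mul_comm]
  | add x y hx hy =>
    intro w hw
    rw [map_add, map_add, LinearMap.baseChange_add, LinearMap.add_apply, hx w hw, hy w hw,
      add_smul]

end Eig

/-- **The abstract front end of S36**: `frt_abs` of S30 with the extra conclusion (h4). -/
theorem s36f_abs (p : ℕ) [Fact p.Prime]
    {X : Type} [AddGroup X] [AddGroup.FG X] (S : Set X)
    {J : Type} [AddCommGroup J] {G : Type} [Group G] [DistribMulAction G J]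
    (Jn : ℕ → AddSubgroup J) (hJn : ∀ (n : ℕ) (y : J), y ∈ Jn n ↔ p ^ n • y = 0)
    (Φ : ∀ n : ℕ, ↥(Jn n) →+ (X →+ ZMod (p ^ n)))
    (hΦ : ∀ n, Function.Injective (Φ n))
    (hΦS : ∀ (n : ℕ) (ψ : X →+ ZMod (p ^ n)), (∀ s ∈ S, ψ s = 0) → ψ ∈ Set.range (Φ n))
    (hlev : ∀ (n : ℕ) (y : Jn (n + 1)) (y' : Jn n), (y' : J) = p • (y : J) →
      ∀ x, Φ n y' x = ZMod.castHom (pow_dvd_pow p n.le_succ) (ZMod (p ^ n)) (Φ (n + 1) y x))
    {ι : Type} {K : ι → Type} [∀ i, Fintype (K i)] (s : ∀ i, K i → X → X)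
    (hs : ∀ (i : ι) (ψ : X →+ ℤ_[p]) (x y : X),
      ∑ k, ψ (s i k (x + y)) = ∑ k, ψ (s i k x) + ∑ k, ψ (s i k y))
    (TJ : ι → J →+ J)
    (hΦT : ∀ (i : ι) (n : ℕ) (y y' : Jn n), (y' : J) = TJ i (y : J) →
      ∀ x, Φ n y' x = ∑ k, Φ n y (s i k x))
    (hTG : ∀ (i : ι) (g : G) (n : ℕ) (y : J), y ∈ Jn n → TJ i (g • y) = g • TJ i y)
    {𝒪 : Type} [CommRing 𝒪] [IsDomain 𝒪] [IsPrincipalIdealRing 𝒪]
    (ζ : ℤ_[p] →+* 𝒪) (hζ : Function.Injective ζ)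
    (a : ι → 𝒪) (v : X →+ 𝒪) (hv : v ≠ 0) (hvS : ∀ x ∈ S, v x = 0)
    (hTv : ∀ i x, ∑ k, v (s i k x) = a i * v x) :
    ∃ (V : Type) (_ : AddCommGroup V) (_ : Module 𝒪 V) (_ : Module.Free 𝒪 V)
      (_ : Module.Finite 𝒪 V) (_ : Nontrivial V) (ρ : G →* Module.End 𝒪 V),
      (∀ g : G, (∀ (n : ℕ) (y : J), y ∈ Jn n → g • y = y) → ρ g = 1) ∧
      (∀ (g : G) (i : ι) (ℓ : ℕ),
        (∀ (n : ℕ) (y : J), y ∈ Jn n → g • g • y - TJ i (g • y) + ℓ • y = 0) →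
          ρ g * ρ g - a i • ρ g + (ℓ : 𝒪) • (1 : Module.End 𝒪 V) = 0) ∧
      (∃ e : ℕ, ∀ (n : ℕ) (g : G), (∀ y : J, y ∈ Jn (n + e) → g • y = y) →
        ∀ w : V, ρ g w - w ∈ (Ideal.span {(p : 𝒪)} ^ n) • (⊤ : Submodule 𝒪 V)) ∧
      (∀ (I : Set G) (P₀ : FreeAlgebra ℤ ι) (c : ℕ), c ≠ 0 → FreeAlgebra.lift ℤ a P₀ ≠ 0 →
        (∀ (n : ℕ) (y : J), y ∈ Jn n → (∀ g ∈ I, g • y = y) →
          c • (FreeAlgebra.lift ℤ (fun i => (TJ i).toIntLinearMap) P₀) y = 0) →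
        ∀ w : V, (∀ g ∈ I, ρ g w = w) → w = 0) := by
  classical
  obtain ⟨ρ, hρ⟩ := tater_main (G := G) Jn Φ hJn hΦ hlev
  obtain ⟨e, he⟩ := arr_main p (taterLam Jn Φ)
  let T : ι → Module.End ℤ_[p] (taterLam Jn Φ) :=
    fun i => taterSum Jn Φ hJn hΦ (s i) (hs i) (TJ i) (hΦT i)
  have hΛS : ∀ ψ : X →+ ℤ_[p], (∀ s ∈ S, ψ s = 0) → ψ ∈ taterLam Jn Φ :=
    fun ψ hψ => tateLam_le_taterLam Jn Φ S hΦS hψ
  have hT : ∀ i (ψ : taterLam Jn Φ) (x : X),
      ((T i ψ : taterLam Jn Φ) : X →+ ℤ_[p]) x = ∑ k, (ψ : X →+ ℤ_[p]) (s i k x) :=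
    fun i ψ x => taterSum_apply Jn Φ hJn hΦ (s i) (hs i) (TJ i) (hΦT i) ψ x
  have hcomm : ∀ i g, T i * ρ g = ρ g * T i :=
    fun i g => taterSum_comm_act Jn Φ hJn hΦ (s i) (hs i) (TJ i) (hΦT i) ρ hρ g (hTG i g)
  let _ : Algebra ℤ_[p] 𝒪 := ζ.toAlgebra
  have hinj : Function.Injective (algebraMap ℤ_[p] 𝒪) := hζ
  obtain ⟨w₀, hw₀, hw⟩ := rda_main p S (taterLam Jn Φ) hΛS hinj s T hT a v hv hvS hTv
  have : Module.Finite ℤ_[p] (taterLam Jn Φ) := arr_fg p (taterLam Jn Φ)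
  have : Module.Free ℤ_[p] (taterLam Jn Φ) := arr_free p (taterLam Jn Φ)
  have hc : ∀ i g, (fun i => (T i).baseChange 𝒪) i * freBC (O := 𝒪) ρ g
      = freBC (O := 𝒪) ρ g * (fun i => (T i).baseChange 𝒪) i :=
    fun i g => fre_bc_comm ρ (T i) g (hcomm i g)
  refine ⟨↥(freEig (fun i => (T i).baseChange 𝒪) a), inferInstance, inferInstance,
    fre_free _ a, fre_finite _ a, fre_nontrivial _ a w₀ hw₀ hw,
    freRep (freBC (O := 𝒪) ρ) _ a hc, ?_, ?_, ⟨e, ?_⟩, ?_⟩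
  · intro g hg
    exact fre_one _ _ a hc g (fre_bc_one ρ g (tater_eq_one Jn Φ hJn hΦ ρ hρ g hg))
  · intro g i ℓ hES
    exact fre_quad _ _ a hc g i _ (fre_bc_quad ρ (T i) g ℓ
      (taterSum_quad Jn Φ hJn hΦ (s i) (hs i) (TJ i) (hΦT i) ρ hρ g ℓ hES))
  · intro n g hg w
    have hpn : algebraMap ℤ_[p] 𝒪 ((p : ℤ_[p]) ^ n) = (p : 𝒪) ^ n := by
      rw [map_pow, map_natCast]
    refine fre_congr _ _ a hc g (Ideal.span {(p : 𝒪)} ^ n) _ ?_ ?_
      (fre_bc_congr ρ g ((p : ℤ_[p]) ^ n)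
        (tater_congr_dvd Jn Φ hJn hΦ ρ hρ e he g n hg)) w
    · rw [hpn]
      exact Ideal.pow_mem_pow (Ideal.mem_span_singleton_self _) n
    · intro h0
      have h4 : ((p : ℤ_[p]) ^ n) = 0 := hinj (by rw [h0, map_zero])
      exact pow_ne_zero n (Nat.cast_ne_zero.mpr (Fact.out : p.Prime).ne_zero) h4
  · intro I P₀ c hc0 hP hJ w hwI
    -- flatness of `𝒪` over `ℤ_[p]`
    have : FaithfulSMul ℤ_[p] 𝒪 := (faithfulSMul_iff_algebraMap_injective _ _).2 hinj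
    have htf : Module.IsTorsionFree ℤ_[p] 𝒪 := inferInstance
    have hflat : Module.Flat ℤ_[p] 𝒪 := inferInstance
    have hchar : CharZero 𝒪 := charZero_of_injective_algebraMap hinj
    -- the operator `D = c • P₀(T)` kills the invariants of `Λ'`
    have hD : ∀ u : taterLam Jn Φ, (∀ g ∈ I, ρ g u = u) →
        (c • FreeAlgebra.lift ℤ T P₀) u = 0 :=
      fun u hu => s36f_tater_inv Jn Φ hJn hΦ s hs TJ hΦT ρ hρ I P₀ c hJ u hu
    have hz : ∀ g ∈ I, (ρ g).baseChange 𝒪 (w : 𝒪 ⊗[ℤ_[p]] (taterLam Jn Φ)) = w := by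
      intro g hg
      have h1 := congrArg Subtype.val (hwI g hg)
      rwa [freRep_coe, freBC_apply] at h1
    have h2 := s36f_bc_kill (O := 𝒪) ρ I (c • FreeAlgebra.lift ℤ T P₀) hD
      (w : 𝒪 ⊗[ℤ_[p]] (taterLam Jn Φ)) hz
    have h3 : (c • FreeAlgebra.lift ℤ T P₀).baseChange 𝒪 (w : 𝒪 ⊗[ℤ_[p]] (taterLam Jn Φ))
        = ((c : 𝒪) * FreeAlgebra.lift ℤ a P₀) • (w : 𝒪 ⊗[ℤ_[p]] (taterLam Jn Φ)) := by
      have h4 : (c • FreeAlgebra.lift ℤ T P₀ : Module.End ℤ_[p] (taterLam Jn Φ))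
          = (c : ℤ_[p]) • FreeAlgebra.lift ℤ T P₀ := by
        rw [Nat.cast_smul_eq_nsmul]
      rw [h4, LinearMap.baseChange_smul, LinearMap.smul_apply,
        s36f_eig_poly T a P₀ _ (fun i => w.2 i), mul_smul, Nat.cast_smul_eq_nsmul,
        Nat.cast_smul_eq_nsmul]
    rw [h3] at h2
    have h5 : (c : 𝒪) * FreeAlgebra.lift ℤ a P₀ ≠ 0 :=
      mul_ne_zero (Nat.cast_ne_zero.mpr hc0) hP
    have h6 : (w : 𝒪 ⊗[ℤ_[p]] (taterLam Jn Φ)) = 0 := by
      rcases smul_eq_zero.mp h2 with h | h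
      · exact absurd h h5
      · exact h
    exact Subtype.ext h6

end Fermat.Agent.S36
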