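import Mathlib

/-!
# S36, front end: a group of unipotent operators of level two has a fixed vector

`s36k_fixed`: `V` a nontrivial noetherian torsion-free module over a domain `O` of characteristic
zero, `ρ` a representation of a group `G` on `V` and `I` a subgroup of `G` with
`(ρ g - 1)² = 0` for all `g ∈ I`.  Then there is a nonzero vector of `V` fixed by `ρ(I)`.

* `s36k_anti`: in a ring without `2`-torsion, `A² = B² = 0` and the four square-zero relations
  for `(1 + A)(1 + B)`, `(1 - A)(1 + B)`, `(1 + B)(1 + A)`, `(1 - B)(1 + A)` give `AB + BA = 0`;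
* `s36k_fixed`: take a nonzero product `Pr` of the `N_g = ρ g - 1` with maximal kernel; then
  `N_h Pr = 0` for all `h ∈ I`, and any nonzero `Pr v` is fixed.
-/

set_option autoImplicit false

namespace Fermat.Agent.S36

/-- anticommutation of two square-zero elements `A`, `B` such that `(1 ± A)(1 + B) - 1` and
`(1 ± B)(1 + A) - 1` are square-zero, in a ring without `2`-torsion -/
theorem s36k_anti {E : Type*} [Ring E] (h2 : ∀ x : E, x + x = 0 → x = 0) (A B : E)
    (hA : A * A = 0) (hB : B * B = 0)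
    (hU : (A + B + A * B) * (A + B + A * B) = 0)
    (hW : (-A + B - A * B) * (-A + B - A * B) = 0)
    (hU' : (B + A + B * A) * (B + A + B * A) = 0)
    (hW' : (-B + A - B * A) * (-B + A - B * A) = 0) : A * B + B * A = 0 := by
  have key : ∀ (A B : E), A * A = 0 → B * B = 0 →
      (A + B + A * B) * (A + B + A * B) = 0 → (-A + B - A * B) * (-A + B - A * B) = 0 →
      (A * B + B * A + B * (A * B) = 0) ∧ (A * B * A + A * B * (A * B) = 0) := by
    intro A B hA hB hU hW
    have e1 : (A + B + A * B) * (A + B + A * B) =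
        (A * B + B * A + B * (A * B) + A * B * A + A * B * (A * B)) +
          (A * A + (A * A) * B + B * B + A * (B * B)) := by noncomm_ring
    have e2 : (-A + B - A * B) * (-A + B - A * B) =
        (-(A * B) - B * A - B * (A * B) + A * B * A + A * B * (A * B)) +
          (A * A + (A * A) * B + B * B - A * (B * B)) := by noncomm_ring
    rw [e1] at hU
    simp only [hA, hB, zero_mul, mul_zero, add_zero] at hU
    rw [e2] at hW
    simp only [hA, hB, zero_mul, mul_zero, add_zero, sub_zero] at hW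
    constructor
    · apply h2
      have : (A * B + B * A + B * (A * B)) + (A * B + B * A + B * (A * B)) =
          (A * B + B * A + B * (A * B) + A * B * A + A * B * (A * B)) -
            (-(A * B) - B * A - B * (A * B) + A * B * A + A * B * (A * B)) := by abel
      rw [this, hU, hW, sub_zero]
    · apply h2
      have : (A * B * A + A * B * (A * B)) + (A * B * A + A * B * (A * B)) =
          (A * B + B * A + B * (A * B) + A * B * A + A * B * (A * B)) +
            (-(A * B) - B * A - B * (A * B) + A * B * A + A * B * (A * B)) := by abel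
      rw [this, hU, hW, add_zero]
  obtain ⟨k1, k2⟩ := key A B hA hB hU hW
  obtain ⟨k1', -⟩ := key B A hB hA hU' hW'
  -- `A B A B = 0`
  have h3 : A * B * (A * B) = 0 := by
    have h := congrArg (fun x => x * B) k2
    simp only [add_mul, zero_mul] at h
    have e : A * B * (A * B) * B = A * B * A * (B * B) := by noncomm_ring
    rw [e, hB, mul_zero, add_zero] at h
    rw [← h]
    noncomm_ring
  have h4 : A * B * A = 0 := by rwa [h3, add_zero] at k2
  -- `B A B = A B A`
  have h5 : B * (A * B) = A * B * A := by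
    have e : B * (A * B) - A * B * A = (A * B + B * A + B * (A * B)) - (B * A + A * B + A * (B * A))
        := by noncomm_ring
    rw [k1, k1', sub_zero] at e
    exact sub_eq_zero.mp e
  rw [h5, h4, add_zero] at k1
  exact k1

/-- **Kolchin for operators with `(g - 1)² = 0`.** -/
theorem s36k_fixed {O : Type*} [CommRing O] [IsDomain O] [CharZero O] {V : Type*}
    [AddCommGroup V] [Module O V] [Module.IsTorsionFree O V] [IsNoetherian O V] [Nontrivial V]
    {G : Type*} [Group G] (ρ : G →* Module.End O V) (I : Subgroup G)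
    (hI : ∀ g ∈ I, (ρ g - 1) * (ρ g - 1) = 0) :
    ∃ w : V, w ≠ 0 ∧ ∀ g ∈ I, ρ g w = w := by
  classical
  have h2 : ∀ x : Module.End O V, x + x = 0 → x = 0 := by
    intro x hx
    refine LinearMap.ext fun v => ?_
    have h := LinearMap.congr_fun hx v
    rw [LinearMap.add_apply, LinearMap.zero_apply, ← two_smul O (x v)] at h
    have h2O : (2 : O) ≠ 0 := two_ne_zero
    rw [LinearMap.zero_apply]
    exact Module.IsTorsionFree.isSMulRegular (M := V) (IsRegular.of_ne_zero h2O)
      (show (2 : O) • x v = (2 : O) • (0 : V) by rw [h, smul_zero])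
  -- inverse of a unipotent element
  have hinv : ∀ g ∈ I, ρ g⁻¹ - 1 = -(ρ g - 1) := by
    intro g hg
    have h1 : ρ g⁻¹ * ρ g = 1 := by rw [← map_mul, inv_mul_cancel, map_one]
    have h3 : ρ g * (1 - (ρ g - 1)) = 1 := by
      have e : ρ g * (1 - (ρ g - 1)) = 1 - (ρ g - 1) * (ρ g - 1) := by noncomm_ring
      rw [e, hI g hg, sub_zero]
    have h4 : ρ g⁻¹ = 1 - (ρ g - 1) := by
      calc ρ g⁻¹ = ρ g⁻¹ * (ρ g * (1 - (ρ g - 1))) := by rw [h3, mul_one]
        _ = (ρ g⁻¹ * ρ g) * (1 - (ρ g - 1)) := by rw [mul_assoc]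
        _ = 1 - (ρ g - 1) := by rw [h1, one_mul]
    rw [h4]
    abel
  -- anticommutation
  have hanti : ∀ g ∈ I, ∀ h ∈ I, (ρ g - 1) * (ρ h - 1) + (ρ h - 1) * (ρ g - 1) = 0 := by
    intro g hg h hh
    have eU : ∀ a b : G, ρ (a * b) - 1 = (ρ a - 1) + (ρ b - 1) + (ρ a - 1) * (ρ b - 1) := by
      intro a b
      rw [map_mul]
      noncomm_ring
    have eW : ∀ a ∈ I, ∀ b : G, ρ (a⁻¹ * b) - 1 =
        -(ρ a - 1) + (ρ b - 1) - (ρ a - 1) * (ρ b - 1) := by
      intro a ha b
      rw [eU, hinv a ha]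
      noncomm_ring
    refine s36k_anti h2 _ _ (hI g hg) (hI h hh) ?_ ?_ ?_ ?_
    · rw [← eU]
      exact hI _ (I.mul_mem hg hh)
    · rw [← eW g hg]
      exact hI _ (I.mul_mem (I.inv_mem hg) hh)
    · rw [← eU]
      exact hI _ (I.mul_mem hh hg)
    · rw [← eW h hh]
      exact hI _ (I.mul_mem (I.inv_mem hh) hg)
  -- the set of admissible products
  let 𝒮 : Set (Module.End O V) := {Pr | Pr ≠ 0 ∧ ∀ h ∈ I,
    (ρ h - 1) * Pr = Pr * (ρ h - 1) ∨ (ρ h - 1) * Pr = -(Pr * (ρ h - 1))}
  have h1𝒮 : (1 : Module.End O V) ∈ 𝒮 := by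
    refine ⟨one_ne_zero, fun h _ => Or.inl ?_⟩
    rw [mul_one, one_mul]
  let 𝒦 : Set (Submodule O V) := {K | ∃ Pr ∈ 𝒮, K = LinearMap.ker Pr}
  have h𝒦 : 𝒦.Nonempty := ⟨_, 1, h1𝒮, rfl⟩
  obtain ⟨K, ⟨Pr, hPr, rfl⟩, hmax⟩ := (wellFounded_gt (α := Submodule O V)).has_min 𝒦 h𝒦
  -- `N_h Pr = 0` for all `h ∈ I`
  have hkill : ∀ h ∈ I, (ρ h - 1) * Pr = 0 := by
    intro h hh
    by_contra hne
    have hmem : (ρ h - 1) * Pr ∈ 𝒮 := by
      refine ⟨hne, fun g hg => ?_⟩
      have ha := hanti g hg h hh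
      have ha' : (ρ g - 1) * (ρ h - 1) = -((ρ h - 1) * (ρ g - 1)) := eq_neg_of_add_eq_zero_left ha
      rcases hPr.2 g hg with hc | hc
      · right
        rw [← mul_assoc, ha', neg_mul, mul_assoc, hc, mul_assoc]
      · left
        rw [← mul_assoc, ha', neg_mul, mul_assoc, hc, mul_neg, neg_neg, mul_assoc]
    have hle : LinearMap.ker Pr ≤ LinearMap.ker ((ρ h - 1) * Pr) := by
      intro v hv
      rw [LinearMap.mem_ker] at hv ⊢
      rw [Module.End.mul_apply, hv, map_zero]
    have hnot := hmax _ ⟨_, hmem, rfl⟩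
    have heq : LinearMap.ker ((ρ h - 1) * Pr) = LinearMap.ker Pr := by
      by_contra hne'
      exact hnot (lt_of_le_of_ne hle (fun e => hne' e.symm))
    -- a vector `v` with `N_h Pr v ≠ 0`
    have hex : ∃ v : V, ((ρ h - 1) * Pr) v ≠ 0 := by
      by_contra hcon
      push Not at hcon
      exact hne (LinearMap.ext hcon)
    obtain ⟨v, hv⟩ := hex
    have hu : (ρ h - 1) v ∈ LinearMap.ker ((ρ h - 1) * Pr) := by
      rw [LinearMap.mem_ker, ← Module.End.mul_apply, mul_assoc]
      rcases hPr.2 h hh with hc | hc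
      · rw [← hc, ← mul_assoc, hI h hh, zero_mul, LinearMap.zero_apply]
      · have hc' : Pr * (ρ h - 1) = -((ρ h - 1) * Pr) := by rw [hc, neg_neg]
        rw [hc', mul_neg, ← mul_assoc, hI h hh, zero_mul, neg_zero, LinearMap.zero_apply]
    rw [heq, LinearMap.mem_ker, ← Module.End.mul_apply] at hu
    apply hv
    rcases hPr.2 h hh with hc | hc
    · rw [hc]
      exact hu
    · rw [hc, LinearMap.neg_apply, hu, neg_zero]
  -- a fixed vector
  have hex : ∃ v : V, Pr v ≠ 0 := by
    by_contra hcon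
    push Not at hcon
    exact hPr.1 (LinearMap.ext hcon)
  obtain ⟨v, hv⟩ := hex
  refine ⟨Pr v, hv, fun g hg => ?_⟩
  have h := LinearMap.congr_fun (hkill g hg) v
  rw [Module.End.mul_apply, LinearMap.sub_apply, Module.End.one_apply, LinearMap.zero_apply,
    sub_eq_zero] at h
  exact h

end Fermat.Agent.S36
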