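import Fermat.Agent.S30
import Fermat.Agent.S31.HeckeRes
import Fermat.Agent.S36.FrontAbs
import Fermat.Agent.S36.Kolchin

/-!
# S36, the front end

`s36f_main`: the conclusion of S36 (for a ring homomorphism `χ` from the Hecke algebra of level
`M` to `O'`) from the torsion statement

  [CORE36]  for every prime `q ≠ lam` with `v_q(M) = 2` there are a place `A` over `q`, a Hecke
  polynomial `P` with `χ(P(T)) ≠ 0` and `c ≠ 0` such that `c • P(T) y = 0` for every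
  `y ∈ J₀(M)[lam ^ n]` fixed by the inertia group of `A`.

The representation is the one of S30 (same construction): `s36f_abs` (the front end of S30 with
the extra conclusion "no nonzero inertia-fixed vector"), `s36f_lat` / `s36f_latf` (the back end
`latc_s30` / `latf_s30` of S30 with the extra conclusion "if the final representation has
characteristic polynomial `(X - 1)²` at `σ` then `(ρ₀ σ - 1)² = 0` on the lattice") and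
`s36k_fixed` (Kolchin).
-/

set_option autoImplicit false

open Polynomial ModularCurve AlgebraicCurve CuspForm

namespace Fermat.Agent.S36

open Fermat.Agent.S29 Fermat.Agent.S30 Fermat.Agent.S31

local notation "Qb" => AlgebraicClosure ℚ

/-- **The back end of S30 with the unipotent clause.** -/
theorem s36f_lat (p : ℕ) [Fact p.Prime] (N : ℕ) [NeZero N] (S : Finset ℕ) (hpS : p ∈ S)
    (𝒪' : Type) [CommRing 𝒪'] [IsDomain 𝒪'] [IsDiscreteValuationRing 𝒪']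
    [IsAdicComplete (IsLocalRing.maximalIdeal 𝒪') 𝒪'] [Finite (IsLocalRing.ResidueField 𝒪')]
    [CharZero 𝒪'] (hp𝒪' : (p : 𝒪') ∈ IsLocalRing.maximalIdeal 𝒪')
    (χ : CuspForm.heckeAlgebra N 2 (↑S : Set ℕ) →+* 𝒪')
    {V₀ : Type*} [AddCommGroup V₀] [Module 𝒪' V₀] [Module.Free 𝒪' V₀]
    [Module.Finite 𝒪' V₀] [Nontrivial V₀]
    (ρ₀ : (Qb ≃ₐ[ℚ] Qb) →* Module.End 𝒪' V₀)
    (hfrob : ∀ (ℓ : ℕ) (hℓ : ℓ.Prime) (hℓN : ¬ ℓ ∣ N) (hℓS : ℓ ∉ (↑S : Set ℕ)),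
      ∀ A : ValuationSubring Qb, A.LiesOverPrime ℓ →
        ∀ σ : Qb ≃ₐ[ℚ] Qb, A.IsFrobeniusAt σ ℓ →
          ρ₀ σ * ρ₀ σ - χ (CuspForm.heckeAlgebra.T hℓ hℓN hℓS) • ρ₀ σ +
            (ℓ : 𝒪') • (1 : Module.End 𝒪' V₀) = 0)
    (hcont : ∀ n : ℕ, ∃ L : IntermediateField ℚ Qb, FiniteDimensional ℚ L ∧
      ∀ σ : Qb ≃ₐ[ℚ] Qb, (∀ x ∈ L, σ x = x) →
        ∀ v, ρ₀ σ v - v ∈ (IsLocalRing.maximalIdeal 𝒪' ^ n) • (⊤ : Submodule 𝒪' V₀)) :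
    ∃ (𝒪'' : Type) (_ : CommRing 𝒪'') (_ : IsDomain 𝒪'') (_ : IsDiscreteValuationRing 𝒪'')
      (_ : IsAdicComplete (IsLocalRing.maximalIdeal 𝒪'') 𝒪'')
      (_ : Finite (IsLocalRing.ResidueField 𝒪'')) (_ : CharZero 𝒪'')
      (_ : Algebra 𝒪' 𝒪'') (_ : Module.Finite 𝒪' 𝒪'') (_ : IsLocalHom (algebraMap 𝒪' 𝒪'')),
    Function.Injective (algebraMap 𝒪' 𝒪'') ∧
    ∃ ρ : GaloisRepAdic 𝒪'',
      (∀ (ℓ : ℕ) (hℓ : ℓ.Prime) (hℓN : ¬ ℓ ∣ N) (hℓS : ℓ ∉ (↑S : Set ℕ)),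
        ∀ A : ValuationSubring Qb, A.LiesOverPrime ℓ →
          ∀ σ : Qb ≃ₐ[ℚ] Qb, A.IsFrobeniusAt σ ℓ →
            LinearMap.charpoly (ρ.ρ σ) =
              X ^ 2 - C (algebraMap 𝒪' 𝒪'' (χ (CuspForm.heckeAlgebra.T hℓ hℓN hℓS))) * X
                + C ((ℓ : 𝒪''))) ∧
      (∀ σ : Qb ≃ₐ[ℚ] Qb, LinearMap.charpoly (ρ.ρ σ) = (X - 1) ^ 2 →
        (ρ₀ σ - 1) * (ρ₀ σ - 1) = 0) := by
  classical
  have hℓp : ∀ ℓ : ℕ, ℓ ∉ (↑S : Set ℕ) → ℓ ≠ p := by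
    rintro ℓ hℓS rfl
    exact hℓS (Finset.mem_coe.mpr hpS)
  have hεcont := latc_cyclo_cont p 𝒪' hp𝒪'
  let c : ℕ → 𝒪' := fun ℓ =>
    if h : ℓ.Prime ∧ ¬ ℓ ∣ N ∧ ℓ ∉ (↑S : Set ℕ) then
      χ (CuspForm.heckeAlgebra.T h.1 h.2.1 h.2.2) else 0
  have hF : ∀ ℓ : ℕ, ℓ.Prime → ℓ ∉ S ∪ N.primeFactors →
      ∀ A : ValuationSubring Qb, A.LiesOverPrime ℓ →
      ∀ τ : Qb ≃ₐ[ℚ] Qb, A.IsFrobeniusAt τ ℓ →
        ρ₀ τ * ρ₀ τ - c ℓ • ρ₀ τ + (ℓ : 𝒪') • (1 : Module.End 𝒪' V₀) = 0 ∧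
          ((cyaCharO p 𝒪' hp𝒪' τ : 𝒪'ˣ) : 𝒪') = (ℓ : 𝒪') := by
    intro ℓ hℓ hℓS' A hA τ hτ
    rw [Finset.mem_union, not_or] at hℓS'
    have hℓS : ℓ ∉ (↑S : Set ℕ) := fun h => hℓS'.1 (Finset.mem_coe.mp h)
    have hℓN : ¬ ℓ ∣ N := fun h =>
      hℓS'.2 (Nat.mem_primeFactors.mpr ⟨hℓ, h, NeZero.ne N⟩)
    have hc : c ℓ = χ (CuspForm.heckeAlgebra.T hℓ hℓN hℓS) := dif_pos ⟨hℓ, hℓN, hℓS⟩
    rw [hc]
    exact ⟨hfrob ℓ hℓ hℓN hℓS A hA τ hτ,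
      cyaCharO_frobenius p 𝒪' hp𝒪' ℓ hℓ (hℓp ℓ hℓS) A hA τ hτ⟩
  obtain ⟨b, hb, -⟩ := qal_main ρ₀ (cyaCharO p 𝒪' hp𝒪') (S ∪ N.primeFactors) c hcont hεcont hF
  have hcont2 : ∀ n : ℕ, ∃ L : IntermediateField ℚ Qb, FiniteDimensional ℚ L ∧
      ∀ σ : Qb ≃ₐ[ℚ] Qb, (∀ x ∈ L, σ x = x) →
        (∀ v, ρ₀ σ v - v ∈ (IsLocalRing.maximalIdeal 𝒪' ^ n) • (⊤ : Submodule 𝒪' V₀)) ∧
        ((cyaCharO p 𝒪' hp𝒪' σ : 𝒪'ˣ) : 𝒪') - 1 ∈ IsLocalRing.maximalIdeal 𝒪' ^ n := by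
    intro n
    obtain ⟨L1, hL1, h1⟩ := hcont n
    obtain ⟨L2, hL2, h2⟩ := hεcont n
    have hfd : FiniteDimensional ℚ (L1 ⊔ L2 : IntermediateField ℚ Qb) :=
      IntermediateField.finiteDimensional_sup L1 L2
    exact ⟨L1 ⊔ L2, hfd, fun σ hσ =>
      ⟨h1 σ (fun x hx => hσ x ((le_sup_left : L1 ≤ L1 ⊔ L2) hx)),
        h2 σ (fun x hx => hσ x ((le_sup_right : L2 ≤ L1 ⊔ L2) hx))⟩⟩
  obtain ⟨𝒪'', i1, i2, i3, i4, i5, i6, i7, i8, i9, hinj, ρ, hρ1, -⟩ :=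
    lat_galoisRepAdic 𝒪' ρ₀ (cyaCharO p 𝒪' hp𝒪') b hb hcont2
  refine ⟨𝒪'', i1, i2, i3, i4, i5, i6, i7, i8, i9, hinj, ρ, ?_, ?_⟩
  · intro ℓ hℓ hℓN hℓS A hA σ hσ
    have h1 := hfrob ℓ hℓ hℓN hℓS A hA σ hσ
    have h2 := cyaCharO_frobenius p 𝒪' hp𝒪' ℓ hℓ (hℓp ℓ hℓS) A hA σ hσ
    have hsurj : Function.Surjective (ρ₀ σ) := by
      intro v
      refine ⟨ρ₀ σ⁻¹ v, ?_⟩
      rw [← Module.End.mul_apply, ← map_mul, mul_inv_cancel, map_one, Module.End.one_apply]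
    have h3 : b σ = χ (CuspForm.heckeAlgebra.T hℓ hℓN hℓS) := by
      refine qlm_unique (ρ₀ σ) hsurj ((cyaCharO p 𝒪' hp𝒪' σ : 𝒪'ˣ) : 𝒪') _ _ (hb σ) ?_
      rw [h2]
      exact h1
    rw [hρ1 σ, h3, h2, map_natCast]
  · intro σ hσ
    rw [hρ1 σ] at hσ
    have h0 := congrArg (Polynomial.eval 0) hσ
    have h1 := congrArg (Polynomial.eval 1) hσ
    simp only [eval_add, eval_sub, eval_mul, eval_pow, eval_X, eval_C, eval_one] at h0 h1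
    have he : algebraMap 𝒪' 𝒪'' ((cyaCharO p 𝒪' hp𝒪' σ : 𝒪'ˣ) : 𝒪') = 1 := by
      linear_combination h0
    have hb2 : algebraMap 𝒪' 𝒪'' (b σ) = 2 := by linear_combination he - h1
    have he' : ((cyaCharO p 𝒪' hp𝒪' σ : 𝒪'ˣ) : 𝒪') = 1 := hinj (by rw [he, map_one])
    have hb' : b σ = 2 := hinj (by rw [hb2, map_ofNat])
    have h := hb σ
    rw [hb', he', one_smul, two_smul] at h
    rw [← h]
    noncomm_ring

/-- **S36 from a lattice controlled by the torsion levels of `J₀(N)`** (`latf_s30` with the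
unipotent clause). -/
theorem s36f_latf (p : ℕ) [Fact p.Prime] (N : ℕ) [NeZero N] (S : Finset ℕ) (hpS : p ∈ S)
    (𝒪' : Type) [CommRing 𝒪'] [IsDomain 𝒪'] [IsDiscreteValuationRing 𝒪']
    [IsAdicComplete (IsLocalRing.maximalIdeal 𝒪') 𝒪'] [Finite (IsLocalRing.ResidueField 𝒪')]
    [CharZero 𝒪'] (hp𝒪' : (p : 𝒪') ∈ IsLocalRing.maximalIdeal 𝒪')
    (χ : CuspForm.heckeAlgebra N 2 (↑S : Set ℕ) →+* 𝒪')
    (Jn : ℕ → AddSubgroup (JZero N)) (hJn : ∀ (n : ℕ) (y : JZero N), y ∈ Jn n ↔ p ^ n • y = 0)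
    (hfin : ∀ n : ℕ, Finite ↥(Pic0.torsion Qb (modularFunctionFieldBar N) (p ^ n)))
    {V : Type*} [AddCommGroup V] [Module 𝒪' V] [Module.Free 𝒪' V]
    [Module.Finite 𝒪' V] [Nontrivial V]
    (ρ : (Qb ≃ₐ[ℚ] Qb) →* Module.End 𝒪' V)
    (h2 : ∀ (g : Qb ≃ₐ[ℚ] Qb) (ℓ : ℕ) (hℓ : ℓ.Prime)
      (hℓN : ¬ ℓ ∣ N) (hℓS : ℓ ∉ (↑S : Set ℕ)),
      (∀ (n : ℕ) (y : JZero N), y ∈ Jn n →
        g • g • y - heckeOperatorBar N ⟨ℓ, hℓ⟩ (g • y) + ℓ • y = 0) →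
      ρ g * ρ g - χ (CuspForm.heckeAlgebra.T hℓ hℓN hℓS) • ρ g +
        (ℓ : 𝒪') • (1 : Module.End 𝒪' V) = 0)
    (h3 : ∃ e : ℕ, ∀ (n : ℕ) (g : Qb ≃ₐ[ℚ] Qb),
      (∀ y : JZero N, y ∈ Jn (n + e) → g • y = y) →
      ∀ w : V, ρ g w - w ∈ (Ideal.span {(p : 𝒪')} ^ n) • (⊤ : Submodule 𝒪' V)) :
    ∃ (𝒪'' : Type) (_ : CommRing 𝒪'') (_ : IsDomain 𝒪'') (_ : IsDiscreteValuationRing 𝒪'')
      (_ : IsAdicComplete (IsLocalRing.maximalIdeal 𝒪'') 𝒪'')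
      (_ : Finite (IsLocalRing.ResidueField 𝒪'')) (_ : CharZero 𝒪'')
      (_ : Algebra 𝒪' 𝒪'') (_ : Module.Finite 𝒪' 𝒪'') (_ : IsLocalHom (algebraMap 𝒪' 𝒪'')),
    Function.Injective (algebraMap 𝒪' 𝒪'') ∧
    ∃ ρ' : GaloisRepAdic 𝒪'',
      (∀ (ℓ : ℕ) (hℓ : ℓ.Prime) (hℓN : ¬ ℓ ∣ N) (hℓS : ℓ ∉ (↑S : Set ℕ)),
        ∀ A : ValuationSubring Qb, A.LiesOverPrime ℓ →
          ∀ σ : Qb ≃ₐ[ℚ] Qb, A.IsFrobeniusAt σ ℓ →
            LinearMap.charpoly (ρ'.ρ σ) =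
              X ^ 2 - C (algebraMap 𝒪' 𝒪'' (χ (CuspForm.heckeAlgebra.T hℓ hℓN hℓS))) * X
                + C ((ℓ : 𝒪''))) ∧
      (∀ σ : Qb ≃ₐ[ℚ] Qb, LinearMap.charpoly (ρ'.ρ σ) = (X - 1) ^ 2 →
        (ρ σ - 1) * (ρ σ - 1) = 0) := by
  have hp : p.Prime := Fact.out
  have hℓp : ∀ ℓ : ℕ, ℓ ∉ (↑S : Set ℕ) → ℓ ≠ p := by
    rintro ℓ hℓS rfl
    exact hℓS (Finset.mem_coe.mpr hpS)
  refine s36f_lat p N S hpS 𝒪' hp𝒪' χ ρ ?_ ?_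
  · intro ℓ hℓ hℓN hℓS A hA σ hσ
    refine h2 σ ℓ hℓ hℓN hℓS (fun n y hy => ?_)
    exact tlv_frobenius N hp hℓ hℓN (hℓp ℓ hℓS) n A hA σ hσ y ((hJn n y).mp hy)
  · obtain ⟨e, he⟩ := h3
    intro n
    obtain ⟨L, hL, hfix⟩ := tlv_level N (p ^ (n + e)) (hfin (n + e))
    refine ⟨L, hL, fun σ hσ v => ?_⟩
    have h := he n σ (fun y hy => hfix σ hσ y ((hJn (n + e) y).mp hy)) v
    have hle : Ideal.span {(p : 𝒪')} ^ n ≤ IsLocalRing.maximalIdeal 𝒪' ^ n :=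
      Ideal.pow_right_mono ((Ideal.span_singleton_le_iff_mem _).mpr hp𝒪') n
    exact Submodule.smul_mono_left hle h

/-- a ring homomorphism out of the Hecke algebra evaluated at a Hecke polynomial -/
theorem s36f_chi_hresT {N : ℕ} [NeZero N] {S : Set ℕ} {O : Type*} [CommRing O]
    (χ : CuspForm.heckeAlgebra N 2 S →+* O) (P : FreeAlgebra ℤ (HresIdx N S)) :
    FreeAlgebra.lift ℤ (fun l : HresIdx N S => χ (CuspForm.heckeAlgebra.T l.2.1 l.2.2.1 l.2.2.2)) P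
      = χ (hresT N S P) := by
  induction P using FreeAlgebra.induction with
  | grade0 r => rw [AlgHom.commutes, AlgHom.commutes, eq_intCast, eq_intCast, map_intCast]
  | grade1 l => rw [FreeAlgebra.lift_ι_apply, hresT_ι]
  | mul a b ha hb => rw [map_mul, map_mul, map_mul, ha, hb]
  | add a b ha hb => rw [map_add, map_add, map_add, ha, hb]

/-- **The front end of S36.** -/
theorem s36f_main (lam : ℕ) [Fact lam.Prime] (M : ℕ) [NeZero M] (S : Finset ℕ)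
    (hlamS : lam ∈ S)
    (O' : Type) [CommRing O'] [IsDomain O'] [IsDiscreteValuationRing O']
    [IsAdicComplete (IsLocalRing.maximalIdeal O') O'] [Finite (IsLocalRing.ResidueField O')]
    [CharZero O'] (hlamO' : (lam : O') ∈ IsLocalRing.maximalIdeal O')
    (χ : CuspForm.heckeAlgebra M 2 (↑S : Set ℕ) →+* O')
    (hCORE : ∀ q : ℕ, q.Prime → q ≠ lam → M.factorization q = 2 →
      ∃ A : ValuationSubring Qb, A.LiesOverPrime q ∧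
        ∃ (P : FreeAlgebra ℤ (HresIdx M (↑S : Set ℕ))) (c : ℕ), c ≠ 0 ∧
          χ (hresT M (↑S : Set ℕ) P) ≠ 0 ∧
          ∀ (n : ℕ) (y : JZero M), lam ^ n • y = 0 →
            (∀ σ ∈ A.inertiaSubgroupIn ℚ, σ • y = y) →
              c • hresJ (fun l : HresIdx M (↑S : Set ℕ) => heckeOperatorBar M ⟨l.1, l.2.1⟩) P y
                = 0) :
    ∃ (O'' : Type) (_ : CommRing O'') (_ : IsDomain O'') (_ : IsDiscreteValuationRing O'')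
      (_ : IsAdicComplete (IsLocalRing.maximalIdeal O'') O'')
      (_ : Finite (IsLocalRing.ResidueField O'')) (_ : CharZero O'')
      (_ : Algebra O' O'') (_ : Module.Finite O' O'') (_ : IsLocalHom (algebraMap O' O'')),
      Function.Injective (algebraMap O' O'') ∧
      ∃ ρ : GaloisRepAdic O'',
        (∀ (ℓ : ℕ) (hℓ : ℓ.Prime) (hℓM : ¬ ℓ ∣ M) (hℓS : ℓ ∉ (↑S : Set ℕ)),
          ∀ A : ValuationSubring Qb, A.LiesOverPrime ℓ →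
            ∀ σ : Qb ≃ₐ[ℚ] Qb, A.IsFrobeniusAt σ ℓ →
              LinearMap.charpoly (ρ.ρ σ) =
                X ^ 2 - C (algebraMap O' O'' (χ (CuspForm.heckeAlgebra.T hℓ hℓM hℓS))) * X
                  + C ((ℓ : O''))) ∧
        (∀ q : ℕ, q.Prime → q ≠ lam → M.factorization q = 2 →
          ¬ ρ.IsUnipotentOnInertiaAt q) := by
  have hp : lam.Prime := Fact.out
  have : NeZero lam := ⟨hp.ne_zero⟩
  have : Group.FG (CongruenceSubgroup.Gamma0 M) := egs_Gamma0_fg M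
  obtain ⟨v, hv0, hvS, hTv⟩ := egx_s30 M S χ
  have hℓp : ∀ ℓ : ℕ, ℓ ∉ (↑S : Set ℕ) → ℓ ≠ lam := by
    rintro ℓ hℓS rfl
    exact hℓS (Finset.mem_coe.mpr hlamS)
  let ι : Type := {ℓ : ℕ // ℓ.Prime ∧ ¬ ℓ ∣ M ∧ ℓ ∉ (↑S : Set ℕ)}
  let Jn : ℕ → AddSubgroup (JZero M) :=
    fun n => Pic0.torsion Qb (modularFunctionFieldBar M) (lam ^ n)
  have hJn : ∀ (n : ℕ) (y : JZero M), y ∈ Jn n ↔ lam ^ n • y = 0 :=
    fun n y => tlv_mem_torsion M (lam ^ n) y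
  obtain ⟨V, _, _, _, _, _, ρ, -, h2, h3, h4⟩ := s36f_abs lam
    (X := Additive (CongruenceSubgroup.Gamma0 M)) (redS M)
    (J := JZero M) (G := Qb ≃ₐ[ℚ] Qb) Jn hJn
    (fun n => cmgPhi M (lam ^ n)) (fun n => cmg_injective M (lam ^ n))
    (fun n ψ hψ => cmg_surj M (lam ^ n) ψ hψ)
    (fun n y y' h x => cmg_level_pow M lam n y y' h x)
    (ι := ι) (K := fun i => Option (Fin i.1))
    (fun i k x => Additive.ofMul (heckeTrCoc i.2.1 i.2.2.1 (Additive.toMul x) k))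
    (by
      intro i ψ x y
      rw [← heckeTr_apply i.2.1 i.2.2.1 ψ (Additive.toMul (x + y)),
        ← heckeTr_apply i.2.1 i.2.2.1 ψ (Additive.toMul x),
        ← heckeTr_apply i.2.1 i.2.2.1 ψ (Additive.toMul y)]
      exact map_add (heckeTr M i.1 ℤ_[lam] ψ) x y)
    (fun i => (heckeOperatorBar M ⟨i.1, i.2.1⟩).toAddMonoidHom)
    (by
      intro i n y y' h x
      have h' := cmg_hecke_rel M (lam ^ n) i.2.1 i.2.2.1 y y' h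
      rw [h']
      exact heckeTr_apply i.2.1 i.2.2.1 (cmgPhi M (lam ^ n) y) (Additive.toMul x))
    (by
      intro i g n y hy
      exact tlv_hecke_galois M hp i.2.1 i.2.2.1 (hℓp i.1 i.2.2.2) n g y ((hJn n y).mp hy))
    (zpaHom lam O' hlamO') (zpi_injective lam _)
    (fun i => χ (CuspForm.heckeAlgebra.T i.2.1 i.2.2.1 i.2.2.2)) v hv0 hvS
    (by
      intro i x
      exact hTv i.1 i.2.1 i.2.2.1 i.2.2.2 (Additive.toMul x))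
  obtain ⟨O'', i1, i2, i3, i4, i5, i6, i7, i8, i9, hinj, ρ', hfrob, hunip⟩ :=
    s36f_latf lam M S hlamS O' hlamO' χ Jn hJn (fun n => cmg_finite M (lam ^ n)) ρ
      (fun g ℓ hℓ hℓN hℓS h => h2 g ⟨ℓ, hℓ, hℓN, hℓS⟩ ℓ h) h3
  refine ⟨O'', i1, i2, i3, i4, i5, i6, i7, i8, i9, hinj, ρ', hfrob, ?_⟩
  intro q hq hqlam hq2 hU
  obtain ⟨A, hA, P, c, hc, hP, hJ⟩ := hCORE q hq hqlam hq2
  -- Kolchin: a nonzero vector fixed by the inertia group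
  obtain ⟨w, hw0, hw⟩ := s36k_fixed ρ (A.inertiaSubgroupIn ℚ)
    (fun g hg => hunip g (hU A hA g hg))
  refine hw0 (h4 (↑(A.inertiaSubgroupIn ℚ) : Set (Qb ≃ₐ[ℚ] Qb)) P c hc ?_ ?_ w
    (fun g hg => hw g hg))
  · have e := s36f_chi_hresT χ P
    exact e ▸ hP
  · intro n y hy hfix
    have e : (fun i : ι => ((heckeOperatorBar M ⟨i.1, i.2.1⟩).toAddMonoidHom).toIntLinearMap) =
        (fun l : HresIdx M (↑S : Set ℕ) => heckeOperatorBar M ⟨l.1, l.2.1⟩) := by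
      funext i
      exact LinearMap.ext fun _ => rfl
    have h := hJ n y ((hJn n y).mp hy) (fun σ hσ => hfix σ hσ)
    rw [hresJ] at h
    rw [e]
    exact h

end Fermat.Agent.S36
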