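import Mathlib
import Fermat.Agent.S34.InstAbs
import Fermat.Agent.S34.LocRing
import Fermat.Agent.S35.CorePt
import Fermat.Agent.S35.LocUnit

/-!
# S36, package UNIT3: from (LOC) to the unit form at a closed point of the special fibre

`S34Loc τ m O f 𝔫` says that `f / g ^ m` is a unit of `O_𝔫[1/τ]` for some `g ≠ 0`.  If `f` is
a unit at every vertical valuation through the closed point `𝔫`, then `f` is a unit of `O_𝔫`
times an `m`-th power (`S35Unit m O 𝔫 f`), provided that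

* the chart is saturated along the finite family `S` of vertical valuations
  (`hdiv`: `x ∈ O`, `x / τ ∈ V` for all `V ∈ S` imply `x / τ ∈ O`);
* a valuation `V ∈ S` NOT through `𝔫` is killed by some `X ∈ O ∖ 𝔫`
  (`∀ z, ∃ N, z * X ^ N ∈ V`);
* a valuation `V ∈ S` through `𝔫` has a local equation `π V`: a function of `O_𝔫` dividing
  `s * τ ^ k` (`s ∉ 𝔫`), which is a uniformiser of `V` and a unit at the other valuations of `S`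
  through `𝔫`.

This covers the points of one reduced component (`π = τ`), of the non-reduced component
(`π ^ (q - 1) = τ * unit`) and the triple points (three local equations).

* `s36u3_div_pow`: saturation for the powers of `τ`.
* `s36u3_sat`: `O_𝔫[1/τ] ∩ ⋂ V = O_𝔫` (local saturation).
* `s36u3_main`: the unit form, for a finite family `S`.
* `s36u3_main3`: the same for the three valuations `{Wa, Wb, Wc}`.
* `s36u3_arch`: the hypothesis on the valuations not through `𝔫` from discreteness.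
-/

set_option autoImplicit false
set_option linter.unusedSectionVars false
set_option linter.unusedVariables false

namespace Fermat.Agent.S36

open Fermat.Agent.S18 Fermat.Agent.S34 Fermat.Agent.S35

section Sym

variable {F : Type*} [Field F]

/-- The elements of a submonoid of a field whose inverse also lies in it. -/
def s36u3Sym (M : Submonoid F) : Submonoid F where
  carrier := {x | x ∈ M ∧ x⁻¹ ∈ M}
  one_mem' := ⟨M.one_mem, by rw [inv_one]; exact M.one_mem⟩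
  mul_mem' := by
    rintro x y ⟨h1, h2⟩ ⟨h3, h4⟩
    exact ⟨M.mul_mem h1 h3, by rw [mul_inv]; exact M.mul_mem h2 h4⟩

theorem s36u3_sym_inv (M : Submonoid F) {x : F} (hx : x ∈ s36u3Sym M) : x⁻¹ ∈ s36u3Sym M :=
  ⟨hx.2, by rw [inv_inv]; exact hx.1⟩

theorem s36u3_sym_zpow (M : Submonoid F) {x : F} (hx : x ∈ s36u3Sym M) (j : ℤ) :
    x ^ j ∈ s36u3Sym M := by
  rcases j with n | n
  · rw [Int.ofNat_eq_natCast, zpow_natCast]
    exact pow_mem hx n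
  · rw [zpow_negSucc]
    exact s36u3_sym_inv M (pow_mem hx _)

end Sym

section Unit3

variable {A F : Type*} [CommRing A] [Field F] [Algebra A F]

/-- The functions of `O_𝔫[1/τ]`, as a submonoid of `F`. -/
def s36u3Lt (τ' : F) (O : Subalgebra A F) (𝔫 : Ideal ↥O) [𝔫.IsPrime] : Submonoid F where
  carrier := {x | ∃ n : ℕ, x * τ' ^ n ∈ ndrLoc O 𝔫}
  one_mem' := ⟨0, by rw [pow_zero, mul_one]; exact (ndrLoc O 𝔫).one_mem⟩
  mul_mem' := by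
    rintro x y ⟨n, hx⟩ ⟨n', hy⟩
    refine ⟨n + n', ?_⟩
    have e : x * y * τ' ^ (n + n') = (x * τ' ^ n) * (y * τ' ^ n') := by
      rw [pow_add]; ring
    rw [e]
    exact (ndrLoc O 𝔫).mul_mem hx hy

/-- Saturation of the chart for the powers of `τ`. -/
theorem s36u3_div_pow (τ : A) (O : Subalgebra A F) (S : Finset (ValuationSubring F))
    (hOV : ∀ V ∈ S, ∀ x ∈ O, x ∈ V)
    (hdiv : ∀ x ∈ O, (∀ V ∈ S, x * (algebraMap A F τ)⁻¹ ∈ V) → x * (algebraMap A F τ)⁻¹ ∈ O)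
    (n : ℕ) : ∀ x ∈ O, (∀ V ∈ S, x * (algebraMap A F τ)⁻¹ ^ n ∈ V) →
      x * (algebraMap A F τ)⁻¹ ^ n ∈ O := by
  induction n with
  | zero =>
    intro x hx _
    simpa using hx
  | succ n ih =>
    intro x hx h
    by_cases hτ0 : algebraMap A F τ = 0
    · rw [hτ0, inv_zero, zero_pow (Nat.succ_ne_zero n), mul_zero]
      exact O.zero_mem
    have hτV : ∀ V ∈ S, algebraMap A F τ ∈ V := fun V hV => hOV V hV _ (O.algebraMap_mem τ)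
    have h1 : ∀ V ∈ S, x * (algebraMap A F τ)⁻¹ ∈ V := by
      intro V hV
      have e : x * (algebraMap A F τ)⁻¹ =
          x * (algebraMap A F τ)⁻¹ ^ (n + 1) * algebraMap A F τ ^ n := by
        have h2 : (algebraMap A F τ)⁻¹ ^ n * algebraMap A F τ ^ n = 1 := by
          rw [← mul_pow, inv_mul_cancel₀ hτ0, one_pow]
        rw [pow_succ, mul_assoc, mul_right_comm ((algebraMap A F τ)⁻¹ ^ n), h2, one_mul]
      rw [e]
      exact V.mul_mem _ _ (h V hV) (pow_mem (hτV V hV) n)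
    have h2 := hdiv x hx h1
    have e2 : x * (algebraMap A F τ)⁻¹ ^ (n + 1) =
        (x * (algebraMap A F τ)⁻¹) * (algebraMap A F τ)⁻¹ ^ n := by ring
    rw [e2]
    exact ih _ h2 (fun V hV => by rw [← e2]; exact h V hV)

/-- **Local saturation.**  A function of `O_𝔫[1/τ]` which, up to a factor in `O ∖ 𝔫`, lies in
every `V ∈ S`, is a function of `O_𝔫`. -/
theorem s36u3_sat (τ : A) (hτ0 : algebraMap A F τ ≠ 0) (O : Subalgebra A F)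
    (𝔫 : Ideal ↥O) [h𝔫 : 𝔫.IsPrime] (S : Finset (ValuationSubring F))
    (hOV : ∀ V ∈ S, ∀ x ∈ O, x ∈ V)
    (hdiv : ∀ x ∈ O, (∀ V ∈ S, x * (algebraMap A F τ)⁻¹ ∈ V) → x * (algebraMap A F τ)⁻¹ ∈ O)
    (x : F) (hx : x ∈ s36u3Lt (algebraMap A F τ) O 𝔫)
    (hxV : ∀ V ∈ S, ∃ E : ↥O, E ∉ 𝔫 ∧ x * (E : F) ∈ V) : x ∈ ndrLoc O 𝔫 := by
  classical
  obtain ⟨n, c, s, hs, hc⟩ := hx
  choose! E hE hEV using hxV
  have hY : ∏ V ∈ S, E V ∉ 𝔫 := by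
    intro hh
    obtain ⟨V, hV, hVE⟩ := Ideal.IsPrime.prod_mem_iff.mp hh
    exact hE V hV hVE
  have hττ : algebraMap A F τ ^ n * (algebraMap A F τ)⁻¹ ^ n = 1 := by
    rw [← mul_pow, mul_inv_cancel₀ hτ0, one_pow]
  have key : ((c * ∏ V ∈ S, E V : ↥O) : F) * (algebraMap A F τ)⁻¹ ^ n =
      x * ((s * ∏ V ∈ S, E V : ↥O) : F) := by
    rw [Subalgebra.coe_mul, Subalgebra.coe_mul, ← hc]
    linear_combination (x * (s : F) * ((∏ V ∈ S, E V : ↥O) : F)) * hττ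
  have hmem : ((c * ∏ V ∈ S, E V : ↥O) : F) * (algebraMap A F τ)⁻¹ ^ n ∈ O := by
    apply s36u3_div_pow τ O S hOV hdiv n _ (c * ∏ V ∈ S, E V).2
    intro V hV
    rw [key]
    have e : x * ((s * ∏ V ∈ S, E V : ↥O) : F) =
        x * (E V : F) * ((s * ∏ V' ∈ S.erase V, E V' : ↥O) : F) := by
      rw [← Finset.mul_prod_erase S E hV]
      push_cast
      ring
    rw [e]
    exact V.mul_mem _ _ (hEV V hV) (hOV V hV _ (s * ∏ V' ∈ S.erase V, E V').2)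
  exact ⟨⟨_, hmem⟩, s * ∏ V ∈ S, E V, fun hh => (h𝔫.mem_or_mem hh).elim hs hY, key.symm⟩

/-- **UNIT3.**  From (LOC) to the unit form: `S34Loc τ m O f 𝔫` and `f` a unit at every
valuation of `S` through `𝔫` give `S35Unit m O 𝔫 f`. -/
theorem s36u3_main (τ : A) (hτ0 : algebraMap A F τ ≠ 0) (O : Subalgebra A F)
    (𝔫 : Ideal ↥O) [h𝔫 : 𝔫.IsPrime] (S : Finset (ValuationSubring F))
    (hOV : ∀ V ∈ S, ∀ x ∈ O, x ∈ V)
    (hdiv : ∀ x ∈ O, (∀ V ∈ S, x * (algebraMap A F τ)⁻¹ ∈ V) → x * (algebraMap A F τ)⁻¹ ∈ O)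
    -- the valuations NOT through `𝔫`
    (hoff : ∀ V ∈ S, (¬ ∀ x : ↥O, (x : F) ∈ V.nonunits → x ∈ 𝔫) →
      ∃ X : ↥O, X ∉ 𝔫 ∧ ∀ z : F, ∃ N : ℕ, z * (X : F) ^ N ∈ V)
    -- local equations of the valuations through `𝔫`
    (hπ : ∀ V ∈ S, (∀ x : ↥O, (x : F) ∈ V.nonunits → x ∈ 𝔫) → ∃ π : F,
      π ≠ 0 ∧ π ∈ ndrLoc O 𝔫 ∧
      (∃ (a s : ↥O) (k : ℕ), s ∉ 𝔫 ∧ π * (a : F) = (s : F) * algebraMap A F τ ^ k) ∧
      (∀ z : F, z ≠ 0 → ∃ j : ℤ, z * π ^ j ∈ V ∧ (z * π ^ j)⁻¹ ∈ V) ∧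
      (∀ V' ∈ S, V' ≠ V → (∀ x : ↥O, (x : F) ∈ V'.nonunits → x ∈ 𝔫) → π⁻¹ ∈ V'))
    (m : ℕ) (f : F) (hf0 : f ≠ 0) (hf : S34Loc τ m O f 𝔫)
    (hfu : ∀ V ∈ S, (∀ x : ↥O, (x : F) ∈ V.nonunits → x ∈ 𝔫) → f ∈ V ∧ f⁻¹ ∈ V) :
    S35Unit m O 𝔫 f := by
  classical
  choose! π hπ using hπ
  set τ' := algebraMap A F τ with hτ'
  obtain ⟨g, hg, a, b, s, s', k, l, hs, hs', e1, e2⟩ := hf
  have hs0 : (s : F) ≠ 0 := s35pt_ne_zero O 𝔫 s hs
  have hs'0 : (s' : F) ≠ 0 := s35pt_ne_zero O 𝔫 s' hs'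
  have hgm : g ^ m ≠ 0 := pow_ne_zero m hg
  rw [← hτ'] at e1 e2
  -- the submonoids
  let Lt : Submonoid F := s36u3Lt τ' O 𝔫
  let U : ValuationSubring F → Submonoid F := fun V => s36u3Sym V.toSubring.toSubmonoid
  have hUmem : ∀ (V : ValuationSubring F) (x : F), x ∈ U V ↔ x ∈ V ∧ x⁻¹ ∈ V :=
    fun V x => Iff.rfl
  have hΛLt : ∀ x : F, x ∈ ndrLoc O 𝔫 → x ∈ Lt := fun x hx =>
    ⟨0, by rw [pow_zero, mul_one]; exact hx⟩
  have hΛV : ∀ V ∈ S, (∀ x : ↥O, (x : F) ∈ V.nonunits → x ∈ 𝔫) →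
      ∀ x ∈ ndrLoc O 𝔫, x ∈ V := fun V hV hth => s35pt_loc_le O 𝔫 V (hOV V hV) hth
  -- the exponents
  have hj : ∀ V : ValuationSubring F, ∃ j : ℤ,
      (V ∈ S → (∀ x : ↥O, (x : F) ∈ V.nonunits → x ∈ 𝔫) →
        g * π V ^ j ∈ V ∧ (g * π V ^ j)⁻¹ ∈ V) := by
    intro V
    by_cases h : V ∈ S ∧ ∀ x : ↥O, (x : F) ∈ V.nonunits → x ∈ 𝔫
    · obtain ⟨j, hj⟩ := (hπ V h.1 h.2).2.2.2.1 g hg
      exact ⟨j, fun _ _ => hj⟩
    · exact ⟨0, fun h1 h2 => absurd ⟨h1, h2⟩ h⟩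
  choose j hj using hj
  let P : ValuationSubring F → F := fun V =>
    if (∀ x : ↥O, (x : F) ∈ V.nonunits → x ∈ 𝔫) then π V ^ j V else 1
  have hPthr : ∀ V : ValuationSubring F, (∀ x : ↥O, (x : F) ∈ V.nonunits → x ∈ 𝔫) →
      P V = π V ^ j V := fun V h => if_pos h
  have hPoff : ∀ V : ValuationSubring F, (¬ ∀ x : ↥O, (x : F) ∈ V.nonunits → x ∈ 𝔫) →
      P V = 1 := fun V h => if_neg h
  -- `P V` and its inverse lie in `O_𝔫[1/τ]`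
  have hPLt : ∀ V ∈ S, P V ∈ s36u3Sym Lt := by
    intro V hV
    by_cases hth : ∀ x : ↥O, (x : F) ∈ V.nonunits → x ∈ 𝔫
    · rw [hPthr V hth]
      obtain ⟨hπ0, hπΛ, ⟨a₁, s₁, k₁, hs₁, hπa⟩, -, -⟩ := hπ V hV hth
      apply s36u3_sym_zpow
      refine ⟨hΛLt _ hπΛ, k₁, ?_⟩
      have hs₁0 : (s₁ : F) ≠ 0 := s35pt_ne_zero O 𝔫 s₁ hs₁
      have e : (π V)⁻¹ * τ' ^ k₁ = (a₁ : F) * (s₁ : F)⁻¹ := by
        field_simp
        linear_combination (-1 : F) * hπa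
      rw [e]
      exact s35pt_loc_mk O 𝔫 a₁ s₁ hs₁
    · rw [hPoff V hth]
      exact (s36u3Sym Lt).one_mem
  -- `P V'` is a unit of `V` for `V' ≠ V`, `V` through `𝔫`
  have hPU : ∀ V ∈ S, (∀ x : ↥O, (x : F) ∈ V.nonunits → x ∈ 𝔫) →
      ∀ V' ∈ S.erase V, P V' ∈ U V := by
    intro V hV hth V' hV'
    obtain ⟨hne, hV'S⟩ := Finset.mem_erase.mp hV'
    by_cases hth' : ∀ x : ↥O, (x : F) ∈ V'.nonunits → x ∈ 𝔫
    · rw [hPthr V' hth']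
      obtain ⟨hπ0, hπΛ, -, -, hother⟩ := hπ V' hV'S hth'
      apply s36u3_sym_zpow
      exact ⟨hΛV V hV hth _ hπΛ, hother V hV (Ne.symm hne) hth⟩
    · rw [hPoff V' hth']
      exact (U V).one_mem
  -- the corrected root
  set g' : F := g * ∏ V ∈ S, P V with hg'
  have hP0 : ∀ V ∈ S, P V ≠ 0 := by
    intro V hV
    by_cases hth : ∀ x : ↥O, (x : F) ∈ V.nonunits → x ∈ 𝔫
    · rw [hPthr V hth]
      exact zpow_ne_zero _ (hπ V hV hth).1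
    · rw [hPoff V hth]
      exact one_ne_zero
  have hprod0 : ∏ V ∈ S, P V ≠ 0 := Finset.prod_ne_zero_iff.mpr hP0
  have hg'0 : g' ≠ 0 := mul_ne_zero hg hprod0
  have hg'U : ∀ V ∈ S, (∀ x : ↥O, (x : F) ∈ V.nonunits → x ∈ 𝔫) → g' ∈ U V := by
    intro V hV hth
    have e : g' = (g * π V ^ j V) * ∏ V' ∈ S.erase V, P V' := by
      rw [hg', ← Finset.mul_prod_erase S P hV, hPthr V hth]
      ring
    rw [e]
    exact (U V).mul_mem (hj V hV hth) (Submonoid.prod_mem _ (hPU V hV hth))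
  -- the unit part
  set u : F := f * (g' ^ m)⁻¹ with hu
  have hu0 : u ≠ 0 := mul_ne_zero hf0 (inv_ne_zero (pow_ne_zero m hg'0))
  have hprodLt : ∏ V ∈ S, P V ∈ s36u3Sym Lt := Submonoid.prod_mem _ hPLt
  have hfgLt : f * (g ^ m)⁻¹ ∈ s36u3Sym Lt := by
    constructor
    · refine ⟨k, ?_⟩
      have e : f * (g ^ m)⁻¹ * τ' ^ k = (a : F) * (s : F)⁻¹ := by
        field_simp
        linear_combination e1
      rw [e]
      exact s35pt_loc_mk O 𝔫 a s hs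
    · refine ⟨l, ?_⟩
      have e : (f * (g ^ m)⁻¹)⁻¹ * τ' ^ l = (b : F) * (s' : F)⁻¹ := by
        rw [mul_inv, inv_inv]
        field_simp
        linear_combination e2
      rw [e]
      exact s35pt_loc_mk O 𝔫 b s' hs'
  have huLt : u ∈ s36u3Sym Lt := by
    have e : u = f * (g ^ m)⁻¹ * ((∏ V ∈ S, P V)⁻¹) ^ m := by
      rw [hu, hg', mul_pow, mul_inv, inv_pow]
      ring
    rw [e]
    exact (s36u3Sym Lt).mul_mem hfgLt (pow_mem (s36u3_sym_inv Lt hprodLt) m)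
  have huU : ∀ V ∈ S, (∀ x : ↥O, (x : F) ∈ V.nonunits → x ∈ 𝔫) → u ∈ U V := by
    intro V hV hth
    exact (U V).mul_mem (hfu V hV hth) (s36u3_sym_inv _ (pow_mem (hg'U V hV hth) m))
  -- local saturation
  have hsat : ∀ x : F, (∀ V ∈ S, (∀ x : ↥O, (x : F) ∈ V.nonunits → x ∈ 𝔫) → x ∈ V) →
      ∀ V ∈ S, ∃ E : ↥O, E ∉ 𝔫 ∧ x * (E : F) ∈ V := by
    intro x hx V hV
    by_cases hth : ∀ x : ↥O, (x : F) ∈ V.nonunits → x ∈ 𝔫
    · refine ⟨1, fun h1 => h𝔫.ne_top ((Ideal.eq_top_iff_one 𝔫).mpr h1), ?_⟩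
      rw [Subalgebra.coe_one, mul_one]
      exact hx V hV hth
    · obtain ⟨X, hX, hN⟩ := hoff V hV hth
      obtain ⟨N, hN⟩ := hN x
      exact ⟨X ^ N, fun hh => hX (h𝔫.mem_of_pow_mem _ hh), by
        rw [Subalgebra.coe_pow]; exact hN⟩
  obtain ⟨c₁, s₁, hs₁, h1⟩ := s36u3_sat τ hτ0 O 𝔫 S hOV hdiv u huLt.1
    (hsat u (fun V hV hth => (huU V hV hth).1))
  obtain ⟨c₂, s₂, hs₂, h2⟩ := s36u3_sat τ hτ0 O 𝔫 S hOV hdiv u⁻¹ huLt.2
    (hsat u⁻¹ (fun V hV hth => (huU V hV hth).2))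
  have hc₁ : c₁ ∉ 𝔫 := by
    intro hc
    have e : c₁ * c₂ = s₁ * s₂ := by
      apply Subtype.ext
      push_cast
      rw [← h1, ← h2]
      field_simp
    have h3 : s₁ * s₂ ∈ 𝔫 := by
      rw [← e]
      exact 𝔫.mul_mem_right _ hc
    exact (h𝔫.mem_or_mem h3).elim hs₁ hs₂
  refine ⟨g', hg'0, c₁, s₁, hc₁, hs₁, ?_⟩
  rw [← h1, hu]
  have : (g' ^ m)⁻¹ * g' ^ m = 1 := inv_mul_cancel₀ (pow_ne_zero m hg'0)
  linear_combination (-(f * (s₁ : F))) * this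

/-- A discrete valuation is killed by the powers of a nonunit: if `ϖ` is a uniformiser of `V`
(`hdec`) and `X ^ e ∈ ϖ V`, then every `z` satisfies `z * X ^ N ∈ V` for some `N`. -/
theorem s36u3_arch (V : ValuationSubring F) (ϖ : F) (hϖ : ϖ ∈ V) (hϖ0 : ϖ ≠ 0)
    (hdec : ∀ z : F, z ≠ 0 → ∃ j : ℤ, z * ϖ ^ j ∈ V ∧ (z * ϖ ^ j)⁻¹ ∈ V)
    (e : ℕ) (X : F) (hXe : X ^ e * ϖ⁻¹ ∈ V) (z : F) : ∃ N : ℕ, z * X ^ N ∈ V := by
  by_cases hz : z = 0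
  · exact ⟨0, by rw [hz, zero_mul]; exact V.zero_mem⟩
  obtain ⟨j, hj, -⟩ := hdec z hz
  rcases j with n | n
  · -- `z * ϖ ^ n ∈ V` with `n ≥ 0`: multiply by `(X ^ e / ϖ) ^ n`
    rw [Int.ofNat_eq_natCast, zpow_natCast] at hj
    refine ⟨e * n, ?_⟩
    have e1 : z * X ^ (e * n) = z * ϖ ^ n * (X ^ e * ϖ⁻¹) ^ n := by
      have h1 : ϖ ^ n * (ϖ⁻¹) ^ n = 1 := by rw [← mul_pow, mul_inv_cancel₀ hϖ0, one_pow]
      rw [pow_mul, mul_pow]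
      linear_combination (-(z * (X ^ e) ^ n)) * h1
    rw [e1]
    exact V.mul_mem _ _ hj (pow_mem hXe n)
  · -- `z / ϖ ^ (n + 1) ∈ V`
    rw [zpow_negSucc] at hj
    refine ⟨0, ?_⟩
    have e1 : z * X ^ 0 = z * (ϖ ^ (n + 1))⁻¹ * ϖ ^ (n + 1) := by
      have h1 : (ϖ ^ (n + 1))⁻¹ * ϖ ^ (n + 1) = 1 := inv_mul_cancel₀ (pow_ne_zero _ hϖ0)
      rw [pow_zero, mul_one, mul_assoc, h1, mul_one]
    rw [e1]
    exact V.mul_mem _ _ hj (pow_mem hϖ _)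

/-- **UNIT3 for the three vertical valuations** of level `L q ^ 2` (hypotheses quantified over
the set `{Wa, Wb, Wc}`, as in the seam predicate of the blueprint). -/
theorem s36u3_main3 (τ : A) (hτ0 : algebraMap A F τ ≠ 0) (O : Subalgebra A F)
    (𝔫 : Ideal ↥O) [h𝔫 : 𝔫.IsPrime] (Wa Wb Wc : ValuationSubring F)
    (hOWa : ∀ x ∈ O, x ∈ Wa) (hOWb : ∀ x ∈ O, x ∈ Wb) (hOWc : ∀ x ∈ O, x ∈ Wc)
    (hdiv : ∀ x ∈ O, x * (algebraMap A F τ)⁻¹ ∈ Wa → x * (algebraMap A F τ)⁻¹ ∈ Wb →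
      x * (algebraMap A F τ)⁻¹ ∈ Wc → x * (algebraMap A F τ)⁻¹ ∈ O)
    (hoff : ∀ V ∈ ({Wa, Wb, Wc} : Set (ValuationSubring F)),
      (¬ ∀ x : ↥O, (x : F) ∈ V.nonunits → x ∈ 𝔫) →
      ∃ X : ↥O, X ∉ 𝔫 ∧ ∀ z : F, ∃ N : ℕ, z * (X : F) ^ N ∈ V)
    (hπ : ∀ V ∈ ({Wa, Wb, Wc} : Set (ValuationSubring F)),
      (∀ x : ↥O, (x : F) ∈ V.nonunits → x ∈ 𝔫) → ∃ π : F,
      π ≠ 0 ∧ π ∈ ndrLoc O 𝔫 ∧
      (∃ (a s : ↥O) (k : ℕ), s ∉ 𝔫 ∧ π * (a : F) = (s : F) * algebraMap A F τ ^ k) ∧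
      (∀ z : F, z ≠ 0 → ∃ j : ℤ, z * π ^ j ∈ V ∧ (z * π ^ j)⁻¹ ∈ V) ∧
      (∀ V' ∈ ({Wa, Wb, Wc} : Set (ValuationSubring F)), V' ≠ V →
        (∀ x : ↥O, (x : F) ∈ V'.nonunits → x ∈ 𝔫) → π⁻¹ ∈ V'))
    (m : ℕ) (f : F) (hf0 : f ≠ 0) (hf : S34Loc τ m O f 𝔫)
    (hfu : ∀ V ∈ ({Wa, Wb, Wc} : Set (ValuationSubring F)),
      (∀ x : ↥O, (x : F) ∈ V.nonunits → x ∈ 𝔫) → f ∈ V ∧ f⁻¹ ∈ V) :
    S35Unit m O 𝔫 f := by
  classical
  have hS : ∀ V : ValuationSubring F, V ∈ ({Wa, Wb, Wc} : Finset (ValuationSubring F)) ↔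
      V ∈ ({Wa, Wb, Wc} : Set (ValuationSubring F)) := by
    intro V
    simp
  have hOV : ∀ V ∈ ({Wa, Wb, Wc} : Finset (ValuationSubring F)), ∀ x ∈ O, x ∈ V := by
    intro V hV
    rcases (by simpa using hV : V = Wa ∨ V = Wb ∨ V = Wc) with rfl | rfl | rfl
    exacts [hOWa, hOWb, hOWc]
  refine s36u3_main τ hτ0 O 𝔫 {Wa, Wb, Wc} hOV ?_ (fun V hV => hoff V ((hS V).mp hV)) ?_
    m f hf0 hf (fun V hV => hfu V ((hS V).mp hV))
  · intro x hx h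
    exact hdiv x hx (h Wa (by simp)) (h Wb (by simp)) (h Wc (by simp))
  · intro V hV hth
    obtain ⟨π, h1, h2, h3, h4, h5⟩ := hπ V ((hS V).mp hV) hth
    exact ⟨π, h1, h2, h3, h4, fun V' hV' => h5 V' ((hS V').mp hV')⟩

end Unit3

end Fermat.Agent.S36
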