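import Mathlib
import Fermat.Agent.S18.Cech
import Fermat.Agent.S34.LocalH6
import Fermat.Agent.S34.InstAbs

/-!
# S36 (draft), abstract leaf [LOC-REG]: the local statement (LOC) at a REGULAR closed point

`S34.lh6_main_any` proves (LOC) at a closed point `n` of the special fibre at which `τ` itself
generates a component `p₁` locally.  At a crossing point of a regular model (thickness one) the
component `p₁` is still locally principal, but generated by a proper divisor `x` of `τ`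
(`τ = x * y * unit`); at a point of a non-reduced component `τ = π ^ e * unit`.  This file proves
(LOC) at every closed point `n` through which there passes a component `p₁` with
`p₁ O_n = x O_n` and `O ⧸ p₁` Dedekind, for an arbitrary `τ ≠ 0`:

* `s36lr_split`: in a unique factorization domain every nonzero element is the product of an
  element prime to `τ` and a divisor of a power of `τ`;
* `s36lr_ufd`: in the fraction field of a unique factorization domain, a function which is a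
  unit times an `m`-th power at every prime element not dividing `τ` is a unit of `R[1/τ]`
  times an `m`-th power;
* `s36lr_local`, `s36lr_main`: the statement at a maximal ideal `n` of a noetherian domain `O`;
* `s36lr_prime_principal` ([LOC-NAK]): in a noetherian local ring `R` with `R / x` a principal
  ideal ring (`x` in the maximal ideal), every prime ideal not containing `x` is principal;
* `s36lr_loc`, `s36lr_loc_val`, `s36lr_loc_frac`: the conclusion in the form `S34.S34Loc`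
  consumed by the gluing core, for a chart `O : Subalgebra A F`; the component is given as a
  prime ideal `p₁`, resp. as the centre of a valuation ring `V` of `F`, and its local generator
  as an element of `O`, resp. as an element of `O_𝔫` in fraction form;
* `s36lr_prin_of_unit`: at a crossing point of a chart with reduced special fibre
  (`𝔪_{V₁} ∩ 𝔪_{V₂} ∩ O = τ O`), thickness one (`x * y = τ * unit` in `O_𝔫`, `y` a local
  equation of the second component) makes the first component principal at `𝔫`, generated by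
  `x`;
* `s36lr_loc_node`: hence (LOC) at such a crossing point, for every `f` with `hord`.
-/

set_option autoImplicit false

namespace Fermat.Agent.S36

open Fermat.Agent.S18 Fermat.Agent.S34

/-- In a unique factorization domain, every nonzero element is `h * v` with `h` prime to `τ` and
`v` a divisor of a power of `τ`. -/
theorem s36lr_split {R : Type*} [CommRing R] [IsDomain R] [UniqueFactorizationMonoid R]
    (τ : R) (a : R) (ha : a ≠ 0) :
    ∃ (h v c : R) (N : ℕ), a = h * v ∧ v * c = τ ^ N ∧ ∀ p : R, Prime p → p ∣ τ → ¬ p ∣ h := by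
  induction a using UniqueFactorizationMonoid.induction_on_prime with
  | h₁ => exact absurd rfl ha
  | h₂ x hx =>
    refine ⟨x, 1, 1, 0, by rw [mul_one], by rw [mul_one, pow_zero], fun p hp _ hpx => ?_⟩
    exact hp.not_isUnit (isUnit_of_dvd_unit hpx hx)
  | h₃ a p ha0 hp ih =>
    obtain ⟨h, v, c, N, hav, hvc, hh⟩ := ih ha0
    by_cases hpτ : p ∣ τ
    · obtain ⟨d, hd⟩ := hpτ
      refine ⟨h, p * v, d * c, N + 1, by rw [hav]; ring, ?_, hh⟩
      rw [pow_succ, ← hvc, hd]; ring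
    · refine ⟨p * h, v, c, N, by rw [hav]; ring, hvc, fun p' hp' hp'τ hdvd => ?_⟩
      rcases hp'.dvd_or_dvd hdvd with h1 | h1
      · exact hpτ ((hp'.irreducible.dvd_symm hp.irreducible h1).trans hp'τ)
      · exact hh p' hp' hp'τ h1

/-- In the fraction field `F` of a unique factorization domain `R`: if for every prime element
`p` NOT dividing `τ` the element `f` is, up to an `m`-th power, a unit of the localization at
`p`, then `f` is, up to an `m`-th power, a unit of `R[1/τ]`. -/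
theorem s36lr_ufd {R F : Type*} [CommRing R] [IsDomain R] [UniqueFactorizationMonoid R]
    [Field F] [Algebra R F] [IsFractionRing R F] (τ : R) (m : ℕ) (hm : 0 < m) (f : F)
    (hf : f ≠ 0)
    (h : ∀ p : R, Prime p → ¬ p ∣ τ → ∃ w : F, ∃ a b : R, ¬ p ∣ a ∧ ¬ p ∣ b ∧
      f * w ^ m * algebraMap R F b = algebraMap R F a) :
    ∃ (w : F) (A B : R) (k l : ℕ), w ≠ 0 ∧
      f * w ^ m * algebraMap R F τ ^ k = algebraMap R F A ∧
      algebraMap R F B * (f * w ^ m) = algebraMap R F τ ^ l := by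
  have hinj : Function.Injective (algebraMap R F) := IsFractionRing.injective R F
  obtain ⟨a, b, hb, rfl⟩ := IsFractionRing.div_surjective (A := R) f
  have hb0 : b ≠ 0 := nonZeroDivisors.ne_zero hb
  have ha0 : a ≠ 0 := by
    rintro rfl
    rw [map_zero, zero_div] at hf
    exact hf rfl
  obtain ⟨ah, av, ac, N, hah, hav, hahτ⟩ := s36lr_split τ a ha0
  obtain ⟨bh, bv, bc, N', hbh, hbv, hbhτ⟩ := s36lr_split τ b hb0
  have hne : ∀ z : R, z ≠ 0 → algebraMap R F z ≠ 0 := fun z hz =>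
    (map_ne_zero_iff _ hinj).mpr hz
  have hah0 : ah ≠ 0 := fun h0 => ha0 (by rw [hah, h0, zero_mul])
  have hav0 : av ≠ 0 := fun h0 => ha0 (by rw [hah, h0, mul_zero])
  have hbh0 : bh ≠ 0 := fun h0 => hb0 (by rw [hbh, h0, zero_mul])
  have hbv0 : bv ≠ 0 := fun h0 => hb0 (by rw [hbh, h0, mul_zero])
  have hnotdvd : ∀ p : R, Prime p → ¬ p ∣ τ → ∀ v c : R, ∀ n : ℕ, v * c = τ ^ n → ¬ p ∣ v := by
    intro p hp hpτ v c n hvc hpv
    exact hpτ (hp.dvd_of_dvd_pow (hvc ▸ Dvd.dvd.mul_right hpv c))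
  -- the horizontal part
  set fh : F := algebraMap R F ah / algebraMap R F bh with hfh
  have hfh0 : fh ≠ 0 := div_ne_zero (hne _ hah0) (hne _ hbh0)
  have hfeq : algebraMap R F a / algebraMap R F b =
      fh * algebraMap R F av / algebraMap R F bv := by
    rw [hfh, hah, hbh, map_mul, map_mul]
    have := hne _ hbh0
    have := hne _ hbv0
    field_simp
  obtain ⟨w, u, hwu⟩ := cz_unit_mul_pow (R := R) m hm fh hfh0 (by
    intro p hp
    by_cases hpτ : p ∣ τ
    · refine ⟨1, ah, bh, hahτ p hp hpτ, hbhτ p hp hpτ, ?_⟩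
      rw [one_pow, mul_one, hfh, div_mul_cancel₀ _ (hne _ hbh0)]
    · obtain ⟨w, c, d, hc, hd, hcd⟩ := h p hp hpτ
      refine ⟨w, c * bv, d * av, fun hdvd => ?_, fun hdvd => ?_, ?_⟩
      · rcases hp.dvd_or_dvd hdvd with h1 | h1
        · exact hc h1
        · exact hnotdvd p hp hpτ bv bc N' hbv h1
      · rcases hp.dvd_or_dvd hdvd with h1 | h1
        · exact hd h1
        · exact hnotdvd p hp hpτ av ac N hav h1
      · rw [map_mul, map_mul, ← hcd, hfeq]
        have := hne _ hbv0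
        field_simp)
  have hw0 : w ≠ 0 := by
    rintro rfl
    rw [zero_pow hm.ne', mul_zero] at hwu
    exact u.ne_zero (hinj (by rw [← hwu, map_zero]))
  have hu1 : algebraMap R F (u : R) * algebraMap R F ((u⁻¹ : Rˣ) : R) = 1 := by
    rw [← map_mul, Units.mul_inv, map_one]
  have hτN : algebraMap R F τ ^ N = algebraMap R F av * algebraMap R F ac := by
    rw [← map_pow, ← hav, map_mul]
  have hτN' : algebraMap R F τ ^ N' = algebraMap R F bv * algebraMap R F bc := by
    rw [← map_pow, ← hbv, map_mul]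
  have hfw : algebraMap R F a / algebraMap R F b * w ^ m =
      algebraMap R F (u : R) * algebraMap R F av / algebraMap R F bv := by
    rw [hfeq, ← hwu]
    have := hne _ hbv0
    field_simp
  refine ⟨w, (u : R) * av * bc, ((u⁻¹ : Rˣ) : R) * bv * ac, N', N, hw0, ?_, ?_⟩
  · rw [hfw, hτN', map_mul, map_mul]
    have := hne _ hbv0
    field_simp
  · rw [hfw, hτN, map_mul, map_mul]
    have := hne _ hbv0
    have e : algebraMap R F ((u⁻¹ : Rˣ) : R) * algebraMap R F bv * algebraMap R F ac *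
        (algebraMap R F (u : R) * algebraMap R F av / algebraMap R F bv) =
        (algebraMap R F (u : R) * algebraMap R F ((u⁻¹ : Rˣ) : R)) *
          (algebraMap R F av * algebraMap R F ac) := by
      field_simp
    rw [e, hu1, one_mul]

/-- **[LOC-REG], local form.**  Let `n` be a maximal ideal of the noetherian domain `O` and
`x ∈ n` an element which is prime in `O_n` and such that every ideal contained in `n` is
generated by one element modulo `x`, locally at `n` (hypothesis `hloc`: `O_n / x` is a discrete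
valuation ring or a field).  Let `τ ≠ 0`.  If `f ∈ F` is a unit times an `m`-th power in every
principal valuation ring of `F` containing `O` and `τ⁻¹`, then, locally at `n`, `f` is an `m`-th
power times a unit of `O_n[1/τ]`. -/
theorem s36lr_local {O F : Type*} [CommRing O] [IsDomain O] [IsNoetherianRing O] [Field F]
    [Algebra O F] [IsFractionRing O F]
    (τ : O) (hτ0 : τ ≠ 0) (n : Ideal O) [hn : n.IsMaximal] (x : O) (hxn : x ∈ n)
    (hxRprime : Prime (algebraMap O (Localization.AtPrime n) x))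
    (hloc : ∀ P : Ideal O, P ≤ n → ∃ z ∈ P, ∀ y ∈ P, ∃ s, s ∉ n ∧ ∃ r r' : O,
      s * y = z * r + x * r')
    (m : ℕ) (hm : 0 < m) (f : F) (hf0 : f ≠ 0)
    (hord : ∀ V : ValuationSubring F, (∀ x : O, algebraMap O F x ∈ V) →
        (algebraMap O F τ)⁻¹ ∈ V → IsPrincipalIdealRing V →
        ∃ w : F, w ≠ 0 ∧ f * w ^ m ∈ V ∧ (f * w ^ m)⁻¹ ∈ V) :
    ∃ (w : F) (a b s s' : O) (k l : ℕ), w ≠ 0 ∧ s ∉ n ∧ s' ∉ n ∧
      f * w ^ m * algebraMap O F s * algebraMap O F τ ^ k = algebraMap O F a ∧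
      algebraMap O F b * (f * w ^ m) = algebraMap O F s' * algebraMap O F τ ^ l := by
  let R := Localization.AtPrime n
  let _ : Algebra R F := IsLocalization.localizationAlgebraOfSubmonoidLe R F n.primeCompl
    (nonZeroDivisors O) n.primeCompl_le_nonZeroDivisors
  have : IsScalarTower O R F := IsLocalization.localization_isScalarTower_of_submonoid_le R F
    n.primeCompl (nonZeroDivisors O) n.primeCompl_le_nonZeroDivisors
  have : IsFractionRing R F :=
    IsFractionRing.isFractionRing_of_isDomain_of_isLocalization n.primeCompl R F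
  have : IsDomain R := IsLocalization.isDomain_localization n.primeCompl_le_nonZeroDivisors
  have : IsNoetherianRing R := IsLocalization.isNoetherianRing n.primeCompl R inferInstance
  have hinjR : Function.Injective (algebraMap O R) :=
    IsLocalization.injective R n.primeCompl_le_nonZeroDivisors
  have hinj : Function.Injective (algebraMap O F) := IsFractionRing.injective O F
  set xR : R := algebraMap O R x with hxR
  set τR : R := algebraMap O R τ with hτR
  have hxmax : xR ∈ IsLocalRing.maximalIdeal R :=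
    (IsLocalization.AtPrime.to_map_mem_maximal_iff R n x).mpr hxn
  have hτR0 : τR ≠ 0 := fun h0 => hτ0 (hinjR (by rw [← hτR, h0, map_zero]))
  have hτF : algebraMap O F τ ≠ 0 := (map_ne_zero_iff _ hinj).mpr hτ0
  have : UniqueFactorizationMonoid R := by
    refine cz_ufd xR hxmax hxRprime ?_
    intro P hP hxP
    have hP0 : P.comap (algebraMap O R) ≤ n := by
      intro y hy
      have h1 : algebraMap O R y ∈ IsLocalRing.maximalIdeal R :=
        IsLocalRing.le_maximalIdeal hP.ne_top hy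
      exact (IsLocalization.AtPrime.to_map_mem_maximal_iff R n y).mp h1
    obtain ⟨z, hz, hzy⟩ := hloc _ hP0
    refine ⟨algebraMap O R z, hz, ?_⟩
    intro t ht
    obtain ⟨y, s', rfl⟩ := IsLocalization.exists_mk'_eq n.primeCompl t
    have hy : y ∈ P.comap (algebraMap O R) := by
      rw [Ideal.mem_comap]
      have h1 := P.mul_mem_right (algebraMap O R s') ht
      rwa [IsLocalization.mk'_spec] at h1
    obtain ⟨s, hs, r, r', hsy⟩ := hzy y hy
    have h1 : algebraMap O R s * algebraMap O R y ∈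
        Ideal.span {algebraMap O R z} ⊔ Ideal.span {xR} := by
      rw [← map_mul, hsy, map_add, map_mul, map_mul]
      exact Submodule.add_mem_sup (Ideal.mul_mem_right _ _ (Ideal.mem_span_singleton_self _))
        (Ideal.mul_mem_right _ _ (Ideal.mem_span_singleton_self _))
    have hsu : IsUnit (algebraMap O R s) := IsLocalization.map_units R (⟨s, hs⟩ : n.primeCompl)
    have h2 : algebraMap O R y ∈ Ideal.span {algebraMap O R z} ⊔ Ideal.span {xR} :=
      (Ideal.unit_mul_mem_iff_mem _ hsu).mp h1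
    have hs'u : IsUnit (algebraMap O R s') := IsLocalization.map_units R s'
    have h3 : IsLocalization.mk' R y s' * algebraMap O R s' ∈
        Ideal.span {algebraMap O R z} ⊔ Ideal.span {xR} := by
      rw [IsLocalization.mk'_spec]; exact h2
    exact (Ideal.mul_unit_mem_iff_mem _ hs'u).mp h3
  have hinjRF : Function.Injective (algebraMap R F) := IsFractionRing.injective R F
  obtain ⟨w, A, B, k, l, hw0, hA, hB⟩ := s36lr_ufd (R := R) τR m hm f hf0 (by
    intro p hp hpτ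
    obtain ⟨w, hw0, hw1, hw2⟩ := hord (cz_valSubring R F p hp)
      (fun x => ⟨algebraMap O R x, 1, hp.not_dvd_one, by
        rw [map_one, mul_one, ← IsScalarTower.algebraMap_apply]⟩)
      ⟨1, τR, hpτ, by
        rw [map_one, hτR, ← IsScalarTower.algebraMap_apply, inv_mul_cancel₀ hτF]⟩
      (cz_valSubring_pid R F p hp)
    obtain ⟨a1, b1, hb1, h1⟩ := hw1
    obtain ⟨a2, b2, hb2, h2⟩ := hw2
    refine ⟨w, a1, b1, ?_, hb1, h1⟩
    intro hpa1
    have hne : f * w ^ m ≠ 0 := mul_ne_zero hf0 (pow_ne_zero _ hw0)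
    have h3 : b1 * b2 = a1 * a2 := by
      apply hinjRF
      rw [map_mul, map_mul, ← h1, ← h2]
      field_simp
    rcases hp.dvd_or_dvd (h3 ▸ Dvd.dvd.mul_right hpa1 a2 : p ∣ b1 * b2) with h | h
    · exact hb1 h
    · exact hb2 h)
  obtain ⟨a, s, hAmk⟩ := IsLocalization.exists_mk'_eq n.primeCompl A
  obtain ⟨b, s', hBmk⟩ := IsLocalization.exists_mk'_eq n.primeCompl B
  have hτRF : algebraMap R F τR = algebraMap O F τ := by
    rw [hτR, ← IsScalarTower.algebraMap_apply]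
  rw [hτRF] at hA hB
  refine ⟨w, a, b, (s : O), (s' : O), k, l, hw0, s.2, s'.2, ?_, ?_⟩
  · have e : f * w ^ m * algebraMap O F (s : O) * algebraMap O F τ ^ k =
        f * w ^ m * algebraMap O F τ ^ k * algebraMap O F (s : O) := by ring
    rw [e, hA, ← hAmk, IsScalarTower.algebraMap_apply O R F (s : O), ← map_mul,
      IsLocalization.mk'_spec, ← IsScalarTower.algebraMap_apply]
  · have e : algebraMap O F b = algebraMap R F B * algebraMap O F (s' : O) := by
      rw [← hBmk, IsScalarTower.algebraMap_apply O R F (s' : O), ← map_mul,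
        IsLocalization.mk'_spec, ← IsScalarTower.algebraMap_apply]
    rw [e, mul_right_comm, hB, mul_comm]

/-- **[LOC-REG].**  Let `O` be a noetherian domain with fraction field `F`, `n` a maximal ideal,
`p₁ ≤ n` a prime ideal with `O ⧸ p₁` Dedekind which is principal locally at `n`:
`p₁ O_n = x O_n` (`x ≠ 0`).  Let `τ ≠ 0`.  If `f ∈ F` is a unit times an `m`-th power in every
principal valuation ring of `F` containing `O` and `τ⁻¹`, then locally at `n` the function `f`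
is an `m`-th power times a unit of `O_n[1/τ]`. -/
theorem s36lr_main {O F : Type*} [CommRing O] [IsDomain O] [IsNoetherianRing O] [Field F]
    [Algebra O F] [IsFractionRing O F]
    (τ : O) (hτ0 : τ ≠ 0) (n : Ideal O) [hn : n.IsMaximal]
    (p₁ : Ideal O) [hp₁ : p₁.IsPrime] [IsDedekindDomain (O ⧸ p₁)] (hp₁n : p₁ ≤ n)
    (x : O) (hx0 : x ≠ 0) (hxp : x ∈ p₁) (hp₁x : ∀ y ∈ p₁, ∃ s, s ∉ n ∧ x ∣ s * y)
    (m : ℕ) (hm : 0 < m) (f : F) (hf0 : f ≠ 0)
    (hord : ∀ V : ValuationSubring F, (∀ x : O, algebraMap O F x ∈ V) →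
        (algebraMap O F τ)⁻¹ ∈ V → IsPrincipalIdealRing V →
        ∃ w : F, w ≠ 0 ∧ f * w ^ m ∈ V ∧ (f * w ^ m)⁻¹ ∈ V) :
    ∃ (w : F) (a b s s' : O) (k l : ℕ), w ≠ 0 ∧ s ∉ n ∧ s' ∉ n ∧
      f * w ^ m * algebraMap O F s * algebraMap O F τ ^ k = algebraMap O F a ∧
      algebraMap O F b * (f * w ^ m) = algebraMap O F s' * algebraMap O F τ ^ l :=
  s36lr_local τ hτ0 n x (hp₁n hxp) (lh6_prime_of_ideal x hx0 n p₁ hp₁n hxp hp₁x)
    (fun P hP => lh6_hloc x p₁ n hp₁n hp₁x P hP) m hm f hf0 hord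

/-! ### [LOC-NAK]: principal primes -/

/-- **[LOC-NAK].**  Let `R` be a noetherian local ring and `x` an element of its maximal ideal
such that `R / x R` is a principal ideal ring (e.g. a discrete valuation ring).  Then every
prime ideal of `R` not containing `x` is principal. -/
theorem s36lr_prime_principal {R : Type*} [CommRing R] [IsNoetherianRing R] [IsLocalRing R]
    (x : R) (hx : x ∈ IsLocalRing.maximalIdeal R)
    [IsPrincipalIdealRing (R ⧸ Ideal.span {x})]
    (P : Ideal R) [hP : P.IsPrime] (hxP : x ∉ P) : ∃ z ∈ P, P = Ideal.span {z} := by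
  set mk := Ideal.Quotient.mk (Ideal.span {x}) with hmk
  have hsurj : Function.Surjective mk := Ideal.Quotient.mk_surjective
  obtain ⟨ξ, hξ⟩ := (IsPrincipalIdealRing.principal (P.map mk)).principal
  have hξmem : ξ ∈ P.map mk := by
    rw [hξ]; exact Submodule.mem_span_singleton_self ξ
  obtain ⟨z, hzP, rfl⟩ := (Ideal.mem_map_iff_of_surjective mk hsurj).mp hξmem
  refine ⟨z, hzP, cz_prime_eq_span x hx P hxP z hzP ?_⟩
  intro t ht
  have h1 : mk t ∈ P.map mk := Ideal.mem_map_of_mem _ ht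
  rw [hξ] at h1
  obtain ⟨c, hc⟩ := Submodule.mem_span_singleton.mp h1
  obtain ⟨c', rfl⟩ := hsurj c
  have h2 : mk (t - c' * z) = 0 := by
    rw [map_sub, map_mul, ← hc, smul_eq_mul, sub_self]
  rw [hmk, Ideal.Quotient.eq_zero_iff_mem] at h2
  have h3 : t = c' * z + (t - c' * z) := by ring
  rw [h3]
  exact Submodule.add_mem_sup (Ideal.mul_mem_left _ _ (Ideal.mem_span_singleton_self z)) h2

/-! ### The conclusion in the form `S34Loc` -/

section Chart

variable {A F : Type*} [CommRing A] [Field F] [Algebra A F]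

/-- (LOC) at a closed point `𝔫` of the chart `O` through which there passes a component `p₁`
with `O ⧸ p₁` Dedekind which is principal locally at `𝔫` (`p₁ O_𝔫 = x O_𝔫`). -/
theorem s36lr_loc (τ : A) (hτ0 : algebraMap A F τ ≠ 0) (O : Subalgebra A F)
    [IsNoetherianRing ↥O] (hfrac : ∀ x : F, ∃ a ∈ O, ∃ s ∈ O, s ≠ 0 ∧ x * s = a)
    (𝔫 : Ideal ↥O) [𝔫.IsMaximal] (p₁ : Ideal ↥O) [p₁.IsPrime] [IsDedekindDomain (↥O ⧸ p₁)]
    (hp₁𝔫 : p₁ ≤ 𝔫) (x : ↥O) (hx0 : x ≠ 0) (hxp : x ∈ p₁)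
    (hp₁x : ∀ y ∈ p₁, ∃ s, s ∉ 𝔫 ∧ x ∣ s * y)
    (m : ℕ) (hm : 0 < m) (f₀ : F) (hf₀ : f₀ ≠ 0)
    (hord : ∀ V : ValuationSubring F, (∀ a : A, algebraMap A F a ∈ V) →
        (algebraMap A F τ)⁻¹ ∈ V → IsPrincipalIdealRing V →
        ∃ w : F, w ≠ 0 ∧ f₀ * w ^ m ∈ V ∧ (f₀ * w ^ m)⁻¹ ∈ V) :
    S34Loc τ m O f₀ 𝔫 := by
  have : FaithfulSMul ↥O F :=
    (faithfulSMul_iff_algebraMap_injective ↥O F).mpr Subtype.val_injective
  have : IsFractionRing ↥O F := IsFractionRing.of_field ↥O F (fun z => by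
    obtain ⟨a, ha, s, hs, hs0, h⟩ := hfrac z
    refine ⟨⟨a, ha⟩, ⟨s, hs⟩, ?_⟩
    show z = a / s
    rw [eq_div_iff hs0]; exact h)
  have hτO0 : algebraMap A ↥O τ ≠ 0 := fun h0 => hτ0 (congrArg Subtype.val h0)
  have hmapτ : algebraMap ↥O F (algebraMap A ↥O τ) = algebraMap A F τ := rfl
  obtain ⟨w, a, b, s, s', k, l, hw, hs, hs', h1, h2⟩ :=
    s36lr_main (O := ↥O) (F := F) (algebraMap A ↥O τ) hτO0 𝔫 p₁ hp₁𝔫 x hx0 hxp hp₁x m hm f₀ hf₀
      (fun V hOV hτV hV => hord V (fun c => hOV (algebraMap A ↥O c)) (by rwa [hmapτ] at hτV) hV)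
  rw [hmapτ] at h1 h2
  have h1' : f₀ * w ^ m * (s : F) * algebraMap A F τ ^ k = (a : F) := h1
  have h2' : (b : F) * (f₀ * w ^ m) = (s' : F) * algebraMap A F τ ^ l := h2
  have hwm : w ^ m ≠ 0 := pow_ne_zero m hw
  refine ⟨w⁻¹, inv_ne_zero hw, a, b, s, s', k, l, hs, hs', ?_, ?_⟩
  · rw [← h1', inv_pow]
    field_simp
  · have e : (w⁻¹) ^ m * (s' : F) * algebraMap A F τ ^ l =
        (w ^ m)⁻¹ * ((s' : F) * algebraMap A F τ ^ l) := by
      rw [inv_pow]; ring
    rw [e, ← h2']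
    field_simp

/-- (LOC) at a closed point `𝔫` of the chart `O` lying on the component cut out by the
valuation ring `V` (with Dedekind coordinate ring, hypothesis `hD`), when that component is
principal locally at `𝔫`, generated by `x ∈ O`. -/
theorem s36lr_loc_val (τ : A) (hτ0 : algebraMap A F τ ≠ 0) (O : Subalgebra A F)
    [IsNoetherianRing ↥O] (hfrac : ∀ x : F, ∃ a ∈ O, ∃ s ∈ O, s ≠ 0 ∧ x * s = a)
    (V : ValuationSubring F) (hOV : ∀ x ∈ O, x ∈ V)
    (hD : ∀ 𝔭 : Ideal ↥O, (∀ x : ↥O, x ∈ 𝔭 ↔ (x : F) ∈ V.nonunits) →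
      IsDedekindDomain (↥O ⧸ 𝔭))
    (m : ℕ) (hm : 0 < m)
    (𝔫 : Ideal ↥O) (h𝔫 : 𝔫.IsMaximal)
    (h1 : ∀ x : ↥O, (x : F) ∈ V.nonunits → x ∈ 𝔫)
    (x : ↥O) (hx0 : x ≠ 0) (hxV : (x : F) ∈ V.nonunits)
    (hprin : ∀ y : ↥O, (y : F) ∈ V.nonunits → ∃ s : ↥O, s ∉ 𝔫 ∧ x ∣ s * y)
    (f : F) (hf : f ≠ 0)
    (hord : ∀ V : ValuationSubring F, (∀ a : A, algebraMap A F a ∈ V) →
        (algebraMap A F τ)⁻¹ ∈ V → IsPrincipalIdealRing V →
        ∃ u : F, u ≠ 0 ∧ f * u ^ m ∈ V ∧ (f * u ^ m)⁻¹ ∈ V) :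
    S34Loc τ m O f 𝔫 := by
  classical
  let φ₁ : ↥O →+* ↥V :=
    { toFun := fun x => ⟨(x : F), hOV x x.2⟩
      map_one' := rfl
      map_mul' := fun _ _ => rfl
      map_zero' := rfl
      map_add' := fun _ _ => rfl }
  let p₁ : Ideal ↥O := Ideal.comap φ₁ (IsLocalRing.maximalIdeal ↥V)
  have hp₁ : ∀ x : ↥O, x ∈ p₁ ↔ (x : F) ∈ V.nonunits := by
    intro x
    rw [ValuationSubring.mem_nonunits_iff_exists_mem_maximalIdeal]
    constructor
    · intro hx
      exact ⟨hOV x x.2, hx⟩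
    · rintro ⟨_, hx⟩
      exact hx
  have hDp₁ : IsDedekindDomain (↥O ⧸ p₁) := hD p₁ hp₁
  have hprime₁ : p₁.IsPrime := (Ideal.Quotient.isDomain_iff_prime p₁).mp inferInstance
  exact s36lr_loc τ hτ0 O hfrac 𝔫 p₁ (fun y hy => h1 y ((hp₁ y).mp hy)) x hx0
    ((hp₁ x).mpr hxV) (fun y hy => hprin y ((hp₁ y).mp hy)) m hm f hf hord

/-- `s36lr_loc_val` with the local generator `x` of the component given as an element of `O_𝔫`
in fraction form (`x * s = a` with `s ∉ 𝔫`), and local principality in fraction form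
(`y * c = x * b` with `c ∉ 𝔫`): the shape of the node data of `S35.S35Node`. -/
theorem s36lr_loc_frac (τ : A) (hτ0 : algebraMap A F τ ≠ 0) (O : Subalgebra A F)
    [IsNoetherianRing ↥O] (hfrac : ∀ x : F, ∃ a ∈ O, ∃ s ∈ O, s ≠ 0 ∧ x * s = a)
    (V : ValuationSubring F) (hOV : ∀ x ∈ O, x ∈ V)
    (hD : ∀ 𝔭 : Ideal ↥O, (∀ x : ↥O, x ∈ 𝔭 ↔ (x : F) ∈ V.nonunits) →
      IsDedekindDomain (↥O ⧸ 𝔭))
    (m : ℕ) (hm : 0 < m)
    (𝔫 : Ideal ↥O) (h𝔫 : 𝔫.IsMaximal)
    (h1 : ∀ x : ↥O, (x : F) ∈ V.nonunits → x ∈ 𝔫)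
    (x : F) (hx0 : x ≠ 0) (hxV : x ∈ V.nonunits)
    (hxO : ∃ a s : ↥O, s ∉ 𝔫 ∧ x * (s : F) = (a : F))
    (hprin : ∀ y : ↥O, (y : F) ∈ V.nonunits →
      ∃ b c : ↥O, c ∉ 𝔫 ∧ (y : F) * (c : F) = x * (b : F))
    (f : F) (hf : f ≠ 0)
    (hord : ∀ V : ValuationSubring F, (∀ a : A, algebraMap A F a ∈ V) →
        (algebraMap A F τ)⁻¹ ∈ V → IsPrincipalIdealRing V →
        ∃ u : F, u ≠ 0 ∧ f * u ^ m ∈ V ∧ (f * u ^ m)⁻¹ ∈ V) :
    S34Loc τ m O f 𝔫 := by
  obtain ⟨a, s, hs, hxs⟩ := hxO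
  have hs0 : (s : F) ≠ 0 := fun h0 => hs (by
    have : s = 0 := Subtype.ext h0
    rw [this]; exact 𝔫.zero_mem)
  have ha0 : a ≠ 0 := by
    rintro rfl
    rw [ZeroMemClass.coe_zero] at hxs
    exact (mul_ne_zero hx0 hs0) hxs
  have haV : (a : F) ∈ V.nonunits := by
    rw [← hxs]
    exact cz_nonunits_mul V hxV (hOV s s.2)
  refine s36lr_loc_val τ hτ0 O hfrac V hOV hD m hm 𝔫 h𝔫 h1 a ha0 haV (fun y hy => ?_) f hf hord
  obtain ⟨b, c, hc, hyc⟩ := hprin y hy
  refine ⟨c * s, fun h => ?_, b, ?_⟩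
  · rcases h𝔫.isPrime.mem_or_mem h with h2 | h2
    · exact hc h2
    · exact hs h2
  · apply Subtype.ext
    show (c : F) * (s : F) * (y : F) = (a : F) * (b : F)
    rw [← hxs]
    have : (c : F) * (s : F) * (y : F) = (y : F) * (c : F) * (s : F) := by ring
    rw [this, hyc]; ring

/-- **Thickness one gives principal components.**  Let the special fibre of the chart `O` be
reduced with the two components cut out by `V₁`, `V₂` (`hVτ`).  At a prime `𝔫`, let `y ∈ O_𝔫`
vanish on the second component and let `x * y = τ * (unit of O_𝔫)`.  Then the first component is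
generated by `x` locally at `𝔫` (fraction form). -/
theorem s36lr_prin_of_unit (τ : A) (O : Subalgebra A F) (V₁ V₂ : ValuationSubring F)
    (hOV : ∀ z ∈ O, z ∈ V₁ ∧ z ∈ V₂)
    (hVτ : ∀ z ∈ O, z ∈ V₁.nonunits → z ∈ V₂.nonunits → ∃ c ∈ O, z = algebraMap A F τ * c)
    (𝔫 : Ideal ↥O) (h𝔫 : 𝔫.IsPrime)
    (x y : F) (hy0 : y ≠ 0) (hyV₂ : y ∈ V₂.nonunits)
    (hyO : ∃ a s : ↥O, s ∉ 𝔫 ∧ y * (s : F) = (a : F))
    (hΨ : ∃ a s : ↥O, a ∉ 𝔫 ∧ s ∉ 𝔫 ∧ x * y * (s : F) = algebraMap A F τ * (a : F)) :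
    ∀ z : ↥O, (z : F) ∈ V₁.nonunits → ∃ b c : ↥O, c ∉ 𝔫 ∧ (z : F) * (c : F) = x * (b : F) := by
  intro z hz
  obtain ⟨ay, sy, hsy, hy⟩ := hyO
  obtain ⟨aΨ, sΨ, haΨ, hsΨ, hΨ'⟩ := hΨ
  obtain ⟨c, hc, hzc⟩ := hVτ ((z : F) * (ay : F)) (O.mul_mem z.2 ay.2)
    (cz_nonunits_mul V₁ hz (hOV ay ay.2).1)
    (by
      rw [mul_comm, ← hy]
      exact cz_nonunits_mul V₂ (cz_nonunits_mul V₂ hyV₂ (hOV sy sy.2).2) (hOV z z.2).2)
  refine ⟨⟨c, hc⟩ * sΨ, sy * aΨ, fun h => ?_, ?_⟩
  · rcases h𝔫.mem_or_mem h with h2 | h2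
    · exact hsy h2
    · exact haΨ h2
  · show (z : F) * ((sy : F) * (aΨ : F)) = x * (c * (sΨ : F))
    have h1 : y * ((z : F) * ((sy : F) * (aΨ : F))) = y * (x * (c * (sΨ : F))) := by
      have e1 : y * ((z : F) * ((sy : F) * (aΨ : F))) =
          (z : F) * (y * (sy : F)) * (aΨ : F) := by ring
      have e2 : y * (x * (c * (sΨ : F))) = x * y * (sΨ : F) * c := by ring
      rw [e1, e2, hy, hzc, hΨ']
      ring
    exact mul_left_cancel₀ hy0 h1

/-- **(LOC) at a crossing point of thickness one.**  Chart `O` with reduced special fibre, the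
two components cut out by `V₁`, `V₂`; `𝔫` a closed point on the first component (`h1`); `x`, `y`
local equations of the two components in `O_𝔫` with `x * y = τ * (unit of O_𝔫)`.  Then (LOC)
holds at `𝔫` for every `f` with `hord`. -/
theorem s36lr_loc_node (τ : A) (hτ0 : algebraMap A F τ ≠ 0) (O : Subalgebra A F)
    [IsNoetherianRing ↥O] (hfrac : ∀ x : F, ∃ a ∈ O, ∃ s ∈ O, s ≠ 0 ∧ x * s = a)
    (V₁ V₂ : ValuationSubring F) (hOV : ∀ x ∈ O, x ∈ V₁ ∧ x ∈ V₂)
    (hVτ : ∀ z ∈ O, z ∈ V₁.nonunits → z ∈ V₂.nonunits → ∃ c ∈ O, z = algebraMap A F τ * c)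
    (hD : ∀ 𝔭 : Ideal ↥O, (∀ x : ↥O, x ∈ 𝔭 ↔ (x : F) ∈ V₁.nonunits) →
      IsDedekindDomain (↥O ⧸ 𝔭))
    (m : ℕ) (hm : 0 < m)
    (𝔫 : Ideal ↥O) (h𝔫 : 𝔫.IsMaximal)
    (h1 : ∀ x : ↥O, (x : F) ∈ V₁.nonunits → x ∈ 𝔫)
    (x y : F) (hx0 : x ≠ 0) (hxV₁ : x ∈ V₁.nonunits) (hy0 : y ≠ 0) (hyV₂ : y ∈ V₂.nonunits)
    (hxO : ∃ a s : ↥O, s ∉ 𝔫 ∧ x * (s : F) = (a : F))
    (hyO : ∃ a s : ↥O, s ∉ 𝔫 ∧ y * (s : F) = (a : F))
    (hΨ : ∃ a s : ↥O, a ∉ 𝔫 ∧ s ∉ 𝔫 ∧ x * y * (s : F) = algebraMap A F τ * (a : F))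
    (f : F) (hf : f ≠ 0)
    (hord : ∀ V : ValuationSubring F, (∀ a : A, algebraMap A F a ∈ V) →
        (algebraMap A F τ)⁻¹ ∈ V → IsPrincipalIdealRing V →
        ∃ u : F, u ≠ 0 ∧ f * u ^ m ∈ V ∧ (f * u ^ m)⁻¹ ∈ V) :
    S34Loc τ m O f 𝔫 :=
  s36lr_loc_frac τ hτ0 O hfrac V₁ (fun z hz => (hOV z hz).1) hD m hm 𝔫 h𝔫 h1 x hx0 hxV₁ hxO
    (s36lr_prin_of_unit τ O V₁ V₂ hOV hVτ 𝔫 h𝔫.isPrime x y hy0 hyV₂ hyO hΨ) f hf hord

end Chart

end Fermat.Agent.S36
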