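import Mathlib
import Fermat.Agent.S34.KrullInt
import Fermat.Agent.S34.KrullSub
import Fermat.Agent.S36.LocReg

/-!
# S36, leaf WC-PT: principal components at the closed points of a three-component model

Setting: a noetherian integrally closed chart `O` of the function field `F`, with three
"vertical" valuation rings `W₁`, `W₂`, `W₃ ⊇ O` cutting out the (possibly non-reduced) fibre
`τ = 0`: `O ∩ 𝔪_{W₁} ∩ 𝔪_{W₂} ∩ 𝔪_{W₃} ⊆ rad (τ O)` (`hred`).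

* `s36wc_prin3_ring`, `s36wc_prin3`: **principality criterion.**  Let `𝔫` be a prime of `O` and
  `ξ ∈ F` a uniformiser of `W₁` (`y ∈ 𝔪_{W₁} ⇒ y / ξ ∈ W₁`) such that, for each of the other two
  components, either `ξ` is a unit there (`ξ⁻¹ ∈ Wᵢ`) or the component does not pass through
  `𝔫`, and `ξ` has no zero along the horizontal principal ideal valuation rings through `𝔫`.
  Then the centre of `W₁` is generated by `ξ` locally at `𝔫`: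
  every `z ∈ O ∩ 𝔪_{W₁}` is `ξ * b / c` with `b, c ∈ O`, `c ∉ 𝔫`.
  This covers: points on one component only (`ξ = τ` or `ξ = z`, the uniformiser of the
  non-reduced component) and triple points (`ξ` the pull-back of a local equation at the
  regular node below).
* `s36wc_loc3`: hence (LOC) `= S34Loc τ m O f 𝔫` for every `f` with `hord` (via `s36lr_loc_frac`),
  given the Dedekind coordinate ring `hD` of the component `W₁`.
* `s36wc_hred3`: the hypothesis `hred` from the divisibility property of the chart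
  (`x / τ ∈ W₁ ∩ W₂ ∩ W₃ ⇒ x / τ ∈ O`) when `τ` is a uniformiser of `W₁`, `W₂` and
  `x ∈ 𝔪_{W₃} ⇒ x ^ e / τ ∈ W₃`.
* `s36wc_unit_pull`: transport of "no horizontal zero" along a field embedding `φ : F₁ → F₂`
  (a degeneracy map): if `τ' * c = x' * b` in `F₁` (the shape of `s36nr_prin` applied to `τ`:
  the local equation `x'` of a component at a regular node divides `τ`), then `φ x'` is a unit
  of every valuation ring `V` of `F₂` containing `φ b`, `(φ τ')⁻¹` and `(φ c)⁻¹`.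
-/

set_option autoImplicit false

namespace Fermat.Agent.S36

open Fermat.Agent.S18 Fermat.Agent.S34

/-- **Principality criterion, ring form.** -/
theorem s36wc_prin3_ring {R F : Type*} [CommRing R] [IsDomain R] [IsNoetherianRing R]
    [IsIntegrallyClosed R] [Field F] [Algebra R F] [IsFractionRing R F]
    (W₁ W₂ W₃ : ValuationSubring F) (τ : R)
    (hW₁ : ∀ r : R, algebraMap R F r ∈ W₁) (hW₂ : ∀ r : R, algebraMap R F r ∈ W₂)
    (hW₃ : ∀ r : R, algebraMap R F r ∈ W₃)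
    (hW₁top : W₁ ≠ ⊤) (hW₂top : W₂ ≠ ⊤) (hW₃top : W₃ ≠ ⊤)
    (hred : ∀ r : R, algebraMap R F r ∈ W₁.nonunits → algebraMap R F r ∈ W₂.nonunits →
      algebraMap R F r ∈ W₃.nonunits → ∃ N : ℕ, τ ∣ r ^ N)
    (n : Ideal R) [n.IsPrime] (ξ : F)
    (hξ₁ : ∀ y ∈ W₁.nonunits, y * ξ⁻¹ ∈ W₁)
    (h₂ : ξ⁻¹ ∈ W₂ ∨ ∃ r : R, algebraMap R F r ∈ W₂.nonunits ∧ r ∉ n)
    (h₃ : ξ⁻¹ ∈ W₃ ∨ ∃ r : R, algebraMap R F r ∈ W₃.nonunits ∧ r ∉ n)
    (hhor : ∀ V : ValuationSubring F, (∀ r : R, algebraMap R F r ∈ V) →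
      (∀ s : R, s ∉ n → (algebraMap R F s)⁻¹ ∈ V) → IsPrincipalIdealRing V → V ≠ ⊤ →
      (algebraMap R F τ)⁻¹ ∈ V → ξ⁻¹ ∈ V)
    (z : R) (hz : algebraMap R F z ∈ W₁.nonunits) :
    ∃ a s : R, s ∉ n ∧ algebraMap R F z * ξ⁻¹ * algebraMap R F s = algebraMap R F a := by
  classical
  have hinj : Function.Injective (algebraMap R F) := IsFractionRing.injective R F
  by_contra hx
  obtain ⟨P, hP, V, hPn, hpid, hxV, hV⟩ := kri_exists_dvr_le n (algebraMap R F z * ξ⁻¹) hx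
  have hne0 : ∀ s : R, s ∉ P → algebraMap R F s ≠ 0 := by
    intro s hs h0
    have : s = 0 := hinj (by rw [h0, map_zero])
    exact hs (this ▸ P.zero_mem)
  have hRV : ∀ r : R, algebraMap R F r ∈ V := by
    intro r
    rw [hV]
    exact ⟨r, 1, fun h => hP.ne_top ((Ideal.eq_top_iff_one P).mpr h), by simp⟩
  have hinvV : ∀ s : R, s ∉ P → (algebraMap R F s)⁻¹ ∈ V := by
    intro s hs
    have hs0 := hne0 s hs
    rw [hV]
    refine ⟨1, s, hs, ?_⟩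
    rw [map_one]
    field_simp
  have hVtop : V ≠ ⊤ := fun htop => hxV (htop ▸ ValuationSubring.mem_top _)
  by_cases hτ : τ ∈ P
  · -- vertical: `V` is one of `W₁`, `W₂`, `W₃`
    have key : ∀ W : ValuationSubring F, (∀ r : R, algebraMap R F r ∈ W) →
        (∀ r : R, algebraMap R F r ∈ W.nonunits → r ∈ P) → V ≤ W := by
      intro W hW hc v hv
      obtain ⟨a, s, hs, h⟩ := (hV v).mp hv
      have hs0 := hne0 s hs
      have hsW : (algebraMap R F s)⁻¹ ∈ W := by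
        by_contra hcon
        apply hs
        apply hc
        rw [ValuationSubring.mem_nonunits_iff_exists_mem_maximalIdeal]
        refine ⟨hW s, ?_⟩
        rw [IsLocalRing.mem_maximalIdeal, mem_nonunits_iff]
        intro hu
        obtain ⟨w, hw⟩ := hu.exists_right_inv
        apply hcon
        have hw' : algebraMap R F s * (w : F) = 1 := congrArg Subtype.val hw
        have : (algebraMap R F s)⁻¹ = (w : F) := by
          field_simp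
          exact hw'.symm
        rw [this]
        exact w.2
      have hveq : v = algebraMap R F a * (algebraMap R F s)⁻¹ := by
        rw [← h]
        field_simp
      rw [hveq]
      exact W.mul_mem _ _ (hW a) hsW
    by_cases h1 : ∀ r : R, algebraMap R F r ∈ W₁.nonunits → r ∈ P
    · have : V = W₁ := kri_dvr_maximal V W₁ (key W₁ hW₁ h1) hpid hW₁top
      exact hxV (this ▸ hξ₁ _ hz)
    · by_cases h2 : ∀ r : R, algebraMap R F r ∈ W₂.nonunits → r ∈ P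
      · have hVW : V = W₂ := kri_dvr_maximal V W₂ (key W₂ hW₂ h2) hpid hW₂top
        rcases h₂ with h | ⟨r, hr, hrn⟩
        · exact hxV (hVW ▸ W₂.mul_mem _ _ (hW₂ z) h)
        · exact hrn (hPn (h2 r hr))
      · by_cases h3 : ∀ r : R, algebraMap R F r ∈ W₃.nonunits → r ∈ P
        · have hVW : V = W₃ := kri_dvr_maximal V W₃ (key W₃ hW₃ h3) hpid hW₃top
          rcases h₃ with h | ⟨r, hr, hrn⟩
          · exact hxV (hVW ▸ W₃.mul_mem _ _ (hW₃ z) h)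
          · exact hrn (hPn (h3 r hr))
        · exfalso
          push Not at h1 h2 h3
          obtain ⟨r₁, hr₁, hr₁P⟩ := h1
          obtain ⟨r₂, hr₂, hr₂P⟩ := h2
          obtain ⟨r₃, hr₃, hr₃P⟩ := h3
          have hm₁ : algebraMap R F (r₁ * r₂ * r₃) ∈ W₁.nonunits := by
            rw [map_mul, map_mul]
            exact kri_nonunits_mul W₁ (kri_nonunits_mul W₁ hr₁ (hW₁ r₂)) (hW₁ r₃)
          have hm₂ : algebraMap R F (r₁ * r₂ * r₃) ∈ W₂.nonunits := by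
            have e : r₁ * r₂ * r₃ = r₂ * r₁ * r₃ := by ring
            rw [e, map_mul, map_mul]
            exact kri_nonunits_mul W₂ (kri_nonunits_mul W₂ hr₂ (hW₂ r₁)) (hW₂ r₃)
          have hm₃ : algebraMap R F (r₁ * r₂ * r₃) ∈ W₃.nonunits := by
            have e : r₁ * r₂ * r₃ = r₃ * r₁ * r₂ := by ring
            rw [e, map_mul, map_mul]
            exact kri_nonunits_mul W₃ (kri_nonunits_mul W₃ hr₃ (hW₃ r₁)) (hW₃ r₂)
          obtain ⟨N, d, hd⟩ := hred _ hm₁ hm₂ hm₃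
          have hpow : (r₁ * r₂ * r₃) ^ N ∈ P := hd ▸ Ideal.mul_mem_right _ _ hτ
          have hmem : r₁ * r₂ * r₃ ∈ P := hP.mem_of_pow_mem N hpow
          rcases hP.mem_or_mem hmem with h4 | h4
          · rcases hP.mem_or_mem h4 with h5 | h5
            · exact hr₁P h5
            · exact hr₂P h5
          · exact hr₃P h4
  · -- horizontal
    have hτinv : (algebraMap R F τ)⁻¹ ∈ V := hinvV τ hτ
    exact hxV (V.mul_mem _ _ (hRV z)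
      (hhor V hRV (fun s hs => hinvV s (fun h => hs (hPn h))) hpid hVtop hτinv))

section Chart

variable {A F : Type*} [CommRing A] [Field F] [Algebra A F]

/-- **Principality criterion, chart form**: the centre of `W₁` on the chart `O` is generated by
`ξ` locally at `𝔫` (fraction form, the shape of `hprin` in `s36lr_loc_frac`). -/
theorem s36wc_prin3 (τ : A) (O : Subalgebra A F)
    [IsNoetherianRing ↥O] (hfrac : ∀ x : F, ∃ a ∈ O, ∃ s ∈ O, s ≠ 0 ∧ x * s = a)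
    (hic : ∀ x : F, IsIntegral ↥O x → x ∈ O)
    (W₁ W₂ W₃ : ValuationSubring F)
    (hO₁ : ∀ y ∈ O, y ∈ W₁) (hO₂ : ∀ y ∈ O, y ∈ W₂) (hO₃ : ∀ y ∈ O, y ∈ W₃)
    (hW₁top : W₁ ≠ ⊤) (hW₂top : W₂ ≠ ⊤) (hW₃top : W₃ ≠ ⊤)
    (hred : ∀ x ∈ O, x ∈ W₁.nonunits → x ∈ W₂.nonunits → x ∈ W₃.nonunits →
      ∃ (N : ℕ), ∃ y ∈ O, x ^ N = algebraMap A F τ * y)
    (𝔫 : Ideal ↥O) [𝔫.IsPrime] (ξ : F) (hξ0 : ξ ≠ 0)
    (hξ₁ : ∀ y ∈ W₁.nonunits, y * ξ⁻¹ ∈ W₁)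
    (h₂ : ξ⁻¹ ∈ W₂ ∨ ∃ r : ↥O, (r : F) ∈ W₂.nonunits ∧ r ∉ 𝔫)
    (h₃ : ξ⁻¹ ∈ W₃ ∨ ∃ r : ↥O, (r : F) ∈ W₃.nonunits ∧ r ∉ 𝔫)
    (hhor : ∀ V : ValuationSubring F, (∀ y ∈ O, y ∈ V) →
      (∀ s : ↥O, s ∉ 𝔫 → (s : F)⁻¹ ∈ V) → IsPrincipalIdealRing V → V ≠ ⊤ →
      (algebraMap A F τ)⁻¹ ∈ V → ξ⁻¹ ∈ V) :
    ∀ z : ↥O, (z : F) ∈ W₁.nonunits →
      ∃ b c : ↥O, c ∉ 𝔫 ∧ (z : F) * (c : F) = ξ * (b : F) := by
  intro z hz
  have := kri_sub_isFractionRing O hfrac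
  have := kri_sub_isIntegrallyClosed O hfrac hic
  obtain ⟨a, s, hs, h⟩ := s36wc_prin3_ring (R := ↥O) (F := F) W₁ W₂ W₃ (algebraMap A ↥O τ)
    (fun r => hO₁ r.1 r.2) (fun r => hO₂ r.1 r.2) (fun r => hO₃ r.1 r.2) hW₁top hW₂top hW₃top
    (fun r hr1 hr2 hr3 => by
      obtain ⟨N, y, hy, hry⟩ := hred r.1 r.2 hr1 hr2 hr3
      exact ⟨N, ⟨y, hy⟩, Subtype.ext hry⟩)
    𝔫 ξ hξ₁ h₂ h₃
    (fun V h1 h2 h3 h4 h5 => hhor V (fun y hy => h1 ⟨y, hy⟩) h2 h3 h4 h5) z hz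
  refine ⟨a, s, hs, ?_⟩
  have h' : (z : F) * ξ⁻¹ * (s : F) = (a : F) := h
  rw [← h']
  field_simp

/-- **(LOC) at a closed point of a three-component model.**  `𝔫` a closed point of the chart
`O` on the component `W₁` (`h1`), `ξ ∈ O_𝔫` (fraction form `hξO`) a uniformiser of `W₁` which is
a unit at each of the other two components passing through `𝔫` and has no zero along the
horizontal principal ideal valuation rings through `𝔫`; `hD`: the coordinate ring of the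
component `W₁` is Dedekind.  Then (LOC) holds at `𝔫` for every `f` with `hord`. -/
theorem s36wc_loc3 (τ : A) (hτ0 : algebraMap A F τ ≠ 0) (O : Subalgebra A F)
    [IsNoetherianRing ↥O] (hfrac : ∀ x : F, ∃ a ∈ O, ∃ s ∈ O, s ≠ 0 ∧ x * s = a)
    (hic : ∀ x : F, IsIntegral ↥O x → x ∈ O)
    (W₁ W₂ W₃ : ValuationSubring F)
    (hO₁ : ∀ y ∈ O, y ∈ W₁) (hO₂ : ∀ y ∈ O, y ∈ W₂) (hO₃ : ∀ y ∈ O, y ∈ W₃)
    (hW₁top : W₁ ≠ ⊤) (hW₂top : W₂ ≠ ⊤) (hW₃top : W₃ ≠ ⊤)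
    (hred : ∀ x ∈ O, x ∈ W₁.nonunits → x ∈ W₂.nonunits → x ∈ W₃.nonunits →
      ∃ (N : ℕ), ∃ y ∈ O, x ^ N = algebraMap A F τ * y)
    (hD : ∀ 𝔭 : Ideal ↥O, (∀ x : ↥O, x ∈ 𝔭 ↔ (x : F) ∈ W₁.nonunits) →
      IsDedekindDomain (↥O ⧸ 𝔭))
    (m : ℕ) (hm : 0 < m)
    (𝔫 : Ideal ↥O) (h𝔫 : 𝔫.IsMaximal)
    (h1 : ∀ x : ↥O, (x : F) ∈ W₁.nonunits → x ∈ 𝔫)
    (ξ : F) (hξ0 : ξ ≠ 0) (hξW : ξ ∈ W₁.nonunits)
    (hξO : ∃ a s : ↥O, s ∉ 𝔫 ∧ ξ * (s : F) = (a : F))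
    (hξ₁ : ∀ y ∈ W₁.nonunits, y * ξ⁻¹ ∈ W₁)
    (h₂ : ξ⁻¹ ∈ W₂ ∨ ∃ r : ↥O, (r : F) ∈ W₂.nonunits ∧ r ∉ 𝔫)
    (h₃ : ξ⁻¹ ∈ W₃ ∨ ∃ r : ↥O, (r : F) ∈ W₃.nonunits ∧ r ∉ 𝔫)
    (hhor : ∀ V : ValuationSubring F, (∀ y ∈ O, y ∈ V) →
      (∀ s : ↥O, s ∉ 𝔫 → (s : F)⁻¹ ∈ V) → IsPrincipalIdealRing V → V ≠ ⊤ →
      (algebraMap A F τ)⁻¹ ∈ V → ξ⁻¹ ∈ V)
    (f : F) (hf : f ≠ 0)
    (hord : ∀ V : ValuationSubring F, (∀ a : A, algebraMap A F a ∈ V) →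
        (algebraMap A F τ)⁻¹ ∈ V → IsPrincipalIdealRing V →
        ∃ u : F, u ≠ 0 ∧ f * u ^ m ∈ V ∧ (f * u ^ m)⁻¹ ∈ V) :
    S34Loc τ m O f 𝔫 := by
  have := h𝔫.isPrime
  exact s36lr_loc_frac τ hτ0 O hfrac W₁ hO₁ hD m hm 𝔫 h𝔫 h1 ξ hξ0 hξW hξO
    (s36wc_prin3 τ O hfrac hic W₁ W₂ W₃ hO₁ hO₂ hO₃ hW₁top hW₂top hW₃top hred 𝔫 ξ hξ0 hξ₁ h₂ h₃
      hhor) f hf hord

/-- The hypothesis `hred` of `s36wc_prin3` from the divisibility property `hdiv` of the chart: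
`τ` a uniformiser of `W₁` and `W₂`, and `x ∈ 𝔪_{W₃} ⇒ x ^ e / τ ∈ W₃` (`e ≥ 1`; `e = q - 1` on
the non-reduced component). -/
theorem s36wc_hred3 (τ : A) (O : Subalgebra A F) (W₁ W₂ W₃ : ValuationSubring F)
    (hO₁ : ∀ y ∈ O, y ∈ W₁) (hO₂ : ∀ y ∈ O, y ∈ W₂)
    (hτgen₁ : ∀ x ∈ W₁.nonunits, x * (algebraMap A F τ)⁻¹ ∈ W₁)
    (hτgen₂ : ∀ x ∈ W₂.nonunits, x * (algebraMap A F τ)⁻¹ ∈ W₂)
    (e : ℕ) (he : 0 < e)
    (hE : ∀ x ∈ W₃.nonunits, x ^ e * (algebraMap A F τ)⁻¹ ∈ W₃)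
    (hτ0 : algebraMap A F τ ≠ 0)
    (hdiv : ∀ x ∈ O, x * (algebraMap A F τ)⁻¹ ∈ W₁ → x * (algebraMap A F τ)⁻¹ ∈ W₂ →
      x * (algebraMap A F τ)⁻¹ ∈ W₃ → x * (algebraMap A F τ)⁻¹ ∈ O) :
    ∀ x ∈ O, x ∈ W₁.nonunits → x ∈ W₂.nonunits → x ∈ W₃.nonunits →
      ∃ (N : ℕ), ∃ y ∈ O, x ^ N = algebraMap A F τ * y := by
  intro x hx h1 h2 h3
  obtain ⟨k, rfl⟩ : ∃ k, e = k + 1 := ⟨e - 1, by omega⟩
  have hsplit : x ^ (k + 1) * (algebraMap A F τ)⁻¹ = x ^ k * (x * (algebraMap A F τ)⁻¹) := by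
    rw [pow_succ]; ring
  refine ⟨k + 1, x ^ (k + 1) * (algebraMap A F τ)⁻¹,
    hdiv _ (O.pow_mem hx _) ?_ ?_ (hE x h3), ?_⟩
  · rw [hsplit]
    exact W₁.mul_mem _ _ (pow_mem (hO₁ x hx) k) (hτgen₁ x h1)
  · rw [hsplit]
    exact W₂.mul_mem _ _ (pow_mem (hO₂ x hx) k) (hτgen₂ x h2)
  · field_simp

end Chart

/-- Transport of "no horizontal zero" along a field embedding: if `τ' * c = x' * b` in `F₁` with
`τ', c ≠ 0`, then `(φ x')⁻¹` lies in every valuation ring of `F₂` containing `φ b`, `(φ τ')⁻¹`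
and `(φ c)⁻¹`. -/
theorem s36wc_unit_pull {F₁ F₂ : Type*} [Field F₁] [Field F₂] (φ : F₁ →+* F₂)
    (τ' x' b c : F₁) (h : τ' * c = x' * b) (hτ' : τ' ≠ 0) (hc : c ≠ 0)
    (V : ValuationSubring F₂) (hbV : φ b ∈ V) (hτV : (φ τ')⁻¹ ∈ V) (hcV : (φ c)⁻¹ ∈ V) :
    (φ x')⁻¹ ∈ V := by
  have hxb : x' * b ≠ 0 := h ▸ mul_ne_zero hτ' hc
  have hx0 : x' ≠ 0 := left_ne_zero_of_mul hxb
  have hφτ : φ τ' ≠ 0 := (map_ne_zero φ).mpr hτ'
  have hφc : φ c ≠ 0 := (map_ne_zero φ).mpr hc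
  have hφx : φ x' ≠ 0 := (map_ne_zero φ).mpr hx0
  have e : (φ x')⁻¹ = φ b * (φ τ')⁻¹ * (φ c)⁻¹ := by
    have h' : φ τ' * φ c = φ x' * φ b := by rw [← map_mul, h, map_mul]
    field_simp
    linear_combination h'
  rw [e]
  exact V.mul_mem _ _ (V.mul_mem _ _ hbV hτV) hcV

end Fermat.Agent.S36
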