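import Mathlib
import Fermat.Agent.S34.KrullInt
import Fermat.Agent.S34.KrullSub
import Fermat.Agent.S36.LocReg
import Fermat.Agent.S36.WcPoint

/-!
# S36, leaf WC-EPS: the `ε`-criterion at the points of the non-reduced component

Setting of `WcPoint.lean`: a noetherian integrally closed chart `O` with three vertical valuation
rings; here `Wc` is the (non-reduced) component through the closed point `𝔫`, and the other two
components `Wa`, `Wb` do not pass through `𝔫`.  `τ = π_c ^ e * unit` on `Wc`, in the form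
`(E) : y ∈ 𝔪_{Wc} ⇒ y ^ e / τ ∈ Wc`.

* `s36we_mem3_ring`, `s36we_mem3`: **three-valuation Krull lemma.**  An element `x ∈ F` which, for
  each vertical ring, either lies in it or the ring does not pass through `𝔫`, and which has no
  pole along the horizontal principal ideal valuation rings through `𝔫`, lies in `O_𝔫`.
* `s36we_eps`: **the `ε`-criterion.**  Let `π ∈ O_𝔫 ∩ 𝔪_{Wc}` and `ε := π ^ e / τ`.  If there are
  `om ∈ O_𝔫` and a unit `c` of `O_𝔫` with `ε * om - c ∈ 𝔪_{Wc}`, then `ε` is a unit of `O_𝔫`: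
  `π ^ e * s = τ * a` with `a, s ∉ 𝔫`.
* `s36we_unif`, `s36we_hor`: consequently `π` is a uniformiser of `Wc` and has no zero along the
  horizontal valuation rings through `𝔫`.
* `s36we_prin`: `𝔪_{Wc} ∩ O_𝔫 = π O_𝔫` (fraction form).
* `s36we_loc`: (LOC) `= S34Loc τ m O f 𝔫` for every `f` with `hord`.
-/

set_option autoImplicit false

namespace Fermat.Agent.S36

open Fermat.Agent.S18 Fermat.Agent.S34

/-- **Three-valuation Krull lemma, ring form.** -/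
theorem s36we_mem3_ring {R F : Type*} [CommRing R] [IsDomain R] [IsNoetherianRing R]
    [IsIntegrallyClosed R] [Field F] [Algebra R F] [IsFractionRing R F]
    (W₁ W₂ W₃ : ValuationSubring F) (τ : R)
    (hW₁ : ∀ r : R, algebraMap R F r ∈ W₁) (hW₂ : ∀ r : R, algebraMap R F r ∈ W₂)
    (hW₃ : ∀ r : R, algebraMap R F r ∈ W₃)
    (hW₁top : W₁ ≠ ⊤) (hW₂top : W₂ ≠ ⊤) (hW₃top : W₃ ≠ ⊤)
    (hred : ∀ r : R, algebraMap R F r ∈ W₁.nonunits → algebraMap R F r ∈ W₂.nonunits →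
      algebraMap R F r ∈ W₃.nonunits → ∃ N : ℕ, τ ∣ r ^ N)
    (n : Ideal R) [n.IsPrime] (x : F)
    (h₁ : x ∈ W₁ ∨ ∃ r : R, algebraMap R F r ∈ W₁.nonunits ∧ r ∉ n)
    (h₂ : x ∈ W₂ ∨ ∃ r : R, algebraMap R F r ∈ W₂.nonunits ∧ r ∉ n)
    (h₃ : x ∈ W₃ ∨ ∃ r : R, algebraMap R F r ∈ W₃.nonunits ∧ r ∉ n)
    (hhor : ∀ V : ValuationSubring F, (∀ r : R, algebraMap R F r ∈ V) →
      (∀ s : R, s ∉ n → (algebraMap R F s)⁻¹ ∈ V) → IsPrincipalIdealRing V → V ≠ ⊤ →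
      (algebraMap R F τ)⁻¹ ∈ V → x ∈ V) :
    ∃ a s : R, s ∉ n ∧ x * algebraMap R F s = algebraMap R F a := by
  classical
  have hinj : Function.Injective (algebraMap R F) := IsFractionRing.injective R F
  by_contra hx
  obtain ⟨P, hP, V, hPn, hpid, hxV, hV⟩ := kri_exists_dvr_le n x hx
  have hne0 : ∀ s : R, s ∉ P → algebraMap R F s ≠ 0 := by
    intro s hs h0
    have : s = 0 := hinj (by rw [h0, map_zero])
    exact hs (this ▸ P.zero_mem)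
  have hRV : ∀ r : R, algebraMap R F r ∈ V := by
    intro r
    rw [hV]
    exact ⟨r, 1, fun h => hP.ne_top ((Ideal.eq_top_iff_one P).mpr h), by simp⟩
  have hinvV : ∀ s : R, s ∉ P → (algebraMap R F s)⁻¹ ∈ V := by
    intro s hs
    have hs0 := hne0 s hs
    rw [hV]
    refine ⟨1, s, hs, ?_⟩
    rw [map_one]
    field_simp
  have hVtop : V ≠ ⊤ := fun htop => hxV (htop ▸ ValuationSubring.mem_top _)
  by_cases hτ : τ ∈ P
  · -- vertical: `V` is one of `W₁`, `W₂`, `W₃`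
    have key : ∀ W : ValuationSubring F, (∀ r : R, algebraMap R F r ∈ W) →
        (∀ r : R, algebraMap R F r ∈ W.nonunits → r ∈ P) → V ≤ W := by
      intro W hW hc v hv
      obtain ⟨a, s, hs, h⟩ := (hV v).mp hv
      have hs0 := hne0 s hs
      have hsW : (algebraMap R F s)⁻¹ ∈ W := by
        by_contra hcon
        apply hs
        apply hc
        rw [ValuationSubring.mem_nonunits_iff_exists_mem_maximalIdeal]
        refine ⟨hW s, ?_⟩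
        rw [IsLocalRing.mem_maximalIdeal, mem_nonunits_iff]
        intro hu
        obtain ⟨w, hw⟩ := hu.exists_right_inv
        apply hcon
        have hw' : algebraMap R F s * (w : F) = 1 := congrArg Subtype.val hw
        have : (algebraMap R F s)⁻¹ = (w : F) := by
          field_simp
          exact hw'.symm
        rw [this]
        exact w.2
      have hveq : v = algebraMap R F a * (algebraMap R F s)⁻¹ := by
        rw [← h]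
        field_simp
      rw [hveq]
      exact W.mul_mem _ _ (hW a) hsW
    have case : ∀ W : ValuationSubring F, (∀ r : R, algebraMap R F r ∈ W) → W ≠ ⊤ →
        (x ∈ W ∨ ∃ r : R, algebraMap R F r ∈ W.nonunits ∧ r ∉ n) →
        (∀ r : R, algebraMap R F r ∈ W.nonunits → r ∈ P) → False := by
      intro W hW hWtop hxW hc
      have hVW : V = W := kri_dvr_maximal V W (key W hW hc) hpid hWtop
      rcases hxW with h | ⟨r, hr, hrn⟩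
      · exact hxV (hVW ▸ h)
      · exact hrn (hPn (hc r hr))
    by_cases h1 : ∀ r : R, algebraMap R F r ∈ W₁.nonunits → r ∈ P
    · exact case W₁ hW₁ hW₁top h₁ h1
    · by_cases h2 : ∀ r : R, algebraMap R F r ∈ W₂.nonunits → r ∈ P
      · exact case W₂ hW₂ hW₂top h₂ h2
      · by_cases h3 : ∀ r : R, algebraMap R F r ∈ W₃.nonunits → r ∈ P
        · exact case W₃ hW₃ hW₃top h₃ h3
        · push Not at h1 h2 h3
          obtain ⟨r₁, hr₁, hr₁P⟩ := h1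
          obtain ⟨r₂, hr₂, hr₂P⟩ := h2
          obtain ⟨r₃, hr₃, hr₃P⟩ := h3
          have hm₁ : algebraMap R F (r₁ * r₂ * r₃) ∈ W₁.nonunits := by
            rw [map_mul, map_mul]
            exact kri_nonunits_mul W₁ (kri_nonunits_mul W₁ hr₁ (hW₁ r₂)) (hW₁ r₃)
          have hm₂ : algebraMap R F (r₁ * r₂ * r₃) ∈ W₂.nonunits := by
            have e : r₁ * r₂ * r₃ = r₂ * r₁ * r₃ := by ring
            rw [e, map_mul, map_mul]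
            exact kri_nonunits_mul W₂ (kri_nonunits_mul W₂ hr₂ (hW₂ r₁)) (hW₂ r₃)
          have hm₃ : algebraMap R F (r₁ * r₂ * r₃) ∈ W₃.nonunits := by
            have e : r₁ * r₂ * r₃ = r₃ * r₁ * r₂ := by ring
            rw [e, map_mul, map_mul]
            exact kri_nonunits_mul W₃ (kri_nonunits_mul W₃ hr₃ (hW₃ r₁)) (hW₃ r₂)
          obtain ⟨N, d, hd⟩ := hred _ hm₁ hm₂ hm₃
          have hpow : (r₁ * r₂ * r₃) ^ N ∈ P := hd ▸ Ideal.mul_mem_right _ _ hτ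
          have hmem : r₁ * r₂ * r₃ ∈ P := hP.mem_of_pow_mem N hpow
          rcases hP.mem_or_mem hmem with h4 | h4
          · rcases hP.mem_or_mem h4 with h5 | h5
            · exact hr₁P h5
            · exact hr₂P h5
          · exact hr₃P h4
  · -- horizontal
    have hτinv : (algebraMap R F τ)⁻¹ ∈ V := hinvV τ hτ
    exact hxV (hhor V hRV (fun s hs => hinvV s (fun h => hs (hPn h))) hpid hVtop hτinv)

section Chart

variable {A F : Type*} [CommRing A] [Field F] [Algebra A F]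

/-- **Three-valuation Krull lemma, chart form.** -/
theorem s36we_mem3 (τ : A) (O : Subalgebra A F)
    [IsNoetherianRing ↥O] (hfrac : ∀ x : F, ∃ a ∈ O, ∃ s ∈ O, s ≠ 0 ∧ x * s = a)
    (hic : ∀ x : F, IsIntegral ↥O x → x ∈ O)
    (W₁ W₂ W₃ : ValuationSubring F)
    (hO₁ : ∀ y ∈ O, y ∈ W₁) (hO₂ : ∀ y ∈ O, y ∈ W₂) (hO₃ : ∀ y ∈ O, y ∈ W₃)
    (hW₁top : W₁ ≠ ⊤) (hW₂top : W₂ ≠ ⊤) (hW₃top : W₃ ≠ ⊤)
    (hred : ∀ x ∈ O, x ∈ W₁.nonunits → x ∈ W₂.nonunits → x ∈ W₃.nonunits →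
      ∃ (N : ℕ), ∃ y ∈ O, x ^ N = algebraMap A F τ * y)
    (𝔫 : Ideal ↥O) [𝔫.IsPrime] (x : F)
    (h₁ : x ∈ W₁ ∨ ∃ r : ↥O, (r : F) ∈ W₁.nonunits ∧ r ∉ 𝔫)
    (h₂ : x ∈ W₂ ∨ ∃ r : ↥O, (r : F) ∈ W₂.nonunits ∧ r ∉ 𝔫)
    (h₃ : x ∈ W₃ ∨ ∃ r : ↥O, (r : F) ∈ W₃.nonunits ∧ r ∉ 𝔫)
    (hhor : ∀ V : ValuationSubring F, (∀ y ∈ O, y ∈ V) →
      (∀ s : ↥O, s ∉ 𝔫 → (s : F)⁻¹ ∈ V) → IsPrincipalIdealRing V → V ≠ ⊤ →
      (algebraMap A F τ)⁻¹ ∈ V → x ∈ V) :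
    ∃ a s : ↥O, s ∉ 𝔫 ∧ x * (s : F) = (a : F) := by
  have := kri_sub_isFractionRing O hfrac
  have := kri_sub_isIntegrallyClosed O hfrac hic
  exact s36we_mem3_ring (R := ↥O) (F := F) W₁ W₂ W₃ (algebraMap A ↥O τ)
    (fun r => hO₁ r.1 r.2) (fun r => hO₂ r.1 r.2) (fun r => hO₃ r.1 r.2) hW₁top hW₂top hW₃top
    (fun r hr1 hr2 hr3 => by
      obtain ⟨N, y, hy, hry⟩ := hred r.1 r.2 hr1 hr2 hr3
      exact ⟨N, ⟨y, hy⟩, Subtype.ext hry⟩)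
    𝔫 x h₁ h₂ h₃
    (fun V h1 h2 h3 h4 h5 => hhor V (fun y hy => h1 ⟨y, hy⟩) h2 h3 h4 h5)

/-- an element of a valuation ring which is not in the maximal ideal is a unit -/
theorem s36we_inv_mem (V : ValuationSubring F) {a : F} (ha : a ∈ V) (ha' : a ∉ V.nonunits) :
    a⁻¹ ∈ V := by
  rw [ValuationSubring.mem_nonunits_iff] at ha'
  have h1 : V.valuation a ≤ 1 := (V.valuation_le_one_iff a).mpr ha
  have h2 : V.valuation a = 1 := le_antisymm h1 (not_lt.mp ha')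
  rw [← V.valuation_le_one_iff, map_inv₀, h2, inv_one]

/-- a root of an element of a valuation ring lies in it -/
theorem s36we_of_pow_mem (V : ValuationSubring F) {x : F} (e : ℕ) (he : 0 < e)
    (hx : x ^ e ∈ V) : x ∈ V := by
  by_contra hxV
  have hinv : x⁻¹ ∈ V := (V.mem_or_inv_mem x).resolve_left hxV
  have hx0 : x ≠ 0 := by
    rintro rfl
    exact hxV V.zero_mem
  have hnu : x⁻¹ ∈ V.nonunits := by
    rw [ValuationSubring.mem_nonunits_iff, map_inv₀]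
    have h1 : 1 < V.valuation x := not_le.mp (fun h => hxV ((V.valuation_le_one_iff x).mp h))
    exact inv_lt_one_of_one_lt₀ h1
  obtain ⟨k, rfl⟩ : ∃ k, e = k + 1 := ⟨e - 1, by omega⟩
  have h1 : x⁻¹ * (x⁻¹ ^ k * x ^ (k + 1)) ∈ V.nonunits :=
    cz_nonunits_mul V hnu (V.mul_mem _ _ (pow_mem hinv k) hx)
  have h2 : x⁻¹ * (x⁻¹ ^ k * x ^ (k + 1)) = 1 := by
    rw [← mul_assoc, ← pow_succ', ← mul_pow, inv_mul_cancel₀ hx0, one_pow]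
  rw [h2] at h1
  exact cz_one_not_mem_nonunits V h1

/-- **The `ε`-criterion.**  `Wc` through `𝔫` (`h1`), `Wa`, `Wb` off `𝔫`; `π ∈ O_𝔫 ∩ 𝔪_{Wc}`,
`ε = π ^ e / τ`; `om ∈ O_𝔫`, `c` a unit of `O_𝔫` with `ε * om - c ∈ 𝔪_{Wc}`.  Then
`π ^ e = τ * (unit of O_𝔫)`. -/
theorem s36we_eps (τ : A) (hτ0 : algebraMap A F τ ≠ 0) (O : Subalgebra A F)
    [IsNoetherianRing ↥O] (hfrac : ∀ x : F, ∃ a ∈ O, ∃ s ∈ O, s ≠ 0 ∧ x * s = a)
    (hic : ∀ x : F, IsIntegral ↥O x → x ∈ O)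
    (Wc Wa Wb : ValuationSubring F)
    (hOc : ∀ y ∈ O, y ∈ Wc) (hOa : ∀ y ∈ O, y ∈ Wa) (hOb : ∀ y ∈ O, y ∈ Wb)
    (hWctop : Wc ≠ ⊤) (hWatop : Wa ≠ ⊤) (hWbtop : Wb ≠ ⊤)
    (hred : ∀ x ∈ O, x ∈ Wc.nonunits → x ∈ Wa.nonunits → x ∈ Wb.nonunits →
      ∃ (N : ℕ), ∃ y ∈ O, x ^ N = algebraMap A F τ * y)
    (𝔫 : Ideal ↥O) [𝔫.IsPrime]
    (h1 : ∀ x : ↥O, (x : F) ∈ Wc.nonunits → x ∈ 𝔫)
    (ha : ∃ r : ↥O, (r : F) ∈ Wa.nonunits ∧ r ∉ 𝔫)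
    (hb : ∃ r : ↥O, (r : F) ∈ Wb.nonunits ∧ r ∉ 𝔫)
    (e : ℕ) (hE : ∀ y ∈ Wc.nonunits, y ^ e * (algebraMap A F τ)⁻¹ ∈ Wc)
    (π : F) (hπO : ∃ a s : ↥O, s ∉ 𝔫 ∧ π * (s : F) = (a : F)) (hπc : π ∈ Wc.nonunits)
    (om c : F) (homO : ∃ a s : ↥O, s ∉ 𝔫 ∧ om * (s : F) = (a : F))
    (hcO : ∃ a s : ↥O, a ∉ 𝔫 ∧ s ∉ 𝔫 ∧ c * (s : F) = (a : F))
    (hcong : π ^ e * (algebraMap A F τ)⁻¹ * om - c ∈ Wc.nonunits) :
    ∃ a s : ↥O, a ∉ 𝔫 ∧ s ∉ 𝔫 ∧ π ^ e * (s : F) = algebraMap A F τ * (a : F) := by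
  have h𝔫 : 𝔫.IsPrime := inferInstance
  obtain ⟨aπ, sπ, hsπ, hπ⟩ := hπO
  have hsπ0 : (sπ : F) ≠ 0 := fun h0 => hsπ (by
    have : sπ = 0 := Subtype.ext h0
    rw [this]; exact 𝔫.zero_mem)
  -- `ε ∈ O_𝔫`
  obtain ⟨aε, sε, hsε, hε⟩ := s36we_mem3 τ O hfrac hic Wc Wa Wb hOc hOa hOb hWctop hWatop hWbtop
    hred 𝔫 (π ^ e * (algebraMap A F τ)⁻¹) (Or.inl (hE π hπc)) (Or.inr ha) (Or.inr hb)
    (fun V hOV hinv _ _ hτV => by
      have hπV : π ∈ V := by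
        have : π = (aπ : F) * (sπ : F)⁻¹ := by
          rw [← hπ]; field_simp
        rw [this]
        exact V.mul_mem _ _ (hOV _ aπ.2) (hinv sπ hsπ)
      exact V.mul_mem _ _ (pow_mem hπV e) hτV)
  obtain ⟨ao, so, hso, ho⟩ := homO
  obtain ⟨ac, sc, hac, hsc, hc⟩ := hcO
  refine ⟨aε, sε, fun haε => ?_, hsε, ?_⟩
  · -- `aε ∈ 𝔫` is impossible
    have hmem : aε * ao * sc - ac * sε * so ∈ 𝔫 := by
      apply h1
      have e1 : ((aε * ao * sc - ac * sε * so : ↥O) : F) =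
          (π ^ e * (algebraMap A F τ)⁻¹ * om - c) * ((sε : F) * (so : F) * (sc : F)) := by
        push_cast
        rw [← hε, ← ho, ← hc]
        ring
      rw [e1]
      exact cz_nonunits_mul Wc hcong (hOc _ (sε * so * sc).2)
    have h2 : ac * sε * so ∈ 𝔫 := by
      have h3 : ac * sε * so = aε * ao * sc - (aε * ao * sc - ac * sε * so) := by ring
      rw [h3]
      exact 𝔫.sub_mem (𝔫.mul_mem_right _ (𝔫.mul_mem_right _ haε)) hmem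
    rcases h𝔫.mem_or_mem h2 with h4 | h4
    · rcases h𝔫.mem_or_mem h4 with h5 | h5
      · exact hac h5
      · exact hsε h5
    · exact hso h4
  · rw [← hε]
    field_simp

/-- From `π ^ e * s = τ * a` (`a, s ∉ 𝔫`, `e ≥ 1`): `π` is a uniformiser of `Wc`. -/
theorem s36we_unif (τ : A) (hτ0 : algebraMap A F τ ≠ 0) (O : Subalgebra A F)
    (Wc : ValuationSubring F) (hOc : ∀ y ∈ O, y ∈ Wc)
    (𝔫 : Ideal ↥O)
    (h1 : ∀ x : ↥O, (x : F) ∈ Wc.nonunits → x ∈ 𝔫)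
    (e : ℕ) (he : 0 < e) (hE : ∀ y ∈ Wc.nonunits, y ^ e * (algebraMap A F τ)⁻¹ ∈ Wc)
    (π : F)
    (hπe : ∃ a s : ↥O, a ∉ 𝔫 ∧ s ∉ 𝔫 ∧ π ^ e * (s : F) = algebraMap A F τ * (a : F)) :
    π ≠ 0 ∧ ∀ y ∈ Wc.nonunits, y * π⁻¹ ∈ Wc := by
  obtain ⟨a, s, ha, hs, h⟩ := hπe
  have ha0 : (a : F) ≠ 0 := fun h0 => ha (by
    have : a = 0 := Subtype.ext h0
    rw [this]; exact 𝔫.zero_mem)
  have hs0 : (s : F) ≠ 0 := fun h0 => hs (by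
    have : s = 0 := Subtype.ext h0
    rw [this]; exact 𝔫.zero_mem)
  have hπ0 : π ≠ 0 := by
    rintro rfl
    rw [zero_pow he.ne', zero_mul] at h
    exact (mul_ne_zero hτ0 ha0) h.symm
  refine ⟨hπ0, fun y hy => ?_⟩
  have hainv : (a : F)⁻¹ ∈ Wc := s36we_inv_mem Wc (hOc _ a.2) (fun hnu => ha (h1 a hnu))
  apply s36we_of_pow_mem Wc e he
  have e1 : (y * π⁻¹) ^ e = y ^ e * (algebraMap A F τ)⁻¹ * ((s : F) * (a : F)⁻¹) := by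
    have hπe0 : π ^ e ≠ 0 := pow_ne_zero e hπ0
    rw [mul_pow, inv_pow]
    field_simp
    linear_combination (-(y ^ e)) * h
  rw [e1]
  exact Wc.mul_mem _ _ (hE y hy) (Wc.mul_mem _ _ (hOc _ s.2) hainv)

/-- From `π ^ e * s = τ * a` (`a, s ∉ 𝔫`, `e ≥ 1`) and `π ∈ O_𝔫`: `π` has no zero along the
valuation rings through `𝔫` in which `τ` is a unit. -/
theorem s36we_hor (τ : A) (hτ0 : algebraMap A F τ ≠ 0) (O : Subalgebra A F)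
    (𝔫 : Ideal ↥O) (e : ℕ) (he : 0 < e)
    (π : F) (hπO : ∃ a s : ↥O, s ∉ 𝔫 ∧ π * (s : F) = (a : F))
    (hπe : ∃ a s : ↥O, a ∉ 𝔫 ∧ s ∉ 𝔫 ∧ π ^ e * (s : F) = algebraMap A F τ * (a : F))
    (V : ValuationSubring F) (hOV : ∀ y ∈ O, y ∈ V)
    (hinv : ∀ s : ↥O, s ∉ 𝔫 → (s : F)⁻¹ ∈ V) (hτV : (algebraMap A F τ)⁻¹ ∈ V) :
    π⁻¹ ∈ V := by
  obtain ⟨a, s, ha, hs, h⟩ := hπe
  obtain ⟨aπ, sπ, hsπ, hπ⟩ := hπO
  have ha0 : (a : F) ≠ 0 := fun h0 => ha (by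
    have : a = 0 := Subtype.ext h0
    rw [this]; exact 𝔫.zero_mem)
  have hs0 : (s : F) ≠ 0 := fun h0 => hs (by
    have : s = 0 := Subtype.ext h0
    rw [this]; exact 𝔫.zero_mem)
  have hsπ0 : (sπ : F) ≠ 0 := fun h0 => hsπ (by
    have : sπ = 0 := Subtype.ext h0
    rw [this]; exact 𝔫.zero_mem)
  have hπ0 : π ≠ 0 := by
    rintro rfl
    rw [zero_pow he.ne', zero_mul] at h
    exact (mul_ne_zero hτ0 ha0) h.symm
  have hπV : π ∈ V := by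
    have : π = (aπ : F) * (sπ : F)⁻¹ := by
      rw [← hπ]; field_simp
    rw [this]
    exact V.mul_mem _ _ (hOV _ aπ.2) (hinv sπ hsπ)
  obtain ⟨k, rfl⟩ : ∃ k, e = k + 1 := ⟨e - 1, by omega⟩
  have e1 : π⁻¹ = π ^ k * ((s : F) * (algebraMap A F τ)⁻¹ * (a : F)⁻¹) := by
    have h' : π ^ k * π * (s : F) = algebraMap A F τ * (a : F) := by rw [← pow_succ]; exact h
    field_simp
    linear_combination (-1 : F) * h'
  rw [e1]
  exact V.mul_mem _ _ (pow_mem hπV k)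
    (V.mul_mem _ _ (V.mul_mem _ _ (hOV _ s.2) hτV) (hinv a ha))

/-- **`ε`-criterion, principal form**: `𝔪_{Wc} ∩ O_𝔫 = π O_𝔫` (fraction form). -/
theorem s36we_prin (τ : A) (hτ0 : algebraMap A F τ ≠ 0) (O : Subalgebra A F)
    [IsNoetherianRing ↥O] (hfrac : ∀ x : F, ∃ a ∈ O, ∃ s ∈ O, s ≠ 0 ∧ x * s = a)
    (hic : ∀ x : F, IsIntegral ↥O x → x ∈ O)
    (Wc Wa Wb : ValuationSubring F)
    (hOc : ∀ y ∈ O, y ∈ Wc) (hOa : ∀ y ∈ O, y ∈ Wa) (hOb : ∀ y ∈ O, y ∈ Wb)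
    (hWctop : Wc ≠ ⊤) (hWatop : Wa ≠ ⊤) (hWbtop : Wb ≠ ⊤)
    (hred : ∀ x ∈ O, x ∈ Wc.nonunits → x ∈ Wa.nonunits → x ∈ Wb.nonunits →
      ∃ (N : ℕ), ∃ y ∈ O, x ^ N = algebraMap A F τ * y)
    (𝔫 : Ideal ↥O) [𝔫.IsPrime]
    (h1 : ∀ x : ↥O, (x : F) ∈ Wc.nonunits → x ∈ 𝔫)
    (ha : ∃ r : ↥O, (r : F) ∈ Wa.nonunits ∧ r ∉ 𝔫)
    (hb : ∃ r : ↥O, (r : F) ∈ Wb.nonunits ∧ r ∉ 𝔫)
    (e : ℕ) (he : 0 < e) (hE : ∀ y ∈ Wc.nonunits, y ^ e * (algebraMap A F τ)⁻¹ ∈ Wc)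
    (π : F) (hπO : ∃ a s : ↥O, s ∉ 𝔫 ∧ π * (s : F) = (a : F)) (hπc : π ∈ Wc.nonunits)
    (om c : F) (homO : ∃ a s : ↥O, s ∉ 𝔫 ∧ om * (s : F) = (a : F))
    (hcO : ∃ a s : ↥O, a ∉ 𝔫 ∧ s ∉ 𝔫 ∧ c * (s : F) = (a : F))
    (hcong : π ^ e * (algebraMap A F τ)⁻¹ * om - c ∈ Wc.nonunits) :
    ∀ z : ↥O, (z : F) ∈ Wc.nonunits →
      ∃ b c' : ↥O, c' ∉ 𝔫 ∧ (z : F) * (c' : F) = π * (b : F) := by
  have hπe := s36we_eps τ hτ0 O hfrac hic Wc Wa Wb hOc hOa hOb hWctop hWatop hWbtop hred 𝔫 h1 ha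
    hb e hE π hπO hπc om c homO hcO hcong
  obtain ⟨hπ0, hunif⟩ := s36we_unif τ hτ0 O Wc hOc 𝔫 h1 e he hE π hπe
  exact s36wc_prin3 τ O hfrac hic Wc Wa Wb hOc hOa hOb hWctop hWatop hWbtop hred 𝔫 π hπ0 hunif
    (Or.inr ha) (Or.inr hb)
    (fun V hOV hinv _ _ hτV => s36we_hor τ hτ0 O 𝔫 e he π hπO hπe V hOV hinv hτV)

/-- **`ε`-criterion, (LOC) form**: at a closed point `𝔫` lying on the non-reduced component `Wc`
only, with `π`, `om`, `c` as in `s36we_eps` and the Dedekind coordinate ring `hD` of `Wc`: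
(LOC) holds at `𝔫` for every `f` with `hord`. -/
theorem s36we_loc (τ : A) (hτ0 : algebraMap A F τ ≠ 0) (O : Subalgebra A F)
    [IsNoetherianRing ↥O] (hfrac : ∀ x : F, ∃ a ∈ O, ∃ s ∈ O, s ≠ 0 ∧ x * s = a)
    (hic : ∀ x : F, IsIntegral ↥O x → x ∈ O)
    (Wc Wa Wb : ValuationSubring F)
    (hOc : ∀ y ∈ O, y ∈ Wc) (hOa : ∀ y ∈ O, y ∈ Wa) (hOb : ∀ y ∈ O, y ∈ Wb)
    (hWctop : Wc ≠ ⊤) (hWatop : Wa ≠ ⊤) (hWbtop : Wb ≠ ⊤)
    (hred : ∀ x ∈ O, x ∈ Wc.nonunits → x ∈ Wa.nonunits → x ∈ Wb.nonunits →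
      ∃ (N : ℕ), ∃ y ∈ O, x ^ N = algebraMap A F τ * y)
    (hD : ∀ 𝔭 : Ideal ↥O, (∀ x : ↥O, x ∈ 𝔭 ↔ (x : F) ∈ Wc.nonunits) →
      IsDedekindDomain (↥O ⧸ 𝔭))
    (m : ℕ) (hm : 0 < m)
    (𝔫 : Ideal ↥O) (h𝔫 : 𝔫.IsMaximal)
    (h1 : ∀ x : ↥O, (x : F) ∈ Wc.nonunits → x ∈ 𝔫)
    (ha : ∃ r : ↥O, (r : F) ∈ Wa.nonunits ∧ r ∉ 𝔫)
    (hb : ∃ r : ↥O, (r : F) ∈ Wb.nonunits ∧ r ∉ 𝔫)
    (e : ℕ) (he : 0 < e) (hE : ∀ y ∈ Wc.nonunits, y ^ e * (algebraMap A F τ)⁻¹ ∈ Wc)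
    (π : F) (hπO : ∃ a s : ↥O, s ∉ 𝔫 ∧ π * (s : F) = (a : F)) (hπc : π ∈ Wc.nonunits)
    (om c : F) (homO : ∃ a s : ↥O, s ∉ 𝔫 ∧ om * (s : F) = (a : F))
    (hcO : ∃ a s : ↥O, a ∉ 𝔫 ∧ s ∉ 𝔫 ∧ c * (s : F) = (a : F))
    (hcong : π ^ e * (algebraMap A F τ)⁻¹ * om - c ∈ Wc.nonunits)
    (f : F) (hf : f ≠ 0)
    (hord : ∀ V : ValuationSubring F, (∀ a : A, algebraMap A F a ∈ V) →
        (algebraMap A F τ)⁻¹ ∈ V → IsPrincipalIdealRing V →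
        ∃ u : F, u ≠ 0 ∧ f * u ^ m ∈ V ∧ (f * u ^ m)⁻¹ ∈ V) :
    S34Loc τ m O f 𝔫 := by
  have := h𝔫.isPrime
  have hπe := s36we_eps τ hτ0 O hfrac hic Wc Wa Wb hOc hOa hOb hWctop hWatop hWbtop hred 𝔫 h1 ha
    hb e hE π hπO hπc om c homO hcO hcong
  obtain ⟨hπ0, -⟩ := s36we_unif τ hτ0 O Wc hOc 𝔫 h1 e he hE π hπe
  exact s36lr_loc_frac τ hτ0 O hfrac Wc hOc hD m hm 𝔫 h𝔫 h1 π hπ0 hπc hπO
    (s36we_prin τ hτ0 O hfrac hic Wc Wa Wb hOc hOa hOb hWctop hWatop hWbtop hred 𝔫 h1 ha hb e he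
      hE π hπO hπc om c homO hcO hcong) f hf hord

end Chart

end Fermat.Agent.S36
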