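import Mathlib
import Fermat.Agent.S36.WcEps
import Fermat.Agent.S36.LocUnit3

/-!
# S36, package COMP3 (abstract half): the per-point data of the three-component model

`O` a chart (noetherian, integrally closed in `F`), `W₁ W₂ W₃` the three vertical valuations,
`𝔫` a closed point of the special fibre.

* `s36k3_cover`: `𝔫` lies on at least one component (from the radical form `hred`).
* `s36k3_types`: with "two components through `𝔫` ⟹ all three" (PT-TYPES), `𝔫` is a point of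
  exactly one component (the other two have witnesses `r ∈ O ∩ 𝔪_W`, `r ∉ 𝔫`) or a triple point.
* `s36k3_zpow_mem`, `s36k3_hdec_of_unif`: a second uniformiser of a discrete valuation ring
  satisfies the `hdec` normal form.
* `s36k3_kill`: the killing witness of a component not through `𝔫` (input of UNIT3).
* `s36k3_one`: at a point of ONE component `W₁` with a local equation `ξ` (`ξ ∈ O_𝔫`, uniformiser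
  of `W₁`, `ξ ∣ s τ ^ k`): (LOC) for every `f` with `hord`, and the unit form `S35Unit` for every
  such `f` which is a unit of `W₁`.
* `s36k3_wc`: the same at a point of the non-reduced component only, from the `ε`-certificate
  `(π, om, c)` of `s36we_eps`.
-/

set_option autoImplicit false
set_option linter.unusedSectionVars false
set_option linter.unusedVariables false

namespace Fermat.Agent.S36

open Fermat.Agent.S18 Fermat.Agent.S34 Fermat.Agent.S35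

section Val

variable {F : Type*} [Field F]

/-- integer powers of a unit of a valuation ring -/
theorem s36k3_zpow_mem (V : ValuationSubring F) {x : F} (hx : x ∈ V) (hx' : x⁻¹ ∈ V) (j : ℤ) :
    x ^ j ∈ V := by
  rcases j with n | n
  · rw [Int.ofNat_eq_natCast, zpow_natCast]
    exact pow_mem hx n
  · rw [zpow_negSucc, ← inv_pow]
    exact pow_mem hx' _

/-- A second uniformiser of a discrete valuation ring satisfies the `hdec` normal form. -/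
theorem s36k3_hdec_of_unif (V : ValuationSubring F) (ϖ π : F) (hϖ : ϖ ∈ V.nonunits)
    (hϖ0 : ϖ ≠ 0)
    (hdec : ∀ z : F, z ≠ 0 → ∃ j : ℤ, z * ϖ ^ j ∈ V ∧ (z * ϖ ^ j)⁻¹ ∈ V)
    (hπ : π ∈ V.nonunits) (hπ0 : π ≠ 0) (hunif : ∀ y ∈ V.nonunits, y * π⁻¹ ∈ V) :
    ∀ z : F, z ≠ 0 → ∃ j : ℤ, z * π ^ j ∈ V ∧ (z * π ^ j)⁻¹ ∈ V := by
  have hϖV : ϖ ∈ V := by
    by_contra h
    have := (ValuationSubring.mem_nonunits_iff_or V).mp hϖ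
    exact V.nonunits_subset hϖ |> h
  -- `w = ϖ / π ∈ V`
  have hw : ϖ * π⁻¹ ∈ V := hunif ϖ hϖ
  -- `π / ϖ ∈ V`
  have hw' : π * ϖ⁻¹ ∈ V := by
    obtain ⟨i, hi1, hi2⟩ := hdec π hπ0
    rcases i with n | n
    · exfalso
      rw [Int.ofNat_eq_natCast, zpow_natCast] at hi1 hi2
      have h0 : π * ϖ ^ n ≠ 0 := mul_ne_zero hπ0 (pow_ne_zero _ hϖ0)
      exact s35pt_not_nu V h0 hi2 (cz_nonunits_mul V hπ (pow_mem hϖV n))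
    · rw [zpow_negSucc] at hi1
      have e : π * ϖ⁻¹ = π * (ϖ ^ (n + 1))⁻¹ * ϖ ^ n := by
        rw [pow_succ]
        field_simp
      rw [e]
      exact V.mul_mem _ _ hi1 (pow_mem hϖV n)
  have hinv : (π * ϖ⁻¹)⁻¹ = ϖ * π⁻¹ := by
    rw [mul_inv, inv_inv, mul_comm]
  intro z hz
  obtain ⟨j, h1, h2⟩ := hdec z hz
  have e : z * π ^ j = z * ϖ ^ j * (π * ϖ⁻¹) ^ j := by
    rw [mul_zpow, inv_zpow, mul_assoc]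
    congr 1
    rw [mul_comm (π ^ j), ← mul_assoc, mul_inv_cancel₀ (zpow_ne_zero j hϖ0), one_mul]
  refine ⟨j, ?_, ?_⟩
  · rw [e]
    exact V.mul_mem _ _ h1 (s36k3_zpow_mem V hw' (by rw [hinv]; exact hw) j)
  · rw [e, mul_inv, ← inv_zpow, hinv]
    exact V.mul_mem _ _ h2 (s36k3_zpow_mem V hw (by rw [← hinv, inv_inv]; exact hw') j)

end Val

section Chart

variable {A F : Type*} [CommRing A] [Field F] [Algebra A F]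

/-- **Every closed point of the special fibre lies on a component** (radical form of the
reducedness `hred`). -/
theorem s36k3_cover (τ : A) (O : Subalgebra A F) (W₁ W₂ W₃ : ValuationSubring F)
    (hO₁ : ∀ y ∈ O, y ∈ W₁) (hO₂ : ∀ y ∈ O, y ∈ W₂) (hO₃ : ∀ y ∈ O, y ∈ W₃)
    (hred : ∀ x ∈ O, x ∈ W₁.nonunits → x ∈ W₂.nonunits → x ∈ W₃.nonunits →
      ∃ (N : ℕ), ∃ y ∈ O, x ^ N = algebraMap A F τ * y)
    (𝔫 : Ideal ↥O) [h𝔫 : 𝔫.IsPrime] (hτ𝔫 : algebraMap A ↥O τ ∈ 𝔫) :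
    (∀ x : ↥O, (x : F) ∈ W₁.nonunits → x ∈ 𝔫) ∨ (∀ x : ↥O, (x : F) ∈ W₂.nonunits → x ∈ 𝔫) ∨
      (∀ x : ↥O, (x : F) ∈ W₃.nonunits → x ∈ 𝔫) := by
  by_contra hcon
  push Not at hcon
  obtain ⟨⟨r₁, hr₁, hr₁n⟩, ⟨r₂, hr₂, hr₂n⟩, ⟨r₃, hr₃, hr₃n⟩⟩ := hcon
  have h1 : ((r₁ * r₂ * r₃ : ↥O) : F) ∈ W₁.nonunits := by
    push_cast
    rw [mul_assoc]
    exact cz_nonunits_mul W₁ hr₁ (W₁.mul_mem _ _ (hO₁ _ r₂.2) (hO₁ _ r₃.2))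
  have h2 : ((r₁ * r₂ * r₃ : ↥O) : F) ∈ W₂.nonunits := by
    push_cast
    have e : (r₁ : F) * (r₂ : F) * (r₃ : F) = (r₂ : F) * ((r₁ : F) * (r₃ : F)) := by ring
    rw [e]
    exact cz_nonunits_mul W₂ hr₂ (W₂.mul_mem _ _ (hO₂ _ r₁.2) (hO₂ _ r₃.2))
  have h3 : ((r₁ * r₂ * r₃ : ↥O) : F) ∈ W₃.nonunits := by
    push_cast
    have e : (r₁ : F) * (r₂ : F) * (r₃ : F) = (r₃ : F) * ((r₁ : F) * (r₂ : F)) := by ring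
    rw [e]
    exact cz_nonunits_mul W₃ hr₃ (W₃.mul_mem _ _ (hO₃ _ r₁.2) (hO₃ _ r₂.2))
  obtain ⟨N, y, hy, hN⟩ := hred _ (r₁ * r₂ * r₃).2 h1 h2 h3
  have hmem : (r₁ * r₂ * r₃) ^ N ∈ 𝔫 := by
    have e : (r₁ * r₂ * r₃) ^ N = algebraMap A ↥O τ * ⟨y, hy⟩ := by
      apply Subtype.ext
      have hN' := hN
      push_cast at hN' ⊢
      exact hN'
    rw [e]
    exact 𝔫.mul_mem_right _ hτ𝔫
  have h4 := h𝔫.mem_of_pow_mem _ hmem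
  rcases h𝔫.mem_or_mem h4 with h5 | h5
  · rcases h𝔫.mem_or_mem h5 with h6 | h6
    · exact hr₁n h6
    · exact hr₂n h6
  · exact hr₃n h5

/-- **Point types.**  If a closed point lying on two components lies on all three (PT-TYPES),
every closed point of the special fibre is a point of exactly one component or a triple
point. -/
theorem s36k3_types (τ : A) (O : Subalgebra A F) (W₁ W₂ W₃ : ValuationSubring F)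
    (hO₁ : ∀ y ∈ O, y ∈ W₁) (hO₂ : ∀ y ∈ O, y ∈ W₂) (hO₃ : ∀ y ∈ O, y ∈ W₃)
    (hred : ∀ x ∈ O, x ∈ W₁.nonunits → x ∈ W₂.nonunits → x ∈ W₃.nonunits →
      ∃ (N : ℕ), ∃ y ∈ O, x ^ N = algebraMap A F τ * y)
    (𝔫 : Ideal ↥O) [h𝔫 : 𝔫.IsPrime] (hτ𝔫 : algebraMap A ↥O τ ∈ 𝔫)
    (h12 : (∀ x : ↥O, (x : F) ∈ W₁.nonunits → x ∈ 𝔫) →
      (∀ x : ↥O, (x : F) ∈ W₂.nonunits → x ∈ 𝔫) → ∀ x : ↥O, (x : F) ∈ W₃.nonunits → x ∈ 𝔫)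
    (h13 : (∀ x : ↥O, (x : F) ∈ W₁.nonunits → x ∈ 𝔫) →
      (∀ x : ↥O, (x : F) ∈ W₃.nonunits → x ∈ 𝔫) → ∀ x : ↥O, (x : F) ∈ W₂.nonunits → x ∈ 𝔫)
    (h23 : (∀ x : ↥O, (x : F) ∈ W₂.nonunits → x ∈ 𝔫) →
      (∀ x : ↥O, (x : F) ∈ W₃.nonunits → x ∈ 𝔫) → ∀ x : ↥O, (x : F) ∈ W₁.nonunits → x ∈ 𝔫) :
    ((∀ x : ↥O, (x : F) ∈ W₁.nonunits → x ∈ 𝔫) ∧
        (∃ r : ↥O, (r : F) ∈ W₂.nonunits ∧ r ∉ 𝔫) ∧ ∃ r : ↥O, (r : F) ∈ W₃.nonunits ∧ r ∉ 𝔫) ∨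
    ((∀ x : ↥O, (x : F) ∈ W₂.nonunits → x ∈ 𝔫) ∧
        (∃ r : ↥O, (r : F) ∈ W₁.nonunits ∧ r ∉ 𝔫) ∧ ∃ r : ↥O, (r : F) ∈ W₃.nonunits ∧ r ∉ 𝔫) ∨
    ((∀ x : ↥O, (x : F) ∈ W₃.nonunits → x ∈ 𝔫) ∧
        (∃ r : ↥O, (r : F) ∈ W₁.nonunits ∧ r ∉ 𝔫) ∧ ∃ r : ↥O, (r : F) ∈ W₂.nonunits ∧ r ∉ 𝔫) ∨
    ((∀ x : ↥O, (x : F) ∈ W₁.nonunits → x ∈ 𝔫) ∧ (∀ x : ↥O, (x : F) ∈ W₂.nonunits → x ∈ 𝔫) ∧
        ∀ x : ↥O, (x : F) ∈ W₃.nonunits → x ∈ 𝔫) := by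
  by_cases c1 : ∀ x : ↥O, (x : F) ∈ W₁.nonunits → x ∈ 𝔫
  · by_cases c2 : ∀ x : ↥O, (x : F) ∈ W₂.nonunits → x ∈ 𝔫
    · exact Or.inr (Or.inr (Or.inr ⟨c1, c2, h12 c1 c2⟩))
    · by_cases c3 : ∀ x : ↥O, (x : F) ∈ W₃.nonunits → x ∈ 𝔫
      · exact absurd (h13 c1 c3) c2
      · push Not at c2 c3
        exact Or.inl ⟨c1, c2, c3⟩
  · by_cases c2 : ∀ x : ↥O, (x : F) ∈ W₂.nonunits → x ∈ 𝔫
    · by_cases c3 : ∀ x : ↥O, (x : F) ∈ W₃.nonunits → x ∈ 𝔫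
      · exact absurd (h23 c2 c3) c1
      · push Not at c1 c3
        exact Or.inr (Or.inl ⟨c2, c1, c3⟩)
    · by_cases c3 : ∀ x : ↥O, (x : F) ∈ W₃.nonunits → x ∈ 𝔫
      · push Not at c1 c2
        exact Or.inr (Or.inr (Or.inl ⟨c3, c1, c2⟩))
      · rcases s36k3_cover τ O W₁ W₂ W₃ hO₁ hO₂ hO₃ hred 𝔫 hτ𝔫 with h | h | h
        · exact absurd h c1
        · exact absurd h c2
        · exact absurd h c3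

/-- The killing witness of a component `W` not through `𝔫`: `r ∈ O ∩ 𝔪_W`, `r ∉ 𝔫`, with
`r ^ e ∈ ϖ W` for a uniformiser `ϖ` of `W` in `hdec` form. -/
theorem s36k3_kill (W : ValuationSubring F) (ϖ : F) (hϖ : ϖ ∈ W) (hϖ0 : ϖ ≠ 0)
    (hdec : ∀ z : F, z ≠ 0 → ∃ j : ℤ, z * ϖ ^ j ∈ W ∧ (z * ϖ ^ j)⁻¹ ∈ W)
    (e : ℕ) (hE : ∀ y ∈ W.nonunits, y ^ e * ϖ⁻¹ ∈ W)
    (O : Subalgebra A F) (𝔫 : Ideal ↥O)
    (h : ∃ r : ↥O, (r : F) ∈ W.nonunits ∧ r ∉ 𝔫) :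
    ∃ X : ↥O, X ∉ 𝔫 ∧ ∀ z : F, ∃ N : ℕ, z * (X : F) ^ N ∈ W := by
  obtain ⟨r, hr, hrn⟩ := h
  exact ⟨r, hrn, fun z => s36u3_arch W ϖ hϖ hϖ0 hdec e (r : F) (hE _ hr) z⟩

/-- **The data at a point of ONE component.**  `W₁` passes through the closed point `𝔫`, `W₂`
and `W₃` do not (killing witnesses `h₂`, `h₃`); `ξ ∈ O_𝔫` is a local equation of `W₁`: a
uniformiser (`hξ₁`, `hξdec`) dividing `s τ ^ k` (`hξτ`).  Then (LOC) holds at `𝔫` for every `f`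
with `hord`, and such an `f` is a unit of `O_𝔫` times an `m`-th power as soon as it is a unit
of `W₁`. -/
theorem s36k3_one (τ : A) (hτ0 : algebraMap A F τ ≠ 0) (O : Subalgebra A F)
    [IsNoetherianRing ↥O] (hfrac : ∀ x : F, ∃ a ∈ O, ∃ s ∈ O, s ≠ 0 ∧ x * s = a)
    (hic : ∀ x : F, IsIntegral ↥O x → x ∈ O)
    (W₁ W₂ W₃ : ValuationSubring F)
    (hO₁ : ∀ y ∈ O, y ∈ W₁) (hO₂ : ∀ y ∈ O, y ∈ W₂) (hO₃ : ∀ y ∈ O, y ∈ W₃)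
    (hW₁top : W₁ ≠ ⊤) (hW₂top : W₂ ≠ ⊤) (hW₃top : W₃ ≠ ⊤)
    (hred : ∀ x ∈ O, x ∈ W₁.nonunits → x ∈ W₂.nonunits → x ∈ W₃.nonunits →
      ∃ (N : ℕ), ∃ y ∈ O, x ^ N = algebraMap A F τ * y)
    (hdiv : ∀ x ∈ O, x * (algebraMap A F τ)⁻¹ ∈ W₁ → x * (algebraMap A F τ)⁻¹ ∈ W₂ →
      x * (algebraMap A F τ)⁻¹ ∈ W₃ → x * (algebraMap A F τ)⁻¹ ∈ O)
    (hD : ∀ 𝔭 : Ideal ↥O, (∀ x : ↥O, x ∈ 𝔭 ↔ (x : F) ∈ W₁.nonunits) →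
      IsDedekindDomain (↥O ⧸ 𝔭))
    (m : ℕ) (hm : 0 < m)
    (𝔫 : Ideal ↥O) (h𝔫 : 𝔫.IsMaximal)
    (h1 : ∀ x : ↥O, (x : F) ∈ W₁.nonunits → x ∈ 𝔫)
    (h₂ : ∃ r : ↥O, (r : F) ∈ W₂.nonunits ∧ r ∉ 𝔫)
    (h₃ : ∃ r : ↥O, (r : F) ∈ W₃.nonunits ∧ r ∉ 𝔫)
    (hk₂ : ∃ X : ↥O, X ∉ 𝔫 ∧ ∀ z : F, ∃ N : ℕ, z * (X : F) ^ N ∈ W₂)
    (hk₃ : ∃ X : ↥O, X ∉ 𝔫 ∧ ∀ z : F, ∃ N : ℕ, z * (X : F) ^ N ∈ W₃)
    (ξ : F) (hξ0 : ξ ≠ 0) (hξW : ξ ∈ W₁.nonunits)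
    (hξO : ∃ a s : ↥O, s ∉ 𝔫 ∧ ξ * (s : F) = (a : F))
    (hξ₁ : ∀ y ∈ W₁.nonunits, y * ξ⁻¹ ∈ W₁)
    (hξdec : ∀ z : F, z ≠ 0 → ∃ j : ℤ, z * ξ ^ j ∈ W₁ ∧ (z * ξ ^ j)⁻¹ ∈ W₁)
    (hξτ : ∃ (a s : ↥O) (k : ℕ), s ∉ 𝔫 ∧ ξ * (a : F) = (s : F) * algebraMap A F τ ^ k)
    (f : F) (hf : f ≠ 0)
    (hord : ∀ V : ValuationSubring F, (∀ a : A, algebraMap A F a ∈ V) →
        (algebraMap A F τ)⁻¹ ∈ V → IsPrincipalIdealRing V →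
        ∃ u : F, u ≠ 0 ∧ f * u ^ m ∈ V ∧ (f * u ^ m)⁻¹ ∈ V) :
    S34Loc τ m O f 𝔫 ∧ (f ∈ W₁ → f⁻¹ ∈ W₁ → S35Unit m O 𝔫 f) := by
  classical
  have hp : 𝔫.IsPrime := h𝔫.isPrime
  -- `ξ` has no zero along the horizontal valuation rings through `𝔫`
  have hhor : ∀ V : ValuationSubring F, (∀ y ∈ O, y ∈ V) →
      (∀ s : ↥O, s ∉ 𝔫 → (s : F)⁻¹ ∈ V) → IsPrincipalIdealRing V → V ≠ ⊤ →
      (algebraMap A F τ)⁻¹ ∈ V → ξ⁻¹ ∈ V := by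
    intro V hOV hinv _ _ hτV
    obtain ⟨a, s, k, hs, h⟩ := hξτ
    have hs0 : (s : F) ≠ 0 := s35pt_ne_zero O 𝔫 s hs
    have e : ξ⁻¹ = (a : F) * ((s : F)⁻¹ * ((algebraMap A F τ)⁻¹) ^ k) := by
      have h0 : (s : F) * algebraMap A F τ ^ k ≠ 0 := mul_ne_zero hs0 (pow_ne_zero _ hτ0)
      have h1 : ξ⁻¹ * ((s : F) * algebraMap A F τ ^ k) = (a : F) := by
        rw [← h, ← mul_assoc, inv_mul_cancel₀ hξ0, one_mul]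
      rw [inv_pow, ← mul_inv]
      exact (eq_mul_inv_iff_mul_eq₀ h0).mpr h1
    rw [e]
    exact V.mul_mem _ _ (hOV _ a.2) (V.mul_mem _ _ (hinv s hs) (pow_mem hτV k))
  have hloc : S34Loc τ m O f 𝔫 :=
    s36wc_loc3 τ hτ0 O hfrac hic W₁ W₂ W₃ hO₁ hO₂ hO₃ hW₁top hW₂top hW₃top hred hD m hm 𝔫 h𝔫 h1
      ξ hξ0 hξW hξO hξ₁ (Or.inr h₂) (Or.inr h₃) hhor f hf hord
  refine ⟨hloc, fun hfW hfW' => ?_⟩
  have hn2 : ¬ ∀ x : ↥O, (x : F) ∈ W₂.nonunits → x ∈ 𝔫 := by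
    obtain ⟨r, hr, hrn⟩ := h₂
    exact fun h => hrn (h r hr)
  have hn3 : ¬ ∀ x : ↥O, (x : F) ∈ W₃.nonunits → x ∈ 𝔫 := by
    obtain ⟨r, hr, hrn⟩ := h₃
    exact fun h => hrn (h r hr)
  have hS : ∀ V : ValuationSubring F, V ∈ ({W₁, W₂, W₃} : Finset (ValuationSubring F)) →
      V = W₁ ∨ V = W₂ ∨ V = W₃ := by
    intro V hV
    simpa using hV
  refine s36u3_main τ hτ0 O 𝔫 {W₁, W₂, W₃} ?_ ?_ ?_ ?_ m f hf hloc ?_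
  · intro V hV
    rcases hS V hV with rfl | rfl | rfl
    exacts [hO₁, hO₂, hO₃]
  · intro x hx h
    exact hdiv x hx (h W₁ (by simp)) (h W₂ (by simp)) (h W₃ (by simp))
  · intro V hV hoff
    rcases hS V hV with rfl | rfl | rfl
    · exact absurd h1 hoff
    · exact hk₂
    · exact hk₃
  · intro V hV hth
    rcases hS V hV with rfl | rfl | rfl
    · refine ⟨ξ, hξ0, hξO, hξτ, hξdec, ?_⟩
      intro V' hV' hne hth'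
      rcases hS V' hV' with rfl | rfl | rfl
      · exact absurd rfl hne
      · exact absurd hth' hn2
      · exact absurd hth' hn3
    · exact absurd hth hn2
    · exact absurd hth hn3
  · intro V hV hth
    rcases hS V hV with rfl | rfl | rfl
    · exact ⟨hfW, hfW'⟩
    · exact absurd hth hn2
    · exact absurd hth hn3

/-- **The data at a point of the non-reduced component only**, from the `ε`-certificate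
`(π, om, c)` of `s36we_eps` (`π ∈ O_𝔫 ∩ 𝔪_{Wc}`, `om ∈ O_𝔫`, `c` a unit of `O_𝔫`,
`π ^ e / τ * om ≡ c` on `Wc`), a uniformiser `ϖ` of `Wc` in `hdec` form and killing witnesses
for `Wa`, `Wb`: (LOC) for every `f` with `hord`, and `S35Unit` if moreover `f` is a unit of
`Wc`. -/
theorem s36k3_wc (τ : A) (hτ0 : algebraMap A F τ ≠ 0) (O : Subalgebra A F)
    [IsNoetherianRing ↥O] (hfrac : ∀ x : F, ∃ a ∈ O, ∃ s ∈ O, s ≠ 0 ∧ x * s = a)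
    (hic : ∀ x : F, IsIntegral ↥O x → x ∈ O)
    (Wc Wa Wb : ValuationSubring F)
    (hOc : ∀ y ∈ O, y ∈ Wc) (hOa : ∀ y ∈ O, y ∈ Wa) (hOb : ∀ y ∈ O, y ∈ Wb)
    (hWctop : Wc ≠ ⊤) (hWatop : Wa ≠ ⊤) (hWbtop : Wb ≠ ⊤)
    (hred : ∀ x ∈ O, x ∈ Wc.nonunits → x ∈ Wa.nonunits → x ∈ Wb.nonunits →
      ∃ (N : ℕ), ∃ y ∈ O, x ^ N = algebraMap A F τ * y)
    (hdiv : ∀ x ∈ O, x * (algebraMap A F τ)⁻¹ ∈ Wc → x * (algebraMap A F τ)⁻¹ ∈ Wa →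
      x * (algebraMap A F τ)⁻¹ ∈ Wb → x * (algebraMap A F τ)⁻¹ ∈ O)
    (hD : ∀ 𝔭 : Ideal ↥O, (∀ x : ↥O, x ∈ 𝔭 ↔ (x : F) ∈ Wc.nonunits) →
      IsDedekindDomain (↥O ⧸ 𝔭))
    (m : ℕ) (hm : 0 < m)
    (𝔫 : Ideal ↥O) (h𝔫 : 𝔫.IsMaximal)
    (h1 : ∀ x : ↥O, (x : F) ∈ Wc.nonunits → x ∈ 𝔫)
    (ha : ∃ r : ↥O, (r : F) ∈ Wa.nonunits ∧ r ∉ 𝔫)
    (hb : ∃ r : ↥O, (r : F) ∈ Wb.nonunits ∧ r ∉ 𝔫)
    (hka : ∃ X : ↥O, X ∉ 𝔫 ∧ ∀ z : F, ∃ N : ℕ, z * (X : F) ^ N ∈ Wa)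
    (hkb : ∃ X : ↥O, X ∉ 𝔫 ∧ ∀ z : F, ∃ N : ℕ, z * (X : F) ^ N ∈ Wb)
    (e : ℕ) (he : 0 < e) (hE : ∀ y ∈ Wc.nonunits, y ^ e * (algebraMap A F τ)⁻¹ ∈ Wc)
    (ϖ : F) (hϖ : ϖ ∈ Wc.nonunits) (hϖ0 : ϖ ≠ 0)
    (hdecc : ∀ z : F, z ≠ 0 → ∃ j : ℤ, z * ϖ ^ j ∈ Wc ∧ (z * ϖ ^ j)⁻¹ ∈ Wc)
    (π : F) (hπO : ∃ a s : ↥O, s ∉ 𝔫 ∧ π * (s : F) = (a : F)) (hπc : π ∈ Wc.nonunits)
    (om c : F) (homO : ∃ a s : ↥O, s ∉ 𝔫 ∧ om * (s : F) = (a : F))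
    (hcO : ∃ a s : ↥O, a ∉ 𝔫 ∧ s ∉ 𝔫 ∧ c * (s : F) = (a : F))
    (hcong : π ^ e * (algebraMap A F τ)⁻¹ * om - c ∈ Wc.nonunits)
    (f : F) (hf : f ≠ 0)
    (hord : ∀ V : ValuationSubring F, (∀ a : A, algebraMap A F a ∈ V) →
        (algebraMap A F τ)⁻¹ ∈ V → IsPrincipalIdealRing V →
        ∃ u : F, u ≠ 0 ∧ f * u ^ m ∈ V ∧ (f * u ^ m)⁻¹ ∈ V) :
    S34Loc τ m O f 𝔫 ∧ (f ∈ Wc → f⁻¹ ∈ Wc → S35Unit m O 𝔫 f) := by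
  have hp : 𝔫.IsPrime := h𝔫.isPrime
  have hπe := s36we_eps τ hτ0 O hfrac hic Wc Wa Wb hOc hOa hOb hWctop hWatop hWbtop hred 𝔫 h1 ha
    hb e hE π hπO hπc om c homO hcO hcong
  obtain ⟨hπ0, hunif⟩ := s36we_unif τ hτ0 O Wc hOc 𝔫 h1 e he hE π hπe
  have hξdec := s36k3_hdec_of_unif Wc ϖ π hϖ hϖ0 hdecc hπc hπ0 hunif
  have hξτ : ∃ (a s : ↥O) (k : ℕ), s ∉ 𝔫 ∧ π * (a : F) = (s : F) * algebraMap A F τ ^ k := by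
    obtain ⟨a, s, ha', hs, h⟩ := hπe
    obtain ⟨aπ, sπ, hsπ, hπ⟩ := hπO
    obtain ⟨e', rfl⟩ : ∃ e', e = e' + 1 := ⟨e - 1, by omega⟩
    refine ⟨aπ ^ e' * s, a * sπ ^ e', 1, fun hmem => ?_, ?_⟩
    · rcases hp.mem_or_mem hmem with h2 | h2
      · exact ha' h2
      · exact hsπ (hp.mem_of_pow_mem _ h2)
    · push_cast
      rw [← hπ, pow_one]
      linear_combination (sπ : F) ^ e' * h
  exact s36k3_one τ hτ0 O hfrac hic Wc Wa Wb hOc hOa hOb hWctop hWatop hWbtop hred hdiv hD m hm 𝔫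
    h𝔫 h1 ha hb hka hkb π hπ0 hπc hπO hunif hξdec hξτ f hf hord

end Chart

end Fermat.Agent.S36
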