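import Mathlib
import Fermat.Agent.S35.CoreJ

/-!
# S36, package GLUE3: the gluing core over a special fibre with a non-reduced component

The abstract gluing core `s35j_main` (S35/CoreJ.lean) needs all congruences modulo `τ V'`.
At level `L q ^ 2` the semilocal ring `V' = W_a ∩ W_b ∩ W_c` of the three vertical valuations
has a component `W_c` of ramification index `q - 1`, and the natural congruences are only
modulo the radical `R = 𝔪_a ∩ 𝔪_b ∩ 𝔪_c`.  Since `(1 + z) ^ q ≡ 1` modulo `τ V'` for `z ∈ R`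
(`q ∈ τ V'` and `z ^ q ∈ τ V'`), it suffices to feed the `q`-th power to the core.

* `s36g_pow_sub_one`: `((1 + z) ^ q - 1) / τ ∈ V'` from `q / τ ∈ V'`, `z ∈ V'`, `z ^ q / τ ∈ V'`.
* `s36g_main`: the core for an abstract radical `R` (a set with the `q`-power property):
  `W ≡ 1` modulo `R` and local data `W * b = a * γ ^ m`, `b ∉ 𝔫`, `γ ≡ 1` modulo `R`, at every
  closed point of the special fibre of both charts give `W ^ q = w * G ^ m`.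
* `s36g_rad3`: the `q`-power property of the radical of three valuation subrings.
* `s36g_main3`: the core in the three-valuation form.
-/

set_option autoImplicit false
set_option linter.unusedSectionVars false
set_option linter.unusedVariables false

namespace Fermat.Agent.S36

open Fermat.Agent.S18 Fermat.Agent.S34 Fermat.Agent.S35

section Pow

variable {A F : Type*} [CommRing A] [Field F] [Algebra A F]

/-- `(1 + z) ^ q ≡ 1` modulo `τ V'` as soon as `q ∈ τ V'` and `z ^ q ∈ τ V'`. -/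
theorem s36g_pow_sub_one (V' : Subalgebra A F) (τ' : F) (q : ℕ) (hq : q.Prime)
    (hqτ : (q : F) * τ'⁻¹ ∈ V') (z : F) (hz : z ∈ V') (hzq : z ^ q * τ'⁻¹ ∈ V') :
    ((1 + z) ^ q - 1) * τ'⁻¹ ∈ V' := by
  obtain ⟨r, hr⟩ := exists_add_pow_prime_eq hq (1 : ↥V') ⟨z, hz⟩
  have h : (1 + z) ^ q = 1 + z ^ q + (q : F) * z * (r : F) := by
    have h1 := congrArg (Subtype.val) hr
    push_cast at h1
    rw [h1]
    ring
  have e : ((1 + z) ^ q - 1) * τ'⁻¹ = z ^ q * τ'⁻¹ + (q : F) * τ'⁻¹ * (z * (r : F)) := by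
    rw [h]
    ring
  rw [e]
  exact V'.add_mem hzq (V'.mul_mem hqτ (V'.mul_mem hz r.2))

end Pow

section Main

variable {A F : Type*} [CommRing A] [IsNoetherianRing A] [IsLocalRing A] [Field F] [Algebra A F]

/-- **GLUE3, abstract radical form.**  `R` is any set of functions with
`((1 + z) ^ q - 1) / τ ∈ V'` for `z ∈ R`.  If `W ≡ 1` modulo `R` and at every closed point `𝔫`
of the special fibre of both charts `W * b = a * γ ^ m` with `a, b` in the chart, `b ∉ 𝔫`,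
`γ ≡ 1` modulo `R`, then `W ^ q` is a constant times an `m`-th power.  All chart hypotheses
are those of `s35j_main` verbatim. -/
theorem s36g_main (τ : A) (hτ : τ ∈ IsLocalRing.maximalIdeal A) (m : ℕ) (hm2 : 2 ≤ m)
    (hmu : IsUnit (m : A)) (t : F) (ht : t ≠ 0) (O₀ O₁ V' : Subalgebra A F)
    (ht₀ : t ∈ O₀) (ht₁ : t⁻¹ ∈ O₁)
    (h01 : ∀ x ∈ O₀, ∃ n : ℕ, x * t⁻¹ ^ n ∈ O₁) (h10 : ∀ x ∈ O₁, ∃ n : ℕ, x * t ^ n ∈ O₀)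
    (hroot₀ : ∀ x : F, x ^ m ∈ O₀ → x ∈ O₀) (hroot₁ : ∀ x : F, x ^ m ∈ O₁ → x ∈ O₁)
    [IsNoetherianRing ↥O₀]
    (hfin : ∃ b₀ : Finset F, (∀ β ∈ b₀, β ∈ O₀) ∧ ∀ x ∈ O₀, x ∈ Submodule.span A
      (Set.image2 (fun (k : ℕ) (β : F) => t ^ k * β) Set.univ (b₀ : Set F)))
    (hfrac : ∀ x : F, ∃ ψ ∈ O₀, ψ ≠ 0 ∧ ψ * x ∈ O₀)
    (hV₀ : O₀ ≤ V') (hV₁ : O₁ ≤ V') (hrootV : ∀ x : F, x ^ m ∈ V' → x ∈ V')
    (hτinv : (algebraMap A F τ)⁻¹ ∉ V')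
    (hVunit : ∀ z : F, z * (algebraMap A F τ)⁻¹ ∈ V' → (1 + z)⁻¹ ∈ V')
    (hdiv₀ : ∀ x ∈ O₀, x * (algebraMap A F τ)⁻¹ ∈ V' → x * (algebraMap A F τ)⁻¹ ∈ O₀)
    (hdiv₁ : ∀ x ∈ O₁, x * (algebraMap A F τ)⁻¹ ∈ V' → x * (algebraMap A F τ)⁻¹ ∈ O₁)
    (h8 : ∀ x : F, x ∈ O₀ → x ∈ O₁ → x ∈ Set.range (algebraMap A F))
    (q : ℕ) (R : Set F)
    (hRq : ∀ z ∈ R, ((1 + z) ^ q - 1) * (algebraMap A F τ)⁻¹ ∈ V')
    (W : F) (h7 : W - 1 ∈ R)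
    (hloc₀ : ∀ 𝔫 : Ideal ↥O₀, 𝔫.IsMaximal → algebraMap A ↥O₀ τ ∈ 𝔫 →
      ∃ γ : F, γ - 1 ∈ R ∧ ∃ a b : ↥O₀, b ∉ 𝔫 ∧ W * (b : F) = (a : F) * γ ^ m)
    (hloc₁ : ∀ 𝔫 : Ideal ↥O₁, 𝔫.IsMaximal → algebraMap A ↥O₁ τ ∈ 𝔫 →
      ∃ γ : F, γ - 1 ∈ R ∧ ∃ a b : ↥O₁, b ∉ 𝔫 ∧ W * (b : F) = (a : F) * γ ^ m) :
    ∃ w : A, ∃ G : F, G ≠ 0 ∧ W ^ q = algebraMap A F w * G ^ m := by
  have hpow : ∀ z : F, z - 1 ∈ R → (z ^ q - 1) * (algebraMap A F τ)⁻¹ ∈ V' := by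
    intro z hz
    have h := hRq _ hz
    rwa [add_sub_cancel] at h
  have hdat : ∀ (O : Subalgebra A F), O ≤ V' →
      (∀ 𝔫 : Ideal ↥O, 𝔫.IsMaximal → algebraMap A ↥O τ ∈ 𝔫 →
        ∃ γ : F, γ - 1 ∈ R ∧ ∃ a b : ↥O, b ∉ 𝔫 ∧ W * (b : F) = (a : F) * γ ^ m) →
      ∀ 𝔫 : Ideal ↥O, 𝔫.IsMaximal → algebraMap A ↥O τ ∈ 𝔫 → ∀ c, c < m →
        ∃ x : ↥O, x ∉ 𝔫 ∧ ∃ y : F, y ^ m * (W ^ q) ^ c ∈ O ∧
          (y - (x : F)) * (algebraMap A F τ)⁻¹ ∈ V' := by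
    intro O hOV hloc 𝔫 h𝔫 hτ𝔫 c hc
    obtain ⟨γ, hγ, a, b, hb, hW⟩ := hloc 𝔫 h𝔫 hτ𝔫
    have hbq : b ^ q ∉ 𝔫 := fun h => hb (h𝔫.isPrime.mem_of_pow_mem q h)
    refine s35j_of_gamma m (W ^ q) O V' τ hOV hτinv hVunit 𝔫 (γ ^ q) (hpow γ hγ)
      (a ^ q) (b ^ q) hbq ?_ c hc.le
    rw [Subalgebra.coe_pow, Subalgebra.coe_pow, ← mul_pow, hW]
    ring
  exact s35j_main τ hτ m hm2 hmu t ht O₀ O₁ V' ht₀ ht₁ h01 h10 hroot₀ hroot₁ hfin hfrac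
    hV₀ hV₁ hrootV hτinv hVunit hdiv₀ hdiv₁ h8 (W ^ q) (hpow W h7)
    (hdat O₀ hV₀ hloc₀) (hdat O₁ hV₁ hloc₁)

end Main

section Three

variable {A F : Type*} [CommRing A] [Field F] [Algebra A F]

/-- a nonunit of a valuation subring lies in it -/
theorem s36g_nu_mem (V : ValuationSubring F) {z : F} (hz : z ∈ V.nonunits) : z ∈ V := by
  rw [ValuationSubring.mem_nonunits_iff] at hz
  exact (V.valuation_le_one_iff z).mp hz.le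

/-- ramification index at most `q`: `z ^ e / τ ∈ W` for nonunits `z` gives `z ^ q / τ ∈ W` -/
theorem s36g_gen_pow (V : ValuationSubring F) (τ' : F) (e q : ℕ) (he : e ≤ q)
    (hgen : ∀ z ∈ V.nonunits, z ^ e * τ'⁻¹ ∈ V) (z : F) (hz : z ∈ V.nonunits) :
    z ^ q * τ'⁻¹ ∈ V := by
  have e1 : z ^ q * τ'⁻¹ = z ^ (q - e) * (z ^ e * τ'⁻¹) := by
    rw [← mul_assoc, ← pow_add, Nat.sub_add_cancel he]
  rw [e1]
  exact V.mul_mem _ _ (pow_mem (s36g_nu_mem V hz) _) (hgen z hz)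

/-- **The `q`-power property of the radical of three valuation subrings**: if `q ∈ τ V'` and
the three ramification indices are at most `q`, then `(1 + z) ^ q ≡ 1` modulo `τ V'` for every
`z` in the three maximal ideals. -/
theorem s36g_rad3 (Wa Wb Wc : ValuationSubring F) (V' : Subalgebra A F)
    (hmem : ∀ z : F, z ∈ V' ↔ z ∈ Wa ∧ z ∈ Wb ∧ z ∈ Wc) (τ' : F) (q : ℕ) (hq : q.Prime)
    (hqτ : (q : F) * τ'⁻¹ ∈ V')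
    (ea eb ec : ℕ) (hea : ea ≤ q) (heb : eb ≤ q) (hec : ec ≤ q)
    (hgena : ∀ z ∈ Wa.nonunits, z ^ ea * τ'⁻¹ ∈ Wa)
    (hgenb : ∀ z ∈ Wb.nonunits, z ^ eb * τ'⁻¹ ∈ Wb)
    (hgenc : ∀ z ∈ Wc.nonunits, z ^ ec * τ'⁻¹ ∈ Wc)
    (z : F) (hza : z ∈ Wa.nonunits) (hzb : z ∈ Wb.nonunits) (hzc : z ∈ Wc.nonunits) :
    ((1 + z) ^ q - 1) * τ'⁻¹ ∈ V' :=
  s36g_pow_sub_one V' τ' q hq hqτ z
    ((hmem z).mpr ⟨s36g_nu_mem Wa hza, s36g_nu_mem Wb hzb, s36g_nu_mem Wc hzc⟩)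
    ((hmem _).mpr ⟨s36g_gen_pow Wa τ' ea q hea hgena z hza,
      s36g_gen_pow Wb τ' eb q heb hgenb z hzb, s36g_gen_pow Wc τ' ec q hec hgenc z hzc⟩)

end Three

section Main3

variable {A F : Type*} [CommRing A] [IsNoetherianRing A] [IsLocalRing A] [Field F] [Algebra A F]

/-- **GLUE3, three-valuation form.**  `W_a, W_b, W_c` are the vertical valuations of the two
charts, `τ` lies in the three maximal ideals, the residue characteristic `q` is a multiple of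
`τ` and the ramification indices `e_a, e_b, e_c` are at most `q` (at level `L q ^ 2`:
`1, 1, q - 1`).  If `W ≡ 1` modulo the three maximal ideals and at every closed point `𝔫` of
the special fibre of both charts `W * b = a * γ ^ m` with `a, b` in the chart, `b ∉ 𝔫` and
`γ ≡ 1` modulo the three maximal ideals, then `W ^ q = w * G ^ m` with `w ∈ A`. -/
theorem s36g_main3 (τ : A) (hτ : τ ∈ IsLocalRing.maximalIdeal A) (m : ℕ) (hm2 : 2 ≤ m)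
    (hmu : IsUnit (m : A)) (t : F) (ht : t ≠ 0) (O₀ O₁ : Subalgebra A F)
    (ht₀ : t ∈ O₀) (ht₁ : t⁻¹ ∈ O₁)
    (h01 : ∀ x ∈ O₀, ∃ n : ℕ, x * t⁻¹ ^ n ∈ O₁) (h10 : ∀ x ∈ O₁, ∃ n : ℕ, x * t ^ n ∈ O₀)
    (hroot₀ : ∀ x : F, x ^ m ∈ O₀ → x ∈ O₀) (hroot₁ : ∀ x : F, x ^ m ∈ O₁ → x ∈ O₁)
    [IsNoetherianRing ↥O₀]
    (hfin : ∃ b₀ : Finset F, (∀ β ∈ b₀, β ∈ O₀) ∧ ∀ x ∈ O₀, x ∈ Submodule.span A
      (Set.image2 (fun (k : ℕ) (β : F) => t ^ k * β) Set.univ (b₀ : Set F)))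
    (hfrac : ∀ x : F, ∃ ψ ∈ O₀, ψ ≠ 0 ∧ ψ * x ∈ O₀)
    (h8 : ∀ x : F, x ∈ O₀ → x ∈ O₁ → x ∈ Set.range (algebraMap A F))
    -- the three vertical valuations
    (Wa Wb Wc : ValuationSubring F)
    (hAa : ∀ a : A, algebraMap A F a ∈ Wa) (hAb : ∀ a : A, algebraMap A F a ∈ Wb)
    (hAc : ∀ a : A, algebraMap A F a ∈ Wc)
    (hV₀ : ∀ x ∈ O₀, x ∈ Wa ∧ x ∈ Wb ∧ x ∈ Wc) (hV₁ : ∀ x ∈ O₁, x ∈ Wa ∧ x ∈ Wb ∧ x ∈ Wc)
    (hτ0 : algebraMap A F τ ≠ 0)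
    (hτa : algebraMap A F τ ∈ Wa.nonunits) (hτb : algebraMap A F τ ∈ Wb.nonunits)
    (hτc : algebraMap A F τ ∈ Wc.nonunits)
    (hdiv₀ : ∀ x ∈ O₀, x * (algebraMap A F τ)⁻¹ ∈ Wa → x * (algebraMap A F τ)⁻¹ ∈ Wb →
      x * (algebraMap A F τ)⁻¹ ∈ Wc → x * (algebraMap A F τ)⁻¹ ∈ O₀)
    (hdiv₁ : ∀ x ∈ O₁, x * (algebraMap A F τ)⁻¹ ∈ Wa → x * (algebraMap A F τ)⁻¹ ∈ Wb →
      x * (algebraMap A F τ)⁻¹ ∈ Wc → x * (algebraMap A F τ)⁻¹ ∈ O₁)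
    -- the residue characteristic and the ramification indices
    (q : ℕ) (hq : q.Prime) (hqτ : ∃ a : A, (q : A) = τ * a)
    (ea eb ec : ℕ) (hea : ea ≤ q) (heb : eb ≤ q) (hec : ec ≤ q)
    (hgena : ∀ z ∈ Wa.nonunits, z ^ ea * (algebraMap A F τ)⁻¹ ∈ Wa)
    (hgenb : ∀ z ∈ Wb.nonunits, z ^ eb * (algebraMap A F τ)⁻¹ ∈ Wb)
    (hgenc : ∀ z ∈ Wc.nonunits, z ^ ec * (algebraMap A F τ)⁻¹ ∈ Wc)
    -- the function and its local data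
    (W : F) (h7a : W - 1 ∈ Wa.nonunits) (h7b : W - 1 ∈ Wb.nonunits)
    (h7c : W - 1 ∈ Wc.nonunits)
    (hloc₀ : ∀ 𝔫 : Ideal ↥O₀, 𝔫.IsMaximal → algebraMap A ↥O₀ τ ∈ 𝔫 →
      ∃ γ : F, γ - 1 ∈ Wa.nonunits ∧ γ - 1 ∈ Wb.nonunits ∧ γ - 1 ∈ Wc.nonunits ∧
        ∃ a b : ↥O₀, b ∉ 𝔫 ∧ W * (b : F) = (a : F) * γ ^ m)
    (hloc₁ : ∀ 𝔫 : Ideal ↥O₁, 𝔫.IsMaximal → algebraMap A ↥O₁ τ ∈ 𝔫 →
      ∃ γ : F, γ - 1 ∈ Wa.nonunits ∧ γ - 1 ∈ Wb.nonunits ∧ γ - 1 ∈ Wc.nonunits ∧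
        ∃ a b : ↥O₁, b ∉ 𝔫 ∧ W * (b : F) = (a : F) * γ ^ m) :
    ∃ w : A, ∃ G : F, G ≠ 0 ∧ W ^ q = algebraMap A F w * G ^ m := by
  classical
  have hm : 0 < m := by omega
  -- the subalgebra `W_a ∩ W_b ∩ W_c`
  let V' : Subalgebra A F :=
    { (Wa.toSubring ⊓ Wb.toSubring ⊓ Wc.toSubring).toSubsemiring with
      algebraMap_mem' := fun a => And.intro (And.intro (hAa a) (hAb a)) (hAc a) }
  have hmem : ∀ z : F, z ∈ V' ↔ z ∈ Wa ∧ z ∈ Wb ∧ z ∈ Wc := fun z => and_assoc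
  have hinv : ∀ V : ValuationSubring F, algebraMap A F τ ∈ V.nonunits →
      (algebraMap A F τ)⁻¹ ∉ V := fun V hV h =>
    cz_one_not_mem_nonunits V (by
      have := cz_nonunits_mul V hV h
      rwa [mul_inv_cancel₀ hτ0] at this)
  have hτinv : (algebraMap A F τ)⁻¹ ∉ V' := fun h => hinv Wa hτa ((hmem _).mp h).1
  have hVunit : ∀ z : F, z * (algebraMap A F τ)⁻¹ ∈ V' → (1 + z)⁻¹ ∈ V' := fun z hz =>
    (hmem _).mpr ⟨core_val_unit Wa _ z (hinv Wa hτa) ((hmem _).mp hz).1,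
      core_val_unit Wb _ z (hinv Wb hτb) ((hmem _).mp hz).2.1,
      core_val_unit Wc _ z (hinv Wc hτc) ((hmem _).mp hz).2.2⟩
  have hqτ' : ((q : ℕ) : F) * (algebraMap A F τ)⁻¹ ∈ V' := by
    obtain ⟨a, ha⟩ := hqτ
    have e : ((q : ℕ) : F) * (algebraMap A F τ)⁻¹ = algebraMap A F a := by
      have h1 : ((q : ℕ) : F) = algebraMap A F τ * algebraMap A F a := by
        rw [← map_mul, ← ha, map_natCast]
      rw [h1, mul_comm (algebraMap A F τ), mul_assoc, mul_inv_cancel₀ hτ0, mul_one]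
    rw [e]
    exact V'.algebraMap_mem a
  exact s36g_main τ hτ m hm2 hmu t ht O₀ O₁ V' ht₀ ht₁ h01 h10 hroot₀ hroot₁ hfin hfrac
    (fun z hz => (hmem z).mpr (hV₀ z hz)) (fun z hz => (hmem z).mpr (hV₁ z hz))
    (fun z hz => (hmem z).mpr ⟨core_val_root Wa m hm z ((hmem _).mp hz).1,
      core_val_root Wb m hm z ((hmem _).mp hz).2.1,
      core_val_root Wc m hm z ((hmem _).mp hz).2.2⟩)
    hτinv hVunit
    (fun z hz h => hdiv₀ z hz ((hmem _).mp h).1 ((hmem _).mp h).2.1 ((hmem _).mp h).2.2)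
    (fun z hz h => hdiv₁ z hz ((hmem _).mp h).1 ((hmem _).mp h).2.1 ((hmem _).mp h).2.2)
    h8 q {z : F | z ∈ Wa.nonunits ∧ z ∈ Wb.nonunits ∧ z ∈ Wc.nonunits}
    (fun z hz => s36g_rad3 Wa Wb Wc V' hmem _ q hq hqτ' ea eb ec hea heb hec hgena hgenb hgenc
      z hz.1 hz.2.1 hz.2.2)
    W ⟨h7a, h7b, h7c⟩
    (fun 𝔫 h𝔫 hτ𝔫 => by
      obtain ⟨γ, h1, h2, h3, h4⟩ := hloc₀ 𝔫 h𝔫 hτ𝔫
      exact ⟨γ, ⟨h1, h2, h3⟩, h4⟩)
    (fun 𝔫 h𝔫 hτ𝔫 => by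
      obtain ⟨γ, h1, h2, h3, h4⟩ := hloc₁ 𝔫 h𝔫 hτ𝔫
      exact ⟨γ, ⟨h1, h2, h3⟩, h4⟩)

end Main3

end Fermat.Agent.S36
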