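import Mathlib
import Fermat.Agent.S35.CorePt
import Fermat.Agent.S36.Glue3

/-!
# S36, package GLUE3 (ideal form): the gluing core with local data modulo the radical

`s36g_main3` (S36/Glue3.lean) asks the local datum in `γ`-form at every closed point of the
special fibre.  At a closed point lying on ONE component only the `γ`-form is not available
(the local unit need not be a unit on the other components); as in S35 the right datum is the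
ideal form: `x ∈ O ∖ 𝔫` and `y` with `y ^ m * W ^ c ∈ O` and `y ≡ x`.  Here the congruence is
asked modulo the three MAXIMAL ideals only; the `q`-th power `(x ^ q, y ^ q)` is then a datum
modulo `τ` for `W ^ q`.

* `s36gj_main`: the core for an abstract radical `R`.
* `s36gj_main3`: the three-valuation form.
* `s36gj_of_gamma`: the ideal form from the `γ`-form (triple points).
* `s36gj_of_dat`: the ideal form from a local datum `y₀` (`y₀ ^ m * W ^ c ∈ O_𝔫`) which is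
  `≡ 1` on the components through `𝔫`; for a component NOT through `𝔫` (some `X ∈ O ∖ 𝔫` lies
  in its maximal ideal) nothing is asked.
-/

set_option autoImplicit false
set_option linter.unusedSectionVars false
set_option linter.unusedVariables false

namespace Fermat.Agent.S36

open Fermat.Agent.S18 Fermat.Agent.S34 Fermat.Agent.S35

section JPow

variable {A F : Type*} [CommRing A] [Field F] [Algebra A F]

/-- `y ^ q ≡ x ^ q` modulo `τ V'` as soon as `q ∈ τ V'`, `x, y ∈ V'` and `(y - x) ^ q ∈ τ V'`. -/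
theorem s36gj_pow_sub_pow (V' : Subalgebra A F) (τ' : F) (q : ℕ) (hq : q.Prime)
    (hqτ : (q : F) * τ'⁻¹ ∈ V') (x y : F) (hx : x ∈ V') (hy : y ∈ V')
    (hzq : (y - x) ^ q * τ'⁻¹ ∈ V') : (y ^ q - x ^ q) * τ'⁻¹ ∈ V' := by
  have hz : y - x ∈ V' := V'.sub_mem hy hx
  obtain ⟨r, hr⟩ := exists_add_pow_prime_eq hq (⟨x, hx⟩ : ↥V') ⟨y - x, hz⟩
  have h : y ^ q = x ^ q + (y - x) ^ q + (q : F) * x * (y - x) * (r : F) := by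
    have h1 := congrArg (Subtype.val) hr
    push_cast at h1
    rw [← h1]
    ring
  have e : (y ^ q - x ^ q) * τ'⁻¹ =
      (y - x) ^ q * τ'⁻¹ + (q : F) * τ'⁻¹ * (x * (y - x) * (r : F)) := by
    rw [h]
    ring
  rw [e]
  exact V'.add_mem hzq (V'.mul_mem hqτ (V'.mul_mem (V'.mul_mem hx hz) r.2))

end JPow

section JMain

variable {A F : Type*} [CommRing A] [IsNoetherianRing A] [IsLocalRing A] [Field F] [Algebra A F]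

/-- **GLUE3, ideal form, abstract radical.**  `R` is a set of functions of `V'` with
`z ^ q / τ ∈ V'` for `z ∈ R`, and `q / τ ∈ V'`.  If `W ≡ 1` modulo `R` and at every closed
point `𝔫` of the special fibre of both charts, for every `c < m`, there are `x ∈ O ∖ 𝔫` and `y`
with `y ^ m * W ^ c ∈ O` and `y ≡ x` modulo `R`, then `W ^ q` is a constant times an `m`-th
power.  All chart hypotheses are those of `s35j_main` verbatim. -/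
theorem s36gj_main (τ : A) (hτ : τ ∈ IsLocalRing.maximalIdeal A) (m : ℕ) (hm2 : 2 ≤ m)
    (hmu : IsUnit (m : A)) (t : F) (ht : t ≠ 0) (O₀ O₁ V' : Subalgebra A F)
    (ht₀ : t ∈ O₀) (ht₁ : t⁻¹ ∈ O₁)
    (h01 : ∀ x ∈ O₀, ∃ n : ℕ, x * t⁻¹ ^ n ∈ O₁) (h10 : ∀ x ∈ O₁, ∃ n : ℕ, x * t ^ n ∈ O₀)
    (hroot₀ : ∀ x : F, x ^ m ∈ O₀ → x ∈ O₀) (hroot₁ : ∀ x : F, x ^ m ∈ O₁ → x ∈ O₁)
    [IsNoetherianRing ↥O₀]
    (hfin : ∃ b₀ : Finset F, (∀ β ∈ b₀, β ∈ O₀) ∧ ∀ x ∈ O₀, x ∈ Submodule.span A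
      (Set.image2 (fun (k : ℕ) (β : F) => t ^ k * β) Set.univ (b₀ : Set F)))
    (hfrac : ∀ x : F, ∃ ψ ∈ O₀, ψ ≠ 0 ∧ ψ * x ∈ O₀)
    (hV₀ : O₀ ≤ V') (hV₁ : O₁ ≤ V') (hrootV : ∀ x : F, x ^ m ∈ V' → x ∈ V')
    (hτinv : (algebraMap A F τ)⁻¹ ∉ V')
    (hVunit : ∀ z : F, z * (algebraMap A F τ)⁻¹ ∈ V' → (1 + z)⁻¹ ∈ V')
    (hdiv₀ : ∀ x ∈ O₀, x * (algebraMap A F τ)⁻¹ ∈ V' → x * (algebraMap A F τ)⁻¹ ∈ O₀)
    (hdiv₁ : ∀ x ∈ O₁, x * (algebraMap A F τ)⁻¹ ∈ V' → x * (algebraMap A F τ)⁻¹ ∈ O₁)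
    (h8 : ∀ x : F, x ∈ O₀ → x ∈ O₁ → x ∈ Set.range (algebraMap A F))
    (q : ℕ) (hq : q.Prime) (hqτ : (q : F) * (algebraMap A F τ)⁻¹ ∈ V')
    (R : Set F) (hRV : ∀ z ∈ R, z ∈ V')
    (hRq : ∀ z ∈ R, z ^ q * (algebraMap A F τ)⁻¹ ∈ V')
    (W : F) (h7 : W - 1 ∈ R)
    (hloc₀ : ∀ 𝔫 : Ideal ↥O₀, 𝔫.IsMaximal → algebraMap A ↥O₀ τ ∈ 𝔫 → ∀ c, c < m →
      ∃ x : ↥O₀, x ∉ 𝔫 ∧ ∃ y : F, y ^ m * W ^ c ∈ O₀ ∧ y - (x : F) ∈ R)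
    (hloc₁ : ∀ 𝔫 : Ideal ↥O₁, 𝔫.IsMaximal → algebraMap A ↥O₁ τ ∈ 𝔫 → ∀ c, c < m →
      ∃ x : ↥O₁, x ∉ 𝔫 ∧ ∃ y : F, y ^ m * W ^ c ∈ O₁ ∧ y - (x : F) ∈ R) :
    ∃ w : A, ∃ G : F, G ≠ 0 ∧ W ^ q = algebraMap A F w * G ^ m := by
  have h7' : (W ^ q - 1) * (algebraMap A F τ)⁻¹ ∈ V' := by
    have hW : W ∈ V' := by
      have : W = (W - 1) + 1 := by ring
      rw [this]
      exact V'.add_mem (hRV _ h7) V'.one_mem
    have h := s36gj_pow_sub_pow V' _ q hq hqτ 1 W V'.one_mem hW (hRq _ h7)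
    rwa [one_pow] at h
  have hdat : ∀ (O : Subalgebra A F), O ≤ V' →
      (∀ 𝔫 : Ideal ↥O, 𝔫.IsMaximal → algebraMap A ↥O τ ∈ 𝔫 → ∀ c, c < m →
        ∃ x : ↥O, x ∉ 𝔫 ∧ ∃ y : F, y ^ m * W ^ c ∈ O ∧ y - (x : F) ∈ R) →
      ∀ 𝔫 : Ideal ↥O, 𝔫.IsMaximal → algebraMap A ↥O τ ∈ 𝔫 → ∀ c, c < m →
        ∃ x : ↥O, x ∉ 𝔫 ∧ ∃ y : F, y ^ m * (W ^ q) ^ c ∈ O ∧
          (y - (x : F)) * (algebraMap A F τ)⁻¹ ∈ V' := by
    intro O hOV hloc 𝔫 h𝔫 hτ𝔫 c hc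
    obtain ⟨x, hx, y, hy, hyx⟩ := hloc 𝔫 h𝔫 hτ𝔫 c hc
    have hxV : (x : F) ∈ V' := hOV x.2
    have hyV : y ∈ V' := by
      have : y = (y - (x : F)) + (x : F) := by ring
      rw [this]
      exact V'.add_mem (hRV _ hyx) hxV
    refine ⟨x ^ q, fun h => hx (h𝔫.isPrime.mem_of_pow_mem q h), y ^ q, ?_, ?_⟩
    · have e : (y ^ q) ^ m * (W ^ q) ^ c = (y ^ m * W ^ c) ^ q := by ring
      rw [e]
      exact O.pow_mem hy q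
    · rw [Subalgebra.coe_pow]
      exact s36gj_pow_sub_pow V' _ q hq hqτ _ _ hxV hyV (hRq _ hyx)
  exact s35j_main τ hτ m hm2 hmu t ht O₀ O₁ V' ht₀ ht₁ h01 h10 hroot₀ hroot₁ hfin hfrac
    hV₀ hV₁ hrootV hτinv hVunit hdiv₀ hdiv₁ h8 (W ^ q) h7'
    (hdat O₀ hV₀ hloc₀) (hdat O₁ hV₁ hloc₁)

/-- **GLUE3, ideal form, three valuations.**  Same hypotheses as `s36g_main3`, with the local
datum in ideal form modulo the three maximal ideals. -/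
theorem s36gj_main3 (τ : A) (hτ : τ ∈ IsLocalRing.maximalIdeal A) (m : ℕ) (hm2 : 2 ≤ m)
    (hmu : IsUnit (m : A)) (t : F) (ht : t ≠ 0) (O₀ O₁ : Subalgebra A F)
    (ht₀ : t ∈ O₀) (ht₁ : t⁻¹ ∈ O₁)
    (h01 : ∀ x ∈ O₀, ∃ n : ℕ, x * t⁻¹ ^ n ∈ O₁) (h10 : ∀ x ∈ O₁, ∃ n : ℕ, x * t ^ n ∈ O₀)
    (hroot₀ : ∀ x : F, x ^ m ∈ O₀ → x ∈ O₀) (hroot₁ : ∀ x : F, x ^ m ∈ O₁ → x ∈ O₁)
    [IsNoetherianRing ↥O₀]
    (hfin : ∃ b₀ : Finset F, (∀ β ∈ b₀, β ∈ O₀) ∧ ∀ x ∈ O₀, x ∈ Submodule.span A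
      (Set.image2 (fun (k : ℕ) (β : F) => t ^ k * β) Set.univ (b₀ : Set F)))
    (hfrac : ∀ x : F, ∃ ψ ∈ O₀, ψ ≠ 0 ∧ ψ * x ∈ O₀)
    (h8 : ∀ x : F, x ∈ O₀ → x ∈ O₁ → x ∈ Set.range (algebraMap A F))
    -- the three vertical valuations
    (Wa Wb Wc : ValuationSubring F)
    (hAa : ∀ a : A, algebraMap A F a ∈ Wa) (hAb : ∀ a : A, algebraMap A F a ∈ Wb)
    (hAc : ∀ a : A, algebraMap A F a ∈ Wc)
    (hV₀ : ∀ x ∈ O₀, x ∈ Wa ∧ x ∈ Wb ∧ x ∈ Wc) (hV₁ : ∀ x ∈ O₁, x ∈ Wa ∧ x ∈ Wb ∧ x ∈ Wc)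
    (hτ0 : algebraMap A F τ ≠ 0)
    (hτa : algebraMap A F τ ∈ Wa.nonunits) (hτb : algebraMap A F τ ∈ Wb.nonunits)
    (hτc : algebraMap A F τ ∈ Wc.nonunits)
    (hdiv₀ : ∀ x ∈ O₀, x * (algebraMap A F τ)⁻¹ ∈ Wa → x * (algebraMap A F τ)⁻¹ ∈ Wb →
      x * (algebraMap A F τ)⁻¹ ∈ Wc → x * (algebraMap A F τ)⁻¹ ∈ O₀)
    (hdiv₁ : ∀ x ∈ O₁, x * (algebraMap A F τ)⁻¹ ∈ Wa → x * (algebraMap A F τ)⁻¹ ∈ Wb →
      x * (algebraMap A F τ)⁻¹ ∈ Wc → x * (algebraMap A F τ)⁻¹ ∈ O₁)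
    -- the residue characteristic and the ramification indices (level `L q ^ 2`: `1, 1, q - 1`)
    (q : ℕ) (hq : q.Prime) (hqτ : ∃ a : A, (q : A) = τ * a)
    (ea eb ec : ℕ) (hea : ea ≤ q) (heb : eb ≤ q) (hec : ec ≤ q)
    (hgena : ∀ z ∈ Wa.nonunits, z ^ ea * (algebraMap A F τ)⁻¹ ∈ Wa)
    (hgenb : ∀ z ∈ Wb.nonunits, z ^ eb * (algebraMap A F τ)⁻¹ ∈ Wb)
    (hgenc : ∀ z ∈ Wc.nonunits, z ^ ec * (algebraMap A F τ)⁻¹ ∈ Wc)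
    -- the function and its local data
    (W : F) (h7a : W - 1 ∈ Wa.nonunits) (h7b : W - 1 ∈ Wb.nonunits)
    (h7c : W - 1 ∈ Wc.nonunits)
    (hloc₀ : ∀ 𝔫 : Ideal ↥O₀, 𝔫.IsMaximal → algebraMap A ↥O₀ τ ∈ 𝔫 → ∀ c, c < m →
      ∃ x : ↥O₀, x ∉ 𝔫 ∧ ∃ y : F, y ^ m * W ^ c ∈ O₀ ∧ y - (x : F) ∈ Wa.nonunits ∧
        y - (x : F) ∈ Wb.nonunits ∧ y - (x : F) ∈ Wc.nonunits)
    (hloc₁ : ∀ 𝔫 : Ideal ↥O₁, 𝔫.IsMaximal → algebraMap A ↥O₁ τ ∈ 𝔫 → ∀ c, c < m →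
      ∃ x : ↥O₁, x ∉ 𝔫 ∧ ∃ y : F, y ^ m * W ^ c ∈ O₁ ∧ y - (x : F) ∈ Wa.nonunits ∧
        y - (x : F) ∈ Wb.nonunits ∧ y - (x : F) ∈ Wc.nonunits) :
    ∃ w : A, ∃ G : F, G ≠ 0 ∧ W ^ q = algebraMap A F w * G ^ m := by
  classical
  have hm : 0 < m := by omega
  let V' : Subalgebra A F :=
    { (Wa.toSubring ⊓ Wb.toSubring ⊓ Wc.toSubring).toSubsemiring with
      algebraMap_mem' := fun a => And.intro (And.intro (hAa a) (hAb a)) (hAc a) }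
  have hmem : ∀ z : F, z ∈ V' ↔ z ∈ Wa ∧ z ∈ Wb ∧ z ∈ Wc := fun z => and_assoc
  have hinv : ∀ V : ValuationSubring F, algebraMap A F τ ∈ V.nonunits →
      (algebraMap A F τ)⁻¹ ∉ V := fun V hV h =>
    cz_one_not_mem_nonunits V (by
      have := cz_nonunits_mul V hV h
      rwa [mul_inv_cancel₀ hτ0] at this)
  have hτinv : (algebraMap A F τ)⁻¹ ∉ V' := fun h => hinv Wa hτa ((hmem _).mp h).1
  have hVunit : ∀ z : F, z * (algebraMap A F τ)⁻¹ ∈ V' → (1 + z)⁻¹ ∈ V' := fun z hz =>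
    (hmem _).mpr ⟨core_val_unit Wa _ z (hinv Wa hτa) ((hmem _).mp hz).1,
      core_val_unit Wb _ z (hinv Wb hτb) ((hmem _).mp hz).2.1,
      core_val_unit Wc _ z (hinv Wc hτc) ((hmem _).mp hz).2.2⟩
  have hqτ' : ((q : ℕ) : F) * (algebraMap A F τ)⁻¹ ∈ V' := by
    obtain ⟨a, ha⟩ := hqτ
    have e : ((q : ℕ) : F) * (algebraMap A F τ)⁻¹ = algebraMap A F a := by
      have h1 : ((q : ℕ) : F) = algebraMap A F τ * algebraMap A F a := by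
        rw [← map_mul, ← ha, map_natCast]
      rw [h1, mul_comm (algebraMap A F τ), mul_assoc, mul_inv_cancel₀ hτ0, mul_one]
    rw [e]
    exact V'.algebraMap_mem a
  have repack : ∀ (O : Subalgebra A F),
      (∀ 𝔫 : Ideal ↥O, 𝔫.IsMaximal → algebraMap A ↥O τ ∈ 𝔫 → ∀ c, c < m →
        ∃ x : ↥O, x ∉ 𝔫 ∧ ∃ y : F, y ^ m * W ^ c ∈ O ∧ y - (x : F) ∈ Wa.nonunits ∧
          y - (x : F) ∈ Wb.nonunits ∧ y - (x : F) ∈ Wc.nonunits) →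
      ∀ 𝔫 : Ideal ↥O, 𝔫.IsMaximal → algebraMap A ↥O τ ∈ 𝔫 → ∀ c, c < m →
        ∃ x : ↥O, x ∉ 𝔫 ∧ ∃ y : F, y ^ m * W ^ c ∈ O ∧
          y - (x : F) ∈ {z : F | z ∈ Wa.nonunits ∧ z ∈ Wb.nonunits ∧ z ∈ Wc.nonunits} := by
    intro O hloc 𝔫 h𝔫 hτ𝔫 c hc
    obtain ⟨x, hx, y, hy, h1, h2, h3⟩ := hloc 𝔫 h𝔫 hτ𝔫 c hc
    exact ⟨x, hx, y, hy, h1, h2, h3⟩
  exact s36gj_main τ hτ m hm2 hmu t ht O₀ O₁ V' ht₀ ht₁ h01 h10 hroot₀ hroot₁ hfin hfrac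
    (fun z hz => (hmem z).mpr (hV₀ z hz)) (fun z hz => (hmem z).mpr (hV₁ z hz))
    (fun z hz => (hmem z).mpr ⟨core_val_root Wa m hm z ((hmem _).mp hz).1,
      core_val_root Wb m hm z ((hmem _).mp hz).2.1,
      core_val_root Wc m hm z ((hmem _).mp hz).2.2⟩)
    hτinv hVunit
    (fun z hz h => hdiv₀ z hz ((hmem _).mp h).1 ((hmem _).mp h).2.1 ((hmem _).mp h).2.2)
    (fun z hz h => hdiv₁ z hz ((hmem _).mp h).1 ((hmem _).mp h).2.1 ((hmem _).mp h).2.2)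
    h8 q hq hqτ' {z : F | z ∈ Wa.nonunits ∧ z ∈ Wb.nonunits ∧ z ∈ Wc.nonunits}
    (fun z hz => (hmem z).mpr ⟨s36g_nu_mem Wa hz.1, s36g_nu_mem Wb hz.2.1,
      s36g_nu_mem Wc hz.2.2⟩)
    (fun z hz => (hmem _).mpr ⟨s36g_gen_pow Wa _ ea q hea hgena z hz.1,
      s36g_gen_pow Wb _ eb q heb hgenb z hz.2.1, s36g_gen_pow Wc _ ec q hec hgenc z hz.2.2⟩)
    W ⟨h7a, h7b, h7c⟩ (repack O₀ hloc₀) (repack O₁ hloc₁)

end JMain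

section JDat

variable {A F : Type*} [CommRing A] [Field F] [Algebra A F]

/-- The ideal form of the local datum from the `γ`-form (`γ ≡ 1` on the three valuations). -/
theorem s36gj_of_gamma (O : Subalgebra A F) (𝔫 : Ideal ↥O) (Wa Wb Wc : ValuationSubring F)
    (hOWa : ∀ x ∈ O, x ∈ Wa) (hOWb : ∀ x ∈ O, x ∈ Wb) (hOWc : ∀ x ∈ O, x ∈ Wc)
    (m : ℕ) (W γ : F) (hγa : γ - 1 ∈ Wa.nonunits) (hγb : γ - 1 ∈ Wb.nonunits)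
    (hγc : γ - 1 ∈ Wc.nonunits)
    (a b : ↥O) (hb : b ∉ 𝔫) (h : W * (b : F) = (a : F) * γ ^ m) (c : ℕ) (hc : c ≤ m) :
    ∃ x : ↥O, x ∉ 𝔫 ∧ ∃ y : F, y ^ m * W ^ c ∈ O ∧ y - (x : F) ∈ Wa.nonunits ∧
      y - (x : F) ∈ Wb.nonunits ∧ y - (x : F) ∈ Wc.nonunits := by
  have hb0 : (b : F) ≠ 0 := by
    intro h0
    apply hb
    have : b = 0 := Subtype.ext h0
    rw [this]
    exact 𝔫.zero_mem
  have hγ0 : γ ≠ 0 := by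
    intro h0
    apply s35pt_one_not_nu Wa
    have : (1 : F) = -(γ - 1) := by rw [h0]; ring
    rw [this]
    exact s35pt_nu_neg Wa hγa
  have key : ∀ V : ValuationSubring F, (∀ x ∈ O, x ∈ V) → γ - 1 ∈ V.nonunits →
      (b : F) * γ⁻¹ ^ c - (b : F) ∈ V.nonunits := by
    intro V hOV hγ
    have hγnu : γ ∉ V.nonunits := by
      intro h1
      apply s35pt_one_not_nu V
      have : (1 : F) = γ - (γ - 1) := by ring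
      rw [this]
      exact s35pt_nu_sub V h1 hγ
    have hγinv : γ⁻¹ ∈ V := s35pt_inv_mem V hγnu
    have h1 : γ⁻¹ - 1 ∈ V.nonunits := by
      have : γ⁻¹ - 1 = -(γ - 1) * γ⁻¹ := by field_simp; ring
      rw [this]
      exact s35pt_nu_mul V (s35pt_nu_neg V hγ) hγinv
    have h2 := s35pt_nu_sub_pow V hγinv V.one_mem h1 c
    rw [one_pow] at h2
    have e : (b : F) * γ⁻¹ ^ c - (b : F) = (γ⁻¹ ^ c - 1) * (b : F) := by ring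
    rw [e]
    exact s35pt_nu_mul V h2 (hOV _ b.2)
  refine ⟨b, hb, (b : F) * γ⁻¹ ^ c, ?_, key Wa hOWa hγa, key Wb hOWb hγb, key Wc hOWc hγc⟩
  have hpp : (γ⁻¹ ^ c) ^ m * (γ ^ m) ^ c = 1 := by
    rw [← pow_mul, ← pow_mul, mul_comm c m, ← mul_pow, inv_mul_cancel₀ hγ0, one_pow]
  have hbc : (b : F) ^ c ≠ 0 := pow_ne_zero c hb0
  have e : ((b : F) * γ⁻¹ ^ c) ^ m * W ^ c = (b : F) ^ (m - c) * (a : F) ^ c := by
    apply mul_right_cancel₀ hbc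
    calc ((b : F) * γ⁻¹ ^ c) ^ m * W ^ c * (b : F) ^ c
        = (b : F) ^ m * ((γ⁻¹ ^ c) ^ m * (W * b) ^ c) := by ring
      _ = (b : F) ^ m * (a : F) ^ c * ((γ⁻¹ ^ c) ^ m * (γ ^ m) ^ c) := by rw [h]; ring
      _ = (b : F) ^ m * (a : F) ^ c := by rw [hpp, mul_one]
      _ = (b : F) ^ (m - c) * (a : F) ^ c * (b : F) ^ c := by
        rw [mul_right_comm, ← pow_add, Nat.sub_add_cancel hc]
  rw [e]
  exact O.mul_mem (O.pow_mem b.2 _) (O.pow_mem a.2 _)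

/-- One valuation `V` in the passage from a local datum to the ideal form: either `y₀ ≡ 1` on
`V`, or the point lies off the component (`X ∈ 𝔪_V`, `X ∉ 𝔫`). -/
theorem s36gj_step (O : Subalgebra A F) (𝔫 : Ideal ↥O) [h𝔫 : 𝔫.IsPrime]
    (V : ValuationSubring F) (hOV : ∀ x ∈ O, x ∈ V) (s : ↥O) (y₀ : F)
    (hsy : (s : F) * y₀ ∈ V)
    (h : y₀ - 1 ∈ V.nonunits ∨ ∃ X : ↥O, (X : F) ∈ V.nonunits ∧ X ∉ 𝔫) :
    ∃ X : ↥O, X ∉ 𝔫 ∧ ∀ Z : ↥O, (Z : F) * (X : F) * ((s : F) * y₀ - (s : F)) ∈ V.nonunits := by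
  rcases h with h | ⟨X, hX, hX𝔫⟩
  · refine ⟨1, fun h1 => h𝔫.ne_top ((Ideal.eq_top_iff_one 𝔫).mpr h1), fun Z => ?_⟩
    have e : (Z : F) * ((1 : ↥O) : F) * ((s : F) * y₀ - (s : F)) =
        (y₀ - 1) * ((Z : F) * (s : F)) := by
      push_cast
      ring
    rw [e]
    exact s35pt_nu_mul V h (V.mul_mem _ _ (hOV _ Z.2) (hOV _ s.2))
  · refine ⟨X, hX𝔫, fun Z => ?_⟩
    have e : (Z : F) * (X : F) * ((s : F) * y₀ - (s : F)) =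
        (X : F) * ((Z : F) * ((s : F) * y₀ - (s : F))) := by ring
    rw [e]
    exact s35pt_nu_mul V hX (V.mul_mem _ _ (hOV _ Z.2) (V.sub_mem hsy (hOV _ s.2)))

/-- **The ideal form from a local datum.**  `y₀ ^ m * W ^ c ∈ O_𝔫`; for each of the three
valuations either `y₀ ≡ 1` on it, or the closed point `𝔫` lies off the corresponding component
(some `X ∈ O ∖ 𝔫` lies in its maximal ideal).  Then the ideal-form datum of `s36gj_main3`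
exists at `𝔫`. -/
theorem s36gj_of_dat (O : Subalgebra A F) (𝔫 : Ideal ↥O) [h𝔫 : 𝔫.IsPrime]
    (Wa Wb Wc : ValuationSubring F)
    (hOWa : ∀ x ∈ O, x ∈ Wa) (hOWb : ∀ x ∈ O, x ∈ Wb) (hOWc : ∀ x ∈ O, x ∈ Wc)
    (m : ℕ) (hm : 0 < m) (W : F) (hW0 : W ≠ 0)
    (hWa : W⁻¹ ∈ Wa) (hWb : W⁻¹ ∈ Wb) (hWc : W⁻¹ ∈ Wc) (c : ℕ)
    (y₀ : F) (hy₀ : y₀ ^ m * W ^ c ∈ ndrLoc O 𝔫)
    (ha : y₀ - 1 ∈ Wa.nonunits ∨ ∃ X : ↥O, (X : F) ∈ Wa.nonunits ∧ X ∉ 𝔫)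
    (hb : y₀ - 1 ∈ Wb.nonunits ∨ ∃ X : ↥O, (X : F) ∈ Wb.nonunits ∧ X ∉ 𝔫)
    (hc : y₀ - 1 ∈ Wc.nonunits ∨ ∃ X : ↥O, (X : F) ∈ Wc.nonunits ∧ X ∉ 𝔫) :
    ∃ x : ↥O, x ∉ 𝔫 ∧ ∃ y : F, y ^ m * W ^ c ∈ O ∧ y - (x : F) ∈ Wa.nonunits ∧
      y - (x : F) ∈ Wb.nonunits ∧ y - (x : F) ∈ Wc.nonunits := by
  obtain ⟨a, s, hs, h⟩ := hy₀
  obtain ⟨k, rfl⟩ : ∃ k, m = k + 1 := ⟨m - 1, by omega⟩
  have hkey : ((s : F) * y₀) ^ (k + 1) * W ^ c = (s : F) ^ k * (a : F) := by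
    rw [← h]; ring
  have hsy : ∀ V : ValuationSubring F, (∀ x ∈ O, x ∈ V) → W⁻¹ ∈ V → (s : F) * y₀ ∈ V := by
    intro V hOV hWV
    apply core_val_root V (k + 1) (Nat.succ_pos k)
    have e : ((s : F) * y₀) ^ (k + 1) = (s : F) ^ k * (a : F) * (W⁻¹) ^ c := by
      rw [← hkey]
      have : W ^ c * W⁻¹ ^ c = 1 := by rw [← mul_pow, mul_inv_cancel₀ hW0, one_pow]
      rw [mul_assoc, this, mul_one]
    rw [e]
    exact V.mul_mem _ _ (V.mul_mem _ _ (V.pow_mem (hOV _ s.2) _) (hOV _ a.2)) (V.pow_mem hWV _)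
  obtain ⟨Xa, hXa, hZa⟩ := s36gj_step O 𝔫 Wa hOWa s y₀ (hsy Wa hOWa hWa) ha
  obtain ⟨Xb, hXb, hZb⟩ := s36gj_step O 𝔫 Wb hOWb s y₀ (hsy Wb hOWb hWb) hb
  obtain ⟨Xc, hXc, hZc⟩ := s36gj_step O 𝔫 Wc hOWc s y₀ (hsy Wc hOWc hWc) hc
  have hX : Xa * Xb * Xc ∉ 𝔫 := fun hh =>
    (h𝔫.mem_or_mem hh).elim (fun h2 => (h𝔫.mem_or_mem h2).elim hXa hXb) hXc
  refine ⟨Xa * Xb * Xc * s, fun hh => (h𝔫.mem_or_mem hh).elim hX hs,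
    ((Xa * Xb * Xc : ↥O) : F) * ((s : F) * y₀), ?_, ?_, ?_, ?_⟩
  · have e : (((Xa * Xb * Xc : ↥O) : F) * ((s : F) * y₀)) ^ (k + 1) * W ^ c =
        ((Xa * Xb * Xc : ↥O) : F) ^ (k + 1) * (((s : F) * y₀) ^ (k + 1) * W ^ c) := by ring
    rw [e, hkey]
    exact O.mul_mem (O.pow_mem (Xa * Xb * Xc).2 _) (O.mul_mem (O.pow_mem s.2 _) a.2)
  · have e : ((Xa * Xb * Xc : ↥O) : F) * ((s : F) * y₀) - ((Xa * Xb * Xc * s : ↥O) : F) =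
        ((Xb * Xc : ↥O) : F) * (Xa : F) * ((s : F) * y₀ - (s : F)) := by
      push_cast
      ring
    rw [e]
    exact hZa _
  · have e : ((Xa * Xb * Xc : ↥O) : F) * ((s : F) * y₀) - ((Xa * Xb * Xc * s : ↥O) : F) =
        ((Xa * Xc : ↥O) : F) * (Xb : F) * ((s : F) * y₀ - (s : F)) := by
      push_cast
      ring
    rw [e]
    exact hZb _
  · have e : ((Xa * Xb * Xc : ↥O) : F) * ((s : F) * y₀) - ((Xa * Xb * Xc * s : ↥O) : F) =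
        ((Xa * Xb : ↥O) : F) * (Xc : F) * ((s : F) * y₀ - (s : F)) := by
      push_cast
      ring
    rw [e]
    exact hZc _

end JDat

end Fermat.Agent.S36
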