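import Mathlib
import Fermat.Agent.S34.LocRing
import Fermat.Agent.S35.CorePt
import Fermat.Agent.S36.Glue3J

/-!
# S36: from the local datum (`S36Dat`, written out) to the ideal-form datum of GLUE3

The seam predicate `S36Dat m q O 𝔫 S W` of the blueprint (contract CORE-DAT) says: some
`q`-power `W ^ (q ^ k)` is `(a / s) * g ^ m` with `s ∉ 𝔫`, and `g ≡ r / s₀` (`r, s₀ ∈ O ∖ 𝔫`)
modulo the maximal ideal of every `V ∈ S` through `𝔫`.  This file proves, with the datum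
WRITTEN OUT (no definition is declared here, so nothing can clash with the owner's file):

* `s36dj_j_of_loc`: the ideal-form datum from a local datum `y₀` for a FINITE family `S` of
  valuations (for each `V ∈ S`: `y₀ ≡ 1` on `V`, or the point lies off the component of `V`);
* `s36dj_j_of_dat`: if `q` and `m` are coprime and `W ≡ 1` on every `V ∈ S`, the datum gives
  the ideal-form datum of `s36gj_main3` FOR `W` ITSELF: the exponent `q ^ k` is removed by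
  Bezout (`u * q ^ k = 1 + v * m` gives `W = (a / s) ^ u * (g ^ u / W ^ v) ^ m`).
-/

set_option autoImplicit false
set_option linter.unusedSectionVars false
set_option linter.unusedVariables false

namespace Fermat.Agent.S36

open Fermat.Agent.S18 Fermat.Agent.S34 Fermat.Agent.S35

section Dat

variable {A F : Type*} [CommRing A] [Field F] [Algebra A F]

/-- Bezout with natural numbers. -/
theorem s36dj_bezout (n m : ℕ) (hn : 0 < n) (hm : 0 < m) (h : Nat.Coprime n m) :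
    ∃ u v : ℕ, u * n = 1 + v * m := by
  rcases Nat.lt_or_ge 1 m with hm1 | hm1
  · obtain ⟨u, -, hu⟩ := Nat.exists_mul_mod_eq_one_of_coprime h hm1
    refine ⟨u, n * u / m, ?_⟩
    have h1 := Nat.div_add_mod (n * u) m
    rw [hu] at h1
    calc u * n = n * u := mul_comm _ _
      _ = m * (n * u / m) + 1 := h1.symm
      _ = 1 + n * u / m * m := by ring
  · have hm' : m = 1 := by omega
    subst hm'
    exact ⟨1, n - 1, by omega⟩

/-- `x ≡ 1` modulo `𝔪_V` is stable under products. -/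
theorem s36dj_one_mul (V : ValuationSubring F) {x y : F} (hx : x - 1 ∈ V.nonunits)
    (hy : y - 1 ∈ V.nonunits) : x * y - 1 ∈ V.nonunits := by
  have hyV : y ∈ V := by
    have : y = (y - 1) + 1 := by ring
    rw [this]
    exact V.add_mem _ _ (s35pt_nu_mem V hy) V.one_mem
  have e : x * y - 1 = (x - 1) * y + (y - 1) := by ring
  rw [e]
  exact s35pt_nu_add V (s35pt_nu_mul V hx hyV) hy

/-- `x ≡ 1` modulo `𝔪_V` is stable under powers. -/
theorem s36dj_one_pow (V : ValuationSubring F) {x : F} (hx : x - 1 ∈ V.nonunits) (k : ℕ) :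
    x ^ k - 1 ∈ V.nonunits := by
  have hxV : x ∈ V := by
    have : x = (x - 1) + 1 := by ring
    rw [this]
    exact V.add_mem _ _ (s35pt_nu_mem V hx) V.one_mem
  have h := s35pt_nu_sub_pow V hxV V.one_mem hx k
  rwa [one_pow] at h

/-- `x ≡ 1` modulo `𝔪_V` is stable under inversion. -/
theorem s36dj_one_inv (V : ValuationSubring F) {x : F} (hx : x - 1 ∈ V.nonunits) :
    x ≠ 0 ∧ x⁻¹ ∈ V ∧ x⁻¹ - 1 ∈ V.nonunits := by
  have hxnu : x ∉ V.nonunits := by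
    intro h1
    apply s35pt_one_not_nu V
    have : (1 : F) = x - (x - 1) := by ring
    rw [this]
    exact s35pt_nu_sub V h1 hx
  have hx0 : x ≠ 0 := fun h0 => hxnu (by rw [h0]; exact s35pt_nu_zero V)
  have hxinv : x⁻¹ ∈ V := s35pt_inv_mem V hxnu
  refine ⟨hx0, hxinv, ?_⟩
  have : x⁻¹ - 1 = -(x - 1) * x⁻¹ := by field_simp; ring
  rw [this]
  exact s35pt_nu_mul V (s35pt_nu_neg V hx) hxinv

/-- The ideal form from a local datum `y₀`, for a finite family `S` of valuations: for each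
`V ∈ S` either `y₀ ≡ 1` on `V` or the point lies off the component of `V`. -/
theorem s36dj_j_of_loc (O : Subalgebra A F) (𝔫 : Ideal ↥O) [h𝔫 : 𝔫.IsPrime]
    (S : Finset (ValuationSubring F)) (hOV : ∀ V ∈ S, ∀ x ∈ O, x ∈ V)
    (m : ℕ) (hm : 0 < m) (W : F) (hW0 : W ≠ 0) (hWi : ∀ V ∈ S, W⁻¹ ∈ V) (c : ℕ)
    (y₀ : F) (hy₀ : y₀ ^ m * W ^ c ∈ ndrLoc O 𝔫)
    (hS : ∀ V ∈ S, y₀ - 1 ∈ V.nonunits ∨ ∃ X : ↥O, (X : F) ∈ V.nonunits ∧ X ∉ 𝔫) :
    ∃ x : ↥O, x ∉ 𝔫 ∧ ∃ y : F, y ^ m * W ^ c ∈ O ∧ ∀ V ∈ S, y - (x : F) ∈ V.nonunits := by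
  classical
  obtain ⟨a, s, hs, h⟩ := hy₀
  obtain ⟨k, rfl⟩ : ∃ k, m = k + 1 := ⟨m - 1, by omega⟩
  have hkey : ((s : F) * y₀) ^ (k + 1) * W ^ c = (s : F) ^ k * (a : F) := by
    rw [← h]; ring
  have hsy : ∀ V ∈ S, (s : F) * y₀ ∈ V := by
    intro V hVS
    apply core_val_root V (k + 1) (Nat.succ_pos k)
    have e : ((s : F) * y₀) ^ (k + 1) = (s : F) ^ k * (a : F) * (W⁻¹) ^ c := by
      rw [← hkey]
      have : W ^ c * W⁻¹ ^ c = 1 := by rw [← mul_pow, mul_inv_cancel₀ hW0, one_pow]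
      rw [mul_assoc, this, mul_one]
    rw [e]
    exact V.mul_mem _ _ (V.mul_mem _ _ (V.pow_mem (hOV V hVS _ s.2) _) (hOV V hVS _ a.2))
      (V.pow_mem (hWi V hVS) _)
  have h1𝔫 : (1 : ↥O) ∉ 𝔫 := fun h1 => h𝔫.ne_top ((Ideal.eq_top_iff_one 𝔫).mpr h1)
  have hstep : ∀ V : ValuationSubring F, ∃ X : ↥O, X ∉ 𝔫 ∧
      (V ∈ S → ∀ Z : ↥O, (Z : F) * (X : F) * ((s : F) * y₀ - (s : F)) ∈ V.nonunits) := by
    intro V
    by_cases hVS : V ∈ S
    · obtain ⟨X, hX, hZ⟩ := s36gj_step O 𝔫 V (hOV V hVS) s y₀ (hsy V hVS) (hS V hVS)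
      exact ⟨X, hX, fun _ => hZ⟩
    · exact ⟨1, h1𝔫, fun hh => absurd hh hVS⟩
  choose X hX hZ using hstep
  have hP : ∏ V ∈ S, X V ∉ 𝔫 := by
    intro hh
    obtain ⟨V, -, hV⟩ := Ideal.IsPrime.prod_mem_iff.mp hh
    exact hX V hV
  refine ⟨(∏ V ∈ S, X V) * s, fun hh => (h𝔫.mem_or_mem hh).elim hP hs,
    ((∏ V ∈ S, X V : ↥O) : F) * ((s : F) * y₀), ?_, ?_⟩
  · have e : (((∏ V ∈ S, X V : ↥O) : F) * ((s : F) * y₀)) ^ (k + 1) * W ^ c =
        ((∏ V ∈ S, X V : ↥O) : F) ^ (k + 1) * (((s : F) * y₀) ^ (k + 1) * W ^ c) := by ring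
    rw [e, hkey]
    exact O.mul_mem (O.pow_mem (∏ V ∈ S, X V).2 _) (O.mul_mem (O.pow_mem s.2 _) a.2)
  · intro V hVS
    have e : ((∏ V ∈ S, X V : ↥O) : F) * ((s : F) * y₀) - (((∏ V ∈ S, X V) * s : ↥O) : F) =
        ((∏ V' ∈ S.erase V, X V' : ↥O) : F) * (X V : F) * ((s : F) * y₀ - (s : F)) := by
      rw [← Finset.mul_prod_erase S X hVS]
      push_cast
      ring
    rw [e]
    exact hZ V hVS _

/-- **Datum => ideal form modulo `⋂ 𝔪_V`** (the hypothesis `hloc` of GLUE3), for `W` itself.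
The hypothesis `hdat` is `S36Dat m q O 𝔫 ↑S W` of contract CORE-DAT, written out. -/
theorem s36dj_j_of_dat (O : Subalgebra A F) (𝔫 : Ideal ↥O) [h𝔫 : 𝔫.IsPrime]
    (S : Finset (ValuationSubring F)) (hOV : ∀ V ∈ S, ∀ x ∈ O, x ∈ V)
    (m q : ℕ) (hm : 2 ≤ m) (hqm : Nat.Coprime q m) (W : F)
    (hW : ∀ V ∈ S, W - 1 ∈ V.nonunits)
    (hdat : ∃ (k : ℕ) (g : F) (a s r s₀ : ↥O), s ∉ 𝔫 ∧ r ∉ 𝔫 ∧ s₀ ∉ 𝔫 ∧
      W ^ (q ^ k) * (s : F) = (a : F) * g ^ m ∧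
      ∀ V ∈ (↑S : Set (ValuationSubring F)),
        (∀ x : ↥O, (x : F) ∈ V.nonunits → x ∈ 𝔫) → g * (s₀ : F) - (r : F) ∈ V.nonunits)
    (c : ℕ) :
    ∃ x : ↥O, x ∉ 𝔫 ∧ ∃ y : F, y ^ m * W ^ c ∈ O ∧ ∀ V ∈ S, y - (x : F) ∈ V.nonunits := by
  classical
  have hm0 : 0 < m := by omega
  have h1𝔫 : (1 : ↥O) ∉ 𝔫 := fun h1 => h𝔫.ne_top ((Ideal.eq_top_iff_one 𝔫).mpr h1)
  rcases S.eq_empty_or_nonempty with hSe | ⟨V₀, hV₀⟩
  · subst hSe
    exact ⟨1, h1𝔫, 0, by rw [zero_pow hm0.ne', zero_mul]; exact O.zero_mem, by simp⟩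
  obtain ⟨k, g, a, s, r, s0, hs, hr, hs0, hWg, hV⟩ := hdat
  have hq : 0 < q := by
    rcases Nat.eq_zero_or_pos q with h | h
    · subst h
      rw [Nat.coprime_zero_left] at hqm
      omega
    · exact h
  obtain ⟨u, v, huv⟩ := s36dj_bezout (q ^ k) m (pow_pos hq k) hm0 (Nat.Coprime.pow_left k hqm)
  have hW0 : W ≠ 0 := (s36dj_one_inv V₀ (hW V₀ hV₀)).1
  have hs0' : (s : F) ≠ 0 := s35pt_ne_zero O 𝔫 s hs
  have hr0 : (r : F) ≠ 0 := s35pt_ne_zero O 𝔫 r hr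
  have hs00 : (s0 : F) ≠ 0 := s35pt_ne_zero O 𝔫 s0 hs0
  have hg : g ≠ 0 := by
    intro h0
    rw [h0, zero_pow hm0.ne', mul_zero] at hWg
    rcases mul_eq_zero.mp hWg with h | h
    · exact hW0 (pow_eq_zero_iff (pow_pos hq k).ne' |>.mp h)
    · exact hs0' h
  -- the datum
  set y₀ : F := (((r : F) * (s0 : F)⁻¹ * g⁻¹) ^ u * W ^ v) ^ c with hy₀
  have hSn : s0 ^ (u * m) * s ^ u ∉ 𝔫 := fun hh =>
    (h𝔫.mem_or_mem hh).elim (fun h2 => hs0 (h𝔫.mem_of_pow_mem _ h2))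
      (fun h2 => hs (h𝔫.mem_of_pow_mem _ h2))
  have hmem : y₀ ^ m * W ^ c ∈ ndrLoc O 𝔫 := by
    have hWq : W ^ (q ^ k) = (a : F) * (s : F)⁻¹ * g ^ m := by
      rw [mul_right_comm, ← hWg, mul_assoc, mul_inv_cancel₀ hs0', mul_one]
    have h1 : W ^ (1 + v * m) = ((a : F) * (s : F)⁻¹ * g ^ m) ^ u := by
      rw [← huv, mul_comm u, pow_mul, hWq]
    have key : (((r : F) * (s0 : F)⁻¹ * g⁻¹) ^ u * W ^ v) ^ m * W =
        ((r : F) ^ (u * m) * (a : F) ^ u) * ((s0 : F) ^ (u * m) * (s : F) ^ u)⁻¹ := by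
      have e1 : (((r : F) * (s0 : F)⁻¹ * g⁻¹) ^ u * W ^ v) ^ m * W =
          ((r : F) * (s0 : F)⁻¹ * g⁻¹) ^ (u * m) * W ^ (1 + v * m) := by ring
      rw [e1, h1]
      have hgg : (g⁻¹) ^ (u * m) * (g ^ m) ^ u = 1 := by
        rw [← pow_mul, mul_comm m u, ← mul_pow, inv_mul_cancel₀ hg, one_pow]
      have e2 : ((r : F) * (s0 : F)⁻¹ * g⁻¹) ^ (u * m) * ((a : F) * (s : F)⁻¹ * g ^ m) ^ u =
          ((r : F) ^ (u * m) * (a : F) ^ u) * (((s0 : F)⁻¹) ^ (u * m) * ((s : F)⁻¹) ^ u) *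
            ((g⁻¹) ^ (u * m) * (g ^ m) ^ u) := by ring
      rw [e2, hgg, mul_one, mul_inv, inv_pow, inv_pow]
    have e : y₀ ^ m * W ^ c =
        ((((r ^ (u * m) * a ^ u) ^ c : ↥O) : ↥O) : F) *
          ((((s0 ^ (u * m) * s ^ u) ^ c : ↥O) : ↥O) : F)⁻¹ := by
      have e3 : y₀ ^ m * W ^ c = ((((r : F) * (s0 : F)⁻¹ * g⁻¹) ^ u * W ^ v) ^ m * W) ^ c := by
        rw [hy₀]; ring
      rw [e3, key]
      push_cast
      rw [mul_pow, inv_pow]
    rw [e]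
    exact s35pt_loc_mk O 𝔫 _ _ (fun hh => hSn (h𝔫.mem_of_pow_mem _ hh))
  -- the congruence on the components through `𝔫`
  have hthr : ∀ V ∈ S, (y₀ - 1 ∈ V.nonunits ∨ ∃ X : ↥O, (X : F) ∈ V.nonunits ∧ X ∉ 𝔫) := by
    intro V hVS
    by_cases hth : ∀ x : ↥O, (x : F) ∈ V.nonunits → x ∈ 𝔫
    · left
      have hgV := hV V (Finset.mem_coe.mpr hVS) hth
      have hrnu : (r : F) ∉ V.nonunits := fun hh => hr (hth r hh)
      have hgs : g * (s0 : F) ∉ V.nonunits := s35pt_unit_of_congr V hgV hrnu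
      have hgsinv : (g * (s0 : F))⁻¹ ∈ V := s35pt_inv_mem V hgs
      have h1 : (r : F) * (s0 : F)⁻¹ * g⁻¹ - 1 ∈ V.nonunits := by
        have e : (r : F) * (s0 : F)⁻¹ * g⁻¹ - 1 =
            -(g * (s0 : F) - (r : F)) * (g * (s0 : F))⁻¹ := by
          field_simp
          ring
        rw [e]
        exact s35pt_nu_mul V (s35pt_nu_neg V hgV) hgsinv
      exact s36dj_one_pow V (s36dj_one_mul V (s36dj_one_pow V h1 u)
        (s36dj_one_pow V (hW V hVS) v)) c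
    · right
      push Not at hth
      exact hth
  exact s36dj_j_of_loc O 𝔫 S hOV m hm0 W hW0
    (fun V hVS => (s36dj_one_inv V (hW V hVS)).2.1) c y₀ hmem hthr

end Dat

end Fermat.Agent.S36
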