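import Mathlib
import Fermat.Agent.S35.CorePt
import Fermat.Agent.S35.LocIC
import Fermat.Agent.S35.LocUnit

/-!
# S36: the local datum (`S36Dat`, written out) at a closed point lying on ONE component

`s36do_dat_one`: let `V` be the only valuation of the family `S` whose centre passes through
the closed point `𝔫` of the chart `O`.  If `W` is a unit of `O_𝔫` times an `m`-th power
(`S35Unit`), the branch ring of `V` at `𝔫` is closed under `m`-th roots of units (`S35IC`) and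
`W ≡ 1` on `V`, then the datum `S36Dat m q O 𝔫 S W` of the blueprint (contract CORE-DAT) holds
with exponent `k = 0`: `W = (a / s) * g ^ m` and `g ≡ r / s₀` on `V` with `r, s₀ ∈ O ∖ 𝔫`.
The conclusion is the body of `S36Dat` written out (no definition is declared here).
-/

set_option autoImplicit false
set_option linter.unusedSectionVars false
set_option linter.unusedVariables false

namespace Fermat.Agent.S36

open Fermat.Agent.S18 Fermat.Agent.S34 Fermat.Agent.S35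

section DatOne

variable {A F : Type*} [CommRing A] [Field F] [Algebra A F]

/-- **The datum at a point of one component.** -/
theorem s36do_dat_one (O : Subalgebra A F) (𝔫 : Ideal ↥O) [h𝔫 : 𝔫.IsPrime]
    (S : Set (ValuationSubring F)) (V : ValuationSubring F) (hOV : ∀ x ∈ O, x ∈ V)
    (hp : ∀ x : ↥O, (x : F) ∈ V.nonunits → x ∈ 𝔫)
    (hS : ∀ V' ∈ S, (∀ x : ↥O, (x : F) ∈ V'.nonunits → x ∈ 𝔫) → V' = V)
    (m q : ℕ) (hm : 0 < m) (hIC : S35IC m O 𝔫 V)
    (W : F) (hWu : S35Unit m O 𝔫 W) (hW1 : W - 1 ∈ V.nonunits) :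
    ∃ (k : ℕ) (g : F) (a s r s₀ : ↥O), s ∉ 𝔫 ∧ r ∉ 𝔫 ∧ s₀ ∉ 𝔫 ∧
      W ^ (q ^ k) * (s : F) = (a : F) * g ^ m ∧
      ∀ V' ∈ S, (∀ x : ↥O, (x : F) ∈ V'.nonunits → x ∈ 𝔫) →
        g * (s₀ : F) - (r : F) ∈ V'.nonunits := by
  obtain ⟨g, hg, a, s, ha, hs, hW⟩ := hWu
  have hnu : ∀ z : ↥O, z ∉ 𝔫 → (z : F) ∉ V.nonunits := fun z hz h => hz (hp z h)
  have hne : ∀ z : ↥O, z ∉ 𝔫 → (z : F) ≠ 0 := fun z hz h0 =>
    hnu z hz (by rw [h0]; exact s35pt_nu_zero V)
  have hWV : W ∈ V := by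
    have : W = (W - 1) + 1 := by ring
    rw [this]
    exact V.add_mem _ _ (s35pt_nu_mem V hW1) V.one_mem
  have h1 : g ^ m * (a : F) - (s : F) ∈ V.nonunits := by
    have : g ^ m * (a : F) - (s : F) = (W - 1) * (s : F) := by
      rw [sub_mul, one_mul, hW]; ring
    rw [this]
    exact s35pt_nu_mul V hW1 (hOV _ s.2)
  obtain ⟨a₁, s₁, hs₁, h2⟩ := hIC g ⟨s, a, hs, ha, h1⟩
  have hgm : g ^ m ∈ V := by
    have : g ^ m = W * (s : F) * (a : F)⁻¹ := by
      rw [hW]; field_simp [hne a ha]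
    rw [this]
    exact V.mul_mem _ _ (V.mul_mem _ _ hWV (hOV _ s.2)) (s35pt_inv_mem V (hnu a ha))
  have hgV : g ∈ V := core_val_root V m hm g hgm
  -- `a₁ ∉ 𝔫`
  have ha₁ : a₁ ∉ 𝔫 := by
    intro h
    have h3 : ((a₁ ^ m * a - s * s₁ ^ m : ↥O) : F) ∈ V.nonunits := by
      have e : ((a₁ ^ m * a - s * s₁ ^ m : ↥O) : F) =
          -((g * (s₁ : F)) ^ m - (a₁ : F) ^ m) * (a : F) +
            (g ^ m * (a : F) - (s : F)) * (s₁ : F) ^ m := by
        push_cast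
        ring
      rw [e]
      refine s35pt_nu_add V (s35pt_nu_mul V (s35pt_nu_neg V ?_) (hOV _ a.2))
        (s35pt_nu_mul V h1 (V.pow_mem (hOV _ s₁.2) m))
      exact s35pt_nu_sub_pow V (V.mul_mem _ _ hgV (hOV _ s₁.2)) (hOV _ a₁.2) h2 m
    have h4 : a₁ ^ m * a - s * s₁ ^ m ∈ 𝔫 := hp _ h3
    have h5 : s * s₁ ^ m ∈ 𝔫 := by
      have : s * s₁ ^ m = a₁ ^ m * a - (a₁ ^ m * a - s * s₁ ^ m) := by ring
      rw [this]
      exact 𝔫.sub_mem (𝔫.mul_mem_right _ (𝔫.pow_mem_of_mem h m hm)) h4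
    rcases h𝔫.mem_or_mem h5 with h6 | h6
    · exact hs h6
    · exact hs₁ (h𝔫.mem_of_pow_mem _ h6)
  refine ⟨0, g, a, s, a₁, s₁, hs, ha₁, hs₁, ?_, ?_⟩
  · rw [pow_zero, pow_one]
    exact hW
  · intro V' hV' hth
    rw [hS V' hV' hth]
    exact h2

end DatOne

end Fermat.Agent.S36
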