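/-
S36, family D (NORMRES-TORIC), leaf [TORIC3-CG] (contract finding 236).  Mathlib only (plus the
elementary calculus `s35n_nu_*` of S35/AbsNorm).  Prefix `s36tc_`.

The multiplicative congruence calculus of a valuation subring `W` of a field `F`:
* `s36tc_u W x`: `x` is a unit of `W`;
* `s36tc_cg W x y`: `x, y ≠ 0` and `x / y ≡ 1` modulo the maximal ideal of `W` (the congruence of
  the group `Fˣ` modulo `1 + 𝔪_W`; for units of `W` it is `x ≡ y` modulo `𝔪_W`).
The relation is compatible with products, inverses, quotients and powers WITHOUT any membership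
side condition, and is transported along field embeddings lying over.
-/
import Mathlib
import Fermat.Agent.S35.AbsNorm

set_option autoImplicit false

namespace Fermat.Agent.S36

open Fermat.Agent.S35

section Cg

variable {F : Type*} [Field F]

/-- `x` is a unit of the valuation subring `W`. -/
def s36tc_u (W : ValuationSubring F) (x : F) : Prop := x ≠ 0 ∧ x ∈ W ∧ x⁻¹ ∈ W

/-- `x, y ≠ 0` and `x / y ≡ 1` modulo the maximal ideal of `W`. -/
def s36tc_cg (W : ValuationSubring F) (x y : F) : Prop :=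
  x ≠ 0 ∧ y ≠ 0 ∧ x * y⁻¹ - 1 ∈ W.nonunits

theorem s36tc_u_one (W : ValuationSubring F) : s36tc_u W 1 :=
  ⟨one_ne_zero, W.one_mem, by rw [inv_one]; exact W.one_mem⟩

theorem s36tc_u_mul (W : ValuationSubring F) {x y : F} (hx : s36tc_u W x) (hy : s36tc_u W y) :
    s36tc_u W (x * y) :=
  ⟨mul_ne_zero hx.1 hy.1, W.mul_mem _ _ hx.2.1 hy.2.1, by
    rw [mul_inv]; exact W.mul_mem _ _ hx.2.2 hy.2.2⟩

theorem s36tc_u_inv (W : ValuationSubring F) {x : F} (hx : s36tc_u W x) : s36tc_u W x⁻¹ :=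
  ⟨inv_ne_zero hx.1, hx.2.2, by rw [inv_inv]; exact hx.2.1⟩

theorem s36tc_u_div (W : ValuationSubring F) {x y : F} (hx : s36tc_u W x) (hy : s36tc_u W y) :
    s36tc_u W (x / y) := by
  rw [div_eq_mul_inv]; exact s36tc_u_mul W hx (s36tc_u_inv W hy)

theorem s36tc_u_pow (W : ValuationSubring F) {x : F} (hx : s36tc_u W x) (n : ℕ) :
    s36tc_u W (x ^ n) :=
  ⟨pow_ne_zero n hx.1, pow_mem hx.2.1 n, by rw [← inv_pow]; exact pow_mem hx.2.2 n⟩

/-- a unit is not in the maximal ideal -/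
theorem s36tc_u_not_nu (W : ValuationSubring F) {x : F} (hx : s36tc_u W x) :
    x ∉ W.nonunits := by
  rw [ValuationSubring.mem_nonunits_iff_or]
  push Not
  exact ⟨hx.1, hx.2.2⟩

/-- an element of `W` outside the maximal ideal is a unit -/
theorem s36tc_u_of_not_nu (W : ValuationSubring F) {x : F} (hx : x ∈ W)
    (h : x ∉ W.nonunits) : s36tc_u W x := by
  rw [ValuationSubring.mem_nonunits_iff_or] at h
  push Not at h
  exact ⟨h.1, hx, h.2⟩

/-- if a positive power of `x` is a unit then `x` is a unit -/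
theorem s36tc_u_of_pow (W : ValuationSubring F) {x : F} {m : ℕ} (hm : 0 < m)
    (hx : s36tc_u W (x ^ m)) : s36tc_u W x := by
  have hx0 : x ≠ 0 := by
    intro h
    apply hx.1
    rw [h, zero_pow (by omega)]
  have key : ∀ z : F, z ≠ 0 → z ^ m ∈ W → z ∈ W := by
    intro z hz hzm
    by_contra hzW
    have h1 : z⁻¹ ∈ W.nonunits := by
      rw [ValuationSubring.mem_nonunits_iff_or, inv_inv]
      exact Or.inr hzW
    have h1' : z⁻¹ ∈ W := s35n_nu_mem W h1
    have h2 : z⁻¹ * (z⁻¹ ^ (m - 1) * z ^ m) ∈ W.nonunits :=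
      s35n_nu_mul' W h1 (W.mul_mem _ _ (pow_mem h1' _) hzm)
    have h3 : z⁻¹ * (z⁻¹ ^ (m - 1) * z ^ m) = 1 := by
      rw [← mul_assoc, ← pow_succ', Nat.sub_add_cancel hm, ← mul_pow, inv_mul_cancel₀ hz,
        one_pow]
    rw [h3] at h2
    exact s35n_nu_one W h2
  refine ⟨hx0, key x hx0 hx.2.1, key x⁻¹ (inv_ne_zero hx0) ?_⟩
  rw [inv_pow]; exact hx.2.2

/-- `h ≡ 1` implies that `h` is a unit. -/
theorem s36tc_u_of_sub_one (W : ValuationSubring F) {h : F} (hh : h - 1 ∈ W.nonunits) :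
    s36tc_u W h := by
  have := s35n_unit_of_congr W W.one_mem (by rw [inv_one]; exact W.one_mem) one_ne_zero hh
  exact ⟨this.1, this.2.1, this.2.2⟩

theorem s36tc_cg_refl (W : ValuationSubring F) {x : F} (hx : x ≠ 0) : s36tc_cg W x x := by
  refine ⟨hx, hx, ?_⟩
  rw [mul_inv_cancel₀ hx, sub_self]
  exact s35n_nu_zero W

theorem s36tc_cg_of_eq (W : ValuationSubring F) {x y : F} (hx : x ≠ 0) (h : x = y) :
    s36tc_cg W x y := by
  subst h; exact s36tc_cg_refl W hx

theorem s36tc_cg_symm (W : ValuationSubring F) {x y : F} (h : s36tc_cg W x y) :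
    s36tc_cg W y x := by
  obtain ⟨hx, hy, h⟩ := h
  refine ⟨hy, hx, ?_⟩
  have hu := s36tc_u_of_sub_one W h
  have h1 : y * x⁻¹ - 1 = -((x * y⁻¹ - 1) * (x * y⁻¹)⁻¹) := by
    field_simp
    ring
  rw [h1]
  exact s35n_nu_neg W (s35n_nu_mul' W h hu.2.2)

theorem s36tc_cg_trans (W : ValuationSubring F) {x y z : F} (h : s36tc_cg W x y)
    (h' : s36tc_cg W y z) : s36tc_cg W x z := by
  obtain ⟨hx, hy, h⟩ := h
  obtain ⟨-, hz, h'⟩ := h'
  refine ⟨hx, hz, ?_⟩
  have hu := s36tc_u_of_sub_one W h'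
  have h1 : x * z⁻¹ - 1 = (x * y⁻¹ - 1) * (y * z⁻¹) + (y * z⁻¹ - 1) := by
    field_simp
    ring
  rw [h1]
  exact s35n_nu_add W (s35n_nu_mul' W h hu.2.1) h'

theorem s36tc_cg_mul (W : ValuationSubring F) {x x' y y' : F} (h : s36tc_cg W x x')
    (h' : s36tc_cg W y y') : s36tc_cg W (x * y) (x' * y') := by
  obtain ⟨hx, hx', h⟩ := h
  obtain ⟨hy, hy', h'⟩ := h'
  refine ⟨mul_ne_zero hx hy, mul_ne_zero hx' hy', ?_⟩
  have hu := s36tc_u_of_sub_one W h'
  have h1 : x * y * (x' * y')⁻¹ - 1 = (x * x'⁻¹ - 1) * (y * y'⁻¹) + (y * y'⁻¹ - 1) := by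
    field_simp
    ring
  rw [h1]
  exact s35n_nu_add W (s35n_nu_mul' W h hu.2.1) h'

theorem s36tc_cg_inv (W : ValuationSubring F) {x y : F} (h : s36tc_cg W x y) :
    s36tc_cg W x⁻¹ y⁻¹ := by
  have h2 := s36tc_cg_symm W h
  obtain ⟨hy, hx, h2⟩ := h2
  refine ⟨inv_ne_zero hx, inv_ne_zero hy, ?_⟩
  rw [inv_inv, mul_comm]
  exact h2

theorem s36tc_cg_div (W : ValuationSubring F) {x x' y y' : F} (h : s36tc_cg W x x')
    (h' : s36tc_cg W y y') : s36tc_cg W (x / y) (x' / y') := by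
  rw [div_eq_mul_inv, div_eq_mul_inv]
  exact s36tc_cg_mul W h (s36tc_cg_inv W h')

theorem s36tc_cg_pow (W : ValuationSubring F) {x y : F} (h : s36tc_cg W x y) (n : ℕ) :
    s36tc_cg W (x ^ n) (y ^ n) := by
  induction n with
  | zero =>
    rw [pow_zero, pow_zero]
    exact s36tc_cg_refl W one_ne_zero
  | succ n ih =>
    rw [pow_succ, pow_succ]
    exact s36tc_cg_mul W ih h

/-- from an additive congruence to a unit -/
theorem s36tc_cg_of_sub (W : ValuationSubring F) {x y : F} (hy : s36tc_u W y)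
    (h : x - y ∈ W.nonunits) : s36tc_cg W x y := by
  have hx : x ≠ 0 := by
    intro hx
    rw [hx, zero_sub] at h
    have := s35n_nu_neg W h
    rw [neg_neg] at this
    exact s36tc_u_not_nu W hy this
  refine ⟨hx, hy.1, ?_⟩
  have h1 : x * y⁻¹ - 1 = (x - y) * y⁻¹ := by
    have := hy.1
    field_simp
  rw [h1]
  exact s35n_nu_mul' W h hy.2.2

/-- from an additive congruence to a unit, other side -/
theorem s36tc_cg_of_sub' (W : ValuationSubring F) {x y : F} (hx : s36tc_u W x)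
    (h : x - y ∈ W.nonunits) : s36tc_cg W x y := by
  have h' : y - x ∈ W.nonunits := by
    have := s35n_nu_neg W h
    rwa [neg_sub] at this
  exact s36tc_cg_symm W (s36tc_cg_of_sub W hx h')

/-- back to the additive congruence -/
theorem s36tc_cg_sub (W : ValuationSubring F) {x y : F} (h : s36tc_cg W x y) (hy : y ∈ W) :
    x - y ∈ W.nonunits := by
  obtain ⟨hx, hy0, h⟩ := h
  have h1 : x - y = (x * y⁻¹ - 1) * y := by
    field_simp
  rw [h1]
  exact s35n_nu_mul' W h hy

theorem s36tc_cg_u (W : ValuationSubring F) {x y : F} (h : s36tc_cg W x y)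
    (hy : s36tc_u W y) : s36tc_u W x := by
  have hu := s36tc_u_of_sub_one W h.2.2
  have h1 : x = x * y⁻¹ * y := by
    have := hy.1
    field_simp
  rw [h1]
  exact s36tc_u_mul W hu hy

theorem s36tc_cg_u' (W : ValuationSubring F) {x y : F} (h : s36tc_cg W x y)
    (hx : s36tc_u W x) : s36tc_u W y :=
  s36tc_cg_u W (s36tc_cg_symm W h) hx

/-- rewriting both sides of a congruence -/
theorem s36tc_cg_congr (W : ValuationSubring F) {x y x' y' : F} (h : s36tc_cg W x y)
    (hx : x = x') (hy : y = y') : s36tc_cg W x' y' := by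
  subst hx; subst hy; exact h

end Cg

section Map

variable {E F : Type*} [Field E] [Field F]

/-- transport of units along an embedding lying over -/
theorem s36tc_u_map (φ : E →+* F) (V : ValuationSubring E) (W : ValuationSubring F)
    (hφ : ∀ x : E, φ x ∈ W ↔ x ∈ V) (x : E) : s36tc_u W (φ x) ↔ s36tc_u V x := by
  unfold s36tc_u
  rw [hφ, ← map_inv₀, hφ, map_ne_zero]

/-- the maximal ideals correspond along an embedding lying over -/
theorem s36tc_nu_map (φ : E →+* F) (V : ValuationSubring E) (W : ValuationSubring F)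
    (hφ : ∀ x : E, φ x ∈ W ↔ x ∈ V) (x : E) : φ x ∈ W.nonunits ↔ x ∈ V.nonunits := by
  rw [ValuationSubring.mem_nonunits_iff_or, ValuationSubring.mem_nonunits_iff_or, ← map_inv₀,
    hφ, map_eq_zero]

/-- transport of congruences along an embedding lying over -/
theorem s36tc_cg_map (φ : E →+* F) (V : ValuationSubring E) (W : ValuationSubring F)
    (hφ : ∀ x : E, φ x ∈ W ↔ x ∈ V) (x y : E) :
    s36tc_cg W (φ x) (φ y) ↔ s36tc_cg V x y := by
  unfold s36tc_cg
  rw [map_ne_zero, map_ne_zero, ← map_inv₀, ← map_mul, ← map_one φ, ← map_sub,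
    s36tc_nu_map φ V W hφ]

end Map

end Fermat.Agent.S36
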