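/-
S36, family D (NORMRES-TORIC), leaf [TORIC3-DEF] (contract finding 236).  Mathlib only.

`S36Tri`: the local data at a triple point of the special fibre at level `L q²`, for the local
ring `R` of the chart at that point (as a subring of the function field `F`), consumed by the
toric core `s36tor_main`.  `α β : E →+* F` are the two embeddings of the function field of level
`L q`, `Nα Nβ` the two norms, `Wa Wb Wc` the three vertical valuations.
-/
import Mathlib

set_option autoImplicit false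

namespace Fermat.Agent.S36

/-- Local data at a triple point of the special fibre (level `L q²`), for the local ring `R` of
the chart at that point (as a subring of the function field `F`). -/
def S36Tri {A E F : Type*} [CommRing A] [Field E] [Field F] [Algebra A F]
    (α β : E →+* F) (Nα Nβ : F →* E) (Wa Wb Wc : ValuationSubring F) (m : ℕ)
    (R : Subring F) : Prop :=
  -- the point lies on the three components; constants
  (∀ x ∈ R, x ∈ Wa ∧ x ∈ Wb ∧ x ∈ Wc) ∧
  (∀ a : A, algebraMap A F a ∈ R) ∧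
  -- locality: a unit plus an element of `P_a + P_b` is a unit
  (∀ x ∈ R, x⁻¹ ∈ R → x ≠ 0 → ∀ p ∈ R, p ∈ Wa.nonunits → ∀ p' ∈ R, p' ∈ Wb.nonunits →
    x + p + p' ≠ 0 ∧ (x + p + p')⁻¹ ∈ R) ∧
  -- `P_c ⊆ P_a + P_b`
  (∀ z ∈ R, z ∈ Wc.nonunits → ∃ p ∈ R, p ∈ Wa.nonunits ∧ ∃ p' ∈ R, p' ∈ Wb.nonunits ∧
    z = p + p') ∧
  -- `R` is closed under `m`-th roots
  (∀ x : F, x ^ m ∈ R → x ∈ R) ∧
  -- norms of local units are local units
  (∀ u ∈ R, u⁻¹ ∈ R → α (Nα u) ∈ R ∧ (α (Nα u))⁻¹ ∈ R) ∧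
  (∀ u ∈ R, u⁻¹ ∈ R → β (Nβ u) ∈ R ∧ (β (Nβ u))⁻¹ ∈ R) ∧
  -- the branches `a`, `b` at the point come from level `L q` (via `α`, resp. `β`)
  (∀ a ∈ R, ∃ a1 : E, α a1 ∈ R ∧ a - α a1 ∈ Wa.nonunits) ∧
  (∀ a ∈ R, ∃ b1 : E, β b1 ∈ R ∧ a - β b1 ∈ Wb.nonunits)

end Fermat.Agent.S36
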