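/-
S36, family D (NORMRES-TORIC), leaf [TORIC3-LIFT] (contract finding 236).  Mathlib only.
Prefix `s36tl_`.

* `s36tl_lift`: lifting at a triple point.  In a commutative ring `R` with three ideals
  `Pa Pb Pc` (the three branches), `Pa ⊔ Pb` in the Jacobson radical (in the form: unit plus an
  element of `Pa ⊔ Pb` is a unit), `m` invertible: three elements `Ga Gb Gc` congruent modulo
  `Pa ⊔ Pb`, with `Ga` a unit, whose `m`-th powers are congruent to a common `v` modulo `Pa`,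
  `Pb`, `Pc` respectively, are the reductions of ONE unit `x0`.
* `s36tl_alg`: the algebra of the toric relation.
-/
import Mathlib

set_option autoImplicit false

namespace Fermat.Agent.S36

/-- **Lifting at a triple point.** -/
theorem s36tl_lift {R : Type*} [CommRing R] (Pa Pb Pc : Ideal R)
    (hloc : ∀ x : R, IsUnit x → ∀ y ∈ Pa ⊔ Pb, IsUnit (x + y))
    (m : ℕ) (hm : IsUnit (m : R)) (Ga Gb Gc v : R) (hGa : IsUnit Ga)
    (hab : Ga - Gb ∈ Pa ⊔ Pb) (hac : Ga - Gc ∈ Pa ⊔ Pb)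
    (ha : Ga ^ m - v ∈ Pa) (hb : Gb ^ m - v ∈ Pb) (hc : Gc ^ m - v ∈ Pc) :
    ∃ x0 : R, IsUnit x0 ∧ x0 - Ga ∈ Pa ∧ x0 - Gb ∈ Pb ∧ x0 - Gc ∈ Pc := by
  obtain ⟨p, hp, p', hp', hpp⟩ := Submodule.mem_sup.mp hab
  -- the element `Gab` restricting to `Ga` on `Pa` and to `Gb` on `Pb`
  have h1 : (Ga - p) - Ga ∈ Pa := by
    have : (Ga - p) - Ga = -p := by ring
    rw [this]; exact Pa.neg_mem hp
  have h2 : (Ga - p) - Gb ∈ Pb := by
    have : (Ga - p) - Gb = p' := by linear_combination -hpp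
    rw [this]; exact hp'
  have h3a : (Ga - p) ^ m - v ∈ Pa := by
    have h := Ideal.mem_of_dvd Pa (sub_dvd_pow_sub_pow (Ga - p) Ga m) h1
    have : (Ga - p) ^ m - v = ((Ga - p) ^ m - Ga ^ m) + (Ga ^ m - v) := by ring
    rw [this]; exact Pa.add_mem h ha
  have h3b : (Ga - p) ^ m - v ∈ Pb := by
    have h := Ideal.mem_of_dvd Pb (sub_dvd_pow_sub_pow (Ga - p) Gb m) h2
    have : (Ga - p) ^ m - v = ((Ga - p) ^ m - Gb ^ m) + (Gb ^ m - v) := by ring
    rw [this]; exact Pb.add_mem h hb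
  -- the sum `S` with `S * (Gab - Gc) = Gab ^ m - Gc ^ m`
  have hS := geom_sum₂_mul (Ga - p) Gc m
  -- `S` is a unit
  have hSu : IsUnit (∑ i ∈ Finset.range m, (Ga - p) ^ i * Gc ^ (m - 1 - i)) := by
    have hq1 : Ideal.Quotient.mk (Pa ⊔ Pb) (Ga - p) = Ideal.Quotient.mk (Pa ⊔ Pb) Ga :=
      Ideal.Quotient.eq.mpr (Ideal.mem_sup_left h1)
    have hq2 : Ideal.Quotient.mk (Pa ⊔ Pb) Gc = Ideal.Quotient.mk (Pa ⊔ Pb) Ga := by
      rw [eq_comm]; exact Ideal.Quotient.eq.mpr hac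
    have hq : Ideal.Quotient.mk (Pa ⊔ Pb)
        (∑ i ∈ Finset.range m, (Ga - p) ^ i * Gc ^ (m - 1 - i)) =
        Ideal.Quotient.mk (Pa ⊔ Pb) ((m : R) * Ga ^ (m - 1)) := by
      rw [map_sum, map_mul, map_pow, map_natCast]
      have : ∀ i ∈ Finset.range m, Ideal.Quotient.mk (Pa ⊔ Pb) ((Ga - p) ^ i * Gc ^ (m - 1 - i)) =
          Ideal.Quotient.mk (Pa ⊔ Pb) Ga ^ (m - 1) := by
        intro i hi
        rw [map_mul, map_pow, map_pow, hq1, hq2, ← pow_add]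
        congr 1
        have := Finset.mem_range.mp hi
        omega
      rw [Finset.sum_congr rfl this, Finset.sum_const, Finset.card_range, nsmul_eq_mul]
    have hmem := Ideal.Quotient.eq.mp hq
    have hu : IsUnit ((m : R) * Ga ^ (m - 1)) := hm.mul (hGa.pow _)
    have := hloc _ hu _ hmem
    rwa [add_sub_cancel] at this
  obtain ⟨Si, hSi⟩ := hSu.exists_left_inv
  -- `Gab - Gc ∈ (Pa ⊓ Pb) ⊔ Pc`
  have hd : (Ga - p) - Gc ∈ (Pa ⊓ Pb) ⊔ Pc := by
    have h4 : (Ga - p) ^ m - Gc ^ m ∈ (Pa ⊓ Pb) ⊔ Pc := by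
      have : (Ga - p) ^ m - Gc ^ m = ((Ga - p) ^ m - v) + -(Gc ^ m - v) := by ring
      rw [this]
      exact Ideal.add_mem _ (Ideal.mem_sup_left ⟨h3a, h3b⟩)
        (Ideal.mem_sup_right (Pc.neg_mem hc))
    have h5 : (Ga - p) - Gc = Si * ((Ga - p) ^ m - Gc ^ m) := by
      rw [← hS, ← mul_assoc, hSi, one_mul]
    rw [h5]
    exact Ideal.mul_mem_left _ _ h4
  obtain ⟨pab, hpab, pc, hpc, hd'⟩ := Submodule.mem_sup.mp hd
  have hxa : (Ga - p - pab) - Ga ∈ Pa := by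
    have : (Ga - p - pab) - Ga = ((Ga - p) - Ga) - pab := by ring
    rw [this]; exact Pa.sub_mem h1 hpab.1
  refine ⟨Ga - p - pab, ?_, hxa, ?_, ?_⟩
  · have := hloc Ga hGa _ (Ideal.mem_sup_left hxa)
    rwa [add_sub_cancel] at this
  · have : (Ga - p - pab) - Gb = ((Ga - p) - Gb) - pab := by ring
    rw [this]; exact Pb.sub_mem h2 hpab.2
  · have : (Ga - p - pab) - Gc = pc := by linear_combination -hd'
    rw [this]; exact hpc

/-- **The algebra of the toric relation.** -/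
theorem s36tl_alg {Q : Type*} [CommRing Q] (q e : ℕ) (hqe : q = e + 1) (ε ε' a1 b1 κ κi : Q)
    (h1 : a1 * ε' = 1) (h2 : b1 * ε = 1) (h3 : ε ^ q * a1 = κ * b1 * ε' ^ q)
    (hκ : κ * κi = 1) :
    ε ^ ((q + 1) * e) * κi ^ e = ε' ^ ((q + 1) * e) ∧
      (ε ^ q * a1) ^ (q + 1) * κi ^ q = ε' ^ ((q + 1) * e) := by
  have key : ε ^ (q + 1) = κ * ε' ^ (q + 1) := by
    linear_combination (-(ε ^ q * ε)) * h1 + (ε * ε') * h3 + (κ * ε' ^ (q + 1)) * h2
  constructor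
  · rw [pow_mul, key, mul_pow, ← pow_mul, mul_right_comm, ← mul_pow, hκ, one_pow, one_mul]
  · have hX : (ε ^ q * a1) * ε' = ε ^ q := by rw [mul_assoc, h1, mul_one]
    have h4 : (ε ^ q * a1) ^ (q + 1) * ε' ^ (q + 1) = κ ^ q * ε' ^ ((q + 1) * q) := by
      rw [← mul_pow, hX, ← pow_mul, mul_comm q (q + 1), pow_mul, key, mul_pow, ← pow_mul]
    have h5 : (ε ^ q * a1) ^ (q + 1) * κi ^ q * ε' ^ (q + 1) = ε' ^ ((q + 1) * q) := by
      rw [mul_right_comm, h4, mul_right_comm, ← mul_pow, hκ, one_pow, one_mul]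
    have h6 : ε' ^ (q + 1) * a1 ^ (q + 1) = 1 := by
      rw [← mul_pow, mul_comm, h1, one_pow]
    have h7 : (q + 1) * q = (q + 1) * e + (q + 1) := by rw [hqe]; ring
    calc (ε ^ q * a1) ^ (q + 1) * κi ^ q
        = (ε ^ q * a1) ^ (q + 1) * κi ^ q * (ε' ^ (q + 1) * a1 ^ (q + 1)) := by
          rw [h6, mul_one]
      _ = ((ε ^ q * a1) ^ (q + 1) * κi ^ q * ε' ^ (q + 1)) * a1 ^ (q + 1) := by ring
      _ = ε' ^ ((q + 1) * e) * (ε' ^ (q + 1) * a1 ^ (q + 1)) := by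
          rw [h5, h7, pow_add]; ring
      _ = ε' ^ ((q + 1) * e) := by rw [h6, mul_one]

end Fermat.Agent.S36
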