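/-
S36, family D (NORMRES-TORIC), leaf [TORIC3-PT] (contract finding 244): the per-point half of
the toric core.  Prefix `s36tp_`.
-/
import Mathlib
import Fermat.Agent.S35.AbsNorm
import Fermat.Agent.S36.Toric3Def
import Fermat.Agent.S36.Toric3Cg
import Fermat.Agent.S36.Toric3Lift

set_option autoImplicit false
set_option linter.unusedVariables false

namespace Fermat.Agent.S36

open Fermat.Agent.S35

section Pt

variable {A E F : Type*} [CommRing A] [Field E] [Field F] [Algebra A E] [Algebra A F]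

/-- the ideal of `R` cut out by the maximal ideal of a valuation subring containing `R` -/
def s36tpIdeal (R : Subring F) (W : ValuationSubring F) (hRW : ∀ x ∈ R, x ∈ W) : Ideal ↥R where
  carrier := {x | (x : F) ∈ W.nonunits}
  add_mem' := fun ha hb => s35n_nu_add W ha hb
  zero_mem' := s35n_nu_zero W
  smul_mem' := fun c _ hx => s35n_nu_mul W (hRW c c.2) hx

theorem s36tp_mem_ideal (R : Subring F) (W : ValuationSubring F) (hRW : ∀ x ∈ R, x ∈ W)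
    (x : ↥R) : x ∈ s36tpIdeal R W hRW ↔ (x : F) ∈ W.nonunits := Iff.rfl

theorem s36tp_isUnit (R : Subring F) (x : ↥R) (hx0 : (x : F) ≠ 0) (hx : (x : F)⁻¹ ∈ R) :
    IsUnit x := by
  refine IsUnit.of_mul_eq_one (⟨(x : F)⁻¹, hx⟩ : ↥R) ?_
  exact Subtype.ext (mul_inv_cancel₀ hx0)

theorem s36tp_inv_mem (R : Subring F) (x : ↥R) (h : IsUnit x) :
    (x : F) ≠ 0 ∧ (x : F)⁻¹ ∈ R := by
  obtain ⟨y, hy⟩ := h.exists_right_inv
  have h1 : (x : F) * (y : F) = 1 := congrArg Subtype.val hy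
  have h0 : (x : F) ≠ 0 := left_ne_zero_of_mul_eq_one h1
  refine ⟨h0, ?_⟩
  rw [inv_eq_of_mul_eq_one_right h1]
  exact y.2

theorem s36tp_map_ne_zero (N : F →* E) {x : F} (hx : x ≠ 0) : N x ≠ 0 := by
  intro h
  have h1 : N x * N x⁻¹ = 1 := by rw [← map_mul, mul_inv_cancel₀ hx, map_one]
  rw [h, zero_mul] at h1
  exact zero_ne_one h1

/-- the local unit `ε = φ E₁ / φ (N y)` -/
theorem s36tp_eps (φ : E →+* F) (hφA : ∀ a : A, φ (algebraMap A E a) = algebraMap A F a)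
    (N : F →* E) (m : ℕ) (R : Subring F)
    (hRA : ∀ a : A, algebraMap A F a ∈ R) (hroot : ∀ x : F, x ^ m ∈ R → x ∈ R)
    (hN : ∀ u ∈ R, u⁻¹ ∈ R → φ (N u) ∈ R ∧ (φ (N u))⁻¹ ∈ R)
    (f u y : F) (hy0 : y ≠ 0) (hu0 : u ≠ 0) (hu : u ∈ R) (hu' : u⁻¹ ∈ R)
    (hfuy : f = u * y ^ m)
    (c : A) (hc : IsUnit c) (E1 : E) (hNf : N f = algebraMap A E c * E1 ^ m) :
    φ E1 * (φ (N y))⁻¹ ∈ R ∧ (φ E1 * (φ (N y))⁻¹)⁻¹ ∈ R := by
  obtain ⟨ci, hci⟩ := hc.exists_right_inv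
  have hcF : algebraMap A F c * algebraMap A F ci = 1 := by rw [← map_mul, hci, map_one]
  have hNy0 : φ (N y) ≠ 0 := (map_ne_zero φ).mpr (s36tp_map_ne_zero N hy0)
  have hNu0 : φ (N u) ≠ 0 := (map_ne_zero φ).mpr (s36tp_map_ne_zero N hu0)
  have key : φ (N u) * φ (N y) ^ m = algebraMap A F c * φ E1 ^ m := by
    calc φ (N u) * φ (N y) ^ m = φ (N u * N y ^ m) := by rw [map_mul, map_pow]
      _ = φ (N f) := by rw [hfuy, map_mul N, map_pow N]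
      _ = φ (algebraMap A E c * E1 ^ m) := by rw [hNf]
      _ = algebraMap A F c * φ E1 ^ m := by rw [map_mul, map_pow, hφA]
  obtain ⟨h1, h2⟩ := hN u hu hu'
  have h3 : φ E1 ^ m = φ (N u) * algebraMap A F ci * φ (N y) ^ m := by
    linear_combination (-(φ E1 ^ m)) * hcF - (algebraMap A F ci) * key
  have h4 : (φ E1 * (φ (N y))⁻¹) ^ m = φ (N u) * algebraMap A F ci := by
    rw [mul_pow, inv_pow, h3]
    exact mul_inv_cancel_right₀ (pow_ne_zero m hNy0) _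
  constructor
  · apply hroot
    rw [h4]
    exact mul_mem h1 (hRA ci)
  · apply hroot
    rw [inv_pow, h4, mul_inv, inv_eq_of_mul_eq_one_left hcF]
    exact mul_mem h2 (hRA c)

/-- **TORIC3, the per-point half.**  At a triple point (local ring `R`, `S36Tri`), for a local
form `f = u * y ^ m` with `u` a unit of `R`: ONE unit `x0` of `R` is congruent, at each of the
three valuations, to the quotient of the global residue target by `y ^ B`. -/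
theorem s36tp_main {A E F : Type*} [CommRing A] [Field E] [Field F] [Algebra A E] [Algebra A F]
    (α β : E →+* F)
    (hαA : ∀ a : A, α (algebraMap A E a) = algebraMap A F a)
    (hβA : ∀ a : A, β (algebraMap A E a) = algebraMap A F a)
    (Nα Nβ : F →* E)
    (Wa Wb Wc : ValuationSubring F) (V1 V2 : ValuationSubring E)
    (hAa : ∀ a : A, algebraMap A F a ∈ Wa) (hAb : ∀ a : A, algebraMap A F a ∈ Wb)
    (hAc : ∀ a : A, algebraMap A F a ∈ Wc)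
    (hαa : ∀ x : E, α x ∈ Wa ↔ x ∈ V1) (hαc : ∀ x : E, α x ∈ Wc ↔ x ∈ V1)
    (hαb : ∀ x : E, α x ∈ Wb ↔ x ∈ V2)
    (hβa : ∀ x : E, β x ∈ Wa ↔ x ∈ V1) (hβb : ∀ x : E, β x ∈ Wb ↔ x ∈ V2)
    (hβc : ∀ x : E, β x ∈ Wc ↔ x ∈ V2)
    (q e m : ℕ) (hqe : q = e + 1) (hm : 0 < m) (hmA : IsUnit (m : A))
    (hNα1 : ∀ (z : F) (za zc : E), za ∈ V1 → zc ∈ V1 → z - α za ∈ Wa.nonunits →
      z - α zc ∈ Wc.nonunits → Nα z - za * zc ^ e ∈ V1.nonunits)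
    (hNα2 : ∀ z : F, z ∈ Wb → α (Nα z) - z ^ q ∈ Wb.nonunits)
    (hNβ2 : ∀ (z : F) (zb zc : E), zb ∈ V2 → zc ∈ V2 → z - β zb ∈ Wb.nonunits →
      z - β zc ∈ Wc.nonunits → Nβ z - zb * zc ^ e ∈ V2.nonunits)
    (hNβ1 : ∀ z : F, z ∈ Wa → β (Nβ z) - z ^ q ∈ Wa.nonunits)
    (hRαa : ∀ z ∈ Wa, ∃ z' ∈ V1, z - α z' ∈ Wa.nonunits)
    (hRαc : ∀ z ∈ Wc, ∃ z' ∈ V1, z - α z' ∈ Wc.nonunits)
    (hRβb : ∀ z ∈ Wb, ∃ z' ∈ V2, z - β z' ∈ Wb.nonunits)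
    (hRβc : ∀ z ∈ Wc, ∃ z' ∈ V2, z - β z' ∈ Wc.nonunits)
    -- the function and the global data
    (f : F) (hfa : s36tc_u Wa f) (hfb : s36tc_u Wb f) (hfc : s36tc_u Wc f)
    (c1 c2 κ κi C Ci : A) (hc1 : IsUnit c1) (hc2 : IsUnit c2) (hκ : κ * κi = 1)
    (hC : C * Ci = 1) (E1 E2 E1' E2' : E)
    (hN1 : Nα f = algebraMap A E c1 * E1 ^ m) (hN2 : Nβ f = algebraMap A E c2 * E2 ^ m)
    (hE1 : s36tc_u V1 E1 ∧ s36tc_u V2 E1) (hE2 : s36tc_u V1 E2 ∧ s36tc_u V2 E2)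
    (hE2' : s36tc_cg Wa (α E2') (β E2)) (hE1' : s36tc_cg Wb (β E1') (α E1))
    (hΘ : s36tc_cg Wc (α E1 ^ q * β E1' / (β E2 ^ q * α E2')) (algebraMap A F κ))
    (hGa : s36tc_cg Wa (f ^ (q * e * (q + 1)))
      (algebraMap A F C * (β E2 ^ ((q + 1) * e)) ^ m))
    (hGb : s36tc_cg Wb (f ^ (q * e * (q + 1)))
      (algebraMap A F C * (α E1 ^ ((q + 1) * e) * algebraMap A F κi ^ e) ^ m))
    (hGc : s36tc_cg Wc (f ^ (q * e * (q + 1)))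
      (algebraMap A F C * ((α E1 ^ q / α E2') ^ (q + 1) * algebraMap A F κi ^ q) ^ m))
    -- the triple point and the local form
    (R : Subring F) (hR : S36Tri (A := A) α β Nα Nβ Wa Wb Wc m R)
    (u y : F) (hu : u ∈ R) (hu' : u⁻¹ ∈ R) (hfuy : f = u * y ^ m) :
    ∃ x0 : F, x0 ∈ R ∧ x0⁻¹ ∈ R ∧
      s36tc_cg Wa x0 (β E2 ^ ((q + 1) * e) / y ^ (q * e * (q + 1))) ∧
      s36tc_cg Wb x0 (α E1 ^ ((q + 1) * e) * algebraMap A F κi ^ e / y ^ (q * e * (q + 1))) ∧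
      s36tc_cg Wc x0
        ((α E1 ^ q / α E2') ^ (q + 1) * algebraMap A F κi ^ q / y ^ (q * e * (q + 1))) := by
  classical
  obtain ⟨hRW, hRA, hloc, hPc, hroot, hNαR, hNβR, hbrα, hbrβ⟩ := hR
  have hRa : ∀ x ∈ R, x ∈ Wa := fun x hx => (hRW x hx).1
  have hRb : ∀ x ∈ R, x ∈ Wb := fun x hx => (hRW x hx).2.1
  have hRc : ∀ x ∈ R, x ∈ Wc := fun x hx => (hRW x hx).2.2
  -- step 0: units
  have hf0 : f ≠ 0 := hfa.1
  have hu0 : u ≠ 0 := by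
    rintro rfl
    rw [zero_mul] at hfuy
    exact hf0 hfuy
  have hym0 : y ^ m ≠ 0 := by
    intro h
    rw [h, mul_zero] at hfuy
    exact hf0 hfuy
  have hy0 : y ≠ 0 := by
    rintro rfl
    exact hym0 (zero_pow hm.ne')
  have huW : ∀ W : ValuationSubring F, (∀ x ∈ R, x ∈ W) → s36tc_u W u :=
    fun W h => ⟨hu0, h u hu, h _ hu'⟩
  have hyW : ∀ W : ValuationSubring F, s36tc_u W f → (∀ x ∈ R, x ∈ W) → s36tc_u W y := by
    intro W hfW h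
    apply s36tc_u_of_pow W hm
    have h1 : y ^ m = f / u := by
      rw [hfuy]
      field_simp
    rw [h1]
    exact s36tc_u_div W hfW (huW W h)
  have hya := hyW Wa hfa hRa
  have hyb := hyW Wb hfb hRb
  have hyc := hyW Wc hfc hRc
  have hPa : s36tc_u Wa (α E1) := (s36tc_u_map α V1 Wa hαa E1).mpr hE1.1
  have hPb : s36tc_u Wb (α E1) := (s36tc_u_map α V2 Wb hαb E1).mpr hE1.2
  have hPc' : s36tc_u Wc (α E1) := (s36tc_u_map α V1 Wc hαc E1).mpr hE1.1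
  have hQa : s36tc_u Wa (β E2) := (s36tc_u_map β V1 Wa hβa E2).mpr hE2.1
  have hQb : s36tc_u Wb (β E2) := (s36tc_u_map β V2 Wb hβb E2).mpr hE2.2
  have hQc : s36tc_u Wc (β E2) := (s36tc_u_map β V2 Wc hβc E2).mpr hE2.2
  have hTa : s36tc_u Wa (α E2') := s36tc_cg_u Wa hE2' hQa
  have hTc : s36tc_u Wc (α E2') :=
    (s36tc_u_map α V1 Wc hαc E2').mpr ((s36tc_u_map α V1 Wa hαa E2').mp hTa)
  have hSb : s36tc_u Wb (β E1') := s36tc_cg_u Wb hE1' hPb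
  have hSc : s36tc_u Wc (β E1') :=
    (s36tc_u_map β V2 Wc hβc E1').mpr ((s36tc_u_map β V2 Wb hβb E1').mp hSb)
  have hκF : algebraMap A F κ * algebraMap A F κi = 1 := by rw [← map_mul, hκ, map_one]
  have hκ0 : algebraMap A F κ ≠ 0 := left_ne_zero_of_mul_eq_one hκF
  have hκi0 : algebraMap A F κi ≠ 0 := right_ne_zero_of_mul_eq_one hκF
  have hκiW : ∀ W : ValuationSubring F, (∀ a : A, algebraMap A F a ∈ W) →
      s36tc_u W (algebraMap A F κi) := by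
    intro W h
    refine ⟨hκi0, h κi, ?_⟩
    rw [inv_eq_of_mul_eq_one_right (by rw [mul_comm]; exact hκF)]
    exact h κ
  have hCF : algebraMap A F C * algebraMap A F Ci = 1 := by rw [← map_mul, hC, map_one]
  have hCi0 : algebraMap A F Ci ≠ 0 := right_ne_zero_of_mul_eq_one hCF
  -- step 1: the local units `ε`, `ε'`
  obtain ⟨ε, hε⟩ : ∃ ε : F, ε = α E1 * (α (Nα y))⁻¹ := ⟨_, rfl⟩
  obtain ⟨ε', hε'⟩ : ∃ ε' : F, ε' = β E2 * (β (Nβ y))⁻¹ := ⟨_, rfl⟩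
  obtain ⟨hεR, hεR'⟩ : ε ∈ R ∧ ε⁻¹ ∈ R := by
    rw [hε]
    exact s36tp_eps α hαA Nα m R hRA hroot hNαR f u y hy0 hu0 hu hu' hfuy c1 hc1 E1 hN1
  obtain ⟨hε'R, hε'R'⟩ : ε' ∈ R ∧ ε'⁻¹ ∈ R := by
    rw [hε']
    exact s36tp_eps β hβA Nβ m R hRA hroot hNβR f u y hy0 hu0 hu hu' hfuy c2 hc2 E2 hN2
  have hNαy0 : α (Nα y) ≠ 0 := (map_ne_zero α).mpr (s36tp_map_ne_zero Nα hy0)
  have hNβy0 : β (Nβ y) ≠ 0 := (map_ne_zero β).mpr (s36tp_map_ne_zero Nβ hy0)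
  have hε0 : ε ≠ 0 := by
    rw [hε]
    exact mul_ne_zero hPa.1 (inv_ne_zero hNαy0)
  have hε'0 : ε' ≠ 0 := by
    rw [hε']
    exact mul_ne_zero hQa.1 (inv_ne_zero hNβy0)
  have hεW : ∀ W : ValuationSubring F, (∀ x ∈ R, x ∈ W) → s36tc_u W ε :=
    fun W h => ⟨hε0, h _ hεR, h _ hεR'⟩
  have hε'W : ∀ W : ValuationSubring F, (∀ x ∈ R, x ∈ W) → s36tc_u W ε' :=
    fun W h => ⟨hε'0, h _ hε'R, h _ hε'R'⟩
  -- step 2
  have c2b : s36tc_cg Wb (α (Nα y)) (y ^ q) :=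
    s36tc_cg_of_sub Wb (s36tc_u_pow Wb hyb q) (hNα2 y hyb.2.1)
  have hεb : s36tc_cg Wb ε (α E1 / y ^ q) := by
    rw [hε, div_eq_mul_inv]
    exact s36tc_cg_mul Wb (s36tc_cg_refl Wb hPb.1) (s36tc_cg_inv Wb c2b)
  have c2a : s36tc_cg Wa (β (Nβ y)) (y ^ q) :=
    s36tc_cg_of_sub Wa (s36tc_u_pow Wa hya q) (hNβ1 y hya.2.1)
  have hε'a : s36tc_cg Wa ε' (β E2 / y ^ q) := by
    rw [hε', div_eq_mul_inv]
    exact s36tc_cg_mul Wa (s36tc_cg_refl Wa hQa.1) (s36tc_cg_inv Wa c2a)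
  -- step 3
  obtain ⟨ya, hyaV, hya'⟩ := hRαa y hya.2.1
  obtain ⟨yc, hycV, hyc'⟩ := hRαc y hyc.2.1
  have cya : s36tc_cg Wa y (α ya) := s36tc_cg_of_sub' Wa hya hya'
  have cyc : s36tc_cg Wc y (α yc) := s36tc_cg_of_sub' Wc hyc hyc'
  have uya : s36tc_u V1 ya := (s36tc_u_map α V1 Wa hαa ya).mp (s36tc_cg_u' Wa cya hya)
  have uyc : s36tc_u V1 yc := (s36tc_u_map α V1 Wc hαc yc).mp (s36tc_cg_u' Wc cyc hyc)
  have αya0 : α ya ≠ 0 := (map_ne_zero α).mpr uya.1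
  have cN : s36tc_cg V1 (Nα y) (ya * yc ^ e) :=
    s36tc_cg_of_sub V1 (s36tc_u_mul V1 uya (s36tc_u_pow V1 uyc e))
      (hNα1 y ya yc hyaV hycV hya' hyc')
  have cNc : s36tc_cg Wc (α (Nα y)) (α ya * y ^ e) := by
    have h := (s36tc_cg_map α V1 Wc hαc _ _).mpr cN
    rw [map_mul, map_pow] at h
    exact s36tc_cg_trans Wc h
      (s36tc_cg_mul Wc (s36tc_cg_refl Wc αya0) (s36tc_cg_pow Wc (s36tc_cg_symm Wc cyc) e))
  have hεc : s36tc_cg Wc ε (α E1 / (α ya * y ^ e)) := by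
    rw [hε, div_eq_mul_inv]
    exact s36tc_cg_mul Wc (s36tc_cg_refl Wc hPc'.1) (s36tc_cg_inv Wc cNc)
  -- step 4
  obtain ⟨yb, hybV, hyb'⟩ := hRβb y hyb.2.1
  obtain ⟨yd, hydV, hyd'⟩ := hRβc y hyc.2.1
  have cyb : s36tc_cg Wb y (β yb) := s36tc_cg_of_sub' Wb hyb hyb'
  have cyd : s36tc_cg Wc y (β yd) := s36tc_cg_of_sub' Wc hyc hyd'
  have uyb : s36tc_u V2 yb := (s36tc_u_map β V2 Wb hβb yb).mp (s36tc_cg_u' Wb cyb hyb)
  have uyd : s36tc_u V2 yd := (s36tc_u_map β V2 Wc hβc yd).mp (s36tc_cg_u' Wc cyd hyc)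
  have βyb0 : β yb ≠ 0 := (map_ne_zero β).mpr uyb.1
  have cN' : s36tc_cg V2 (Nβ y) (yb * yd ^ e) :=
    s36tc_cg_of_sub V2 (s36tc_u_mul V2 uyb (s36tc_u_pow V2 uyd e))
      (hNβ2 y yb yd hybV hydV hyb' hyd')
  have cNc' : s36tc_cg Wc (β (Nβ y)) (β yb * y ^ e) := by
    have h := (s36tc_cg_map β V2 Wc hβc _ _).mpr cN'
    rw [map_mul, map_pow] at h
    exact s36tc_cg_trans Wc h
      (s36tc_cg_mul Wc (s36tc_cg_refl Wc βyb0) (s36tc_cg_pow Wc (s36tc_cg_symm Wc cyd) e))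
  have hε'c : s36tc_cg Wc ε' (β E2 / (β yb * y ^ e)) := by
    rw [hε', div_eq_mul_inv]
    exact s36tc_cg_mul Wc (s36tc_cg_refl Wc hQc.1) (s36tc_cg_inv Wc cNc')
  -- step 5
  have c5 : s36tc_cg Wa (α (ya ^ q / E2')) ε'⁻¹ := by
    have h1 : s36tc_cg Wa (α ya ^ q / α E2') (y ^ q / β E2) :=
      s36tc_cg_div Wa (s36tc_cg_pow Wa (s36tc_cg_symm Wa cya) q) hE2'
    have h2 : s36tc_cg Wa ε'⁻¹ (y ^ q / β E2) :=
      s36tc_cg_congr Wa (s36tc_cg_inv Wa hε'a) rfl (inv_div _ _)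
    rw [map_div₀, map_pow]
    exact s36tc_cg_trans Wa h1 (s36tc_cg_symm Wa h2)
  obtain ⟨a1, ha1R, ha1⟩ := hbrα ε'⁻¹ hε'R'
  have c5a : s36tc_cg Wa ε'⁻¹ (α a1) := s36tc_cg_of_sub' Wa (s36tc_u_inv Wa (hε'W Wa hRa)) ha1
  have c5V : s36tc_cg V1 a1 (ya ^ q / E2') :=
    (s36tc_cg_map α V1 Wa hαa _ _).mp
      (s36tc_cg_trans Wa (s36tc_cg_symm Wa c5a) (s36tc_cg_symm Wa c5))
  have c5c : s36tc_cg Wc (α a1) (α ya ^ q / α E2') := by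
    have h := (s36tc_cg_map α V1 Wc hαc _ _).mpr c5V
    rwa [map_div₀, map_pow] at h
  have h5P : α a1 * ε' - 1 ∈ Wa.nonunits := by
    have h : α a1 * ε' - 1 = -((ε'⁻¹ - α a1) * ε') := by
      field_simp
      ring
    rw [h]
    exact s35n_nu_neg Wa (s35n_nu_mul' Wa ha1 (hRa _ hε'R))
  -- step 6
  have c6 : s36tc_cg Wb (β (yb ^ q / E1')) ε⁻¹ := by
    have h1 : s36tc_cg Wb (β yb ^ q / β E1') (y ^ q / α E1) :=
      s36tc_cg_div Wb (s36tc_cg_pow Wb (s36tc_cg_symm Wb cyb) q) hE1'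
    have h2 : s36tc_cg Wb ε⁻¹ (y ^ q / α E1) :=
      s36tc_cg_congr Wb (s36tc_cg_inv Wb hεb) rfl (inv_div _ _)
    rw [map_div₀, map_pow]
    exact s36tc_cg_trans Wb h1 (s36tc_cg_symm Wb h2)
  obtain ⟨b1, hb1R, hb1⟩ := hbrβ ε⁻¹ hεR'
  have c6a : s36tc_cg Wb ε⁻¹ (β b1) := s36tc_cg_of_sub' Wb (s36tc_u_inv Wb (hεW Wb hRb)) hb1
  have c6V : s36tc_cg V2 b1 (yb ^ q / E1') :=
    (s36tc_cg_map β V2 Wb hβb _ _).mp
      (s36tc_cg_trans Wb (s36tc_cg_symm Wb c6a) (s36tc_cg_symm Wb c6))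
  have c6c : s36tc_cg Wc (β b1) (β yb ^ q / β E1') := by
    have h := (s36tc_cg_map β V2 Wc hβc _ _).mpr c6V
    rwa [map_div₀, map_pow] at h
  have h6P : β b1 * ε - 1 ∈ Wb.nonunits := by
    have h : β b1 * ε - 1 = -((ε⁻¹ - β b1) * ε) := by
      field_simp
      ring
    rw [h]
    exact s35n_nu_neg Wb (s35n_nu_mul' Wb hb1 (hRb _ hεR))
  -- step 7
  have hy0' := hy0
  have hT0 : α E2' ≠ 0 := hTc.1
  have hS0 : β E1' ≠ 0 := hSc.1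
  have hP0 : α E1 ≠ 0 := hPc'.1
  have hQ0 : β E2 ≠ 0 := hQc.1
  have c7a : s36tc_cg Wc (ε ^ q * α a1) (α E1 ^ q / (y ^ (e * q) * α E2')) := by
    have h := s36tc_cg_mul Wc (s36tc_cg_pow Wc hεc q) c5c
    refine s36tc_cg_congr Wc h rfl ?_
    rw [pow_mul, div_pow, mul_pow]
    field_simp
  have c7b : s36tc_cg Wc (algebraMap A F κ * β b1 * ε' ^ q)
      (α E1 ^ q / (y ^ (e * q) * α E2')) := by
    have h := s36tc_cg_mul Wc (s36tc_cg_mul Wc (s36tc_cg_symm Wc hΘ) c6c)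
      (s36tc_cg_pow Wc hε'c q)
    refine s36tc_cg_congr Wc h rfl ?_
    rw [pow_mul, div_pow, mul_pow]
    field_simp
  have c7 : s36tc_cg Wc (ε ^ q * α a1) (algebraMap A F κ * β b1 * ε' ^ q) :=
    s36tc_cg_trans Wc c7a (s36tc_cg_symm Wc c7b)
  have hzR : ε ^ q * α a1 - algebraMap A F κ * β b1 * ε' ^ q ∈ R :=
    sub_mem (mul_mem (pow_mem hεR q) ha1R) (mul_mem (mul_mem (hRA κ) hb1R) (pow_mem hε'R q))
  have hz : ε ^ q * α a1 - algebraMap A F κ * β b1 * ε' ^ q ∈ Wc.nonunits :=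
    s36tc_cg_sub Wc c7 (hRc _ (mul_mem (mul_mem (hRA κ) hb1R) (pow_mem hε'R q)))
  obtain ⟨p, hpR, hpa, p', hp'R, hp'b, hzpp⟩ := hPc _ hzR hz
  -- step 8: the toric relation in the quotient of `R` by `P_a + P_b`
  obtain ⟨Pa, hPa⟩ : ∃ I : Ideal ↥R, ∀ x : ↥R, x ∈ I ↔ (x : F) ∈ Wa.nonunits :=
    ⟨s36tpIdeal R Wa hRa, fun x => Iff.rfl⟩
  obtain ⟨Pb, hPb⟩ : ∃ I : Ideal ↥R, ∀ x : ↥R, x ∈ I ↔ (x : F) ∈ Wb.nonunits :=
    ⟨s36tpIdeal R Wb hRb, fun x => Iff.rfl⟩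
  obtain ⟨Pcc, hPcc⟩ : ∃ I : Ideal ↥R, ∀ x : ↥R, x ∈ I ↔ (x : F) ∈ Wc.nonunits :=
    ⟨s36tpIdeal R Wc hRc, fun x => Iff.rfl⟩
  obtain ⟨εR, hεRc⟩ : ∃ z : ↥R, (z : F) = ε := ⟨⟨ε, hεR⟩, rfl⟩
  obtain ⟨εR', hεRc'⟩ : ∃ z : ↥R, (z : F) = ε' := ⟨⟨ε', hε'R⟩, rfl⟩
  obtain ⟨a1R, ha1Rc⟩ : ∃ z : ↥R, (z : F) = α a1 := ⟨⟨α a1, ha1R⟩, rfl⟩
  obtain ⟨b1R, hb1Rc⟩ : ∃ z : ↥R, (z : F) = β b1 := ⟨⟨β b1, hb1R⟩, rfl⟩
  obtain ⟨κR, hκRc⟩ : ∃ z : ↥R, (z : F) = algebraMap A F κ := ⟨⟨_, hRA κ⟩, rfl⟩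
  obtain ⟨κiR, hκiRc⟩ : ∃ z : ↥R, (z : F) = algebraMap A F κi := ⟨⟨_, hRA κi⟩, rfl⟩
  have q1 : Ideal.Quotient.mk (Pa ⊔ Pb) a1R * Ideal.Quotient.mk (Pa ⊔ Pb) εR' = 1 := by
    rw [← map_mul, ← map_one (Ideal.Quotient.mk (Pa ⊔ Pb)), Ideal.Quotient.eq]
    apply Ideal.mem_sup_left
    rw [hPa]
    push_cast
    rw [ha1Rc, hεRc']
    exact h5P
  have q2 : Ideal.Quotient.mk (Pa ⊔ Pb) b1R * Ideal.Quotient.mk (Pa ⊔ Pb) εR = 1 := by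
    rw [← map_mul, ← map_one (Ideal.Quotient.mk (Pa ⊔ Pb)), Ideal.Quotient.eq]
    apply Ideal.mem_sup_right
    rw [hPb]
    push_cast
    rw [hb1Rc, hεRc]
    exact h6P
  have q3 : Ideal.Quotient.mk (Pa ⊔ Pb) εR ^ q * Ideal.Quotient.mk (Pa ⊔ Pb) a1R
      = Ideal.Quotient.mk (Pa ⊔ Pb) κR * Ideal.Quotient.mk (Pa ⊔ Pb) b1R
        * Ideal.Quotient.mk (Pa ⊔ Pb) εR' ^ q := by
    have h : Ideal.Quotient.mk (Pa ⊔ Pb) (εR ^ q * a1R)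
        = Ideal.Quotient.mk (Pa ⊔ Pb) (κR * b1R * εR' ^ q) := by
      rw [Ideal.Quotient.eq]
      have h' : εR ^ q * a1R - κR * b1R * εR' ^ q = (⟨p, hpR⟩ : ↥R) + ⟨p', hp'R⟩ := by
        apply Subtype.ext
        push_cast
        rw [hεRc, ha1Rc, hκRc, hb1Rc, hεRc']
        exact hzpp
      rw [h']
      exact Ideal.add_mem _ (Ideal.mem_sup_left ((hPa _).mpr hpa))
        (Ideal.mem_sup_right ((hPb _).mpr hp'b))
    simpa only [map_mul, map_pow] using h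
  have q4 : Ideal.Quotient.mk (Pa ⊔ Pb) κR * Ideal.Quotient.mk (Pa ⊔ Pb) κiR = 1 := by
    have h : κR * κiR = 1 := by
      apply Subtype.ext
      push_cast
      rw [hκRc, hκiRc]
      exact hκF
    rw [← map_mul, h, map_one]
  obtain ⟨halg1, halg2⟩ := s36tl_alg q e hqe _ _ _ _ _ _ q1 q2 q3 q4
  have hab : εR' ^ ((q + 1) * e) - εR ^ ((q + 1) * e) * κiR ^ e ∈ Pa ⊔ Pb := by
    rw [← Ideal.Quotient.eq]
    simp only [map_mul, map_pow]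
    exact halg1.symm
  have hac : εR' ^ ((q + 1) * e) - (εR ^ q * a1R) ^ (q + 1) * κiR ^ q ∈ Pa ⊔ Pb := by
    rw [← Ideal.Quotient.eq]
    simp only [map_mul, map_pow]
    exact halg2.symm
  -- step 9: the three local roots and their `m`-th powers
  have g9a : s36tc_cg Wa (ε' ^ ((q + 1) * e))
      (β E2 ^ ((q + 1) * e) / y ^ (q * e * (q + 1))) := by
    refine s36tc_cg_congr Wa (s36tc_cg_pow Wa hε'a ((q + 1) * e)) rfl ?_
    rw [div_pow, ← pow_mul, show q * ((q + 1) * e) = q * e * (q + 1) by ring]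
  have g9b : s36tc_cg Wb (ε ^ ((q + 1) * e) * algebraMap A F κi ^ e)
      (α E1 ^ ((q + 1) * e) * algebraMap A F κi ^ e / y ^ (q * e * (q + 1))) := by
    refine s36tc_cg_congr Wb (s36tc_cg_mul Wb (s36tc_cg_pow Wb hεb ((q + 1) * e))
      (s36tc_cg_refl Wb (pow_ne_zero e hκi0))) rfl ?_
    rw [div_pow, ← pow_mul, show q * ((q + 1) * e) = q * e * (q + 1) by ring]
    ring
  have g9c : s36tc_cg Wc ((ε ^ q * α a1) ^ (q + 1) * algebraMap A F κi ^ q)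
      ((α E1 ^ q / α E2') ^ (q + 1) * algebraMap A F κi ^ q / y ^ (q * e * (q + 1))) := by
    refine s36tc_cg_congr Wc (s36tc_cg_mul Wc (s36tc_cg_pow Wc c7a (q + 1))
      (s36tc_cg_refl Wc (pow_ne_zero q hκi0))) rfl ?_
    have hyB : y ^ (q * e * (q + 1)) = (y ^ (e * q)) ^ (q + 1) := by
      rw [← pow_mul]
      congr 1
      ring
    rw [hyB, div_pow, mul_pow, div_pow]
    field_simp
  have hv : ∀ (W : ValuationSubring F) (X : F),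
      s36tc_cg W (f ^ (q * e * (q + 1))) (algebraMap A F C * X ^ m) →
      s36tc_cg W ((X / y ^ (q * e * (q + 1))) ^ m)
        (u ^ (q * e * (q + 1)) * algebraMap A F Ci) := by
    intro W X h
    generalize q * e * (q + 1) = B at h ⊢
    have hz0 : algebraMap A F Ci * ((y ^ B)⁻¹) ^ m ≠ 0 :=
      mul_ne_zero hCi0 (pow_ne_zero _ (inv_ne_zero (pow_ne_zero _ hy0)))
    have h2 := s36tc_cg_mul W (s36tc_cg_symm W h) (s36tc_cg_refl W hz0)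
    refine s36tc_cg_congr W h2 ?_ ?_
    · rw [div_eq_mul_inv, mul_pow]
      linear_combination (X ^ m * ((y ^ B)⁻¹) ^ m) * hCF
    · rw [hfuy, mul_pow, ← pow_mul, inv_pow, ← pow_mul, mul_comm m B]
      field_simp
  have hvR : u ^ (q * e * (q + 1)) * algebraMap A F Ci ∈ R := mul_mem (pow_mem hu _) (hRA Ci)
  obtain ⟨vR, hvRc⟩ : ∃ z : ↥R, (z : F) = u ^ (q * e * (q + 1)) * algebraMap A F Ci :=
    ⟨⟨_, hvR⟩, rfl⟩
  have ha : (εR' ^ ((q + 1) * e)) ^ m - vR ∈ Pa := by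
    rw [hPa]
    push_cast
    rw [hεRc', hvRc]
    exact s36tc_cg_sub Wa (s36tc_cg_trans Wa (s36tc_cg_pow Wa g9a m) (hv Wa _ hGa)) (hRa _ hvR)
  have hb : (εR ^ ((q + 1) * e) * κiR ^ e) ^ m - vR ∈ Pb := by
    rw [hPb]
    push_cast
    rw [hεRc, hκiRc, hvRc]
    exact s36tc_cg_sub Wb (s36tc_cg_trans Wb (s36tc_cg_pow Wb g9b m) (hv Wb _ hGb)) (hRb _ hvR)
  have hc : ((εR ^ q * a1R) ^ (q + 1) * κiR ^ q) ^ m - vR ∈ Pcc := by
    rw [hPcc]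
    push_cast
    rw [hεRc, ha1Rc, hκiRc, hvRc]
    exact s36tc_cg_sub Wc (s36tc_cg_trans Wc (s36tc_cg_pow Wc g9c m) (hv Wc _ hGc)) (hRc _ hvR)
  -- step 10: the lifting
  have hloc' : ∀ x : ↥R, IsUnit x → ∀ z ∈ Pa ⊔ Pb, IsUnit (x + z) := by
    intro x hx z hz
    obtain ⟨p1, hp1, p2, hp2, rfl⟩ := Submodule.mem_sup.mp hz
    obtain ⟨x0, xi⟩ := s36tp_inv_mem R x hx
    obtain ⟨n0, ni⟩ := hloc x x.2 xi x0 p1 p1.2 ((hPa p1).mp hp1) p2 p2.2 ((hPb p2).mp hp2)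
    have e1 : ((x + (p1 + p2) : ↥R) : F) = (x : F) + p1 + p2 := by
      push_cast
      ring
    apply s36tp_isUnit R
    · rw [e1]
      exact n0
    · rw [e1]
      exact ni
  have hmR : IsUnit ((m : ℕ) : ↥R) := by
    obtain ⟨mi, hmi⟩ := hmA.exists_right_inv
    refine IsUnit.of_mul_eq_one (⟨algebraMap A F mi, hRA mi⟩ : ↥R) (Subtype.ext ?_)
    push_cast
    rw [← map_natCast (algebraMap A F), ← map_mul, hmi, map_one]
  have hGaU : IsUnit (εR' ^ ((q + 1) * e)) := by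
    apply IsUnit.pow
    apply s36tp_isUnit R
    · rw [hεRc']
      exact hε'0
    · rw [hεRc']
      exact hε'R'
  obtain ⟨x0, hx0U, hxa, hxb, hxc⟩ := s36tl_lift Pa Pb Pcc hloc' m hmR _ _ _ vR hGaU hab hac
    ha hb hc
  -- step 11
  obtain ⟨x00, x0i⟩ := s36tp_inv_mem R x0 hx0U
  have uGa : s36tc_u Wa (ε' ^ ((q + 1) * e)) := s36tc_u_pow Wa (hε'W Wa hRa) _
  have uGb : s36tc_u Wb (ε ^ ((q + 1) * e) * algebraMap A F κi ^ e) :=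
    s36tc_u_mul Wb (s36tc_u_pow Wb (hεW Wb hRb) _) (s36tc_u_pow Wb (hκiW Wb hAb) _)
  have uGc : s36tc_u Wc ((ε ^ q * α a1) ^ (q + 1) * algebraMap A F κi ^ q) := by
    apply s36tc_cg_u Wc g9c
    exact s36tc_u_div Wc
      (s36tc_u_mul Wc (s36tc_u_pow Wc (s36tc_u_div Wc (s36tc_u_pow Wc hPc' q) hTc) _)
        (s36tc_u_pow Wc (hκiW Wc hAc) _))
      (s36tc_u_pow Wc hyc _)
  refine ⟨(x0 : F), x0.2, x0i, ?_, ?_, ?_⟩
  · refine s36tc_cg_trans Wa (s36tc_cg_of_sub Wa uGa ?_) g9a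
    have h := (hPa _).mp hxa
    push_cast at h
    rwa [hεRc'] at h
  · refine s36tc_cg_trans Wb (s36tc_cg_of_sub Wb uGb ?_) g9b
    have h := (hPb _).mp hxb
    push_cast at h
    rwa [hεRc, hκiRc] at h
  · refine s36tc_cg_trans Wc (s36tc_cg_of_sub Wc uGc ?_) g9c
    have h := (hPcc _).mp hxc
    push_cast at h
    rwa [hεRc, ha1Rc, hκiRc] at h

end Pt

end Fermat.Agent.S36
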