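/-
S36, family D (NORMRES-TORIC): the toric core [TORIC3] (contract finding 236).
Mathlib + S36/Toric3Def, Toric3Cg, Toric3Lift, Toric3Pt.  Prefix `s36tor_`.

`s36tor_main`: for `f` a unit at the three vertical valuations `Wa Wb Wc` of level `L q²` whose
two norms to level `L q` are `constant * m-th power`, there are ONE unit constant `C` and ONE
function `ω` such that `W := f ^ (q (q-1) (q+1)) / (C ω ^ m)` is `≡ 1` modulo the three maximal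
ideals and, at every triple point (`S36Tri`) with a local form `f = u y ^ m`, `W = r γ ^ m` with
`r` a unit of the local ring and `γ ≡ 1` modulo the three maximal ideals.
-/
import Mathlib
import Fermat.Agent.S36.Toric3Def
import Fermat.Agent.S36.Toric3Cg
import Fermat.Agent.S36.Toric3Lift
import Fermat.Agent.S36.Toric3Pt

set_option autoImplicit false
set_option linter.unusedVariables false

namespace Fermat.Agent.S36

open Fermat.Agent.S35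

section Const

variable {A F : Type*} [CommRing A] [Field F] [Algebra A F]

/-- a unit constant is a unit of every valuation subring containing the constants -/
theorem s36tor_u_const (W : ValuationSubring F) (hA : ∀ a : A, algebraMap A F a ∈ W) {c : A}
    (hc : IsUnit c) : s36tc_u W (algebraMap A F c) := by
  obtain ⟨c', hc'⟩ := hc.exists_right_inv
  have h1 : algebraMap A F c * algebraMap A F c' = 1 := by rw [← map_mul, hc', map_one]
  have h0 : algebraMap A F c ≠ 0 := left_ne_zero_of_mul_eq_one h1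
  refine ⟨h0, hA c, ?_⟩
  rw [inv_eq_of_mul_eq_one_right h1]
  exact hA c'

/-- the inverse of a unit constant is the constant of the inverse -/
theorem s36tor_inv_const {c c' : A} (h : c * c' = 1) :
    (algebraMap A F c)⁻¹ = algebraMap A F c' := by
  have h1 : algebraMap A F c * algebraMap A F c' = 1 := by rw [← map_mul, h, map_one]
  exact inv_eq_of_mul_eq_one_right h1

end Const

section Glob

variable {A E F : Type*} [CommRing A] [Field E] [Field F] [Algebra A E] [Algebra A F]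

/-- **TORIC3, the global half**: the abelian part.  The residues of `f ^ (q e (q+1))` at the three
valuations are `C` times the `m`-th powers of explicit functions, with the SAME unit constant `C`;
the constant `κ` is the residue at `Wc` of the global function `Θ`. -/
theorem s36tor_glob (α β : E →+* F)
    (hαA : ∀ a : A, α (algebraMap A E a) = algebraMap A F a)
    (hβA : ∀ a : A, β (algebraMap A E a) = algebraMap A F a)
    (Nα Nβ : F →* E)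
    (Wa Wb Wc : ValuationSubring F) (V1 V2 : ValuationSubring E)
    (hAa : ∀ a : A, algebraMap A F a ∈ Wa) (hAb : ∀ a : A, algebraMap A F a ∈ Wb)
    (hAc : ∀ a : A, algebraMap A F a ∈ Wc)
    (hαa : ∀ x : E, α x ∈ Wa ↔ x ∈ V1) (hαc : ∀ x : E, α x ∈ Wc ↔ x ∈ V1)
    (hαb : ∀ x : E, α x ∈ Wb ↔ x ∈ V2)
    (hβa : ∀ x : E, β x ∈ Wa ↔ x ∈ V1) (hβb : ∀ x : E, β x ∈ Wb ↔ x ∈ V2)
    (hβc : ∀ x : E, β x ∈ Wc ↔ x ∈ V2)
    (q e m : ℕ) (hqe : q = e + 1) (hm : 0 < m)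
    (hNα1 : ∀ (z : F) (za zc : E), za ∈ V1 → zc ∈ V1 → z - α za ∈ Wa.nonunits →
      z - α zc ∈ Wc.nonunits → Nα z - za * zc ^ e ∈ V1.nonunits)
    (hNα2 : ∀ z : F, z ∈ Wb → α (Nα z) - z ^ q ∈ Wb.nonunits)
    (hNβ2 : ∀ (z : F) (zb zc : E), zb ∈ V2 → zc ∈ V2 → z - β zb ∈ Wb.nonunits →
      z - β zc ∈ Wc.nonunits → Nβ z - zb * zc ^ e ∈ V2.nonunits)
    (hNβ1 : ∀ z : F, z ∈ Wa → β (Nβ z) - z ^ q ∈ Wa.nonunits)
    (hRαa : ∀ z ∈ Wa, ∃ z' ∈ V1, z - α z' ∈ Wa.nonunits)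
    (hRαc : ∀ z ∈ Wc, ∃ z' ∈ V1, z - α z' ∈ Wc.nonunits)
    (hRβb : ∀ z ∈ Wb, ∃ z' ∈ V2, z - β z' ∈ Wb.nonunits)
    (hRβc : ∀ z ∈ Wc, ∃ z' ∈ V2, z - β z' ∈ Wc.nonunits)
    (hconst : ∀ z ∈ Wc, ∀ c : A, IsUnit c → z ^ m - algebraMap A F c ∈ Wc.nonunits →
      ∃ c' : A, IsUnit c' ∧ z - algebraMap A F c' ∈ Wc.nonunits)
    (hcst : ∀ c : A, algebraMap A F c ∈ Wc.nonunits → algebraMap A F c ∈ Wb.nonunits)
    (f : F) (hfa : s36tc_u Wa f) (hfb : s36tc_u Wb f) (hfc : s36tc_u Wc f)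
    (c1 c2 : A) (hc1 : IsUnit c1) (hc2 : IsUnit c2) (E1 E2 : E)
    (hN1 : Nα f = algebraMap A E c1 * E1 ^ m) (hN2 : Nβ f = algebraMap A E c2 * E2 ^ m) :
    ∃ (κ κi C Ci : A) (E1' E2' : E), κ * κi = 1 ∧ C * Ci = 1 ∧
      (s36tc_u V1 E1 ∧ s36tc_u V2 E1) ∧ (s36tc_u V1 E2 ∧ s36tc_u V2 E2) ∧
      s36tc_cg Wa (α E2') (β E2) ∧ s36tc_cg Wb (β E1') (α E1) ∧
      s36tc_cg Wc (α E1 ^ q * β E1' / (β E2 ^ q * α E2')) (algebraMap A F κ) ∧
      s36tc_cg Wa (f ^ (q * e * (q + 1)))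
        (algebraMap A F C * (β E2 ^ ((q + 1) * e)) ^ m) ∧
      s36tc_cg Wb (f ^ (q * e * (q + 1)))
        (algebraMap A F C * (α E1 ^ ((q + 1) * e) * algebraMap A F κi ^ e) ^ m) ∧
      s36tc_cg Wc (f ^ (q * e * (q + 1)))
        (algebraMap A F C * ((α E1 ^ q / α E2') ^ (q + 1) * algebraMap A F κi ^ q) ^ m) := by
  classical
  obtain ⟨c1i, hc1i⟩ := hc1.exists_right_inv
  obtain ⟨c2i, hc2i⟩ := hc2.exists_right_inv
  have hA1 : ∀ a : A, algebraMap A E a ∈ V1 := fun a => (hαa _).mp (by rw [hαA]; exact hAa a)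
  have hA2 : ∀ a : A, algebraMap A E a ∈ V2 := fun a => (hαb _).mp (by rw [hαA]; exact hAb a)
  have uc1a := s36tor_u_const Wa hAa hc1
  have uc1b := s36tor_u_const Wb hAb hc1
  have uc1c := s36tor_u_const Wc hAc hc1
  have uc2a := s36tor_u_const Wa hAa hc2
  have uc2b := s36tor_u_const Wb hAb hc2
  have uc2c := s36tor_u_const Wc hAc hc2
  have hαN : α (Nα f) = algebraMap A F c1 * α E1 ^ m := by rw [hN1, map_mul, map_pow, hαA]
  have hβN : β (Nβ f) = algebraMap A F c2 * β E2 ^ m := by rw [hN2, map_mul, map_pow, hβA]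
  -- (G1), (G2)
  have g1 : s36tc_cg Wb (algebraMap A F c1 * α E1 ^ m) (f ^ q) := by
    rw [← hαN]; exact s36tc_cg_of_sub Wb (s36tc_u_pow Wb hfb q) (hNα2 f hfb.2.1)
  have g2 : s36tc_cg Wa (algebraMap A F c2 * β E2 ^ m) (f ^ q) := by
    rw [← hβN]; exact s36tc_cg_of_sub Wa (s36tc_u_pow Wa hfa q) (hNβ1 f hfa.2.1)
  have uPb : s36tc_u Wb (α E1) := by
    have h1 : s36tc_u Wb (algebraMap A F c1 * α E1 ^ m) :=
      s36tc_cg_u Wb g1 (s36tc_u_pow Wb hfb q)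
    have h2 : s36tc_u Wb (α E1 ^ m) := by
      have := s36tc_u_mul Wb (s36tc_u_inv Wb uc1b) h1
      rwa [inv_mul_cancel_left₀ uc1b.1] at this
    exact s36tc_u_of_pow Wb hm h2
  have uQa : s36tc_u Wa (β E2) := by
    have h1 : s36tc_u Wa (algebraMap A F c2 * β E2 ^ m) :=
      s36tc_cg_u Wa g2 (s36tc_u_pow Wa hfa q)
    have h2 : s36tc_u Wa (β E2 ^ m) := by
      have := s36tc_u_mul Wa (s36tc_u_inv Wa uc2a) h1
      rwa [inv_mul_cancel_left₀ uc2a.1] at this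
    exact s36tc_u_of_pow Wa hm h2
  -- residues of `f`
  obtain ⟨fa, hfaV, hfa'⟩ := hRαa f hfa.2.1
  obtain ⟨fc, hfcV, hfc'⟩ := hRαc f hfc.2.1
  obtain ⟨fb, hfbV, hfb'⟩ := hRβb f hfb.2.1
  obtain ⟨fc2, hfc2V, hfc2'⟩ := hRβc f hfc.2.1
  have cfa : s36tc_cg Wa (α fa) f := s36tc_cg_symm Wa (s36tc_cg_of_sub' Wa hfa hfa')
  have cfc : s36tc_cg Wc (α fc) f := s36tc_cg_symm Wc (s36tc_cg_of_sub' Wc hfc hfc')
  have cfb : s36tc_cg Wb (β fb) f := s36tc_cg_symm Wb (s36tc_cg_of_sub' Wb hfb hfb')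
  have cfc2 : s36tc_cg Wc (β fc2) f := s36tc_cg_symm Wc (s36tc_cg_of_sub' Wc hfc hfc2')
  have ufa : s36tc_u V1 fa := (s36tc_u_map α V1 Wa hαa fa).mp (s36tc_cg_u Wa cfa hfa)
  have ufc : s36tc_u V1 fc := (s36tc_u_map α V1 Wc hαc fc).mp (s36tc_cg_u Wc cfc hfc)
  have ufb : s36tc_u V2 fb := (s36tc_u_map β V2 Wb hβb fb).mp (s36tc_cg_u Wb cfb hfb)
  have ufc2 : s36tc_u V2 fc2 := (s36tc_u_map β V2 Wc hβc fc2).mp (s36tc_cg_u Wc cfc2 hfc)
  have n1 : s36tc_cg V1 (Nα f) (fa * fc ^ e) :=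
    s36tc_cg_of_sub V1 (s36tc_u_mul V1 ufa (s36tc_u_pow V1 ufc e))
      (hNα1 f fa fc hfaV hfcV hfa' hfc')
  have n2 : s36tc_cg V2 (Nβ f) (fb * fc2 ^ e) :=
    s36tc_cg_of_sub V2 (s36tc_u_mul V2 ufb (s36tc_u_pow V2 ufc2 e))
      (hNβ2 f fb fc2 hfbV hfc2V hfb' hfc2')
  have uE1V1 : s36tc_u V1 E1 := by
    have h1 : s36tc_u V1 (Nα f) := s36tc_cg_u V1 n1 (s36tc_u_mul V1 ufa (s36tc_u_pow V1 ufc e))
    rw [hN1] at h1
    have uc : s36tc_u V1 (algebraMap A E c1) := s36tor_u_const V1 hA1 hc1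
    have h2 : s36tc_u V1 (E1 ^ m) := by
      have := s36tc_u_mul V1 (s36tc_u_inv V1 uc) h1
      rwa [inv_mul_cancel_left₀ uc.1] at this
    exact s36tc_u_of_pow V1 hm h2
  have uE2V2 : s36tc_u V2 E2 := by
    have h1 : s36tc_u V2 (Nβ f) :=
      s36tc_cg_u V2 n2 (s36tc_u_mul V2 ufb (s36tc_u_pow V2 ufc2 e))
    rw [hN2] at h1
    have uc : s36tc_u V2 (algebraMap A E c2) := s36tor_u_const V2 hA2 hc2
    have h2 : s36tc_u V2 (E2 ^ m) := by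
      have := s36tc_u_mul V2 (s36tc_u_inv V2 uc) h1
      rwa [inv_mul_cancel_left₀ uc.1] at this
    exact s36tc_u_of_pow V2 hm h2
  have uE1V2 : s36tc_u V2 E1 := (s36tc_u_map α V2 Wb hαb E1).mp uPb
  have uE2V1 : s36tc_u V1 E2 := (s36tc_u_map β V1 Wa hβa E2).mp uQa
  have uPa : s36tc_u Wa (α E1) := (s36tc_u_map α V1 Wa hαa E1).mpr uE1V1
  have uPc : s36tc_u Wc (α E1) := (s36tc_u_map α V1 Wc hαc E1).mpr uE1V1
  have uQb : s36tc_u Wb (β E2) := (s36tc_u_map β V2 Wb hβb E2).mpr uE2V2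
  have uQc : s36tc_u Wc (β E2) := (s36tc_u_map β V2 Wc hβc E2).mpr uE2V2
  -- (G3c), (G4c)
  have g3 : s36tc_cg Wc (algebraMap A F c1 * α E1 ^ m) (α fa * f ^ e) := by
    have h1 := (s36tc_cg_map α V1 Wc hαc (Nα f) (fa * fc ^ e)).mpr n1
    rw [hαN, map_mul, map_pow] at h1
    exact s36tc_cg_trans Wc h1
      (s36tc_cg_mul Wc (s36tc_cg_refl Wc cfa.1) (s36tc_cg_pow Wc cfc e))
  have g4 : s36tc_cg Wc (algebraMap A F c2 * β E2 ^ m) (β fb * f ^ e) := by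
    have h1 := (s36tc_cg_map β V2 Wc hβc (Nβ f) (fb * fc2 ^ e)).mpr n2
    rw [hβN, map_mul, map_pow] at h1
    exact s36tc_cg_trans Wc h1
      (s36tc_cg_mul Wc (s36tc_cg_refl Wc cfb.1) (s36tc_cg_pow Wc cfc2 e))
  -- `E2'`, `E1'`
  obtain ⟨E2', hE2'V, hE2''⟩ := hRαa (β E2) uQa.2.1
  have cE2' : s36tc_cg Wa (α E2') (β E2) := s36tc_cg_symm Wa (s36tc_cg_of_sub' Wa uQa hE2'')
  obtain ⟨E1', hE1'V, hE1''⟩ := hRβb (α E1) uPb.2.1
  have cE1' : s36tc_cg Wb (β E1') (α E1) := s36tc_cg_symm Wb (s36tc_cg_of_sub' Wb uPb hE1'')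
  have uTc : s36tc_u Wc (α E2') :=
    (s36tc_u_map α V1 Wc hαc E2').mpr ((s36tc_u_map α V1 Wa hαa E2').mp (s36tc_cg_u Wa cE2' uQa))
  have uSc : s36tc_u Wc (β E1') :=
    (s36tc_u_map β V2 Wc hβc E1').mpr ((s36tc_u_map β V2 Wb hβb E1').mp (s36tc_cg_u Wb cE1' uPb))
  -- (G5), (G6)
  have g5 : s36tc_cg V1 (fa ^ q) (algebraMap A E c2 * E2' ^ m) := by
    rw [← s36tc_cg_map α V1 Wa hαa, map_pow, map_mul, map_pow, hαA]
    exact s36tc_cg_trans Wa (s36tc_cg_pow Wa cfa q)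
      (s36tc_cg_trans Wa (s36tc_cg_symm Wa g2)
        (s36tc_cg_mul Wa (s36tc_cg_refl Wa uc2a.1) (s36tc_cg_pow Wa (s36tc_cg_symm Wa cE2') m)))
  have g5c : s36tc_cg Wc (α fa ^ q) (algebraMap A F c2 * α E2' ^ m) := by
    have := (s36tc_cg_map α V1 Wc hαc _ _).mpr g5
    rwa [map_pow, map_mul, map_pow, hαA] at this
  have g6 : s36tc_cg V2 (fb ^ q) (algebraMap A E c1 * E1' ^ m) := by
    rw [← s36tc_cg_map β V2 Wb hβb, map_pow, map_mul, map_pow, hβA]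
    exact s36tc_cg_trans Wb (s36tc_cg_pow Wb cfb q)
      (s36tc_cg_trans Wb (s36tc_cg_symm Wb g1)
        (s36tc_cg_mul Wb (s36tc_cg_refl Wb uc1b.1) (s36tc_cg_pow Wb (s36tc_cg_symm Wb cE1') m)))
  have g6c : s36tc_cg Wc (β fb ^ q) (algebraMap A F c1 * β E1' ^ m) := by
    have := (s36tc_cg_map β V2 Wc hβc _ _).mpr g6
    rwa [map_pow, map_mul, map_pow, hβA] at this
  -- nonzero facts
  have hc10 : algebraMap A F c1 ≠ 0 := uc1c.1
  have hc20 : algebraMap A F c2 ≠ 0 := uc2c.1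
  have hfa0 : α fa ≠ 0 := cfa.1
  have hfb0 : β fb ≠ 0 := cfb.1
  have hf0 : f ≠ 0 := hfc.1
  have hP0 : α E1 ≠ 0 := uPc.1
  have hQ0 : β E2 ≠ 0 := uQc.1
  have hT0 : α E2' ≠ 0 := uTc.1
  have hS0 : β E1' ≠ 0 := uSc.1
  -- (G7): `Θ ^ m` is congruent to a constant
  have k1 : s36tc_cg Wc (α E1 ^ m) (α fa * f ^ e / algebraMap A F c1) := by
    have := s36tc_cg_div Wc g3 (s36tc_cg_refl Wc hc10)
    exact s36tc_cg_congr Wc this (by field_simp) rfl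
  have k2 : s36tc_cg Wc (β E2 ^ m) (β fb * f ^ e / algebraMap A F c2) := by
    have := s36tc_cg_div Wc g4 (s36tc_cg_refl Wc hc20)
    exact s36tc_cg_congr Wc this (by field_simp) rfl
  have k3 : s36tc_cg Wc (α E2' ^ m) (α fa ^ q / algebraMap A F c2) := by
    have := s36tc_cg_div Wc (s36tc_cg_symm Wc g5c) (s36tc_cg_refl Wc hc20)
    exact s36tc_cg_congr Wc this (by field_simp) rfl
  have k4 : s36tc_cg Wc (β E1' ^ m) (β fb ^ q / algebraMap A F c1) := by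
    have := s36tc_cg_div Wc (s36tc_cg_symm Wc g6c) (s36tc_cg_refl Wc hc10)
    exact s36tc_cg_congr Wc this (by field_simp) rfl
  have hci1 : (algebraMap A F c1)⁻¹ = algebraMap A F c1i := s36tor_inv_const hc1i
  have hΘm : s36tc_cg Wc ((α E1 ^ q * β E1' / (β E2 ^ q * α E2')) ^ m)
      (algebraMap A F (c2 ^ (q + 1) * c1i ^ (q + 1))) := by
    have h1 := s36tc_cg_div Wc (s36tc_cg_mul Wc (s36tc_cg_pow Wc k1 q) k4)
      (s36tc_cg_mul Wc (s36tc_cg_pow Wc k2 q) k3)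
    refine s36tc_cg_congr Wc h1 ?_ ?_
    · ring
    · rw [map_mul, map_pow, map_pow, ← hci1, inv_pow, ← div_eq_mul_inv]
      simp only [div_pow, mul_pow]
      field_simp
      ring
  have uΘ : s36tc_u Wc (α E1 ^ q * β E1' / (β E2 ^ q * α E2')) :=
    s36tc_u_div Wc (s36tc_u_mul Wc (s36tc_u_pow Wc uPc q) uSc)
      (s36tc_u_mul Wc (s36tc_u_pow Wc uQc q) uTc)
  have hc1iu : IsUnit c1i := IsUnit.of_mul_eq_one c1 (by rw [mul_comm]; exact hc1i)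
  have hcu : IsUnit (c2 ^ (q + 1) * c1i ^ (q + 1)) := (hc2.pow _).mul (hc1iu.pow _)
  obtain ⟨κ, hκu, hκ⟩ := hconst _ uΘ.2.1 _ hcu (s36tc_cg_sub Wc hΘm (hAc _))
  obtain ⟨κi, hκi⟩ := hκu.exists_right_inv
  have uκc := s36tor_u_const Wc hAc hκu
  have cΘ : s36tc_cg Wc (α E1 ^ q * β E1' / (β E2 ^ q * α E2')) (algebraMap A F κ) :=
    s36tc_cg_of_sub Wc uκc hκ
  have hκm : s36tc_cg Wc (algebraMap A F κ ^ m)
      (algebraMap A F (c2 ^ (q + 1) * c1i ^ (q + 1))) :=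
    s36tc_cg_trans Wc (s36tc_cg_pow Wc (s36tc_cg_symm Wc cΘ) m) hΘm
  have hκ0 : algebraMap A F κ ≠ 0 := uκc.1
  have hκκ : algebraMap A F κ * algebraMap A F κi = 1 := by rw [← map_mul, hκi, map_one]
  have hκi0 : algebraMap A F κi ≠ 0 := right_ne_zero_of_mul_eq_one hκκ
  have hκinv : (algebraMap A F κ)⁻¹ = algebraMap A F κi := s36tor_inv_const hκi
  -- (G8): the relation between the constants holds at `Wb` too
  have hd : algebraMap A F (κ ^ m * c1 ^ (q + 1) - c2 ^ (q + 1)) ∈ Wc.nonunits := by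
    have h1 := s36tc_cg_sub Wc hκm (hAc _)
    have h2 := s35n_nu_mul' Wc h1 (hAc (c1 ^ (q + 1)))
    have h3 : (algebraMap A F κ ^ m - algebraMap A F (c2 ^ (q + 1) * c1i ^ (q + 1))) *
        algebraMap A F (c1 ^ (q + 1)) =
        algebraMap A F (κ ^ m * c1 ^ (q + 1) - c2 ^ (q + 1)) := by
      rw [← map_pow, ← map_sub, ← map_mul]
      congr 1
      have : c1i ^ (q + 1) * c1 ^ (q + 1) = 1 := by rw [← mul_pow, mul_comm, hc1i, one_pow]
      linear_combination (-(c2 ^ (q + 1))) * this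
    rwa [h3] at h2
  have hκb : s36tc_cg Wb (algebraMap A F κ ^ m * algebraMap A F c1 ^ (q + 1))
      (algebraMap A F c2 ^ (q + 1)) := by
    apply s36tc_cg_of_sub Wb (s36tc_u_pow Wb uc2b _)
    have : algebraMap A F κ ^ m * algebraMap A F c1 ^ (q + 1) - algebraMap A F c2 ^ (q + 1) =
        algebraMap A F (κ ^ m * c1 ^ (q + 1) - c2 ^ (q + 1)) := by
      simp only [map_sub, map_mul, map_pow]
    rw [this]
    exact hcst _ hd
  have hcb : s36tc_cg Wb (algebraMap A F c1 ^ (q + 1))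
      (algebraMap A F c2 ^ (q + 1) * algebraMap A F κi ^ m) := by
    have := s36tc_cg_mul Wb hκb (s36tc_cg_refl Wb (pow_ne_zero m hκi0))
    refine s36tc_cg_congr Wb this ?_ rfl
    rw [mul_right_comm, ← mul_pow, hκκ, one_pow, one_mul]
  have hκm' : s36tc_cg Wc (algebraMap A F κ ^ m)
      (algebraMap A F c2 ^ (q + 1) / algebraMap A F c1 ^ (q + 1)) := by
    refine s36tc_cg_congr Wc hκm rfl ?_
    rw [map_mul, map_pow, map_pow, ← hci1, inv_pow, ← div_eq_mul_inv]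
  refine ⟨κ, κi, c2 ^ ((q + 1) * e), c2i ^ ((q + 1) * e), E1', E2', hκi, ?_, ⟨uE1V1, uE1V2⟩,
    ⟨uE2V1, uE2V2⟩, cE2', cE1', cΘ, ?_, ?_, ?_⟩
  · rw [← mul_pow, hc2i, one_pow]
  · -- `Wa`
    have h1 := s36tc_cg_pow Wa (s36tc_cg_symm Wa g2) ((q + 1) * e)
    refine s36tc_cg_congr Wa h1 (by ring) ?_
    rw [map_pow]
    ring
  · -- `Wb`
    have h1 := s36tc_cg_pow Wb (s36tc_cg_symm Wb g1) ((q + 1) * e)
    have h2 : s36tc_cg Wb (f ^ (q * e * (q + 1)))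
        ((algebraMap A F c1 ^ (q + 1)) ^ e * (α E1 ^ ((q + 1) * e)) ^ m) :=
      s36tc_cg_congr Wb h1 (by ring) (by ring)
    have h3 := s36tc_cg_mul Wb (s36tc_cg_pow Wb hcb e)
      (s36tc_cg_refl Wb (pow_ne_zero m (pow_ne_zero ((q + 1) * e) uPb.1)))
    refine s36tc_cg_trans Wb h2 (s36tc_cg_congr Wb h3 rfl ?_)
    rw [map_pow]
    ring
  · -- `Wc`
    have j1 : s36tc_cg Wc (f ^ e) (algebraMap A F c1 * α E1 ^ m / α fa) := by
      have := s36tc_cg_div Wc (s36tc_cg_symm Wc g3) (s36tc_cg_refl Wc hfa0)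
      exact s36tc_cg_congr Wc this (by field_simp) rfl
    have j2 : s36tc_cg Wc ((f ^ e) ^ q)
        ((algebraMap A F c1 * α E1 ^ m) ^ q / (algebraMap A F c2 * α E2' ^ m)) := by
      have h1 := s36tc_cg_pow Wc j1 q
      have h2 := s36tc_cg_div Wc
        (s36tc_cg_refl Wc (pow_ne_zero q (mul_ne_zero hc10 (pow_ne_zero m hP0)))) g5c
      exact s36tc_cg_trans Wc (s36tc_cg_congr Wc h1 rfl (by rw [div_pow])) h2
    have j3 := s36tc_cg_pow Wc j2 (q + 1)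
    have hcc : s36tc_cg Wc
        (algebraMap A F c2 ^ ((q + 1) * e) * (algebraMap A F κi ^ q) ^ m)
        ((algebraMap A F c1 ^ q / algebraMap A F c2) ^ (q + 1)) := by
      have h1 := s36tc_cg_mul Wc
        (s36tc_cg_refl Wc (pow_ne_zero ((q + 1) * e) hc20))
        (s36tc_cg_pow Wc (s36tc_cg_inv Wc hκm') q)
      refine s36tc_cg_congr Wc h1 ?_ ?_
      · rw [← hκinv]
        ring
      · subst hqe
        simp only [div_pow, inv_pow]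
        field_simp
        ring
    have h4 : s36tc_cg Wc (f ^ (q * e * (q + 1)))
        ((algebraMap A F c1 ^ q / algebraMap A F c2) ^ (q + 1) *
          ((α E1 ^ q / α E2') ^ (q + 1)) ^ m) := by
      refine s36tc_cg_congr Wc j3 (by ring) ?_
      simp only [div_pow, mul_pow]
      field_simp
      ring
    have h5 := s36tc_cg_mul Wc (s36tc_cg_symm Wc hcc)
      (s36tc_cg_refl Wc (pow_ne_zero m (pow_ne_zero (q + 1)
        (div_ne_zero (pow_ne_zero q hP0) hT0))))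
    refine s36tc_cg_trans Wc h4 (s36tc_cg_congr Wc h5 rfl ?_)
    rw [map_pow]
    ring

end Glob

section Main

variable {A E F : Type*} [CommRing A] [Field E] [Field F] [Algebra A E] [Algebra A F]

/-- **TORIC3** (contract finding 236).  For `f` a unit at the three vertical valuations whose two
norms are `(unit constant) * (m-th power)`: one unit constant `C` and one function `ω` such that
`W := f ^ (q e (q+1)) / (C ω ^ m)` is `≡ 1` modulo the three maximal ideals and, at every triple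
point (`S36Tri`) and for every local form `f = u y ^ m` there (`u` a unit of the local ring `R`),
`W = r γ ^ m` with `r` a unit of `R` and `γ ≡ 1` modulo the three maximal ideals. -/
theorem s36tor_main (α β : E →+* F)
    (hαA : ∀ a : A, α (algebraMap A E a) = algebraMap A F a)
    (hβA : ∀ a : A, β (algebraMap A E a) = algebraMap A F a)
    (Nα Nβ : F →* E)
    (Wa Wb Wc : ValuationSubring F) (V1 V2 : ValuationSubring E)
    (hAa : ∀ a : A, algebraMap A F a ∈ Wa) (hAb : ∀ a : A, algebraMap A F a ∈ Wb)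
    (hAc : ∀ a : A, algebraMap A F a ∈ Wc)
    -- lying over: `α`: `Wa, Wc ↦ V1`, `Wb ↦ V2`; `β`: `Wa ↦ V1`, `Wb, Wc ↦ V2`
    (hαa : ∀ x : E, α x ∈ Wa ↔ x ∈ V1) (hαc : ∀ x : E, α x ∈ Wc ↔ x ∈ V1)
    (hαb : ∀ x : E, α x ∈ Wb ↔ x ∈ V2)
    (hβa : ∀ x : E, β x ∈ Wa ↔ x ∈ V1) (hβb : ∀ x : E, β x ∈ Wb ↔ x ∈ V2)
    (hβc : ∀ x : E, β x ∈ Wc ↔ x ∈ V2)
    (q e m : ℕ) (hqe : q = e + 1) (hm : 0 < m) (hmA : IsUnit (m : A))
    -- norm-residue congruences (element form)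
    (hNα1 : ∀ (z : F) (za zc : E), za ∈ V1 → zc ∈ V1 → z - α za ∈ Wa.nonunits →
      z - α zc ∈ Wc.nonunits → Nα z - za * zc ^ e ∈ V1.nonunits)
    (hNα2 : ∀ z : F, z ∈ Wb → α (Nα z) - z ^ q ∈ Wb.nonunits)
    (hNβ2 : ∀ (z : F) (zb zc : E), zb ∈ V2 → zc ∈ V2 → z - β zb ∈ Wb.nonunits →
      z - β zc ∈ Wc.nonunits → Nβ z - zb * zc ^ e ∈ V2.nonunits)
    (hNβ1 : ∀ z : F, z ∈ Wa → β (Nβ z) - z ^ q ∈ Wa.nonunits)
    -- residue degree one
    (hRαa : ∀ z ∈ Wa, ∃ z' ∈ V1, z - α z' ∈ Wa.nonunits)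
    (hRαc : ∀ z ∈ Wc, ∃ z' ∈ V1, z - α z' ∈ Wc.nonunits)
    (hRβb : ∀ z ∈ Wb, ∃ z' ∈ V2, z - β z' ∈ Wb.nonunits)
    (hRβc : ∀ z ∈ Wc, ∃ z' ∈ V2, z - β z' ∈ Wc.nonunits)
    -- constants: an `m`-th root of a constant in the residue field of `Wc` is a constant
    (hconst : ∀ z ∈ Wc, ∀ c : A, IsUnit c → z ^ m - algebraMap A F c ∈ Wc.nonunits →
      ∃ c' : A, IsUnit c' ∧ z - algebraMap A F c' ∈ Wc.nonunits)
    (hcst : ∀ c : A, algebraMap A F c ∈ Wc.nonunits → algebraMap A F c ∈ Wb.nonunits)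
    -- weak approximation at the three valuations
    (happ : ∀ za zb zc : F, za ∈ Wa → zb ∈ Wb → zc ∈ Wc →
      ∃ z : F, z - za ∈ Wa.nonunits ∧ z - zb ∈ Wb.nonunits ∧ z - zc ∈ Wc.nonunits)
    -- the function: a unit at the three valuations, with both norms `constant * m-th power`
    (f : F) (hf0 : f ≠ 0) (hfa : f ∈ Wa) (hfa' : f⁻¹ ∈ Wa) (hfb : f ∈ Wb) (hfb' : f⁻¹ ∈ Wb)
    (hfc : f ∈ Wc) (hfc' : f⁻¹ ∈ Wc)
    (c1 c2 : A) (hc1 : IsUnit c1) (hc2 : IsUnit c2) (E1 E2 : E)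
    (hN1 : Nα f = algebraMap A E c1 * E1 ^ m) (hN2 : Nβ f = algebraMap A E c2 * E2 ^ m) :
    ∃ (C : A) (ω : F), IsUnit C ∧ ω ≠ 0 ∧
      f ^ (q * e * (q + 1)) * (algebraMap A F C * ω ^ m)⁻¹ - 1 ∈ Wa.nonunits ∧
      f ^ (q * e * (q + 1)) * (algebraMap A F C * ω ^ m)⁻¹ - 1 ∈ Wb.nonunits ∧
      f ^ (q * e * (q + 1)) * (algebraMap A F C * ω ^ m)⁻¹ - 1 ∈ Wc.nonunits ∧
      ∀ R : Subring F, S36Tri (A := A) α β Nα Nβ Wa Wb Wc m R →
        ∀ u y : F, u ∈ R → u⁻¹ ∈ R → f = u * y ^ m →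
          ∃ γ : F, γ - 1 ∈ Wa.nonunits ∧ γ - 1 ∈ Wb.nonunits ∧ γ - 1 ∈ Wc.nonunits ∧
            ∃ r : F, r ∈ R ∧ r⁻¹ ∈ R ∧ r ≠ 0 ∧
              f ^ (q * e * (q + 1)) * (algebraMap A F C * ω ^ m)⁻¹ = r * γ ^ m := by
  have ufa : s36tc_u Wa f := ⟨hf0, hfa, hfa'⟩
  have ufb : s36tc_u Wb f := ⟨hf0, hfb, hfb'⟩
  have ufc : s36tc_u Wc f := ⟨hf0, hfc, hfc'⟩
  obtain ⟨κ, κi, C, Ci, E1', E2', hκ, hC, hE1, hE2, cE2', cE1', cΘ, hGa, hGb, hGc⟩ :=
    s36tor_glob α β hαA hβA Nα Nβ Wa Wb Wc V1 V2 hAa hAb hAc hαa hαc hαb hβa hβb hβc q e m hqe hm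
      hNα1 hNα2 hNβ2 hNβ1 hRαa hRαc hRβb hRβc hconst hcst f ufa ufb ufc c1 c2 hc1 hc2 E1 E2
      hN1 hN2
  have hCu : IsUnit C := IsUnit.of_mul_eq_one Ci hC
  have hκiu : IsUnit κi := IsUnit.of_mul_eq_one κ (by rw [mul_comm]; exact hκ)
  -- the three residue targets are units
  have uωa : s36tc_u Wa (β E2 ^ ((q + 1) * e)) :=
    s36tc_u_pow Wa ((s36tc_u_map β V1 Wa hβa E2).mpr hE2.1) _
  have uωb : s36tc_u Wb (α E1 ^ ((q + 1) * e) * algebraMap A F κi ^ e) :=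
    s36tc_u_mul Wb (s36tc_u_pow Wb ((s36tc_u_map α V2 Wb hαb E1).mpr hE1.2) _)
      (s36tc_u_pow Wb (s36tor_u_const Wb hAb hκiu) _)
  have uTc : s36tc_u Wc (α E2') :=
    (s36tc_u_map α V1 Wc hαc E2').mpr ((s36tc_u_map α V1 Wa hαa E2').mp
      (s36tc_cg_u Wa cE2' ((s36tc_u_map β V1 Wa hβa E2).mpr hE2.1)))
  have uωc : s36tc_u Wc ((α E1 ^ q / α E2') ^ (q + 1) * algebraMap A F κi ^ q) :=
    s36tc_u_mul Wc (s36tc_u_pow Wc (s36tc_u_div Wc
      (s36tc_u_pow Wc ((s36tc_u_map α V1 Wc hαc E1).mpr hE1.1) _) uTc) _)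
      (s36tc_u_pow Wc (s36tor_u_const Wc hAc hκiu) _)
  obtain ⟨ω, hωa, hωb, hωc⟩ := happ _ _ _ uωa.2.1 uωb.2.1 uωc.2.1
  have cωa := s36tc_cg_of_sub Wa uωa hωa
  have cωb := s36tc_cg_of_sub Wb uωb hωb
  have cωc := s36tc_cg_of_sub Wc uωc hωc
  have hC0 : algebraMap A F C ≠ 0 := (s36tor_u_const Wa hAa hCu).1
  have Ga := s36tc_cg_trans Wa hGa
    (s36tc_cg_mul Wa (s36tc_cg_refl Wa hC0) (s36tc_cg_pow Wa (s36tc_cg_symm Wa cωa) m))
  have Gb := s36tc_cg_trans Wb hGb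
    (s36tc_cg_mul Wb (s36tc_cg_refl Wb hC0) (s36tc_cg_pow Wb (s36tc_cg_symm Wb cωb) m))
  have Gc := s36tc_cg_trans Wc hGc
    (s36tc_cg_mul Wc (s36tc_cg_refl Wc hC0) (s36tc_cg_pow Wc (s36tc_cg_symm Wc cωc) m))
  have hω0 : ω ≠ 0 := cωa.1
  refine ⟨C, ω, hCu, hω0, Ga.2.2, Gb.2.2, Gc.2.2, ?_⟩
  intro R hR u y hu hu' hfuy
  obtain ⟨x0, hx0, hx0', ca, cb, cc⟩ :=
    s36tp_main α β hαA hβA Nα Nβ Wa Wb Wc V1 V2 hAa hAb hAc hαa hαc hαb hβa hβb hβc q e m hqe hm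
      hmA hNα1 hNα2 hNβ2 hNβ1 hRαa hRαc hRβb hRβc f ufa ufb ufc c1 c2 κ κi C Ci hc1 hc2 hκ hC
      E1 E2 E1' E2' hN1 hN2 hE1 hE2 cE2' cE1' cΘ hGa hGb hGc R hR u y hu hu' hfuy
  have hy0 : y ≠ 0 := by
    intro h
    apply hf0
    rw [hfuy, h, zero_pow (by omega), mul_zero]
  have hx00 : x0 ≠ 0 := ca.1
  have hyB : y ^ (q * e * (q + 1)) ≠ 0 := pow_ne_zero _ hy0
  have key : ∀ (W : ValuationSubring F) (t : F), t ≠ 0 →
      s36tc_cg W x0 (t / y ^ (q * e * (q + 1))) → s36tc_cg W ω t →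
      x0 * y ^ (q * e * (q + 1)) / ω - 1 ∈ W.nonunits := by
    intro W t ht h1 h2
    have h3 := s36tc_cg_div W (s36tc_cg_mul W h1 (s36tc_cg_refl W hyB)) h2
    have h4 : t / y ^ (q * e * (q + 1)) * y ^ (q * e * (q + 1)) / t = 1 := by
      field_simp
    rw [h4] at h3
    have := h3.2.2
    rwa [inv_one, mul_one] at this
  refine ⟨x0 * y ^ (q * e * (q + 1)) / ω, key Wa _ uωa.1 ca cωa, key Wb _ uωb.1 cb cωb,
    key Wc _ uωc.1 cc cωc, u ^ (q * e * (q + 1)) * algebraMap A F Ci * x0⁻¹ ^ m, ?_, ?_, ?_, ?_⟩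
  · exact R.mul_mem (R.mul_mem (R.pow_mem hu _) (hR.2.1 Ci)) (R.pow_mem hx0' _)
  · have : (u ^ (q * e * (q + 1)) * algebraMap A F Ci * x0⁻¹ ^ m)⁻¹ =
        u⁻¹ ^ (q * e * (q + 1)) * algebraMap A F C * x0 ^ m := by
      rw [mul_inv, mul_inv, ← inv_pow, ← inv_pow, inv_inv, ← s36tor_inv_const hC, inv_inv]
    rw [this]
    exact R.mul_mem (R.mul_mem (R.pow_mem hu' _) (hR.2.1 C)) (R.pow_mem hx0 _)
  · have hu0 : u ≠ 0 := by
      intro h
      apply hf0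
      rw [hfuy, h, zero_mul]
    have hCi0 : algebraMap A F Ci ≠ 0 := by
      rw [← s36tor_inv_const hC]
      exact inv_ne_zero hC0
    exact mul_ne_zero (mul_ne_zero (pow_ne_zero _ hu0) hCi0) (pow_ne_zero _ (inv_ne_zero hx00))
  · rw [hfuy, ← s36tor_inv_const hC]
    simp only [div_pow, mul_pow, inv_pow]
    field_simp
    ring

end Main

end Fermat.Agent.S36
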