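/-
S36, family D (NORMRES-TORIC), leaf [VERT-TOR]: the abstract composition of VERT3-NORM
(`s36vn_main`) and TORIC3 (`s36tor_main`).  Prefix `s36vr_`.

* `s36vr_pair`, `s36vr_single`: the norm-residue binders of `s36tor_main` (finding 236: `hNα1`,
  `hNα2`, `hNβ2`, `hNβ1`, residue degree one, lying over in iff form) give the six norm
  hypotheses of `s36vt_main` / `s36vn_main` (integrality, and "non-unit ⇒ non-unit" on the two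
  pairs);
* `s36vr_vert`: VERT3-NORM with the binders of TORIC3; its output is the input block of
  `s36tor_main`;
* `s36vr_main`: the composition: for `f ≠ 0` with `Nα f = C₁ τE ^ k₁ e₁ ^ m`,
  `Nβ f = C₂ τE ^ k₂ e₂ ^ m`, the function `x = f ^ (q + 1) * τ ^ i * (Xa ^ j * π ^ k) ^ m`
  satisfies the conclusion of `s36tor_main`.
-/
import Mathlib
import Fermat.Agent.S35.AbsNorm
import Fermat.Agent.S36.Vert3Norm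
import Fermat.Agent.S36.Toric3Cg
import Fermat.Agent.S36.Toric3

set_option autoImplicit false
set_option linter.unusedVariables false

namespace Fermat.Agent.S36

open Fermat.Agent.S35

section VertTor

variable {E F : Type*} [Field E] [Field F]

/-- the pair case: integrality and "non-unit ⇒ non-unit" of the norm from the norm-residue
congruence `N z ≡ za * zc ^ e` and residue degree one -/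
theorem s36vr_pair (φ : E →+* F) (N : F →* E) (W W' : ValuationSubring F)
    (V : ValuationSubring E)
    (hφW : ∀ x : E, φ x ∈ W ↔ x ∈ V) (hφW' : ∀ x : E, φ x ∈ W' ↔ x ∈ V)
    (e : ℕ) (he : 0 < e)
    (hN : ∀ (z : F) (za zc : E), za ∈ V → zc ∈ V → z - φ za ∈ W.nonunits →
      z - φ zc ∈ W'.nonunits → N z - za * zc ^ e ∈ V.nonunits)
    (hR : ∀ z ∈ W, ∃ z' ∈ V, z - φ z' ∈ W.nonunits)
    (hR' : ∀ z ∈ W', ∃ z' ∈ V, z - φ z' ∈ W'.nonunits) :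
    (∀ u : F, u ∈ W → u ∈ W' → N u ∈ V) ∧
    (∀ u : F, u ∈ W → u ∈ W' → (u ∈ W.nonunits ∨ u ∈ W'.nonunits) → N u ∈ V.nonunits) := by
  have key : ∀ u : F, u ∈ W → u ∈ W' → ∃ za zc : E, za ∈ V ∧ zc ∈ V ∧
      u - φ za ∈ W.nonunits ∧ u - φ zc ∈ W'.nonunits ∧ N u - za * zc ^ e ∈ V.nonunits := by
    intro u hu hu'
    obtain ⟨za, hza, h1⟩ := hR u hu
    obtain ⟨zc, hzc, h2⟩ := hR' u hu'
    exact ⟨za, zc, hza, hzc, h1, h2, hN u za zc hza hzc h1 h2⟩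
  constructor
  · intro u hu hu'
    obtain ⟨za, zc, hza, hzc, -, -, h3⟩ := key u hu hu'
    have h4 := add_mem (s35n_nu_mem V h3) (mul_mem hza (pow_mem hzc e))
    rwa [sub_add_cancel] at h4
  · intro u hu hu' hor
    obtain ⟨za, zc, hza, hzc, h1, h2, h3⟩ := key u hu hu'
    have h5 : za * zc ^ e ∈ V.nonunits := by
      rcases hor with h | h
      · have h6 : φ za ∈ W.nonunits := by
          have h7 := s35n_nu_sub W h h1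
          rwa [sub_sub_cancel] at h7
        exact s35n_nu_mul' V ((s36tc_nu_map φ V W hφW za).mp h6) (pow_mem hzc e)
      · have h6 : φ zc ∈ W'.nonunits := by
          have h7 := s35n_nu_sub W' h h2
          rwa [sub_sub_cancel] at h7
        have h8 : zc ∈ V.nonunits := (s36tc_nu_map φ V W' hφW' zc).mp h6
        obtain ⟨e', rfl⟩ : ∃ e', e = e' + 1 := ⟨e - 1, by omega⟩
        rw [pow_succ]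
        exact s35n_nu_mul V hza (s35n_nu_mul V (pow_mem hzc e') h8)
    have h9 := s35n_nu_add V h3 h5
    rwa [sub_add_cancel] at h9

/-- the purely inseparable case: integrality of the norm from `φ (N z) ≡ z ^ q` -/
theorem s36vr_single (φ : E →+* F) (N : F →* E) (W : ValuationSubring F)
    (V : ValuationSubring E) (hφW : ∀ x : E, φ x ∈ W ↔ x ∈ V) (q : ℕ)
    (hN : ∀ z : F, z ∈ W → φ (N z) - z ^ q ∈ W.nonunits) :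
    ∀ u : F, u ∈ W → N u ∈ V := by
  intro u hu
  have h := add_mem (s35n_nu_mem W (hN u hu)) (pow_mem hu q)
  rw [sub_add_cancel] at h
  exact (hφW _).mp h

/-- **VERT3-NORM in the binder shapes of TORIC3 (finding 236).**  The output is exactly the
input block `f, c1, c2, E1, E2` of `s36tor_main` (for the function `x`). -/
theorem s36vr_vert {A : Type*} [CommRing A] [Algebra A E]
    (α β : E →+* F) (Nα Nβ : F →* E)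
    (Wa Wb Wc : ValuationSubring F) (V1 V2 : ValuationSubring E)
    (hA1 : ∀ a : A, algebraMap A E a ∈ V1) (hA2 : ∀ a : A, algebraMap A E a ∈ V2)
    (hαa : ∀ x : E, α x ∈ Wa ↔ x ∈ V1) (hαc : ∀ x : E, α x ∈ Wc ↔ x ∈ V1)
    (hαb : ∀ x : E, α x ∈ Wb ↔ x ∈ V2)
    (hβa : ∀ x : E, β x ∈ Wa ↔ x ∈ V1) (hβb : ∀ x : E, β x ∈ Wb ↔ x ∈ V2)
    (hβc : ∀ x : E, β x ∈ Wc ↔ x ∈ V2)
    (q e m : ℕ) (hqe : q = e + 1) (he : 0 < e) (hm : 0 < m)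
    (hNα1 : ∀ (z : F) (za zc : E), za ∈ V1 → zc ∈ V1 → z - α za ∈ Wa.nonunits →
      z - α zc ∈ Wc.nonunits → Nα z - za * zc ^ e ∈ V1.nonunits)
    (hNα2 : ∀ z : F, z ∈ Wb → α (Nα z) - z ^ q ∈ Wb.nonunits)
    (hNβ2 : ∀ (z : F) (zb zc : E), zb ∈ V2 → zc ∈ V2 → z - β zb ∈ Wb.nonunits →
      z - β zc ∈ Wc.nonunits → Nβ z - zb * zc ^ e ∈ V2.nonunits)
    (hNβ1 : ∀ z : F, z ∈ Wa → β (Nβ z) - z ^ q ∈ Wa.nonunits)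
    (hRαa : ∀ z ∈ Wa, ∃ z' ∈ V1, z - α z' ∈ Wa.nonunits)
    (hRαc : ∀ z ∈ Wc, ∃ z' ∈ V1, z - α z' ∈ Wc.nonunits)
    (hRβb : ∀ z ∈ Wb, ∃ z' ∈ V2, z - β z' ∈ Wb.nonunits)
    (hRβc : ∀ z ∈ Wc, ∃ z' ∈ V2, z - β z' ∈ Wc.nonunits)
    -- the uniformisers (finding 235)
    (τ π Xa : F) (τE : E)
    (hτ0 : τ ≠ 0) (hπ0 : π ≠ 0) (hXa0 : Xa ≠ 0) (hτE0 : τE ≠ 0)
    (hτa : τ ∈ Wa.nonunits) (hτb : τ ∈ Wb.nonunits) (hπc : π ∈ Wc.nonunits)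
    (hτE1 : τE ∈ V1.nonunits) (hτE2 : τE ∈ V2.nonunits)
    (hdeca : ∀ z : F, z ≠ 0 → ∃ j : ℤ, z * τ ^ j ∈ Wa ∧ (z * τ ^ j)⁻¹ ∈ Wa)
    (hdecb : ∀ z : F, z ≠ 0 → ∃ j : ℤ, z * τ ^ j ∈ Wb ∧ (z * τ ^ j)⁻¹ ∈ Wb)
    (hdecc : ∀ z : F, z ≠ 0 → ∃ j : ℤ, z * π ^ j ∈ Wc ∧ (z * π ^ j)⁻¹ ∈ Wc)
    (hdec1 : ∀ z : E, z ≠ 0 → ∃ j : ℤ, z * τE ^ j ∈ V1 ∧ (z * τE ^ j)⁻¹ ∈ V1)
    (hdec2 : ∀ z : E, z ≠ 0 → ∃ j : ℤ, z * τE ^ j ∈ V2 ∧ (z * τE ^ j)⁻¹ ∈ V2)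
    (hπτ : π ^ (q - 1) * τ⁻¹ ∈ Wc ∧ (π ^ (q - 1) * τ⁻¹)⁻¹ ∈ Wc)
    (hπa : π ∈ Wa ∧ π⁻¹ ∈ Wa) (hπb : π ∈ Wb ∧ π⁻¹ ∈ Wb)
    (hXaa : Xa * τ⁻¹ ∈ Wa ∧ (Xa * τ⁻¹)⁻¹ ∈ Wa)
    (hXab : Xa ∈ Wb ∧ Xa⁻¹ ∈ Wb) (hXac : Xa ∈ Wc ∧ Xa⁻¹ ∈ Wc)
    (hNτ1 : Nα τ = τE ^ q) (hNτ2 : Nβ τ = τE ^ q)
    -- the function
    (f : F) (hf : f ≠ 0) (C1 C2 : Aˣ) (k1 k2 : ℤ) (e1 e2 : E)
    (h1 : Nα f = algebraMap A E (C1 : A) * τE ^ k1 * e1 ^ m)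
    (h2 : Nβ f = algebraMap A E (C2 : A) * τE ^ k2 * e2 ^ m) :
    ∃ (i j k : ℤ) (x : F) (c1 c2 : A) (E1 E2 : E),
      x = f ^ (q + 1) * τ ^ i * (Xa ^ j * π ^ k) ^ m ∧ x ≠ 0 ∧
      x ∈ Wa ∧ x⁻¹ ∈ Wa ∧ x ∈ Wb ∧ x⁻¹ ∈ Wb ∧ x ∈ Wc ∧ x⁻¹ ∈ Wc ∧
      IsUnit c1 ∧ IsUnit c2 ∧
      Nα x = algebraMap A E c1 * E1 ^ m ∧ Nβ x = algebraMap A E c2 * E2 ^ m := by
  obtain ⟨hN1ac, hN1ac'⟩ := s36vr_pair α Nα Wa Wc V1 hαa hαc e he hNα1 hRαa hRαc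
  obtain ⟨hN2bc, hN2bc'⟩ := s36vr_pair β Nβ Wb Wc V2 hβb hβc e he hNβ2 hRβb hRβc
  have hN1b := s36vr_single α Nα Wb V2 hαb q hNα2
  have hN2a := s36vr_single β Nβ Wa V1 hβa q hNβ1
  obtain ⟨i, j, k, x, E1, E2, hx, x0, ⟨xa, xa'⟩, ⟨xb, xb'⟩, ⟨xc, xc'⟩, hE1, hE2⟩ :=
    s36vn_main Wa Wb Wc V1 V2 hA1 hA2 Nα Nβ q m (by omega) hm τ π Xa τE hτ0 hπ0 hXa0 hτE0
      hτa hτb hπc hτE1 hτE2 hdeca hdecb hdecc hdec1 hdec2 hπτ hπa hπb hXaa hXab hXac hNτ1 hNτ2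
      hN1ac hN1ac' hN1b hN2a hN2bc hN2bc' f hf C1 C2 k1 k2 e1 e2 h1 h2
  exact ⟨i, j, k, x, _, _, E1, E2, hx, x0, xa, xa', xb, xb', xc, xc',
    (C1 ^ (q + 1)).isUnit, (C2 ^ (q + 1)).isUnit, hE1, hE2⟩

/-- **VERT3-NORM ∘ TORIC3.**  One binder list (the binders of `s36tor_main`, finding 236, plus
the uniformiser data of finding 235); the conclusion is the conclusion of `s36tor_main` for the
normalised function `x = f ^ (q + 1) * τ ^ i * (Xa ^ j * π ^ k) ^ m`. -/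
theorem s36vr_main {A : Type*} [CommRing A] [Algebra A E] [Algebra A F]
    (α β : E →+* F)
    (hαA : ∀ a : A, α (algebraMap A E a) = algebraMap A F a)
    (hβA : ∀ a : A, β (algebraMap A E a) = algebraMap A F a)
    (Nα Nβ : F →* E)
    (Wa Wb Wc : ValuationSubring F) (V1 V2 : ValuationSubring E)
    (hAa : ∀ a : A, algebraMap A F a ∈ Wa) (hAb : ∀ a : A, algebraMap A F a ∈ Wb)
    (hAc : ∀ a : A, algebraMap A F a ∈ Wc)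
    (hαa : ∀ x : E, α x ∈ Wa ↔ x ∈ V1) (hαc : ∀ x : E, α x ∈ Wc ↔ x ∈ V1)
    (hαb : ∀ x : E, α x ∈ Wb ↔ x ∈ V2)
    (hβa : ∀ x : E, β x ∈ Wa ↔ x ∈ V1) (hβb : ∀ x : E, β x ∈ Wb ↔ x ∈ V2)
    (hβc : ∀ x : E, β x ∈ Wc ↔ x ∈ V2)
    (q e m : ℕ) (hqe : q = e + 1) (he : 0 < e) (hm : 0 < m) (hmA : IsUnit (m : A))
    (hNα1 : ∀ (z : F) (za zc : E), za ∈ V1 → zc ∈ V1 → z - α za ∈ Wa.nonunits →
      z - α zc ∈ Wc.nonunits → Nα z - za * zc ^ e ∈ V1.nonunits)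
    (hNα2 : ∀ z : F, z ∈ Wb → α (Nα z) - z ^ q ∈ Wb.nonunits)
    (hNβ2 : ∀ (z : F) (zb zc : E), zb ∈ V2 → zc ∈ V2 → z - β zb ∈ Wb.nonunits →
      z - β zc ∈ Wc.nonunits → Nβ z - zb * zc ^ e ∈ V2.nonunits)
    (hNβ1 : ∀ z : F, z ∈ Wa → β (Nβ z) - z ^ q ∈ Wa.nonunits)
    (hRαa : ∀ z ∈ Wa, ∃ z' ∈ V1, z - α z' ∈ Wa.nonunits)
    (hRαc : ∀ z ∈ Wc, ∃ z' ∈ V1, z - α z' ∈ Wc.nonunits)
    (hRβb : ∀ z ∈ Wb, ∃ z' ∈ V2, z - β z' ∈ Wb.nonunits)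
    (hRβc : ∀ z ∈ Wc, ∃ z' ∈ V2, z - β z' ∈ Wc.nonunits)
    (hconst : ∀ z ∈ Wc, ∀ c : A, IsUnit c → z ^ m - algebraMap A F c ∈ Wc.nonunits →
      ∃ c' : A, IsUnit c' ∧ z - algebraMap A F c' ∈ Wc.nonunits)
    (hcst : ∀ c : A, algebraMap A F c ∈ Wc.nonunits → algebraMap A F c ∈ Wb.nonunits)
    (happ : ∀ za zb zc : F, za ∈ Wa → zb ∈ Wb → zc ∈ Wc →
      ∃ z : F, z - za ∈ Wa.nonunits ∧ z - zb ∈ Wb.nonunits ∧ z - zc ∈ Wc.nonunits)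
    -- the uniformisers (finding 235)
    (τ π Xa : F) (τE : E)
    (hτ0 : τ ≠ 0) (hπ0 : π ≠ 0) (hXa0 : Xa ≠ 0) (hτE0 : τE ≠ 0)
    (hτa : τ ∈ Wa.nonunits) (hτb : τ ∈ Wb.nonunits) (hπc : π ∈ Wc.nonunits)
    (hτE1 : τE ∈ V1.nonunits) (hτE2 : τE ∈ V2.nonunits)
    (hdeca : ∀ z : F, z ≠ 0 → ∃ j : ℤ, z * τ ^ j ∈ Wa ∧ (z * τ ^ j)⁻¹ ∈ Wa)
    (hdecb : ∀ z : F, z ≠ 0 → ∃ j : ℤ, z * τ ^ j ∈ Wb ∧ (z * τ ^ j)⁻¹ ∈ Wb)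
    (hdecc : ∀ z : F, z ≠ 0 → ∃ j : ℤ, z * π ^ j ∈ Wc ∧ (z * π ^ j)⁻¹ ∈ Wc)
    (hdec1 : ∀ z : E, z ≠ 0 → ∃ j : ℤ, z * τE ^ j ∈ V1 ∧ (z * τE ^ j)⁻¹ ∈ V1)
    (hdec2 : ∀ z : E, z ≠ 0 → ∃ j : ℤ, z * τE ^ j ∈ V2 ∧ (z * τE ^ j)⁻¹ ∈ V2)
    (hπτ : π ^ (q - 1) * τ⁻¹ ∈ Wc ∧ (π ^ (q - 1) * τ⁻¹)⁻¹ ∈ Wc)
    (hπa : π ∈ Wa ∧ π⁻¹ ∈ Wa) (hπb : π ∈ Wb ∧ π⁻¹ ∈ Wb)
    (hXaa : Xa * τ⁻¹ ∈ Wa ∧ (Xa * τ⁻¹)⁻¹ ∈ Wa)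
    (hXab : Xa ∈ Wb ∧ Xa⁻¹ ∈ Wb) (hXac : Xa ∈ Wc ∧ Xa⁻¹ ∈ Wc)
    (hNτ1 : Nα τ = τE ^ q) (hNτ2 : Nβ τ = τE ^ q)
    -- the function
    (f : F) (hf : f ≠ 0) (C1 C2 : Aˣ) (k1 k2 : ℤ) (e1 e2 : E)
    (h1 : Nα f = algebraMap A E (C1 : A) * τE ^ k1 * e1 ^ m)
    (h2 : Nβ f = algebraMap A E (C2 : A) * τE ^ k2 * e2 ^ m) :
    ∃ (i j k : ℤ) (x : F), x = f ^ (q + 1) * τ ^ i * (Xa ^ j * π ^ k) ^ m ∧ x ≠ 0 ∧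
      (x ∈ Wa ∧ x⁻¹ ∈ Wa) ∧ (x ∈ Wb ∧ x⁻¹ ∈ Wb) ∧ (x ∈ Wc ∧ x⁻¹ ∈ Wc) ∧
      ∃ (C : A) (ω : F), IsUnit C ∧ ω ≠ 0 ∧
        x ^ (q * e * (q + 1)) * (algebraMap A F C * ω ^ m)⁻¹ - 1 ∈ Wa.nonunits ∧
        x ^ (q * e * (q + 1)) * (algebraMap A F C * ω ^ m)⁻¹ - 1 ∈ Wb.nonunits ∧
        x ^ (q * e * (q + 1)) * (algebraMap A F C * ω ^ m)⁻¹ - 1 ∈ Wc.nonunits ∧
        ∀ R : Subring F, S36Tri (A := A) α β Nα Nβ Wa Wb Wc m R →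
          ∀ u y : F, u ∈ R → u⁻¹ ∈ R → x = u * y ^ m →
            ∃ γ : F, γ - 1 ∈ Wa.nonunits ∧ γ - 1 ∈ Wb.nonunits ∧ γ - 1 ∈ Wc.nonunits ∧
              ∃ r : F, r ∈ R ∧ r⁻¹ ∈ R ∧ r ≠ 0 ∧
                x ^ (q * e * (q + 1)) * (algebraMap A F C * ω ^ m)⁻¹ = r * γ ^ m := by
  have hA1 : ∀ a : A, algebraMap A E a ∈ V1 := fun a => (hαa _).mp (by rw [hαA]; exact hAa a)
  have hA2 : ∀ a : A, algebraMap A E a ∈ V2 := fun a => (hαb _).mp (by rw [hαA]; exact hAb a)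
  obtain ⟨i, j, k, x, c1, c2, E1, E2, hx, x0, xa, xa', xb, xb', xc, xc', hc1, hc2, hN1, hN2⟩ :=
    s36vr_vert α β Nα Nβ Wa Wb Wc V1 V2 hA1 hA2 hαa hαc hαb hβa hβb hβc q e m hqe he hm
      hNα1 hNα2 hNβ2 hNβ1 hRαa hRαc hRβb hRβc τ π Xa τE hτ0 hπ0 hXa0 hτE0 hτa hτb hπc hτE1 hτE2
      hdeca hdecb hdecc hdec1 hdec2 hπτ hπa hπb hXaa hXab hXac hNτ1 hNτ2 f hf C1 C2 k1 k2 e1 e2
      h1 h2
  exact ⟨i, j, k, x, hx, x0, ⟨xa, xa'⟩, ⟨xb, xb'⟩, ⟨xc, xc'⟩,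
    s36tor_main α β hαA hβA Nα Nβ Wa Wb Wc V1 V2 hAa hAb hAc hαa hαc hαb hβa hβb hβc q e m hqe
      hm hmA hNα1 hNα2 hNβ2 hNβ1 hRαa hRαc hRβb hRβc hconst hcst happ x x0 xa xa' xb xb' xc xc'
      c1 c2 hc1 hc2 E1 E2 hN1 hN2⟩

end VertTor

end Fermat.Agent.S36
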