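import Mathlib
import Fermat.Agent.S36.VertTor
import Fermat.Agent.S36.Glue3J
import Fermat.Agent.S36.DatJ
import Fermat.Agent.S36.DatOne

/-!
# S36, package INST36, abstract assembly

`s36in_abs`: the composition of VERT-TOR (`s36vr_main`), the local data at the closed points of
the special fibres of the two charts, and GLUE3 in ideal form (`s36gj_main3`).

* `S36inOrd τ m f`: the order condition in valuation form (the conclusion of `cinst_hord`).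
* `S36inPtOne τ m Wa Wb Wc O 𝔫`: the closed point `𝔫` lies on exactly one component `V` of the
  three; the branch is integrally closed (`S35IC`) and every function with the order condition
  which is a unit of `V` is a unit of `O_𝔫` times an `m`-th power (`S35Unit`).
* `S36inPtTri τ m α β Nα Nβ Wa Wb Wc O 𝔫 h𝔫`: a triple point: the local data `S36Tri` of the
  toric core for the local ring `O_𝔫` and the same `S35Unit` statement for the functions which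
  are units at the three valuations.
* `s36in_abs`: for `f ≠ 0` with the order condition and both norms of the shape
  `unit * τ ^ k * e ^ m`:  `f ^ ((q + 1) * (q * e * (q + 1)) * q) = w * τ ^ n * G ^ m`.
-/

set_option autoImplicit false
set_option linter.unusedSectionVars false
set_option linter.unusedVariables false

namespace Fermat.Agent.S36

open Fermat.Agent.S18 Fermat.Agent.S34 Fermat.Agent.S35

section Defs

variable {A E F : Type*} [CommRing A] [Field E] [Field F] [Algebra A F]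

/-- the order condition in valuation form (the output of `cinst_hord`): at every horizontal
discrete valuation the function is a unit times an `m`-th power -/
def S36inOrd (τ : A) (m : ℕ) (f : F) : Prop :=
  ∀ V : ValuationSubring F, (∀ a : A, algebraMap A F a ∈ V) → (algebraMap A F τ)⁻¹ ∈ V →
    IsPrincipalIdealRing V → ∃ w : F, w ≠ 0 ∧ f * w ^ m ∈ V ∧ (f * w ^ m)⁻¹ ∈ V

/-- a closed point `𝔫` of the chart `O` lying on exactly ONE of the three components -/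
def S36inPtOne (τ : A) (m : ℕ) (Wa Wb Wc : ValuationSubring F) (O : Subalgebra A F)
    (𝔫 : Ideal ↥O) : Prop :=
  ∃ V : ValuationSubring F, (V = Wa ∨ V = Wb ∨ V = Wc) ∧
    (∀ x : ↥O, (x : F) ∈ V.nonunits → x ∈ 𝔫) ∧
    (∀ V' : ValuationSubring F, (V' = Wa ∨ V' = Wb ∨ V' = Wc) →
      V' = V ∨ ∃ X : ↥O, (X : F) ∈ V'.nonunits ∧ X ∉ 𝔫) ∧
    S35IC m O 𝔫 V ∧
    ∀ f : F, f ≠ 0 → S36inOrd τ m f → f ∈ V → f⁻¹ ∈ V → S35Unit m O 𝔫 f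

/-- a closed point `𝔫` of the chart `O` lying on the three components (a triple point) -/
def S36inPtTri (τ : A) (m : ℕ) (α β : E →+* F) (Nα Nβ : F →* E)
    (Wa Wb Wc : ValuationSubring F) (O : Subalgebra A F) (𝔫 : Ideal ↥O) (h𝔫 : 𝔫.IsPrime) :
    Prop :=
  S36Tri (A := A) α β Nα Nβ Wa Wb Wc m (@ndrLoc A F _ _ _ O 𝔫 h𝔫).toSubring ∧
    ∀ f : F, f ≠ 0 → S36inOrd τ m f → f ∈ Wa → f⁻¹ ∈ Wa → f ∈ Wb → f⁻¹ ∈ Wb → f ∈ Wc →
      f⁻¹ ∈ Wc → S35Unit m O 𝔫 f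

end Defs

section Ord

variable {A F : Type*} [CommRing A] [Field F] [Algebra A F]

theorem s36in_ord_mul (τ : A) (m : ℕ) {f g : F} (hf : S36inOrd τ m f) (hg : S36inOrd τ m g) :
    S36inOrd τ m (f * g) := by
  intro V hA hτ hP
  obtain ⟨w, hw, h1, h2⟩ := hf V hA hτ hP
  obtain ⟨w', hw', h1', h2'⟩ := hg V hA hτ hP
  refine ⟨w * w', mul_ne_zero hw hw', ?_, ?_⟩
  · have e : f * g * (w * w') ^ m = (f * w ^ m) * (g * w' ^ m) := by ring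
    rw [e]
    exact V.mul_mem _ _ h1 h1'
  · have e : (f * g * (w * w') ^ m)⁻¹ = (f * w ^ m)⁻¹ * (g * w' ^ m)⁻¹ := by
      rw [← mul_inv]
      congr 1
      ring
    rw [e]
    exact V.mul_mem _ _ h2 h2'

theorem s36in_ord_inv (τ : A) (m : ℕ) {f : F} (hf : S36inOrd τ m f) :
    S36inOrd τ m f⁻¹ := by
  intro V hA hτ hP
  obtain ⟨w, hw, h1, h2⟩ := hf V hA hτ hP
  refine ⟨w⁻¹, inv_ne_zero hw, ?_, ?_⟩
  · have e : f⁻¹ * w⁻¹ ^ m = (f * w ^ m)⁻¹ := by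
      rw [mul_inv, inv_pow]
    rw [e]
    exact h2
  · have e : (f⁻¹ * w⁻¹ ^ m)⁻¹ = f * w ^ m := by
      rw [mul_inv, inv_pow, inv_inv, inv_inv]
    rw [e]
    exact h1

theorem s36in_ord_unit (τ : A) (m : ℕ) (f : F)
    (h : ∀ V : ValuationSubring F, (∀ a : A, algebraMap A F a ∈ V) → (algebraMap A F τ)⁻¹ ∈ V →
      f ∈ V ∧ f⁻¹ ∈ V) : S36inOrd τ m f := by
  intro V hA hτ hP
  refine ⟨1, one_ne_zero, ?_, ?_⟩
  · rw [one_pow, mul_one]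
    exact (h V hA hτ).1
  · rw [one_pow, mul_one]
    exact (h V hA hτ).2

theorem s36in_ord_one (τ : A) (m : ℕ) : S36inOrd τ m (1 : F) :=
  s36in_ord_unit τ m 1 (fun V _ _ => ⟨V.one_mem, by rw [inv_one]; exact V.one_mem⟩)

theorem s36in_ord_pow (τ : A) (m : ℕ) {f : F} (hf : S36inOrd τ m f) (n : ℕ) :
    S36inOrd τ m (f ^ n) := by
  induction n with
  | zero => rw [pow_zero]; exact s36in_ord_one τ m
  | succ n ih => rw [pow_succ]; exact s36in_ord_mul τ m ih hf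

theorem s36in_ord_zpow (τ : A) (m : ℕ) {f : F} (hf : S36inOrd τ m f) (n : ℤ) :
    S36inOrd τ m (f ^ n) := by
  rcases Int.eq_nat_or_neg n with ⟨k, rfl | rfl⟩
  · rw [zpow_natCast]
    exact s36in_ord_pow τ m hf k
  · rw [zpow_neg, zpow_natCast]
    exact s36in_ord_inv τ m (s36in_ord_pow τ m hf k)

theorem s36in_ord_mpow (τ : A) (m : ℕ) (g : F) (hg : g ≠ 0) : S36inOrd τ m (g ^ m) := by
  intro V hA hτ hP
  refine ⟨g⁻¹, inv_ne_zero hg, ?_, ?_⟩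
  · rw [← mul_pow, mul_inv_cancel₀ hg, one_pow]
    exact V.one_mem
  · rw [← mul_pow, mul_inv_cancel₀ hg, one_pow, inv_one]
    exact V.one_mem

theorem s36in_ord_tau (τ : A) (m : ℕ) : S36inOrd τ m (algebraMap A F τ) :=
  s36in_ord_unit τ m _ (fun V hA hτ => ⟨hA τ, hτ⟩)

theorem s36in_ord_const (τ : A) (m : ℕ) (C : A) (hC : IsUnit C) :
    S36inOrd τ m (algebraMap A F C) := by
  apply s36in_ord_unit
  intro V hA hτ
  obtain ⟨C', hC'⟩ := hC.exists_right_inv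
  have h1 : algebraMap A F C * algebraMap A F C' = 1 := by
    rw [← map_mul, hC', map_one]
  refine ⟨hA C, ?_⟩
  rw [inv_eq_of_mul_eq_one_right h1]
  exact hA C'

end Ord

section Main

variable {A E F : Type*} [CommRing A] [IsNoetherianRing A] [IsLocalRing A] [Field E] [Field F]
  [Algebra A E] [Algebra A F]

/-- a generator of the maximal ideal from the decomposition form of discreteness -/
theorem s36in_gen (V : ValuationSubring F) (π : F) (hπ0 : π ≠ 0) (hπ : π ∈ V.nonunits)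
    (hdec : ∀ z : F, z ≠ 0 → ∃ j : ℤ, z * π ^ j ∈ V ∧ (z * π ^ j)⁻¹ ∈ V)
    (z : F) (hz : z ∈ V.nonunits) : z * π⁻¹ ∈ V := by
  rcases eq_or_ne z 0 with rfl | hz0
  · rw [zero_mul]
    exact V.zero_mem
  obtain ⟨j, h1, h2⟩ := hdec z hz0
  have hπV : π ∈ V := s35pt_nu_mem V hπ
  have hj : j < 0 := by
    by_contra hj
    push Not at hj
    obtain ⟨n, rfl⟩ := Int.eq_ofNat_of_zero_le hj
    rw [zpow_natCast] at h1 h2
    have h3 : z * π ^ n ∈ V.nonunits := s35pt_nu_mul V hz (V.pow_mem hπV n)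
    have h4 : z * π ^ n ≠ 0 := mul_ne_zero hz0 (pow_ne_zero _ hπ0)
    exact s35pt_not_nu V h4 h2 h3
  obtain ⟨n, hn⟩ : ∃ n : ℕ, j = -((n : ℤ) + 1) := ⟨(-j - 1).toNat, by omega⟩
  have e : z * π⁻¹ = z * π ^ j * π ^ n := by
    rw [hn, zpow_neg, ← Nat.cast_succ, zpow_natCast, pow_succ]
    field_simp
  rw [e]
  exact V.mul_mem _ _ h1 (V.pow_mem hπV n)

/-- **INST36, abstract assembly**: VERT-TOR (`s36vr_main`), the local data at the closed points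
of the two charts (types ONE / TRI), and GLUE3 (`s36gj_main3`). -/
theorem s36in_abs
    -- VERT-TOR block: the binders of `s36vr_main`
    (α β : E →+* F)
    (hαA : ∀ a : A, α (algebraMap A E a) = algebraMap A F a)
    (hβA : ∀ a : A, β (algebraMap A E a) = algebraMap A F a)
    (Nα Nβ : F →* E)
    (Wa Wb Wc : ValuationSubring F) (V1 V2 : ValuationSubring E)
    (hAa : ∀ a : A, algebraMap A F a ∈ Wa) (hAb : ∀ a : A, algebraMap A F a ∈ Wb)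
    (hAc : ∀ a : A, algebraMap A F a ∈ Wc)
    (hαa : ∀ x : E, α x ∈ Wa ↔ x ∈ V1) (hαc : ∀ x : E, α x ∈ Wc ↔ x ∈ V1)
    (hαb : ∀ x : E, α x ∈ Wb ↔ x ∈ V2)
    (hβa : ∀ x : E, β x ∈ Wa ↔ x ∈ V1) (hβb : ∀ x : E, β x ∈ Wb ↔ x ∈ V2)
    (hβc : ∀ x : E, β x ∈ Wc ↔ x ∈ V2)
    (q e m : ℕ) (hqe : q = e + 1) (he : 0 < e) (hm2 : 2 ≤ m) (hmA : IsUnit (m : A))
    (hNα1 : ∀ (z : F) (za zc : E), za ∈ V1 → zc ∈ V1 → z - α za ∈ Wa.nonunits →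
      z - α zc ∈ Wc.nonunits → Nα z - za * zc ^ e ∈ V1.nonunits)
    (hNα2 : ∀ z : F, z ∈ Wb → α (Nα z) - z ^ q ∈ Wb.nonunits)
    (hNβ2 : ∀ (z : F) (zb zc : E), zb ∈ V2 → zc ∈ V2 → z - β zb ∈ Wb.nonunits →
      z - β zc ∈ Wc.nonunits → Nβ z - zb * zc ^ e ∈ V2.nonunits)
    (hNβ1 : ∀ z : F, z ∈ Wa → β (Nβ z) - z ^ q ∈ Wa.nonunits)
    (hRαa : ∀ z ∈ Wa, ∃ z' ∈ V1, z - α z' ∈ Wa.nonunits)
    (hRαc : ∀ z ∈ Wc, ∃ z' ∈ V1, z - α z' ∈ Wc.nonunits)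
    (hRβb : ∀ z ∈ Wb, ∃ z' ∈ V2, z - β z' ∈ Wb.nonunits)
    (hRβc : ∀ z ∈ Wc, ∃ z' ∈ V2, z - β z' ∈ Wc.nonunits)
    (hconst : ∀ z ∈ Wc, ∀ c : A, IsUnit c → z ^ m - algebraMap A F c ∈ Wc.nonunits →
      ∃ c' : A, IsUnit c' ∧ z - algebraMap A F c' ∈ Wc.nonunits)
    (hcst : ∀ c : A, algebraMap A F c ∈ Wc.nonunits → algebraMap A F c ∈ Wb.nonunits)
    (happ : ∀ za zb zc : F, za ∈ Wa → zb ∈ Wb → zc ∈ Wc →
      ∃ z : F, z - za ∈ Wa.nonunits ∧ z - zb ∈ Wb.nonunits ∧ z - zc ∈ Wc.nonunits)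
    -- the uniformisers
    (τ : A) (hτ : τ ∈ IsLocalRing.maximalIdeal A) (π Xa : F)
    (hτ0 : algebraMap A F τ ≠ 0) (hπ0 : π ≠ 0) (hXa0 : Xa ≠ 0) (hτE0 : algebraMap A E τ ≠ 0)
    (hτa : algebraMap A F τ ∈ Wa.nonunits) (hτb : algebraMap A F τ ∈ Wb.nonunits)
    (hπc : π ∈ Wc.nonunits)
    (hτE1 : algebraMap A E τ ∈ V1.nonunits) (hτE2 : algebraMap A E τ ∈ V2.nonunits)
    (hdeca : ∀ z : F, z ≠ 0 → ∃ j : ℤ, z * algebraMap A F τ ^ j ∈ Wa ∧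
      (z * algebraMap A F τ ^ j)⁻¹ ∈ Wa)
    (hdecb : ∀ z : F, z ≠ 0 → ∃ j : ℤ, z * algebraMap A F τ ^ j ∈ Wb ∧
      (z * algebraMap A F τ ^ j)⁻¹ ∈ Wb)
    (hdecc : ∀ z : F, z ≠ 0 → ∃ j : ℤ, z * π ^ j ∈ Wc ∧ (z * π ^ j)⁻¹ ∈ Wc)
    (hdec1 : ∀ z : E, z ≠ 0 → ∃ j : ℤ, z * algebraMap A E τ ^ j ∈ V1 ∧
      (z * algebraMap A E τ ^ j)⁻¹ ∈ V1)
    (hdec2 : ∀ z : E, z ≠ 0 → ∃ j : ℤ, z * algebraMap A E τ ^ j ∈ V2 ∧
      (z * algebraMap A E τ ^ j)⁻¹ ∈ V2)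
    (hπτ : π ^ (q - 1) * (algebraMap A F τ)⁻¹ ∈ Wc ∧
      (π ^ (q - 1) * (algebraMap A F τ)⁻¹)⁻¹ ∈ Wc)
    (hπa : π ∈ Wa ∧ π⁻¹ ∈ Wa) (hπb : π ∈ Wb ∧ π⁻¹ ∈ Wb)
    (hXaa : Xa * (algebraMap A F τ)⁻¹ ∈ Wa ∧ (Xa * (algebraMap A F τ)⁻¹)⁻¹ ∈ Wa)
    (hXab : Xa ∈ Wb ∧ Xa⁻¹ ∈ Wb) (hXac : Xa ∈ Wc ∧ Xa⁻¹ ∈ Wc)
    (hNτ1 : Nα (algebraMap A F τ) = algebraMap A E τ ^ q)
    (hNτ2 : Nβ (algebraMap A F τ) = algebraMap A E τ ^ q)
    -- GLUE block: the residue characteristic and the two charts (binders of `s36gj_main3`)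
    (hq : q.Prime) (hqm : Nat.Coprime q m) (hqτ : ∃ a : A, (q : A) = τ * a)
    (t : F) (ht : t ≠ 0) (O₀ O₁ : Subalgebra A F)
    (ht₀ : t ∈ O₀) (ht₁ : t⁻¹ ∈ O₁)
    (h01 : ∀ x ∈ O₀, ∃ n : ℕ, x * t⁻¹ ^ n ∈ O₁) (h10 : ∀ x ∈ O₁, ∃ n : ℕ, x * t ^ n ∈ O₀)
    (hroot₀ : ∀ x : F, x ^ m ∈ O₀ → x ∈ O₀) (hroot₁ : ∀ x : F, x ^ m ∈ O₁ → x ∈ O₁)
    [IsNoetherianRing ↥O₀]
    (hfin : ∃ b₀ : Finset F, (∀ β ∈ b₀, β ∈ O₀) ∧ ∀ x ∈ O₀, x ∈ Submodule.span A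
      (Set.image2 (fun (k : ℕ) (β : F) => t ^ k * β) Set.univ (b₀ : Set F)))
    (hfrac : ∀ x : F, ∃ ψ ∈ O₀, ψ ≠ 0 ∧ ψ * x ∈ O₀)
    (h8 : ∀ x : F, x ∈ O₀ → x ∈ O₁ → x ∈ Set.range (algebraMap A F))
    (hV₀ : ∀ x ∈ O₀, x ∈ Wa ∧ x ∈ Wb ∧ x ∈ Wc) (hV₁ : ∀ x ∈ O₁, x ∈ Wa ∧ x ∈ Wb ∧ x ∈ Wc)
    (hdiv₀ : ∀ x ∈ O₀, x * (algebraMap A F τ)⁻¹ ∈ Wa → x * (algebraMap A F τ)⁻¹ ∈ Wb →
      x * (algebraMap A F τ)⁻¹ ∈ Wc → x * (algebraMap A F τ)⁻¹ ∈ O₀)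
    (hdiv₁ : ∀ x ∈ O₁, x * (algebraMap A F τ)⁻¹ ∈ Wa → x * (algebraMap A F τ)⁻¹ ∈ Wb →
      x * (algebraMap A F τ)⁻¹ ∈ Wc → x * (algebraMap A F τ)⁻¹ ∈ O₁)
    -- the closed points of the special fibres of the two charts
    (hpt₀ : ∀ 𝔫 : Ideal ↥O₀, ∀ h𝔫 : 𝔫.IsMaximal, algebraMap A ↥O₀ τ ∈ 𝔫 →
      S36inPtOne τ m Wa Wb Wc O₀ 𝔫 ∨ S36inPtTri τ m α β Nα Nβ Wa Wb Wc O₀ 𝔫 h𝔫.isPrime)
    (hpt₁ : ∀ 𝔫 : Ideal ↥O₁, ∀ h𝔫 : 𝔫.IsMaximal, algebraMap A ↥O₁ τ ∈ 𝔫 →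
      S36inPtOne τ m Wa Wb Wc O₁ 𝔫 ∨ S36inPtTri τ m α β Nα Nβ Wa Wb Wc O₁ 𝔫 h𝔫.isPrime)
    -- the function
    (f : F) (hf : f ≠ 0) (hord : S36inOrd τ m f) (C1 C2 : Aˣ) (k1 k2 : ℤ) (e1 e2 : E)
    (h1 : Nα f = algebraMap A E (C1 : A) * algebraMap A E τ ^ k1 * e1 ^ m)
    (h2 : Nβ f = algebraMap A E (C2 : A) * algebraMap A E τ ^ k2 * e2 ^ m) :
    ∃ (w : A) (n : ℤ) (G : F), G ≠ 0 ∧
      f ^ ((q + 1) * (q * e * (q + 1)) * q) =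
        algebraMap A F w * algebraMap A F τ ^ n * G ^ m := by
  classical
  have hm : 0 < m := by omega
  obtain ⟨i, j, k, x, hx, x0, ⟨xa, xa'⟩, ⟨xb, xb'⟩, ⟨xc, xc'⟩, C, ω, hC, hω0, hWa, hWb, hWc,
      htri⟩ :=
    s36vr_main α β hαA hβA Nα Nβ Wa Wb Wc V1 V2 hAa hAb hAc hαa hαc hαb hβa hβb hβc q e m hqe he
      hm hmA hNα1 hNα2 hNβ2 hNβ1 hRαa hRαc hRβb hRβc hconst hcst happ (algebraMap A F τ) π Xa
      (algebraMap A E τ) hτ0 hπ0 hXa0 hτE0 hτa hτb hπc hτE1 hτE2 hdeca hdecb hdecc hdec1 hdec2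
      hπτ hπa hπb hXaa hXab hXac hNτ1 hNτ2 f hf C1 C2 k1 k2 e1 e2 h1 h2
  set N : ℕ := q * e * (q + 1) with hN
  set W : F := x ^ N * (algebraMap A F C * ω ^ m)⁻¹ with hW
  have hg0 : Xa ^ j * π ^ k ≠ 0 := mul_ne_zero (zpow_ne_zero _ hXa0) (zpow_ne_zero _ hπ0)
  obtain ⟨C', hC'⟩ := hC.exists_right_inv
  have hCC : algebraMap A F C * algebraMap A F C' = 1 := by
    rw [← map_mul, hC', map_one]
  have hC0 : algebraMap A F C ≠ 0 := left_ne_zero_of_mul_eq_one hCC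
  have hD0 : algebraMap A F C * ω ^ m ≠ 0 := mul_ne_zero hC0 (pow_ne_zero _ hω0)
  have hW0 : W ≠ 0 := mul_ne_zero (pow_ne_zero _ x0) (inv_ne_zero hD0)
  -- the order condition for `x` and `W`
  have hordx : S36inOrd τ m x := by
    rw [hx]
    exact s36in_ord_mul τ m (s36in_ord_mul τ m (s36in_ord_pow τ m hord _)
      (s36in_ord_zpow τ m (s36in_ord_tau τ m) i)) (s36in_ord_mpow τ m _ hg0)
  have hordW : S36inOrd τ m W :=
    s36in_ord_mul τ m (s36in_ord_pow τ m hordx N)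
      (s36in_ord_inv τ m (s36in_ord_mul τ m (s36in_ord_const τ m C hC)
        (s36in_ord_mpow τ m ω hω0)))
  -- `τ ∈ 𝔪_Wc` and the generation exponents
  have hπcV : π ∈ Wc := s35pt_nu_mem Wc hπc
  have hq1 : q - 1 = e := by omega
  have hτc : algebraMap A F τ ∈ Wc.nonunits := by
    have e1 : algebraMap A F τ = π * (π ^ (e - 1) * (π ^ (q - 1) * (algebraMap A F τ)⁻¹)⁻¹) := by
      rw [hq1, mul_inv, inv_inv, ← mul_assoc, ← mul_assoc, ← pow_succ', Nat.sub_add_cancel he,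
        mul_inv_cancel₀ (pow_ne_zero _ hπ0), one_mul]
    rw [e1]
    exact s35pt_nu_mul Wc hπc (Wc.mul_mem _ _ (Wc.pow_mem hπcV _) hπτ.2)
  have hgena : ∀ z ∈ Wa.nonunits, z ^ 1 * (algebraMap A F τ)⁻¹ ∈ Wa := fun z hz => by
    rw [pow_one]
    exact s36in_gen Wa _ hτ0 hτa hdeca z hz
  have hgenb : ∀ z ∈ Wb.nonunits, z ^ 1 * (algebraMap A F τ)⁻¹ ∈ Wb := fun z hz => by
    rw [pow_one]
    exact s36in_gen Wb _ hτ0 hτb hdecb z hz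
  have hgenc : ∀ z ∈ Wc.nonunits, z ^ e * (algebraMap A F τ)⁻¹ ∈ Wc := fun z hz => by
    have e1 : z ^ e * (algebraMap A F τ)⁻¹ =
        (z * π⁻¹) ^ e * (π ^ (q - 1) * (algebraMap A F τ)⁻¹) := by
      rw [hq1, mul_pow, inv_pow]
      field_simp
    rw [e1]
    exact Wc.mul_mem _ _ (Wc.pow_mem (s36in_gen Wc π hπ0 hπc hdecc z hz) _) hπτ.1
  -- the local datum at every closed point of a chart
  have hloc : ∀ (O : Subalgebra A F), (∀ x ∈ O, x ∈ Wa ∧ x ∈ Wb ∧ x ∈ Wc) →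
      (∀ 𝔫 : Ideal ↥O, ∀ h𝔫 : 𝔫.IsMaximal, algebraMap A ↥O τ ∈ 𝔫 →
        S36inPtOne τ m Wa Wb Wc O 𝔫 ∨ S36inPtTri τ m α β Nα Nβ Wa Wb Wc O 𝔫 h𝔫.isPrime) →
      ∀ 𝔫 : Ideal ↥O, 𝔫.IsMaximal → algebraMap A ↥O τ ∈ 𝔫 → ∀ c, c < m →
        ∃ x : ↥O, x ∉ 𝔫 ∧ ∃ y : F, y ^ m * W ^ c ∈ O ∧ y - (x : F) ∈ Wa.nonunits ∧
          y - (x : F) ∈ Wb.nonunits ∧ y - (x : F) ∈ Wc.nonunits := by
    intro O hV hpt 𝔫 h𝔫 hτ𝔫 c hc
    have h𝔫p : 𝔫.IsPrime := h𝔫.isPrime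
    have hOV3 : ∀ V ∈ ({Wa, Wb, Wc} : Finset (ValuationSubring F)), ∀ x ∈ O, x ∈ V := by
      intro V hVS x hx
      rcases (by simpa using hVS : V = Wa ∨ V = Wb ∨ V = Wc) with rfl | rfl | rfl
      exacts [(hV x hx).1, (hV x hx).2.1, (hV x hx).2.2]
    have hW3 : ∀ V ∈ ({Wa, Wb, Wc} : Finset (ValuationSubring F)), W - 1 ∈ V.nonunits := by
      intro V hVS
      rcases (by simpa using hVS : V = Wa ∨ V = Wb ∨ V = Wc) with rfl | rfl | rfl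
      exacts [hWa, hWb, hWc]
    rcases hpt 𝔫 h𝔫 hτ𝔫 with ⟨V, hVmem, hp, hoff, hIC, hunit⟩ | ⟨hT, hunit⟩
    · -- a point of one component
      have hVS : V ∈ ({Wa, Wb, Wc} : Finset (ValuationSubring F)) := by simpa using hVmem
      have hW1 : W - 1 ∈ V.nonunits := hW3 V hVS
      have hOV : ∀ x ∈ O, x ∈ V := hOV3 V hVS
      obtain ⟨-, hWinv, -⟩ := s36dj_one_inv V hW1
      have hWV : W ∈ V := by
        have e1 : W = (W - 1) + 1 := by ring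
        rw [e1]
        exact V.add_mem _ _ (s35pt_nu_mem V hW1) V.one_mem
      have hWu : S35Unit m O 𝔫 W := hunit W hW0 hordW hWV hWinv
      have hS : ∀ V' ∈ ((({Wa, Wb, Wc} : Finset (ValuationSubring F)) :
          Set (ValuationSubring F))),
          (∀ x : ↥O, (x : F) ∈ V'.nonunits → x ∈ 𝔫) → V' = V := by
        intro V' hV' hthr
        rcases hoff V' (by simpa using hV') with h | ⟨X, hX, hX𝔫⟩
        · exact h
        · exact absurd (hthr X hX) hX𝔫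
      have hdat := s36do_dat_one O 𝔫 _ V hOV hp hS m q hm hIC W hWu hW1
      obtain ⟨x', hx', y, hy, hall⟩ :=
        s36dj_j_of_dat O 𝔫 {Wa, Wb, Wc} hOV3 m q hm2 hqm W hW3 hdat c
      exact ⟨x', hx', y, hy, hall Wa (by simp), hall Wb (by simp), hall Wc (by simp)⟩
    · -- a triple point
      obtain ⟨g, hg, a, s, ha, hs, hxs⟩ := hunit x x0 hordx xa xa' xb xb' xc xc'
      have hs0 : (s : F) ≠ 0 := s35u_coe_ne_zero O 𝔫 hs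
      have ha0 : (a : F) ≠ 0 := s35u_coe_ne_zero O 𝔫 ha
      have hu : (a : F) * (s : F)⁻¹ ∈ (ndrLoc O 𝔫).toSubring :=
        ⟨a, s, hs, by rw [mul_assoc, inv_mul_cancel₀ hs0, mul_one]⟩
      have hu' : ((a : F) * (s : F)⁻¹)⁻¹ ∈ (ndrLoc O 𝔫).toSubring :=
        ⟨s, a, ha, by rw [mul_inv, inv_inv, mul_comm (a : F)⁻¹, mul_assoc,
          inv_mul_cancel₀ ha0, mul_one]⟩
      have hxu : x = (a : F) * (s : F)⁻¹ * g ^ m := by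
        rw [mul_right_comm, ← hxs, mul_assoc, mul_inv_cancel₀ hs0, mul_one]
      obtain ⟨γ, hγa, hγb, hγc, r, hr, hr', hr0, hWr⟩ :=
        htri (ndrLoc O 𝔫).toSubring hT _ g hu hu' hxu
      obtain ⟨a', s', hs', hrs⟩ := hr
      have h3 : W * (s' : F) = (a' : F) * γ ^ m := by
        rw [hWr, mul_right_comm, hrs]
      exact s36gj_of_gamma O 𝔫 Wa Wb Wc (fun x hx => (hV x hx).1) (fun x hx => (hV x hx).2.1)
        (fun x hx => (hV x hx).2.2) m W γ hγa hγb hγc a' s' hs' h3 c hc.le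
  obtain ⟨w, G, hG, hrel⟩ := s36gj_main3 τ hτ m hm2 hmA t ht O₀ O₁ ht₀ ht₁ h01 h10 hroot₀ hroot₁
    hfin hfrac h8 Wa Wb Wc hAa hAb hAc hV₀ hV₁ hτ0 hτa hτb hτc hdiv₀ hdiv₁ q hq hqτ 1 1 e
    hq.one_lt.le hq.one_lt.le (by omega) hgena hgenb hgenc W hWa hWb hWc
    (hloc O₀ hV₀ hpt₀) (hloc O₁ hV₁ hpt₁)
  -- the final algebra
  have hgq : (Xa ^ j * π ^ k) ^ (N * q) ≠ 0 := pow_ne_zero _ hg0
  refine ⟨w * C ^ q, -(i * ((N * q : ℕ) : ℤ)), G * ω ^ q * ((Xa ^ j * π ^ k) ^ (N * q))⁻¹,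
    mul_ne_zero (mul_ne_zero hG (pow_ne_zero _ hω0)) (inv_ne_zero hgq), ?_⟩
  have hτz : (algebraMap A F τ ^ i) ^ (N * q) ≠ 0 := pow_ne_zero _ (zpow_ne_zero _ hτ0)
  have e1 : x ^ (N * q) = algebraMap A F w * algebraMap A F C ^ q * (G * ω ^ q) ^ m := by
    have e2 : W ^ q * (algebraMap A F C * ω ^ m) ^ q = x ^ (N * q) := by
      rw [hW, mul_pow, inv_pow, mul_assoc, inv_mul_cancel₀ (pow_ne_zero _ hD0), mul_one,
        ← pow_mul]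
    rw [← e2, hrel]
    ring
  have e3 : x ^ (N * q) = f ^ ((q + 1) * N * q) * (algebraMap A F τ ^ i) ^ (N * q) *
      ((Xa ^ j * π ^ k) ^ (N * q)) ^ m := by
    rw [hx]
    ring
  have e4 : algebraMap A F τ ^ (-(i * ((N * q : ℕ) : ℤ))) =
      ((algebraMap A F τ ^ i) ^ (N * q))⁻¹ := by
    rw [zpow_neg, zpow_mul, zpow_natCast]
  have e5 : f ^ ((q + 1) * N * q) * (algebraMap A F τ ^ i) ^ (N * q) *
      ((Xa ^ j * π ^ k) ^ (N * q)) ^ m =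
      algebraMap A F w * algebraMap A F C ^ q * (G * ω ^ q) ^ m := by
    rw [← e3, e1]
  have hgqm : ((Xa ^ j * π ^ k) ^ (N * q)) ^ m ≠ 0 := pow_ne_zero _ hgq
  have e6 : f ^ ((q + 1) * N * q) = algebraMap A F w * algebraMap A F C ^ q *
      (G * ω ^ q) ^ m * (((Xa ^ j * π ^ k) ^ (N * q)) ^ m)⁻¹ *
      ((algebraMap A F τ ^ i) ^ (N * q))⁻¹ := by
    rw [eq_mul_inv_iff_mul_eq₀ hτz, eq_mul_inv_iff_mul_eq₀ hgqm]
    exact e5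
  rw [e6, e4, map_mul, map_pow]
  rw [mul_pow (G * ω ^ q), inv_pow]
  ring

end Main

end Fermat.Agent.S36
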