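import Mathlib
import Fermat.Agent.S36.Inst36Abs

/-!
# S36, package INST36, abstract assembly, POST form with the datum clause

* `S36inPtDat τ m q Wa Wb Wc O 𝔫`: the weakest form of the local data at a closed point which is
  not a triple point: every `W ≠ 0` with the order condition which is `≡ 1` modulo the three
  maximal ideals has the written-out local datum of `s36do_dat_one` at `𝔫` (family
  `{Wa, Wb, Wc}`).
* `s36in_dat_of_one`: `S36inPtOne` implies `S36inPtDat`.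
* `s36in_post_dat`: `s36in_post` (S36/Inst36Post.lean) with the point hypothesis
  `S36inPtDat ∨ S36inPtTri` at every closed point of the special fibres of the two charts.
-/

set_option autoImplicit false
set_option linter.unusedSectionVars false
set_option linter.unusedVariables false

namespace Fermat.Agent.S36

open Fermat.Agent.S18 Fermat.Agent.S34 Fermat.Agent.S35

section PtDat

variable {A F : Type*} [CommRing A] [Field F] [Algebra A F]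

/-- the local data at a closed point `𝔫` of the chart `O` in datum form: every `W ≠ 0` with
the order condition which is `≡ 1` modulo the three maximal ideals has the written-out local
datum (the conclusion of `s36do_dat_one`) at `𝔫` -/
def S36inPtDat (τ : A) (m q : ℕ) (Wa Wb Wc : ValuationSubring F) (O : Subalgebra A F)
    (𝔫 : Ideal ↥O) : Prop :=
  ∀ W : F, W ≠ 0 → S36inOrd τ m W → W - 1 ∈ Wa.nonunits → W - 1 ∈ Wb.nonunits →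
    W - 1 ∈ Wc.nonunits →
    ∃ (k : ℕ) (g : F) (a s r s₀ : ↥O), s ∉ 𝔫 ∧ r ∉ 𝔫 ∧ s₀ ∉ 𝔫 ∧
      W ^ (q ^ k) * (s : F) = (a : F) * g ^ m ∧
      ∀ V' ∈ ({Wa, Wb, Wc} : Set (ValuationSubring F)),
        (∀ x : ↥O, (x : F) ∈ V'.nonunits → x ∈ 𝔫) → g * (s₀ : F) - (r : F) ∈ V'.nonunits

/-- a point of exactly one component has the datum -/
theorem s36in_dat_of_one (τ : A) (m q : ℕ) (hm : 0 < m) (Wa Wb Wc : ValuationSubring F)
    (O : Subalgebra A F) (hV : ∀ x ∈ O, x ∈ Wa ∧ x ∈ Wb ∧ x ∈ Wc) (𝔫 : Ideal ↥O)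
    [h𝔫 : 𝔫.IsPrime] (h : S36inPtOne τ m Wa Wb Wc O 𝔫) : S36inPtDat τ m q Wa Wb Wc O 𝔫 := by
  intro W hW0 hordW hWa hWb hWc
  obtain ⟨V, hVmem, hp, hoff, hIC, hunit⟩ := h
  have hW1 : W - 1 ∈ V.nonunits := by
    rcases hVmem with rfl | rfl | rfl
    exacts [hWa, hWb, hWc]
  have hOV : ∀ x ∈ O, x ∈ V := by
    intro x hx
    rcases hVmem with rfl | rfl | rfl
    exacts [(hV x hx).1, (hV x hx).2.1, (hV x hx).2.2]
  obtain ⟨-, hWinv, -⟩ := s36dj_one_inv V hW1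
  have hWV : W ∈ V := by
    have e1 : W = (W - 1) + 1 := by ring
    rw [e1]
    exact V.add_mem _ _ (s35pt_nu_mem V hW1) V.one_mem
  have hWu : S35Unit m O 𝔫 W := hunit W hW0 hordW hWV hWinv
  have hS : ∀ V' ∈ ({Wa, Wb, Wc} : Set (ValuationSubring F)),
      (∀ x : ↥O, (x : F) ∈ V'.nonunits → x ∈ 𝔫) → V' = V := by
    intro V' hV' hthr
    rcases hoff V' (by simpa using hV') with h | ⟨X, hX, hX𝔫⟩
    · exact h
    · exact absurd (hthr X hX) hX𝔫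
  exact s36do_dat_one O 𝔫 _ V hOV hp hS m q hm hIC W hWu hW1

end PtDat

section PostDat

variable {A E F : Type*} [CommRing A] [IsNoetherianRing A] [IsLocalRing A] [Field E] [Field F]
  [Algebra A F]

/-- **INST36, abstract assembly, POST form** (after VERT-TOR), with the datum clause at the
closed points which are not triple points. -/
theorem s36in_post_dat
    -- the two charts (binders of `s36gj_main3`)
    (τ : A) (hτ : τ ∈ IsLocalRing.maximalIdeal A) (m : ℕ) (hm2 : 2 ≤ m)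
    (hmu : IsUnit (m : A)) (t : F) (ht : t ≠ 0) (O₀ O₁ : Subalgebra A F)
    (ht₀ : t ∈ O₀) (ht₁ : t⁻¹ ∈ O₁)
    (h01 : ∀ x ∈ O₀, ∃ n : ℕ, x * t⁻¹ ^ n ∈ O₁) (h10 : ∀ x ∈ O₁, ∃ n : ℕ, x * t ^ n ∈ O₀)
    (hroot₀ : ∀ x : F, x ^ m ∈ O₀ → x ∈ O₀) (hroot₁ : ∀ x : F, x ^ m ∈ O₁ → x ∈ O₁)
    [IsNoetherianRing ↥O₀]
    (hfin : ∃ b₀ : Finset F, (∀ β ∈ b₀, β ∈ O₀) ∧ ∀ x ∈ O₀, x ∈ Submodule.span A
      (Set.image2 (fun (k : ℕ) (β : F) => t ^ k * β) Set.univ (b₀ : Set F)))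
    (hfrac : ∀ x : F, ∃ ψ ∈ O₀, ψ ≠ 0 ∧ ψ * x ∈ O₀)
    (h8 : ∀ x : F, x ∈ O₀ → x ∈ O₁ → x ∈ Set.range (algebraMap A F))
    -- the three vertical valuations
    (Wa Wb Wc : ValuationSubring F)
    (hAa : ∀ a : A, algebraMap A F a ∈ Wa) (hAb : ∀ a : A, algebraMap A F a ∈ Wb)
    (hAc : ∀ a : A, algebraMap A F a ∈ Wc)
    (hV₀ : ∀ x ∈ O₀, x ∈ Wa ∧ x ∈ Wb ∧ x ∈ Wc) (hV₁ : ∀ x ∈ O₁, x ∈ Wa ∧ x ∈ Wb ∧ x ∈ Wc)
    (hτ0 : algebraMap A F τ ≠ 0)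
    (hτa : algebraMap A F τ ∈ Wa.nonunits) (hτb : algebraMap A F τ ∈ Wb.nonunits)
    (hτc : algebraMap A F τ ∈ Wc.nonunits)
    (hdiv₀ : ∀ x ∈ O₀, x * (algebraMap A F τ)⁻¹ ∈ Wa → x * (algebraMap A F τ)⁻¹ ∈ Wb →
      x * (algebraMap A F τ)⁻¹ ∈ Wc → x * (algebraMap A F τ)⁻¹ ∈ O₀)
    (hdiv₁ : ∀ x ∈ O₁, x * (algebraMap A F τ)⁻¹ ∈ Wa → x * (algebraMap A F τ)⁻¹ ∈ Wb →
      x * (algebraMap A F τ)⁻¹ ∈ Wc → x * (algebraMap A F τ)⁻¹ ∈ O₁)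
    -- the residue characteristic and the ramification indices
    (q : ℕ) (hq : q.Prime) (hqm : Nat.Coprime q m) (hqτ : ∃ a : A, (q : A) = τ * a)
    (ea eb ec : ℕ) (hea : ea ≤ q) (heb : eb ≤ q) (hec : ec ≤ q)
    (hgena : ∀ z ∈ Wa.nonunits, z ^ ea * (algebraMap A F τ)⁻¹ ∈ Wa)
    (hgenb : ∀ z ∈ Wb.nonunits, z ^ eb * (algebraMap A F τ)⁻¹ ∈ Wb)
    (hgenc : ∀ z ∈ Wc.nonunits, z ^ ec * (algebraMap A F τ)⁻¹ ∈ Wc)
    -- the closed points of the special fibres of the two charts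
    (α β : E →+* F) (Nα Nβ : F →* E)
    (hpt₀ : ∀ 𝔫 : Ideal ↥O₀, ∀ h𝔫 : 𝔫.IsMaximal, algebraMap A ↥O₀ τ ∈ 𝔫 →
      S36inPtDat τ m q Wa Wb Wc O₀ 𝔫 ∨ S36inPtTri τ m α β Nα Nβ Wa Wb Wc O₀ 𝔫 h𝔫.isPrime)
    (hpt₁ : ∀ 𝔫 : Ideal ↥O₁, ∀ h𝔫 : 𝔫.IsMaximal, algebraMap A ↥O₁ τ ∈ 𝔫 →
      S36inPtDat τ m q Wa Wb Wc O₁ 𝔫 ∨ S36inPtTri τ m α β Nα Nβ Wa Wb Wc O₁ 𝔫 h𝔫.isPrime)
    -- the function and the output of VERT-TOR
    (f : F) (hf : f ≠ 0) (hord : S36inOrd τ m f)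
    (N : ℕ) (i : ℤ) (g x : F) (hg0 : g ≠ 0)
    (hx : x = f ^ (q + 1) * algebraMap A F τ ^ i * g ^ m)
    (xa : x ∈ Wa) (xa' : x⁻¹ ∈ Wa) (xb : x ∈ Wb) (xb' : x⁻¹ ∈ Wb) (xc : x ∈ Wc)
    (xc' : x⁻¹ ∈ Wc)
    (C : A) (ω : F) (hC : IsUnit C) (hω0 : ω ≠ 0)
    (hWa : x ^ N * (algebraMap A F C * ω ^ m)⁻¹ - 1 ∈ Wa.nonunits)
    (hWb : x ^ N * (algebraMap A F C * ω ^ m)⁻¹ - 1 ∈ Wb.nonunits)
    (hWc : x ^ N * (algebraMap A F C * ω ^ m)⁻¹ - 1 ∈ Wc.nonunits)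
    (htri : ∀ R : Subring F, S36Tri (A := A) α β Nα Nβ Wa Wb Wc m R →
      ∀ u y : F, u ∈ R → u⁻¹ ∈ R → x = u * y ^ m →
        ∃ γ : F, γ - 1 ∈ Wa.nonunits ∧ γ - 1 ∈ Wb.nonunits ∧ γ - 1 ∈ Wc.nonunits ∧
          ∃ r : F, r ∈ R ∧ r⁻¹ ∈ R ∧ r ≠ 0 ∧
            x ^ N * (algebraMap A F C * ω ^ m)⁻¹ = r * γ ^ m) :
    ∃ (w : A) (n : ℤ) (G : F), G ≠ 0 ∧
      f ^ ((q + 1) * N * q) = algebraMap A F w * algebraMap A F τ ^ n * G ^ m := by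
  classical
  have hm : 0 < m := by omega
  have x0 : x ≠ 0 := by
    rw [hx]
    exact mul_ne_zero (mul_ne_zero (pow_ne_zero _ hf) (zpow_ne_zero _ hτ0)) (pow_ne_zero _ hg0)
  set W : F := x ^ N * (algebraMap A F C * ω ^ m)⁻¹ with hW
  obtain ⟨C', hC'⟩ := hC.exists_right_inv
  have hCC : algebraMap A F C * algebraMap A F C' = 1 := by
    rw [← map_mul, hC', map_one]
  have hC0 : algebraMap A F C ≠ 0 := left_ne_zero_of_mul_eq_one hCC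
  have hD0 : algebraMap A F C * ω ^ m ≠ 0 := mul_ne_zero hC0 (pow_ne_zero _ hω0)
  have hW0 : W ≠ 0 := mul_ne_zero (pow_ne_zero _ x0) (inv_ne_zero hD0)
  -- the order condition for `x` and `W`
  have hordx : S36inOrd τ m x := by
    rw [hx]
    exact s36in_ord_mul τ m (s36in_ord_mul τ m (s36in_ord_pow τ m hord _)
      (s36in_ord_zpow τ m (s36in_ord_tau τ m) i)) (s36in_ord_mpow τ m _ hg0)
  have hordW : S36inOrd τ m W :=
    s36in_ord_mul τ m (s36in_ord_pow τ m hordx N)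
      (s36in_ord_inv τ m (s36in_ord_mul τ m (s36in_ord_const τ m C hC)
        (s36in_ord_mpow τ m ω hω0)))
  -- the local datum at every closed point of a chart
  have hloc : ∀ (O : Subalgebra A F), (∀ x ∈ O, x ∈ Wa ∧ x ∈ Wb ∧ x ∈ Wc) →
      (∀ 𝔫 : Ideal ↥O, ∀ h𝔫 : 𝔫.IsMaximal, algebraMap A ↥O τ ∈ 𝔫 →
        S36inPtDat τ m q Wa Wb Wc O 𝔫 ∨ S36inPtTri τ m α β Nα Nβ Wa Wb Wc O 𝔫 h𝔫.isPrime) →
      ∀ 𝔫 : Ideal ↥O, 𝔫.IsMaximal → algebraMap A ↥O τ ∈ 𝔫 → ∀ c, c < m →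
        ∃ x : ↥O, x ∉ 𝔫 ∧ ∃ y : F, y ^ m * W ^ c ∈ O ∧ y - (x : F) ∈ Wa.nonunits ∧
          y - (x : F) ∈ Wb.nonunits ∧ y - (x : F) ∈ Wc.nonunits := by
    intro O hV hpt 𝔫 h𝔫 hτ𝔫 c hc
    have h𝔫p : 𝔫.IsPrime := h𝔫.isPrime
    have hOV3 : ∀ V ∈ ({Wa, Wb, Wc} : Finset (ValuationSubring F)), ∀ x ∈ O, x ∈ V := by
      intro V hVS x hx
      rcases (by simpa using hVS : V = Wa ∨ V = Wb ∨ V = Wc) with rfl | rfl | rfl
      exacts [(hV x hx).1, (hV x hx).2.1, (hV x hx).2.2]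
    have hW3 : ∀ V ∈ ({Wa, Wb, Wc} : Finset (ValuationSubring F)), W - 1 ∈ V.nonunits := by
      intro V hVS
      rcases (by simpa using hVS : V = Wa ∨ V = Wb ∨ V = Wc) with rfl | rfl | rfl
      exacts [hWa, hWb, hWc]
    rcases hpt 𝔫 h𝔫 hτ𝔫 with hD | ⟨hT, hunit⟩
    · -- a point with the datum
      obtain ⟨k, g₁, a, s, r, s₀, hs, hr, hs₀, hWg, hall⟩ := hD W hW0 hordW hWa hWb hWc
      have hdat : ∃ (k : ℕ) (g : F) (a s r s₀ : ↥O), s ∉ 𝔫 ∧ r ∉ 𝔫 ∧ s₀ ∉ 𝔫 ∧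
          W ^ (q ^ k) * (s : F) = (a : F) * g ^ m ∧
          ∀ V ∈ ((({Wa, Wb, Wc} : Finset (ValuationSubring F))) :
            Set (ValuationSubring F)),
            (∀ x : ↥O, (x : F) ∈ V.nonunits → x ∈ 𝔫) → g * (s₀ : F) - (r : F) ∈ V.nonunits :=
        ⟨k, g₁, a, s, r, s₀, hs, hr, hs₀, hWg, fun V hV' hthr => hall V (by simpa using hV') hthr⟩
      obtain ⟨x', hx', y, hy, hall'⟩ :=
        s36dj_j_of_dat O 𝔫 {Wa, Wb, Wc} hOV3 m q hm2 hqm W hW3 hdat c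
      exact ⟨x', hx', y, hy, hall' Wa (by simp), hall' Wb (by simp), hall' Wc (by simp)⟩
    · -- a triple point
      obtain ⟨g', hg', a, s, ha, hs, hxs⟩ := hunit x x0 hordx xa xa' xb xb' xc xc'
      have hs0 : (s : F) ≠ 0 := s35u_coe_ne_zero O 𝔫 hs
      have ha0 : (a : F) ≠ 0 := s35u_coe_ne_zero O 𝔫 ha
      have hu : (a : F) * (s : F)⁻¹ ∈ (ndrLoc O 𝔫).toSubring :=
        ⟨a, s, hs, by rw [mul_assoc, inv_mul_cancel₀ hs0, mul_one]⟩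
      have hu' : ((a : F) * (s : F)⁻¹)⁻¹ ∈ (ndrLoc O 𝔫).toSubring :=
        ⟨s, a, ha, by rw [mul_inv, inv_inv, mul_comm (a : F)⁻¹, mul_assoc,
          inv_mul_cancel₀ ha0, mul_one]⟩
      have hxu : x = (a : F) * (s : F)⁻¹ * g' ^ m := by
        rw [mul_right_comm, ← hxs, mul_assoc, mul_inv_cancel₀ hs0, mul_one]
      obtain ⟨γ, hγa, hγb, hγc, r, hr, hr', hr0, hWr⟩ :=
        htri (ndrLoc O 𝔫).toSubring hT _ g' hu hu' hxu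
      obtain ⟨a', s', hs', hrs⟩ := hr
      have h3 : W * (s' : F) = (a' : F) * γ ^ m := by
        rw [hWr, mul_right_comm, hrs]
      exact s36gj_of_gamma O 𝔫 Wa Wb Wc (fun x hx => (hV x hx).1) (fun x hx => (hV x hx).2.1)
        (fun x hx => (hV x hx).2.2) m W γ hγa hγb hγc a' s' hs' h3 c hc.le
  obtain ⟨w, G, hG, hrel⟩ := s36gj_main3 τ hτ m hm2 hmu t ht O₀ O₁ ht₀ ht₁ h01 h10 hroot₀ hroot₁
    hfin hfrac h8 Wa Wb Wc hAa hAb hAc hV₀ hV₁ hτ0 hτa hτb hτc hdiv₀ hdiv₁ q hq hqτ ea eb ec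
    hea heb hec hgena hgenb hgenc W hWa hWb hWc
    (hloc O₀ hV₀ hpt₀) (hloc O₁ hV₁ hpt₁)
  -- the final algebra
  have hgq : g ^ (N * q) ≠ 0 := pow_ne_zero _ hg0
  refine ⟨w * C ^ q, -(i * ((N * q : ℕ) : ℤ)), G * ω ^ q * (g ^ (N * q))⁻¹,
    mul_ne_zero (mul_ne_zero hG (pow_ne_zero _ hω0)) (inv_ne_zero hgq), ?_⟩
  have hτz : (algebraMap A F τ ^ i) ^ (N * q) ≠ 0 := pow_ne_zero _ (zpow_ne_zero _ hτ0)
  have e1 : x ^ (N * q) = algebraMap A F w * algebraMap A F C ^ q * (G * ω ^ q) ^ m := by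
    have e2 : W ^ q * (algebraMap A F C * ω ^ m) ^ q = x ^ (N * q) := by
      rw [hW, mul_pow, inv_pow, mul_assoc, inv_mul_cancel₀ (pow_ne_zero _ hD0), mul_one,
        ← pow_mul]
    rw [← e2, hrel]
    ring
  have e3 : x ^ (N * q) = f ^ ((q + 1) * N * q) * (algebraMap A F τ ^ i) ^ (N * q) *
      (g ^ (N * q)) ^ m := by
    rw [hx]
    ring
  have e4 : algebraMap A F τ ^ (-(i * ((N * q : ℕ) : ℤ))) =
      ((algebraMap A F τ ^ i) ^ (N * q))⁻¹ := by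
    rw [zpow_neg, zpow_mul, zpow_natCast]
  have e5 : f ^ ((q + 1) * N * q) * (algebraMap A F τ ^ i) ^ (N * q) *
      (g ^ (N * q)) ^ m =
      algebraMap A F w * algebraMap A F C ^ q * (G * ω ^ q) ^ m := by
    rw [← e3, e1]
  have hgqm : (g ^ (N * q)) ^ m ≠ 0 := pow_ne_zero _ hgq
  have e6 : f ^ ((q + 1) * N * q) = algebraMap A F w * algebraMap A F C ^ q *
      (G * ω ^ q) ^ m * ((g ^ (N * q)) ^ m)⁻¹ *
      ((algebraMap A F τ ^ i) ^ (N * q))⁻¹ := by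
    rw [eq_mul_inv_iff_mul_eq₀ hτz, eq_mul_inv_iff_mul_eq₀ hgqm]
    exact e5
  rw [e6, e4, map_mul, map_pow]
  rw [mul_pow (G * ω ^ q), inv_pow]
  ring

end PostDat

end Fermat.Agent.S36
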