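import Mathlib
import Fermat.Agent.S36.LocReg
import Fermat.Agent.S36.LocUnit3

/-!
# S36, package TRI-PRIN: every vertical component through a regular point is locally principal

Let `𝔫` be a closed point of the chart `O` through which there passes a component `V₁` with
Dedekind coordinate ring which is principal locally at `𝔫`, generated by `x` (so that `O_𝔫` is
a regular local ring).  Then

* `s36tn_prin_ring`, `s36tn_prin`: the centre of EVERY valuation ring `W ⊇ O` through `𝔫` at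
  which `x` is a unit is principal locally at `𝔫` (no geometric input about `W`);
* `s36tn_dec_ring`, `s36tn_dec`: a local generator `π` of the centre of `W` at `𝔫` is a
  uniformiser of `W` (Krull intersection theorem in `O_𝔫`);
* `s36tn_unit`: two local generators `π`, `π'` of the centres of `W`, `W'`: if `π'` is a unit
  at `W` then `π` is a unit at `W'`;
* `s36tn_hpi`: at a triple point, the three local equations in the shape consumed by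
  `s36u3_main3`;
* `s36tn_unit3`: at a triple point, every `f` with `hord` which is a unit at the three vertical
  valuations is a unit of `O_𝔫` times an `m`-th power (`S35Unit m O 𝔫 f`).
-/

set_option autoImplicit false
set_option linter.unusedSectionVars false
set_option linter.unusedVariables false

namespace Fermat.Agent.S36

open Fermat.Agent.S18 Fermat.Agent.S34 Fermat.Agent.S35

/-! ### Ring forms -/

/-- Let `n` be a maximal ideal of the noetherian domain `O`, `p₁ ≤ n` a prime with `O ⧸ p₁`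
Dedekind, generated by `x` locally at `n`.  Then every prime `P ≤ n` not containing `x` is
principal locally at `n`. -/
theorem s36tn_prin_ring {O : Type*} [CommRing O] [IsDomain O] [IsNoetherianRing O]
    (n : Ideal O) [hn : n.IsMaximal] (p₁ : Ideal O) [hp₁ : p₁.IsPrime]
    [IsDedekindDomain (O ⧸ p₁)] (hp₁n : p₁ ≤ n) (x : O) (hxn : x ∈ n)
    (hp₁x : ∀ y ∈ p₁, ∃ s, s ∉ n ∧ x ∣ s * y)
    (P : Ideal O) [hP : P.IsPrime] (hPn : P ≤ n) (hxP : x ∉ P) :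
    ∃ z ∈ P, ∀ y ∈ P, ∃ s, s ∉ n ∧ z ∣ s * y := by
  obtain ⟨z, hzP, hz⟩ := lh6_hloc x p₁ n hp₁n hp₁x P hPn
  refine ⟨z, hzP, fun y hy => ?_⟩
  let R := Localization.AtPrime n
  have : IsNoetherianRing R := IsLocalization.isNoetherianRing n.primeCompl R inferInstance
  have hdisj : Disjoint (n.primeCompl : Set O) (P : Set O) := by
    rw [Set.disjoint_left]
    intro t ht htP
    exact ht (hPn htP)
  have hPR : (P.map (algebraMap O R)).IsPrime :=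
    IsLocalization.isPrime_of_isPrime_disjoint n.primeCompl R P hP hdisj
  have hcomap : (P.map (algebraMap O R)).comap (algebraMap O R) = P :=
    IsLocalization.under_map_of_isPrime_disjoint n.primeCompl R hP hdisj
  have hxR : algebraMap O R x ∉ P.map (algebraMap O R) := fun h => hxP (by
    rw [← hcomap]; exact h)
  have hxmax : algebraMap O R x ∈ IsLocalRing.maximalIdeal R :=
    (IsLocalization.AtPrime.to_map_mem_maximal_iff R n x).mpr hxn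
  have hle : P.map (algebraMap O R) ≤
      Ideal.span {algebraMap O R z} ⊔ Ideal.span {algebraMap O R x} := by
    rw [Ideal.map_le_iff_le_comap]
    intro t ht
    obtain ⟨s, hs, r, r', hst⟩ := hz t ht
    rw [Ideal.mem_comap]
    have hsu : IsUnit (algebraMap O R s) := IsLocalization.map_units R (⟨s, hs⟩ : n.primeCompl)
    have h1 : algebraMap O R s * algebraMap O R t ∈
        Ideal.span {algebraMap O R z} ⊔ Ideal.span {algebraMap O R x} := by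
      rw [← map_mul, hst, map_add, map_mul, map_mul]
      exact Submodule.add_mem_sup (Ideal.mul_mem_right _ _ (Ideal.mem_span_singleton_self _))
        (Ideal.mul_mem_right _ _ (Ideal.mem_span_singleton_self _))
    exact (Ideal.unit_mul_mem_iff_mem _ hsu).mp h1
  have heq := cz_prime_eq_span (algebraMap O R x) hxmax (P.map (algebraMap O R)) hxR
    (algebraMap O R z) (Ideal.mem_map_of_mem _ hzP) hle
  have hy' : algebraMap O R y ∈ Ideal.span {algebraMap O R z} := by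
    rw [← heq]; exact Ideal.mem_map_of_mem _ hy
  exact (lh6_dvd_loc_iff z n y).mp (Ideal.mem_span_singleton.mp hy')

/-- Let `n` be a maximal ideal of the noetherian domain `O` and `π ∈ n`.  Every `a ≠ 0` is,
locally at `n`, a power of `π` times an element not divisible by `π`. -/
theorem s36tn_dec_ring {O : Type*} [CommRing O] [IsDomain O] [IsNoetherianRing O]
    (n : Ideal O) [hn : n.IsMaximal] (π : O) (hπn : π ∈ n) (a : O) (ha : a ≠ 0) :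
    ∃ (k : ℕ) (a' s : O), s ∉ n ∧ a * s = π ^ k * a' ∧ ¬ ∃ s', s' ∉ n ∧ π ∣ s' * a' := by
  classical
  let R := Localization.AtPrime n
  have : IsNoetherianRing R := IsLocalization.isNoetherianRing n.primeCompl R inferInstance
  have hinjR : Function.Injective (algebraMap O R) :=
    IsLocalization.injective R n.primeCompl_le_nonZeroDivisors
  set I : Ideal R := Ideal.span {algebraMap O R π} with hI
  have hπmax : algebraMap O R π ∈ IsLocalRing.maximalIdeal R :=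
    (IsLocalization.AtPrime.to_map_mem_maximal_iff R n π).mpr hπn
  have hIne : I ≠ ⊤ := by
    intro h
    have hle : I ≤ IsLocalRing.maximalIdeal R := (Ideal.span_singleton_le_iff_mem _).mpr hπmax
    rw [h] at hle
    exact (IsLocalRing.maximalIdeal.isMaximal R).ne_top (top_le_iff.mp hle)
  have hkr : ⨅ i : ℕ, I ^ i = ⊥ := Ideal.iInf_pow_eq_bot_of_isLocalRing I hIne
  have haR : algebraMap O R a ≠ 0 := fun h0 => ha (hinjR (by rw [h0, map_zero]))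
  have hex : ∃ i : ℕ, algebraMap O R a ∉ I ^ i := by
    by_contra hcon
    push Not at hcon
    have h1 : algebraMap O R a ∈ ⨅ i : ℕ, I ^ i := (Ideal.mem_iInf).mpr hcon
    rw [hkr] at h1
    exact haR h1
  have hi : algebraMap O R a ∉ I ^ Nat.find hex := Nat.find_spec hex
  have hi0 : Nat.find hex ≠ 0 := by
    intro h0
    rw [h0, pow_zero, Ideal.one_eq_top] at hi
    exact hi Submodule.mem_top
  obtain ⟨k, hk⟩ := Nat.exists_eq_succ_of_ne_zero hi0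
  have hk' : algebraMap O R a ∈ I ^ k := by
    by_contra h
    exact Nat.find_min hex (by omega : k < Nat.find hex) h
  rw [hI, Ideal.span_singleton_pow, Ideal.mem_span_singleton] at hk'
  obtain ⟨r, hr⟩ := hk'
  obtain ⟨a', s, rfl⟩ := IsLocalization.exists_mk'_eq n.primeCompl r
  refine ⟨k, a', (s : O), s.2, ?_, ?_⟩
  · apply hinjR
    rw [map_mul, hr, mul_assoc, IsLocalization.mk'_spec, map_mul, map_pow]
  · rintro ⟨s', hs', hdvd⟩
    apply hi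
    have h2 : algebraMap O R π ∣ algebraMap O R a' := (lh6_dvd_loc_iff π n a').mpr ⟨s', hs', hdvd⟩
    obtain ⟨c, hc⟩ := h2
    have hsu : IsUnit (algebraMap O R (s : O)) := IsLocalization.map_units R s
    have h3 : algebraMap O R a * algebraMap O R (s : O) ∈ I ^ Nat.find hex := by
      rw [hk, hI, Ideal.span_singleton_pow, Ideal.mem_span_singleton, hr, mul_assoc,
        IsLocalization.mk'_spec, hc, pow_succ]
      exact ⟨c, by ring⟩
    exact (Ideal.mul_unit_mem_iff_mem _ hsu).mp h3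

/-! ### Chart forms -/

section Chart

variable {A F : Type*} [CommRing A] [Field F] [Algebra A F]

/-- The centre on the chart `O` of a valuation ring `W ⊇ O`, as a prime ideal. -/
theorem s36tn_centre (O : Subalgebra A F) (W : ValuationSubring F) (hOW : ∀ x ∈ O, x ∈ W) :
    ∃ P : Ideal ↥O, P.IsPrime ∧ ∀ x : ↥O, x ∈ P ↔ (x : F) ∈ W.nonunits := by
  let φ : ↥O →+* ↥W :=
    { toFun := fun x => ⟨(x : F), hOW x x.2⟩
      map_one' := rfl
      map_mul' := fun _ _ => rfl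
      map_zero' := rfl
      map_add' := fun _ _ => rfl }
  refine ⟨Ideal.comap φ (IsLocalRing.maximalIdeal ↥W), Ideal.comap_isPrime φ _, fun x => ?_⟩
  rw [ValuationSubring.mem_nonunits_iff_exists_mem_maximalIdeal]
  constructor
  · intro hx
    exact ⟨hOW x x.2, hx⟩
  · rintro ⟨_, hx⟩
    exact hx

/-- **[TRI-PRIN].**  Chart `O`, closed point `𝔫` on the component cut out by `V` (Dedekind
coordinate ring `hD`), which is principal locally at `𝔫`, generated by `x` (fraction form).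
Then the centre of every valuation ring `W ⊇ O` through `𝔫` at which `x` is a unit is principal
locally at `𝔫`, generated by an element `π` of `O`. -/
theorem s36tn_prin (O : Subalgebra A F) [IsNoetherianRing ↥O]
    (V : ValuationSubring F) (hOV : ∀ x ∈ O, x ∈ V)
    (hD : ∀ 𝔭 : Ideal ↥O, (∀ x : ↥O, x ∈ 𝔭 ↔ (x : F) ∈ V.nonunits) →
      IsDedekindDomain (↥O ⧸ 𝔭))
    (𝔫 : Ideal ↥O) (h𝔫 : 𝔫.IsMaximal)
    (h1 : ∀ x : ↥O, (x : F) ∈ V.nonunits → x ∈ 𝔫)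
    (x : F) (hx0 : x ≠ 0) (hxV : x ∈ V.nonunits)
    (hxO : ∃ a s : ↥O, s ∉ 𝔫 ∧ x * (s : F) = (a : F))
    (hprin : ∀ y : ↥O, (y : F) ∈ V.nonunits →
      ∃ b c : ↥O, c ∉ 𝔫 ∧ (y : F) * (c : F) = x * (b : F))
    (W : ValuationSubring F) (hOW : ∀ x ∈ O, x ∈ W)
    (hW1 : ∀ x : ↥O, (x : F) ∈ W.nonunits → x ∈ 𝔫) (hxW : x⁻¹ ∈ W) :
    ∃ π : ↥O, (π : F) ∈ W.nonunits ∧
      ∀ y : ↥O, (y : F) ∈ W.nonunits →
        ∃ b c : ↥O, c ∉ 𝔫 ∧ (y : F) * (c : F) = (π : F) * (b : F) := by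
  classical
  obtain ⟨a, s, hs, hxs⟩ := hxO
  have hs0 : (s : F) ≠ 0 := s35pt_ne_zero O 𝔫 s hs
  obtain ⟨p₁, hprime₁, hp₁⟩ := s36tn_centre O V hOV
  obtain ⟨P, hprimeP, hPmem⟩ := s36tn_centre O W hOW
  have hDp₁ : IsDedekindDomain (↥O ⧸ p₁) := hD p₁ hp₁
  have haV : (a : F) ∈ V.nonunits := by
    rw [← hxs]; exact s35pt_nu_mul V hxV (hOV s s.2)
  have haP : a ∉ P := by
    intro h
    have h2 : (a : F) ∈ W.nonunits := (hPmem a).mp h
    rw [← hxs] at h2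
    have h3 : (s : F) ∈ W.nonunits := by
      have e : (s : F) = x * (s : F) * x⁻¹ := by field_simp
      rw [e]; exact s35pt_nu_mul W h2 hxW
    exact hs (hW1 s h3)
  obtain ⟨z, hzP, hz⟩ := s36tn_prin_ring 𝔫 p₁ (fun y hy => h1 y ((hp₁ y).mp hy)) a (h1 a haV)
    (fun y hy => by
      obtain ⟨b, c, hc, hyc⟩ := hprin y ((hp₁ y).mp hy)
      refine ⟨c * s, fun h => (h𝔫.isPrime.mem_or_mem h).elim hc hs, b, ?_⟩
      apply Subtype.ext
      show (c : F) * (s : F) * (y : F) = (a : F) * (b : F)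
      rw [← hxs]; linear_combination (s : F) * hyc)
    P (fun y hy => hW1 y ((hPmem y).mp hy)) haP
  refine ⟨z, (hPmem z).mp hzP, fun y hy => ?_⟩
  obtain ⟨s', hs', b, hb⟩ := hz y ((hPmem y).mpr hy)
  refine ⟨b, s', hs', ?_⟩
  have hb' : (s' : F) * (y : F) = (z : F) * (b : F) := congrArg Subtype.val hb
  rw [← hb']; ring

/-- **A local generator of the centre is a uniformiser.**  If the centre of `W ⊇ O` is generated
by `π` locally at the closed point `𝔫` (and passes through `𝔫`), then every nonzero function is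
a power of `π` times a unit of `W`. -/
theorem s36tn_dec (O : Subalgebra A F) [IsNoetherianRing ↥O]
    (hfrac : ∀ x : F, ∃ a ∈ O, ∃ s ∈ O, s ≠ 0 ∧ x * s = a)
    (𝔫 : Ideal ↥O) (h𝔫 : 𝔫.IsMaximal)
    (W : ValuationSubring F) (hOW : ∀ x ∈ O, x ∈ W)
    (hW1 : ∀ x : ↥O, (x : F) ∈ W.nonunits → x ∈ 𝔫)
    (π : F) (hπ0 : π ≠ 0) (hπW : π ∈ W.nonunits)
    (hπO : ∃ a s : ↥O, s ∉ 𝔫 ∧ π * (s : F) = (a : F))
    (hprin : ∀ y : ↥O, (y : F) ∈ W.nonunits →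
      ∃ b c : ↥O, c ∉ 𝔫 ∧ (y : F) * (c : F) = π * (b : F)) :
    ∀ z : F, z ≠ 0 → ∃ j : ℤ, z * π ^ j ∈ W ∧ (z * π ^ j)⁻¹ ∈ W := by
  obtain ⟨a₀, s₀, hs₀, hπs⟩ := hπO
  have hs₀0 : (s₀ : F) ≠ 0 := s35pt_ne_zero O 𝔫 s₀ hs₀
  have ha₀W : (a₀ : F) ∈ W.nonunits := by
    rw [← hπs]; exact s35pt_nu_mul W hπW (hOW _ s₀.2)
  have ha₀n : a₀ ∈ 𝔫 := hW1 a₀ ha₀W
  have key : ∀ b : ↥O, b ≠ 0 →
      ∃ (k : ℕ) (u : F), (b : F) = π ^ k * u ∧ u ∈ W ∧ u⁻¹ ∈ W := by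
    intro b hb
    obtain ⟨k, b', s, hs, hbs, hnd⟩ := s36tn_dec_ring 𝔫 a₀ ha₀n b hb
    have hs0 : (s : F) ≠ 0 := s35pt_ne_zero O 𝔫 s hs
    have hbs' : (b : F) * (s : F) = (a₀ : F) ^ k * (b' : F) := congrArg Subtype.val hbs
    have hb'W : (b' : F) ∉ W.nonunits := by
      intro h
      obtain ⟨b'', c, hc, hyc⟩ := hprin b' h
      apply hnd
      refine ⟨c * s₀, fun h => (h𝔫.isPrime.mem_or_mem h).elim hc hs₀, b'', ?_⟩
      apply Subtype.ext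
      show (c : F) * (s₀ : F) * (b' : F) = (a₀ : F) * (b'' : F)
      rw [← hπs]; linear_combination (s₀ : F) * hyc
    refine ⟨k, (s₀ : F) ^ k * (b' : F) * (s : F)⁻¹, ?_, ?_, ?_⟩
    · rw [← hπs] at hbs'
      field_simp
      linear_combination hbs'
    · exact W.mul_mem _ _ (W.mul_mem _ _ (pow_mem (hOW _ s₀.2) k) (hOW _ b'.2))
        (s35pt_inv_mem W (fun h => hs (hW1 s h)))
    · have e : ((s₀ : F) ^ k * (b' : F) * (s : F)⁻¹)⁻¹ =
          (s : F) * ((s₀ : F)⁻¹) ^ k * (b' : F)⁻¹ := by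
        rw [mul_inv, mul_inv, inv_inv, inv_pow]; ring
      rw [e]
      exact W.mul_mem _ _ (W.mul_mem _ _ (hOW _ s.2)
        (pow_mem (s35pt_inv_mem W (fun h => hs₀ (hW1 s₀ h))) k)) (s35pt_inv_mem W hb'W)
  intro z hz
  obtain ⟨a, ha, s, hs, hs0, hzs⟩ := hfrac z
  have ha0 : a ≠ 0 := by
    rintro rfl
    exact (mul_ne_zero hz hs0) hzs
  obtain ⟨k₁, u₁, h1, hu₁, hu₁'⟩ := key ⟨a, ha⟩ (fun h => ha0 (congrArg Subtype.val h))
  obtain ⟨k₂, u₂, h2, hu₂, hu₂'⟩ := key ⟨s, hs⟩ (fun h => hs0 (congrArg Subtype.val h))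
  have h1' : a = π ^ k₁ * u₁ := h1
  have h2' : s = π ^ k₂ * u₂ := h2
  have hu₁0 : u₁ ≠ 0 := by
    rintro rfl
    rw [mul_zero] at h1'
    exact ha0 h1'
  have hu₂0 : u₂ ≠ 0 := by
    rintro rfl
    rw [mul_zero] at h2'
    exact hs0 h2'
  have e : z * π ^ ((k₂ : ℤ) - (k₁ : ℤ)) = u₁ * u₂⁻¹ := by
    have hz' : z = a * s⁻¹ := by
      rw [← hzs]; field_simp
    rw [hz', h1', h2', zpow_sub₀ hπ0, zpow_natCast, zpow_natCast]
    field_simp
  refine ⟨(k₂ : ℤ) - (k₁ : ℤ), ?_, ?_⟩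
  · rw [e]; exact W.mul_mem _ _ hu₁ hu₂'
  · rw [e, mul_inv, inv_inv]; exact W.mul_mem _ _ hu₁' hu₂

/-- **Units at the other component.**  Let `π`, `π'` generate the centres of `W`, `W'` locally
at `𝔫`.  If `π'` is a unit at `W`, then `π` is a unit at `W'`. -/
theorem s36tn_unit (O : Subalgebra A F) (𝔫 : Ideal ↥O) (h𝔫 : 𝔫.IsPrime)
    (W W' : ValuationSubring F) (hOW : ∀ x ∈ O, x ∈ W) (hOW' : ∀ x ∈ O, x ∈ W')
    (hW'1 : ∀ x : ↥O, (x : F) ∈ W'.nonunits → x ∈ 𝔫)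
    (π π' : F) (hπ0 : π ≠ 0) (hπW : π ∈ W.nonunits) (hπ'W' : π' ∈ W'.nonunits)
    (hπO : ∃ a s : ↥O, s ∉ 𝔫 ∧ π * (s : F) = (a : F))
    (hprin : ∀ y : ↥O, (y : F) ∈ W.nonunits →
      ∃ b c : ↥O, c ∉ 𝔫 ∧ (y : F) * (c : F) = π * (b : F))
    (hprin' : ∀ y : ↥O, (y : F) ∈ W'.nonunits →
      ∃ b c : ↥O, c ∉ 𝔫 ∧ (y : F) * (c : F) = π' * (b : F))
    (hπ'W : π'⁻¹ ∈ W) : π⁻¹ ∈ W' := by
  apply s35pt_inv_mem
  intro hπW'
  obtain ⟨a, s, hs, hπs⟩ := hπO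
  have hs0 : (s : F) ≠ 0 := s35pt_ne_zero O 𝔫 s hs
  have haW' : (a : F) ∈ W'.nonunits := by
    rw [← hπs]; exact s35pt_nu_mul W' hπW' (hOW' _ s.2)
  obtain ⟨b, c, hc, hac⟩ := hprin' a haW'
  have hc0 : (c : F) ≠ 0 := s35pt_ne_zero O 𝔫 c hc
  have hπ'0 : π' ≠ 0 := by
    rintro rfl
    rw [zero_mul, ← hπs] at hac
    exact (mul_ne_zero (mul_ne_zero hπ0 hs0) hc0) hac
  have hbW : (b : F) ∈ W.nonunits := by
    have e : (b : F) = π * ((s : F) * (c : F)) * π'⁻¹ := by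
      field_simp
      linear_combination (-1 : F) * hac - (c : F) * hπs
    rw [e]
    exact s35pt_nu_mul W (s35pt_nu_mul W hπW (W.mul_mem _ _ (hOW _ s.2) (hOW _ c.2))) hπ'W
  obtain ⟨b', c', hc', hbc⟩ := hprin b hbW
  have hkey : (s : F) * (c : F) * (c' : F) = π' * (b' : F) := by
    apply mul_left_cancel₀ hπ0
    linear_combination (c : F) * (c' : F) * hπs + (c' : F) * hac + π' * hbc
  have hmem : ((s * c * c' : ↥O) : F) ∈ W'.nonunits := by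
    show (s : F) * (c : F) * (c' : F) ∈ W'.nonunits
    rw [hkey]; exact s35pt_nu_mul W' hπ'W' (hOW' _ b'.2)
  rcases h𝔫.mem_or_mem (hW'1 _ hmem) with h | h
  · rcases h𝔫.mem_or_mem h with h | h
    exacts [hs h, hc h]
  · exact hc' h

/-! ### Triple points -/

/-- **Local equations at a triple point.**  `𝔫` a closed point on the three components `Wa`,
`Wb`, `Wc`; the component `Wa` has Dedekind coordinate ring and is principal at `𝔫`, generated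
by `ξ`, a unit at `Wb` and `Wc`; `X ∈ O_𝔫` vanishes on `Wb` and is a unit at `Wc`.  Then the
three components have local equations at `𝔫`, in the shape consumed by `s36u3_main3`. -/
theorem s36tn_hpi (τ : A) (hτ0 : algebraMap A F τ ≠ 0) (O : Subalgebra A F)
    [IsNoetherianRing ↥O] (hfrac : ∀ x : F, ∃ a ∈ O, ∃ s ∈ O, s ≠ 0 ∧ x * s = a)
    (𝔫 : Ideal ↥O) [h𝔫p : 𝔫.IsPrime] (h𝔫 : 𝔫.IsMaximal) (Wa Wb Wc : ValuationSubring F)
    (hOWa : ∀ x ∈ O, x ∈ Wa) (hOWb : ∀ x ∈ O, x ∈ Wb) (hOWc : ∀ x ∈ O, x ∈ Wc)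
    (h1a : ∀ x : ↥O, (x : F) ∈ Wa.nonunits → x ∈ 𝔫)
    (h1b : ∀ x : ↥O, (x : F) ∈ Wb.nonunits → x ∈ 𝔫)
    (h1c : ∀ x : ↥O, (x : F) ∈ Wc.nonunits → x ∈ 𝔫)
    (hτa : algebraMap A F τ ∈ Wa.nonunits) (hτb : algebraMap A F τ ∈ Wb.nonunits)
    (hτc : algebraMap A F τ ∈ Wc.nonunits)
    (hD : ∀ 𝔭 : Ideal ↥O, (∀ x : ↥O, x ∈ 𝔭 ↔ (x : F) ∈ Wa.nonunits) →
      IsDedekindDomain (↥O ⧸ 𝔭))
    (ξ : F) (hξ0 : ξ ≠ 0) (hξa : ξ ∈ Wa.nonunits)
    (hξO : ∃ a s : ↥O, s ∉ 𝔫 ∧ ξ * (s : F) = (a : F))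
    (hprin : ∀ y : ↥O, (y : F) ∈ Wa.nonunits →
      ∃ b c : ↥O, c ∉ 𝔫 ∧ (y : F) * (c : F) = ξ * (b : F))
    (hξb : ξ⁻¹ ∈ Wb) (hξc : ξ⁻¹ ∈ Wc)
    (X : F) (hX0 : X ≠ 0) (hXO : ∃ a s : ↥O, s ∉ 𝔫 ∧ X * (s : F) = (a : F))
    (hXb : X ∈ Wb.nonunits) (hXc : X⁻¹ ∈ Wc) :
    ∀ V ∈ ({Wa, Wb, Wc} : Set (ValuationSubring F)),
      (∀ x : ↥O, (x : F) ∈ V.nonunits → x ∈ 𝔫) → ∃ π : F,
      π ≠ 0 ∧ π ∈ ndrLoc O 𝔫 ∧
      (∃ (a s : ↥O) (k : ℕ), s ∉ 𝔫 ∧ π * (a : F) = (s : F) * algebraMap A F τ ^ k) ∧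
      (∀ z : F, z ≠ 0 → ∃ j : ℤ, z * π ^ j ∈ V ∧ (z * π ^ j)⁻¹ ∈ V) ∧
      (∀ V' ∈ ({Wa, Wb, Wc} : Set (ValuationSubring F)), V' ≠ V →
        (∀ x : ↥O, (x : F) ∈ V'.nonunits → x ∈ 𝔫) → π⁻¹ ∈ V') := by
  have h1not : (1 : ↥O) ∉ 𝔫 := fun h => h𝔫p.ne_top ((Ideal.eq_top_iff_one 𝔫).mpr h)
  -- `τ` as an element of the chart
  let τO : ↥O := algebraMap A ↥O τ
  have hτO : (τO : F) = algebraMap A F τ := rfl
  -- the divisibility clause and non-vanishing from principality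
  have hdivτ : ∀ (W : ValuationSubring F) (π : F), algebraMap A F τ ∈ W.nonunits →
      (∀ y : ↥O, (y : F) ∈ W.nonunits → ∃ b c : ↥O, c ∉ 𝔫 ∧ (y : F) * (c : F) = π * (b : F)) →
      π ≠ 0 ∧ ∃ (a s : ↥O) (k : ℕ), s ∉ 𝔫 ∧ π * (a : F) = (s : F) * algebraMap A F τ ^ k := by
    intro W π hτW hp
    obtain ⟨b, c, hc, hbc⟩ := hp τO (by rw [hτO]; exact hτW)
    have hc0 : (c : F) ≠ 0 := s35pt_ne_zero O 𝔫 c hc
    refine ⟨?_, b, c, 1, hc, ?_⟩
    · rintro rfl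
      rw [zero_mul, hτO] at hbc
      exact (mul_ne_zero hτ0 hc0) hbc
    · rw [pow_one, ← hbc, hτO]; ring
  -- local generators of `Wb` and `Wc`
  obtain ⟨πb, hπbW, hprinb⟩ := s36tn_prin O Wa hOWa hD 𝔫 h𝔫 h1a ξ hξ0 hξa hξO hprin Wb hOWb h1b hξb
  obtain ⟨πc, hπcW, hprinc⟩ := s36tn_prin O Wa hOWa hD 𝔫 h𝔫 h1a ξ hξ0 hξa hξO hprin Wc hOWc h1c hξc
  have hπbO : ∃ a s : ↥O, s ∉ 𝔫 ∧ (πb : F) * (s : F) = (a : F) :=
    ⟨πb, 1, h1not, by rw [Subalgebra.coe_one, mul_one]⟩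
  have hπcO : ∃ a s : ↥O, s ∉ 𝔫 ∧ (πc : F) * (s : F) = (a : F) :=
    ⟨πc, 1, h1not, by rw [Subalgebra.coe_one, mul_one]⟩
  obtain ⟨hπb0, hπbτ⟩ := hdivτ Wb (πb : F) hτb hprinb
  obtain ⟨hπc0, hπcτ⟩ := hdivτ Wc (πc : F) hτc hprinc
  obtain ⟨_, hξτ⟩ := hdivτ Wa ξ hτa hprin
  -- `πb` is a unit at `Wc` (through `X`)
  have hπbc : (πb : F)⁻¹ ∈ Wc := by
    apply s35pt_inv_mem
    intro hcon
    obtain ⟨aX, sX, hsX, hXs⟩ := hXO
    have hsX0 : (sX : F) ≠ 0 := s35pt_ne_zero O 𝔫 sX hsX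
    have haXb : (aX : F) ∈ Wb.nonunits := by
      rw [← hXs]; exact s35pt_nu_mul Wb hXb (hOWb _ sX.2)
    obtain ⟨b, c, hc, hbc⟩ := hprinb aX haXb
    have hc0 : (c : F) ≠ 0 := s35pt_ne_zero O 𝔫 c hc
    -- `X * sX * c = πb * b` is a non-unit of `Wc`, but the left side is a unit
    have h2 : X * (sX : F) * (c : F) ∈ Wc.nonunits := by
      rw [hXs, hbc]; exact s35pt_nu_mul Wc hcon (hOWc _ b.2)
    have h3 : ((sX * c : ↥O) : F) ∈ Wc.nonunits := by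
      have e : ((sX * c : ↥O) : F) = X * (sX : F) * (c : F) * X⁻¹ := by
        show (sX : F) * (c : F) = X * (sX : F) * (c : F) * X⁻¹
        field_simp
      rw [e]; exact s35pt_nu_mul Wc h2 hXc
    exact (h𝔫p.mem_or_mem (h1c _ h3)).elim hsX hc
  intro V hV hth
  rcases (by simpa using hV : V = Wa ∨ V = Wb ∨ V = Wc) with rfl | rfl | rfl
  · refine ⟨ξ, hξ0, hξO, hξτ,
      s36tn_dec O hfrac 𝔫 h𝔫 V hOWa h1a ξ hξ0 hξa hξO hprin, ?_⟩
    intro V' hV' hne _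
    rcases (by simpa using hV' : V' = V ∨ V' = Wb ∨ V' = Wc) with rfl | rfl | rfl
    · exact absurd rfl hne
    · exact hξb
    · exact hξc
  · refine ⟨(πb : F), hπb0, hπbO, hπbτ,
      s36tn_dec O hfrac 𝔫 h𝔫 V hOWb h1b (πb : F) hπb0 hπbW hπbO hprinb, ?_⟩
    intro V' hV' hne _
    rcases (by simpa using hV' : V' = Wa ∨ V' = V ∨ V' = Wc) with rfl | rfl | rfl
    · exact s36tn_unit O 𝔫 h𝔫p V V' hOWb hOWa h1a (πb : F) ξ hπb0 hπbW hξa hπbO hprinb hprin hξb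
    · exact absurd rfl hne
    · exact hπbc
  · refine ⟨(πc : F), hπc0, hπcO, hπcτ,
      s36tn_dec O hfrac 𝔫 h𝔫 V hOWc h1c (πc : F) hπc0 hπcW hπcO hprinc, ?_⟩
    intro V' hV' hne _
    rcases (by simpa using hV' : V' = Wa ∨ V' = Wb ∨ V' = V) with rfl | rfl | rfl
    · exact s36tn_unit O 𝔫 h𝔫p V V' hOWc hOWa h1a (πc : F) ξ hπc0 hπcW hξa hπcO hprinc hprin hξc
    · exact s36tn_unit O 𝔫 h𝔫p V V' hOWc hOWb h1b (πc : F) (πb : F) hπc0 hπcW hπbW hπcO hprinc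
        hprinb hπbc
    · exact absurd rfl hne

/-- **The unit form at a triple point.**  Chart `O` saturated along `Wa`, `Wb`, `Wc` (`hdiv`);
`𝔫` a closed point on the three components; `Wa` has Dedekind coordinate ring and is principal
at `𝔫`, generated by `ξ`, a unit at `Wb` and `Wc`; `X ∈ O_𝔫` vanishes on `Wb` and is a unit at
`Wc`.  Then every `f` with `hord` which is a unit at the three components is a unit of `O_𝔫`
times an `m`-th power. -/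
theorem s36tn_unit3 (τ : A) (hτ0 : algebraMap A F τ ≠ 0) (O : Subalgebra A F)
    [IsNoetherianRing ↥O] (hfrac : ∀ x : F, ∃ a ∈ O, ∃ s ∈ O, s ≠ 0 ∧ x * s = a)
    (𝔫 : Ideal ↥O) (h𝔫 : 𝔫.IsMaximal) (Wa Wb Wc : ValuationSubring F)
    (hOWa : ∀ x ∈ O, x ∈ Wa) (hOWb : ∀ x ∈ O, x ∈ Wb) (hOWc : ∀ x ∈ O, x ∈ Wc)
    (hdiv : ∀ x ∈ O, x * (algebraMap A F τ)⁻¹ ∈ Wa → x * (algebraMap A F τ)⁻¹ ∈ Wb →
      x * (algebraMap A F τ)⁻¹ ∈ Wc → x * (algebraMap A F τ)⁻¹ ∈ O)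
    (h1a : ∀ x : ↥O, (x : F) ∈ Wa.nonunits → x ∈ 𝔫)
    (h1b : ∀ x : ↥O, (x : F) ∈ Wb.nonunits → x ∈ 𝔫)
    (h1c : ∀ x : ↥O, (x : F) ∈ Wc.nonunits → x ∈ 𝔫)
    (hτa : algebraMap A F τ ∈ Wa.nonunits) (hτb : algebraMap A F τ ∈ Wb.nonunits)
    (hτc : algebraMap A F τ ∈ Wc.nonunits)
    (hD : ∀ 𝔭 : Ideal ↥O, (∀ x : ↥O, x ∈ 𝔭 ↔ (x : F) ∈ Wa.nonunits) →
      IsDedekindDomain (↥O ⧸ 𝔭))
    (ξ : F) (hξ0 : ξ ≠ 0) (hξa : ξ ∈ Wa.nonunits)
    (hξO : ∃ a s : ↥O, s ∉ 𝔫 ∧ ξ * (s : F) = (a : F))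
    (hprin : ∀ y : ↥O, (y : F) ∈ Wa.nonunits →
      ∃ b c : ↥O, c ∉ 𝔫 ∧ (y : F) * (c : F) = ξ * (b : F))
    (hξb : ξ⁻¹ ∈ Wb) (hξc : ξ⁻¹ ∈ Wc)
    (X : F) (hX0 : X ≠ 0) (hXO : ∃ a s : ↥O, s ∉ 𝔫 ∧ X * (s : F) = (a : F))
    (hXb : X ∈ Wb.nonunits) (hXc : X⁻¹ ∈ Wc)
    (m : ℕ) (hm : 0 < m) (f : F) (hf0 : f ≠ 0)
    (hord : ∀ V : ValuationSubring F, (∀ a : A, algebraMap A F a ∈ V) →
        (algebraMap A F τ)⁻¹ ∈ V → IsPrincipalIdealRing V →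
        ∃ u : F, u ≠ 0 ∧ f * u ^ m ∈ V ∧ (f * u ^ m)⁻¹ ∈ V)
    (hfa : f ∈ Wa ∧ f⁻¹ ∈ Wa) (hfb : f ∈ Wb ∧ f⁻¹ ∈ Wb) (hfc : f ∈ Wc ∧ f⁻¹ ∈ Wc) :
    S35Unit m O 𝔫 f := by
  have h𝔫p : 𝔫.IsPrime := h𝔫.isPrime
  have hloc : S34Loc τ m O f 𝔫 :=
    s36lr_loc_frac τ hτ0 O hfrac Wa hOWa hD m hm 𝔫 h𝔫 h1a ξ hξ0 hξa hξO hprin f hf0 hord
  have hthr : ∀ V ∈ ({Wa, Wb, Wc} : Set (ValuationSubring F)),
      ∀ x : ↥O, (x : F) ∈ V.nonunits → x ∈ 𝔫 := by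
    intro V hV
    rcases (by simpa using hV : V = Wa ∨ V = Wb ∨ V = Wc) with rfl | rfl | rfl
    exacts [h1a, h1b, h1c]
  refine s36u3_main3 τ hτ0 O 𝔫 Wa Wb Wc hOWa hOWb hOWc hdiv
    (fun V hV hnot => absurd (hthr V hV) hnot)
    (s36tn_hpi τ hτ0 O hfrac 𝔫 h𝔫 Wa Wb Wc hOWa hOWb hOWc h1a h1b h1c hτa hτb hτc hD ξ hξ0 hξa
      hξO hprin hξb hξc X hX0 hXO hXb hXc)
    m f hf0 hloc ?_
  intro V hV _
  rcases (by simpa using hV : V = Wa ∨ V = Wb ∨ V = Wc) with rfl | rfl | rfl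
  exacts [hfa, hfb, hfc]

end Chart

end Fermat.Agent.S36
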