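import Mathlib
import Fermat.Agent.S36.Comp3Abs
import Fermat.Agent.S36.Inst36PostDat
import Fermat.Agent.S36.TriPrin

/-!
# S36, package COMP3: the point classification of one chart, assembly

The point hypothesis of `s36in_post_dat` / `s36in_abs` (S36/Inst36PostDat.lean,
S36/Inst36Abs.lean) for ONE chart `O`:

  `∀ 𝔫, ∀ h𝔫 : 𝔫.IsMaximal, algebraMap A ↥O τ ∈ 𝔫 →
      S36inPtDat τ m q Wa Wb Wc O 𝔫 ∨ S36inPtTri τ m α β Nα Nβ Wa Wb Wc O 𝔫 h𝔫.isPrime`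

from the clauses of the four point types (`Wa`-only, `Wb`-only, `Wc`-only, triple) and the
statement "a closed point on two components is on the three" (PT-TYPES).

* `s36k3_ptOne`: `S36inPtOne` from the branch output (`S35IC` and `S35Unit`, the conclusion of
  `s36oi_one`) at a point of exactly one component;
* `s36k3_ptDat`: the same in datum form (`S36inPtDat`);
* `s36k3_ptTri`: `S36inPtTri` from `S36Tri` and the binders of `s36tn_unit3`;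
* `s36k3_point`: the dispatch over the four point types, the four clauses in final form;
* `s36k3_point_branch`: the same, the clauses of the `Wa`-only and `Wc`-only points in branch
  form, the clause of the `Wb`-only points in datum form (transfer along the swap).
-/

set_option autoImplicit false
set_option linter.unusedSectionVars false
set_option linter.unusedVariables false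

namespace Fermat.Agent.S36

open Fermat.Agent.S18 Fermat.Agent.S34 Fermat.Agent.S35

section One

variable {A F : Type*} [CommRing A] [Field F] [Algebra A F]

/-- `S36inPtOne` at a point of exactly one component `V`, from the branch output. -/
theorem s36k3_ptOne (τ : A) (m : ℕ) (Wa Wb Wc : ValuationSubring F) (O : Subalgebra A F)
    (𝔫 : Ideal ↥O) (V : ValuationSubring F) (hV : V = Wa ∨ V = Wb ∨ V = Wc)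
    (h1 : ∀ x : ↥O, (x : F) ∈ V.nonunits → x ∈ 𝔫)
    (hoff : ∀ V' : ValuationSubring F, (V' = Wa ∨ V' = Wb ∨ V' = Wc) →
      V' = V ∨ ∃ X : ↥O, (X : F) ∈ V'.nonunits ∧ X ∉ 𝔫)
    (h : S35IC m O 𝔫 V ∧
      ∀ f : F, f ≠ 0 → S36inOrd τ m f → f ∈ V → f⁻¹ ∈ V → S35Unit m O 𝔫 f) :
    S36inPtOne τ m Wa Wb Wc O 𝔫 :=
  ⟨V, hV, h1, hoff, h.1, h.2⟩

/-- `S36inPtOne` at a `Wa`-only point. -/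
theorem s36k3_ptOne_a (τ : A) (m : ℕ) (Wa Wb Wc : ValuationSubring F) (O : Subalgebra A F)
    (𝔫 : Ideal ↥O) (h1 : ∀ x : ↥O, (x : F) ∈ Wa.nonunits → x ∈ 𝔫)
    (hb : ∃ r : ↥O, (r : F) ∈ Wb.nonunits ∧ r ∉ 𝔫)
    (hc : ∃ r : ↥O, (r : F) ∈ Wc.nonunits ∧ r ∉ 𝔫)
    (h : S35IC m O 𝔫 Wa ∧
      ∀ f : F, f ≠ 0 → S36inOrd τ m f → f ∈ Wa → f⁻¹ ∈ Wa → S35Unit m O 𝔫 f) :
    S36inPtOne τ m Wa Wb Wc O 𝔫 := by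
  refine s36k3_ptOne τ m Wa Wb Wc O 𝔫 Wa (Or.inl rfl) h1 ?_ h
  rintro V' (rfl | rfl | rfl)
  · exact Or.inl rfl
  · exact Or.inr hb
  · exact Or.inr hc

/-- `S36inPtOne` at a `Wb`-only point. -/
theorem s36k3_ptOne_b (τ : A) (m : ℕ) (Wa Wb Wc : ValuationSubring F) (O : Subalgebra A F)
    (𝔫 : Ideal ↥O) (h1 : ∀ x : ↥O, (x : F) ∈ Wb.nonunits → x ∈ 𝔫)
    (ha : ∃ r : ↥O, (r : F) ∈ Wa.nonunits ∧ r ∉ 𝔫)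
    (hc : ∃ r : ↥O, (r : F) ∈ Wc.nonunits ∧ r ∉ 𝔫)
    (h : S35IC m O 𝔫 Wb ∧
      ∀ f : F, f ≠ 0 → S36inOrd τ m f → f ∈ Wb → f⁻¹ ∈ Wb → S35Unit m O 𝔫 f) :
    S36inPtOne τ m Wa Wb Wc O 𝔫 := by
  refine s36k3_ptOne τ m Wa Wb Wc O 𝔫 Wb (Or.inr (Or.inl rfl)) h1 ?_ h
  rintro V' (rfl | rfl | rfl)
  · exact Or.inr ha
  · exact Or.inl rfl
  · exact Or.inr hc

/-- `S36inPtOne` at a `Wc`-only point. -/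
theorem s36k3_ptOne_c (τ : A) (m : ℕ) (Wa Wb Wc : ValuationSubring F) (O : Subalgebra A F)
    (𝔫 : Ideal ↥O) (h1 : ∀ x : ↥O, (x : F) ∈ Wc.nonunits → x ∈ 𝔫)
    (ha : ∃ r : ↥O, (r : F) ∈ Wa.nonunits ∧ r ∉ 𝔫)
    (hb : ∃ r : ↥O, (r : F) ∈ Wb.nonunits ∧ r ∉ 𝔫)
    (h : S35IC m O 𝔫 Wc ∧
      ∀ f : F, f ≠ 0 → S36inOrd τ m f → f ∈ Wc → f⁻¹ ∈ Wc → S35Unit m O 𝔫 f) :
    S36inPtOne τ m Wa Wb Wc O 𝔫 := by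
  refine s36k3_ptOne τ m Wa Wb Wc O 𝔫 Wc (Or.inr (Or.inr rfl)) h1 ?_ h
  rintro V' (rfl | rfl | rfl)
  · exact Or.inr ha
  · exact Or.inr hb
  · exact Or.inl rfl

/-- `S36inPtTri` at a triple point from the toric data `S36Tri` of the local ring and the
binders of `s36tn_unit3` (S36/TriPrin.lean): the component `Wa` has a Dedekind coordinate ring
and the local equation `ξ` at `𝔫`, a unit of `Wb`, `Wc`; `X ∈ O_𝔫 ∩ 𝔪_Wb` is a unit of `Wc`. -/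
theorem s36k3_ptTri {E : Type*} [Field E] (τ : A) (hτ0 : algebraMap A F τ ≠ 0)
    (O : Subalgebra A F) [IsNoetherianRing ↥O]
    (hfrac : ∀ x : F, ∃ a ∈ O, ∃ s ∈ O, s ≠ 0 ∧ x * s = a)
    (𝔫 : Ideal ↥O) (h𝔫 : 𝔫.IsMaximal) (Wa Wb Wc : ValuationSubring F)
    (hOWa : ∀ x ∈ O, x ∈ Wa) (hOWb : ∀ x ∈ O, x ∈ Wb) (hOWc : ∀ x ∈ O, x ∈ Wc)
    (hdiv : ∀ x ∈ O, x * (algebraMap A F τ)⁻¹ ∈ Wa → x * (algebraMap A F τ)⁻¹ ∈ Wb →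
      x * (algebraMap A F τ)⁻¹ ∈ Wc → x * (algebraMap A F τ)⁻¹ ∈ O)
    (h1a : ∀ x : ↥O, (x : F) ∈ Wa.nonunits → x ∈ 𝔫)
    (h1b : ∀ x : ↥O, (x : F) ∈ Wb.nonunits → x ∈ 𝔫)
    (h1c : ∀ x : ↥O, (x : F) ∈ Wc.nonunits → x ∈ 𝔫)
    (hτa : algebraMap A F τ ∈ Wa.nonunits) (hτb : algebraMap A F τ ∈ Wb.nonunits)
    (hτc : algebraMap A F τ ∈ Wc.nonunits)
    (hD : ∀ 𝔭 : Ideal ↥O, (∀ x : ↥O, x ∈ 𝔭 ↔ (x : F) ∈ Wa.nonunits) →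
      IsDedekindDomain (↥O ⧸ 𝔭))
    (ξ : F) (hξ0 : ξ ≠ 0) (hξa : ξ ∈ Wa.nonunits)
    (hξO : ∃ a s : ↥O, s ∉ 𝔫 ∧ ξ * (s : F) = (a : F))
    (hprin : ∀ y : ↥O, (y : F) ∈ Wa.nonunits →
      ∃ b c : ↥O, c ∉ 𝔫 ∧ (y : F) * (c : F) = ξ * (b : F))
    (hξb : ξ⁻¹ ∈ Wb) (hξc : ξ⁻¹ ∈ Wc)
    (X : F) (hX0 : X ≠ 0) (hXO : ∃ a s : ↥O, s ∉ 𝔫 ∧ X * (s : F) = (a : F))
    (hXb : X ∈ Wb.nonunits) (hXc : X⁻¹ ∈ Wc)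
    (m : ℕ) (hm : 0 < m) (α β : E →+* F) (Nα Nβ : F →* E)
    (hT : S36Tri (A := A) α β Nα Nβ Wa Wb Wc m
      (@ndrLoc A F _ _ _ O 𝔫 h𝔫.isPrime).toSubring) :
    S36inPtTri τ m α β Nα Nβ Wa Wb Wc O 𝔫 h𝔫.isPrime := by
  refine ⟨hT, ?_⟩
  intro f hf hord hfa hfa' hfb hfb' hfc hfc'
  exact s36tn_unit3 τ hτ0 O hfrac 𝔫 h𝔫 Wa Wb Wc hOWa hOWb hOWc hdiv h1a h1b h1c hτa hτb hτc hD
    ξ hξ0 hξa hξO hprin hξb hξc X hX0 hXO hXb hXc m hm f hf hord ⟨hfa, hfa'⟩ ⟨hfb, hfb'⟩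
    ⟨hfc, hfc'⟩

end One

section Point

variable {A E F : Type*} [CommRing A] [Field E] [Field F] [Algebra A F]

/-- **COMP3, dispatch.**  The point hypothesis of `s36in_post_dat` for the chart `O` from the
clauses of the four point types; `hab`, `hac`, `hbc`: a closed point of the special fibre on two
of the three components is on the three (PT-TYPES). -/
theorem s36k3_point (τ : A) (m q : ℕ) (α β : E →+* F) (Nα Nβ : F →* E)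
    (O : Subalgebra A F) (Wa Wb Wc : ValuationSubring F)
    (hOa : ∀ y ∈ O, y ∈ Wa) (hOb : ∀ y ∈ O, y ∈ Wb) (hOc : ∀ y ∈ O, y ∈ Wc)
    (hred : ∀ x ∈ O, x ∈ Wa.nonunits → x ∈ Wb.nonunits → x ∈ Wc.nonunits →
      ∃ (N : ℕ), ∃ y ∈ O, x ^ N = algebraMap A F τ * y)
    -- PT-TYPES
    (hab : ∀ 𝔫 : Ideal ↥O, 𝔫.IsMaximal → algebraMap A ↥O τ ∈ 𝔫 →
      (∀ x : ↥O, (x : F) ∈ Wa.nonunits → x ∈ 𝔫) → (∀ x : ↥O, (x : F) ∈ Wb.nonunits → x ∈ 𝔫) →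
      ∀ x : ↥O, (x : F) ∈ Wc.nonunits → x ∈ 𝔫)
    (hac : ∀ 𝔫 : Ideal ↥O, 𝔫.IsMaximal → algebraMap A ↥O τ ∈ 𝔫 →
      (∀ x : ↥O, (x : F) ∈ Wa.nonunits → x ∈ 𝔫) → (∀ x : ↥O, (x : F) ∈ Wc.nonunits → x ∈ 𝔫) →
      ∀ x : ↥O, (x : F) ∈ Wb.nonunits → x ∈ 𝔫)
    (hbc : ∀ 𝔫 : Ideal ↥O, 𝔫.IsMaximal → algebraMap A ↥O τ ∈ 𝔫 →
      (∀ x : ↥O, (x : F) ∈ Wb.nonunits → x ∈ 𝔫) → (∀ x : ↥O, (x : F) ∈ Wc.nonunits → x ∈ 𝔫) →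
      ∀ x : ↥O, (x : F) ∈ Wa.nonunits → x ∈ 𝔫)
    -- the four clauses
    (hA : ∀ 𝔫 : Ideal ↥O, 𝔫.IsMaximal → algebraMap A ↥O τ ∈ 𝔫 →
      (∀ x : ↥O, (x : F) ∈ Wa.nonunits → x ∈ 𝔫) →
      (∃ r : ↥O, (r : F) ∈ Wb.nonunits ∧ r ∉ 𝔫) → (∃ r : ↥O, (r : F) ∈ Wc.nonunits ∧ r ∉ 𝔫) →
      S36inPtDat τ m q Wa Wb Wc O 𝔫)
    (hB : ∀ 𝔫 : Ideal ↥O, 𝔫.IsMaximal → algebraMap A ↥O τ ∈ 𝔫 →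
      (∀ x : ↥O, (x : F) ∈ Wb.nonunits → x ∈ 𝔫) →
      (∃ r : ↥O, (r : F) ∈ Wa.nonunits ∧ r ∉ 𝔫) → (∃ r : ↥O, (r : F) ∈ Wc.nonunits ∧ r ∉ 𝔫) →
      S36inPtDat τ m q Wa Wb Wc O 𝔫)
    (hC : ∀ 𝔫 : Ideal ↥O, 𝔫.IsMaximal → algebraMap A ↥O τ ∈ 𝔫 →
      (∀ x : ↥O, (x : F) ∈ Wc.nonunits → x ∈ 𝔫) →
      (∃ r : ↥O, (r : F) ∈ Wa.nonunits ∧ r ∉ 𝔫) → (∃ r : ↥O, (r : F) ∈ Wb.nonunits ∧ r ∉ 𝔫) →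
      S36inPtDat τ m q Wa Wb Wc O 𝔫)
    (hT : ∀ 𝔫 : Ideal ↥O, ∀ h𝔫 : 𝔫.IsMaximal, algebraMap A ↥O τ ∈ 𝔫 →
      (∀ x : ↥O, (x : F) ∈ Wa.nonunits → x ∈ 𝔫) → (∀ x : ↥O, (x : F) ∈ Wb.nonunits → x ∈ 𝔫) →
      (∀ x : ↥O, (x : F) ∈ Wc.nonunits → x ∈ 𝔫) →
      S36inPtTri τ m α β Nα Nβ Wa Wb Wc O 𝔫 h𝔫.isPrime) :
    ∀ 𝔫 : Ideal ↥O, ∀ h𝔫 : 𝔫.IsMaximal, algebraMap A ↥O τ ∈ 𝔫 →
      S36inPtDat τ m q Wa Wb Wc O 𝔫 ∨ S36inPtTri τ m α β Nα Nβ Wa Wb Wc O 𝔫 h𝔫.isPrime := by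
  intro 𝔫 h𝔫 hτ𝔫
  have : 𝔫.IsPrime := h𝔫.isPrime
  rcases s36k3_types τ O Wa Wb Wc hOa hOb hOc hred 𝔫 hτ𝔫 (hab 𝔫 h𝔫 hτ𝔫) (hac 𝔫 h𝔫 hτ𝔫)
    (hbc 𝔫 h𝔫 hτ𝔫) with ⟨h1, h2, h3⟩ | ⟨h1, h2, h3⟩ | ⟨h1, h2, h3⟩ | ⟨h1, h2, h3⟩
  · exact Or.inl (hA 𝔫 h𝔫 hτ𝔫 h1 h2 h3)
  · exact Or.inl (hB 𝔫 h𝔫 hτ𝔫 h1 h2 h3)
  · exact Or.inl (hC 𝔫 h𝔫 hτ𝔫 h1 h2 h3)
  · exact Or.inr (hT 𝔫 h𝔫 hτ𝔫 h1 h2 h3)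

/-- **COMP3, dispatch, branch form.**  As `s36k3_point`, the clauses of the `Wa`-only and the
`Wc`-only points in branch form (`S35IC` and `S35Unit`: the conclusions of `s36oi_one` and of
its twin at `Wc`), the clause of the `Wb`-only points in datum form. -/
theorem s36k3_point_branch (τ : A) (m q : ℕ) (hm : 0 < m) (α β : E →+* F) (Nα Nβ : F →* E)
    (O : Subalgebra A F) (Wa Wb Wc : ValuationSubring F)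
    (hOa : ∀ y ∈ O, y ∈ Wa) (hOb : ∀ y ∈ O, y ∈ Wb) (hOc : ∀ y ∈ O, y ∈ Wc)
    (hred : ∀ x ∈ O, x ∈ Wa.nonunits → x ∈ Wb.nonunits → x ∈ Wc.nonunits →
      ∃ (N : ℕ), ∃ y ∈ O, x ^ N = algebraMap A F τ * y)
    -- PT-TYPES
    (hab : ∀ 𝔫 : Ideal ↥O, 𝔫.IsMaximal → algebraMap A ↥O τ ∈ 𝔫 →
      (∀ x : ↥O, (x : F) ∈ Wa.nonunits → x ∈ 𝔫) → (∀ x : ↥O, (x : F) ∈ Wb.nonunits → x ∈ 𝔫) →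
      ∀ x : ↥O, (x : F) ∈ Wc.nonunits → x ∈ 𝔫)
    (hac : ∀ 𝔫 : Ideal ↥O, 𝔫.IsMaximal → algebraMap A ↥O τ ∈ 𝔫 →
      (∀ x : ↥O, (x : F) ∈ Wa.nonunits → x ∈ 𝔫) → (∀ x : ↥O, (x : F) ∈ Wc.nonunits → x ∈ 𝔫) →
      ∀ x : ↥O, (x : F) ∈ Wb.nonunits → x ∈ 𝔫)
    (hbc : ∀ 𝔫 : Ideal ↥O, 𝔫.IsMaximal → algebraMap A ↥O τ ∈ 𝔫 →
      (∀ x : ↥O, (x : F) ∈ Wb.nonunits → x ∈ 𝔫) → (∀ x : ↥O, (x : F) ∈ Wc.nonunits → x ∈ 𝔫) →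
      ∀ x : ↥O, (x : F) ∈ Wa.nonunits → x ∈ 𝔫)
    -- the four clauses
    (hA : ∀ 𝔫 : Ideal ↥O, 𝔫.IsMaximal → algebraMap A ↥O τ ∈ 𝔫 →
      (∀ x : ↥O, (x : F) ∈ Wa.nonunits → x ∈ 𝔫) →
      (∃ r : ↥O, (r : F) ∈ Wb.nonunits ∧ r ∉ 𝔫) → (∃ r : ↥O, (r : F) ∈ Wc.nonunits ∧ r ∉ 𝔫) →
      S35IC m O 𝔫 Wa ∧
        ∀ f : F, f ≠ 0 → S36inOrd τ m f → f ∈ Wa → f⁻¹ ∈ Wa → S35Unit m O 𝔫 f)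
    (hB : ∀ 𝔫 : Ideal ↥O, 𝔫.IsMaximal → algebraMap A ↥O τ ∈ 𝔫 →
      (∀ x : ↥O, (x : F) ∈ Wb.nonunits → x ∈ 𝔫) →
      (∃ r : ↥O, (r : F) ∈ Wa.nonunits ∧ r ∉ 𝔫) → (∃ r : ↥O, (r : F) ∈ Wc.nonunits ∧ r ∉ 𝔫) →
      S36inPtDat τ m q Wa Wb Wc O 𝔫)
    (hC : ∀ 𝔫 : Ideal ↥O, 𝔫.IsMaximal → algebraMap A ↥O τ ∈ 𝔫 →
      (∀ x : ↥O, (x : F) ∈ Wc.nonunits → x ∈ 𝔫) →
      (∃ r : ↥O, (r : F) ∈ Wa.nonunits ∧ r ∉ 𝔫) → (∃ r : ↥O, (r : F) ∈ Wb.nonunits ∧ r ∉ 𝔫) →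
      S35IC m O 𝔫 Wc ∧
        ∀ f : F, f ≠ 0 → S36inOrd τ m f → f ∈ Wc → f⁻¹ ∈ Wc → S35Unit m O 𝔫 f)
    (hT : ∀ 𝔫 : Ideal ↥O, ∀ h𝔫 : 𝔫.IsMaximal, algebraMap A ↥O τ ∈ 𝔫 →
      (∀ x : ↥O, (x : F) ∈ Wa.nonunits → x ∈ 𝔫) → (∀ x : ↥O, (x : F) ∈ Wb.nonunits → x ∈ 𝔫) →
      (∀ x : ↥O, (x : F) ∈ Wc.nonunits → x ∈ 𝔫) →
      S36inPtTri τ m α β Nα Nβ Wa Wb Wc O 𝔫 h𝔫.isPrime) :
    ∀ 𝔫 : Ideal ↥O, ∀ h𝔫 : 𝔫.IsMaximal, algebraMap A ↥O τ ∈ 𝔫 →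
      S36inPtDat τ m q Wa Wb Wc O 𝔫 ∨ S36inPtTri τ m α β Nα Nβ Wa Wb Wc O 𝔫 h𝔫.isPrime := by
  have hV : ∀ x ∈ O, x ∈ Wa ∧ x ∈ Wb ∧ x ∈ Wc := fun x hx => ⟨hOa x hx, hOb x hx, hOc x hx⟩
  refine s36k3_point τ m q α β Nα Nβ O Wa Wb Wc hOa hOb hOc hred hab hac hbc ?_ hB ?_ hT
  · intro 𝔫 h𝔫 hτ𝔫 h1 h2 h3
    have : 𝔫.IsPrime := h𝔫.isPrime
    exact s36in_dat_of_one τ m q hm Wa Wb Wc O hV 𝔫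
      (s36k3_ptOne_a τ m Wa Wb Wc O 𝔫 h1 h2 h3 (hA 𝔫 h𝔫 hτ𝔫 h1 h2 h3))
  · intro 𝔫 h𝔫 hτ𝔫 h1 h2 h3
    have : 𝔫.IsPrime := h𝔫.isPrime
    exact s36in_dat_of_one τ m q hm Wa Wb Wc O hV 𝔫
      (s36k3_ptOne_c τ m Wa Wb Wc O 𝔫 h1 h2 h3 (hC 𝔫 h𝔫 hτ𝔫 h1 h2 h3))

end Point

end Fermat.Agent.S36
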