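import Mathlib
import Fermat.Agent.S35.AbsNorm

/-!
# S36, leaf [ABS-NORM3]: separation, weak approximation and normalisation at three valuations

Mathlib + `S35/AbsNorm` (the calculus `s35n_*` of the maximal ideal of a valuation subring).
Three valuation subrings `Wa, Wb, Wc` of a field `F`.

* `s36n3Kill V`: "high powers of an element of `𝔪_V` kill any pole" (the only discreteness
  input); `s36n3_kill_of_disc`: it holds for a discrete valuation ring given in the `S35` shape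
  (uniformiser `τ'`, `hτgen`, `hdec`) -- for `Wc` take `τ' := π` (the uniformiser with
  `π^(q-1) / τ` a unit);
* `s36n3_idem_self`, `s36n3_idem_other`: for `s ∈ 𝔪_V`, `u` a unit of `V`: `u / (s + u) ≡ 1`;
  for `s` a unit of `V`, `u ∈ 𝔪_V`: `u / (s + u) ∈ 𝔪_V`;
* `s36n3_idem`: from separating elements `sa, sb, sc` (`s_i ∈ 𝔪_{W_i}`, a unit at the other two)
  the three "idempotents" `e_i` with `e_i ≡ 1` at `W_i` and `e_i ∈ 𝔪_{W_j}` for `j ≠ i`;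
* `s36n3_approx_idem`, `s36n3_approx`: weak approximation `w ≡ w_i` mod `𝔪_{W_i}` (`w_i ∈ W_i`);
* `s36n3_norm`: normalisation: if `W0 ≡ c_i w_i ^ m` mod `𝔪_{W_i}` with `w_i` units of `W_i`
  and `c_i ∈ W_i`, then there is `w`, a unit of all three, `w ≡ w_i`, with
  `W0 / w ^ m ≡ c_i` mod `𝔪_{W_i}`.

Names are prefixed `s36n3`.
-/

set_option autoImplicit false
set_option linter.unusedSectionVars false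

namespace Fermat.Agent.S36

open Fermat.Agent.S35

section AbsNorm3

variable {F : Type*} [Field F]

/-- high powers of an element of the maximal ideal kill any pole -/
def s36n3Kill (V : ValuationSubring F) : Prop :=
  ∀ e ∈ V.nonunits, ∀ z : F, ∃ N : ℕ, ∀ n : ℕ, N ≤ n → e ^ n * z ∈ V.nonunits

/-- a discrete valuation ring in the `S35` shape has the kill property -/
theorem s36n3_kill_of_disc (τ' : F) (V : ValuationSubring F)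
    (hτgen : ∀ x ∈ V.nonunits, x * τ'⁻¹ ∈ V) (hτ : τ' ∈ V.nonunits) (hτ0 : τ' ≠ 0)
    (hdec : ∀ z : F, z ≠ 0 → ∃ j : ℤ, z * τ' ^ j ∈ V ∧ (z * τ' ^ j)⁻¹ ∈ V) :
    s36n3Kill V :=
  fun e he z => s35n_kill τ' V hτgen hτ hτ0 hdec e he z

/-- `s ∈ 𝔪_V`, `u` a unit of `V`: `s + u ≠ 0` and `u / (s + u) ≡ 1` -/
theorem s36n3_idem_self (V : ValuationSubring F) {s u : F} (hs : s ∈ V.nonunits)
    (hu : u ∈ V) (hui : u⁻¹ ∈ V) (hu0 : u ≠ 0) :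
    s + u ≠ 0 ∧ u / (s + u) - 1 ∈ V.nonunits := by
  have h1 : (s + u) - u ∈ V.nonunits := by
    rw [add_sub_cancel_right]
    exact hs
  obtain ⟨h0, -, hinv⟩ := s35n_unit_of_congr V hu hui hu0 h1
  refine ⟨h0, ?_⟩
  have e : u / (s + u) - 1 = (-s) * (s + u)⁻¹ := by
    field_simp
    ring
  rw [e]
  exact s35n_nu_mul' V (s35n_nu_neg V hs) hinv

/-- `s` a unit of `V`, `u ∈ 𝔪_V`: `u / (s + u) ∈ 𝔪_V` -/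
theorem s36n3_idem_other (V : ValuationSubring F) {s u : F} (hs : s ∈ V) (hsi : s⁻¹ ∈ V)
    (hs0 : s ≠ 0) (hu : u ∈ V.nonunits) :
    u / (s + u) ∈ V.nonunits := by
  have h1 : (s + u) - s ∈ V.nonunits := by
    rw [add_sub_cancel_left]
    exact hu
  obtain ⟨-, -, hinv⟩ := s35n_unit_of_congr V hs hsi hs0 h1
  rw [div_eq_mul_inv]
  exact s35n_nu_mul' V hu hinv

variable (Wa Wb Wc : ValuationSubring F)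

/-- **The three idempotents** from separating elements: `e_i ≡ 1` at `W_i`, `e_i ∈ 𝔪_{W_j}` for
`j ≠ i`. -/
theorem s36n3_idem (sa sb sc : F) (hsa0 : sa ≠ 0) (hsb0 : sb ≠ 0) (hsc0 : sc ≠ 0)
    (haa : sa ∈ Wa.nonunits) (hab : sa ∈ Wb ∧ sa⁻¹ ∈ Wb) (hac : sa ∈ Wc ∧ sa⁻¹ ∈ Wc)
    (hbb : sb ∈ Wb.nonunits) (hba : sb ∈ Wa ∧ sb⁻¹ ∈ Wa) (hbc : sb ∈ Wc ∧ sb⁻¹ ∈ Wc)
    (hcc : sc ∈ Wc.nonunits) (hca : sc ∈ Wa ∧ sc⁻¹ ∈ Wa) (hcb : sc ∈ Wb ∧ sc⁻¹ ∈ Wb) :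
    ∃ ea eb ec : F,
      (ea - 1 ∈ Wa.nonunits ∧ ea ∈ Wb.nonunits ∧ ea ∈ Wc.nonunits) ∧
      (eb ∈ Wa.nonunits ∧ eb - 1 ∈ Wb.nonunits ∧ eb ∈ Wc.nonunits) ∧
      (ec ∈ Wa.nonunits ∧ ec ∈ Wb.nonunits ∧ ec - 1 ∈ Wc.nonunits) := by
  have hinv : ∀ x y : F, (x * y)⁻¹ = x⁻¹ * y⁻¹ := fun x y => mul_inv x y
  refine ⟨sb * sc / (sa + sb * sc), sa * sc / (sb + sa * sc), sa * sb / (sc + sa * sb),
    ⟨?_, ?_, ?_⟩, ⟨?_, ?_, ?_⟩, ⟨?_, ?_, ?_⟩⟩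
  · exact (s36n3_idem_self Wa haa (Wa.mul_mem _ _ hba.1 hca.1)
      (by rw [hinv]; exact Wa.mul_mem _ _ hba.2 hca.2) (mul_ne_zero hsb0 hsc0)).2
  · exact s36n3_idem_other Wb hab.1 hab.2 hsa0 (s35n_nu_mul' Wb hbb hcb.1)
  · exact s36n3_idem_other Wc hac.1 hac.2 hsa0 (s35n_nu_mul Wc hbc.1 hcc)
  · exact s36n3_idem_other Wa hba.1 hba.2 hsb0 (s35n_nu_mul' Wa haa hca.1)
  · exact (s36n3_idem_self Wb hbb (Wb.mul_mem _ _ hab.1 hcb.1)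
      (by rw [hinv]; exact Wb.mul_mem _ _ hab.2 hcb.2) (mul_ne_zero hsa0 hsc0)).2
  · exact s36n3_idem_other Wc hbc.1 hbc.2 hsb0 (s35n_nu_mul Wc hac.1 hcc)
  · exact s36n3_idem_other Wa hca.1 hca.2 hsc0 (s35n_nu_mul' Wa haa hba.1)
  · exact s36n3_idem_other Wb hcb.1 hcb.2 hsc0 (s35n_nu_mul Wb hab.1 hbb)
  · exact (s36n3_idem_self Wc hcc (Wc.mul_mem _ _ hac.1 hbc.1)
      (by rw [hinv]; exact Wc.mul_mem _ _ hac.2 hbc.2) (mul_ne_zero hsa0 hsb0)).2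

/-- one valuation of the approximation: `e₁ ≡ 1`, `e₂, e₃ ∈ 𝔪_V`, `w₁ ∈ V` -/
theorem s36n3_approx_aux (V : ValuationSubring F) (hK : s36n3Kill V) (e₁ e₂ e₃ : F)
    (h₁ : e₁ - 1 ∈ V.nonunits) (h₂ : e₂ ∈ V.nonunits) (h₃ : e₃ ∈ V.nonunits)
    (w₁ w₂ w₃ : F) (hw₁ : w₁ ∈ V) :
    ∃ N : ℕ, ∀ n : ℕ, N ≤ n →
      e₁ ^ n * w₁ + e₂ ^ n * w₂ + e₃ ^ n * w₃ - w₁ ∈ V.nonunits := by
  obtain ⟨N₂, hN₂⟩ := hK e₂ h₂ w₂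
  obtain ⟨N₃, hN₃⟩ := hK e₃ h₃ w₃
  refine ⟨max N₂ N₃, fun n hn => ?_⟩
  have e : e₁ ^ n * w₁ + e₂ ^ n * w₂ + e₃ ^ n * w₃ - w₁ =
      w₁ * (e₁ ^ n - 1) + e₂ ^ n * w₂ + e₃ ^ n * w₃ := by ring
  rw [e]
  exact s35n_nu_add V (s35n_nu_add V (s35n_nu_mul V hw₁ (s35n_pow_sub_one V h₁ n))
    (hN₂ n (le_trans (le_max_left _ _) hn))) (hN₃ n (le_trans (le_max_right _ _) hn))

/-- **Weak approximation at three valuations**, idempotent form. -/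
theorem s36n3_approx_idem (hKa : s36n3Kill Wa) (hKb : s36n3Kill Wb) (hKc : s36n3Kill Wc)
    (ea eb ec : F)
    (hea : ea - 1 ∈ Wa.nonunits ∧ ea ∈ Wb.nonunits ∧ ea ∈ Wc.nonunits)
    (heb : eb ∈ Wa.nonunits ∧ eb - 1 ∈ Wb.nonunits ∧ eb ∈ Wc.nonunits)
    (hec : ec ∈ Wa.nonunits ∧ ec ∈ Wb.nonunits ∧ ec - 1 ∈ Wc.nonunits)
    (wa wb wc : F) (hwa : wa ∈ Wa) (hwb : wb ∈ Wb) (hwc : wc ∈ Wc) :
    ∃ w : F, w - wa ∈ Wa.nonunits ∧ w - wb ∈ Wb.nonunits ∧ w - wc ∈ Wc.nonunits := by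
  obtain ⟨Na, hNa⟩ := s36n3_approx_aux Wa hKa ea eb ec hea.1 heb.1 hec.1 wa wb wc hwa
  obtain ⟨Nb, hNb⟩ := s36n3_approx_aux Wb hKb eb ea ec heb.2.1 hea.2.1 hec.2.1 wb wa wc hwb
  obtain ⟨Nc, hNc⟩ := s36n3_approx_aux Wc hKc ec ea eb hec.2.2 hea.2.2 heb.2.2 wc wa wb hwc
  set n := max Na (max Nb Nc) with hn
  have hna : Na ≤ n := le_max_left _ _
  have hnb : Nb ≤ n := le_trans (le_max_left _ _) (le_max_right _ _)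
  have hnc : Nc ≤ n := le_trans (le_max_right _ _) (le_max_right _ _)
  refine ⟨ea ^ n * wa + eb ^ n * wb + ec ^ n * wc, hNa n hna, ?_, ?_⟩
  · have e : ea ^ n * wa + eb ^ n * wb + ec ^ n * wc - wb =
        eb ^ n * wb + ea ^ n * wa + ec ^ n * wc - wb := by ring
    rw [e]
    exact hNb n hnb
  · have e : ea ^ n * wa + eb ^ n * wb + ec ^ n * wc - wc =
        ec ^ n * wc + ea ^ n * wa + eb ^ n * wb - wc := by ring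
    rw [e]
    exact hNc n hnc

/-- **Weak approximation at three valuations**, from separating elements. -/
theorem s36n3_approx (hKa : s36n3Kill Wa) (hKb : s36n3Kill Wb) (hKc : s36n3Kill Wc)
    (sa sb sc : F) (hsa0 : sa ≠ 0) (hsb0 : sb ≠ 0) (hsc0 : sc ≠ 0)
    (haa : sa ∈ Wa.nonunits) (hab : sa ∈ Wb ∧ sa⁻¹ ∈ Wb) (hac : sa ∈ Wc ∧ sa⁻¹ ∈ Wc)
    (hbb : sb ∈ Wb.nonunits) (hba : sb ∈ Wa ∧ sb⁻¹ ∈ Wa) (hbc : sb ∈ Wc ∧ sb⁻¹ ∈ Wc)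
    (hcc : sc ∈ Wc.nonunits) (hca : sc ∈ Wa ∧ sc⁻¹ ∈ Wa) (hcb : sc ∈ Wb ∧ sc⁻¹ ∈ Wb)
    (wa wb wc : F) (hwa : wa ∈ Wa) (hwb : wb ∈ Wb) (hwc : wc ∈ Wc) :
    ∃ w : F, w - wa ∈ Wa.nonunits ∧ w - wb ∈ Wb.nonunits ∧ w - wc ∈ Wc.nonunits := by
  obtain ⟨ea, eb, ec, hea, heb, hec⟩ := s36n3_idem Wa Wb Wc sa sb sc hsa0 hsb0 hsc0
    haa hab hac hbb hba hbc hcc hca hcb
  exact s36n3_approx_idem Wa Wb Wc hKa hKb hKc ea eb ec hea heb hec wa wb wc hwa hwb hwc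

/-- one valuation of the normalisation -/
theorem s36n3_norm_aux (V : ValuationSubring F) (m : ℕ) (W0 c w w' : F) (hc : c ∈ V)
    (hw' : w' ∈ V) (hw'i : w'⁻¹ ∈ V) (hw'0 : w' ≠ 0)
    (h : W0 - c * w' ^ m ∈ V.nonunits) (hw : w - w' ∈ V.nonunits) :
    (w ∈ V ∧ w⁻¹ ∈ V) ∧ W0 * (w ^ m)⁻¹ - c ∈ V.nonunits := by
  obtain ⟨hw0, hwV, hwi⟩ := s35n_unit_of_congr V hw' hw'i hw'0 hw
  refine ⟨⟨hwV, hwi⟩, ?_⟩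
  have hp := s35n_pow_sub_pow V hw' hw m
  have hm0 : w ^ m ≠ 0 := pow_ne_zero m hw0
  have e : W0 * (w ^ m)⁻¹ - c =
      ((W0 - c * w' ^ m) - c * (w ^ m - w' ^ m)) * (w⁻¹) ^ m := by
    rw [inv_pow]
    field_simp
    ring
  rw [e]
  exact s35n_nu_mul' V (s35n_nu_sub V h (s35n_nu_mul V hc hp)) (pow_mem hwi m)

/-- **Normalisation at three valuations.**  If `W0 ≡ c_i w_i ^ m` mod `𝔪_{W_i}` with `w_i` a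
unit of `W_i` and `c_i ∈ W_i` (`i = a, b, c`), there is `w ≠ 0`, a unit of the three valuation
rings, with `w ≡ w_i` and `W0 / w ^ m ≡ c_i` mod `𝔪_{W_i}`. -/
theorem s36n3_norm (hKa : s36n3Kill Wa) (hKb : s36n3Kill Wb) (hKc : s36n3Kill Wc)
    (sa sb sc : F) (hsa0 : sa ≠ 0) (hsb0 : sb ≠ 0) (hsc0 : sc ≠ 0)
    (haa : sa ∈ Wa.nonunits) (hab : sa ∈ Wb ∧ sa⁻¹ ∈ Wb) (hac : sa ∈ Wc ∧ sa⁻¹ ∈ Wc)
    (hbb : sb ∈ Wb.nonunits) (hba : sb ∈ Wa ∧ sb⁻¹ ∈ Wa) (hbc : sb ∈ Wc ∧ sb⁻¹ ∈ Wc)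
    (hcc : sc ∈ Wc.nonunits) (hca : sc ∈ Wa ∧ sc⁻¹ ∈ Wa) (hcb : sc ∈ Wb ∧ sc⁻¹ ∈ Wb)
    (m : ℕ) (W0 ca cb cc wa wb wc : F)
    (hcA : ca ∈ Wa) (hcB : cb ∈ Wb) (hcC : cc ∈ Wc)
    (hwa : wa ∈ Wa) (hwa' : wa⁻¹ ∈ Wa) (hwa0 : wa ≠ 0)
    (hwb : wb ∈ Wb) (hwb' : wb⁻¹ ∈ Wb) (hwb0 : wb ≠ 0)
    (hwc : wc ∈ Wc) (hwc' : wc⁻¹ ∈ Wc) (hwc0 : wc ≠ 0)
    (h₁ : W0 - ca * wa ^ m ∈ Wa.nonunits) (h₂ : W0 - cb * wb ^ m ∈ Wb.nonunits)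
    (h₃ : W0 - cc * wc ^ m ∈ Wc.nonunits) :
    ∃ w : F, w ≠ 0 ∧ (w ∈ Wa ∧ w⁻¹ ∈ Wa) ∧ (w ∈ Wb ∧ w⁻¹ ∈ Wb) ∧ (w ∈ Wc ∧ w⁻¹ ∈ Wc) ∧
      w - wa ∈ Wa.nonunits ∧ w - wb ∈ Wb.nonunits ∧ w - wc ∈ Wc.nonunits ∧
      W0 * (w ^ m)⁻¹ - ca ∈ Wa.nonunits ∧ W0 * (w ^ m)⁻¹ - cb ∈ Wb.nonunits ∧
      W0 * (w ^ m)⁻¹ - cc ∈ Wc.nonunits := by
  obtain ⟨w, h1, h2, h3⟩ := s36n3_approx Wa Wb Wc hKa hKb hKc sa sb sc hsa0 hsb0 hsc0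
    haa hab hac hbb hba hbc hcc hca hcb wa wb wc hwa hwb hwc
  obtain ⟨hua, hna⟩ := s36n3_norm_aux Wa m W0 ca w wa hcA hwa hwa' hwa0 h₁ h1
  obtain ⟨hub, hnb⟩ := s36n3_norm_aux Wb m W0 cb w wb hcB hwb hwb' hwb0 h₂ h2
  obtain ⟨huc, hnc⟩ := s36n3_norm_aux Wc m W0 cc w wc hcC hwc hwc' hwc0 h₃ h3
  have hw0 : w ≠ 0 := (s35n_unit_of_congr Wa hwa hwa' hwa0 h1).1
  exact ⟨w, hw0, hua, hub, huc, h1, h2, h3, hna, hnb, hnc⟩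

end AbsNorm3

end Fermat.Agent.S36
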