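import Mathlib
import Fermat.Agent.S18.Charts
import Fermat.Agent.S18.GaussAll
import Fermat.Agent.S34.Val2Exh

/-!
# S36, leaf [HCONST]: an `m`-th root of a constant in the residue field is a constant

* `s36hc_series`: a Laurent series over a field `k` whose `m`-th power (`m > 0`) is a constant is
  a constant (`k` is algebraically closed in `k((t))`: `cht_const`);
* `s36hc_abs`: abstract form for a valuation subring `V` of `F` with a residue map
  `ρ : V → k((t))` killing `𝔪_V`, over a local base `A` with residue map `res : A → k`: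
  `z ∈ V`, `z ^ m ≡ c` mod `𝔪_V` with `c` a unit of `A` ⟹ `z ≡ c'` mod `𝔪_V` for a unit `c'` of
  `A` (the hypothesis `hconst` of `s36tor_main`, at `V`);
* `s36hc_V1`: the instance at the Gauss valuation `va2V1 M q K0 A0` of the `Val2Def` carrier
  (any level `M`; for `Wa` of level `L q²` take `M := L q`);
* `s36hc_nonunits_iff`: a field map `α : E → F` with `α x ∈ W ↔ x ∈ V` also matches the maximal
  ideals;
* `s36hc_transfer`: **the binder `hconst` of `s36tor_main`** at a valuation `W` of `F` lying over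
  `V` along `α` with residue degree one, from the statement at `V`;
* `s36hc_cst`, `s36hc_cst12`: the binder `hcst` of `s36tor_main` (a constant in `𝔪_{Wc}` lies in
  `𝔪_{Wb}`), abstractly and its level-`M q` input (`𝔪_{V₁} ∩ A0 ⊆ 𝔪_{V₂}`).
-/

set_option autoImplicit false
set_option linter.unusedSectionVars false

noncomputable section

open ModularCurve AlgebraicCurve Polynomial
open Fermat.Agent.S18 Fermat.Agent.S37 Fermat.Agent.S34

namespace Fermat.Agent.S36

local notation "Qb" => AlgebraicClosure ℚ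

/-- a Laurent series whose `m`-th power is a constant is a constant -/
theorem s36hc_series {k : Type*} [Field k] (m : ℕ) (hm : 0 < m) (s : LaurentSeries k) (c : k)
    (h : s ^ m = algebraMap k (LaurentSeries k) c) :
    ∃ a : k, s = algebraMap k (LaurentSeries k) a := by
  have halg : IsAlgebraic k s := by
    refine ⟨X ^ m - C c, (monic_X_pow_sub_C c hm.ne').ne_zero, ?_⟩
    rw [map_sub, map_pow, aeval_X, aeval_C, h, sub_self]
  obtain ⟨a, ha⟩ := cht_const s halg
  exact ⟨a, ha.symm⟩

/-- **[HCONST], abstract.** -/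
theorem s36hc_abs {A F k : Type*} [CommRing A] [Field F] [Algebra A F] [Field k]
    (V : ValuationSubring F) (ρ : V.toSubring →+* LaurentSeries k) (res : A →+* k)
    (hres : Function.Surjective res) (hunit : ∀ a : A, res a ≠ 0 → IsUnit a)
    (hA : ∀ a : A, algebraMap A F a ∈ V)
    (hρA : ∀ a : A, ρ ⟨algebraMap A F a, hA a⟩ = algebraMap k (LaurentSeries k) (res a))
    (hρ0 : ∀ (x : F) (hx : x ∈ V), x ∈ V.nonunits → ρ ⟨x, hx⟩ = 0)
    (m : ℕ) (hm : 0 < m) (z : F) (hz : z ∈ V) (c : A) (hc : IsUnit c)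
    (h : z ^ m - algebraMap A F c ∈ V.nonunits) :
    ∃ c' : A, IsUnit c' ∧ z - algebraMap A F c' ∈ V.nonunits := by
  have hmem : z ^ m - algebraMap A F c ∈ V := sub_mem (V.pow_mem hz m) (hA c)
  have h0 := hρ0 _ hmem h
  have e : (⟨z ^ m - algebraMap A F c, hmem⟩ : V.toSubring) =
      ⟨z, hz⟩ ^ m - ⟨algebraMap A F c, hA c⟩ := rfl
  rw [e, map_sub, map_pow, hρA, sub_eq_zero] at h0
  obtain ⟨a, ha⟩ := s36hc_series m hm _ _ h0
  obtain ⟨c', hc'⟩ := hres a
  have hinj : Function.Injective (algebraMap k (LaurentSeries k)) :=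
    (algebraMap k (LaurentSeries k)).injective
  have ha0 : a ≠ 0 := by
    rintro rfl
    rw [ha, map_zero, zero_pow hm.ne'] at h0
    have h1 : res c = 0 := hinj (by rw [← h0, map_zero])
    exact (hc.map res).ne_zero h1
  refine ⟨c', hunit c' (by rw [hc']; exact ha0), ?_⟩
  have hmem' : z - algebraMap A F c' ∈ V := sub_mem hz (hA c')
  -- the kernel of `ρ` consists of non-units
  by_contra hn
  rw [V.mem_nonunits_iff_or, not_or, not_not] at hn
  obtain ⟨hx0, hinv⟩ := hn
  have h1 : (⟨z - algebraMap A F c', hmem'⟩ : V.toSubring) * ⟨(z - algebraMap A F c')⁻¹, hinv⟩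
      = 1 := Subtype.ext (mul_inv_cancel₀ hx0)
  have h2 := congrArg ρ h1
  have e' : (⟨z - algebraMap A F c', hmem'⟩ : V.toSubring) =
      ⟨z, hz⟩ - ⟨algebraMap A F c', hA c'⟩ := rfl
  rw [map_mul, map_one, e', map_sub, hρA, hc', ha, sub_self, zero_mul] at h2
  exact zero_ne_one h2

/-- a field map with `α x ∈ W ↔ x ∈ V` matches the maximal ideals -/
theorem s36hc_nonunits_iff {E F : Type*} [Field E] [Field F] (α : E →+* F)
    (V : ValuationSubring E) (W : ValuationSubring F) (hαW : ∀ x : E, α x ∈ W ↔ x ∈ V) (x : E) :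
    α x ∈ W.nonunits ↔ x ∈ V.nonunits := by
  rw [W.mem_nonunits_iff_or, V.mem_nonunits_iff_or, map_eq_zero, ← map_inv₀, hαW]

/-- **`hconst` transfers along a residue-degree-one extension.** -/
theorem s36hc_transfer {A E F : Type*} [CommRing A] [Field E] [Field F] [Algebra A E]
    [Algebra A F] (α : E →+* F) (hαA : ∀ a : A, α (algebraMap A E a) = algebraMap A F a)
    (V : ValuationSubring E) (W : ValuationSubring F) (hαW : ∀ x : E, α x ∈ W ↔ x ∈ V)
    (hR : ∀ z ∈ W, ∃ z' ∈ V, z - α z' ∈ W.nonunits) (m : ℕ)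
    (hV : ∀ z ∈ V, ∀ c : A, IsUnit c → z ^ m - algebraMap A E c ∈ V.nonunits →
      ∃ c' : A, IsUnit c' ∧ z - algebraMap A E c' ∈ V.nonunits) :
    ∀ z ∈ W, ∀ c : A, IsUnit c → z ^ m - algebraMap A F c ∈ W.nonunits →
      ∃ c' : A, IsUnit c' ∧ z - algebraMap A F c' ∈ W.nonunits := by
  intro z hz c hc h
  obtain ⟨z', hz', hzz'⟩ := hR z hz
  have hαz' : α z' ∈ W := (hαW z').mpr hz'
  -- `z ^ m ≡ (α z') ^ m`
  have hpow : z ^ m - α z' ^ m ∈ W.nonunits := by
    have hgeom : ∀ n : ℕ, z ^ n - α z' ^ n ∈ W.nonunits := by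
      intro n
      induction n with
      | zero =>
        rw [pow_zero, pow_zero, sub_self]
        exact W.nonunits.zero_mem
      | succ n ih =>
        have e : z ^ (n + 1) - α z' ^ (n + 1) = z * (z ^ n - α z' ^ n) + (z - α z') * α z' ^ n := by
          ring
        rw [e]
        refine W.nonunits.add_mem ?_ ?_
        · rw [W.mem_nonunits_iff] at ih ⊢
          rw [map_mul]
          exact Right.mul_lt_one_of_le_of_lt ((W.valuation_le_one_iff z).mpr hz) ih
        · rw [W.mem_nonunits_iff] at hzz' ⊢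
          rw [map_mul]
          exact Left.mul_lt_one_of_lt_of_le hzz'
            ((W.valuation_le_one_iff _).mpr (W.pow_mem hαz' n))
    exact hgeom m
  have h1 : α (z' ^ m - algebraMap A E c) ∈ W.nonunits := by
    rw [map_sub, map_pow, hαA]
    have e : α z' ^ m - algebraMap A F c = (z ^ m - algebraMap A F c) - (z ^ m - α z' ^ m) := by
      ring
    rw [e]
    exact W.nonunits.sub_mem h hpow
  have h2 : z' ^ m - algebraMap A E c ∈ V.nonunits := (s36hc_nonunits_iff α V W hαW _).mp h1
  obtain ⟨c', hc', h3⟩ := hV z' hz' c hc h2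
  refine ⟨c', hc', ?_⟩
  have h4 : α (z' - algebraMap A E c') ∈ W.nonunits := (s36hc_nonunits_iff α V W hαW _).mpr h3
  rw [map_sub, hαA] at h4
  have e : z - algebraMap A F c' = (z - α z') + (α z' - algebraMap A F c') := by ring
  rw [e]
  exact W.nonunits.add_mem hzz' h4

/-- **the binder `hcst` of `s36tor_main`**, abstract: a constant in `𝔪_{Wc}` lies in `𝔪_{Wb}` -/
theorem s36hc_cst {A E F : Type*} [CommRing A] [Field E] [Field F] [Algebra A E]
    [Algebra A F] (α : E →+* F) (hαA : ∀ a : A, α (algebraMap A E a) = algebraMap A F a)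
    (V1 V2 : ValuationSubring E) (Wb Wc : ValuationSubring F)
    (hαc : ∀ x : E, α x ∈ Wc ↔ x ∈ V1) (hαb : ∀ x : E, α x ∈ Wb ↔ x ∈ V2)
    (h12 : ∀ c : A, algebraMap A E c ∈ V1.nonunits → algebraMap A E c ∈ V2.nonunits) :
    ∀ c : A, algebraMap A F c ∈ Wc.nonunits → algebraMap A F c ∈ Wb.nonunits := by
  intro c hc
  rw [← hαA] at hc ⊢
  exact (s36hc_nonunits_iff α V2 Wb hαb _).mpr
    (h12 c ((s36hc_nonunits_iff α V1 Wc hαc _).mp hc))

section Carr

variable (M q : ℕ) [NeZero M] [hq : Fact q.Prime]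
  (K0 : Type*) [Field K0] [Algebra ℚ K0] [Algebra K0 Qb]
  (A0 : ValuationSubring K0) [IsDiscreteValuationRing ↥A0]

/-- **[HCONST] at the Gauss valuation `V₁ = va2V1 M q K0 A0`.** -/
theorem s36hc_V1
    [Algebra ↥A0 ↥(laurentBaseChange K0 (modularFunctionFieldFull (M * q)))]
    [IsScalarTower ↥A0 K0 ↥(laurentBaseChange K0 (modularFunctionFieldFull (M * q)))]
    (m : ℕ) (hm : 0 < m)
    (z : ↥(laurentBaseChange K0 (modularFunctionFieldFull (M * q))))
    (hz : z ∈ va2V1 M q K0 A0) (c : A0) (hc : IsUnit c)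
    (h : z ^ m - algebraMap A0 ↥(laurentBaseChange K0 (modularFunctionFieldFull (M * q))) c
      ∈ (va2V1 M q K0 A0).nonunits) :
    ∃ c' : A0, IsUnit c' ∧
      z - algebraMap A0 ↥(laurentBaseChange K0 (modularFunctionFieldFull (M * q))) c'
        ∈ (va2V1 M q K0 A0).nonunits := by
  have hA : ∀ a : A0, algebraMap A0 ↥(laurentBaseChange K0 (modularFunctionFieldFull (M * q))) a
      ∈ va2V1 M q K0 A0 := by
    intro a
    rw [IsScalarTower.algebraMap_apply A0 K0
      ↥(laurentBaseChange K0 (modularFunctionFieldFull (M * q))) a]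
    exact gr_algebraMap_mem A0 a
  refine s36hc_abs (va2V1 M q K0 A0) (va2xRho1 M q K0 A0) (IsLocalRing.residue A0)
    IsLocalRing.residue_surjective ?_ hA ?_ ?_ m hm z hz c hc h
  · intro a ha
    by_contra hnu
    exact ha ((IsLocalRing.residue_eq_zero_iff a).mpr hnu)
  · intro a
    have e : algebraMap A0 ↥(laurentBaseChange K0 (modularFunctionFieldFull (M * q))) a =
        algebraMap K0 ↥(laurentBaseChange K0 (modularFunctionFieldFull (M * q))) (a : K0) :=
      IsScalarTower.algebraMap_apply A0 K0 _ a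
    have ha' : algebraMap K0 ↥(laurentBaseChange K0 (modularFunctionFieldFull (M * q))) (a : K0)
        ∈ va2V1 M q K0 A0 := e ▸ hA a
    have e2 : (⟨algebraMap A0 ↥(laurentBaseChange K0 (modularFunctionFieldFull (M * q))) a,
        hA a⟩ : (va2V1 M q K0 A0).toSubring) = ⟨_, ha'⟩ := Subtype.ext e
    rw [e2, va2xRho1_apply]
    exact grRho_algebraMap A0 a
  · intro x hx hxn
    obtain ⟨h1, h2⟩ := (gra_mem_nonunits_iff (gra_decomp_dvr A0 (M * q)) x).mp hxn
    rw [va2xRho1_apply]
    exact h2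

/-- the level-`M q` input of `s36hc_cst`: a constant of `A0` in `𝔪_{V₁}` lies in `𝔪_{V₂}` -/
theorem s36hc_cst12 (hM : ¬ q ∣ M)
    [Algebra ↥A0 ↥(laurentBaseChange K0 (modularFunctionFieldFull (M * q)))]
    [IsScalarTower ↥A0 K0 ↥(laurentBaseChange K0 (modularFunctionFieldFull (M * q)))]
    (c : A0)
    (h : algebraMap A0 ↥(laurentBaseChange K0 (modularFunctionFieldFull (M * q))) c
      ∈ (va2V1 M q K0 A0).nonunits) :
    algebraMap A0 ↥(laurentBaseChange K0 (modularFunctionFieldFull (M * q))) c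
      ∈ (va2V2 M q hM K0 A0).nonunits := by
  show _ ∈ ((va2V1 M q K0 A0).comap (va2Swap M q hq.out hM K0)).nonunits
  rw [va2x_comap_nonunits,
    IsScalarTower.algebraMap_apply A0 K0 ↥(laurentBaseChange K0 (modularFunctionFieldFull (M * q))),
    va2Swap_const,
    ← IsScalarTower.algebraMap_apply A0 K0 ↥(laurentBaseChange K0 (modularFunctionFieldFull (M * q)))]
  exact h

end Carr

end Fermat.Agent.S36
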