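import Mathlib

/-!
# S36 [NR-TRI]: the norm-residue formula for non-reduced fibres, abstract triangular form

`E ⊆ F` a finite field extension, `VE` a valuation subring of `E`, `B` a subring of `F`
containing the image of `VE`, `J ⊆ F` a set containing `𝔪_{VE} · B` (in the applications
`J = τ B`, the multiples of a uniformiser in the intersection `B` of the valuation rings of `F`
above `VE`), and a family `b : ι → B`, `card ι = [F : E]`, which is independent modulo `J`:

  (hind)  `c i ∈ VE`, `∑ c i • b i ∈ J`  ⟹  all `c i ∈ 𝔪_{VE}`.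

No residue map of `B` is needed, and `B ⧸ J` may be non-reduced (ramification).

* `s36nt_linearIndependent` : `b` is linearly independent over `E`;
* `s36nt_repr_mem`  : the coordinates of `u * b j` (`u ∈ B`) lie in `VE`;
* `s36nt_matrix`    : for `u ∈ B` there is a matrix `m` over `VE` with `N_{F/E} u = det m` and
                      `u * b j = ∑ m i j • b i`;
* `s36nt_det`       : if `u * b j ≡ ∑ t i j • b i` modulo `J` for a matrix `t` with entries in
                      `VE`, then `N_{F/E} u ≡ det t` modulo `𝔪_{VE}`;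
* `s36nt_tri`       : if moreover `t` is lower triangular (`t i j = 0` for `i < j`), then
                      `N_{F/E} u ≡ ∏ t j j` modulo `𝔪_{VE}`;
* `s36nt_pow`       : `u ^ k * b j = ∑ (m ^ k) i j • b i`;
* `s36nt_frob`      : purely inseparable fibre: if `card ι = p` is the residue characteristic and
                      `(u ^ p - a) * b j ∈ J` for all `j` (`a ∈ VE`), then `N_{F/E} u ≡ a`
                      modulo `𝔪_{VE}`.

Application (level `q²`): over the Gauss valuation `V` of the level-`q` field there are two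
valuations `W_b` (`e = f = 1`) and `W_c` (`e = q - 1`, `f = 1`, uniformiser `π`) of the
level-`q²` field; with `b = (e_b, e_c, e_c π, …, e_c π^(q-2))` one gets
`N u ≡ res_b(u) · res_c(u)^(q-1)`.
-/

set_option autoImplicit false

namespace Fermat.Agent.S36

section NormResTri

variable {E F : Type*} [Field E] [Field F] [Algebra E F]
  (VE : ValuationSubring E) (B : Subring F) (J : Set F)
  (hJ : ∀ a ∈ VE.nonunits, ∀ y ∈ B, algebraMap E F a * y ∈ J)
  {ι : Type*} [Fintype ι] (b : ι → F) (hb : ∀ i, b i ∈ B)
  (hind : ∀ c : ι → E, (∀ i, c i ∈ VE) → ∑ i, c i • b i ∈ J → ∀ i, c i ∈ VE.nonunits)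

omit [Algebra E F] in
/-- scaling by a coefficient of maximal valuation -/
theorem s36nt_scale (a : ι → E) (i₁ : ι) (h : a i₁ ≠ 0) :
    ∃ i₀, a i₀ ≠ 0 ∧ ∀ i, a i / a i₀ ∈ VE := by
  obtain ⟨i₀, -, hmax⟩ := Finset.exists_max_image Finset.univ (fun i => VE.valuation (a i))
    ⟨i₁, Finset.mem_univ _⟩
  have h0 : a i₀ ≠ 0 := by
    intro h0
    have h1 := hmax i₁ (Finset.mem_univ _)
    rw [h0, map_zero] at h1
    exact h ((map_eq_zero _).mp (le_antisymm h1 zero_le))
  refine ⟨i₀, h0, fun i => ?_⟩
  rw [← ValuationSubring.valuation_le_one_iff, map_div₀]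
  have hpos : 0 < VE.valuation (a i₀) := zero_lt_iff.mpr ((map_ne_zero _).mpr h0)
  exact (div_le_one₀ hpos).mpr (hmax i (Finset.mem_univ _))

omit [Fintype ι] in
/-- `1` is not a non-unit -/
theorem s36nt_one_notMem : (1 : E) ∉ VE.nonunits := by
  rw [ValuationSubring.mem_nonunits_iff, map_one]
  exact lt_irrefl _

include hJ hind in
/-- the family `b` is linearly independent over `E` -/
theorem s36nt_linearIndependent : LinearIndependent E b := by
  rw [Fintype.linearIndependent_iff]
  intro g hg
  by_contra hne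
  push Not at hne
  obtain ⟨i₁, hi₁⟩ := hne
  obtain ⟨i₀, h0, hmem⟩ := s36nt_scale VE g i₁ hi₁
  have hz : ∑ i, (g i / g i₀) • b i = 0 := by
    have : ∑ i, (g i / g i₀) • b i = (g i₀)⁻¹ • ∑ i, g i • b i := by
      rw [Finset.smul_sum]
      exact Finset.sum_congr rfl (fun i _ => by rw [smul_smul, div_eq_inv_mul])
    rw [this, hg, smul_zero]
  have h0J : (0 : F) ∈ J := by
    have := hJ 0 VE.nonunits.zero_mem 1 B.one_mem
    rwa [map_zero, zero_mul] at this
  have key := hind (fun i => g i / g i₀) hmem (hz ▸ h0J) i₀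
  rw [div_self h0] at key
  exact s36nt_one_notMem VE key

include hJ hb hind in
/-- the coordinates of `u * b j` in a basis extending `b` lie in `VE` -/
theorem s36nt_repr_mem (Bs : Module.Basis ι E F) (hB : ∀ i, Bs i = b i) (u : F) (hu : u ∈ B)
    (j i : ι) : Bs.repr (u * b j) i ∈ VE := by
  by_contra hni
  set a : ι → E := fun i => Bs.repr (u * b j) i with ha
  have hi0 : a i ≠ 0 := fun h => hni (by
    rw [show Bs.repr (u * b j) i = a i from rfl, h]
    exact zero_mem _)
  obtain ⟨i₀, h0, hmem⟩ := s36nt_scale VE a i hi0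
  have hni₀ : a i₀ ∉ VE := by
    intro hmem₀
    apply hni
    have : a i = a i / a i₀ * a i₀ := by field_simp
    rw [show Bs.repr (u * b j) i = a i from rfl, this]
    exact mul_mem (hmem i) hmem₀
  have ht : (a i₀)⁻¹ ∈ VE.nonunits :=
    (VE.inv_mem_nonunits_iff).mpr (Or.inr hni₀)
  have hsum : ∑ i, a i • b i = u * b j := by
    have := Bs.sum_repr (u * b j)
    rw [← this]
    exact Finset.sum_congr rfl (fun i _ => by rw [hB])
  have hz : ∑ i, (a i / a i₀) • b i = algebraMap E F (a i₀)⁻¹ * (u * b j) := by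
    have : ∑ i, (a i / a i₀) • b i = (a i₀)⁻¹ • ∑ i, a i • b i := by
      rw [Finset.smul_sum]
      exact Finset.sum_congr rfl (fun i _ => by rw [smul_smul, div_eq_inv_mul])
    rw [this, hsum, Algebra.smul_def]
  have hzJ : ∑ i, (a i / a i₀) • b i ∈ J := by
    rw [hz]
    exact hJ _ ht _ (mul_mem hu (hb j))
  have key := hind (fun i => a i / a i₀) hmem hzJ i₀
  rw [div_self h0] at key
  exact s36nt_one_notMem VE key

include hJ hb hind in
/-- the matrix of the multiplication by `u ∈ B` in the basis `b` has entries in `VE` -/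
theorem s36nt_matrix [DecidableEq ι] [Nonempty ι] (hcard : Fintype.card ι = Module.finrank E F)
    (u : F) (hu : u ∈ B) :
    ∃ m : Matrix ι ι VE,
      Algebra.norm E u = ((m.det : VE) : E) ∧
      (∀ j, ∑ i, ((m i j : VE) : E) • b i = u * b j) := by
  have hli := s36nt_linearIndependent VE B J hJ b hind
  set Bs : Module.Basis ι E F := basisOfLinearIndependentOfCardEqFinrank hli hcard with hBdef
  have hB : ∀ i, Bs i = b i := fun i => by
    rw [hBdef, coe_basisOfLinearIndependentOfCardEqFinrank]
  have hmem := s36nt_repr_mem VE B J hJ b hb hind Bs hB u hu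
  set m : Matrix ι ι VE := Matrix.of fun i j => ⟨Bs.repr (u * b j) i, hmem j i⟩ with hm
  have hmap : VE.subtype.mapMatrix m = Algebra.leftMulMatrix Bs u := by
    ext i j
    rw [Algebra.leftMulMatrix_eq_repr_mul, hB]
    rfl
  refine ⟨m, ?_, fun j => ?_⟩
  · rw [Algebra.norm_eq_matrix_det Bs, ← hmap, ← RingHom.map_det]
    rfl
  · have := Bs.sum_repr (u * b j)
    rw [← this]
    exact Finset.sum_congr rfl (fun i _ => by rw [hB]; rfl)

include hJ hb hind in
/-- **Norm-residue formula, matrix form.**  If the multiplication by `u ∈ B` is congruent modulo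
`J` to a matrix `t` with entries in `VE`, then `N_{F/E} u ≡ det t` modulo `𝔪_{VE}`. -/
theorem s36nt_det [DecidableEq ι] [Nonempty ι] (hcard : Fintype.card ι = Module.finrank E F)
    (u : F) (hu : u ∈ B) (t : Matrix ι ι E) (ht : ∀ i j, t i j ∈ VE)
    (hut : ∀ j, u * b j - ∑ i, t i j • b i ∈ J) :
    Algebra.norm E u - t.det ∈ VE.nonunits := by
  obtain ⟨m, hnorm, hm⟩ := s36nt_matrix VE B J hJ b hb hind hcard u hu
  set T : Matrix ι ι VE := Matrix.of fun i j => ⟨t i j, ht i j⟩ with hT
  have hTt : VE.subtype.mapMatrix T = t := by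
    ext i j
    rfl
  -- entrywise congruence
  have hent : ∀ i j, IsLocalRing.residue VE (m i j) = IsLocalRing.residue VE (T i j) := by
    intro i j
    have h1 : ∑ i, (((m i j : VE) : E) - t i j) • b i ∈ J := by
      have : ∑ i, (((m i j : VE) : E) - t i j) • b i = u * b j - ∑ i, t i j • b i := by
        rw [← hm j, ← Finset.sum_sub_distrib]
        exact Finset.sum_congr rfl (fun i _ => sub_smul _ _ _)
      rw [this]
      exact hut j
    have h2 := hind (fun i => ((m i j : VE) : E) - t i j)
      (fun i => sub_mem (m i j).2 (ht i j)) h1 i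
    have h3 : (m i j - T i j : VE) ∈ IsLocalRing.maximalIdeal VE := by
      rw [← ValuationSubring.coe_mem_nonunits_iff]
      exact h2
    rw [← sub_eq_zero, ← map_sub, IsLocalRing.residue_eq_zero_iff]
    exact h3
  have hmat : (IsLocalRing.residue VE).mapMatrix m = (IsLocalRing.residue VE).mapMatrix T := by
    ext i j
    exact hent i j
  have hdet : IsLocalRing.residue VE m.det = IsLocalRing.residue VE T.det := by
    rw [RingHom.map_det, RingHom.map_det, hmat]
  have h4 : (m.det - T.det : VE) ∈ IsLocalRing.maximalIdeal VE := by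
    rw [← IsLocalRing.residue_eq_zero_iff, map_sub, hdet, sub_self]
  have h5 : ((m.det - T.det : VE) : E) ∈ VE.nonunits :=
    ValuationSubring.coe_mem_nonunits_iff.mpr h4
  have h6 : ((T.det : VE) : E) = t.det := by
    rw [← hTt, ← RingHom.map_det]
    rfl
  rw [hnorm, ← h6]
  exact h5

include hJ hb hind in
/-- **Norm-residue formula, triangular form.**  If the multiplication by `u ∈ B` is congruent
modulo `J` to a lower triangular matrix `t` with entries in `VE`, then `N_{F/E} u ≡ ∏ t j j`
modulo `𝔪_{VE}`. -/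
theorem s36nt_tri [DecidableEq ι] [Nonempty ι] [LinearOrder ι]
    (hcard : Fintype.card ι = Module.finrank E F)
    (u : F) (hu : u ∈ B) (t : Matrix ι ι E) (ht : ∀ i j, t i j ∈ VE)
    (htri : ∀ i j, i < j → t i j = 0)
    (hut : ∀ j, u * b j - ∑ i, t i j • b i ∈ J) :
    Algebra.norm E u - ∏ j, t j j ∈ VE.nonunits := by
  have h := s36nt_det VE B J hJ b hb hind hcard u hu t ht hut
  have hdet : t.det = ∏ j, t j j := by
    apply Matrix.det_of_isLowerTriangular
    intro i j hij
    exact htri i j hij
  rw [← hdet]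
  exact h

omit [Fintype ι] in
/-- powers of the multiplication matrix -/
theorem s36nt_pow [Fintype ι] [DecidableEq ι] (u : F) (m : Matrix ι ι VE)
    (hm : ∀ j, ∑ i, ((m i j : VE) : E) • b i = u * b j) (k : ℕ) :
    ∀ j, ∑ i, (((m ^ k) i j : VE) : E) • b i = u ^ k * b j := by
  induction k with
  | zero =>
    intro j
    rw [pow_zero, pow_zero, one_mul, Finset.sum_eq_single j]
    · simp
    · intro i _ hij
      simp [hij]
    · intro hj
      exact absurd (Finset.mem_univ j) hj
  | succ k ih =>
    intro j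
    rw [pow_succ, pow_succ, mul_assoc, ← hm j, Finset.mul_sum]
    have h1 : ∀ i ∈ Finset.univ, u ^ k * (((m i j : VE) : E) • b i)
        = ∑ l, ((((m ^ k) l i * m i j : VE) : VE) : E) • b l := by
      intro i _
      rw [mul_smul_comm, ← ih i, Finset.smul_sum]
      refine Finset.sum_congr rfl (fun l _ => ?_)
      rw [smul_smul, MulMemClass.coe_mul, mul_comm]
    rw [Finset.sum_congr rfl h1, Finset.sum_comm]
    refine Finset.sum_congr rfl (fun l _ => ?_)
    rw [← Finset.sum_smul, Matrix.mul_apply]
    congr 1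
    rw [AddSubmonoidClass.coe_finsetSum]

include hJ hb hind in
/-- **Norm-residue formula, purely inseparable fibre.**  If `card ι = p` is the residue
characteristic and `u ^ p ≡ a` modulo `J` on the family `b`, then `N_{F/E} u ≡ a` modulo
`𝔪_{VE}`. -/
theorem s36nt_frob [DecidableEq ι] [Nonempty ι] (hcard : Fintype.card ι = Module.finrank E F)
    (p : ℕ) [Fact p.Prime] [CharP (IsLocalRing.ResidueField VE) p] (hp : Fintype.card ι = p)
    (u : F) (hu : u ∈ B) (a : E) (ha : a ∈ VE)
    (hua : ∀ j, (u ^ p - algebraMap E F a) * b j ∈ J) :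
    Algebra.norm E u - a ∈ VE.nonunits := by
  obtain ⟨m, hnorm, hm⟩ := s36nt_matrix VE B J hJ b hb hind hcard u hu
  have hpow := s36nt_pow VE b u m hm p
  set res := IsLocalRing.residue VE with hres
  -- `m ^ p ≡ a • 1` entrywise
  have hent : ∀ i j, res ((m ^ p) i j) = res ((⟨a, ha⟩ : VE) • (1 : Matrix ι ι VE) i j) := by
    intro i j
    have h1 : ∑ i, ((((m ^ p) i j : VE) : E) - (((⟨a, ha⟩ : VE) • (1 : Matrix ι ι VE) i j : VE) : E))
        • b i ∈ J := by
      have : ∑ i, ((((m ^ p) i j : VE) : E)
          - (((⟨a, ha⟩ : VE) • (1 : Matrix ι ι VE) i j : VE) : E)) • b i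
          = (u ^ p - algebraMap E F a) * b j := by
        simp only [sub_smul, Finset.sum_sub_distrib]
        rw [hpow j, sub_mul]
        congr 1
        rw [Finset.sum_eq_single j]
        · simp [Algebra.smul_def]
        · intro i _ hij
          simp [hij]
        · intro hj
          exact absurd (Finset.mem_univ j) hj
      rw [this]
      exact hua j
    have h2 := hind _ (fun i => sub_mem ((m ^ p) i j).2
      ((⟨a, ha⟩ : VE) • (1 : Matrix ι ι VE) i j).2) h1 i
    have h3 : ((m ^ p) i j - (⟨a, ha⟩ : VE) • (1 : Matrix ι ι VE) i j : VE)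
        ∈ IsLocalRing.maximalIdeal VE := by
      rw [← ValuationSubring.coe_mem_nonunits_iff]
      exact h2
    rw [← sub_eq_zero, ← map_sub, hres, IsLocalRing.residue_eq_zero_iff]
    exact h3
  have hmat : (res.mapMatrix m) ^ p = res ⟨a, ha⟩ • (1 : Matrix ι ι (IsLocalRing.ResidueField VE)) := by
    rw [← map_pow]
    ext i j
    rw [RingHom.mapMatrix_apply, Matrix.map_apply, hent i j]
    simp [Matrix.one_apply, Matrix.smul_apply]
    split_ifs <;> simp
  have hdet : (res.mapMatrix m).det ^ p = (res ⟨a, ha⟩) ^ p := by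
    rw [← Matrix.det_pow, hmat, Matrix.det_smul, Matrix.det_one, mul_one, hp]
  have hdet' : res m.det = res ⟨a, ha⟩ := by
    rw [RingHom.map_det]
    exact frobenius_inj (IsLocalRing.ResidueField VE) p hdet
  have h4 : (m.det - ⟨a, ha⟩ : VE) ∈ IsLocalRing.maximalIdeal VE := by
    rw [← IsLocalRing.residue_eq_zero_iff, map_sub, ← hres, hdet', sub_self]
  have h5 : ((m.det - ⟨a, ha⟩ : VE) : E) ∈ VE.nonunits :=
    ValuationSubring.coe_mem_nonunits_iff.mpr h4
  rw [hnorm]
  exact h5

end NormResTri

end Fermat.Agent.S36
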