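import Mathlib
import Fermat.Agent.S36.NormResTri
import Fermat.Agent.S34.TwoValExh
import Fermat.Agent.S18.ValExt

/-!
# S36 [VAL3], abstract exhaustion at a non-reduced fibre

`E ⊆ F` a finite field extension, `VE` a valuation subring of `E`.

* `s36xa_isIntegral`, `s36xa_mem`, `s36xa_coords`: consequences of the independence hypothesis
  `hind` of `S36/NormResTri` (no residue maps): the subring `B` is integral over `VE`, hence
  contained in every valuation subring of `F` containing `VE`; coordinates of elements of `B`.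
* shape A (`e = f = 1` and `e = n`, `f = 1`): two valuation subrings `Wa`, `Wc` of `F` over `VE`,
  `τ` a uniformiser of `VE` and of `Wa`, `z` a unit of `Wa` with `z ^ n = τ * unit` in `Wc`,
  `n + 1 = [F : E]`:
  `s36xa_sep` (a separating element), `s36xa_hindA` (the family `e, (1 - e) z ^ j` is independent
  modulo `τ (Wa ∩ Wc)`), `s36xa_exhA`, `s36xa_exhA_eq` (exhaustion), `s36xa_res_inf`,
  `s36xa_resA_a`, `s36xa_resA_c` (residue degree one), `s36xa_genc` (`𝔪_{Wc} = z Wc`).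
* shape B (one valuation subring `Wb` over `VE`): `s36xa_exhB`, `s36xa_exhB_eq`,
  `s36xa_hindB_pow` (the power family of a purely inseparable residue extension).
* `s36xa_arch`: the archimedean property goes up along algebraic extensions;
  `s36xa_dec`: every non-zero element is a unit times a power of the uniformiser.
-/

set_option autoImplicit false

namespace Fermat.Agent.S36

open Polynomial Fermat.Agent.S34

/-! ### Elementary facts on non-units -/

section Basic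

variable {F : Type*} [Field F] (A : ValuationSubring F)

theorem s36xa_nu_add {x y : F} (hx : x ∈ A.nonunits) (hy : y ∈ A.nonunits) :
    x + y ∈ A.nonunits := by
  rw [ValuationSubring.mem_nonunits_iff] at hx hy ⊢
  exact lt_of_le_of_lt (Valuation.map_add _ _ _) (max_lt hx hy)

theorem s36xa_nu_neg {x : F} (hx : x ∈ A.nonunits) : -x ∈ A.nonunits := by
  rw [ValuationSubring.mem_nonunits_iff] at hx ⊢
  rwa [Valuation.map_neg]

theorem s36xa_nu_sub {x y : F} (hx : x ∈ A.nonunits) (hy : y ∈ A.nonunits) :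
    x - y ∈ A.nonunits := by
  rw [sub_eq_add_neg]
  exact s36xa_nu_add A hx (s36xa_nu_neg A hy)

theorem s36xa_nu_mul {x y : F} (hx : x ∈ A.nonunits) (hy : y ∈ A) : x * y ∈ A.nonunits := by
  rw [ValuationSubring.mem_nonunits_iff] at hx ⊢
  have hy' : A.valuation y ≤ 1 := (A.valuation_le_one_iff y).mpr hy
  rw [map_mul]
  exact lt_of_le_of_lt (mul_le_of_le_one_right' hy') hx

theorem s36xa_nu_mul' {x y : F} (hx : x ∈ A) (hy : y ∈ A.nonunits) : x * y ∈ A.nonunits := by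
  rw [mul_comm]
  exact s36xa_nu_mul A hy hx

theorem s36xa_nu_sum {ι : Type*} (s : Finset ι) (f : ι → F) (hf : ∀ i ∈ s, f i ∈ A.nonunits) :
    ∑ i ∈ s, f i ∈ A.nonunits := by
  classical
  induction s using Finset.induction_on with
  | empty =>
    rw [Finset.sum_empty]
    exact A.nonunits.zero_mem
  | insert a s ha ih =>
    rw [Finset.sum_insert ha]
    exact s36xa_nu_add A (hf a (Finset.mem_insert_self a s))
      (ih (fun i hi => hf i (Finset.mem_insert_of_mem hi)))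

theorem s36xa_one_add {x : F} (hx : x ∈ A.nonunits) : 1 + x ≠ 0 ∧ (1 + x)⁻¹ ∈ A := by
  have h1 : (1 : F) ∉ A.nonunits := by
    rw [ValuationSubring.mem_nonunits_iff, map_one]
    exact lt_irrefl _
  have h2 : 1 + x ∉ A.nonunits := tve_add_notMem_nonunits A.one_mem h1 hx
  refine ⟨fun h0 => h2 (h0 ▸ A.nonunits.zero_mem), ?_⟩
  exact tve_inv_mem (A.add_mem _ _ A.one_mem (tve_nonunits_le hx)) h2

theorem s36xa_one_sub {x : F} (hx : x ∈ A.nonunits) : 1 - x ≠ 0 ∧ (1 - x)⁻¹ ∈ A := by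
  rw [sub_eq_add_neg]
  exact s36xa_one_add A (s36xa_nu_neg A hx)

/-- a unit of a valuation subring has valuation one -/
theorem s36xa_val_one {x : F} (hx : x ∈ A) (hx' : x⁻¹ ∈ A) (hx0 : x ≠ 0) : A.valuation x = 1 := by
  have h1 : A.valuation x ≤ 1 := (A.valuation_le_one_iff x).mpr hx
  have h2 : A.valuation x⁻¹ ≤ 1 := (A.valuation_le_one_iff _).mpr hx'
  refine le_antisymm h1 ?_
  have h3 : A.valuation x * A.valuation x⁻¹ = 1 := by
    rw [← map_mul, mul_inv_cancel₀ hx0, map_one]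
  calc (1 : A.ValueGroup) = A.valuation x * A.valuation x⁻¹ := h3.symm
    _ ≤ A.valuation x := mul_le_of_le_one_right' h2

end Basic

/-! ### Integrality from the independence hypothesis of `NormResTri` -/

section Integral

variable {E F : Type*} [Field E] [Field F] [Algebra E F]
  (VE : ValuationSubring E) (B : Subring F) (J : Set F)
  (hJ : ∀ a ∈ VE.nonunits, ∀ y ∈ B, algebraMap E F a * y ∈ J)
  {ι : Type*} [Fintype ι] (b : ι → F) (hb : ∀ i, b i ∈ B)
  (hind : ∀ c : ι → E, (∀ i, c i ∈ VE) → ∑ i, c i • b i ∈ J → ∀ i, c i ∈ VE.nonunits)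

include hJ hb hind in
/-- `B` is integral over `VE` (Cayley-Hamilton for the multiplication matrix). -/
theorem s36xa_isIntegral [Nonempty ι] (hcard : Fintype.card ι = Module.finrank E F)
    (u : F) (hu : u ∈ B) :
    ∃ p : (↥VE)[X], p.Monic ∧ p.eval₂ ((algebraMap E F).comp VE.subtype) u = 0 := by
  classical
  have hli := s36nt_linearIndependent VE B J hJ b hind
  set Bs : Module.Basis ι E F := basisOfLinearIndependentOfCardEqFinrank hli hcard with hBdef
  have hB : ∀ i, Bs i = b i := fun i => by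
    rw [hBdef, coe_basisOfLinearIndependentOfCardEqFinrank]
  have hmem := s36nt_repr_mem VE B J hJ b hb hind Bs hB u hu
  set m : Matrix ι ι VE := Matrix.of fun i j => ⟨Bs.repr (u * b j) i, hmem j i⟩ with hm
  have hmap : m.map ⇑VE.subtype = Algebra.leftMulMatrix Bs u := by
    ext i j
    rw [Algebra.leftMulMatrix_eq_repr_mul, hB]
    rfl
  refine ⟨m.charpoly, Matrix.charpoly_monic m, ?_⟩
  have h1 : m.charpoly.eval₂ ((algebraMap E F).comp VE.subtype) u
      = aeval u (m.charpoly.map VE.subtype) := by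
    rw [aeval_def, eval₂_map]
  rw [h1]
  apply Algebra.leftMulMatrix_injective Bs
  rw [map_zero, ← aeval_algHom_apply, ← hmap, ← Matrix.charpoly_map]
  exact Matrix.aeval_self_charpoly _

include hJ hb hind in
/-- `B` is contained in every valuation subring of `F` containing `VE`. -/
theorem s36xa_mem [Nonempty ι] (hcard : Fintype.card ι = Module.finrank E F)
    (W : ValuationSubring F) (hW : ∀ a ∈ VE, algebraMap E F a ∈ W) (u : F) (hu : u ∈ B) :
    u ∈ W := by
  obtain ⟨p, hp, hpu⟩ := s36xa_isIntegral VE B J hJ b hb hind hcard u hu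
  let _ : Algebra ↥VE F := ((algebraMap E F).comp VE.subtype).toAlgebra
  exact Fermat.Agent.S18.valext_mem_of_isIntegral W (S := ↥VE) (fun s => hW _ s.2) u ⟨p, hp, hpu⟩

include hJ hb hind in
/-- coordinates with respect to the family `b` of the elements of `B`, if `1` has coordinates
in `VE` -/
theorem s36xa_coords [Nonempty ι] (hcard : Fintype.card ι = Module.finrank E F)
    (d : ι → E) (hd : ∀ i, d i ∈ VE) (h1 : ∑ i, d i • b i = 1) (u : F) (hu : u ∈ B) :
    ∃ c : ι → E, (∀ i, c i ∈ VE) ∧ ∑ i, c i • b i = u := by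
  classical
  obtain ⟨m, -, hm⟩ := s36nt_matrix VE B J hJ b hb hind hcard u hu
  refine ⟨fun i => ∑ j, d j * ((m i j : VE) : E), fun i => ?_, ?_⟩
  · exact sum_mem (fun j _ => mul_mem (hd j) (m i j).2)
  · have e1 : u = ∑ j, d j • (u * b j) := by
      have : ∑ j, d j • (u * b j) = u * ∑ j, d j • b j := by
        rw [Finset.mul_sum]
        exact Finset.sum_congr rfl (fun j _ => (mul_smul_comm _ _ _).symm)
      rw [this, h1, mul_one]
    have e2 : ∑ j, d j • (u * b j) = ∑ j, ∑ i, (d j * ((m i j : VE) : E)) • b i := by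
      refine Finset.sum_congr rfl (fun j _ => ?_)
      rw [← hm j, Finset.smul_sum]
      exact Finset.sum_congr rfl (fun i _ => by rw [smul_smul])
    rw [e1, e2, Finset.sum_comm]
    exact Finset.sum_congr rfl (fun i _ => by rw [Finset.sum_smul])

end Integral

/-! ### Shape A: `e = f = 1` and `e = n`, `f = 1` -/

section ShapeA

variable {E F : Type*} [Field E] [Field F] [Algebra E F]

/-- a non-unit of `W ⊇ VE` lying in `VE` is a non-unit of `VE` -/
theorem s36xa_nonunit_of_map (VE : ValuationSubring E) (W : ValuationSubring F)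
    (hV : ∀ a ∈ VE, algebraMap E F a ∈ W) (c : E) (hc : c ∈ VE)
    (h : algebraMap E F c ∈ W.nonunits) : c ∈ VE.nonunits := by
  by_contra hn
  have hc0 : c ≠ 0 := fun h0 => hn (h0 ▸ VE.nonunits.zero_mem)
  have hinv : c⁻¹ ∈ VE := tve_inv_mem hc hn
  have h1 := s36xa_val_one W (hV _ hc) (by rw [← map_inv₀]; exact hV _ hinv)
    ((_root_.map_ne_zero _).mpr hc0)
  rw [ValuationSubring.mem_nonunits_iff, h1] at h
  exact lt_irrefl _ h

/-- the family `e, (1 - e) z ^ j` (`j < n`) -/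
def s36xaFam (n : ℕ) (e z : F) : Unit ⊕ Fin n → F :=
  Sum.elim (fun _ => e) (fun j => (1 - e) * z ^ (j : ℕ))

/-- the subring `Wa ∩ Wc` -/
def s36xaB (Wa Wc : ValuationSubring F) : Subring F := Wa.toSubring ⊓ Wc.toSubring

/-- the set `τ (Wa ∩ Wc)` (for `τ` a uniformiser of `Wa`) -/
def s36xaJ (Wa Wc : ValuationSubring F) (t : F) : Set F :=
  {y | y ∈ Wa.nonunits ∧ y * t⁻¹ ∈ Wc}

theorem s36xaFam_sum (n : ℕ) (e z : F) (c : Unit ⊕ Fin n → E) :
    ∑ i, c i • s36xaFam n e z i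
      = algebraMap E F (c (Sum.inl ())) * e
        + (1 - e) * ∑ j : Fin n, algebraMap E F (c (Sum.inr j)) * z ^ (j : ℕ) := by
  rw [Fintype.sum_sum_type, Fintype.sum_unique, Finset.mul_sum]
  congr 1
  · rw [Algebra.smul_def]
    rfl
  · refine Finset.sum_congr rfl (fun j _ => ?_)
    rw [Algebra.smul_def]
    show algebraMap E F (c (Sum.inr j)) * ((1 - e) * z ^ (j : ℕ)) = _
    ring

omit [Field E] [Algebra E F] in
/-- **A separating element**: `e ≡ 1` modulo `𝔪_{Wa}`, `e ∈ τ Wc`. -/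
theorem s36xa_sep (Wa Wc : ValuationSubring F) (t z : F) (n : ℕ) (ht0 : t ≠ 0) (hz0 : z ≠ 0)
    (hta : t ∈ Wa.nonunits) (hza' : z⁻¹ ∈ Wa) (htc : t ∈ Wc.nonunits)
    (hzt : z ^ n * t⁻¹ ∈ Wc) :
    ∃ e : F, e - 1 ∈ Wa.nonunits ∧ e * t⁻¹ ∈ Wc := by
  have hpow : (z ^ (2 * n))⁻¹ ∈ Wa := by
    rw [← inv_pow]
    exact pow_mem hza' _
  have hzn0 : z ^ (2 * n) ≠ 0 := pow_ne_zero _ hz0
  set y := t * (z ^ (2 * n))⁻¹ with hy
  have hya : y ∈ Wa.nonunits := s36xa_nu_mul Wa hta hpow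
  obtain ⟨h1, h2⟩ := s36xa_one_add Wa hya
  set u := z ^ n * t⁻¹ with hu
  have hwc : t * u ^ 2 ∈ Wc.nonunits := s36xa_nu_mul Wc htc (pow_mem hzt 2)
  obtain ⟨h3, h4⟩ := s36xa_one_add Wc hwc
  refine ⟨(1 + y)⁻¹, ?_, ?_⟩
  · have : (1 + y)⁻¹ - 1 = -(y * (1 + y)⁻¹) := by
      field_simp
      ring
    rw [this]
    exact s36xa_nu_neg Wa (s36xa_nu_mul Wa hya h2)
  · have key : (1 + y) * t * u ^ 2 = 1 + t * u ^ 2 := by
      rw [hy, hu]
      field_simp
      ring
    have : (1 + y)⁻¹ * t⁻¹ = u ^ 2 * (1 + t * u ^ 2)⁻¹ := by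
      rw [eq_mul_inv_iff_mul_eq₀ h3, ← key]
      field_simp
    rw [this]
    exact Wc.mul_mem _ _ (pow_mem hzt 2) h4

variable (VE : ValuationSubring E) (Wa Wc : ValuationSubring F)
  (hVa : ∀ a ∈ VE, algebraMap E F a ∈ Wa) (hVc : ∀ a ∈ VE, algebraMap E F a ∈ Wc)
  (τ : E) (hτ0 : τ ≠ 0) (hτgen : ∀ a ∈ VE.nonunits, a * τ⁻¹ ∈ VE)
  (hτa : algebraMap E F τ ∈ Wa.nonunits) (hτc : algebraMap E F τ ∈ Wc.nonunits)
  (n : ℕ) (e z : F) (hz0 : z ≠ 0) (hza : z ∈ Wa) (hzc : z ∈ Wc.nonunits)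
  (hτz : algebraMap E F τ * (z ^ n)⁻¹ ∈ Wc)
  (hea : e - 1 ∈ Wa.nonunits) (hec : e * (algebraMap E F τ)⁻¹ ∈ Wc)

include hτ0 hτc hec in
theorem s36xa_e_nu : e ∈ Wc.nonunits := by
  have hτF0 : algebraMap E F τ ≠ 0 := (_root_.map_ne_zero _).mpr hτ0
  have : e = algebraMap E F τ * (e * (algebraMap E F τ)⁻¹) := by
    field_simp
  rw [this]
  exact s36xa_nu_mul Wc hτc hec

include hea in
theorem s36xa_e_mem_a : e ∈ Wa := by
  have : e = e - 1 + 1 := by ring
  rw [this]
  exact Wa.add_mem _ _ (tve_nonunits_le hea) Wa.one_mem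

include hVa hVc hτ0 hτgen hτc hz0 hza hzc hτz hea hec in
/-- **Independence of the family `e, (1 - e) z ^ j` modulo `τ (Wa ∩ Wc)`.** -/
theorem s36xa_hindA (c : Unit ⊕ Fin n → E) (hc : ∀ i, c i ∈ VE)
    (hS1 : ∑ i, c i • s36xaFam n e z i ∈ Wa.nonunits)
    (hS2 : (∑ i, c i • s36xaFam n e z i) * (algebraMap E F τ)⁻¹ ∈ Wc) :
    ∀ i, c i ∈ VE.nonunits := by
  have hτF0 : algebraMap E F τ ≠ 0 := (_root_.map_ne_zero _).mpr hτ0
  set T := ∑ j : Fin n, algebraMap E F (c (Sum.inr j)) * z ^ (j : ℕ) with hT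
  have hsum := s36xaFam_sum n e z c
  rw [← hT] at hsum
  have hTa : T ∈ Wa := sum_mem (fun j _ => Wa.mul_mem _ _ (hVa _ (hc _)) (pow_mem hza _))
  have he_c : e ∈ Wc.nonunits := s36xa_e_nu Wc τ hτ0 hτc e hec
  -- (a) the coefficient of `e`
  have h0 : c (Sum.inl ()) ∈ VE.nonunits := by
    apply s36xa_nonunit_of_map VE Wa hVa _ (hc _)
    have : algebraMap E F (c (Sum.inl ())) = ∑ i, c i • s36xaFam n e z i
        - algebraMap E F (c (Sum.inl ())) * (e - 1) + (e - 1) * T := by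
      rw [hsum]
      ring
    rw [this]
    exact s36xa_nu_add Wa (s36xa_nu_sub Wa hS1 (s36xa_nu_mul' Wa (hVa _ (hc _)) hea))
      (s36xa_nu_mul Wa hea hTa)
  -- (b) `T ∈ τ Wc`
  obtain ⟨hne, hinv⟩ := s36xa_one_sub Wc he_c
  have hTτ : T * (algebraMap E F τ)⁻¹ ∈ Wc := by
    have : T * (algebraMap E F τ)⁻¹ = (1 - e)⁻¹ * ((∑ i, c i • s36xaFam n e z i)
        * (algebraMap E F τ)⁻¹ - algebraMap E F (c (Sum.inl ())) * (e * (algebraMap E F τ)⁻¹)) := by
      rw [hsum]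
      field_simp
      ring
    rw [this]
    exact Wc.mul_mem _ _ hinv (Wc.toSubring.sub_mem hS2 (Wc.mul_mem _ _ (hVc _ (hc _)) hec))
  -- valuations at `Wc`
  have hvz1 : Wc.valuation z < 1 := (ValuationSubring.mem_nonunits_iff Wc).mp hzc
  have hvz0 : 0 < Wc.valuation z := zero_lt_iff.mpr ((_root_.map_ne_zero _).mpr hz0)
  have hpos : 0 < Wc.valuation (algebraMap E F τ) := zero_lt_iff.mpr ((_root_.map_ne_zero _).mpr hτF0)
  have hvτ : Wc.valuation (algebraMap E F τ) ≤ Wc.valuation z ^ n := by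
    have h1 := (Wc.valuation_le_one_iff _).mpr hτz
    rw [map_mul, map_inv₀, map_pow] at h1
    have h2 := (mul_inv_le_iff₀ (pow_pos hvz0 n)).mp h1
    rwa [one_mul] at h2
  have hvT : Wc.valuation T ≤ Wc.valuation (algebraMap E F τ) := by
    have h1 := (Wc.valuation_le_one_iff _).mpr hTτ
    rw [map_mul, map_inv₀] at h1
    have h2 := (mul_inv_le_iff₀ hpos).mp h1
    rwa [one_mul] at h2
  have key : ∀ k : ℕ, ∀ hk : k < n, c (Sum.inr ⟨k, hk⟩) ∈ VE.nonunits := by
    intro k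
    induction k using Nat.strong_induction_on with
    | _ k ih =>
      intro hk
      by_contra hunit
      have hck := hc (Sum.inr ⟨k, hk⟩)
      have hck0 : c (Sum.inr ⟨k, hk⟩) ≠ 0 := fun h0 => hunit (h0 ▸ VE.nonunits.zero_mem)
      have hckinv : (c (Sum.inr ⟨k, hk⟩))⁻¹ ∈ VE := tve_inv_mem hck hunit
      have hvck : Wc.valuation (algebraMap E F (c (Sum.inr ⟨k, hk⟩))) = 1 :=
        s36xa_val_one Wc (hVc _ hck) (by rw [← map_inv₀]; exact hVc _ hckinv)
          ((_root_.map_ne_zero _).mpr hck0)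
      have hsplit : T = algebraMap E F (c (Sum.inr ⟨k, hk⟩)) * z ^ k
          + ∑ j ∈ Finset.univ.erase (⟨k, hk⟩ : Fin n),
              algebraMap E F (c (Sum.inr j)) * z ^ (j : ℕ) := by
        rw [hT]
        exact (Finset.add_sum_erase Finset.univ
          (fun j : Fin n => algebraMap E F (c (Sum.inr j)) * z ^ (j : ℕ))
          (Finset.mem_univ _)).symm
      have hrest : Wc.valuation (∑ j ∈ Finset.univ.erase (⟨k, hk⟩ : Fin n),
          algebraMap E F (c (Sum.inr j)) * z ^ (j : ℕ)) < Wc.valuation z ^ k := by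
        apply Valuation.map_sum_lt Wc.valuation (pow_ne_zero k hvz0.ne')
        intro j hj
        have hjk : j ≠ ⟨k, hk⟩ := Finset.ne_of_mem_erase hj
        have hjk' : (j : ℕ) ≠ k := fun h => hjk (Fin.ext h)
        rw [map_mul, map_pow]
        rcases lt_or_gt_of_ne hjk' with hlt | hgt
        · have hcj : c (Sum.inr j) ∈ VE.nonunits := ih j hlt j.2
          have h1 : Wc.valuation (algebraMap E F (c (Sum.inr j)))
              ≤ Wc.valuation (algebraMap E F τ) := by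
            have h2 := hVc _ (hτgen _ hcj)
            rw [map_mul, map_inv₀] at h2
            have h3 := (Wc.valuation_le_one_iff _).mpr h2
            rw [map_mul, map_inv₀] at h3
            have h4 := (mul_inv_le_iff₀ hpos).mp h3
            rwa [one_mul] at h4
          calc Wc.valuation (algebraMap E F (c (Sum.inr j))) * Wc.valuation z ^ (j : ℕ)
              ≤ Wc.valuation (algebraMap E F (c (Sum.inr j))) :=
                mul_le_of_le_one_right' (pow_le_one₀ hvz0.le hvz1.le)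
            _ ≤ Wc.valuation (algebraMap E F τ) := h1
            _ ≤ Wc.valuation z ^ n := hvτ
            _ < Wc.valuation z ^ k := pow_lt_pow_right_of_lt_one₀ hvz0 hvz1 hk
        · calc Wc.valuation (algebraMap E F (c (Sum.inr j))) * Wc.valuation z ^ (j : ℕ)
              ≤ Wc.valuation z ^ (j : ℕ) :=
                mul_le_of_le_one_left' ((Wc.valuation_le_one_iff _).mpr (hVc _ (hc _)))
            _ < Wc.valuation z ^ k := pow_lt_pow_right_of_lt_one₀ hvz0 hvz1 hgt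
      have hvTk : Wc.valuation T = Wc.valuation z ^ k := by
        rw [hsplit, Valuation.map_add_eq_of_lt_left]
        · rw [map_mul, map_pow, hvck, one_mul]
        · rw [map_mul, map_pow, hvck, one_mul]
          exact hrest
      have hle : Wc.valuation z ^ k ≤ Wc.valuation z ^ n := by
        rw [← hvTk]
        exact hvT.trans hvτ
      exact absurd (pow_lt_pow_right_of_lt_one₀ hvz0 hvz1 hk) (not_lt.mpr hle)
  intro i
  rcases i with ⟨⟩ | j
  · exact h0
  · exact key j j.2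

include hVa hVc hτ0 hτgen hτa in
theorem s36xa_hJ : ∀ a ∈ VE.nonunits, ∀ y ∈ s36xaB Wa Wc,
    algebraMap E F a * y ∈ s36xaJ Wa Wc (algebraMap E F τ) := by
  intro a ha y hy
  obtain ⟨hy1, hy2⟩ := Subring.mem_inf.mp hy
  have hτF0 : algebraMap E F τ ≠ 0 := (_root_.map_ne_zero _).mpr hτ0
  have h1 : a * τ⁻¹ ∈ VE := hτgen a ha
  have e1 : algebraMap E F a = algebraMap E F (a * τ⁻¹) * algebraMap E F τ := by
    rw [← map_mul, inv_mul_cancel_right₀ hτ0]
  refine ⟨?_, ?_⟩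
  · rw [e1, mul_assoc]
    exact s36xa_nu_mul' Wa (hVa _ h1) (s36xa_nu_mul Wa hτa hy1)
  · have : algebraMap E F a * y * (algebraMap E F τ)⁻¹ = algebraMap E F (a * τ⁻¹) * y := by
      rw [e1]
      field_simp
    rw [this]
    exact Wc.mul_mem _ _ (hVc _ h1) hy2

include hτ0 hτc hza hzc hea hec in
theorem s36xa_hb : ∀ i, s36xaFam n e z i ∈ s36xaB Wa Wc := by
  have he_c := s36xa_e_nu Wc τ hτ0 hτc e hec
  have he_a := s36xa_e_mem_a Wa e hea
  have hec' : e ∈ Wc := tve_nonunits_le he_c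
  intro i
  rcases i with ⟨⟩ | j
  · exact Subring.mem_inf.mpr ⟨he_a, hec'⟩
  · refine Subring.mem_inf.mpr ⟨?_, ?_⟩
    · exact Wa.mul_mem _ _ (Wa.toSubring.sub_mem Wa.one_mem he_a) (pow_mem hza _)
    · exact Wc.mul_mem _ _ (Wc.toSubring.sub_mem Wc.one_mem hec')
        (pow_mem (tve_nonunits_le hzc) _)

include hVa hVc hτ0 hτgen hτc hz0 hza hzc hτz hea hec in
/-- the hypothesis `hind` of `S36/NormResTri` for the family `s36xaFam` -/
theorem s36xa_hind : ∀ c : Unit ⊕ Fin n → E, (∀ i, c i ∈ VE) →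
    ∑ i, c i • s36xaFam n e z i ∈ s36xaJ Wa Wc (algebraMap E F τ) → ∀ i, c i ∈ VE.nonunits :=
  fun c hc hS => s36xa_hindA VE Wa Wc hVa hVc τ hτ0 hτgen hτc n e z hz0 hza hzc hτz hea hec c hc
    hS.1 hS.2

omit [Field F] in
theorem s36xa_card (n : ℕ) : Fintype.card (Unit ⊕ Fin n) = n + 1 := by
  rw [Fintype.card_sum, Fintype.card_unit, Fintype.card_fin, add_comm]

include hVa hVc hτ0 hτgen hτa hτc hz0 hza hzc hτz hea hec in
/-- `Wa ∩ Wc` is contained in every valuation subring of `F` containing `VE`. -/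
theorem s36xa_infA (hcard : n + 1 = Module.finrank E F) (W : ValuationSubring F)
    (hW : ∀ a ∈ VE, algebraMap E F a ∈ W) (u : F) (hua : u ∈ Wa) (huc : u ∈ Wc) : u ∈ W :=
  s36xa_mem VE (s36xaB Wa Wc) (s36xaJ Wa Wc (algebraMap E F τ))
    (s36xa_hJ VE Wa Wc hVa hVc τ hτ0 hτgen hτa) (s36xaFam n e z)
    (s36xa_hb Wa Wc τ hτ0 hτc n e z hza hzc hea hec)
    (s36xa_hind VE Wa Wc hVa hVc τ hτ0 hτgen hτc n e z hz0 hza hzc hτz hea hec)
    ((s36xa_card n).trans hcard) W hW u (Subring.mem_inf.mpr ⟨hua, huc⟩)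

include hVa hVc hτ0 hτgen hτa hτc hz0 hza hzc hτz hea hec in
/-- **Exhaustion, shape A**: every valuation subring of `F` containing `VE` contains `Wa` or
`Wc`. -/
theorem s36xa_exhA (hcard : n + 1 = Module.finrank E F) (W : ValuationSubring F)
    (hW : ∀ a ∈ VE, algebraMap E F a ∈ W) : Wa ≤ W ∨ Wc ≤ W :=
  tve_le_of_inf_le Wa Wc W (fun u h1 h2 =>
    s36xa_infA VE Wa Wc hVa hVc τ hτ0 hτgen hτa hτc n e z hz0 hza hzc hτz hea hec hcard W hW u
      h1 h2)

include hVa hVc hτ0 hτgen hτa hτc hz0 hza hzc hτz hea hec in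
/-- **Exhaustion, shape A, equality form.** -/
theorem s36xa_exhA_eq (hcard : n + 1 = Module.finrank E F)
    (hgena : ∀ x ∈ Wa.nonunits, x * (algebraMap E F τ)⁻¹ ∈ Wa)
    (hgenc : ∀ x ∈ Wc.nonunits, x * z⁻¹ ∈ Wc)
    (hzτ : z ^ n * (algebraMap E F τ)⁻¹ ∈ Wc)
    (W : ValuationSubring F) (hW : ∀ a ∈ VE, algebraMap E F a ∈ W)
    (hτW : (algebraMap E F τ)⁻¹ ∉ W) : W = Wa ∨ W = Wc := by
  rcases s36xa_exhA VE Wa Wc hVa hVc τ hτ0 hτgen hτa hτc n e z hz0 hza hzc hτz hea hec hcard W hW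
    with h | h
  · exact Or.inl (tve_eq_of_le Wa W h _ hgena hτW)
  · refine Or.inr (tve_eq_of_le Wc W h z hgenc ?_)
    intro hz
    apply hτW
    have : (algebraMap E F τ)⁻¹ = (z⁻¹) ^ n * (z ^ n * (algebraMap E F τ)⁻¹) := by
      rw [inv_pow, ← mul_assoc, inv_mul_cancel₀ (pow_ne_zero n hz0), one_mul]
    rw [this]
    exact W.mul_mem _ _ (pow_mem hz n) (h hzτ)

include hVa hVc hτ0 hτgen hτa hτc hz0 hza hzc hτz hea hec in
/-- **Residue degree one on `Wa ∩ Wc`**, and the generator of `𝔪_{Wc}` on `Wa ∩ Wc`. -/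
theorem s36xa_res_inf (hn : 0 < n) (hcard : n + 1 = Module.finrank E F) (x : F) (hxa : x ∈ Wa)
    (hxc : x ∈ Wc) :
    ∃ a c : E, a ∈ VE ∧ c ∈ VE ∧ x - algebraMap E F a ∈ Wa.nonunits ∧
      x - algebraMap E F c ∈ Wc.nonunits ∧ (x ∈ Wc.nonunits → x * z⁻¹ ∈ Wc) := by
  classical
  have hτF0 : algebraMap E F τ ≠ 0 := (_root_.map_ne_zero _).mpr hτ0
  have he_c := s36xa_e_nu Wc τ hτ0 hτc e hec
  have he_a := s36xa_e_mem_a Wa e hea
  have hzc' : z ∈ Wc := tve_nonunits_le hzc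
  -- coordinates of `1`
  set d : Unit ⊕ Fin n → E := Sum.elim (fun _ => 1) (fun j => if (j : ℕ) = 0 then 1 else 0)
    with hd
  have hd1 : ∑ i, d i • s36xaFam n e z i = 1 := by
    rw [s36xaFam_sum]
    have h1 : ∑ j : Fin n, algebraMap E F (d (Sum.inr j)) * z ^ (j : ℕ) = 1 := by
      rw [Finset.sum_eq_single (⟨0, hn⟩ : Fin n)]
      · simp [hd]
      · intro j _ hj
        have : (j : ℕ) ≠ 0 := fun h => hj (Fin.ext h)
        simp [hd, this]
      · intro h
        exact absurd (Finset.mem_univ _) h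
    rw [h1]
    simp [hd]
  have hdm : ∀ i, d i ∈ VE := by
    intro i
    rcases i with ⟨⟩ | j
    · exact VE.one_mem
    · show (if (j : ℕ) = 0 then (1 : E) else 0) ∈ VE
      split_ifs
      · exact VE.one_mem
      · exact VE.zero_mem
  obtain ⟨c, hc, hcx⟩ := s36xa_coords VE (s36xaB Wa Wc) (s36xaJ Wa Wc (algebraMap E F τ))
    (s36xa_hJ VE Wa Wc hVa hVc τ hτ0 hτgen hτa) (s36xaFam n e z)
    (s36xa_hb Wa Wc τ hτ0 hτc n e z hza hzc hea hec)
    (s36xa_hind VE Wa Wc hVa hVc τ hτ0 hτgen hτc n e z hz0 hza hzc hτz hea hec)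
    ((s36xa_card n).trans hcard) d hdm hd1 x (Subring.mem_inf.mpr ⟨hxa, hxc⟩)
  rw [s36xaFam_sum] at hcx
  set T := ∑ j : Fin n, algebraMap E F (c (Sum.inr j)) * z ^ (j : ℕ) with hT
  have hTa : T ∈ Wa := sum_mem (fun j _ => Wa.mul_mem _ _ (hVa _ (hc _)) (pow_mem hza _))
  set R := ∑ j ∈ Finset.univ.erase (⟨0, hn⟩ : Fin n),
    algebraMap E F (c (Sum.inr j)) * z ^ (j : ℕ) with hR
  have hsplit : T = algebraMap E F (c (Sum.inr ⟨0, hn⟩)) + R := by
    rw [hT, hR, ← Finset.add_sum_erase Finset.univ _ (Finset.mem_univ (⟨0, hn⟩ : Fin n))]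
    simp
  -- every term of `R` is a multiple of `z`
  have hterm : ∀ j ∈ Finset.univ.erase (⟨0, hn⟩ : Fin n),
      algebraMap E F (c (Sum.inr j)) * z ^ (j : ℕ) * z⁻¹ ∈ Wc := by
    intro j hj
    have hj0 : (j : ℕ) ≠ 0 := fun h => (Finset.ne_of_mem_erase hj) (Fin.ext h)
    obtain ⟨k, hk⟩ := Nat.exists_eq_succ_of_ne_zero hj0
    have : algebraMap E F (c (Sum.inr j)) * z ^ (j : ℕ) * z⁻¹
        = algebraMap E F (c (Sum.inr j)) * z ^ k := by
      rw [hk, pow_succ]
      field_simp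
    rw [this]
    exact Wc.mul_mem _ _ (hVc _ (hc _)) (pow_mem hzc' _)
  have hRz : R * z⁻¹ ∈ Wc := by
    rw [hR, Finset.sum_mul]
    exact sum_mem hterm
  have hRnu : R ∈ Wc.nonunits := by
    have : R = z * (R * z⁻¹) := by
      field_simp
    rw [this]
    exact s36xa_nu_mul Wc hzc hRz
  have h2 : x - algebraMap E F (c (Sum.inr ⟨0, hn⟩)) ∈ Wc.nonunits := by
    have : x - algebraMap E F (c (Sum.inr ⟨0, hn⟩))
        = e * (algebraMap E F (c (Sum.inl ())) - algebraMap E F (c (Sum.inr ⟨0, hn⟩)) - R)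
          + R := by
      rw [← hcx, hsplit]
      ring
    rw [this]
    exact s36xa_nu_add Wc (s36xa_nu_mul Wc he_c (Wc.toSubring.sub_mem
      (Wc.toSubring.sub_mem (hVc _ (hc _)) (hVc _ (hc _))) (tve_nonunits_le hRnu))) hRnu
  refine ⟨c (Sum.inl ()), c (Sum.inr ⟨0, hn⟩), hc _, hc _, ?_, h2, ?_⟩
  · have : x - algebraMap E F (c (Sum.inl ()))
        = (e - 1) * (algebraMap E F (c (Sum.inl ())) - T) := by
      rw [← hcx]
      ring
    rw [this]
    exact s36xa_nu_mul Wa hea (Wa.toSubring.sub_mem (hVa _ (hc _)) hTa)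
  · intro hxnu
    have hc0' : c (Sum.inr ⟨0, hn⟩) ∈ VE.nonunits := by
      apply s36xa_nonunit_of_map VE Wc hVc _ (hc _)
      have : algebraMap E F (c (Sum.inr ⟨0, hn⟩))
          = x - (x - algebraMap E F (c (Sum.inr ⟨0, hn⟩))) := by ring
      rw [this]
      exact s36xa_nu_sub Wc hxnu h2
    have hτz1 : algebraMap E F τ * z⁻¹ ∈ Wc := by
      have : algebraMap E F τ * z⁻¹ = algebraMap E F τ * (z ^ n)⁻¹ * z ^ (n - 1) := by
        rw [← pow_sub_one_mul hn.ne' z]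
        have hz1 : z ^ (n - 1) ≠ 0 := pow_ne_zero _ hz0
        field_simp
      rw [this]
      exact Wc.mul_mem _ _ hτz (pow_mem hzc' _)
    have h3 : algebraMap E F (c (Sum.inr ⟨0, hn⟩)) * z⁻¹ ∈ Wc := by
      have : algebraMap E F (c (Sum.inr ⟨0, hn⟩)) * z⁻¹
          = algebraMap E F (c (Sum.inr ⟨0, hn⟩) * τ⁻¹) * (algebraMap E F τ * z⁻¹) := by
        rw [map_mul, map_inv₀]
        field_simp
      rw [this]
      exact Wc.mul_mem _ _ (hVc _ (hτgen _ hc0')) hτz1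
    have : x * z⁻¹ = algebraMap E F (c (Sum.inl ())) * (e * (algebraMap E F τ)⁻¹)
          * (algebraMap E F τ * z⁻¹)
        + (1 - e) * (algebraMap E F (c (Sum.inr ⟨0, hn⟩)) * z⁻¹ + R * z⁻¹) := by
      rw [← hcx, hsplit]
      field_simp
    rw [this]
    exact Wc.add_mem _ _ (Wc.mul_mem _ _ (Wc.mul_mem _ _ (hVc _ (hc _)) hec) hτz1)
      (Wc.mul_mem _ _ (Wc.toSubring.sub_mem Wc.one_mem (tve_nonunits_le he_c))
        (Wc.add_mem _ _ h3 hRz))

include hτ0 hτc hea hec in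
/-- approximation of an element of `Wc` by an element of `Wa ∩ Wc` -/
theorem s36xa_approx_c (hgena : ∀ x ∈ Wa.nonunits, x * (algebraMap E F τ)⁻¹ ∈ Wa)
    (harch_a : ∀ x : F, ∃ N : ℕ, x * algebraMap E F τ ^ N ∈ Wa) (x : F) (hx : x ∈ Wc) :
    ∃ N : ℕ, x * (1 - e) ^ N ∈ Wa ∧ x * (1 - e) ^ N ∈ Wc ∧
      x - x * (1 - e) ^ N ∈ Wc.nonunits := by
  have hτF0 : algebraMap E F τ ≠ 0 := (_root_.map_ne_zero _).mpr hτ0
  have he_c := s36xa_e_nu Wc τ hτ0 hτc e hec
  have hec' : e ∈ Wc := tve_nonunits_le he_c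
  have h1e : 1 - e ∈ Wc := Wc.toSubring.sub_mem Wc.one_mem hec'
  obtain ⟨N, hN⟩ := harch_a x
  refine ⟨N, ?_, Wc.mul_mem _ _ hx (pow_mem h1e N), ?_⟩
  · have h1 : (1 - e) * (algebraMap E F τ)⁻¹ ∈ Wa := by
      apply hgena
      have : 1 - e = -(e - 1) := by ring
      rw [this]
      exact s36xa_nu_neg Wa hea
    have : x * (1 - e) ^ N
        = x * algebraMap E F τ ^ N * ((1 - e) * (algebraMap E F τ)⁻¹) ^ N := by
      rw [mul_pow, inv_pow]
      field_simp
    rw [this]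
    exact Wa.mul_mem _ _ hN (pow_mem h1 N)
  · have h2 : ∀ N : ℕ, 1 - (1 - e) ^ N ∈ Wc.nonunits := by
      intro N
      induction N with
      | zero =>
        rw [pow_zero, sub_self]
        exact Wc.nonunits.zero_mem
      | succ N ih =>
        have : 1 - (1 - e) ^ (N + 1) = (1 - (1 - e) ^ N) * (1 - e) + e := by ring
        rw [this]
        exact s36xa_nu_add Wc (s36xa_nu_mul Wc ih h1e) he_c
    have : x - x * (1 - e) ^ N = x * (1 - (1 - e) ^ N) := by ring
    rw [this]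
    exact s36xa_nu_mul' Wc hx (h2 N)

include hτ0 hea hec in
/-- approximation of an element of `Wa` by an element of `Wa ∩ Wc` -/
theorem s36xa_approx_a (harch_c : ∀ x : F, ∃ N : ℕ, x * algebraMap E F τ ^ N ∈ Wc) (x : F)
    (hx : x ∈ Wa) :
    ∃ N : ℕ, x * e ^ N ∈ Wa ∧ x * e ^ N ∈ Wc ∧ x - x * e ^ N ∈ Wa.nonunits := by
  have hτF0 : algebraMap E F τ ≠ 0 := (_root_.map_ne_zero _).mpr hτ0
  have he_a := s36xa_e_mem_a Wa e hea
  obtain ⟨N, hN⟩ := harch_c x
  refine ⟨N, Wa.mul_mem _ _ hx (pow_mem he_a N), ?_, ?_⟩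
  · have : x * e ^ N = x * algebraMap E F τ ^ N * (e * (algebraMap E F τ)⁻¹) ^ N := by
      rw [mul_pow, inv_pow]
      field_simp
    rw [this]
    exact Wc.mul_mem _ _ hN (pow_mem hec N)
  · have h2 : ∀ N : ℕ, 1 - e ^ N ∈ Wa.nonunits := by
      intro N
      induction N with
      | zero =>
        rw [pow_zero, sub_self]
        exact Wa.nonunits.zero_mem
      | succ N ih =>
        have : 1 - e ^ (N + 1) = (1 - e ^ N) * e - (e - 1) := by ring
        rw [this]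
        exact s36xa_nu_sub Wa (s36xa_nu_mul Wa ih he_a) hea
    have : x - x * e ^ N = x * (1 - e ^ N) := by ring
    rw [this]
    exact s36xa_nu_mul' Wa hx (h2 N)

include hVa hVc hτ0 hτgen hτa hτc hz0 hza hzc hτz hea hec in
/-- **Residue degree one of `Wc` over `VE`.** -/
theorem s36xa_resA_c (hn : 0 < n) (hcard : n + 1 = Module.finrank E F)
    (hgena : ∀ x ∈ Wa.nonunits, x * (algebraMap E F τ)⁻¹ ∈ Wa)
    (harch_a : ∀ x : F, ∃ N : ℕ, x * algebraMap E F τ ^ N ∈ Wa) (x : F) (hx : x ∈ Wc) :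
    ∃ a ∈ VE, x - algebraMap E F a ∈ Wc.nonunits := by
  obtain ⟨N, h1, h2, h3⟩ := s36xa_approx_c Wa Wc τ hτ0 hτc e hea hec hgena harch_a x hx
  obtain ⟨a, c, -, hc, -, hc', -⟩ := s36xa_res_inf VE Wa Wc hVa hVc τ hτ0 hτgen hτa hτc n e z
    hz0 hza hzc hτz hea hec hn hcard (x * (1 - e) ^ N) h1 h2
  refine ⟨c, hc, ?_⟩
  have : x - algebraMap E F c = (x - x * (1 - e) ^ N) + (x * (1 - e) ^ N - algebraMap E F c) := by
    ring
  rw [this]
  exact s36xa_nu_add Wc h3 hc'

include hVa hVc hτ0 hτgen hτa hτc hz0 hza hzc hτz hea hec in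
/-- **Residue degree one of `Wa` over `VE`.** -/
theorem s36xa_resA_a (hn : 0 < n) (hcard : n + 1 = Module.finrank E F)
    (harch_c : ∀ x : F, ∃ N : ℕ, x * algebraMap E F τ ^ N ∈ Wc) (x : F) (hx : x ∈ Wa) :
    ∃ a ∈ VE, x - algebraMap E F a ∈ Wa.nonunits := by
  obtain ⟨N, h1, h2, h3⟩ := s36xa_approx_a Wa Wc τ hτ0 e hea hec harch_c x hx
  obtain ⟨a, c, ha, -, ha', -, -⟩ := s36xa_res_inf VE Wa Wc hVa hVc τ hτ0 hτgen hτa hτc n e z
    hz0 hza hzc hτz hea hec hn hcard (x * e ^ N) h1 h2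
  refine ⟨a, ha, ?_⟩
  have : x - algebraMap E F a = (x - x * e ^ N) + (x * e ^ N - algebraMap E F a) := by
    ring
  rw [this]
  exact s36xa_nu_add Wa h3 ha'

include hVa hVc hτ0 hτgen hτa hτc hz0 hza hzc hτz hea hec in
/-- **`𝔪_{Wc} = z Wc`**. -/
theorem s36xa_genc (hn : 0 < n) (hcard : n + 1 = Module.finrank E F)
    (hgena : ∀ x ∈ Wa.nonunits, x * (algebraMap E F τ)⁻¹ ∈ Wa)
    (harch_a : ∀ x : F, ∃ N : ℕ, x * algebraMap E F τ ^ N ∈ Wa) (x : F)
    (hx : x ∈ Wc.nonunits) : x * z⁻¹ ∈ Wc := by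
  have he_c := s36xa_e_nu Wc τ hτ0 hτc e hec
  have h1e : 1 - e ∈ Wc := Wc.toSubring.sub_mem Wc.one_mem (tve_nonunits_le he_c)
  obtain ⟨N, h1, h2, -⟩ := s36xa_approx_c Wa Wc τ hτ0 hτc e hea hec hgena harch_a x
    (tve_nonunits_le hx)
  obtain ⟨a, c, -, -, -, -, hgen⟩ := s36xa_res_inf VE Wa Wc hVa hVc τ hτ0 hτgen hτa hτc n e z
    hz0 hza hzc hτz hea hec hn hcard (x * (1 - e) ^ N) h1 h2
  have h4 := hgen (s36xa_nu_mul Wc hx (pow_mem h1e N))
  obtain ⟨hne, hinv⟩ := s36xa_one_sub Wc he_c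
  have : x * z⁻¹ = x * (1 - e) ^ N * z⁻¹ * ((1 - e)⁻¹) ^ N := by
    rw [inv_pow]
    have hN0 : (1 - e) ^ N ≠ 0 := pow_ne_zero _ hne
    field_simp
  rw [this]
  exact Wc.mul_mem _ _ h4 (pow_mem hinv N)

end ShapeA

/-! ### Shape B: one valuation subring -/

section ShapeB

variable {E F : Type*} [Field E] [Field F] [Algebra E F]
  (VE : ValuationSubring E) (Wb : ValuationSubring F)
  (hlie : ∀ a ∈ VE.nonunits, algebraMap E F a ∈ Wb.nonunits)
  {ι : Type*} [Fintype ι] (b : ι → F) (hb : ∀ i, b i ∈ Wb)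
  (hind : ∀ c : ι → E, (∀ i, c i ∈ VE) → ∑ i, c i • b i ∈ Wb.nonunits → ∀ i, c i ∈ VE.nonunits)

/-- the set of non-units of `Wb` -/
def s36xaJB (Wb : ValuationSubring F) : Set F := {y | y ∈ Wb.nonunits}

include hlie in
theorem s36xa_hJB : ∀ a ∈ VE.nonunits, ∀ y ∈ Wb.toSubring,
    algebraMap E F a * y ∈ s36xaJB Wb :=
  fun a ha _ hy => s36xa_nu_mul Wb (hlie a ha) hy

include hlie hb hind in
/-- **Exhaustion, shape B**: every valuation subring of `F` containing `VE` contains `Wb`. -/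
theorem s36xa_exhB [Nonempty ι] (hcard : Fintype.card ι = Module.finrank E F)
    (W : ValuationSubring F) (hW : ∀ a ∈ VE, algebraMap E F a ∈ W) : Wb ≤ W :=
  fun u hu => s36xa_mem VE Wb.toSubring (s36xaJB Wb) (s36xa_hJB VE Wb hlie) b hb hind hcard W hW
    u hu

include hlie hb hind in
/-- **Exhaustion, shape B, equality form.** -/
theorem s36xa_exhB_eq [Nonempty ι] (hcard : Fintype.card ι = Module.finrank E F) (t : F)
    (hgen : ∀ x ∈ Wb.nonunits, x * t⁻¹ ∈ Wb)
    (W : ValuationSubring F) (hW : ∀ a ∈ VE, algebraMap E F a ∈ W) (htW : t⁻¹ ∉ W) : W = Wb :=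
  tve_eq_of_le Wb W (s36xa_exhB VE Wb hlie b hb hind hcard W hW) t hgen htW

omit [Fintype ι] in
/-- **The power family of a purely inseparable residue extension**: if `x ^ p ≡ a` modulo
`𝔪_{Wb}` (`a ∈ VE`, `p` the residue characteristic) and `1, a, …, a ^ (p - 1)` are independent
over the `p`-th powers modulo `𝔪_{VE}`, then `1, x, …, x ^ (p - 1)` are independent modulo
`𝔪_{Wb}`. -/
theorem s36xa_hindB_pow (hVb : ∀ a ∈ VE, algebraMap E F a ∈ Wb) (p : ℕ) [hp : Fact p.Prime]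
    (hpW : (p : F) ∈ Wb.nonunits) (x : F) (hx : x ∈ Wb) (a : E) (ha : a ∈ VE)
    (hxa : x ^ p - algebraMap E F a ∈ Wb.nonunits)
    (hnot : ∀ c : Fin p → E, (∀ i, c i ∈ VE) → ∑ i, c i ^ p * a ^ (i : ℕ) ∈ VE.nonunits →
      ∀ i, c i ∈ VE.nonunits)
    (c : Fin p → E) (hc : ∀ i, c i ∈ VE) (hS : ∑ i, c i • x ^ (i : ℕ) ∈ Wb.nonunits) :
    ∀ i, c i ∈ VE.nonunits := by
  apply hnot c hc
  apply s36xa_nonunit_of_map VE Wb hVb _
    (sum_mem (fun i _ => mul_mem (pow_mem (hc i) p) (pow_mem ha _)))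
  set res := IsLocalRing.residue Wb with hres
  have hchar : CharP (IsLocalRing.ResidueField Wb) p := by
    refine (CharP.charP_iff_prime_eq_zero hp.out).mpr ?_
    have h1 : res ((p : ℕ) : Wb) = 0 := by
      rw [hres, IsLocalRing.residue_eq_zero_iff, ← ValuationSubring.coe_mem_nonunits_iff]
      simpa using hpW
    simpa using h1
  -- the elements in `Wb`
  set xb : Wb := ⟨x, hx⟩ with hxb
  set ab : Wb := ⟨algebraMap E F a, hVb _ ha⟩ with hab
  set cb : Fin p → Wb := fun i => ⟨algebraMap E F (c i), hVb _ (hc i)⟩ with hcb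
  have h1 : res (∑ i, cb i * xb ^ (i : ℕ)) = 0 := by
    rw [hres, IsLocalRing.residue_eq_zero_iff, ← ValuationSubring.coe_mem_nonunits_iff]
    have : ((∑ i, cb i * xb ^ (i : ℕ) : Wb) : F) = ∑ i, c i • x ^ (i : ℕ) := by
      rw [AddSubmonoidClass.coe_finsetSum]
      exact Finset.sum_congr rfl (fun i _ => by rw [Algebra.smul_def]; rfl)
    rw [this]
    exact hS
  have h2 : res (xb ^ p) = res ab := by
    rw [← sub_eq_zero, ← map_sub, hres, IsLocalRing.residue_eq_zero_iff,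
      ← ValuationSubring.coe_mem_nonunits_iff]
    exact hxa
  have h3 : res (∑ i, cb i ^ p * ab ^ (i : ℕ)) = 0 := by
    have e1 : res (∑ i, cb i ^ p * ab ^ (i : ℕ)) = (res (∑ i, cb i * xb ^ (i : ℕ))) ^ p := by
      rw [map_sum, map_sum, sum_pow_char]
      refine Finset.sum_congr rfl (fun i _ => ?_)
      have h2' : res ab = res xb ^ p := by rw [← h2, map_pow]
      rw [map_mul, map_pow, map_pow, h2', map_mul, map_pow]
      ring
    rw [e1, h1, zero_pow hp.out.ne_zero]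
  have h4 : ((∑ i, cb i ^ p * ab ^ (i : ℕ) : Wb) : F) ∈ Wb.nonunits := by
    rw [ValuationSubring.coe_mem_nonunits_iff, ← IsLocalRing.residue_eq_zero_iff]
    exact h3
  have h5 : ((∑ i, cb i ^ p * ab ^ (i : ℕ) : Wb) : F)
      = algebraMap E F (∑ i, c i ^ p * a ^ (i : ℕ)) := by
    rw [AddSubmonoidClass.coe_finsetSum, map_sum]
    exact Finset.sum_congr rfl (fun i _ => by
      rw [map_mul, map_pow, map_pow]
      rfl)
  rw [← h5]
  exact h4

end ShapeB

/-! ### Rank one -/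

section Rank

variable {E F : Type*} [Field E] [Field F] [Algebra E F]

/-- **The archimedean property goes up along algebraic extensions.** -/
theorem s36xa_arch (VE : ValuationSubring E) (W : ValuationSubring F)
    (hV : ∀ a ∈ VE, algebraMap E F a ∈ W) (τ : E)
    (harchE : ∀ a : E, ∃ N : ℕ, a * τ ^ N ∈ VE) (hτ : τ ∈ VE)
    (x : F) (hx : IsIntegral E x) : ∃ N : ℕ, x * algebraMap E F τ ^ N ∈ W := by
  classical
  by_cases hxW : x ∈ W
  · exact ⟨0, by rw [pow_zero, mul_one]; exact hxW⟩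
  have hxinv : x⁻¹ ∈ W := tve_nonunits_le (tve_inv_mem_nonunits hxW)
  have hx0 : x ≠ 0 := fun h0 => hxW (h0 ▸ W.zero_mem)
  obtain ⟨P, hP, hPx⟩ := hx
  set d := P.natDegree with hd
  -- a common denominator for the coefficients
  have hden : ∃ N : ℕ, ∀ i ∈ Finset.range d, P.coeff i * τ ^ N ∈ VE := by
    have key : ∀ s : Finset ℕ, ∃ N : ℕ, ∀ i ∈ s, P.coeff i * τ ^ N ∈ VE := by
      intro s
      induction s using Finset.induction_on with
      | empty => exact ⟨0, fun i hi => absurd hi (Finset.notMem_empty i)⟩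
      | insert j s hj ih =>
        obtain ⟨N, hN⟩ := ih
        obtain ⟨N', hN'⟩ := harchE (P.coeff j)
        refine ⟨N + N', fun i hi => ?_⟩
        rcases Finset.mem_insert.mp hi with rfl | hi
        · have : P.coeff i * τ ^ (N + N') = P.coeff i * τ ^ N' * τ ^ N := by
            rw [pow_add]
            ring
          rw [this]
          exact mul_mem hN' (pow_mem hτ N)
        · have : P.coeff i * τ ^ (N + N') = P.coeff i * τ ^ N * τ ^ N' := by
            rw [pow_add]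
            ring
          rw [this]
          exact mul_mem (hN i hi) (pow_mem hτ N')
    exact key _
  obtain ⟨N, hN⟩ := hden
  refine ⟨N, ?_⟩
  -- `x ^ d = - ∑_{i < d} a_i x ^ i`
  have hsum : x ^ d + ∑ i ∈ Finset.range d, algebraMap E F (P.coeff i) * x ^ i = 0 := by
    have h1 := hPx
    rw [← Polynomial.aeval_def, hP.as_sum, map_add, map_pow, aeval_X, map_sum] at h1
    rw [← h1]
    congr 1
    exact Finset.sum_congr rfl (fun i _ => by rw [map_mul, aeval_C, map_pow, aeval_X])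
  have hd0 : d ≠ 0 := by
    intro h0
    rw [h0, pow_zero, Finset.range_zero, Finset.sum_empty, add_zero] at hsum
    exact one_ne_zero hsum
  have hxeq : x = -∑ i ∈ Finset.range d, algebraMap E F (P.coeff i) * (x⁻¹) ^ (d - 1 - i) := by
    have h2 : x ^ d = -∑ i ∈ Finset.range d, algebraMap E F (P.coeff i) * x ^ i :=
      eq_neg_of_add_eq_zero_left hsum
    have h3 : x = x ^ d * (x⁻¹) ^ (d - 1) := by
      rw [← pow_sub_one_mul hd0 x, inv_pow]
      have : x ^ (d - 1) ≠ 0 := pow_ne_zero _ hx0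
      field_simp
    calc x = x ^ d * (x⁻¹) ^ (d - 1) := h3
      _ = (-∑ i ∈ Finset.range d, algebraMap E F (P.coeff i) * x ^ i) * (x⁻¹) ^ (d - 1) := by
        rw [h2]
      _ = -∑ i ∈ Finset.range d, algebraMap E F (P.coeff i) * (x⁻¹) ^ (d - 1 - i) := by
        rw [neg_mul, Finset.sum_mul]
        congr 1
        refine Finset.sum_congr rfl (fun i hi => ?_)
        have hi' : i ≤ d - 1 := by
          have := Finset.mem_range.mp hi
          omega
        have h4 : (x⁻¹) ^ (d - 1) = (x⁻¹) ^ i * (x⁻¹) ^ (d - 1 - i) := by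
          rw [← pow_add]
          congr 1
          omega
        have hxi : x ^ i ≠ 0 := pow_ne_zero _ hx0
        rw [h4, inv_pow x i, ← mul_assoc, mul_assoc (algebraMap E F (P.coeff i)),
          mul_inv_cancel₀ hxi, mul_one]
  rw [hxeq, neg_mul, Finset.sum_mul]
  refine W.toSubring.neg_mem (sum_mem (fun i hi => ?_))
  have : algebraMap E F (P.coeff i) * (x⁻¹) ^ (d - 1 - i) * algebraMap E F τ ^ N
      = algebraMap E F (P.coeff i * τ ^ N) * (x⁻¹) ^ (d - 1 - i) := by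
    rw [map_mul, map_pow]
    ring
  rw [this]
  exact W.mul_mem _ _ (hV _ (hN i hi)) (pow_mem hxinv _)

omit [Field E] [Algebra E F] in
/-- **Decomposition**: in a valuation subring `W` with `𝔪_W = z W` which is archimedean with
respect to `t` (`z ^ n ∈ t W`), every non-zero element is a unit times a power of `z`. -/
theorem s36xa_dec (W : ValuationSubring F) (t z : F) (n : ℕ) (hz0 : z ≠ 0)
    (hgen : ∀ x ∈ W.nonunits, x * z⁻¹ ∈ W)
    (hzt : z ^ n * t⁻¹ ∈ W) (ht0 : t ≠ 0)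
    (harch : ∀ x : F, ∃ N : ℕ, x * t ^ N ∈ W) (x : F) (hx0 : x ≠ 0) :
    ∃ j : ℤ, x * z ^ j ∈ W ∧ (x * z ^ j)⁻¹ ∈ W := by
  classical
  -- first for `x ∈ W`: descend
  have key : ∀ y : F, y ≠ 0 → y ∈ W → ∃ k : ℕ, y * (z⁻¹) ^ k ∈ W ∧ (y * (z⁻¹) ^ k)⁻¹ ∈ W := by
    intro y hy0 hyW
    obtain ⟨N, hN⟩ := harch y⁻¹
    -- `y⁻¹ z ^ (n N) ∈ W`
    have hN' : y⁻¹ * z ^ (n * N) ∈ W := by
      have : y⁻¹ * z ^ (n * N) = y⁻¹ * t ^ N * (z ^ n * t⁻¹) ^ N := by
        rw [mul_pow, inv_pow, pow_mul]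
        have : t ^ N ≠ 0 := pow_ne_zero _ ht0
        field_simp
      rw [this]
      exact W.mul_mem _ _ hN (pow_mem hzt N)
    by_contra hcon
    push Not at hcon
    have hall : ∀ k : ℕ, y * (z⁻¹) ^ k ∈ W.nonunits := by
      intro k
      induction k with
      | zero =>
        rw [pow_zero, mul_one]
        by_contra hnu
        exact hcon 0 (by rw [pow_zero, mul_one]; exact hyW)
          (by rw [pow_zero, mul_one]; exact tve_inv_mem hyW hnu)
      | succ k ih =>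
        have h1 : y * (z⁻¹) ^ (k + 1) ∈ W := by
          have := hgen _ ih
          rwa [mul_assoc, ← pow_succ] at this
        by_contra hnu
        exact hcon (k + 1) h1 (tve_inv_mem h1 hnu)
    have h2 := hall (n * N)
    have h3 : (1 : F) ∈ W.nonunits := by
      have : (1 : F) = y * (z⁻¹) ^ (n * N) * (y⁻¹ * z ^ (n * N)) := by
        rw [inv_pow]
        have : z ^ (n * N) ≠ 0 := pow_ne_zero _ hz0
        field_simp
      rw [this]
      exact s36xa_nu_mul W h2 hN'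
    rw [ValuationSubring.mem_nonunits_iff, map_one] at h3
    exact lt_irrefl _ h3
  rcases W.mem_or_inv_mem x with hxW | hxW
  · obtain ⟨k, h1, h2⟩ := key x hx0 hxW
    refine ⟨-(k : ℤ), ?_, ?_⟩
    · rwa [zpow_neg, zpow_natCast, ← inv_pow]
    · rwa [zpow_neg, zpow_natCast, ← inv_pow]
  · obtain ⟨k, h1, h2⟩ := key x⁻¹ (inv_ne_zero hx0) hxW
    refine ⟨(k : ℤ), ?_, ?_⟩
    · have : x * z ^ (k : ℤ) = (x⁻¹ * (z⁻¹) ^ k)⁻¹ := by
        rw [zpow_natCast, mul_inv, inv_inv, inv_pow, inv_inv]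
      rw [this]
      exact h2
    · have : (x * z ^ (k : ℤ))⁻¹ = x⁻¹ * (z⁻¹) ^ k := by
        rw [zpow_natCast, mul_inv, inv_pow]
      rw [this]
      exact h1

end Rank

end Fermat.Agent.S36
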