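import Mathlib
import Fermat.Agent.S35.GaussSep
import Fermat.Agent.S36.AbsNorm3
import Fermat.Agent.S36.Const3
import Fermat.Agent.S36.Exh3Abs
import Fermat.Agent.S36.Deg3

/-!
# S36, work package [APP3-INST]: weak approximation at the three valuations of level `M q²`

Output: the binder `happ` of `s36tor_main` (S36/Toric3) at the carrier, and the three
decomposition statements (`hdec`) in the binder shapes of `S36/Vert3`.

Abstract part (`F` a field):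
* `s36ai_gen_of_dec`, `s36ai_kill_of_dec`: the `S35` discrete shape (`hdec`) alone gives the
  generator property and `s36n3Kill`;
* `s36ai_kill_comap`, `s36ai_dec_comap`: both go through a ring homomorphism `w` with
  `x ∈ W ↔ w x ∈ V` (the swap);
* `s36ai_dec_c`, `s36ai_kill_c`: a valuation subring `Wc` of `F` over an archimedean `V` of `E`
  (`F` integral over `α E`), with a uniformiser `z`, `z ^ n ∈ α(p) Wc`: decomposition and kill;
* `s36ai_sep`: the three separating elements `β x`, `α y`, `α x + β y` from the six table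
  statements and a separating pair `x`, `y` of level `E`;
* `s36ai_happ_abs`: the binder `happ`.

Carrier part (`E = K0(X₀(M q))`, `F = K0(X₀(M q²))`, `α = heckeAlphaBar`, `β = heckeBetaBar`,
`Wa = va2V1 (M * q) q K0 A0`, `Wb` any valuation subring with `x ∈ Wb ↔ w x ∈ Wa` for a ring
endomorphism `w` fixing the constants, `Wc` any valuation subring with the table statements and
a uniformiser `z`):
* `s36ai_const_nu`: constants of `𝔪_{A0}` are non-units of the Gauss valuation ring;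
* `s36ai_dec_V1`, `s36ai_dec_V2` (level `M q`), `s36ai_dec_a`, `s36ai_dec_b`, `s36ai_dec_Wc`
  (level `M q²`): the decompositions (`hdec`), `τ` being the image of a constant of `K0`;
* `s36ai_kill_V1` (every level; `W_a` is the case of level `M q`), `s36ai_kill_b`,
  `s36ai_kill_Wc`; `s36ai_alpha_isIntegral`, `s36ai_q_V1`;
* `s36ai_z_ne_zero`: `z_f = β β f - α α f ≠ 0`;
* `s36ai_happ`: the binder `happ` at the carrier.
-/

set_option autoImplicit false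
set_option linter.unusedSectionVars false
set_option linter.style.haveILetI false

noncomputable section

open ModularCurve AlgebraicCurve Polynomial
open Fermat.Agent.S18 Fermat.Agent.S34 Fermat.Agent.S37 Fermat.Agent.S35

namespace Fermat.Agent.S36

local notation "Qb" => AlgebraicClosure ℚ

section Abs

variable {F : Type*} [Field F]

/-- the generator property follows from the decomposition -/
theorem s36ai_gen_of_dec (τ : F) (V : ValuationSubring F) (hτ : τ ∈ V.nonunits) (hτ0 : τ ≠ 0)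
    (hdec : ∀ z : F, z ≠ 0 → ∃ j : ℤ, z * τ ^ j ∈ V ∧ (z * τ ^ j)⁻¹ ∈ V) :
    ∀ x ∈ V.nonunits, x * τ⁻¹ ∈ V := by
  intro x hx
  by_cases hx0 : x = 0
  · rw [hx0, zero_mul]
    exact V.zero_mem
  have hτV : τ ∈ V := s35n_nu_mem V hτ
  obtain ⟨j, h1, h2⟩ := hdec x hx0
  rcases j with k | k
  · -- `x⁻¹ = (x τ^k)⁻¹ τ^k ∈ V`: impossible
    exfalso
    rcases V.mem_nonunits_iff_or.mp hx with h0 | h0
    · exact hx0 h0
    · apply h0
      have e : x⁻¹ = (x * τ ^ (Int.ofNat k))⁻¹ * τ ^ k := by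
        rw [Int.ofNat_eq_natCast, zpow_natCast, mul_inv, mul_assoc,
          inv_mul_cancel₀ (pow_ne_zero k hτ0), mul_one]
      rw [e]
      exact V.mul_mem _ _ h2 (pow_mem hτV k)
  · have e : x * τ⁻¹ = x * τ ^ (Int.negSucc k) * τ ^ k := by
      rw [zpow_negSucc, pow_succ]
      have hk : τ ^ k ≠ 0 := pow_ne_zero k hτ0
      field_simp
    rw [e]
    exact V.mul_mem _ _ h1 (pow_mem hτV k)

/-- the `S35` discrete shape alone gives the kill property -/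
theorem s36ai_kill_of_dec (τ : F) (V : ValuationSubring F) (hτ : τ ∈ V.nonunits) (hτ0 : τ ≠ 0)
    (hdec : ∀ z : F, z ≠ 0 → ∃ j : ℤ, z * τ ^ j ∈ V ∧ (z * τ ^ j)⁻¹ ∈ V) :
    s36n3Kill V :=
  s36n3_kill_of_disc τ V (s36ai_gen_of_dec τ V hτ hτ0 hdec) hτ hτ0 hdec

/-- non-units through a ring homomorphism `w` with `x ∈ W ↔ w x ∈ V` -/
theorem s36ai_nu_comap {F' : Type*} [Field F'] (w : F →+* F') (V : ValuationSubring F')
    (W : ValuationSubring F) (hW : ∀ x : F, x ∈ W ↔ w x ∈ V) (x : F) :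
    x ∈ W.nonunits ↔ w x ∈ V.nonunits :=
  (s36hc_nonunits_iff w W V (fun y => (hW y).symm) x).symm

/-- the kill property through a ring homomorphism `w` with `x ∈ W ↔ w x ∈ V` -/
theorem s36ai_kill_comap {F' : Type*} [Field F'] (w : F →+* F') (V : ValuationSubring F')
    (W : ValuationSubring F) (hW : ∀ x : F, x ∈ W ↔ w x ∈ V) (hK : s36n3Kill V) :
    s36n3Kill W := by
  intro e he z
  obtain ⟨N, hN⟩ := hK (w e) ((s36ai_nu_comap w V W hW e).mp he) (w z)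
  refine ⟨N, fun n hn => (s36ai_nu_comap w V W hW _).mpr ?_⟩
  rw [map_mul, map_pow]
  exact hN n hn

/-- the decomposition through a ring endomorphism `w` fixing `τ` with `x ∈ W ↔ w x ∈ V` -/
theorem s36ai_dec_comap (w : F →+* F) (V W : ValuationSubring F)
    (hW : ∀ x : F, x ∈ W ↔ w x ∈ V) (τ : F) (hwτ : w τ = τ)
    (hdec : ∀ z : F, z ≠ 0 → ∃ j : ℤ, z * τ ^ j ∈ V ∧ (z * τ ^ j)⁻¹ ∈ V) :
    ∀ z : F, z ≠ 0 → ∃ j : ℤ, z * τ ^ j ∈ W ∧ (z * τ ^ j)⁻¹ ∈ W := by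
  intro z hz
  have hwz : w z ≠ 0 := by
    rw [Ne, map_eq_zero]
    exact hz
  obtain ⟨j, h1, h2⟩ := hdec (w z) hwz
  have e : w (z * τ ^ j) = w z * τ ^ j := by
    rw [map_mul, map_zpow₀, hwτ]
  refine ⟨j, ?_, ?_⟩
  · rw [hW, e]
    exact h1
  · rw [hW, map_inv₀, e]
    exact h2

/-- **Decomposition at the non-reduced component.**  `Wc` a valuation subring of `F` over a
valuation subring `V` of `E` along `α` (`F` integral over `α E`); `p ∈ V` with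
`∀ a, ∃ N, a p ^ N ∈ V` (archimedean); `z` a uniformiser of `Wc` with `z ^ n ∈ α(p) Wc`.  Then
every non-zero element of `F` is a unit of `Wc` times a power of `z`. -/
theorem s36ai_dec_c {E : Type*} [Field E] (α : E →+* F) (hint : α.IsIntegral)
    (V : ValuationSubring E) (Wc : ValuationSubring F) (hαc : ∀ x : E, α x ∈ Wc ↔ x ∈ V)
    (p : E) (hp : p ∈ V) (hp0 : p ≠ 0) (harch : ∀ a : E, ∃ N : ℕ, a * p ^ N ∈ V)
    (z : F) (hz0 : z ≠ 0) (hgen : ∀ y ∈ Wc.nonunits, y * z⁻¹ ∈ Wc)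
    (n : ℕ) (hzn : z ^ n * (α p)⁻¹ ∈ Wc) :
    ∀ x : F, x ≠ 0 → ∃ j : ℤ, x * z ^ j ∈ Wc ∧ (x * z ^ j)⁻¹ ∈ Wc := by
  let _ : Algebra E F := α.toAlgebra
  have hαp0 : α p ≠ 0 := by
    rw [Ne, map_eq_zero]
    exact hp0
  have harchF : ∀ x : F, ∃ N : ℕ, x * α p ^ N ∈ Wc := fun x =>
    s36xa_arch V Wc (fun a ha => (hαc a).mpr ha) p harch hp x (hint x)
  exact s36xa_dec Wc (α p) z n hz0 hgen hzn hαp0 harchF

/-- **Kill at the non-reduced component** (same hypotheses as `s36ai_dec_c`, `z ∈ 𝔪_{Wc}`). -/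
theorem s36ai_kill_c {E : Type*} [Field E] (α : E →+* F) (hint : α.IsIntegral)
    (V : ValuationSubring E) (Wc : ValuationSubring F) (hαc : ∀ x : E, α x ∈ Wc ↔ x ∈ V)
    (p : E) (hp : p ∈ V) (hp0 : p ≠ 0) (harch : ∀ a : E, ∃ N : ℕ, a * p ^ N ∈ V)
    (z : F) (hz0 : z ≠ 0) (hz : z ∈ Wc.nonunits) (hgen : ∀ y ∈ Wc.nonunits, y * z⁻¹ ∈ Wc)
    (n : ℕ) (hzn : z ^ n * (α p)⁻¹ ∈ Wc) : s36n3Kill Wc :=
  s36n3_kill_of_disc z Wc hgen hz hz0
    (s36ai_dec_c α hint V Wc hαc p hp hp0 harch z hz0 hgen n hzn)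

/-- the archimedean property of a valuation subring with the kill property -/
theorem s36ai_arch_of_kill (V : ValuationSubring F) (hK : s36n3Kill V) (p : F)
    (hp : p ∈ V.nonunits) : ∀ a : F, ∃ N : ℕ, a * p ^ N ∈ V := by
  intro a
  obtain ⟨N, hN⟩ := hK p hp a
  refine ⟨N, ?_⟩
  rw [mul_comm]
  exact s35n_nu_mem V (hN N le_rfl)

/-- **The three separating elements** at level `F` from a separating pair of level `E` and the
table: `β x ∈ 𝔪_{Wa}`, `α y ∈ 𝔪_{Wb}`, `α x + β y ∈ 𝔪_{Wc}`, each a unit at the other two. -/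
theorem s36ai_sep {E : Type*} [Field E] (α β : E →+* F) (Wa Wb Wc : ValuationSubring F)
    (V1 V2 : ValuationSubring E)
    (hαa : ∀ x : E, α x ∈ Wa ↔ x ∈ V1) (hαc : ∀ x : E, α x ∈ Wc ↔ x ∈ V1)
    (hαb : ∀ x : E, α x ∈ Wb ↔ x ∈ V2)
    (hβa : ∀ x : E, β x ∈ Wa ↔ x ∈ V1) (hβb : ∀ x : E, β x ∈ Wb ↔ x ∈ V2)
    (hβc : ∀ x : E, β x ∈ Wc ↔ x ∈ V2)
    (x y : E) (hx0 : x ≠ 0) (hy0 : y ≠ 0)
    (hx1 : x ∈ V1.nonunits) (hx2 : x ∈ V2) (hx2' : x⁻¹ ∈ V2)
    (hy2 : y ∈ V2.nonunits) (hy1 : y ∈ V1) (hy1' : y⁻¹ ∈ V1) :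
    (β x ≠ 0 ∧ β x ∈ Wa.nonunits ∧ (β x ∈ Wb ∧ (β x)⁻¹ ∈ Wb) ∧ (β x ∈ Wc ∧ (β x)⁻¹ ∈ Wc)) ∧
    (α y ≠ 0 ∧ α y ∈ Wb.nonunits ∧ (α y ∈ Wa ∧ (α y)⁻¹ ∈ Wa) ∧ (α y ∈ Wc ∧ (α y)⁻¹ ∈ Wc)) ∧
    (α x + β y ≠ 0 ∧ α x + β y ∈ Wc.nonunits ∧
      (α x + β y ∈ Wa ∧ (α x + β y)⁻¹ ∈ Wa) ∧ (α x + β y ∈ Wb ∧ (α x + β y)⁻¹ ∈ Wb)) := by
  have hβx0 : β x ≠ 0 := by
    rw [Ne, map_eq_zero]
    exact hx0
  have hαy0 : α y ≠ 0 := by
    rw [Ne, map_eq_zero]
    exact hy0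
  have hαx0 : α x ≠ 0 := by
    rw [Ne, map_eq_zero]
    exact hx0
  have hβy0 : β y ≠ 0 := by
    rw [Ne, map_eq_zero]
    exact hy0
  refine ⟨⟨hβx0, (s36hc_nonunits_iff β V1 Wa hβa x).mpr hx1,
      ⟨(hβb x).mpr hx2, by rw [← map_inv₀]; exact (hβb _).mpr hx2'⟩,
      ⟨(hβc x).mpr hx2, by rw [← map_inv₀]; exact (hβc _).mpr hx2'⟩⟩,
    ⟨hαy0, (s36hc_nonunits_iff α V2 Wb hαb y).mpr hy2,
      ⟨(hαa y).mpr hy1, by rw [← map_inv₀]; exact (hαa _).mpr hy1'⟩,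
      ⟨(hαc y).mpr hy1, by rw [← map_inv₀]; exact (hαc _).mpr hy1'⟩⟩, ?_⟩
  -- `α x + β y`
  have hca : α x + β y ≠ 0 ∧ α x + β y ∈ Wa ∧ (α x + β y)⁻¹ ∈ Wa := by
    refine s35n_unit_of_congr Wa ((hβa y).mpr hy1) (by rw [← map_inv₀]; exact (hβa _).mpr hy1')
      hβy0 ?_
    rw [add_sub_cancel_right]
    exact (s36hc_nonunits_iff α V1 Wa hαa x).mpr hx1
  have hcb : α x + β y ≠ 0 ∧ α x + β y ∈ Wb ∧ (α x + β y)⁻¹ ∈ Wb := by
    refine s35n_unit_of_congr Wb ((hαb x).mpr hx2) (by rw [← map_inv₀]; exact (hαb _).mpr hx2')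
      hαx0 ?_
    rw [add_sub_cancel_left]
    exact (s36hc_nonunits_iff β V2 Wb hβb y).mpr hy2
  refine ⟨hca.1, ?_, hca.2, hcb.2⟩
  exact s36xa_nu_add Wc ((s36hc_nonunits_iff α V1 Wc hαc x).mpr hx1)
    ((s36hc_nonunits_iff β V2 Wc hβc y).mpr hy2)

/-- **[APP3], abstract instance**: the binder `happ` of `s36tor_main` from the kill property of
the three valuation subrings, the table and a separating pair of level `E`. -/
theorem s36ai_happ_abs {E : Type*} [Field E] (α β : E →+* F) (Wa Wb Wc : ValuationSubring F)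
    (V1 V2 : ValuationSubring E)
    (hαa : ∀ x : E, α x ∈ Wa ↔ x ∈ V1) (hαc : ∀ x : E, α x ∈ Wc ↔ x ∈ V1)
    (hαb : ∀ x : E, α x ∈ Wb ↔ x ∈ V2)
    (hβa : ∀ x : E, β x ∈ Wa ↔ x ∈ V1) (hβb : ∀ x : E, β x ∈ Wb ↔ x ∈ V2)
    (hβc : ∀ x : E, β x ∈ Wc ↔ x ∈ V2)
    (hKa : s36n3Kill Wa) (hKb : s36n3Kill Wb) (hKc : s36n3Kill Wc)
    (x y : E) (hx0 : x ≠ 0) (hy0 : y ≠ 0)
    (hx1 : x ∈ V1.nonunits) (hx2 : x ∈ V2) (hx2' : x⁻¹ ∈ V2)
    (hy2 : y ∈ V2.nonunits) (hy1 : y ∈ V1) (hy1' : y⁻¹ ∈ V1) :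
    ∀ za zb zc : F, za ∈ Wa → zb ∈ Wb → zc ∈ Wc →
      ∃ z : F, z - za ∈ Wa.nonunits ∧ z - zb ∈ Wb.nonunits ∧ z - zc ∈ Wc.nonunits := by
  obtain ⟨⟨ha0, haa, hab, hac⟩, ⟨hb0, hbb, hba, hbc⟩, ⟨hc0, hcc, hca, hcb⟩⟩ :=
    s36ai_sep α β Wa Wb Wc V1 V2 hαa hαc hαb hβa hβb hβc x y hx0 hy0 hx1 hx2 hx2' hy2 hy1 hy1'
  intro za zb zc hza hzb hzc
  exact s36n3_approx Wa Wb Wc hKa hKb hKc (β x) (α y) (α x + β y) ha0 hb0 hc0
    haa hab hac hbb hba hbc hcc hca hcb za zb zc hza hzb hzc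

end Abs

section Carrier

variable (M q : ℕ) [NeZero M] [hq : Fact q.Prime] (hM : ¬ q ∣ M)
  (K0 : Type*) [Field K0] [Algebra ℚ K0] [Algebra K0 Qb]
  (A0 : ValuationSubring K0) [IsDiscreteValuationRing ↥A0]
  {a2 : ℕ} (H : HauptRec a2 q)

/-- constants of `𝔪_{A0}` are non-units of the Gauss valuation ring (every level) -/
theorem s36ai_const_nu (c : K0) (hc : c ∈ A0.nonunits) :
    algebraMap K0 ↥(laurentBaseChange K0 (modularFunctionFieldFull (M * q))) c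
      ∈ (va2V1 M q K0 A0).nonunits := by
  obtain ⟨hcA, hcm⟩ := (ValuationSubring.mem_nonunits_iff_exists_mem_maximalIdeal).mp hc
  refine (gra_mem_nonunits_iff (gra_decomp_dvr A0 (M * q)) _).mpr
    ⟨gr_algebraMap_mem A0 ⟨c, hcA⟩, ?_⟩
  have h := grRho_algebraMap A0 ⟨c, hcA⟩
  rw [(IsLocalRing.residue_eq_zero_iff _).mpr hcm, map_zero] at h
  exact h

/-- `hdec` for the Gauss valuation ring (every level), with `τ` as a constant of `K0` -/
theorem s36ai_dec_V1 (τ : A0) (hτ : Irreducible τ) :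
    ∀ z : ↥(laurentBaseChange K0 (modularFunctionFieldFull (M * q))), z ≠ 0 → ∃ j : ℤ,
      z * algebraMap K0 ↥(laurentBaseChange K0 (modularFunctionFieldFull (M * q))) (τ : K0) ^ j
        ∈ va2V1 M q K0 A0 ∧
      (z * algebraMap K0 ↥(laurentBaseChange K0 (modularFunctionFieldFull (M * q))) (τ : K0) ^ j)⁻¹
        ∈ va2V1 M q K0 A0 :=
  fun z hz => gsp_dec_VG A0 (modularFunctionFieldFull (M * q)) (va2V1 M q K0 A0)
    (fun _ => Iff.rfl) (fun _ hx => gdv_full_le A0 (M * q) hx) τ hτ z hz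

/-- `hdec` for `V₂ = va2V2`, with `τ` as a constant of `K0` -/
theorem s36ai_dec_V2 (τ : A0) (hτ : Irreducible τ) :
    ∀ z : ↥(laurentBaseChange K0 (modularFunctionFieldFull (M * q))), z ≠ 0 → ∃ j : ℤ,
      z * algebraMap K0 ↥(laurentBaseChange K0 (modularFunctionFieldFull (M * q))) (τ : K0) ^ j
        ∈ va2V2 M q hM K0 A0 ∧
      (z * algebraMap K0 ↥(laurentBaseChange K0 (modularFunctionFieldFull (M * q))) (τ : K0) ^ j)⁻¹
        ∈ va2V2 M q hM K0 A0 :=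
  s36ai_dec_comap (va2Swap M q hq.out hM K0) (va2V1 M q K0 A0) (va2V2 M q hM K0 A0)
    (fun _ => Iff.rfl) _ (va2Swap_const M q hq.out hM K0 _) (s36ai_dec_V1 M q K0 A0 τ hτ)

/-- the Gauss valuation ring has the kill property (every level) -/
theorem s36ai_kill_V1 : s36n3Kill (va2V1 M q K0 A0) := by
  obtain ⟨τ, hτ⟩ := IsDiscreteValuationRing.exists_irreducible ↥A0
  have hτnu : (τ : K0) ∈ A0.nonunits :=
    (ValuationSubring.mem_nonunits_iff_exists_mem_maximalIdeal).mpr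
      ⟨τ.2, (IsLocalRing.mem_maximalIdeal _).mpr hτ.not_isUnit⟩
  have hτ0 : algebraMap K0 ↥(laurentBaseChange K0 (modularFunctionFieldFull (M * q))) (τ : K0)
      ≠ 0 := by
    rw [Ne, map_eq_zero]
    exact fun h => hτ.ne_zero (Subtype.ext h)
  exact s36ai_kill_of_dec _ _ (s36ai_const_nu M q K0 A0 _ hτnu) hτ0 (s36ai_dec_V1 M q K0 A0 τ hτ)

/-- `z_f = f(t^(q²)) - f(t) ≠ 0` for `f` with an expansion with a simple pole -/
theorem s36ai_z_ne_zero (f : ↥(laurentBaseChange K0 (modularFunctionFieldFull M)))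
    (Z : LaurentSeries ℤ) (hf : (f : LaurentSeries K0) = coeffMap (Int.castRingHom K0) Z)
    (hZ : Hp4Lead Z (-1)) :
    heckeBetaBar K0 (M * q) q (heckeBetaBar K0 M q f) -
      heckeAlphaBar K0 (M * q) q (heckeAlphaBar K0 M q f) ≠ 0 := by
  intro h0
  have h1 := congrArg
    (fun x : ↥(laurentBaseChange K0 (modularFunctionFieldFull (M * q * q))) =>
      (x : LaurentSeries K0).coeff (-1)) h0
  have hnd : ¬ ((q : ℕ) : ℤ) ∣ -1 := by
    intro h
    rw [dvd_neg] at h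
    have h2 : ((q : ℕ) : ℤ) = 1 := Int.eq_one_of_dvd_one (Int.natCast_nonneg q) h
    have := hq.out.one_lt
    omega
  simp only [AddSubgroupClass.coe_sub, coe_heckeAlphaBar, coe_heckeBetaBar, HahnSeries.coeff_sub,
    ZeroMemClass.coe_zero, HahnSeries.coeff_zero] at h1
  rw [qExpand_coeff_of_not_dvd q _ hnd, hf, coeffMap_coeff, hZ.coeff_self, zero_sub,
    neg_eq_zero] at h1
  simp at h1

/-- `K0(X₀(M q²))` is integral over `α K0(X₀(M q))` -/
theorem s36ai_alpha_isIntegral :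
    (heckeAlphaBar K0 (M * q) q).toRingHom.IsIntegral := by
  haveI : NeZero q := ⟨hq.out.ne_zero⟩
  letI := algebraAlong (heckeAlphaBar K0 (M * q) q)
  have hfr : Module.finrank ↥(laurentBaseChange K0 (modularFunctionFieldFull (M * q)))
      ↥(laurentBaseChange K0 (modularFunctionFieldFull (M * q * q))) = q :=
    s36d_finrank_alpha K0 (M * q) q hq.out (dvd_mul_left q M)
  haveI : Module.Finite ↥(laurentBaseChange K0 (modularFunctionFieldFull (M * q)))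
      ↥(laurentBaseChange K0 (modularFunctionFieldFull (M * q * q))) :=
    Module.finite_of_finrank_pos (by rw [hfr]; exact hq.out.pos)
  intro x
  exact (Algebra.IsIntegral.of_finite ↥(laurentBaseChange K0 (modularFunctionFieldFull (M * q)))
    ↥(laurentBaseChange K0 (modularFunctionFieldFull (M * q * q)))).isIntegral x

/-- **`hdec` for `W_a`** (the Gauss valuation ring of level `M q²`) w.r.t. `τ` -/
theorem s36ai_dec_a (τ : A0) (hτ : Irreducible τ) :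
    ∀ z : ↥(laurentBaseChange K0 (modularFunctionFieldFull (M * q * q))), z ≠ 0 → ∃ j : ℤ,
      z * algebraMap K0 ↥(laurentBaseChange K0 (modularFunctionFieldFull (M * q * q)))
        (τ : K0) ^ j ∈ va2V1 (M * q) q K0 A0 ∧
      (z * algebraMap K0 ↥(laurentBaseChange K0 (modularFunctionFieldFull (M * q * q)))
        (τ : K0) ^ j)⁻¹ ∈ va2V1 (M * q) q K0 A0 :=
  s36ai_dec_V1 (M * q) q K0 A0 τ hτ

/-- **`hdec` for `W_b`** (`x ∈ W_b ↔ w x ∈ W_a`, `w` fixing the constants) w.r.t. `τ` -/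
theorem s36ai_dec_b
    (w : ↥(laurentBaseChange K0 (modularFunctionFieldFull (M * q * q))) →+*
      ↥(laurentBaseChange K0 (modularFunctionFieldFull (M * q * q))))
    (hw : ∀ c : K0, w (algebraMap K0 _ c) = algebraMap K0 _ c)
    (Wb : ValuationSubring ↥(laurentBaseChange K0 (modularFunctionFieldFull (M * q * q))))
    (hWb : ∀ x, x ∈ Wb ↔ w x ∈ va2V1 (M * q) q K0 A0)
    (τ : A0) (hτ : Irreducible τ) :
    ∀ z : ↥(laurentBaseChange K0 (modularFunctionFieldFull (M * q * q))), z ≠ 0 → ∃ j : ℤ,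
      z * algebraMap K0 ↥(laurentBaseChange K0 (modularFunctionFieldFull (M * q * q)))
        (τ : K0) ^ j ∈ Wb ∧
      (z * algebraMap K0 ↥(laurentBaseChange K0 (modularFunctionFieldFull (M * q * q)))
        (τ : K0) ^ j)⁻¹ ∈ Wb :=
  s36ai_dec_comap w (va2V1 (M * q) q K0 A0) Wb hWb _ (hw _) (s36ai_dec_a M q K0 A0 τ hτ)

/-- **kill for `W_b`** -/
theorem s36ai_kill_b
    (w : ↥(laurentBaseChange K0 (modularFunctionFieldFull (M * q * q))) →+*
      ↥(laurentBaseChange K0 (modularFunctionFieldFull (M * q * q))))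
    (Wb : ValuationSubring ↥(laurentBaseChange K0 (modularFunctionFieldFull (M * q * q))))
    (hWb : ∀ x, x ∈ Wb ↔ w x ∈ va2V1 (M * q) q K0 A0) : s36n3Kill Wb :=
  s36ai_kill_comap w (va2V1 (M * q) q K0 A0) Wb hWb (s36ai_kill_V1 (M * q) q K0 A0)

/-- `q` as an element of level `M q`: in `𝔪_{V₁}`, non-zero, archimedean -/
theorem s36ai_q_V1 (hA0 : A0.LiesOverPrime q) :
    ((q : ℕ) : ↥(laurentBaseChange K0 (modularFunctionFieldFull (M * q))))
        ∈ (va2V1 M q K0 A0).nonunits ∧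
      ((q : ℕ) : ↥(laurentBaseChange K0 (modularFunctionFieldFull (M * q)))) ≠ 0 ∧
      ∀ a : ↥(laurentBaseChange K0 (modularFunctionFieldFull (M * q))), ∃ N : ℕ,
        a * ((q : ℕ) : ↥(laurentBaseChange K0 (modularFunctionFieldFull (M * q)))) ^ N
          ∈ va2V1 M q K0 A0 := by
  have hqnu : ((q : ℕ) : ↥(laurentBaseChange K0 (modularFunctionFieldFull (M * q))))
      ∈ (va2V1 M q K0 A0).nonunits := by
    have h := s36ai_const_nu M q K0 A0 ((q : ℕ) : K0) hA0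
    rwa [map_natCast] at h
  have hq0 : ((q : ℕ) : ↥(laurentBaseChange K0 (modularFunctionFieldFull (M * q)))) ≠ 0 := by
    haveI : CharZero K0 := algebraRat.charZero K0
    rw [← map_natCast (algebraMap K0 ↥(laurentBaseChange K0 (modularFunctionFieldFull (M * q)))),
      Ne, map_eq_zero]
    exact Nat.cast_ne_zero.mpr hq.out.ne_zero
  exact ⟨hqnu, hq0, s36ai_arch_of_kill _ (s36ai_kill_V1 M q K0 A0) _ hqnu⟩

/-- **`hdec` for `W_c`** w.r.t. a uniformiser `z` (`z ≠ 0`, `𝔪_{Wc} ⊆ z Wc`, `z^(q-1)/q ∈ Wc`: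
the outputs of `s36v3_z_unif`); `Wc` any valuation subring with `α x ∈ Wc ↔ x ∈ V₁`. -/
theorem s36ai_dec_Wc (hA0 : A0.LiesOverPrime q)
    (Wc : ValuationSubring ↥(laurentBaseChange K0 (modularFunctionFieldFull (M * q * q))))
    (hαc : ∀ x : ↥(laurentBaseChange K0 (modularFunctionFieldFull (M * q))),
      heckeAlphaBar K0 (M * q) q x ∈ Wc ↔ x ∈ va2V1 M q K0 A0)
    (z : ↥(laurentBaseChange K0 (modularFunctionFieldFull (M * q * q)))) (hz0 : z ≠ 0)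
    (hgen : ∀ y ∈ Wc.nonunits, y * z⁻¹ ∈ Wc)
    (hzq : z ^ (q - 1) * ((q : ℕ) :
      ↥(laurentBaseChange K0 (modularFunctionFieldFull (M * q * q))))⁻¹ ∈ Wc) :
    ∀ x : ↥(laurentBaseChange K0 (modularFunctionFieldFull (M * q * q))), x ≠ 0 →
      ∃ j : ℤ, x * z ^ j ∈ Wc ∧ (x * z ^ j)⁻¹ ∈ Wc := by
  obtain ⟨hqnu, hq0, harch⟩ := s36ai_q_V1 M q K0 A0 hA0
  refine s36ai_dec_c (heckeAlphaBar K0 (M * q) q).toRingHom (s36ai_alpha_isIntegral M q K0)
    (va2V1 M q K0 A0) Wc hαc _ (s35n_nu_mem _ hqnu) hq0 harch z hz0 hgen (q - 1) ?_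
  rw [map_natCast]
  exact hzq

/-- **kill for `W_c`** -/
theorem s36ai_kill_Wc (hA0 : A0.LiesOverPrime q)
    (Wc : ValuationSubring ↥(laurentBaseChange K0 (modularFunctionFieldFull (M * q * q))))
    (hαc : ∀ x : ↥(laurentBaseChange K0 (modularFunctionFieldFull (M * q))),
      heckeAlphaBar K0 (M * q) q x ∈ Wc ↔ x ∈ va2V1 M q K0 A0)
    (z : ↥(laurentBaseChange K0 (modularFunctionFieldFull (M * q * q)))) (hz0 : z ≠ 0)
    (hz : z ∈ Wc.nonunits) (hgen : ∀ y ∈ Wc.nonunits, y * z⁻¹ ∈ Wc)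
    (hzq : z ^ (q - 1) * ((q : ℕ) :
      ↥(laurentBaseChange K0 (modularFunctionFieldFull (M * q * q))))⁻¹ ∈ Wc) :
    s36n3Kill Wc :=
  s36n3_kill_of_disc z Wc hgen hz hz0 (s36ai_dec_Wc M q K0 A0 hA0 Wc hαc z hz0 hgen hzq)

include H in
/-- **[APP3-INST]**: the binder `happ` of `s36tor_main` at the carrier.  `Wa` is the Gauss
valuation ring of level `M q²`; `Wb` is any valuation subring with `x ∈ Wb ↔ w x ∈ Wa` for a
ring endomorphism `w` fixing the constants (the swap); `Wc` is any valuation subring with the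
table statements and a uniformiser `z` as provided by `s36v3_z_unif`. -/
theorem s36ai_happ (ha2 : a2 ∣ M) (hA0 : A0.LiesOverPrime q)
    (w : ↥(laurentBaseChange K0 (modularFunctionFieldFull (M * q * q))) →+*
      ↥(laurentBaseChange K0 (modularFunctionFieldFull (M * q * q))))
    (Wb Wc : ValuationSubring ↥(laurentBaseChange K0 (modularFunctionFieldFull (M * q * q))))
    (hWb : ∀ x, x ∈ Wb ↔ w x ∈ va2V1 (M * q) q K0 A0)
    (hαa : ∀ x : ↥(laurentBaseChange K0 (modularFunctionFieldFull (M * q))),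
      heckeAlphaBar K0 (M * q) q x ∈ va2V1 (M * q) q K0 A0 ↔ x ∈ va2V1 M q K0 A0)
    (hαc : ∀ x : ↥(laurentBaseChange K0 (modularFunctionFieldFull (M * q))),
      heckeAlphaBar K0 (M * q) q x ∈ Wc ↔ x ∈ va2V1 M q K0 A0)
    (hαb : ∀ x : ↥(laurentBaseChange K0 (modularFunctionFieldFull (M * q))),
      heckeAlphaBar K0 (M * q) q x ∈ Wb ↔ x ∈ va2V2 M q hM K0 A0)
    (hβa : ∀ x : ↥(laurentBaseChange K0 (modularFunctionFieldFull (M * q))),
      heckeBetaBar K0 (M * q) q x ∈ va2V1 (M * q) q K0 A0 ↔ x ∈ va2V1 M q K0 A0)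
    (hβb : ∀ x : ↥(laurentBaseChange K0 (modularFunctionFieldFull (M * q))),
      heckeBetaBar K0 (M * q) q x ∈ Wb ↔ x ∈ va2V2 M q hM K0 A0)
    (hβc : ∀ x : ↥(laurentBaseChange K0 (modularFunctionFieldFull (M * q))),
      heckeBetaBar K0 (M * q) q x ∈ Wc ↔ x ∈ va2V2 M q hM K0 A0)
    (z : ↥(laurentBaseChange K0 (modularFunctionFieldFull (M * q * q)))) (hz0 : z ≠ 0)
    (hz : z ∈ Wc.nonunits) (hgen : ∀ y ∈ Wc.nonunits, y * z⁻¹ ∈ Wc)
    (hzq : z ^ (q - 1) * ((q : ℕ) :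
      ↥(laurentBaseChange K0 (modularFunctionFieldFull (M * q * q))))⁻¹ ∈ Wc) :
    ∀ za zb zc : ↥(laurentBaseChange K0 (modularFunctionFieldFull (M * q * q))),
      za ∈ va2V1 (M * q) q K0 A0 → zb ∈ Wb → zc ∈ Wc →
      ∃ y : ↥(laurentBaseChange K0 (modularFunctionFieldFull (M * q * q))),
        y - za ∈ (va2V1 (M * q) q K0 A0).nonunits ∧ y - zb ∈ Wb.nonunits ∧
          y - zc ∈ Wc.nonunits := by
  obtain ⟨hy1, hy1', hy0⟩ := gsp_y_unit₁ M q K0 A0 H ha2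
  obtain ⟨hx2, hx2', hx0⟩ := gsp_x_unit₂ M q hM K0 A0 H ha2
  exact s36ai_happ_abs (heckeAlphaBar K0 (M * q) q).toRingHom
    (heckeBetaBar K0 (M * q) q).toRingHom (va2V1 (M * q) q K0 A0) Wb Wc
    (va2V1 M q K0 A0) (va2V2 M q hM K0 A0) hαa hαc hαb hβa hβb hβc
    (s36ai_kill_V1 (M * q) q K0 A0) (s36ai_kill_b M q K0 A0 w Wb hWb)
    (s36ai_kill_Wc M q K0 A0 hA0 Wc hαc z hz0 hz hgen hzq)
    _ _ hx0 hy0 (gsp_x_mem₁ M q hM K0 A0 H ha2 hA0) hx2 hx2'
    (gsp_y_mem₂ M q hM K0 A0 H ha2 hA0) hy1 hy1'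

end Carrier

end Fermat.Agent.S36
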