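import Mathlib
import Fermat.Agent.S18.CechChart
import Fermat.Agent.S34.Charts2Inst
import Fermat.Agent.S34.Val2Inst
import Fermat.Agent.S36.WcPoint

/-!
# S36, family CHART3, leaf CHT3: the integral-closure charts with THREE vertical valuations

The three-valuation analogue of `cht2_all` (S34/Charts2) and of `c2i_chart` (S34/Charts2Inst),
for the level `M q ^ 2`, where the special fibre of the chart is NOT reduced (no statement
`O ∩ 𝔪₁ ∩ 𝔪₂ ∩ 𝔪₃ = τ O`; its substitute is the radical form `s36c3_hred`).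

Abstract part (`A0` a DVR with fraction field `K0`, `F` a field over `K0`, `t` the chart
coordinate, `V₁` inducing the Gauss valuation on `K0(t)`, exhaustion
`hex : ChtSame K0 V₁ t O' → O' = V₁ ∨ O' = V₂ ∨ O' = V₃`):

* `s36c3_h5`   : `x ∈ O0`, `x / τ ∈ V₁ ∩ V₂ ∩ V₃`  ⇒  `x / τ ∈ O0`;
* `s36c3_all`  : the chart bundle for `O0 = chtO A0 {t}`, `O1 = chtO A0 {t⁻¹}`: coordinates,
  finiteness, gluing, fractions, roots, `O0 ∩ O1 = A0`, `O ⊆ V₁ ∩ V₂ ∩ V₃`, saturation `hdiv`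
  for the three valuations, noetherian, integrally closed;
* `s36c3_hred` : `x ∈ O ∩ 𝔪₁ ∩ 𝔪₂ ∩ 𝔪₃  ⇒  x ^ N ∈ τ O` (both charts).

Carrier part (`F1`, `F2` the function fields of level `M q`, `M q ^ 2` over `K0`, `W_a` the
Gauss valuation ring `va2V1 (M * q) q K0 A0` of `F2`, `W_b`, `W_c` two more valuation subrings
of `F2` given by the table and the exhaustion of the VAL3 contract along
`al = heckeAlphaBar K0 (M * q) q`):

* `s36c3_same_comap` : the trace condition goes down along `al`;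
* `s36c3_hex`        : the exhaustion `hex` of level `M q ^ 2`;
* `s36c3_chart`      : the bundle `s36c3_all` for the Hauptmodul charts of level `M q ^ 2`.
-/

set_option autoImplicit false
set_option linter.unusedSectionVars false

noncomputable section

open AlgebraicCurve ModularCurve Polynomial
open Fermat.Agent.S28 Fermat.Agent.S18 Fermat.Agent.S34

namespace Fermat.Agent.S36

local notation "Qb" => AlgebraicClosure ℚ

section Abs

variable {A0 K0 F : Type*} [CommRing A0] [IsDomain A0] [IsDiscreteValuationRing A0]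
  [Field K0] [Algebra A0 K0] [IsFractionRing A0 K0]
  [Field F] [Algebra A0 F] [Algebra K0 F] [IsScalarTower A0 K0 F]

/-- (h5) for three valuations: if every valuation subring of `F` with the trace of `V₁` on
`K0(t)` is `V₁`, `V₂` or `V₃`, then `x ∈ O0` with `x / τ ∈ V₁ ∩ V₂ ∩ V₃` has `x / τ ∈ O0`. -/
theorem s36c3_h5 (V₁ V₂ V₃ : ValuationSubring F) (hA : ∀ a : A0, algebraMap A0 F a ∈ V₁)
    {τ : A0} (hτ : Irreducible τ) (hτV : algebraMap A0 F τ ∈ V₁.nonunits) (t : F)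
    (ht : Transcendental K0 t)
    (hG : ∀ p : A0[X], (∃ i, ¬ τ ∣ p.coeff i) → aeval t p ∉ V₁.nonunits)
    (hfin : ∃ (n : ℕ) (β : Fin n → F), ∀ x : F, ∃ (a : Fin n → A0[X]) (d : A0[X]),
      aeval t d ≠ 0 ∧ aeval t d * x = ∑ i, aeval t (a i) * β i)
    (hex : ∀ O' : ValuationSubring F, ChtSame K0 V₁ t O' → O' = V₁ ∨ O' = V₂ ∨ O' = V₃)
    {x : F} (hx : x ∈ chtO A0 {t}) (h1 : x * (algebraMap A0 F τ)⁻¹ ∈ V₁)
    (h2 : x * (algebraMap A0 F τ)⁻¹ ∈ V₂) (h3 : x * (algebraMap A0 F τ)⁻¹ ∈ V₃) :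
    x * (algebraMap A0 F τ)⁻¹ ∈ chtO A0 {t} := by
  refine cht2_h5 V₁ hA hτ hτV t ht hG hfin hx fun O' hO' => ?_
  rcases hex O' hO' with rfl | rfl | rfl
  · exact h1
  · exact h2
  · exact h3

/-- The exhaustion hypothesis passes from `t` to `t⁻¹`. -/
theorem s36c3_hex_inv (V₁ V₂ V₃ : ValuationSubring F) (t : F) (ht0 : t ≠ 0)
    (hex : ∀ O' : ValuationSubring F, ChtSame K0 V₁ t O' → O' = V₁ ∨ O' = V₂ ∨ O' = V₃) :
    ∀ O' : ValuationSubring F, ChtSame K0 V₁ t⁻¹ O' → O' = V₁ ∨ O' = V₂ ∨ O' = V₃ :=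
  fun O' h => hex O' ((cht2_same_inv V₁ t ht0 O').mp h)

/-- **CHT3, abstract form.**  All chart hypotheses for the integral-closure charts
`O0 = chtO A0 {t}`, `O1 = chtO A0 {t⁻¹}` when the Gauss valuation of `K0(t)` has exactly the
extensions `V₁`, `V₂`, `V₃` to `F` (no hypothesis on the ramification indices of `V₂`, `V₃`). -/
theorem s36c3_all [CharZero K0] (V₁ V₂ V₃ : ValuationSubring F)
    (hA : ∀ a : A0, algebraMap A0 F a ∈ V₁) (hA₂ : ∀ a : A0, algebraMap A0 F a ∈ V₂)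
    (hA₃ : ∀ a : A0, algebraMap A0 F a ∈ V₃)
    {τ : A0} (hτ : Irreducible τ) (hτV : algebraMap A0 F τ ∈ V₁.nonunits) (t : F)
    (ht : Transcendental K0 t) (htV : t ∈ V₁) (htV' : t⁻¹ ∈ V₁)
    (htV₂ : t ∈ V₂) (htV₂' : t⁻¹ ∈ V₂) (htV₃ : t ∈ V₃) (htV₃' : t⁻¹ ∈ V₃)
    (hG : ∀ p : A0[X], (∃ i, ¬ τ ∣ p.coeff i) → aeval t p ∉ V₁.nonunits)
    (hfin : ∃ (n : ℕ) (β : Fin n → F), ∀ x : F, ∃ (a : Fin n → A0[X]) (d : A0[X]),
      aeval t d ≠ 0 ∧ aeval t d * x = ∑ i, aeval t (a i) * β i)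
    (hex : ∀ O' : ValuationSubring F, ChtSame K0 V₁ t O' → O' = V₁ ∨ O' = V₂ ∨ O' = V₃)
    (hconst : ∀ x : F, IsAlgebraic K0 x → ∃ c : K0, algebraMap K0 F c = x)
    (m : ℕ) (hm : 0 < m) :
    t * t⁻¹ = 1 ∧ t ∈ chtO A0 {t} ∧ t⁻¹ ∈ chtO A0 {t⁻¹} ∧
    (∃ b0 : Finset F, (∀ y ∈ b0, y ∈ chtO A0 {t}) ∧ ∀ y ∈ chtO A0 {t}, y ∈ Submodule.span A0
      (Set.image2 (fun (k : ℕ) (y' : F) => t ^ k * y') Set.univ (b0 : Set F))) ∧
    (∃ b1 : Finset F, (∀ y ∈ b1, y ∈ chtO A0 {t⁻¹}) ∧ ∀ y ∈ chtO A0 {t⁻¹}, y ∈ Submodule.span A0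
      (Set.image2 (fun (k : ℕ) (y' : F) => t⁻¹ ^ k * y') Set.univ (b1 : Set F))) ∧
    (∀ x ∈ chtO A0 {t}, ∃ n : ℕ, x * t⁻¹ ^ n ∈ chtO A0 {t⁻¹}) ∧
    (∀ x ∈ chtO A0 {t⁻¹}, ∃ n : ℕ, x * t ^ n ∈ chtO A0 {t}) ∧
    (∀ x : F, ∃ a ∈ chtO A0 {t}, ∃ s ∈ chtO A0 {t}, s ≠ 0 ∧ x * s = a) ∧
    (∀ x : F, ∃ a ∈ chtO A0 {t⁻¹}, ∃ s ∈ chtO A0 {t⁻¹}, s ≠ 0 ∧ x * s = a) ∧
    (∀ z : F, z ^ m ∈ chtO A0 {t} → z ∈ chtO A0 {t}) ∧
    (∀ z : F, z ^ m ∈ chtO A0 {t⁻¹} → z ∈ chtO A0 {t⁻¹}) ∧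
    (∀ x ∈ chtO A0 {t}, x ∈ chtO A0 {t⁻¹} → x ∈ Set.range (algebraMap A0 F)) ∧
    (∀ x ∈ chtO A0 {t}, x ∈ V₁ ∧ x ∈ V₂ ∧ x ∈ V₃) ∧
    (∀ x ∈ chtO A0 {t⁻¹}, x ∈ V₁ ∧ x ∈ V₂ ∧ x ∈ V₃) ∧
    (∀ x ∈ chtO A0 {t}, x * (algebraMap A0 F τ)⁻¹ ∈ V₁ → x * (algebraMap A0 F τ)⁻¹ ∈ V₂ →
      x * (algebraMap A0 F τ)⁻¹ ∈ V₃ → x * (algebraMap A0 F τ)⁻¹ ∈ chtO A0 {t}) ∧
    (∀ x ∈ chtO A0 {t⁻¹}, x * (algebraMap A0 F τ)⁻¹ ∈ V₁ → x * (algebraMap A0 F τ)⁻¹ ∈ V₂ →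
      x * (algebraMap A0 F τ)⁻¹ ∈ V₃ → x * (algebraMap A0 F τ)⁻¹ ∈ chtO A0 {t⁻¹}) ∧
    IsNoetherianRing ↥(chtO A0 {t}) ∧ IsNoetherianRing ↥(chtO A0 {t⁻¹}) ∧
    (∀ x : F, IsIntegral ↥(chtO A0 {t}) x → x ∈ chtO A0 {t}) ∧
    (∀ x : F, IsIntegral ↥(chtO A0 {t⁻¹}) x → x ∈ chtO A0 {t⁻¹}) := by
  have ht0 : t ≠ 0 := by
    rintro rfl
    exact ht (isAlgebraic_zero)
  have : CharZero A0 := (algebraMap A0 K0).charZero
  have htA : Transcendental A0 t := fun h =>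
    ht (h.extendScalars (IsFractionRing.injective A0 K0))
  have ht' : Transcendental K0 t⁻¹ := fun h => ht (IsAlgebraic.inv_iff.mp h)
  have htA' : Transcendental A0 t⁻¹ := fun h =>
    ht' (h.extendScalars (IsFractionRing.injective A0 K0))
  have hV0 : ∀ x ∈ chtO A0 {t}, x ∈ V₁ ∧ x ∈ V₂ ∧ x ∈ V₃ := fun x hx =>
    ⟨cht_le_valuationSubring V₁ hA (s := {t}) (by rintro y rfl; exact htV) hx,
      cht_le_valuationSubring V₂ hA₂ (s := {t}) (by rintro y rfl; exact htV₂) hx,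
      cht_le_valuationSubring V₃ hA₃ (s := {t}) (by rintro y rfl; exact htV₃) hx⟩
  have hV1 : ∀ x ∈ chtO A0 {t⁻¹}, x ∈ V₁ ∧ x ∈ V₂ ∧ x ∈ V₃ := fun x hx =>
    ⟨cht_le_valuationSubring V₁ hA (s := {t⁻¹}) (by rintro y rfl; exact htV') hx,
      cht_le_valuationSubring V₂ hA₂ (s := {t⁻¹}) (by rintro y rfl; exact htV₂') hx,
      cht_le_valuationSubring V₃ hA₃ (s := {t⁻¹}) (by rintro y rfl; exact htV₃') hx⟩
  have hfin' := cht_hfin_inv (R := A0) t ht0 hfin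
  have hG' := cht_hG_inv V₁ τ t ht0 htV hG
  have hex' := s36c3_hex_inv (K0 := K0) V₁ V₂ V₃ t ht0 hex
  obtain ⟨b0, hb0, hspan0⟩ := cht_h4 t htA hfin
  obtain ⟨b1, hb1, hspan1⟩ := cht_h4 t⁻¹ htA' hfin'
  refine ⟨mul_inv_cancel₀ ht0, (cht_h1 t).1, (cht_h1 t).2, ⟨b0, hb0, hspan0⟩,
    ⟨b1, hb1, hspan1⟩, ?_, ?_, cht_hfrac t htA hfin, cht_hfrac t⁻¹ htA' hfin',
    fun z hz => cht_h3 _ hm hz, fun z hz => cht_h3 _ hm hz, ?_, hV0, hV1, ?_, ?_,
    cz_noeth t _ (cht_h1 t).1 b0 hb0 hspan0, cz_noeth t⁻¹ _ (cht_h1 t).2 b1 hb1 hspan1,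
    fun x hx => cht_integral_closed _ hx, fun x hx => cht_integral_closed _ hx⟩
  · intro x hx
    exact (cht_h2' t ht0 x).mp (cht_mono (by simp) hx)
  · intro x hx
    exact (cht_h2 t ht0 x).mp (cht_mono (by simp) hx)
  · intro x h0 h1
    exact cht_h8 (K0 := K0) V₁ hA hτ hτV t hconst h0 h1 (hV0 x h0).1
  · intro x hx h1 h2 h3
    exact s36c3_h5 V₁ V₂ V₃ hA hτ hτV t ht hG hfin hex hx h1 h2 h3
  · intro x hx h1 h2 h3
    exact s36c3_h5 V₁ V₂ V₃ hA hτ hτV t⁻¹ ht' hG' hfin' hex' hx h1 h2 h3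

end Abs

section Red

variable {A F : Type*} [CommRing A] [Field F] [Algebra A F]

/-- **CHT3, radical form of the special fibre.**  In a chart `O` saturated for the three
vertical valuations (`hdiv`), with `𝔪_{W₁} = τ W₁`, `𝔪_{W₂} = τ W₂` and `y ^ e / τ ∈ W₃` on
`𝔪_{W₃}` (level `M q ^ 2`: `e = q - 1`), an element of `O` in the three maximal ideals has a
power in `τ O` (restatement of `s36wc_hred3` with the membership hypothesis in the bundle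
shape of `s36c3_all`). -/
theorem s36c3_hred (τ : A) (hτ0 : algebraMap A F τ ≠ 0) (O : Subalgebra A F)
    (W₁ W₂ W₃ : ValuationSubring F)
    (hO : ∀ x ∈ O, x ∈ W₁ ∧ x ∈ W₂ ∧ x ∈ W₃)
    (hdiv : ∀ x ∈ O, x * (algebraMap A F τ)⁻¹ ∈ W₁ → x * (algebraMap A F τ)⁻¹ ∈ W₂ →
      x * (algebraMap A F τ)⁻¹ ∈ W₃ → x * (algebraMap A F τ)⁻¹ ∈ O)
    (hτgen₁ : ∀ x ∈ W₁.nonunits, x * (algebraMap A F τ)⁻¹ ∈ W₁)
    (hτgen₂ : ∀ x ∈ W₂.nonunits, x * (algebraMap A F τ)⁻¹ ∈ W₂)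
    (e : ℕ) (he : 0 < e)
    (hE : ∀ x ∈ W₃.nonunits, x ^ e * (algebraMap A F τ)⁻¹ ∈ W₃) :
    ∀ x ∈ O, x ∈ W₁.nonunits → x ∈ W₂.nonunits → x ∈ W₃.nonunits →
      ∃ (N : ℕ), ∃ y ∈ O, x ^ N = algebraMap A F τ * y :=
  s36wc_hred3 τ O W₁ W₂ W₃ (fun y hy => (hO y hy).1) (fun y hy => (hO y hy).2.1)
    hτgen₁ hτgen₂ e he hE hτ0 hdiv

end Red

section Carrier

variable {K0 : Type*} [Field K0] [Algebra ℚ K0] [Algebra K0 Qb] (A0 : ValuationSubring K0)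
  [IsDiscreteValuationRing ↥A0]
  (M q : ℕ) [NeZero M] [hq : Fact q.Prime] (hM : ¬ q ∣ M)
  {a2 : ℕ} (H : HauptRec a2 q) (ha2 : a2 ∣ M)

include ha2 in
omit [Algebra K0 Qb] in
/-- the chart coordinate of level `M q ^ 2` comes from level `M q` -/
theorem s36c3_alpha_t (c0 c1 : K0)
    (t : ↥(laurentBaseChange K0 (modularFunctionFieldFull (M * q * q))))
    (ht : (t : LaurentSeries K0) = cinstU H K0 c0 c1) :
    t = heckeAlphaBar K0 (M * q) q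
      ⟨cinstU H K0 c0 c1, cinstU_mem H K0 (Dvd.dvd.mul_right ha2 q) c0 c1⟩ := by
  apply Subtype.ext
  rw [coe_heckeAlphaBar]
  exact ht

include ha2 in
omit [Algebra K0 Qb] in
/-- The trace condition goes down along `al`: if `O'` has the trace of the Gauss valuation
ring `W_a` of level `M q ^ 2` on `K0(t)`, its pull-back to level `M q` has the trace of the
Gauss valuation ring `V₁` of level `M q`. -/
theorem s36c3_same_comap (c0 c1 : K0)
    (t : ↥(laurentBaseChange K0 (modularFunctionFieldFull (M * q * q))))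
    (ht : (t : LaurentSeries K0) = cinstU H K0 c0 c1)
    (O' : ValuationSubring ↥(laurentBaseChange K0 (modularFunctionFieldFull (M * q * q))))
    (hO' : ChtSame K0 (va2V1 (M * q) q K0 A0) t O') :
    ChtSame K0 (va2V1 M q K0 A0)
      (⟨cinstU H K0 c0 c1, cinstU_mem H K0 (Dvd.dvd.mul_right ha2 q) c0 c1⟩ :
        ↥(laurentBaseChange K0 (modularFunctionFieldFull (M * q))))
      (O'.comap (heckeAlphaBar K0 (M * q) q).toRingHom) := by
  have htα := s36c3_alpha_t M q H ha2 c0 c1 t ht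
  have e : ∀ p : K0[X], heckeAlphaBar K0 (M * q) q
      (aeval (⟨cinstU H K0 c0 c1, cinstU_mem H K0 (Dvd.dvd.mul_right ha2 q) c0 c1⟩ :
        ↥(laurentBaseChange K0 (modularFunctionFieldFull (M * q)))) p) = aeval t p := by
    intro p
    rw [htα, aeval_algHom_apply]
  intro p r hr
  have hr' : aeval t r ≠ 0 := by
    rw [← e]
    exact (_root_.map_ne_zero _).mpr hr
  have h1 : heckeAlphaBar K0 (M * q) q
      (aeval (⟨cinstU H K0 c0 c1, cinstU_mem H K0 (Dvd.dvd.mul_right ha2 q) c0 c1⟩ :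
        ↥(laurentBaseChange K0 (modularFunctionFieldFull (M * q)))) p /
       aeval (⟨cinstU H K0 c0 c1, cinstU_mem H K0 (Dvd.dvd.mul_right ha2 q) c0 c1⟩ :
        ↥(laurentBaseChange K0 (modularFunctionFieldFull (M * q)))) r) =
      aeval t p / aeval t r := by
    rw [map_div₀, e, e]
  rw [ValuationSubring.mem_comap, AlgHom.toRingHom_eq_coe, RingHom.coe_coe, h1, hO' p r hr',
    mem_va2V1, mem_va2V1, ← h1, coe_heckeAlphaBar]

include ha2 in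
/-- **CHT3, exhaustion at level `M q ^ 2`.**  Every valuation subring of the level-`M q ^ 2`
function field with the trace of the Gauss valuation ring `W_a` on `K0(t)` is `W_a`, `W_b` or
`W_c`; `hexh1`, `hexh2` are the exhaustion statements `s36v3_exh_al1`, `s36v3_exh_al2` of the
VAL3 contract. -/
theorem s36c3_hex (hA0 : A0.LiesOverPrime q)
    (Wb Wc : ValuationSubring ↥(laurentBaseChange K0 (modularFunctionFieldFull (M * q * q))))
    (hexh1 : ∀ W : ValuationSubring ↥(laurentBaseChange K0 (modularFunctionFieldFull (M * q * q))),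
      (∀ x, heckeAlphaBar K0 (M * q) q x ∈ W ↔ x ∈ va2V1 M q K0 A0) →
      W = va2V1 (M * q) q K0 A0 ∨ W = Wc)
    (hexh2 : ∀ W : ValuationSubring ↥(laurentBaseChange K0 (modularFunctionFieldFull (M * q * q))),
      (∀ x, heckeAlphaBar K0 (M * q) q x ∈ W ↔ x ∈ va2V2 M q hM K0 A0) → W = Wb)
    (c0 c1 : A0) (hc : IsLocalRing.residue A0 c0 ≠ IsLocalRing.residue A0 c1)
    (t : ↥(laurentBaseChange K0 (modularFunctionFieldFull (M * q * q))))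
    (ht : (t : LaurentSeries K0) = cinstU H K0 (c0 : K0) (c1 : K0))
    (O' : ValuationSubring ↥(laurentBaseChange K0 (modularFunctionFieldFull (M * q * q))))
    (hO' : ChtSame K0 (va2V1 (M * q) q K0 A0) t O') :
    O' = va2V1 (M * q) q K0 A0 ∨ O' = Wb ∨ O' = Wc := by
  have hsame := s36c3_same_comap A0 M q H ha2 (c0 : K0) (c1 : K0) t ht O' hO'
  rcases va2_hex A0 M q hM H ha2 hA0 c0 c1 hc _ rfl _ hsame with h | h
  · have hW : ∀ x, heckeAlphaBar K0 (M * q) q x ∈ O' ↔ x ∈ va2V1 M q K0 A0 := by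
      intro x
      rw [← h, ValuationSubring.mem_comap, AlgHom.toRingHom_eq_coe, RingHom.coe_coe]
    rcases hexh1 O' hW with h' | h'
    · exact Or.inl h'
    · exact Or.inr (Or.inr h')
  · have hW : ∀ x, heckeAlphaBar K0 (M * q) q x ∈ O' ↔ x ∈ va2V2 M q hM K0 A0 := by
      intro x
      rw [← h, ValuationSubring.mem_comap, AlgHom.toRingHom_eq_coe, RingHom.coe_coe]
    exact Or.inr (Or.inl (hexh2 O' hW))

include ha2 in
/-- **CHT3 at the carrier.**  The chart bundle `s36c3_all` for the Hauptmodul charts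
`chtO A0 {t}`, `chtO A0 {t⁻¹}` of level `M q ^ 2` (`t = (h - c1) / (h - c0)`), with
`W_a = va2V1 (M * q) q K0 A0` the Gauss valuation ring and `W_b`, `W_c` ANY two valuation
subrings satisfying the `al`-rows of the table (`halb`, `halc` = `s36v3_al_Wb`, `s36v3_al_Wc`)
and the exhaustion (`hexh1`, `hexh2` = `s36v3_exh_al1`, `s36v3_exh_al2`) of the VAL3 contract. -/
theorem s36c3_chart
    [Algebra A0 ↥(laurentBaseChange K0 (modularFunctionFieldFull (M * q * q)))]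
    [IsScalarTower A0 K0 ↥(laurentBaseChange K0 (modularFunctionFieldFull (M * q * q)))]
    (hA0 : A0.LiesOverPrime q)
    (Wb Wc : ValuationSubring ↥(laurentBaseChange K0 (modularFunctionFieldFull (M * q * q))))
    (halb : ∀ x, heckeAlphaBar K0 (M * q) q x ∈ Wb ↔ x ∈ va2V2 M q hM K0 A0)
    (halc : ∀ x, heckeAlphaBar K0 (M * q) q x ∈ Wc ↔ x ∈ va2V1 M q K0 A0)
    (hexh1 : ∀ W : ValuationSubring ↥(laurentBaseChange K0 (modularFunctionFieldFull (M * q * q))),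
      (∀ x, heckeAlphaBar K0 (M * q) q x ∈ W ↔ x ∈ va2V1 M q K0 A0) →
      W = va2V1 (M * q) q K0 A0 ∨ W = Wc)
    (hexh2 : ∀ W : ValuationSubring ↥(laurentBaseChange K0 (modularFunctionFieldFull (M * q * q))),
      (∀ x, heckeAlphaBar K0 (M * q) q x ∈ W ↔ x ∈ va2V2 M q hM K0 A0) → W = Wb)
    (c0 c1 : A0) (hc : IsLocalRing.residue A0 c0 ≠ IsLocalRing.residue A0 c1)
    (t : ↥(laurentBaseChange K0 (modularFunctionFieldFull (M * q * q))))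
    (ht : (t : LaurentSeries K0) = cinstU H K0 (c0 : K0) (c1 : K0))
    (τ : A0) (hτ : Irreducible τ) (m : ℕ) (hm : 0 < m) :
    -- the inputs on the valuations
    ((∀ a : A0, algebraMap A0 ↥(laurentBaseChange K0 (modularFunctionFieldFull (M * q * q))) a ∈
        va2V1 (M * q) q K0 A0) ∧
      (∀ a : A0, algebraMap A0 ↥(laurentBaseChange K0 (modularFunctionFieldFull (M * q * q))) a ∈
        Wb) ∧
      (∀ a : A0, algebraMap A0 ↥(laurentBaseChange K0 (modularFunctionFieldFull (M * q * q))) a ∈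
        Wc) ∧
      algebraMap A0 ↥(laurentBaseChange K0 (modularFunctionFieldFull (M * q * q))) τ ∈
        (va2V1 (M * q) q K0 A0).nonunits ∧
      (∀ x ∈ (va2V1 (M * q) q K0 A0).nonunits,
        x * (algebraMap A0 ↥(laurentBaseChange K0 (modularFunctionFieldFull (M * q * q))) τ)⁻¹ ∈
          va2V1 (M * q) q K0 A0) ∧
      Transcendental K0 t ∧
      (∀ O' : ValuationSubring ↥(laurentBaseChange K0 (modularFunctionFieldFull (M * q * q))),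
        ChtSame K0 (va2V1 (M * q) q K0 A0) t O' →
          O' = va2V1 (M * q) q K0 A0 ∨ O' = Wb ∨ O' = Wc)) ∧
    -- the chart bundle
    (t * t⁻¹ = 1 ∧ t ∈ chtO A0 {t} ∧ t⁻¹ ∈ chtO A0 {t⁻¹} ∧
    (∃ b0 : Finset ↥(laurentBaseChange K0 (modularFunctionFieldFull (M * q * q))),
      (∀ y ∈ b0, y ∈ chtO A0 {t}) ∧ ∀ y ∈ chtO A0 {t}, y ∈ Submodule.span A0
      (Set.image2 (fun (k : ℕ)
        (y' : ↥(laurentBaseChange K0 (modularFunctionFieldFull (M * q * q)))) => t ^ k * y')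
        Set.univ (b0 : Set ↥(laurentBaseChange K0 (modularFunctionFieldFull (M * q * q)))))) ∧
    (∃ b1 : Finset ↥(laurentBaseChange K0 (modularFunctionFieldFull (M * q * q))),
      (∀ y ∈ b1, y ∈ chtO A0 {t⁻¹}) ∧ ∀ y ∈ chtO A0 {t⁻¹}, y ∈ Submodule.span A0
      (Set.image2 (fun (k : ℕ)
        (y' : ↥(laurentBaseChange K0 (modularFunctionFieldFull (M * q * q)))) => t⁻¹ ^ k * y')
        Set.univ (b1 : Set ↥(laurentBaseChange K0 (modularFunctionFieldFull (M * q * q)))))) ∧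
    (∀ x ∈ chtO A0 {t}, ∃ n : ℕ, x * t⁻¹ ^ n ∈ chtO A0 {t⁻¹}) ∧
    (∀ x ∈ chtO A0 {t⁻¹}, ∃ n : ℕ, x * t ^ n ∈ chtO A0 {t}) ∧
    (∀ x : ↥(laurentBaseChange K0 (modularFunctionFieldFull (M * q * q))),
      ∃ a ∈ chtO A0 {t}, ∃ s ∈ chtO A0 {t}, s ≠ 0 ∧ x * s = a) ∧
    (∀ x : ↥(laurentBaseChange K0 (modularFunctionFieldFull (M * q * q))),
      ∃ a ∈ chtO A0 {t⁻¹}, ∃ s ∈ chtO A0 {t⁻¹}, s ≠ 0 ∧ x * s = a) ∧
    (∀ z : ↥(laurentBaseChange K0 (modularFunctionFieldFull (M * q * q))),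
      z ^ m ∈ chtO A0 {t} → z ∈ chtO A0 {t}) ∧
    (∀ z : ↥(laurentBaseChange K0 (modularFunctionFieldFull (M * q * q))),
      z ^ m ∈ chtO A0 {t⁻¹} → z ∈ chtO A0 {t⁻¹}) ∧
    (∀ x ∈ chtO A0 {t}, x ∈ chtO A0 {t⁻¹} →
      x ∈ Set.range
        (algebraMap A0 ↥(laurentBaseChange K0 (modularFunctionFieldFull (M * q * q))))) ∧
    (∀ x ∈ chtO A0 {t}, x ∈ va2V1 (M * q) q K0 A0 ∧ x ∈ Wb ∧ x ∈ Wc) ∧
    (∀ x ∈ chtO A0 {t⁻¹}, x ∈ va2V1 (M * q) q K0 A0 ∧ x ∈ Wb ∧ x ∈ Wc) ∧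
    (∀ x ∈ chtO A0 {t},
      x * (algebraMap A0 ↥(laurentBaseChange K0 (modularFunctionFieldFull (M * q * q))) τ)⁻¹ ∈
        va2V1 (M * q) q K0 A0 →
      x * (algebraMap A0 ↥(laurentBaseChange K0 (modularFunctionFieldFull (M * q * q))) τ)⁻¹ ∈
        Wb →
      x * (algebraMap A0 ↥(laurentBaseChange K0 (modularFunctionFieldFull (M * q * q))) τ)⁻¹ ∈
        Wc →
      x * (algebraMap A0 ↥(laurentBaseChange K0 (modularFunctionFieldFull (M * q * q))) τ)⁻¹ ∈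
        chtO A0 {t}) ∧
    (∀ x ∈ chtO A0 {t⁻¹},
      x * (algebraMap A0 ↥(laurentBaseChange K0 (modularFunctionFieldFull (M * q * q))) τ)⁻¹ ∈
        va2V1 (M * q) q K0 A0 →
      x * (algebraMap A0 ↥(laurentBaseChange K0 (modularFunctionFieldFull (M * q * q))) τ)⁻¹ ∈
        Wb →
      x * (algebraMap A0 ↥(laurentBaseChange K0 (modularFunctionFieldFull (M * q * q))) τ)⁻¹ ∈
        Wc →
      x * (algebraMap A0 ↥(laurentBaseChange K0 (modularFunctionFieldFull (M * q * q))) τ)⁻¹ ∈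
        chtO A0 {t⁻¹}) ∧
    IsNoetherianRing ↥(chtO A0 {t}) ∧ IsNoetherianRing ↥(chtO A0 {t⁻¹}) ∧
    (∀ x : ↥(laurentBaseChange K0 (modularFunctionFieldFull (M * q * q))),
      IsIntegral ↥(chtO A0 {t}) x → x ∈ chtO A0 {t}) ∧
    (∀ x : ↥(laurentBaseChange K0 (modularFunctionFieldFull (M * q * q))),
      IsIntegral ↥(chtO A0 {t⁻¹}) x → x ∈ chtO A0 {t⁻¹})) := by
  have : CharZero K0 := algebraRat.charZero K0
  obtain ⟨hA, hτV, hτgen, htt, htV, htV', hG, hfin, hconst⟩ :=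
    c2i_hyps A0 (M * q * q) H (va2V1 (M * q) q K0 A0) (fun _ => Iff.rfl) c0 c1 hc t ht τ hτ
  have hex := s36c3_hex A0 M q hM H ha2 hA0 Wb Wc hexh1 hexh2 c0 c1 hc t ht
  have htα := s36c3_alpha_t M q H ha2 (c0 : K0) (c1 : K0) t ht
  set t₁ : ↥(laurentBaseChange K0 (modularFunctionFieldFull (M * q))) :=
    ⟨cinstU H K0 (c0 : K0) (c1 : K0), cinstU_mem H K0 (Dvd.dvd.mul_right ha2 q) _ _⟩ with ht₁
  have htα' : t⁻¹ = heckeAlphaBar K0 (M * q) q t₁⁻¹ := by rw [htα, map_inv₀]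
  have ht₁V1 : t₁ ∈ va2V1 M q K0 A0 := by
    rw [mem_va2V1]
    exact cinstU_mem_grV H A0 c0 c1
  have ht₁V1' : t₁⁻¹ ∈ va2V1 M q K0 A0 := by
    rw [mem_va2V1, IntermediateField.coe_inv]
    exact cinstU_inv_mem_grV H A0 c0 c1
  have ht₁V2 : t₁ ∈ va2V2 M q hM K0 A0 := va2_htV2 A0 M q hM H ha2 c0 c1 t₁ rfl
  have ht₁V2' : t₁⁻¹ ∈ va2V2 M q hM K0 A0 := va2_htV2' A0 M q hM H ha2 c0 c1 t₁ rfl
  have hmap : ∀ a : A0,
      algebraMap A0 ↥(laurentBaseChange K0 (modularFunctionFieldFull (M * q * q))) a =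
        heckeAlphaBar K0 (M * q) q
          (algebraMap K0 ↥(laurentBaseChange K0 (modularFunctionFieldFull (M * q))) (a : K0)) := by
    intro a
    rw [AlgHom.commutes]
    exact IsScalarTower.algebraMap_apply A0 K0
      ↥(laurentBaseChange K0 (modularFunctionFieldFull (M * q * q))) a
  have hA₂ : ∀ a : A0,
      algebraMap A0 ↥(laurentBaseChange K0 (modularFunctionFieldFull (M * q * q))) a ∈ Wb := by
    intro a
    rw [hmap, halb]
    exact va2_const_mem_V2 A0 M q hM a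
  have hA₃ : ∀ a : A0,
      algebraMap A0 ↥(laurentBaseChange K0 (modularFunctionFieldFull (M * q * q))) a ∈ Wc := by
    intro a
    rw [hmap, halc, mem_va2V1]
    exact gr_algebraMap_mem A0 a
  have htWb : t ∈ Wb := by rw [htα, halb]; exact ht₁V2
  have htWb' : t⁻¹ ∈ Wb := by rw [htα', halb]; exact ht₁V2'
  have htWc : t ∈ Wc := by rw [htα, halc]; exact ht₁V1
  have htWc' : t⁻¹ ∈ Wc := by rw [htα', halc]; exact ht₁V1'
  exact ⟨⟨hA, hA₂, hA₃, hτV, hτgen, htt, hex⟩,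
    s36c3_all (K0 := K0) (va2V1 (M * q) q K0 A0) Wb Wc hA hA₂ hA₃ hτ hτV t htt htV htV'
      htWb htWb' htWc htWc' hG hfin hex hconst m hm⟩

end Carrier

end Fermat.Agent.S36
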