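import Mathlib
import Fermat.Agent.S34.InstMod2
import Fermat.Agent.S35.GaussSep
import Fermat.Agent.S35.HCoreDef
import Fermat.Agent.S36.Deg3
import Fermat.Agent.S36.Const3
import Fermat.Agent.S36.VertTor

/-!
# S36, [VT-INST]: `s36vr_main` (VERT3-NORM ∘ TORIC3) at the carrier

Carrier: `q ∤ M` a prime, `F₁ = K0(X₀(M q))`, `F₂ = K0(X₀(M q²))`,
`al = heckeAlphaBar K0 (M q) q`, `be = heckeBetaBar K0 (M q) q`, the two norms
`s35NormA K0 (M q) q`, `s35NormB K0 (M q) q`, `V₁ = va2V1 M q K0 A0`, `V₂ = va2V2 M q hM K0 A0`,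
`A0` a discrete valuation subring of `K0` over `q` with uniformizer `τ`, `q` unramified.
-/

set_option autoImplicit false
set_option linter.unusedSectionVars false
set_option linter.style.haveILetI false

noncomputable section

open ModularCurve AlgebraicCurve
open Fermat.Agent.S18 Fermat.Agent.S34 Fermat.Agent.S35 Fermat.Agent.S37

namespace Fermat.Agent.S36

local notation "Qb" => AlgebraicClosure ℚ

/-! ### abstract helpers -/

section Abs

variable {F : Type*} [Field F]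

/-- discreteness w.r.t. a non-unit `τ` makes `τ` a generator of the maximal ideal -/
theorem s36vc_gen_of_dec (V : ValuationSubring F) (τ : F) (hτ0 : τ ≠ 0) (hτ : τ ∈ V.nonunits)
    (hdec : ∀ z : F, z ≠ 0 → ∃ j : ℤ, z * τ ^ j ∈ V ∧ (z * τ ^ j)⁻¹ ∈ V) :
    ∀ x ∈ V.nonunits, x * τ⁻¹ ∈ V := by
  intro x hx
  by_cases hx0 : x = 0
  · rw [hx0, zero_mul]
    exact V.zero_mem
  obtain ⟨i, hi⟩ := s36vt_dec V τ hτ0 hdec x hx0
  have hδ0 : V.valuation τ ≠ 0 := (Valuation.ne_zero_iff _).mpr hτ0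
  have hδ1 : V.valuation τ < 1 := (V.mem_nonunits_iff).mp hτ
  have hx1 : V.valuation x < 1 := (V.mem_nonunits_iff).mp hx
  rw [hi] at hx1
  have hpos : 0 < i := s36vt_exp_pos hδ0 hδ1 hx1
  obtain ⟨n, hn⟩ : ∃ n : ℕ, i = n + 1 := ⟨(i - 1).toNat, by omega⟩
  rw [← V.valuation_le_one_iff, map_mul, map_inv₀, hi, hn, zpow_add₀ hδ0, zpow_one,
    mul_inv_cancel_right₀ hδ0, zpow_natCast]
  exact pow_le_one₀ zero_le hδ1.le

end Abs

section Base

variable {K0 : Type*} [Field K0] (A0 : ValuationSubring K0) [IsDiscreteValuationRing ↥A0]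

/-- over an unramified base, `q / τ` is a unit of `A0` -/
theorem s36vc_unit_q (q : ℕ) (hA0 : A0.LiesOverPrime q)
    (hunr : ∀ x ∈ A0.nonunits, x * ((q : ℕ) : K0)⁻¹ ∈ A0) (τ : A0) (hτ : Irreducible τ) :
    ((q : ℕ) : K0) * (τ : K0)⁻¹ ∈ A0 ∧ (τ : K0) * ((q : ℕ) : K0)⁻¹ ∈ A0 := by
  have hτ0 : (τ : K0) ≠ 0 := fun h => hτ.ne_zero (Subtype.ext h)
  have hτn : (τ : K0) ∈ A0.nonunits := by
    rw [ValuationSubring.coe_mem_nonunits_iff, IsLocalRing.mem_maximalIdeal, mem_nonunits_iff]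
    exact hτ.not_isUnit
  refine ⟨?_, hunr _ hτn⟩
  have hqA : ((q : ℕ) : K0) ∈ A0 := A0.nonunits_le hA0
  have hqm : (⟨((q : ℕ) : K0), hqA⟩ : ↥A0) ∈ IsLocalRing.maximalIdeal ↥A0 := by
    rw [← ValuationSubring.coe_mem_nonunits_iff]
    exact hA0
  rw [hτ.maximalIdeal_eq, Ideal.mem_span_singleton'] at hqm
  obtain ⟨a, ha⟩ := hqm
  have h1 : ((q : ℕ) : K0) = (a : K0) * (τ : K0) := by
    have := congrArg Subtype.val ha
    simpa using this.symm
  rw [h1, mul_inv_cancel_right₀ hτ0]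
  exact a.2

variable {E F : Type*} [Field E] [Field F] [Algebra K0 E] [Algebra ↥A0 E]
  [IsScalarTower ↥A0 K0 E]

/-- normalisation of a norm hypothesis `N f = c e ^ m` with `c ∈ K0`: the constant is a unit
of `A0` times a power of the uniformizer -/
theorem s36vc_norm_const (N : F →* E) (τ : A0) (hτ : Irreducible τ) (f : F) (hf : f ≠ 0)
    (m : ℕ) (h : ∃ (c : K0) (e : E), N f = algebraMap K0 E c * e ^ m) :
    ∃ (C : (↥A0)ˣ) (k : ℤ) (e : E),
      N f = algebraMap ↥A0 E (C : ↥A0) * algebraMap ↥A0 E τ ^ k * e ^ m := by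
  obtain ⟨c, e, hN⟩ := h
  have hN0 : N f ≠ 0 := s36vt_map_ne_zero N hf
  have hc : c ≠ 0 := by
    rintro rfl
    rw [map_zero, zero_mul] at hN
    exact hN0 hN
  have hτ0 : (τ : K0) ≠ 0 := fun h => hτ.ne_zero (Subtype.ext h)
  obtain ⟨j, hj1, hj2⟩ := gsp_const_dec A0 τ hτ c hc
  have hne : c * (τ : K0) ^ j ≠ 0 := mul_ne_zero hc (zpow_ne_zero j hτ0)
  let C : (↥A0)ˣ := ⟨⟨c * (τ : K0) ^ j, hj1⟩, ⟨(c * (τ : K0) ^ j)⁻¹, hj2⟩,
    Subtype.ext (mul_inv_cancel₀ hne), Subtype.ext (inv_mul_cancel₀ hne)⟩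
  refine ⟨C, -j, e, ?_⟩
  have h1 : algebraMap ↥A0 E (C : ↥A0) = algebraMap K0 E (c * (τ : K0) ^ j) :=
    IsScalarTower.algebraMap_apply ↥A0 K0 E _
  have h2 : algebraMap ↥A0 E τ = algebraMap K0 E (τ : K0) :=
    IsScalarTower.algebraMap_apply ↥A0 K0 E _
  rw [hN, h1, h2, map_mul, map_zpow₀, mul_assoc (algebraMap K0 E c), ← zpow_add₀
    ((_root_.map_ne_zero _).mpr hτ0), add_neg_cancel, zpow_zero, mul_one]

end Base

/-! ### the carrier -/

section Carrier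

variable (M q : ℕ) [NeZero M] [hq : Fact q.Prime] (hM : ¬ q ∣ M)
  (K0 : Type*) [Field K0] [Algebra ℚ K0] [Algebra K0 Qb]
  (A0 : ValuationSubring K0) [IsDiscreteValuationRing ↥A0]

/-- the `α`-norm of a constant is its `q`-th power -/
theorem s36vc_norm_al (c : K0) :
    s35NormA K0 (M * q) q
        (algebraMap K0 ↥(laurentBaseChange K0 (modularFunctionFieldFull (M * q * q))) c) =
      algebraMap K0 ↥(laurentBaseChange K0 (modularFunctionFieldFull (M * q))) c ^ q := by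
  rw [s35NormA_def]
  letI := algebraAlong (heckeAlphaBar K0 (M * q) q)
  have h1 : algebraMap K0 ↥(laurentBaseChange K0 (modularFunctionFieldFull (M * q * q))) c =
      algebraMap ↥(laurentBaseChange K0 (modularFunctionFieldFull (M * q)))
        ↥(laurentBaseChange K0 (modularFunctionFieldFull (M * q * q)))
        (algebraMap K0 ↥(laurentBaseChange K0 (modularFunctionFieldFull (M * q))) c) :=
    ((heckeAlphaBar K0 (M * q) q).commutes c).symm
  rw [h1, Algebra.norm_algebraMap]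
  congr 1
  exact s36d_finrank_alpha K0 (M * q) q hq.out (dvd_mul_left q M)

include hM in
/-- the `β`-norm of a constant is its `q`-th power -/
theorem s36vc_norm_be (c : K0) :
    s35NormB K0 (M * q) q
        (algebraMap K0 ↥(laurentBaseChange K0 (modularFunctionFieldFull (M * q * q))) c) =
      algebraMap K0 ↥(laurentBaseChange K0 (modularFunctionFieldFull (M * q))) c ^ q := by
  rw [s35NormB_def]
  letI := algebraAlong (heckeBetaBar K0 (M * q) q)
  have h1 : algebraMap K0 ↥(laurentBaseChange K0 (modularFunctionFieldFull (M * q * q))) c =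
      algebraMap ↥(laurentBaseChange K0 (modularFunctionFieldFull (M * q)))
        ↥(laurentBaseChange K0 (modularFunctionFieldFull (M * q * q)))
        (algebraMap K0 ↥(laurentBaseChange K0 (modularFunctionFieldFull (M * q))) c) :=
    ((heckeBetaBar K0 (M * q) q).commutes c).symm
  rw [h1, Algebra.norm_algebraMap]
  congr 1
  exact s36d_finrank_beta K0 M q hq.out hM

/-- **[VT-INST], the binder bundle**: the hypotheses of `s36vr_main` (VERT-TOR, finding 264)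
at the carrier that do not depend on the function: from the VAL3 table (six `iff`s), residue
degree one of `W_c` over `V₁` via `al`, the uniformiser `π` of `W_c` (`π ^ (q - 1) / q` a unit
of `W_c`), discreteness of `W_a` and `q` unramified in `A0`. -/
theorem s36vc_binders
    [Algebra ↥A0 ↥(laurentBaseChange K0 (modularFunctionFieldFull (M * q)))]
    [IsScalarTower ↥A0 K0 ↥(laurentBaseChange K0 (modularFunctionFieldFull (M * q)))]
    [Algebra ↥A0 ↥(laurentBaseChange K0 (modularFunctionFieldFull (M * q * q)))]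
    [IsScalarTower ↥A0 K0 ↥(laurentBaseChange K0 (modularFunctionFieldFull (M * q * q)))]
    {a2 : ℕ} (H : HauptRec a2 q) (ha2 : a2 ∣ M)
    (hA0 : A0.LiesOverPrime q)
    (hunr : ∀ x ∈ A0.nonunits, x * ((q : ℕ) : K0)⁻¹ ∈ A0)
    (τ : A0) (hτ : Irreducible τ)
    (Wa Wb Wc : ValuationSubring ↥(laurentBaseChange K0 (modularFunctionFieldFull (M * q * q))))
    -- the table (contract 245: `s36v3_al_Wa`, …, `s36v3_be_Wc`)
    (hαa : ∀ x : ↥(laurentBaseChange K0 (modularFunctionFieldFull (M * q))),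
      heckeAlphaBar K0 (M * q) q x ∈ Wa ↔ x ∈ va2V1 M q K0 A0)
    (hβa : ∀ x : ↥(laurentBaseChange K0 (modularFunctionFieldFull (M * q))),
      heckeBetaBar K0 (M * q) q x ∈ Wa ↔ x ∈ va2V1 M q K0 A0)
    (hαb : ∀ x : ↥(laurentBaseChange K0 (modularFunctionFieldFull (M * q))),
      heckeAlphaBar K0 (M * q) q x ∈ Wb ↔ x ∈ va2V2 M q hM K0 A0)
    (hβb : ∀ x : ↥(laurentBaseChange K0 (modularFunctionFieldFull (M * q))),
      heckeBetaBar K0 (M * q) q x ∈ Wb ↔ x ∈ va2V2 M q hM K0 A0)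
    (hαc : ∀ x : ↥(laurentBaseChange K0 (modularFunctionFieldFull (M * q))),
      heckeAlphaBar K0 (M * q) q x ∈ Wc ↔ x ∈ va2V1 M q K0 A0)
    (hβc : ∀ x : ↥(laurentBaseChange K0 (modularFunctionFieldFull (M * q))),
      heckeBetaBar K0 (M * q) q x ∈ Wc ↔ x ∈ va2V2 M q hM K0 A0)
    -- residue degree one of `W_c` over `V₁` (contract 245: `s36v3_res_al_Wc`)
    (hRαc : ∀ z ∈ Wc, ∃ r ∈ va2V1 M q K0 A0,
      z - heckeAlphaBar K0 (M * q) q r ∈ Wc.nonunits)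
    -- the uniformiser of `W_c` (contract 245: `s36v3_z_unif`)
    (π : ↥(laurentBaseChange K0 (modularFunctionFieldFull (M * q * q)))) (hπ0 : π ≠ 0)
    (hπq : π ^ (q - 1) * ((q : ℕ) :
      ↥(laurentBaseChange K0 (modularFunctionFieldFull (M * q * q))))⁻¹ ∈ Wc)
    (hπq' : (π ^ (q - 1) * ((q : ℕ) :
      ↥(laurentBaseChange K0 (modularFunctionFieldFull (M * q * q))))⁻¹)⁻¹ ∈ Wc)
    -- discreteness of `W_a`
    (hdeca : ∀ z : ↥(laurentBaseChange K0 (modularFunctionFieldFull (M * q * q))), z ≠ 0 →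
      ∃ j : ℤ,
        z * algebraMap ↥A0 ↥(laurentBaseChange K0 (modularFunctionFieldFull (M * q * q))) τ ^ j
          ∈ Wa ∧
        (z * algebraMap ↥A0 ↥(laurentBaseChange K0 (modularFunctionFieldFull (M * q * q))) τ ^ j)⁻¹
          ∈ Wa)
    (m : ℕ) (hm : 0 < m) (hmq : m.Coprime q) :
    -- `hαA`, `hβA`
    (∀ a : ↥A0, (heckeAlphaBar K0 (M * q) q).toRingHom
      (algebraMap ↥A0 ↥(laurentBaseChange K0 (modularFunctionFieldFull (M * q))) a) =
      algebraMap ↥A0 ↥(laurentBaseChange K0 (modularFunctionFieldFull (M * q * q))) a) ∧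
    (∀ a : ↥A0, (heckeBetaBar K0 (M * q) q).toRingHom
      (algebraMap ↥A0 ↥(laurentBaseChange K0 (modularFunctionFieldFull (M * q))) a) =
      algebraMap ↥A0 ↥(laurentBaseChange K0 (modularFunctionFieldFull (M * q * q))) a) ∧
    -- `hAa`, `hAb`, `hAc`
    (∀ a : ↥A0,
      algebraMap ↥A0 ↥(laurentBaseChange K0 (modularFunctionFieldFull (M * q * q))) a ∈ Wa) ∧
    (∀ a : ↥A0,
      algebraMap ↥A0 ↥(laurentBaseChange K0 (modularFunctionFieldFull (M * q * q))) a ∈ Wb) ∧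
    (∀ a : ↥A0,
      algebraMap ↥A0 ↥(laurentBaseChange K0 (modularFunctionFieldFull (M * q * q))) a ∈ Wc) ∧
    -- `hmA`
    IsUnit ((m : ℕ) : ↥A0) ∧
    -- `hconst`
    (∀ z ∈ Wc, ∀ c : ↥A0, IsUnit c →
      z ^ m - algebraMap ↥A0 ↥(laurentBaseChange K0 (modularFunctionFieldFull (M * q * q))) c ∈
        Wc.nonunits →
      ∃ c' : ↥A0, IsUnit c' ∧
        z - algebraMap ↥A0 ↥(laurentBaseChange K0 (modularFunctionFieldFull (M * q * q))) c' ∈
          Wc.nonunits) ∧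
    -- `hcst`
    (∀ c : ↥A0,
      algebraMap ↥A0 ↥(laurentBaseChange K0 (modularFunctionFieldFull (M * q * q))) c ∈ Wc.nonunits →
      algebraMap ↥A0 ↥(laurentBaseChange K0 (modularFunctionFieldFull (M * q * q))) c ∈ Wb.nonunits) ∧
    -- `hτ0`, `hτE0`, `hτa`, `hτb`, (`τ ∈ 𝔪_{W_c}`), `hτE1`, `hτE2`
    algebraMap ↥A0 ↥(laurentBaseChange K0 (modularFunctionFieldFull (M * q * q))) τ ≠ 0 ∧
    algebraMap ↥A0 ↥(laurentBaseChange K0 (modularFunctionFieldFull (M * q))) τ ≠ 0 ∧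
    algebraMap ↥A0 ↥(laurentBaseChange K0 (modularFunctionFieldFull (M * q * q))) τ ∈ Wa.nonunits ∧
    algebraMap ↥A0 ↥(laurentBaseChange K0 (modularFunctionFieldFull (M * q * q))) τ ∈ Wb.nonunits ∧
    algebraMap ↥A0 ↥(laurentBaseChange K0 (modularFunctionFieldFull (M * q * q))) τ ∈ Wc.nonunits ∧
    algebraMap ↥A0 ↥(laurentBaseChange K0 (modularFunctionFieldFull (M * q))) τ ∈
      (va2V1 M q K0 A0).nonunits ∧
    algebraMap ↥A0 ↥(laurentBaseChange K0 (modularFunctionFieldFull (M * q))) τ ∈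
      (va2V2 M q hM K0 A0).nonunits ∧
    -- `hdec1`, `hdec2`
    (∀ z : ↥(laurentBaseChange K0 (modularFunctionFieldFull (M * q))), z ≠ 0 → ∃ j : ℤ,
      z * algebraMap ↥A0 ↥(laurentBaseChange K0 (modularFunctionFieldFull (M * q))) τ ^ j
        ∈ va2V1 M q K0 A0 ∧
      (z * algebraMap ↥A0 ↥(laurentBaseChange K0 (modularFunctionFieldFull (M * q))) τ ^ j)⁻¹
        ∈ va2V1 M q K0 A0) ∧
    (∀ z : ↥(laurentBaseChange K0 (modularFunctionFieldFull (M * q))), z ≠ 0 → ∃ j : ℤ,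
      z * algebraMap ↥A0 ↥(laurentBaseChange K0 (modularFunctionFieldFull (M * q))) τ ^ j
        ∈ va2V2 M q hM K0 A0 ∧
      (z * algebraMap ↥A0 ↥(laurentBaseChange K0 (modularFunctionFieldFull (M * q))) τ ^ j)⁻¹
        ∈ va2V2 M q hM K0 A0) ∧
    -- `hπτ`
    (π ^ (q - 1) *
        (algebraMap ↥A0 ↥(laurentBaseChange K0 (modularFunctionFieldFull (M * q * q))) τ)⁻¹ ∈ Wc ∧
      (π ^ (q - 1) *
        (algebraMap ↥A0 ↥(laurentBaseChange K0 (modularFunctionFieldFull (M * q * q))) τ)⁻¹)⁻¹ ∈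
        Wc) ∧
    -- `hNτ1`, `hNτ2`
    s35NormA K0 (M * q) q
      (algebraMap ↥A0 ↥(laurentBaseChange K0 (modularFunctionFieldFull (M * q * q))) τ) =
      algebraMap ↥A0 ↥(laurentBaseChange K0 (modularFunctionFieldFull (M * q))) τ ^ q ∧
    s35NormB K0 (M * q) q
      (algebraMap ↥A0 ↥(laurentBaseChange K0 (modularFunctionFieldFull (M * q * q))) τ) =
      algebraMap ↥A0 ↥(laurentBaseChange K0 (modularFunctionFieldFull (M * q))) τ ^ q ∧
    -- `Xa` with `hXa0`, `hXaa`, `hXab`, `hXac`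
    ∃ Xa : ↥(laurentBaseChange K0 (modularFunctionFieldFull (M * q * q))), Xa ≠ 0 ∧
      (Xa * (algebraMap ↥A0 ↥(laurentBaseChange K0 (modularFunctionFieldFull (M * q * q))) τ)⁻¹ ∈
          Wa ∧
        (Xa * (algebraMap ↥A0 ↥(laurentBaseChange K0 (modularFunctionFieldFull (M * q * q))) τ)⁻¹)⁻¹
          ∈ Wa) ∧
      (Xa ∈ Wb ∧ Xa⁻¹ ∈ Wb) ∧ (Xa ∈ Wc ∧ Xa⁻¹ ∈ Wc) := by
  classical
  haveI : CharZero K0 := algebraRat.charZero K0
  have hmapE : ∀ a : ↥A0,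
      algebraMap ↥A0 ↥(laurentBaseChange K0 (modularFunctionFieldFull (M * q))) a =
        algebraMap K0 ↥(laurentBaseChange K0 (modularFunctionFieldFull (M * q))) (a : K0) :=
    fun a => IsScalarTower.algebraMap_apply ↥A0 K0 _ a
  have hmapF : ∀ a : ↥A0,
      algebraMap ↥A0 ↥(laurentBaseChange K0 (modularFunctionFieldFull (M * q * q))) a =
        algebraMap K0 ↥(laurentBaseChange K0 (modularFunctionFieldFull (M * q * q))) (a : K0) :=
    fun a => IsScalarTower.algebraMap_apply ↥A0 K0 _ a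
  have hαA : ∀ a : ↥A0, (heckeAlphaBar K0 (M * q) q).toRingHom
      (algebraMap ↥A0 ↥(laurentBaseChange K0 (modularFunctionFieldFull (M * q))) a) =
      algebraMap ↥A0 ↥(laurentBaseChange K0 (modularFunctionFieldFull (M * q * q))) a := by
    intro a
    rw [hmapE, hmapF]
    exact (heckeAlphaBar K0 (M * q) q).commutes _
  have hβA : ∀ a : ↥A0, (heckeBetaBar K0 (M * q) q).toRingHom
      (algebraMap ↥A0 ↥(laurentBaseChange K0 (modularFunctionFieldFull (M * q))) a) =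
      algebraMap ↥A0 ↥(laurentBaseChange K0 (modularFunctionFieldFull (M * q * q))) a := by
    intro a
    rw [hmapE, hmapF]
    exact (heckeBetaBar K0 (M * q) q).commutes _
  have hVG : ∀ x : ↥(laurentBaseChange K0 (modularFunctionFieldFull (M * q))),
      x ∈ va2V1 M q K0 A0 ↔ (x : LaurentSeries K0) ∈ grV A0 := fun x => Iff.rfl
  have hA1 : ∀ a : ↥A0,
      algebraMap ↥A0 ↥(laurentBaseChange K0 (modularFunctionFieldFull (M * q))) a ∈
        va2V1 M q K0 A0 := fun a => by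
    rw [hmapE]
    exact (cinst_algebraMap_mem_iff (va2V1 M q K0 A0) hVG _).mpr a.2
  obtain ⟨hA2, hτ2, -⟩ := s34im_V2_basic M q hM K0 A0 τ hτ
  have hτmax : τ ∈ IsLocalRing.maximalIdeal ↥A0 := by
    rw [IsLocalRing.mem_maximalIdeal, mem_nonunits_iff]
    exact hτ.not_isUnit
  have hτ1 : algebraMap ↥A0 ↥(laurentBaseChange K0 (modularFunctionFieldFull (M * q))) τ ∈
      (va2V1 M q K0 A0).nonunits := by
    rw [hmapE]
    exact cinst_algebraMap_mem_nonunits (va2V1 M q K0 A0) hVG τ hτmax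
  have hAa : ∀ a : ↥A0,
      algebraMap ↥A0 ↥(laurentBaseChange K0 (modularFunctionFieldFull (M * q * q))) a ∈ Wa :=
    fun a => by
      rw [← hαA]
      exact (hαa _).mpr (hA1 a)
  have hAb : ∀ a : ↥A0,
      algebraMap ↥A0 ↥(laurentBaseChange K0 (modularFunctionFieldFull (M * q * q))) a ∈ Wb :=
    fun a => by
      rw [← hαA]
      exact (hαb _).mpr (hA2 a)
  have hAc : ∀ a : ↥A0,
      algebraMap ↥A0 ↥(laurentBaseChange K0 (modularFunctionFieldFull (M * q * q))) a ∈ Wc :=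
    fun a => by
      rw [← hαA]
      exact (hαc _).mpr (hA1 a)
  -- the uniformiser `τ`
  have hτK : (τ : K0) ≠ 0 := fun h => hτ.ne_zero (Subtype.ext h)
  have hτE0 : algebraMap ↥A0 ↥(laurentBaseChange K0 (modularFunctionFieldFull (M * q))) τ ≠ 0 := by
    rw [hmapE]
    exact (_root_.map_ne_zero _).mpr hτK
  have hτF0 :
      algebraMap ↥A0 ↥(laurentBaseChange K0 (modularFunctionFieldFull (M * q * q))) τ ≠ 0 := by
    rw [hmapF]
    exact (_root_.map_ne_zero _).mpr hτK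
  have hτa : algebraMap ↥A0 ↥(laurentBaseChange K0 (modularFunctionFieldFull (M * q * q))) τ ∈
      Wa.nonunits := by
    rw [← hαA]
    exact (s36hc_nonunits_iff _ _ _ hαa _).mpr hτ1
  have hτb : algebraMap ↥A0 ↥(laurentBaseChange K0 (modularFunctionFieldFull (M * q * q))) τ ∈
      Wb.nonunits := by
    rw [← hαA]
    exact (s36hc_nonunits_iff _ _ _ hαb _).mpr hτ2
  have hτc : algebraMap ↥A0 ↥(laurentBaseChange K0 (modularFunctionFieldFull (M * q * q))) τ ∈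
      Wc.nonunits := by
    rw [← hαA]
    exact (s36hc_nonunits_iff _ _ _ hαc _).mpr hτ1
  -- the separating element `t = be (x')`
  obtain ⟨hx2, hx2', hx0⟩ := gsp_x_unit₂ M q hM K0 A0 H ha2
  have hx1 := gsp_x_mem₁ M q hM K0 A0 H ha2 hA0
  obtain ⟨x', hx'⟩ : ∃ x' : ↥(laurentBaseChange K0 (modularFunctionFieldFull (M * q))),
      x' = heckeAlphaBar K0 M q (nunH K0 M H ha2) ^ q - heckeBetaBar K0 M q (nunH K0 M H ha2) :=
    ⟨_, rfl⟩
  rw [← hx'] at hx2 hx2' hx0 hx1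
  have ht0 : (heckeBetaBar K0 (M * q) q).toRingHom x' ≠ 0 := (_root_.map_ne_zero _).mpr hx0
  have hta : (heckeBetaBar K0 (M * q) q).toRingHom x' ∈ Wa.nonunits :=
    (s36hc_nonunits_iff _ _ _ hβa _).mpr hx1
  have htb : (heckeBetaBar K0 (M * q) q).toRingHom x' ∈ Wb ∧
      ((heckeBetaBar K0 (M * q) q).toRingHom x')⁻¹ ∈ Wb :=
    ⟨(hβb _).mpr hx2, by rw [← map_inv₀]; exact (hβb _).mpr hx2'⟩
  have htc : (heckeBetaBar K0 (M * q) q).toRingHom x' ∈ Wc ∧
      ((heckeBetaBar K0 (M * q) q).toRingHom x')⁻¹ ∈ Wc :=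
    ⟨(hβc _).mpr hx2, by rw [← map_inv₀]; exact (hβc _).mpr hx2'⟩
  have hgen := s36vc_gen_of_dec Wa _ hτF0 hτa hdeca
  obtain ⟨hXa0, hXaa, hXab, hXac⟩ := s36vt_sep Wa Wb Wc _ _ hτF0 hτb hτc hgen hta htb htc ht0
  -- `π ^ (q - 1) / τ` is a unit of `W_c`
  obtain ⟨hq1, hq2⟩ := s36vc_unit_q A0 q hA0 hunr τ hτ
  have hqK : ((q : ℕ) : K0) ≠ 0 := Nat.cast_ne_zero.mpr hq.out.ne_zero
  have hqF : ((q : ℕ) : ↥(laurentBaseChange K0 (modularFunctionFieldFull (M * q * q)))) ≠ 0 := by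
    rw [← map_natCast (algebraMap K0 ↥(laurentBaseChange K0 (modularFunctionFieldFull (M * q * q))))]
    exact (_root_.map_ne_zero _).mpr hqK
  have hπτ : π ^ (q - 1) *
        (algebraMap ↥A0 ↥(laurentBaseChange K0 (modularFunctionFieldFull (M * q * q))) τ)⁻¹ ∈ Wc ∧
      (π ^ (q - 1) *
        (algebraMap ↥A0 ↥(laurentBaseChange K0 (modularFunctionFieldFull (M * q * q))) τ)⁻¹)⁻¹ ∈
        Wc := by
    have e1 : π ^ (q - 1) *
        (algebraMap ↥A0 ↥(laurentBaseChange K0 (modularFunctionFieldFull (M * q * q))) τ)⁻¹ =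
        π ^ (q - 1) *
          ((q : ℕ) : ↥(laurentBaseChange K0 (modularFunctionFieldFull (M * q * q))))⁻¹ *
          algebraMap ↥A0 ↥(laurentBaseChange K0 (modularFunctionFieldFull (M * q * q)))
            ⟨_, hq1⟩ := by
      rw [hmapF, hmapF, map_mul, map_inv₀, map_natCast]
      field_simp
    have e2 : (π ^ (q - 1) *
        (algebraMap ↥A0 ↥(laurentBaseChange K0 (modularFunctionFieldFull (M * q * q))) τ)⁻¹)⁻¹ =
        (π ^ (q - 1) *
          ((q : ℕ) : ↥(laurentBaseChange K0 (modularFunctionFieldFull (M * q * q))))⁻¹)⁻¹ *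
          algebraMap ↥A0 ↥(laurentBaseChange K0 (modularFunctionFieldFull (M * q * q)))
            ⟨_, hq2⟩ := by
      rw [hmapF, hmapF, map_mul, map_inv₀, map_natCast]
      have hτF0' := hτF0
      rw [hmapF] at hτF0'
      have hπp : π ^ (q - 1) ≠ 0 := pow_ne_zero _ hπ0
      field_simp
    refine ⟨?_, ?_⟩
    · rw [e1]
      exact Wc.mul_mem _ _ hπq (hAc _)
    · rw [e2]
      exact Wc.mul_mem _ _ hπq' (hAc _)
  -- the norms of `τ`
  have hNτ1 : s35NormA K0 (M * q) q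
      (algebraMap ↥A0 ↥(laurentBaseChange K0 (modularFunctionFieldFull (M * q * q))) τ) =
      algebraMap ↥A0 ↥(laurentBaseChange K0 (modularFunctionFieldFull (M * q))) τ ^ q := by
    rw [hmapF, hmapE]
    exact s36vc_norm_al M q K0 _
  have hNτ2 : s35NormB K0 (M * q) q
      (algebraMap ↥A0 ↥(laurentBaseChange K0 (modularFunctionFieldFull (M * q * q))) τ) =
      algebraMap ↥A0 ↥(laurentBaseChange K0 (modularFunctionFieldFull (M * q))) τ ^ q := by
    rw [hmapF, hmapE]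
    exact s36vc_norm_be M q hM K0 _
  have hmA : IsUnit ((m : ℕ) : ↥A0) := cinst_isUnit_natCast A0 q hA0 m hmq
  have hconst := s36hc_transfer (heckeAlphaBar K0 (M * q) q).toRingHom hαA (va2V1 M q K0 A0) Wc
    hαc hRαc m (fun z hz c hc h => s36hc_V1 M q K0 A0 m hm z hz c hc h)
  have hcst := s36hc_cst (heckeAlphaBar K0 (M * q) q).toRingHom hαA (va2V1 M q K0 A0)
    (va2V2 M q hM K0 A0) Wb Wc hαc hαb (fun c h => s36hc_cst12 M q K0 A0 hM c h)
  exact ⟨hαA, hβA, hAa, hAb, hAc, hmA, hconst, hcst, hτF0, hτE0, hτa, hτb, hτc, hτ1, hτ2,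
    gsp_hdec₁ M q K0 A0 τ hτ, gsp_hdec₂ M q hM K0 A0 τ hτ, hπτ, hNτ1, hNτ2,
    _, hXa0, hXaa, hXab, hXac⟩

/-- **[VT-INST]**: `s36vr_main` at the carrier, in the `S36hCore` shape. -/
theorem s36vc_main
    [Algebra ↥A0 ↥(laurentBaseChange K0 (modularFunctionFieldFull (M * q)))]
    [IsScalarTower ↥A0 K0 ↥(laurentBaseChange K0 (modularFunctionFieldFull (M * q)))]
    [Algebra ↥A0 ↥(laurentBaseChange K0 (modularFunctionFieldFull (M * q * q)))]
    [IsScalarTower ↥A0 K0 ↥(laurentBaseChange K0 (modularFunctionFieldFull (M * q * q)))]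
    {a2 : ℕ} (H : HauptRec a2 q) (ha2 : a2 ∣ M)
    (hA0 : A0.LiesOverPrime q)
    (hunr : ∀ x ∈ A0.nonunits, x * ((q : ℕ) : K0)⁻¹ ∈ A0)
    (τ : A0) (hτ : Irreducible τ)
    (Wa Wb Wc : ValuationSubring ↥(laurentBaseChange K0 (modularFunctionFieldFull (M * q * q))))
    -- the table (contract 245: `s36v3_al_Wa`, …, `s36v3_be_Wc`)
    (hαa : ∀ x : ↥(laurentBaseChange K0 (modularFunctionFieldFull (M * q))),
      heckeAlphaBar K0 (M * q) q x ∈ Wa ↔ x ∈ va2V1 M q K0 A0)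
    (hβa : ∀ x : ↥(laurentBaseChange K0 (modularFunctionFieldFull (M * q))),
      heckeBetaBar K0 (M * q) q x ∈ Wa ↔ x ∈ va2V1 M q K0 A0)
    (hαb : ∀ x : ↥(laurentBaseChange K0 (modularFunctionFieldFull (M * q))),
      heckeAlphaBar K0 (M * q) q x ∈ Wb ↔ x ∈ va2V2 M q hM K0 A0)
    (hβb : ∀ x : ↥(laurentBaseChange K0 (modularFunctionFieldFull (M * q))),
      heckeBetaBar K0 (M * q) q x ∈ Wb ↔ x ∈ va2V2 M q hM K0 A0)
    (hαc : ∀ x : ↥(laurentBaseChange K0 (modularFunctionFieldFull (M * q))),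
      heckeAlphaBar K0 (M * q) q x ∈ Wc ↔ x ∈ va2V1 M q K0 A0)
    (hβc : ∀ x : ↥(laurentBaseChange K0 (modularFunctionFieldFull (M * q))),
      heckeBetaBar K0 (M * q) q x ∈ Wc ↔ x ∈ va2V2 M q hM K0 A0)
    -- residue degree one (contract 245: `s36v3_res_al_Wa`, `_al_Wc`, `_be_Wb`, `_be_Wc`)
    (hRαa : ∀ z ∈ Wa, ∃ r ∈ va2V1 M q K0 A0,
      z - heckeAlphaBar K0 (M * q) q r ∈ Wa.nonunits)
    (hRαc : ∀ z ∈ Wc, ∃ r ∈ va2V1 M q K0 A0,
      z - heckeAlphaBar K0 (M * q) q r ∈ Wc.nonunits)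
    (hRβb : ∀ z ∈ Wb, ∃ r ∈ va2V2 M q hM K0 A0,
      z - heckeBetaBar K0 (M * q) q r ∈ Wb.nonunits)
    (hRβc : ∀ z ∈ Wc, ∃ r ∈ va2V2 M q hM K0 A0,
      z - heckeBetaBar K0 (M * q) q r ∈ Wc.nonunits)
    -- the uniformiser of `W_c` (contract 245: `s36v3_z_unif`)
    (π : ↥(laurentBaseChange K0 (modularFunctionFieldFull (M * q * q)))) (hπ0 : π ≠ 0)
    (hπc : π ∈ Wc.nonunits)
    (hπq : π ^ (q - 1) * ((q : ℕ) :
      ↥(laurentBaseChange K0 (modularFunctionFieldFull (M * q * q))))⁻¹ ∈ Wc)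
    (hπq' : (π ^ (q - 1) * ((q : ℕ) :
      ↥(laurentBaseChange K0 (modularFunctionFieldFull (M * q * q))))⁻¹)⁻¹ ∈ Wc)
    (hπa : π ∈ Wa) (hπa' : π⁻¹ ∈ Wa) (hπb : π ∈ Wb) (hπb' : π⁻¹ ∈ Wb)
    -- discreteness of the three valuations
    (hdeca : ∀ z : ↥(laurentBaseChange K0 (modularFunctionFieldFull (M * q * q))), z ≠ 0 →
      ∃ j : ℤ,
        z * algebraMap ↥A0 ↥(laurentBaseChange K0 (modularFunctionFieldFull (M * q * q))) τ ^ j
          ∈ Wa ∧
        (z * algebraMap ↥A0 ↥(laurentBaseChange K0 (modularFunctionFieldFull (M * q * q))) τ ^ j)⁻¹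
          ∈ Wa)
    (hdecb : ∀ z : ↥(laurentBaseChange K0 (modularFunctionFieldFull (M * q * q))), z ≠ 0 →
      ∃ j : ℤ,
        z * algebraMap ↥A0 ↥(laurentBaseChange K0 (modularFunctionFieldFull (M * q * q))) τ ^ j
          ∈ Wb ∧
        (z * algebraMap ↥A0 ↥(laurentBaseChange K0 (modularFunctionFieldFull (M * q * q))) τ ^ j)⁻¹
          ∈ Wb)
    (hdecc : ∀ z : ↥(laurentBaseChange K0 (modularFunctionFieldFull (M * q * q))), z ≠ 0 →
      ∃ j : ℤ, z * π ^ j ∈ Wc ∧ (z * π ^ j)⁻¹ ∈ Wc)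
    (m : ℕ) (hm : 0 < m) (hmq : m.Coprime q)
    -- norm residue (NR3-INST)
    (hNα1 : ∀ (z : ↥(laurentBaseChange K0 (modularFunctionFieldFull (M * q * q))))
      (za zc : ↥(laurentBaseChange K0 (modularFunctionFieldFull (M * q)))),
      za ∈ va2V1 M q K0 A0 → zc ∈ va2V1 M q K0 A0 →
      z - heckeAlphaBar K0 (M * q) q za ∈ Wa.nonunits →
      z - heckeAlphaBar K0 (M * q) q zc ∈ Wc.nonunits →
      s35NormA K0 (M * q) q z - za * zc ^ (q - 1) ∈ (va2V1 M q K0 A0).nonunits)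
    (hNα2 : ∀ z : ↥(laurentBaseChange K0 (modularFunctionFieldFull (M * q * q))), z ∈ Wb →
      heckeAlphaBar K0 (M * q) q (s35NormA K0 (M * q) q z) - z ^ q ∈ Wb.nonunits)
    (hNβ2 : ∀ (z : ↥(laurentBaseChange K0 (modularFunctionFieldFull (M * q * q))))
      (zb zc : ↥(laurentBaseChange K0 (modularFunctionFieldFull (M * q)))),
      zb ∈ va2V2 M q hM K0 A0 → zc ∈ va2V2 M q hM K0 A0 →
      z - heckeBetaBar K0 (M * q) q zb ∈ Wb.nonunits →
      z - heckeBetaBar K0 (M * q) q zc ∈ Wc.nonunits →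
      s35NormB K0 (M * q) q z - zb * zc ^ (q - 1) ∈ (va2V2 M q hM K0 A0).nonunits)
    (hNβ1 : ∀ z : ↥(laurentBaseChange K0 (modularFunctionFieldFull (M * q * q))), z ∈ Wa →
      heckeBetaBar K0 (M * q) q (s35NormB K0 (M * q) q z) - z ^ q ∈ Wa.nonunits)
    -- approximation (APP3-INST)
    (happ : ∀ za zb zc : ↥(laurentBaseChange K0 (modularFunctionFieldFull (M * q * q))),
      za ∈ Wa → zb ∈ Wb → zc ∈ Wc →
      ∃ z : ↥(laurentBaseChange K0 (modularFunctionFieldFull (M * q * q))),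
        z - za ∈ Wa.nonunits ∧ z - zb ∈ Wb.nonunits ∧ z - zc ∈ Wc.nonunits)
    -- the function
    (f1 : ↥(laurentBaseChange K0 (modularFunctionFieldFull (M * q * q)))) (hf1 : f1 ≠ 0)
    (hNa : ∃ (c : K0) (e : ↥(laurentBaseChange K0 (modularFunctionFieldFull (M * q)))),
      s35NormA K0 (M * q) q f1 =
        algebraMap K0 ↥(laurentBaseChange K0 (modularFunctionFieldFull (M * q))) c * e ^ m)
    (hNb : ∃ (c : K0) (e : ↥(laurentBaseChange K0 (modularFunctionFieldFull (M * q)))),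
      s35NormB K0 (M * q) q f1 =
        algebraMap K0 ↥(laurentBaseChange K0 (modularFunctionFieldFull (M * q))) c * e ^ m) :
    ∃ (i : ℤ) (g x : ↥(laurentBaseChange K0 (modularFunctionFieldFull (M * q * q)))),
      g ≠ 0 ∧
      x = f1 ^ (q + 1) *
        algebraMap ↥A0 ↥(laurentBaseChange K0 (modularFunctionFieldFull (M * q * q))) τ ^ i *
          g ^ m ∧
      x ≠ 0 ∧ (x ∈ Wa ∧ x⁻¹ ∈ Wa) ∧ (x ∈ Wb ∧ x⁻¹ ∈ Wb) ∧ (x ∈ Wc ∧ x⁻¹ ∈ Wc) ∧
      ∃ (C : ↥A0) (ω : ↥(laurentBaseChange K0 (modularFunctionFieldFull (M * q * q)))),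
        IsUnit C ∧ ω ≠ 0 ∧
        x ^ (q * (q - 1) * (q + 1)) *
          (algebraMap ↥A0 ↥(laurentBaseChange K0 (modularFunctionFieldFull (M * q * q))) C *
            ω ^ m)⁻¹ - 1 ∈ Wa.nonunits ∧
        x ^ (q * (q - 1) * (q + 1)) *
          (algebraMap ↥A0 ↥(laurentBaseChange K0 (modularFunctionFieldFull (M * q * q))) C *
            ω ^ m)⁻¹ - 1 ∈ Wb.nonunits ∧
        x ^ (q * (q - 1) * (q + 1)) *
          (algebraMap ↥A0 ↥(laurentBaseChange K0 (modularFunctionFieldFull (M * q * q))) C *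
            ω ^ m)⁻¹ - 1 ∈ Wc.nonunits ∧
        ∀ R : Subring ↥(laurentBaseChange K0 (modularFunctionFieldFull (M * q * q))),
          S36Tri (A := ↥A0) (heckeAlphaBar K0 (M * q) q).toRingHom
            (heckeBetaBar K0 (M * q) q).toRingHom (s35NormA K0 (M * q) q)
            (s35NormB K0 (M * q) q) Wa Wb Wc m R →
          ∀ u y : ↥(laurentBaseChange K0 (modularFunctionFieldFull (M * q * q))),
            u ∈ R → u⁻¹ ∈ R → x = u * y ^ m →
            ∃ γ : ↥(laurentBaseChange K0 (modularFunctionFieldFull (M * q * q))),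
              γ - 1 ∈ Wa.nonunits ∧ γ - 1 ∈ Wb.nonunits ∧ γ - 1 ∈ Wc.nonunits ∧
              ∃ r : ↥(laurentBaseChange K0 (modularFunctionFieldFull (M * q * q))),
                r ∈ R ∧ r⁻¹ ∈ R ∧ r ≠ 0 ∧
                x ^ (q * (q - 1) * (q + 1)) *
                  (algebraMap ↥A0 ↥(laurentBaseChange K0 (modularFunctionFieldFull (M * q * q)))
                    C * ω ^ m)⁻¹ = r * γ ^ m := by
  obtain ⟨hαA, hβA, hAa, hAb, hAc, hmA, hconst, hcst, hτF0, hτE0, hτa, hτb, -, hτ1, hτ2, hdec1,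
    hdec2, hπτ, hNτ1, hNτ2, Xa, hXa0, hXaa, hXab, hXac⟩ :=
    s36vc_binders M q hM K0 A0 H ha2 hA0 hunr τ hτ Wa Wb Wc hαa hβa hαb hβb hαc hβc hRαc π hπ0
      hπq hπq' hdeca m hm hmq
  obtain ⟨C1, k1, e1, h1⟩ := s36vc_norm_const A0 (s35NormA K0 (M * q) q) τ hτ f1 hf1 m hNa
  obtain ⟨C2, k2, e2, h2⟩ := s36vc_norm_const A0 (s35NormB K0 (M * q) q) τ hτ f1 hf1 m hNb
  have hq2' : 2 ≤ q := hq.out.two_le
  have hqe : q = (q - 1) + 1 := by omega
  have he : 0 < q - 1 := by omega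
  obtain ⟨i, j, k, x, hx, x0, xa, xb, xc, C, ω, hC, hω, hWa, hWb, hWc, htri⟩ :=
    s36vr_main (A := ↥A0) (heckeAlphaBar K0 (M * q) q).toRingHom
      (heckeBetaBar K0 (M * q) q).toRingHom hαA hβA
      (s35NormA K0 (M * q) q) (s35NormB K0 (M * q) q) Wa Wb Wc (va2V1 M q K0 A0)
      (va2V2 M q hM K0 A0) hAa hAb hAc hαa hαc hαb hβa hβb hβc q (q - 1) m hqe he hm hmA
      hNα1 hNα2 hNβ2 hNβ1 hRαa hRαc hRβb hRβc hconst hcst happ
      _ π Xa _ hτF0 hπ0 hXa0 hτE0 hτa hτb hπc hτ1 hτ2 hdeca hdecb hdecc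
      hdec1 hdec2 hπτ ⟨hπa, hπa'⟩ ⟨hπb, hπb'⟩
      hXaa hXab hXac hNτ1 hNτ2 f1 hf1 C1 C2 k1 k2 e1 e2 h1 h2
  exact ⟨i, _, x, mul_ne_zero (zpow_ne_zero j hXa0) (zpow_ne_zero k hπ0), hx, x0, xa, xb, xc,
    C, ω, hC, hω, hWa, hWb, hWc, htri⟩

end Carrier

end Fermat.Agent.S36
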