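import Mathlib
import Fermat.Agent.S18.CoreInstHord
import Fermat.Agent.S36.InstReduce36
import Fermat.Agent.S36.Charts3
import Fermat.Agent.S36.VertTorInst
import Fermat.Agent.S36.Inst36PostDat

/-!
# S36, package INST36, the field-level core in hypothesis form

`s36in_field_of`: the statement `S36inField (M * q) q m B K0` (`B = (q + 1) (q (q - 1) (q + 1)) q`)
over a generic field of definition `K0` with a discrete valuation subring `A0` in which `q` is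
a uniformiser, from

* the chart bundle `s36c3_chart` (CHT3) of the Hauptmodul charts of level `M q ^ 2`,
* the carrier form `s36vc_main` of VERT-TOR (VT-INST),
* the abstract assembly `s36in_post_dat` (GLUE3 + the point data),

for ANY two valuation subrings `W_b`, `W_c` with the statements of the VAL3 contract and the
point data of the two charts as hypotheses.
-/

set_option autoImplicit false
set_option linter.unusedSectionVars false
set_option linter.unusedVariables false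

noncomputable section

open ModularCurve AlgebraicCurve Polynomial
open Fermat.Agent.S18 Fermat.Agent.S34 Fermat.Agent.S35

namespace Fermat.Agent.S36

local notation "Qb" => AlgebraicClosure ℚ

section Field

variable (M q : ℕ) [NeZero M] [hq : Fact q.Prime] (hM : ¬ q ∣ M)
  (K0 : Type) [Field K0] [Algebra ℚ K0] [Algebra K0 Qb]
  (A0 : ValuationSubring K0) [IsDiscreteValuationRing ↥A0]
  {a2 : ℕ} (H : HauptRec a2 q)

/-- **INST36, the field-level core in hypothesis form.** -/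
theorem s36in_field_of
    [Algebra ↥A0 ↥(laurentBaseChange K0 (modularFunctionFieldFull (M * q)))]
    [IsScalarTower ↥A0 K0 ↥(laurentBaseChange K0 (modularFunctionFieldFull (M * q)))]
    [Algebra ↥A0 ↥(laurentBaseChange K0 (modularFunctionFieldFull (M * q * q)))]
    [IsScalarTower ↥A0 K0 ↥(laurentBaseChange K0 (modularFunctionFieldFull (M * q * q)))]
    (ha2 : a2 ∣ M) (hA0 : A0.LiesOverPrime q)
    (hunr : ∀ x ∈ A0.nonunits, x * ((q : ℕ) : K0)⁻¹ ∈ A0)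
    (τ : A0) (hτ : Irreducible τ)
    (Wb Wc : ValuationSubring ↥(laurentBaseChange K0 (modularFunctionFieldFull (M * q * q))))
    -- the table
    (hαa : ∀ x : ↥(laurentBaseChange K0 (modularFunctionFieldFull (M * q))),
      heckeAlphaBar K0 (M * q) q x ∈ va2V1 (M * q) q K0 A0 ↔ x ∈ va2V1 M q K0 A0)
    (hβa : ∀ x : ↥(laurentBaseChange K0 (modularFunctionFieldFull (M * q))),
      heckeBetaBar K0 (M * q) q x ∈ va2V1 (M * q) q K0 A0 ↔ x ∈ va2V1 M q K0 A0)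
    (hαb : ∀ x : ↥(laurentBaseChange K0 (modularFunctionFieldFull (M * q))),
      heckeAlphaBar K0 (M * q) q x ∈ Wb ↔ x ∈ va2V2 M q hM K0 A0)
    (hβb : ∀ x : ↥(laurentBaseChange K0 (modularFunctionFieldFull (M * q))),
      heckeBetaBar K0 (M * q) q x ∈ Wb ↔ x ∈ va2V2 M q hM K0 A0)
    (hαc : ∀ x : ↥(laurentBaseChange K0 (modularFunctionFieldFull (M * q))),
      heckeAlphaBar K0 (M * q) q x ∈ Wc ↔ x ∈ va2V1 M q K0 A0)
    (hβc : ∀ x : ↥(laurentBaseChange K0 (modularFunctionFieldFull (M * q))),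
      heckeBetaBar K0 (M * q) q x ∈ Wc ↔ x ∈ va2V2 M q hM K0 A0)
    -- exhaustion along `al`
    (hexh1 : ∀ W : ValuationSubring ↥(laurentBaseChange K0 (modularFunctionFieldFull (M * q * q))),
      (∀ x, heckeAlphaBar K0 (M * q) q x ∈ W ↔ x ∈ va2V1 M q K0 A0) →
      W = va2V1 (M * q) q K0 A0 ∨ W = Wc)
    (hexh2 : ∀ W : ValuationSubring ↥(laurentBaseChange K0 (modularFunctionFieldFull (M * q * q))),
      (∀ x, heckeAlphaBar K0 (M * q) q x ∈ W ↔ x ∈ va2V2 M q hM K0 A0) → W = Wb)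
    -- residue degree one
    (hRαa : ∀ z ∈ va2V1 (M * q) q K0 A0, ∃ r ∈ va2V1 M q K0 A0,
      z - heckeAlphaBar K0 (M * q) q r ∈ (va2V1 (M * q) q K0 A0).nonunits)
    (hRαc : ∀ z ∈ Wc, ∃ r ∈ va2V1 M q K0 A0,
      z - heckeAlphaBar K0 (M * q) q r ∈ Wc.nonunits)
    (hRβb : ∀ z ∈ Wb, ∃ r ∈ va2V2 M q hM K0 A0,
      z - heckeBetaBar K0 (M * q) q r ∈ Wb.nonunits)
    (hRβc : ∀ z ∈ Wc, ∃ r ∈ va2V2 M q hM K0 A0,
      z - heckeBetaBar K0 (M * q) q r ∈ Wc.nonunits)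
    -- the uniformiser of `W_c`
    (π : ↥(laurentBaseChange K0 (modularFunctionFieldFull (M * q * q)))) (hπ0 : π ≠ 0)
    (hπc : π ∈ Wc.nonunits)
    (hπq : π ^ (q - 1) * ((q : ℕ) :
      ↥(laurentBaseChange K0 (modularFunctionFieldFull (M * q * q))))⁻¹ ∈ Wc)
    (hπq' : (π ^ (q - 1) * ((q : ℕ) :
      ↥(laurentBaseChange K0 (modularFunctionFieldFull (M * q * q))))⁻¹)⁻¹ ∈ Wc)
    (hπa : π ∈ va2V1 (M * q) q K0 A0) (hπa' : π⁻¹ ∈ va2V1 (M * q) q K0 A0)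
    (hπb : π ∈ Wb) (hπb' : π⁻¹ ∈ Wb)
    -- discreteness of the three valuations
    (hdeca : ∀ z : ↥(laurentBaseChange K0 (modularFunctionFieldFull (M * q * q))), z ≠ 0 →
      ∃ j : ℤ,
        z * algebraMap ↥A0 ↥(laurentBaseChange K0 (modularFunctionFieldFull (M * q * q))) τ ^ j
          ∈ va2V1 (M * q) q K0 A0 ∧
        (z * algebraMap ↥A0 ↥(laurentBaseChange K0 (modularFunctionFieldFull (M * q * q))) τ ^ j)⁻¹
          ∈ va2V1 (M * q) q K0 A0)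
    (hdecb : ∀ z : ↥(laurentBaseChange K0 (modularFunctionFieldFull (M * q * q))), z ≠ 0 →
      ∃ j : ℤ,
        z * algebraMap ↥A0 ↥(laurentBaseChange K0 (modularFunctionFieldFull (M * q * q))) τ ^ j
          ∈ Wb ∧
        (z * algebraMap ↥A0 ↥(laurentBaseChange K0 (modularFunctionFieldFull (M * q * q))) τ ^ j)⁻¹
          ∈ Wb)
    (hdecc : ∀ z : ↥(laurentBaseChange K0 (modularFunctionFieldFull (M * q * q))), z ≠ 0 →
      ∃ j : ℤ, z * π ^ j ∈ Wc ∧ (z * π ^ j)⁻¹ ∈ Wc)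
    (m : ℕ) (hm2 : 2 ≤ m) (hmq : m.Coprime q)
    -- norm residue
    (hNα1 : ∀ (z : ↥(laurentBaseChange K0 (modularFunctionFieldFull (M * q * q))))
      (za zc : ↥(laurentBaseChange K0 (modularFunctionFieldFull (M * q)))),
      za ∈ va2V1 M q K0 A0 → zc ∈ va2V1 M q K0 A0 →
      z - heckeAlphaBar K0 (M * q) q za ∈ (va2V1 (M * q) q K0 A0).nonunits →
      z - heckeAlphaBar K0 (M * q) q zc ∈ Wc.nonunits →
      s35NormA K0 (M * q) q z - za * zc ^ (q - 1) ∈ (va2V1 M q K0 A0).nonunits)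
    (hNα2 : ∀ z : ↥(laurentBaseChange K0 (modularFunctionFieldFull (M * q * q))), z ∈ Wb →
      heckeAlphaBar K0 (M * q) q (s35NormA K0 (M * q) q z) - z ^ q ∈ Wb.nonunits)
    (hNβ2 : ∀ (z : ↥(laurentBaseChange K0 (modularFunctionFieldFull (M * q * q))))
      (zb zc : ↥(laurentBaseChange K0 (modularFunctionFieldFull (M * q)))),
      zb ∈ va2V2 M q hM K0 A0 → zc ∈ va2V2 M q hM K0 A0 →
      z - heckeBetaBar K0 (M * q) q zb ∈ Wb.nonunits →
      z - heckeBetaBar K0 (M * q) q zc ∈ Wc.nonunits →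
      s35NormB K0 (M * q) q z - zb * zc ^ (q - 1) ∈ (va2V2 M q hM K0 A0).nonunits)
    (hNβ1 : ∀ z : ↥(laurentBaseChange K0 (modularFunctionFieldFull (M * q * q))),
      z ∈ va2V1 (M * q) q K0 A0 →
      heckeBetaBar K0 (M * q) q (s35NormB K0 (M * q) q z) - z ^ q ∈
        (va2V1 (M * q) q K0 A0).nonunits)
    -- approximation
    (happ : ∀ za zb zc : ↥(laurentBaseChange K0 (modularFunctionFieldFull (M * q * q))),
      za ∈ va2V1 (M * q) q K0 A0 → zb ∈ Wb → zc ∈ Wc →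
      ∃ z : ↥(laurentBaseChange K0 (modularFunctionFieldFull (M * q * q))),
        z - za ∈ (va2V1 (M * q) q K0 A0).nonunits ∧ z - zb ∈ Wb.nonunits ∧ z - zc ∈ Wc.nonunits)
    -- the charts and the point data
    (c0 c1 : A0) (hc : IsLocalRing.residue A0 c0 ≠ IsLocalRing.residue A0 c1)
    (t : ↥(laurentBaseChange K0 (modularFunctionFieldFull (M * q * q))))
    (ht : (t : LaurentSeries K0) = cinstU H K0 (c0 : K0) (c1 : K0))
    (hpt₀ : ∀ 𝔫 : Ideal ↥(chtO A0 {t}), ∀ h𝔫 : 𝔫.IsMaximal,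
      algebraMap ↥A0 ↥(chtO A0 {t}) τ ∈ 𝔫 →
      S36inPtDat τ m q (va2V1 (M * q) q K0 A0) Wb Wc (chtO A0 {t}) 𝔫 ∨
      S36inPtTri τ m (heckeAlphaBar K0 (M * q) q).toRingHom
        (heckeBetaBar K0 (M * q) q).toRingHom (s35NormA K0 (M * q) q) (s35NormB K0 (M * q) q)
        (va2V1 (M * q) q K0 A0) Wb Wc (chtO A0 {t}) 𝔫 h𝔫.isPrime)
    (hpt₁ : ∀ 𝔫 : Ideal ↥(chtO A0 {t⁻¹}), ∀ h𝔫 : 𝔫.IsMaximal,
      algebraMap ↥A0 ↥(chtO A0 {t⁻¹}) τ ∈ 𝔫 →
      S36inPtDat τ m q (va2V1 (M * q) q K0 A0) Wb Wc (chtO A0 {t⁻¹}) 𝔫 ∨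
      S36inPtTri τ m (heckeAlphaBar K0 (M * q) q).toRingHom
        (heckeBetaBar K0 (M * q) q).toRingHom (s35NormA K0 (M * q) q) (s35NormB K0 (M * q) q)
        (va2V1 (M * q) q K0 A0) Wb Wc (chtO A0 {t⁻¹}) 𝔫 h𝔫.isPrime) :
    S36inField (M * q) q m ((q + 1) * (q * (q - 1) * (q + 1)) * q) K0 := by
  classical
  intro f1 hf1 hdiv hNa hNb
  have hm : 0 < m := by omega
  have hqp : q.Prime := hq.out
  -- the chart bundle
  obtain ⟨⟨hAa, hAb, hAc, hτa, hgena, htt, hex⟩, h1, h2, h3, ⟨b0, hb0, hspan0⟩, ⟨b1, hb1, hspan1⟩,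
      h01, h10, hfrac0, hfrac1, hroot0, hroot1, hcap, hV0, hV1, hdiv0, hdiv1, hNoe0, hNoe1,
      hic0, hic1⟩ :=
    s36c3_chart A0 M q hM H ha2 hA0 Wb Wc hαb hαc hexh1 hexh2 c0 c1 hc t ht τ hτ m hm
  -- the binders of VERT-TOR at the carrier
  obtain ⟨hαA, hβA, -, -, -, hmA, hconst, hcst, hτF0, hτE0, -, hτb, hτc, hτ1, hτ2, hdec1,
    hdec2, hπτ, hNτ1, hNτ2, Xa, hXa0, hXaa, hXab, hXac⟩ :=
    s36vc_binders M q hM K0 A0 H ha2 hA0 hunr τ hτ (va2V1 (M * q) q K0 A0) Wb Wc hαa hβa hαb hβb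
      hαc hβc hRαc π hπ0 hπq hπq' hdeca m hm hmq
  obtain ⟨i, g, x, hg0, hx, x0, ⟨xa, xa'⟩, ⟨xb, xb'⟩, ⟨xc, xc'⟩, C, ω, hC, hω0, hWa, hWb, hWc,
      htri⟩ :=
    s36vc_main M q hM K0 A0 H ha2 hA0 hunr τ hτ (va2V1 (M * q) q K0 A0) Wb Wc hαa hβa hαb hβb
      hαc hβc hRαa hRαc hRβb hRβc π hπ0 hπc hπq hπq' hπa hπa' hπb hπb' hdeca hdecb hdecc m hm
      hmq hNα1 hNα2 hNβ2 hNβ1 happ f1 hf1 hNa hNb
  have ht0 : t ≠ 0 := left_ne_zero_of_mul_eq_one h1
  have hτmax : τ ∈ IsLocalRing.maximalIdeal ↥A0 := by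
    rw [IsLocalRing.mem_maximalIdeal, mem_nonunits_iff]
    exact hτ.not_isUnit
  -- `q = τ * a`
  have hqτ : ∃ a : ↥A0, ((q : ℕ) : ↥A0) = τ * a := by
    obtain ⟨h1q, -⟩ := s36vc_unit_q A0 q hA0 hunr τ hτ
    refine ⟨⟨_, h1q⟩, Subtype.ext ?_⟩
    have hτ0 : (τ : K0) ≠ 0 := fun h => hτ.ne_zero (Subtype.ext h)
    push_cast
    rw [mul_comm ((q : ℕ) : K0), ← mul_assoc, mul_inv_cancel₀ hτ0, one_mul]
  -- the order condition
  have hord : S36inOrd τ m f1 := cinst_hord (K := K0) τ hτ m f1 hdiv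
  -- generation of the maximal ideals
  have hq1 : 1 ≤ q := hqp.one_lt.le
  have hπcV : π ∈ Wc := s35pt_nu_mem Wc hπc
  have hgena' : ∀ z ∈ (va2V1 (M * q) q K0 A0).nonunits,
      z ^ 1 * (algebraMap ↥A0
        ↥(laurentBaseChange K0 (modularFunctionFieldFull (M * q * q))) τ)⁻¹ ∈
        va2V1 (M * q) q K0 A0 := fun z hz => by
    rw [pow_one]
    exact hgena z hz
  have hgenb : ∀ z ∈ Wb.nonunits,
      z ^ 1 * (algebraMap ↥A0
        ↥(laurentBaseChange K0 (modularFunctionFieldFull (M * q * q))) τ)⁻¹ ∈ Wb := fun z hz => by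
    rw [pow_one]
    exact s36in_gen Wb _ hτF0 hτb hdecb z hz
  have hgenc : ∀ z ∈ Wc.nonunits,
      z ^ (q - 1) * (algebraMap ↥A0
        ↥(laurentBaseChange K0 (modularFunctionFieldFull (M * q * q))) τ)⁻¹ ∈ Wc := fun z hz => by
    have e1 : z ^ (q - 1) * (algebraMap ↥A0
        ↥(laurentBaseChange K0 (modularFunctionFieldFull (M * q * q))) τ)⁻¹ =
        (z * π⁻¹) ^ (q - 1) * (π ^ (q - 1) * (algebraMap ↥A0
        ↥(laurentBaseChange K0 (modularFunctionFieldFull (M * q * q))) τ)⁻¹) := by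
      rw [mul_pow, inv_pow]
      field_simp
    rw [e1]
    exact Wc.mul_mem _ _ (Wc.pow_mem (s36in_gen Wc π hπ0 hπc hdecc z hz) _) hπτ.1
  have hfrac : ∀ x : ↥(laurentBaseChange K0 (modularFunctionFieldFull (M * q * q))),
      ∃ ψ ∈ chtO A0 {t}, ψ ≠ 0 ∧ ψ * x ∈ chtO A0 {t} := by
    intro x
    obtain ⟨a, ha, s, hs, hs0, hxs⟩ := hfrac0 x
    have e : s * x = a := (mul_comm s x).trans hxs
    refine ⟨s, hs, hs0, ?_⟩
    rw [e]
    exact ha
  obtain ⟨w, n, G, hG, hrel⟩ :=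
    s36in_post_dat τ hτmax m hm2 hmA t ht0 (chtO A0 {t}) (chtO A0 {t⁻¹}) h2 h3 h01 h10 hroot0
      hroot1 ⟨b0, hb0, hspan0⟩ hfrac hcap (va2V1 (M * q) q K0 A0) Wb Wc hAa hAb hAc hV0 hV1 hτF0
      hτa hτb hτc hdiv0 hdiv1 q hqp hmq.symm hqτ 1 1 (q - 1) hq1 hq1 (Nat.sub_le q 1) hgena'
      hgenb hgenc (heckeAlphaBar K0 (M * q) q).toRingHom (heckeBetaBar K0 (M * q) q).toRingHom
      (s35NormA K0 (M * q) q) (s35NormB K0 (M * q) q) hpt₀ hpt₁ f1 hf1 hord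
      (q * (q - 1) * (q + 1)) i g x hg0 hx xa xa' xb xb' xc xc' C ω hC hω0 hWa hWb hWc htri
  refine ⟨(w : K0) * (τ : K0) ^ n, G, hG, ?_⟩
  have hw : algebraMap ↥A0 ↥(laurentBaseChange K0 (modularFunctionFieldFull (M * q * q))) w =
      algebraMap K0 ↥(laurentBaseChange K0 (modularFunctionFieldFull (M * q * q))) (w : K0) :=
    IsScalarTower.algebraMap_apply ↥A0 K0 _ w
  have hτ' : algebraMap ↥A0 ↥(laurentBaseChange K0 (modularFunctionFieldFull (M * q * q))) τ =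
      algebraMap K0 ↥(laurentBaseChange K0 (modularFunctionFieldFull (M * q * q))) (τ : K0) :=
    IsScalarTower.algebraMap_apply ↥A0 K0 _ τ
  rw [hrel, hw, hτ', map_mul, map_zpow₀]

end Field

end Fermat.Agent.S36
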