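import Mathlib
import Fermat.Agent.S36.NormResTri

/-!
# S36 [NR-VAL]: norm-residue congruences in valuation form (level `q²` shapes)

Corollaries of the abstract engine `S36/NormResTri.lean` in the element form consumed by
NORMRES-TORIC.  `E ⊆ F` a finite field extension, `VE` a valuation subring of `E` with
uniformiser `τ` (`𝔪_{VE} = τ VE`), valuation subrings of `F` above `VE` given by the bridges
`x ∈ VE → algebraMap x ∈ W`, `x ∈ 𝔪_{VE} → algebraMap x ∈ 𝔪_W`.

**Shape `(e, f) = (1, 1) + (m, 1)`** (`[F : E] = m + 1`; `W_a`, `W_c`; `z ∈ F` with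
`v_c(z)^m = v_c(τ)`, in element form `z^m / τ ∈ W_c`, `τ / z^m ∈ W_c`).  No residue-degree or
uniformiser hypothesis on `W_c` is needed: they are consequences.

* power-basis form (`z` a unit of `W_a`; basis `1, z, …, z^m` of `W_a ∩ W_c` over `VE`):
  - `s36nv_pow_hind`  : the powers are independent modulo `J = τ (W_a ∩ W_c)`;
  - `s36nv_pow_diag`  : for `u ∈ W_a ∩ W_c` there are `d_0, …, d_m ∈ VE` with
                        `N u ≡ ∏ d_j`, `d_k ≡ u` mod `𝔪_{W_c}` (`k < m`), `d_m ≡ u` mod `𝔪_{W_a}`;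
  - `s36nv_two_pow`   : `u ≡ a` (`W_a`), `u ≡ c` (`W_c`)  ⟹  `N u ≡ a c^m` mod `𝔪_{VE}`;
  - `s36nv_pow_res`   : every `u ∈ W_a ∩ W_c` has residues in `VE` at `W_a` and at `W_c`;
  - `s36nv_pow_norm_mem`, `s36nv_pow_norm_unit`, `s36nv_pow_norm_nonunit_a`,
    `s36nv_pow_norm_nonunit_c` : integrality / unit / non-unit behaviour of the norm;
* separating-element form (`z ∈ W_a` only, `e_a ≡ 1` mod `𝔪_{W_a}`, `e_a ∈ τ W_c`; basis
  `e_a, e_c, e_c z, …, e_c z^(m-1)` with `e_c = 1 - e_a`):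
  - `s36nv_hind`, `s36nv_two` : the same formula `N u ≡ a c^m`.

**Shape `(e, f) = (1, p)`, purely inseparable** (one valuation ring `W`; a family `b` of
`[F : E]` elements of `W` with residues independent over the residue field of `VE`):

* `s36nv_insep` : `u ^ p ≡ a` mod `𝔪_W` (`a ∈ VE`, `p = [F : E]` the residue characteristic)
                  ⟹ `N u ≡ a` mod `𝔪_{VE}`;
* `s36nv_insep_norm_mem`, `s36nv_insep_norm_unit`, `s36nv_insep_norm_nonunit`.

The `z`-adic core is `s36nv_core`: if `∑_{l<m} c_l z^l ≡ w z^j` modulo `z^m W` with integral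
`c_l` which are units or divisible by `T` (`v(T) ≤ v(z)^m`), then `c_l` is a non-unit for
`l < j` and `c_j ≡ w`.
-/

set_option autoImplicit false

namespace Fermat.Agent.S36

section NormResValHelpers

variable {E F : Type*} [Field E] [Field F] [Algebra E F]

/-- membership in `y W` in valuation form -/
theorem s36nv_le_iff (W : ValuationSubring F) (x y : F) (hy : y ≠ 0) :
    x * y⁻¹ ∈ W ↔ W.valuation x ≤ W.valuation y := by
  rw [← ValuationSubring.valuation_le_one_iff, map_mul, map_inv₀,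
    mul_inv_le_iff₀ (zero_lt_iff.mpr ((map_ne_zero _).mpr hy)), one_mul]

/-- the converse bridge: an element of `E` which is a non-unit of `W` is a non-unit of `VE` -/
theorem s36nv_bridge (VE : ValuationSubring E) (W : ValuationSubring F)
    (hV : ∀ x ∈ VE, algebraMap E F x ∈ W) {x : E}
    (hxW : algebraMap E F x ∈ W.nonunits) : x ∈ VE.nonunits := by
  by_contra hn
  rw [ValuationSubring.mem_nonunits_iff_or] at hn
  push Not at hn
  have h1 := hV _ hn.2
  rw [map_inv₀] at h1
  rw [ValuationSubring.mem_nonunits_iff_or] at hxW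
  rcases hxW with h | h
  · exact hn.1 ((map_eq_zero _).mp h)
  · exact h h1

/-- **The `z`-adic core.**  `W` a valuation ring of `F`, `v(z) < 1`, `v(T) ≤ v(z)^m`, coefficients
`c l` (`l < m`) which are integral and are either units or divisible by `T`.  If
`∑ c l z^l ≡ w z^j` modulo `z^m W` with `w ∈ W`, then `c l` is a non-unit for `l < j`, and
`c j ≡ w` modulo the maximal ideal. -/
theorem s36nv_core (W : ValuationSubring F) (z T : F) (m : ℕ) (hz0 : z ≠ 0)
    (hz : W.valuation z < 1) (hT : W.valuation T ≤ W.valuation z ^ m)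
    (c : Fin m → F) (hc : ∀ l, W.valuation (c l) ≤ 1)
    (hc' : ∀ l, W.valuation (c l) < 1 → W.valuation (c l) ≤ W.valuation T)
    (w : F) (hw : W.valuation w ≤ 1) (j : ℕ)
    (hS : W.valuation (∑ l, c l * z ^ (l : ℕ) - w * z ^ j) ≤ W.valuation z ^ m) :
    ∀ l : Fin m, ((l : ℕ) < j → W.valuation (c l) < 1) ∧
      ((l : ℕ) = j → W.valuation (c l - w) < 1) := by
  set v := W.valuation with hv
  have hvz0 : v z ≠ 0 := (map_ne_zero _).mpr hz0
  have hpow : ∀ a b : ℕ, a ≤ b → v z ^ b ≤ v z ^ a := fun a b hab =>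
    pow_le_pow_right_of_le_one' hz.le hab
  have key : ∀ n : ℕ, ∀ l : Fin m, (l : ℕ) = n → (((l : ℕ) < j → v (c l) < 1) ∧
      ((l : ℕ) = j → v (c l - w) < 1)) := by
    intro n
    induction n using Nat.strong_induction_on with
    | _ n ih =>
      intro l hl
      by_cases hlj : (l : ℕ) ≤ j
      · -- the main estimate
        set δ : F := if (l : ℕ) = j then w else 0 with hδ
        have hmain : v ((c l - δ) * z ^ (l : ℕ)) ≤ v z ^ ((l : ℕ) + 1) := by
          have hsplit : (c l - δ) * z ^ (l : ℕ)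
              = (∑ l, c l * z ^ (l : ℕ) - w * z ^ j) + (w * z ^ j - δ * z ^ (l : ℕ))
                - ∑ l' ∈ Finset.univ.erase l, c l' * z ^ (l' : ℕ) := by
            rw [Finset.sum_erase_eq_sub (Finset.mem_univ l)]
            ring
          rw [hsplit]
          refine v.map_sub_le (v.map_add_le ?_ ?_) (v.map_sum_le ?_)
          · exact hS.trans (hpow _ _ l.2)
          · by_cases hlj' : (l : ℕ) = j
            · rw [hδ, if_pos hlj', hlj', sub_self, map_zero]
              exact zero_le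
            · rw [hδ, if_neg hlj', zero_mul, sub_zero, map_mul, map_pow]
              have h1 : (l : ℕ) + 1 ≤ j := by omega
              calc v w * v z ^ j ≤ 1 * v z ^ j := by gcongr
                _ = v z ^ j := one_mul _
                _ ≤ v z ^ ((l : ℕ) + 1) := hpow _ _ h1
          · intro l' hl'
            have hne : l' ≠ l := Finset.ne_of_mem_erase hl'
            rw [map_mul, map_pow]
            rcases lt_or_gt_of_ne (fun h => hne (Fin.ext h) : (l' : ℕ) ≠ (l : ℕ)) with h | h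
            · -- `l' < l`: the coefficient is divisible by `T`
              have h1 := (ih (l' : ℕ) (by omega) l' rfl).1 (by omega)
              have h2 := hc' l' h1
              calc v (c l') * v z ^ (l' : ℕ) ≤ v T * 1 := by
                    gcongr
                    exact pow_le_one₀ zero_le hz.le
                _ = v T := mul_one _
                _ ≤ v z ^ m := hT
                _ ≤ v z ^ ((l : ℕ) + 1) := hpow _ _ l.2
            · calc v (c l') * v z ^ (l' : ℕ) ≤ 1 * v z ^ (l' : ℕ) := by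
                    gcongr
                    exact hc l'
                _ = v z ^ (l' : ℕ) := one_mul _
                _ ≤ v z ^ ((l : ℕ) + 1) := hpow _ _ h
        have hfin : v (c l - δ) < 1 := by
          rw [map_mul, map_pow, pow_succ] at hmain
          have h1 : v (c l - δ) ≤ v z := by
            by_contra hcon
            push Not at hcon
            have h2 : v z ^ (l : ℕ) * v z < v z ^ (l : ℕ) * v (c l - δ) := by
              have h3 : 0 < v z ^ (l : ℕ) := zero_lt_iff.mpr (pow_ne_zero _ hvz0)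
              exact mul_lt_mul_of_pos_left hcon h3
            rw [mul_comm (v z ^ (l : ℕ)) (v (c l - δ))] at h2
            exact absurd hmain (not_le.mpr h2)
          exact lt_of_le_of_lt h1 hz
        refine ⟨fun h => ?_, fun h => ?_⟩
        · have : δ = 0 := by rw [hδ, if_neg (by omega)]
          rwa [this, sub_zero] at hfin
        · have : δ = w := by rw [hδ, if_pos h]
          rwa [this] at hfin
      · exact ⟨fun h => absurd h.le hlj, fun h => absurd h.le hlj⟩
  intro l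
  exact key (l : ℕ) l rfl


/-- product of an integral element and a non-unit -/
theorem s36nv_nu_mul (W : ValuationSubring F) {x y : F} (hx : x ∈ W) (hy : y ∈ W.nonunits) :
    x * y ∈ W.nonunits := by
  rw [ValuationSubring.mem_nonunits_iff] at hy ⊢
  rw [map_mul]
  exact mul_lt_one_of_nonneg_of_lt_one_right ((W.valuation_le_one_iff x).mpr hx) zero_le hy

/-- the ring `B = W_a ∩ W_c` -/
def s36nvB (Wa Wc : ValuationSubring F) : Subring F := Wa.toSubring ⊓ Wc.toSubring

/-- the set `J = T (W_a ∩ W_c)` -/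
def s36nvJ (Wa Wc : ValuationSubring F) (T : F) : Set F :=
  {x | x * T⁻¹ ∈ Wa ∧ x * T⁻¹ ∈ Wc}

/-- the adapted family `(e_a, e_c, e_c z, …, e_c z^(m-1))`, `e_c = 1 - e_a` -/
def s36nvb (m : ℕ) (z ea : F) : Fin (m + 1) → F :=
  Fin.cases ea (fun k : Fin m => (1 - ea) * z ^ (k : ℕ))

theorem s36nv_J_sum (Wa Wc : ValuationSubring F) (T : F) {ι : Type*} (s : Finset ι) (f : ι → F)
    (h : ∀ i ∈ s, f i ∈ s36nvJ Wa Wc T) : ∑ i ∈ s, f i ∈ s36nvJ Wa Wc T := by
  constructor
  · show (∑ i ∈ s, f i) * T⁻¹ ∈ Wa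
    rw [Finset.sum_mul]
    exact sum_mem (fun i hi => (h i hi).1)
  · show (∑ i ∈ s, f i) * T⁻¹ ∈ Wc
    rw [Finset.sum_mul]
    exact sum_mem (fun i hi => (h i hi).2)

omit [Field F] [Algebra E F] in
/-- a product of elements congruent to `c` is congruent to a power of `c` -/
theorem s36nv_prod_sub_pow (VE : ValuationSubring E) {ι : Type*} (s : Finset ι) (f : ι → E)
    (c : E) (hf : ∀ i ∈ s, f i ∈ VE) (hc : c ∈ VE) (hfc : ∀ i ∈ s, f i - c ∈ VE.nonunits) :
    ∏ i ∈ s, f i - c ^ s.card ∈ VE.nonunits := by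
  classical
  induction s using Finset.induction_on with
  | empty =>
    rw [Finset.prod_empty, Finset.card_empty, pow_zero, sub_self]
    exact VE.nonunits.zero_mem
  | insert a s ha ih =>
    rw [Finset.prod_insert ha, Finset.card_insert_of_notMem ha, pow_succ']
    have h1 : f a * ∏ i ∈ s, f i - c * c ^ s.card
        = (f a - c) * ∏ i ∈ s, f i + c * (∏ i ∈ s, f i - c ^ s.card) := by ring
    rw [h1]
    have hP : ∏ i ∈ s, f i ∈ VE := prod_mem (fun i hi => hf i (Finset.mem_insert_of_mem hi))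
    refine add_mem ?_ ?_
    · rw [mul_comm]
      exact s36nv_nu_mul VE hP (hfc a (Finset.mem_insert_self a s))
    · exact s36nv_nu_mul VE hc (ih (fun i hi => hf i (Finset.mem_insert_of_mem hi))
        (fun i hi => hfc i (Finset.mem_insert_of_mem hi)))

/-- the norm of an inverse -/
theorem s36nv_norm_inv (hfin : 0 < Module.finrank E F) (u : F) :
    Algebra.norm E u⁻¹ = (Algebra.norm E u)⁻¹ := by
  have : Module.Finite E F := Module.finite_of_finrank_pos hfin
  by_cases hu : u = 0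
  · rw [hu, inv_zero, Algebra.norm_zero, inv_zero]
  · have h1 : Algebra.norm E u * Algebra.norm E u⁻¹ = 1 := by
      rw [← map_mul, mul_inv_cancel₀ hu, map_one]
    exact eq_inv_of_mul_eq_one_right h1

end NormResValHelpers

section NormResValTwo

variable {E F : Type*} [Field E] [Field F] [Algebra E F]
  (VE : ValuationSubring E) (Wa Wc : ValuationSubring F)
  (hVa : ∀ x ∈ VE, algebraMap E F x ∈ Wa)
  (hVa' : ∀ x ∈ VE.nonunits, algebraMap E F x ∈ Wa.nonunits)
  (hVc : ∀ x ∈ VE, algebraMap E F x ∈ Wc)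
  (hVc' : ∀ x ∈ VE.nonunits, algebraMap E F x ∈ Wc.nonunits)
  (τ : E) (hτ0 : τ ≠ 0) (hτ : τ ∈ VE.nonunits) (hτE : ∀ x ∈ VE.nonunits, x * τ⁻¹ ∈ VE)
  (m : ℕ) (z : F) (hz0 : z ≠ 0) (hza : z ∈ Wa)
  (hzτ₁ : z ^ m * (algebraMap E F τ)⁻¹ ∈ Wc) (hzτ₂ : algebraMap E F τ * (z ^ m)⁻¹ ∈ Wc)
  (ea : F) (hea : ea - 1 ∈ Wa.nonunits) (hec : ea * (algebraMap E F τ)⁻¹ ∈ Wc)

include hVa' hVc' hτ0 hτ hz0 hzτ₁ hzτ₂ in
/-- basic valuation facts of the setting -/
theorem s36nv_basic :
    algebraMap E F τ ≠ 0 ∧ Wa.valuation (algebraMap E F τ) < 1 ∧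
      Wc.valuation (algebraMap E F τ) < 1 ∧
      Wc.valuation z ^ m = Wc.valuation (algebraMap E F τ) ∧ Wc.valuation z < 1 ∧ 1 ≤ m := by
  have hT0 : algebraMap E F τ ≠ 0 := (map_ne_zero _).mpr hτ0
  have hTa : Wa.valuation (algebraMap E F τ) < 1 := Wa.mem_nonunits_iff.mp (hVa' τ hτ)
  have hTc : Wc.valuation (algebraMap E F τ) < 1 := Wc.mem_nonunits_iff.mp (hVc' τ hτ)
  have hzm : Wc.valuation z ^ m = Wc.valuation (algebraMap E F τ) := by
    have h1 := (s36nv_le_iff Wc _ _ hT0).mp hzτ₁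
    have h2 := (s36nv_le_iff Wc _ _ (pow_ne_zero m hz0)).mp hzτ₂
    rw [map_pow] at h1 h2
    exact le_antisymm h1 h2
  refine ⟨hT0, hTa, hTc, hzm, ?_, ?_⟩
  · by_contra hcon
    push Not at hcon
    have h1 : (1 : Wc.ValueGroup) ≤ Wc.valuation z ^ m := one_le_pow₀ hcon
    rw [hzm] at h1
    exact absurd hTc (not_lt.mpr h1)
  · by_contra hcon
    have hm0 : m = 0 := by omega
    rw [hm0, pow_zero] at hzm
    rw [← hzm] at hTc
    exact lt_irrefl _ hTc

include hVa hVc hτE in
/-- `𝔪_{VE} · B ⊆ J` -/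
theorem s36nv_hJ : ∀ a ∈ VE.nonunits, ∀ y ∈ s36nvB Wa Wc,
    algebraMap E F a * y ∈ s36nvJ Wa Wc (algebraMap E F τ) := by
  intro a ha y hy
  have h1 := hτE a ha
  have h2 : algebraMap E F a * y * (algebraMap E F τ)⁻¹ = algebraMap E F (a * τ⁻¹) * y := by
    rw [map_mul, map_inv₀]
    ring
  have hy' : y ∈ Wa ∧ y ∈ Wc := hy
  constructor
  · show algebraMap E F a * y * (algebraMap E F τ)⁻¹ ∈ Wa
    rw [h2]
    exact mul_mem (hVa _ h1) hy'.1
  · show algebraMap E F a * y * (algebraMap E F τ)⁻¹ ∈ Wc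
    rw [h2]
    exact mul_mem (hVc _ h1) hy'.2

include hVc hτ0 hτE in
/-- a non-unit of `VE` is divisible by `τ` in `W_c` -/
theorem s36nv_le_T {x : E} (hx : x ∈ VE.nonunits) :
    Wc.valuation (algebraMap E F x) ≤ Wc.valuation (algebraMap E F τ) := by
  have hT0 : algebraMap E F τ ≠ 0 := (map_ne_zero _).mpr hτ0
  rw [← s36nv_le_iff Wc _ _ hT0]
  have h1 := hVc _ (hτE x hx)
  rwa [map_mul, map_inv₀] at h1

include hVa' hVc' hτ0 hτ hz0 hza hzτ₁ hzτ₂ hea hec in
/-- the adapted family lies in `B` -/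
theorem s36nv_hb : ∀ i, s36nvb m z ea i ∈ s36nvB Wa Wc := by
  obtain ⟨hT0, hTa, hTc, hzm, hzc, hm1⟩ :=
    s36nv_basic VE Wa Wc hVa' hVc' τ hτ0 hτ m z hz0 hzτ₁ hzτ₂
  have heaa : ea ∈ Wa := by
    have : ea = (ea - 1) + 1 := by ring
    rw [this]
    exact add_mem (ValuationSubring.nonunits_subset hea) (one_mem _)
  have heac : ea ∈ Wc := by
    have : ea = ea * (algebraMap E F τ)⁻¹ * algebraMap E F τ := by
      rw [inv_mul_cancel_right₀ hT0]
    rw [this]
    exact mul_mem hec ((Wc.valuation_le_one_iff _).mp hTc.le)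
  have hzWc : z ∈ Wc := (Wc.valuation_le_one_iff _).mp hzc.le
  intro i
  refine Fin.cases ?_ (fun k => ?_) i
  · exact ⟨heaa, heac⟩
  · exact ⟨mul_mem (sub_mem (one_mem _) heaa) (pow_mem hza _),
      mul_mem (sub_mem (one_mem _) heac) (pow_mem hzWc _)⟩

omit [Algebra E F] in
/-- expansion of a combination of the adapted family -/
theorem s36nv_sum (m : ℕ) (z ea : F) (d : Fin (m + 1) → F) :
    ∑ i, d i * s36nvb m z ea i
      = d 0 * ea + (1 - ea) * ∑ k : Fin m, d k.succ * z ^ (k : ℕ) := by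
  rw [Fin.sum_univ_succ, Finset.mul_sum]
  congr 1
  refine Finset.sum_congr rfl (fun k _ => ?_)
  simp only [s36nvb, Fin.cases_succ]
  ring

include hVa hVa' hVc hVc' hτ0 hτ hτE hz0 hza hzτ₁ hzτ₂ hea hec in
/-- the adapted family is independent modulo `J` -/
theorem s36nv_hind : ∀ c : Fin (m + 1) → E, (∀ i, c i ∈ VE) →
    ∑ i, c i • s36nvb m z ea i ∈ s36nvJ Wa Wc (algebraMap E F τ) → ∀ i, c i ∈ VE.nonunits := by
  intro c hc hS
  obtain ⟨hT0, hTa, hTc, hzm, hzc, hm1⟩ :=
    s36nv_basic VE Wa Wc hVa' hVc' τ hτ0 hτ m z hz0 hzτ₁ hzτ₂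
  have hsum : ∑ i, c i • s36nvb m z ea i
      = algebraMap E F (c 0) * ea
        + (1 - ea) * ∑ k : Fin m, algebraMap E F (c k.succ) * z ^ (k : ℕ) := by
    rw [← s36nv_sum m z ea (fun i => algebraMap E F (c i))]
    exact Finset.sum_congr rfl (fun i _ => Algebra.smul_def _ _)
  rw [hsum] at hS
  obtain ⟨hSa, hSc⟩ := hS
  set S' := ∑ k : Fin m, algebraMap E F (c k.succ) * z ^ (k : ℕ) with hS'
  have hzWc : z ∈ Wc := (Wc.valuation_le_one_iff _).mp hzc.le
  have hS'a : S' ∈ Wa := sum_mem (fun k _ => mul_mem (hVa _ (hc _)) (pow_mem hza _))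
  have hS'c : S' ∈ Wc := sum_mem (fun k _ => mul_mem (hVc _ (hc _)) (pow_mem hzWc _))
  have hSa' := (s36nv_le_iff Wa _ _ hT0).mp hSa
  have hSc' := (s36nv_le_iff Wc _ _ hT0).mp hSc
  have heac : Wc.valuation ea ≤ Wc.valuation (algebraMap E F τ) := (s36nv_le_iff Wc _ _ hT0).mp hec
  -- at `W_a`
  have h0 : c 0 ∈ VE.nonunits := by
    apply s36nv_bridge VE Wa hVa
    have h1 : algebraMap E F (c 0) = (algebraMap E F (c 0) * ea + (1 - ea) * S')
        - algebraMap E F (c 0) * (ea - 1) + (ea - 1) * S' := by ring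
    rw [h1]
    have hX : algebraMap E F (c 0) * ea + (1 - ea) * S' ∈ Wa.nonunits :=
      Wa.mem_nonunits_iff.mpr (lt_of_le_of_lt hSa' hTa)
    refine add_mem (sub_mem hX (s36nv_nu_mul Wa (hVa _ (hc 0)) hea)) ?_
    rw [mul_comm]
    exact s36nv_nu_mul Wa hS'a hea
  -- at `W_c`
  have hcore := s36nv_core Wc z (algebraMap E F τ) m hz0 hzc hzm.ge
    (fun k : Fin m => algebraMap E F (c k.succ))
    (fun k => (Wc.valuation_le_one_iff _).mpr (hVc _ (hc _)))
    (fun k hk => s36nv_le_T VE Wc hVc τ hτ0 hτE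
      (s36nv_bridge VE Wc hVc (Wc.mem_nonunits_iff.mpr hk)))
    0 (by rw [map_zero]; exact zero_le_one) m (by
      rw [zero_mul, sub_zero, hzm]
      have h1 : S' = (algebraMap E F (c 0) * ea + (1 - ea) * S')
          - algebraMap E F (c 0) * ea + ea * S' := by ring
      rw [← hS', h1]
      refine Valuation.map_add_le _ (Valuation.map_sub_le _ hSc' ?_) ?_
      · rw [map_mul]
        calc Wc.valuation (algebraMap E F (c 0)) * Wc.valuation ea
            ≤ 1 * Wc.valuation ea := by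
              gcongr
              exact (Wc.valuation_le_one_iff _).mpr (hVc _ (hc 0))
          _ = Wc.valuation ea := one_mul _
          _ ≤ _ := heac
      · rw [map_mul]
        calc Wc.valuation ea * Wc.valuation S'
            ≤ Wc.valuation ea * 1 := by
              gcongr
              exact (Wc.valuation_le_one_iff _).mpr hS'c
          _ = Wc.valuation ea := mul_one _
          _ ≤ _ := heac)
  intro i
  refine Fin.cases h0 (fun k => ?_) i
  exact s36nv_bridge VE Wc hVc (Wc.mem_nonunits_iff.mpr ((hcore k).1 k.2))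


include hVa hVa' hVc hVc' hτ0 hτ hτE hz0 hza hzτ₁ hzτ₂ hea hec in
/-- **Norm-residue formula, shape `(e, f) = (1, 1) + (m, 1)`.**  `[F : E] = m + 1`, two valuation
rings `W_a`, `W_c` of `F` above `VE` (uniformiser `τ`), `z ∈ W_a` with `v_c(z)^m = v_c(τ)`, and a
separating element `e_a ≡ 1` modulo `𝔪_{W_a}`, `e_a ∈ τ W_c`.  If `u ∈ W_a ∩ W_c` has the residues
`a` at `W_a` and `c` at `W_c` (`a, c ∈ VE`), then `N_{F/E} u ≡ a c^m` modulo `𝔪_{VE}`. -/
theorem s36nv_two (hcard : Module.finrank E F = m + 1)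
    (u : F) (hua : u ∈ Wa) (huc : u ∈ Wc) (a c : E)
    (hua' : u - algebraMap E F a ∈ Wa.nonunits) (huc' : u - algebraMap E F c ∈ Wc.nonunits) :
    Algebra.norm E u - a * c ^ m ∈ VE.nonunits := by
  obtain ⟨hT0, hTa, hTc, hzm, hzc, hm1⟩ :=
    s36nv_basic VE Wa Wc hVa' hVc' τ hτ0 hτ m z hz0 hzτ₁ hzτ₂
  have hJ := s36nv_hJ VE Wa Wc hVa hVc τ hτE
  have hb := s36nv_hb VE Wa Wc hVa' hVc' τ hτ0 hτ m z hz0 hza hzτ₁ hzτ₂ ea hea hec
  have hind := s36nv_hind VE Wa Wc hVa hVa' hVc hVc' τ hτ0 hτ hτE m z hz0 hza hzτ₁ hzτ₂ ea hea hec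
  have hcard' : Fintype.card (Fin (m + 1)) = Module.finrank E F := by
    rw [Fintype.card_fin, hcard]
  have huB : u ∈ s36nvB Wa Wc := ⟨hua, huc⟩
  obtain ⟨M, hnorm, hM⟩ := s36nt_matrix VE (s36nvB Wa Wc) (s36nvJ Wa Wc (algebraMap E F τ)) hJ
    (s36nvb m z ea) hb hind hcard' u huB
  have heaa : ea ∈ Wa := (hb 0).1
  have heac : ea ∈ Wc := (hb 0).2
  have hzWc : z ∈ Wc := (Wc.valuation_le_one_iff _).mp hzc.le
  have heacT : Wc.valuation ea ≤ Wc.valuation (algebraMap E F τ) :=
    (s36nv_le_iff Wc _ _ hT0).mp hec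
  have hec' : 1 - ea ∈ Wa.nonunits := by
    have : 1 - ea = -(ea - 1) := by ring
    rw [this]
    exact neg_mem hea
  -- column identities
  have hcol : ∀ j, algebraMap E F (M 0 j) * ea
      + (1 - ea) * ∑ l : Fin m, algebraMap E F (M l.succ j) * z ^ (l : ℕ)
      = u * s36nvb m z ea j := by
    intro j
    rw [← hM j, ← s36nv_sum m z ea (fun i => algebraMap E F (M i j))]
    exact Finset.sum_congr rfl (fun i _ => (Algebra.smul_def _ _).symm)
  have hSa : ∀ j, ∑ l : Fin m, algebraMap E F (M l.succ j) * z ^ (l : ℕ) ∈ Wa := fun j =>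
    sum_mem (fun l _ => mul_mem (hVa _ (M l.succ j).2) (pow_mem hza _))
  have hSc : ∀ j, ∑ l : Fin m, algebraMap E F (M l.succ j) * z ^ (l : ℕ) ∈ Wc := fun j =>
    sum_mem (fun l _ => mul_mem (hVc _ (M l.succ j).2) (pow_mem hzWc _))
  -- the entries above the diagonal in the first row
  have hup : ∀ k : Fin m, ((M 0 k.succ : VE) : E) ∈ VE.nonunits := by
    intro k
    apply s36nv_bridge VE Wa hVa
    have h := hcol k.succ
    have h1 : algebraMap E F (M 0 k.succ) = u * s36nvb m z ea k.succ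
        - (1 - ea) * ∑ l : Fin m, algebraMap E F (M l.succ k.succ) * z ^ (l : ℕ)
        - algebraMap E F (M 0 k.succ) * (ea - 1) := by linear_combination h
    rw [h1]
    have hb' : s36nvb m z ea k.succ = (1 - ea) * z ^ (k : ℕ) := rfl
    refine sub_mem (sub_mem ?_ ?_) (s36nv_nu_mul Wa (hVa _ (M 0 k.succ).2) hea)
    · rw [hb', ← mul_assoc, mul_comm]
      exact s36nv_nu_mul Wa (pow_mem hza _) (s36nv_nu_mul Wa hua hec')
    · rw [mul_comm]
      exact s36nv_nu_mul Wa (hSa _) hec'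
  -- the corner entry
  have h00 : ((M 0 0 : VE) : E) - a ∈ VE.nonunits := by
    apply s36nv_bridge VE Wa hVa
    have h := hcol 0
    have hb0 : s36nvb m z ea 0 = ea := rfl
    rw [hb0] at h
    have h1 : algebraMap E F (((M 0 0 : VE) : E) - a) = (u - algebraMap E F a)
        - (1 - ea) * ∑ l : Fin m, algebraMap E F (M l.succ 0) * z ^ (l : ℕ)
        + (u - algebraMap E F (M 0 0)) * (ea - 1) := by
      rw [map_sub]
      linear_combination h
    rw [h1]
    refine add_mem (sub_mem hua' ?_) (s36nv_nu_mul Wa (sub_mem hua (hVa _ (M 0 0).2)) hea)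
    rw [mul_comm]
    exact s36nv_nu_mul Wa (hSa _) hec'
  -- the lower right block
  have hcore : ∀ k l : Fin m, ((l : ℕ) < (k : ℕ) → ((M l.succ k.succ : VE) : E) ∈ VE.nonunits) ∧
      ((l : ℕ) = (k : ℕ) → ((M l.succ k.succ : VE) : E) - c ∈ VE.nonunits) := by
    intro k
    have h := hcol k.succ
    have hb' : s36nvb m z ea k.succ = (1 - ea) * z ^ (k : ℕ) := rfl
    rw [hb'] at h
    have hcore := s36nv_core Wc z (algebraMap E F τ) m hz0 hzc hzm.ge
      (fun l : Fin m => algebraMap E F (M l.succ k.succ))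
      (fun l => (Wc.valuation_le_one_iff _).mpr (hVc _ (M l.succ k.succ).2))
      (fun l hl => s36nv_le_T VE Wc hVc τ hτ0 hτE
        (s36nv_bridge VE Wc hVc (Wc.mem_nonunits_iff.mpr hl)))
      u ((Wc.valuation_le_one_iff _).mpr huc) (k : ℕ) (by
        rw [hzm]
        have h1 : ∑ l : Fin m, algebraMap E F (M l.succ k.succ) * z ^ (l : ℕ) - u * z ^ (k : ℕ)
            = ea * (∑ l : Fin m, algebraMap E F (M l.succ k.succ) * z ^ (l : ℕ)
                - u * z ^ (k : ℕ)) - algebraMap E F (M 0 k.succ) * ea := by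
          linear_combination h
        rw [h1]
        refine Valuation.map_sub_le _ ?_ ?_
        · rw [map_mul]
          calc Wc.valuation ea * Wc.valuation (∑ l : Fin m,
                  algebraMap E F (M l.succ k.succ) * z ^ (l : ℕ) - u * z ^ (k : ℕ))
              ≤ Wc.valuation ea * 1 := by
                gcongr
                exact (Wc.valuation_le_one_iff _).mpr
                  (sub_mem (hSc _) (mul_mem huc (pow_mem hzWc _)))
            _ = Wc.valuation ea := mul_one _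
            _ ≤ _ := heacT
        · rw [map_mul]
          calc Wc.valuation (algebraMap E F (M 0 k.succ)) * Wc.valuation ea
              ≤ 1 * Wc.valuation ea := by
                gcongr
                exact (Wc.valuation_le_one_iff _).mpr (hVc _ (M 0 k.succ).2)
            _ = Wc.valuation ea := one_mul _
            _ ≤ _ := heacT)
    intro l
    refine ⟨fun hl => s36nv_bridge VE Wc hVc (Wc.mem_nonunits_iff.mpr ((hcore l).1 hl)),
      fun hl => ?_⟩
    apply s36nv_bridge VE Wc hVc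
    have h2 := (hcore l).2 hl
    have h3 : algebraMap E F (((M l.succ k.succ : VE) : E) - c)
        = (algebraMap E F (M l.succ k.succ) - u) + (u - algebraMap E F c) := by
      rw [map_sub]
      ring
    rw [h3]
    exact add_mem (Wc.mem_nonunits_iff.mpr h2) huc'
  -- the triangular matrix
  set t : Matrix (Fin (m + 1)) (Fin (m + 1)) E := Matrix.of fun i j =>
    if i < j then 0 else if i = j then (Fin.cases a (fun _ => c) i : E) else ((M i j : VE) : E)
    with ht_def
  have hdiff : ∀ i j, ((M i j : VE) : E) - t i j ∈ VE.nonunits := by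
    intro i j
    by_cases h1 : i < j
    · have ht : t i j = 0 := by
        rw [ht_def, Matrix.of_apply, if_pos h1]
      rw [ht, sub_zero]
      revert h1
      refine Fin.cases ?_ (fun k => ?_) j
      · intro h1
        exact absurd h1 (Fin.not_lt_zero i)
      · refine Fin.cases ?_ (fun l => ?_) i
        · intro _
          exact hup k
        · intro h1
          exact (hcore k l).1 (Fin.succ_lt_succ_iff.mp h1)
    · by_cases h2 : i = j
      · subst h2
        have ht : t i i = (Fin.cases a (fun _ => c) i : E) := by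
          rw [ht_def, Matrix.of_apply, if_neg h1, if_pos rfl]
        rw [ht]
        refine Fin.cases ?_ (fun k => ?_) i
        · exact h00
        · exact (hcore k k).2 rfl
      · have ht : t i j = ((M i j : VE) : E) := by
          rw [ht_def, Matrix.of_apply, if_neg h1, if_neg h2]
        rw [ht, sub_self]
        exact VE.nonunits.zero_mem
  have ht : ∀ i j, t i j ∈ VE := by
    intro i j
    have h2 : t i j = ((M i j : VE) : E) - (((M i j : VE) : E) - t i j) := by ring
    rw [h2]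
    exact sub_mem (M i j).2 (ValuationSubring.nonunits_subset (hdiff i j))
  have htri : ∀ i j, i < j → t i j = 0 := fun i j h => by
    rw [ht_def, Matrix.of_apply, if_pos h]
  have hut : ∀ j, u * s36nvb m z ea j - ∑ i, t i j • s36nvb m z ea i
      ∈ s36nvJ Wa Wc (algebraMap E F τ) := by
    intro j
    have h1 : u * s36nvb m z ea j - ∑ i, t i j • s36nvb m z ea i
        = ∑ i, algebraMap E F (((M i j : VE) : E) - t i j) * s36nvb m z ea i := by
      rw [← hM j, ← Finset.sum_sub_distrib]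
      refine Finset.sum_congr rfl (fun i _ => ?_)
      rw [Algebra.smul_def, Algebra.smul_def, map_sub]
      ring
    rw [h1]
    exact s36nv_J_sum Wa Wc _ _ _ (fun i _ => hJ _ (hdiff i j) _ (hb i))
  have h := s36nt_tri VE (s36nvB Wa Wc) (s36nvJ Wa Wc (algebraMap E F τ)) hJ (s36nvb m z ea) hb
    hind hcard' u huB t ht htri hut
  have hprod : ∏ j, t j j = a * c ^ m := by
    rw [Fin.prod_univ_succ]
    have h0 : t 0 0 = a := by
      rw [ht_def, Matrix.of_apply, if_neg (lt_irrefl _), if_pos rfl]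
      rfl
    have hs : ∀ k : Fin m, t k.succ k.succ = c := fun k => by
      rw [ht_def, Matrix.of_apply, if_neg (lt_irrefl _), if_pos rfl]
      rfl
    rw [h0, Finset.prod_congr rfl (fun k _ => hs k), Finset.prod_const, Finset.card_univ,
      Fintype.card_fin]
  rw [← hprod]
  exact h

end NormResValTwo

/-! ### The power basis `1, z, …, z^m` (`z` a unit of `W_a`) -/

section NormResValPow

variable {E F : Type*} [Field E] [Field F] [Algebra E F]
  (VE : ValuationSubring E) (Wa Wc : ValuationSubring F)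
  (hVa : ∀ x ∈ VE, algebraMap E F x ∈ Wa)
  (hVa' : ∀ x ∈ VE.nonunits, algebraMap E F x ∈ Wa.nonunits)
  (hVc : ∀ x ∈ VE, algebraMap E F x ∈ Wc)
  (hVc' : ∀ x ∈ VE.nonunits, algebraMap E F x ∈ Wc.nonunits)
  (τ : E) (hτ0 : τ ≠ 0) (hτ : τ ∈ VE.nonunits) (hτE : ∀ x ∈ VE.nonunits, x * τ⁻¹ ∈ VE)
  (m : ℕ) (z : F) (hz0 : z ≠ 0) (hza : z ∈ Wa) (hza' : z⁻¹ ∈ Wa)
  (hzτ₁ : z ^ m * (algebraMap E F τ)⁻¹ ∈ Wc) (hzτ₂ : algebraMap E F τ * (z ^ m)⁻¹ ∈ Wc)

omit [Algebra E F] in
/-- splitting off the top power -/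
theorem s36nv_pow_sum (m : ℕ) (z : F) (d : Fin (m + 1) → F) :
    ∑ i, d i * z ^ (i : ℕ)
      = ∑ k : Fin m, d k.castSucc * z ^ (k : ℕ) + d (Fin.last m) * z ^ m := by
  rw [Fin.sum_univ_castSucc]
  rfl

include hVa' hVc' hτ0 hτ hz0 hza hzτ₁ hzτ₂ in
/-- the powers of `z` lie in `B` -/
theorem s36nv_pow_hb : ∀ i : Fin (m + 1), z ^ (i : ℕ) ∈ s36nvB Wa Wc := by
  obtain ⟨hT0, hTa, hTc, hzm, hzc, hm1⟩ :=
    s36nv_basic VE Wa Wc hVa' hVc' τ hτ0 hτ m z hz0 hzτ₁ hzτ₂
  have hzWc : z ∈ Wc := (Wc.valuation_le_one_iff _).mp hzc.le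
  exact fun i => ⟨pow_mem hza _, pow_mem hzWc _⟩

include hVa hVa' hVc hVc' hτ0 hτ hτE hz0 hza hza' hzτ₁ hzτ₂ in
/-- the powers `1, z, …, z^m` are independent modulo `J` -/
theorem s36nv_pow_hind : ∀ c : Fin (m + 1) → E, (∀ i, c i ∈ VE) →
    ∑ i, c i • z ^ (i : ℕ) ∈ s36nvJ Wa Wc (algebraMap E F τ) → ∀ i, c i ∈ VE.nonunits := by
  intro c hc hS
  obtain ⟨hT0, hTa, hTc, hzm, hzc, hm1⟩ :=
    s36nv_basic VE Wa Wc hVa' hVc' τ hτ0 hτ m z hz0 hzτ₁ hzτ₂
  have hsum : ∑ i, c i • z ^ (i : ℕ)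
      = ∑ k : Fin m, algebraMap E F (c k.castSucc) * z ^ (k : ℕ)
        + algebraMap E F (c (Fin.last m)) * z ^ m := by
    rw [← s36nv_pow_sum m z (fun i => algebraMap E F (c i))]
    exact Finset.sum_congr rfl (fun i _ => Algebra.smul_def _ _)
  rw [hsum] at hS
  obtain ⟨hSa, hSc⟩ := hS
  have hSa' := (s36nv_le_iff Wa _ _ hT0).mp hSa
  have hSc' := (s36nv_le_iff Wc _ _ hT0).mp hSc
  -- at `W_c`
  have hcore := s36nv_core Wc z (algebraMap E F τ) m hz0 hzc hzm.ge
    (fun k : Fin m => algebraMap E F (c k.castSucc))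
    (fun k => (Wc.valuation_le_one_iff _).mpr (hVc _ (hc _)))
    (fun k hk => s36nv_le_T VE Wc hVc τ hτ0 hτE
      (s36nv_bridge VE Wc hVc (Wc.mem_nonunits_iff.mpr hk)))
    0 (by rw [map_zero]; exact zero_le_one) m (by
      rw [zero_mul, sub_zero]
      have h1 : ∑ k : Fin m, algebraMap E F (c k.castSucc) * z ^ (k : ℕ)
          = (∑ k : Fin m, algebraMap E F (c k.castSucc) * z ^ (k : ℕ)
            + algebraMap E F (c (Fin.last m)) * z ^ m)
            - algebraMap E F (c (Fin.last m)) * z ^ m := by ring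
      rw [h1]
      refine Valuation.map_sub_le _ (hSc'.trans hzm.ge) ?_
      rw [map_mul, map_pow]
      calc Wc.valuation (algebraMap E F (c (Fin.last m))) * Wc.valuation z ^ m
          ≤ 1 * Wc.valuation z ^ m := by
            gcongr
            exact (Wc.valuation_le_one_iff _).mpr (hVc _ (hc _))
        _ = _ := one_mul _)
  have hlow : ∀ k : Fin m, c k.castSucc ∈ VE.nonunits := fun k =>
    s36nv_bridge VE Wc hVc (Wc.mem_nonunits_iff.mpr ((hcore k).1 k.2))
  -- at `W_a`
  have hlast : c (Fin.last m) ∈ VE.nonunits := by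
    apply s36nv_bridge VE Wa hVa
    have h1 : algebraMap E F (c (Fin.last m))
        = ((∑ k : Fin m, algebraMap E F (c k.castSucc) * z ^ (k : ℕ)
            + algebraMap E F (c (Fin.last m)) * z ^ m)
          - ∑ k : Fin m, algebraMap E F (c k.castSucc) * z ^ (k : ℕ)) * z⁻¹ ^ m := by
      rw [add_sub_cancel_left, mul_assoc, ← mul_pow, mul_inv_cancel₀ hz0, one_pow, mul_one]
    rw [h1, mul_comm]
    refine s36nv_nu_mul Wa (pow_mem hza' m)
      (sub_mem (Wa.mem_nonunits_iff.mpr (lt_of_le_of_lt hSa' hTa)) (sum_mem (fun k _ => ?_)))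
    rw [mul_comm]
    exact s36nv_nu_mul Wa (pow_mem hza _) (hVa' _ (hlow k))
  intro i
  exact Fin.lastCases hlast (fun k => hlow k) i

include hVa hVa' hVc hVc' hτ0 hτ hτE hz0 hza hza' hzτ₁ hzτ₂ in
/-- **Triangular form in the power basis.**  For `u ∈ W_a ∩ W_c` there are `d_0, …, d_m ∈ VE`
with `N_{F/E} u ≡ ∏ d_j` modulo `𝔪_{VE}`, `d_k ≡ u` modulo `𝔪_{W_c}` for `k < m`, and
`d_m ≡ u` modulo `𝔪_{W_a}`. -/
theorem s36nv_pow_diag (hcard : Module.finrank E F = m + 1)
    (u : F) (hua : u ∈ Wa) (huc : u ∈ Wc) :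
    ∃ d : Fin (m + 1) → VE, Algebra.norm E u - ∏ j, ((d j : VE) : E) ∈ VE.nonunits ∧
      (∀ k : Fin m, u - algebraMap E F (d k.castSucc) ∈ Wc.nonunits) ∧
      u - algebraMap E F (d (Fin.last m)) ∈ Wa.nonunits := by
  obtain ⟨hT0, hTa, hTc, hzm, hzc, hm1⟩ :=
    s36nv_basic VE Wa Wc hVa' hVc' τ hτ0 hτ m z hz0 hzτ₁ hzτ₂
  have hJ := s36nv_hJ VE Wa Wc hVa hVc τ hτE
  have hb := s36nv_pow_hb VE Wa Wc hVa' hVc' τ hτ0 hτ m z hz0 hza hzτ₁ hzτ₂
  have hind := s36nv_pow_hind VE Wa Wc hVa hVa' hVc hVc' τ hτ0 hτ hτE m z hz0 hza hza' hzτ₁ hzτ₂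
  have hcard' : Fintype.card (Fin (m + 1)) = Module.finrank E F := by
    rw [Fintype.card_fin, hcard]
  have huB : u ∈ s36nvB Wa Wc := ⟨hua, huc⟩
  obtain ⟨M, hnorm, hM⟩ := s36nt_matrix VE (s36nvB Wa Wc) (s36nvJ Wa Wc (algebraMap E F τ)) hJ
    (fun i : Fin (m + 1) => z ^ (i : ℕ)) hb hind hcard' u huB
  have hzWc : z ∈ Wc := (Wc.valuation_le_one_iff _).mp hzc.le
  -- column identities
  have hcol : ∀ j : Fin (m + 1), ∑ l : Fin m, algebraMap E F (M l.castSucc j) * z ^ (l : ℕ)
      + algebraMap E F (M (Fin.last m) j) * z ^ m = u * z ^ (j : ℕ) := by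
    intro j
    rw [← hM j, ← s36nv_pow_sum m z (fun i => algebraMap E F (M i j))]
    exact Finset.sum_congr rfl (fun i _ => (Algebra.smul_def _ _).symm)
  -- the upper left block
  have hlow : ∀ k l : Fin m,
      ((l : ℕ) < (k : ℕ) → ((M l.castSucc k.castSucc : VE) : E) ∈ VE.nonunits) ∧
      ((l : ℕ) = (k : ℕ) → u - algebraMap E F (M l.castSucc k.castSucc) ∈ Wc.nonunits) := by
    intro k
    have h := hcol k.castSucc
    have hk : ((k.castSucc : Fin (m + 1)) : ℕ) = (k : ℕ) := rfl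
    rw [hk] at h
    have hcore := s36nv_core Wc z (algebraMap E F τ) m hz0 hzc hzm.ge
      (fun l : Fin m => algebraMap E F (M l.castSucc k.castSucc))
      (fun l => (Wc.valuation_le_one_iff _).mpr (hVc _ (M l.castSucc k.castSucc).2))
      (fun l hl => s36nv_le_T VE Wc hVc τ hτ0 hτE
        (s36nv_bridge VE Wc hVc (Wc.mem_nonunits_iff.mpr hl)))
      u ((Wc.valuation_le_one_iff _).mpr huc) (k : ℕ) (by
        have h1 : ∑ l : Fin m, algebraMap E F (M l.castSucc k.castSucc) * z ^ (l : ℕ)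
            - u * z ^ (k : ℕ) = -(algebraMap E F (M (Fin.last m) k.castSucc) * z ^ m) := by
          linear_combination h
        rw [h1, Valuation.map_neg, map_mul, map_pow]
        calc Wc.valuation (algebraMap E F (M (Fin.last m) k.castSucc)) * Wc.valuation z ^ m
            ≤ 1 * Wc.valuation z ^ m := by
              gcongr
              exact (Wc.valuation_le_one_iff _).mpr (hVc _ (M (Fin.last m) k.castSucc).2)
          _ = _ := one_mul _)
    intro l
    refine ⟨fun hl => s36nv_bridge VE Wc hVc (Wc.mem_nonunits_iff.mpr ((hcore l).1 hl)),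
      fun hl => ?_⟩
    have h2 := (hcore l).2 hl
    rw [Wc.mem_nonunits_iff, Valuation.map_sub_swap]
    exact h2
  -- the last column
  have hlastcol : ∀ l : Fin m, ((M l.castSucc (Fin.last m) : VE) : E) ∈ VE.nonunits := by
    have h := hcol (Fin.last m)
    have hk : ((Fin.last m : Fin (m + 1)) : ℕ) = m := rfl
    rw [hk] at h
    have hcore := s36nv_core Wc z (algebraMap E F τ) m hz0 hzc hzm.ge
      (fun l : Fin m => algebraMap E F (M l.castSucc (Fin.last m)))
      (fun l => (Wc.valuation_le_one_iff _).mpr (hVc _ (M l.castSucc (Fin.last m)).2))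
      (fun l hl => s36nv_le_T VE Wc hVc τ hτ0 hτE
        (s36nv_bridge VE Wc hVc (Wc.mem_nonunits_iff.mpr hl)))
      0 (by rw [map_zero]; exact zero_le_one) m (by
        rw [zero_mul, sub_zero]
        have h1 : ∑ l : Fin m, algebraMap E F (M l.castSucc (Fin.last m)) * z ^ (l : ℕ)
            = (u - algebraMap E F (M (Fin.last m) (Fin.last m))) * z ^ m := by
          linear_combination h
        rw [h1, map_mul, map_pow]
        calc Wc.valuation (u - algebraMap E F (M (Fin.last m) (Fin.last m))) * Wc.valuation z ^ m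
            ≤ 1 * Wc.valuation z ^ m := by
              gcongr
              exact (Wc.valuation_le_one_iff _).mpr
                (sub_mem huc (hVc _ (M (Fin.last m) (Fin.last m)).2))
          _ = _ := one_mul _)
    exact fun l => s36nv_bridge VE Wc hVc (Wc.mem_nonunits_iff.mpr ((hcore l).1 l.2))
  -- the corner
  have hcorner : u - algebraMap E F (M (Fin.last m) (Fin.last m)) ∈ Wa.nonunits := by
    have h := hcol (Fin.last m)
    have hk : ((Fin.last m : Fin (m + 1)) : ℕ) = m := rfl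
    rw [hk] at h
    have h1 : u - algebraMap E F (M (Fin.last m) (Fin.last m))
        = (∑ l : Fin m, algebraMap E F (M l.castSucc (Fin.last m)) * z ^ (l : ℕ)) * z⁻¹ ^ m := by
      have h2 : (u - algebraMap E F (M (Fin.last m) (Fin.last m))) * z ^ m
          = ∑ l : Fin m, algebraMap E F (M l.castSucc (Fin.last m)) * z ^ (l : ℕ) := by
        linear_combination -h
      rw [← h2, mul_assoc, ← mul_pow, mul_inv_cancel₀ hz0, one_pow, mul_one]
    rw [h1, mul_comm]
    refine s36nv_nu_mul Wa (pow_mem hza' m) (sum_mem (fun l _ => ?_))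
    rw [mul_comm]
    exact s36nv_nu_mul Wa (pow_mem hza _) (hVa' _ (hlastcol l))
  -- the triangular matrix
  set t : Matrix (Fin (m + 1)) (Fin (m + 1)) E := Matrix.of fun i j =>
    if i < j then 0 else ((M i j : VE) : E) with ht_def
  have hdiff : ∀ i j, ((M i j : VE) : E) - t i j ∈ VE.nonunits := by
    intro i j
    by_cases h1 : i < j
    · have ht : t i j = 0 := by
        rw [ht_def, Matrix.of_apply, if_pos h1]
      rw [ht, sub_zero]
      revert h1
      refine Fin.lastCases ?_ (fun k => ?_) j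
      · refine Fin.lastCases ?_ (fun l => ?_) i
        · intro h1
          exact absurd h1 (lt_irrefl _)
        · intro _
          exact hlastcol l
      · refine Fin.lastCases ?_ (fun l => ?_) i
        · intro h1
          exact absurd h1 (not_lt.mpr (Fin.le_last _))
        · intro h1
          exact (hlow k l).1 (Fin.castSucc_lt_castSucc_iff.mp h1)
    · have ht : t i j = ((M i j : VE) : E) := by
        rw [ht_def, Matrix.of_apply, if_neg h1]
      rw [ht, sub_self]
      exact VE.nonunits.zero_mem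
  have ht : ∀ i j, t i j ∈ VE := by
    intro i j
    have h2 : t i j = ((M i j : VE) : E) - (((M i j : VE) : E) - t i j) := by ring
    rw [h2]
    exact sub_mem (M i j).2 (ValuationSubring.nonunits_subset (hdiff i j))
  have htri : ∀ i j, i < j → t i j = 0 := fun i j h => by
    rw [ht_def, Matrix.of_apply, if_pos h]
  have hut : ∀ j : Fin (m + 1), u * z ^ (j : ℕ) - ∑ i : Fin (m + 1), t i j • z ^ (i : ℕ)
      ∈ s36nvJ Wa Wc (algebraMap E F τ) := by
    intro j
    have h1 : u * z ^ (j : ℕ) - ∑ i : Fin (m + 1), t i j • z ^ (i : ℕ)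
        = ∑ i : Fin (m + 1), algebraMap E F (((M i j : VE) : E) - t i j) * z ^ (i : ℕ) := by
      rw [← hM j, ← Finset.sum_sub_distrib]
      refine Finset.sum_congr rfl (fun i _ => ?_)
      rw [Algebra.smul_def, Algebra.smul_def, map_sub]
      ring
    rw [h1]
    exact s36nv_J_sum Wa Wc _ _ _ (fun i _ => hJ _ (hdiff i j) _ (hb i))
  have h := s36nt_tri VE (s36nvB Wa Wc) (s36nvJ Wa Wc (algebraMap E F τ)) hJ
    (fun i : Fin (m + 1) => z ^ (i : ℕ)) hb hind hcard' u huB t ht htri hut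
  refine ⟨fun j => M j j, ?_, fun k => (hlow k k).2 rfl, hcorner⟩
  have hprod : ∏ j, t j j = ∏ j, ((M j j : VE) : E) := by
    refine Finset.prod_congr rfl (fun j _ => ?_)
    rw [ht_def, Matrix.of_apply, if_neg (lt_irrefl _)]
  rw [← hprod]
  exact h

include hVa hVa' hVc hVc' hτ0 hτ hτE hz0 hza hza' hzτ₁ hzτ₂ in
/-- **Norm-residue formula, shape `(1, 1) + (m, 1)`, power-basis form.**  `[F : E] = m + 1`,
`W_a`, `W_c` above `VE` (uniformiser `τ`), `z` a unit of `W_a` with `v_c(z)^m = v_c(τ)`.  If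
`u ∈ W_a ∩ W_c` has the residues `a` at `W_a` and `c` at `W_c`, then `N_{F/E} u ≡ a c^m` modulo
`𝔪_{VE}`. -/
theorem s36nv_two_pow (hcard : Module.finrank E F = m + 1)
    (u : F) (hua : u ∈ Wa) (huc : u ∈ Wc) (a c : E)
    (hua' : u - algebraMap E F a ∈ Wa.nonunits) (huc' : u - algebraMap E F c ∈ Wc.nonunits) :
    Algebra.norm E u - a * c ^ m ∈ VE.nonunits := by
  obtain ⟨hT0, hTa, hTc, hzm, hzc, hm1⟩ :=
    s36nv_basic VE Wa Wc hVa' hVc' τ hτ0 hτ m z hz0 hzτ₁ hzτ₂
  obtain ⟨d, hN, hdc, hda⟩ := s36nv_pow_diag VE Wa Wc hVa hVa' hVc hVc' τ hτ0 hτ hτE m z hz0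
    hza hza' hzτ₁ hzτ₂ hcard u hua huc
  have hla : ((d (Fin.last m) : VE) : E) - a ∈ VE.nonunits := by
    apply s36nv_bridge VE Wa hVa
    have h1 : algebraMap E F (((d (Fin.last m) : VE) : E) - a)
        = (u - algebraMap E F a) - (u - algebraMap E F (d (Fin.last m))) := by
      rw [map_sub]
      ring
    rw [h1]
    exact sub_mem hua' hda
  have hkc : ∀ k : Fin m, ((d k.castSucc : VE) : E) - c ∈ VE.nonunits := by
    intro k
    apply s36nv_bridge VE Wc hVc
    have h1 : algebraMap E F (((d k.castSucc : VE) : E) - c)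
        = (u - algebraMap E F c) - (u - algebraMap E F (d k.castSucc)) := by
      rw [map_sub]
      ring
    rw [h1]
    exact sub_mem huc' (hdc k)
  have hcV : c ∈ VE := by
    have h1 := hkc ⟨0, hm1⟩
    have h2 : c = ((d (Fin.castSucc ⟨0, hm1⟩) : VE) : E)
        - (((d (Fin.castSucc ⟨0, hm1⟩) : VE) : E) - c) := by ring
    rw [h2]
    exact sub_mem (d _).2 (ValuationSubring.nonunits_subset h1)
  have hprod := s36nv_prod_sub_pow VE Finset.univ (fun k : Fin m => ((d k.castSucc : VE) : E)) c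
    (fun k _ => (d k.castSucc).2) hcV (fun k _ => hkc k)
  rw [Finset.card_univ, Fintype.card_fin] at hprod
  have h3 : Algebra.norm E u - a * c ^ m = (Algebra.norm E u - ∏ j, ((d j : VE) : E))
      + ((∏ k : Fin m, ((d k.castSucc : VE) : E) - c ^ m) * ((d (Fin.last m) : VE) : E)
        + c ^ m * (((d (Fin.last m) : VE) : E) - a)) := by
    rw [Fin.prod_univ_castSucc]
    ring
  rw [h3]
  refine add_mem hN (add_mem ?_ ?_)
  · rw [mul_comm]
    exact s36nv_nu_mul VE (d _).2 hprod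
  · exact s36nv_nu_mul VE (pow_mem hcV m) hla

include hVa hVa' hVc hVc' hτ0 hτ hτE hz0 hza hza' hzτ₁ hzτ₂ in
/-- residue degree one on `W_a ∩ W_c`: every element has residues in `VE` at both valuations -/
theorem s36nv_pow_res (hcard : Module.finrank E F = m + 1)
    (u : F) (hua : u ∈ Wa) (huc : u ∈ Wc) :
    ∃ a c : E, a ∈ VE ∧ c ∈ VE ∧ u - algebraMap E F a ∈ Wa.nonunits ∧
      u - algebraMap E F c ∈ Wc.nonunits := by
  obtain ⟨hT0, hTa, hTc, hzm, hzc, hm1⟩ :=
    s36nv_basic VE Wa Wc hVa' hVc' τ hτ0 hτ m z hz0 hzτ₁ hzτ₂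
  obtain ⟨d, hN, hdc, hda⟩ := s36nv_pow_diag VE Wa Wc hVa hVa' hVc hVc' τ hτ0 hτ hτE m z hz0
    hza hza' hzτ₁ hzτ₂ hcard u hua huc
  exact ⟨d (Fin.last m), d (Fin.castSucc ⟨0, hm1⟩), (d _).2, (d _).2, hda, hdc _⟩

include hVa hVa' hVc hVc' hτ0 hτ hτE hz0 hza hza' hzτ₁ hzτ₂ in
/-- the norm of an element of `W_a ∩ W_c` lies in `VE` -/
theorem s36nv_pow_norm_mem (hcard : Module.finrank E F = m + 1)
    (u : F) (hua : u ∈ Wa) (huc : u ∈ Wc) : Algebra.norm E u ∈ VE := by
  obtain ⟨d, hN, hdc, hda⟩ := s36nv_pow_diag VE Wa Wc hVa hVa' hVc hVc' τ hτ0 hτ hτE m z hz0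
    hza hza' hzτ₁ hzτ₂ hcard u hua huc
  have h1 : Algebra.norm E u = (Algebra.norm E u - ∏ j, ((d j : VE) : E))
      + ∏ j, ((d j : VE) : E) := by ring
  rw [h1]
  exact add_mem (ValuationSubring.nonunits_subset hN) (prod_mem (fun j _ => (d j).2))

include hVa hVa' hVc hVc' hτ0 hτ hτE hz0 hza hza' hzτ₁ hzτ₂ in
/-- the norm of a unit of `W_a` and `W_c` is a unit of `VE` -/
theorem s36nv_pow_norm_unit (hcard : Module.finrank E F = m + 1)
    (u : F) (hua : u ∈ Wa) (hua' : u⁻¹ ∈ Wa) (huc : u ∈ Wc) (huc' : u⁻¹ ∈ Wc) :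
    Algebra.norm E u ∈ VE ∧ (Algebra.norm E u)⁻¹ ∈ VE := by
  refine ⟨s36nv_pow_norm_mem VE Wa Wc hVa hVa' hVc hVc' τ hτ0 hτ hτE m z hz0
    hza hza' hzτ₁ hzτ₂ hcard u hua huc, ?_⟩
  rw [← s36nv_norm_inv (by rw [hcard]; exact Nat.succ_pos m) u]
  exact s36nv_pow_norm_mem VE Wa Wc hVa hVa' hVc hVc' τ hτ0 hτ hτE m z hz0
    hza hza' hzτ₁ hzτ₂ hcard u⁻¹ hua' huc'

include hVa hVa' hVc hVc' hτ0 hτ hτE hz0 hza hza' hzτ₁ hzτ₂ in
/-- the norm of a non-unit of `W_a` (integral at `W_c`) is a non-unit of `VE` -/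
theorem s36nv_pow_norm_nonunit_a (hcard : Module.finrank E F = m + 1)
    (u : F) (hua : u ∈ Wa.nonunits) (huc : u ∈ Wc) : Algebra.norm E u ∈ VE.nonunits := by
  obtain ⟨d, hN, hdc, hda⟩ := s36nv_pow_diag VE Wa Wc hVa hVa' hVc hVc' τ hτ0 hτ hτE m z hz0
    hza hza' hzτ₁ hzτ₂ hcard u (ValuationSubring.nonunits_subset hua) huc
  have hl : ((d (Fin.last m) : VE) : E) ∈ VE.nonunits := by
    apply s36nv_bridge VE Wa hVa
    have h1 : algebraMap E F (d (Fin.last m)) = u - (u - algebraMap E F (d (Fin.last m))) := by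
      ring
    rw [h1]
    exact sub_mem hua hda
  have h1 : Algebra.norm E u = (Algebra.norm E u - ∏ j, ((d j : VE) : E))
      + (∏ k : Fin m, ((d k.castSucc : VE) : E)) * ((d (Fin.last m) : VE) : E) := by
    rw [Fin.prod_univ_castSucc]
    ring
  rw [h1]
  exact add_mem hN (s36nv_nu_mul VE (prod_mem (fun k _ => (d _).2)) hl)

include hVa hVa' hVc hVc' hτ0 hτ hτE hz0 hza hza' hzτ₁ hzτ₂ in
/-- the norm of a non-unit of `W_c` (integral at `W_a`) is a non-unit of `VE` -/
theorem s36nv_pow_norm_nonunit_c (hcard : Module.finrank E F = m + 1)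
    (u : F) (hua : u ∈ Wa) (huc : u ∈ Wc.nonunits) : Algebra.norm E u ∈ VE.nonunits := by
  obtain ⟨hT0, hTa, hTc, hzm, hzc, hm1⟩ :=
    s36nv_basic VE Wa Wc hVa' hVc' τ hτ0 hτ m z hz0 hzτ₁ hzτ₂
  obtain ⟨d, hN, hdc, hda⟩ := s36nv_pow_diag VE Wa Wc hVa hVa' hVc hVc' τ hτ0 hτ hτE m z hz0
    hza hza' hzτ₁ hzτ₂ hcard u hua (ValuationSubring.nonunits_subset huc)
  have hl : ((d (Fin.castSucc ⟨0, hm1⟩) : VE) : E) ∈ VE.nonunits := by
    apply s36nv_bridge VE Wc hVc
    have h1 : algebraMap E F (d (Fin.castSucc ⟨0, hm1⟩))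
        = u - (u - algebraMap E F (d (Fin.castSucc ⟨0, hm1⟩))) := by ring
    rw [h1]
    exact sub_mem huc (hdc _)
  have h1 : Algebra.norm E u = (Algebra.norm E u - ∏ j, ((d j : VE) : E))
      + (∏ j ∈ Finset.univ.erase (Fin.castSucc ⟨0, hm1⟩), ((d j : VE) : E))
        * ((d (Fin.castSucc ⟨0, hm1⟩) : VE) : E) := by
    rw [mul_comm, Finset.mul_prod_erase Finset.univ (fun j => ((d j : VE) : E))
      (Finset.mem_univ _)]
    ring
  rw [h1]
  exact add_mem hN (s36nv_nu_mul VE (prod_mem (fun k _ => (d _).2)) hl)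

end NormResValPow

/-! ### Shape `(e, f) = (1, p)`, purely inseparable residue extension -/

section NormResValInsep

variable {E F : Type*} [Field E] [Field F] [Algebra E F]
  (VE : ValuationSubring E) (W : ValuationSubring F)
  (hV' : ∀ x ∈ VE.nonunits, algebraMap E F x ∈ W.nonunits)
  {ι : Type*} [Fintype ι] [DecidableEq ι] [Nonempty ι] (b : ι → F) (hb : ∀ i, b i ∈ W)
  (hind : ∀ c : ι → E, (∀ i, c i ∈ VE) → ∑ i, c i • b i ∈ W.nonunits → ∀ i, c i ∈ VE.nonunits)
  (hcard : Fintype.card ι = Module.finrank E F)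

include hV' in
omit [Fintype ι] [DecidableEq ι] [Nonempty ι] in
/-- `𝔪_{VE} · W ⊆ 𝔪_W` -/
theorem s36nv_insep_hJ : ∀ a ∈ VE.nonunits, ∀ y ∈ W.toSubring,
    algebraMap E F a * y ∈ (W.nonunits : Set F) := by
  intro a ha y hy
  rw [mul_comm]
  exact s36nv_nu_mul W hy (hV' a ha)

include hV' hb hind hcard in
/-- **Norm-residue formula, shape `(1, p)` purely inseparable.**  One valuation ring `W` of `F`
above `VE`, a family `b` of `[F : E] = p` elements of `W` whose residues are independent over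
the residue field of `VE` (`p` the residue characteristic).  If `u ∈ W` and `u ^ p ≡ a` modulo
`𝔪_W` with `a ∈ VE`, then `N_{F/E} u ≡ a` modulo `𝔪_{VE}`. -/
theorem s36nv_insep (p : ℕ) [Fact p.Prime] [CharP (IsLocalRing.ResidueField VE) p]
    (hp : Fintype.card ι = p) (u : F) (hu : u ∈ W) (a : E) (ha : a ∈ VE)
    (hua : u ^ p - algebraMap E F a ∈ W.nonunits) :
    Algebra.norm E u - a ∈ VE.nonunits := by
  refine s36nt_frob VE W.toSubring (W.nonunits : Set F) (s36nv_insep_hJ VE W hV') b hb hind hcard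
    p hp u hu a ha (fun j => ?_)
  rw [mul_comm]
  exact s36nv_nu_mul W (hb j) hua

include hV' hb hind hcard in
/-- the norm of an element of `W` lies in `VE` -/
theorem s36nv_insep_norm_mem (u : F) (hu : u ∈ W) : Algebra.norm E u ∈ VE := by
  obtain ⟨M, hnorm, -⟩ := s36nt_matrix VE W.toSubring (W.nonunits : Set F)
    (s36nv_insep_hJ VE W hV') b hb hind hcard u hu
  rw [hnorm]
  exact (M.det).2

include hV' hb hind hcard in
/-- the norm of a non-unit of `W` is a non-unit of `VE` -/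
theorem s36nv_insep_norm_nonunit (u : F) (hu : u ∈ W.nonunits) :
    Algebra.norm E u ∈ VE.nonunits := by
  have h := s36nt_det VE W.toSubring (W.nonunits : Set F) (s36nv_insep_hJ VE W hV') b hb hind
    hcard u (ValuationSubring.nonunits_subset hu) 0 (fun i j => zero_mem _) (fun j => by
      have h1 : u * b j - ∑ i, (0 : Matrix ι ι E) i j • b i = b j * u := by
        simp [mul_comm]
      rw [h1]
      exact s36nv_nu_mul W (hb j) hu)
  rwa [Matrix.det_zero, sub_zero] at h

include hV' hb hind hcard in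
/-- the norm of a unit of `W` is a unit of `VE` -/
theorem s36nv_insep_norm_unit (u : F) (hu : u ∈ W) (hu' : u⁻¹ ∈ W) :
    Algebra.norm E u ∈ VE ∧ (Algebra.norm E u)⁻¹ ∈ VE := by
  refine ⟨s36nv_insep_norm_mem VE W hV' b hb hind hcard u hu, ?_⟩
  rw [← s36nv_norm_inv (by rw [← hcard]; exact Fintype.card_pos) u]
  exact s36nv_insep_norm_mem VE W hV' b hb hind hcard u⁻¹ hu'

end NormResValInsep





end Fermat.Agent.S36
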