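import Mathlib
import Fermat.Agent.S36.NormResVal

/-!
# S36 [NR-EXH]: shape `(1, 1) + (m, 1)` -- residue fields, uniformisers, exhaustion

Setting of `S36/NormResVal.lean` (`s36nv_two_pow`): `E ⊆ F`, `[F : E] = m + 1`, `VE` a valuation
subring of `E` with uniformiser `τ`, two valuation subrings `W_a`, `W_c` of `F` above `VE`
(bridges `x ∈ VE → algebraMap x ∈ W`, `x ∈ 𝔪_{VE} → algebraMap x ∈ 𝔪_W`), and `z ∈ F` a unit of
`W_a` with `z^m / τ`, `τ / z^m ∈ W_c`.  No rank-one hypothesis, no separating element.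

* `s36ne_res_c`  : every `x ∈ W_c` has a residue in `VE` (residue degree one);
* `s36ne_res_a`  : every `x ∈ W_a` has a residue in `VE`;
* `s36ne_unif_c` : `𝔪_{W_c} = z W_c`;
* `s36ne_unif_a` : `𝔪_{W_a} = τ W_a`;
* `s36ne_exh`, `s36ne_exh_iff` : a valuation subring of `F` above `VE` is `W_a` or `W_c`.

Tools: `s36ne_approx` (approximation by the Möbius twist `x ↦ x / (1 + e x)`),
`s36ne_stable_mem` (integrality), `s36ne_le_of_unif`, `s36ne_cols` (the multiplication matrix in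
the basis `1, z, …, z^m` of `W_a ∩ W_c` over `VE`).
-/

set_option autoImplicit false

namespace Fermat.Agent.S36

section NormResExhHelpers

variable {E F : Type*} [Field E] [Field F] [Algebra E F]

/-- an element whose multiplication stabilises a finitely generated `W`-module is in `W` -/
theorem s36ne_stable_mem (W : ValuationSubring F) {ι : Type*} [Fintype ι] (b : ι → F) (j₁ : ι)
    (hb1 : b j₁ ≠ 0) (y : F) (N : ι → ι → F) (hN : ∀ i j, N i j ∈ W)
    (hy : ∀ j, ∑ i, N i j * b i = y * b j) : y ∈ W := by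
  obtain ⟨j₀, -, hmax⟩ := Finset.exists_max_image Finset.univ (fun j => W.valuation (b j))
    ⟨j₁, Finset.mem_univ _⟩
  have h0 : W.valuation (b j₀) ≠ 0 := by
    intro h0
    have h1 := hmax j₁ (Finset.mem_univ _)
    rw [h0] at h1
    exact hb1 ((map_eq_zero _).mp (le_antisymm h1 zero_le))
  have h1 : W.valuation (y * b j₀) ≤ W.valuation (b j₀) := by
    rw [← hy j₀]
    refine Valuation.map_sum_le _ (fun i _ => ?_)
    rw [map_mul]
    calc W.valuation (N i j₀) * W.valuation (b i) ≤ 1 * W.valuation (b j₀) := by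
          gcongr
          · exact (W.valuation_le_one_iff _).mpr (hN i j₀)
          · exact hmax i (Finset.mem_univ _)
      _ = _ := one_mul _
  rw [← W.valuation_le_one_iff]
  by_contra hcon
  push Not at hcon
  rw [map_mul] at h1
  have h2 : 1 * W.valuation (b j₀) < W.valuation y * W.valuation (b j₀) :=
    mul_lt_mul_of_pos_right hcon (zero_lt_iff.mpr h0)
  rw [one_mul] at h2
  exact absurd h1 (not_le.mpr h2)

/-- **Approximation by a Möbius twist.**  `e ≠ 0` a non-unit of `W₁` and a unit of `W₂`.  Every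
`x ∈ W₁` is congruent modulo `𝔪_{W₁}` to some `x' ∈ W₁ ∩ W₂` of the same `W₁`-valuation, and `x`
is recovered from `x'` inside every valuation ring in which `e` is a non-unit. -/
theorem s36ne_approx (W₁ W₂ : ValuationSubring F) (e : F) (he0 : e ≠ 0) (he1 : e ∈ W₁.nonunits)
    (he2 : e ∈ W₂) (he2' : e⁻¹ ∈ W₂) (x : F) (hx : x ∈ W₁) :
    ∃ x' : F, x' ∈ W₁ ∧ x' ∈ W₂ ∧ x' - x ∈ W₁.nonunits ∧
      W₁.valuation x' = W₁.valuation x ∧
      ∀ W : ValuationSubring F, x' ∈ W → e ∈ W.nonunits → x ∈ W := by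
  by_cases hx2 : x ∈ W₂
  · refine ⟨x, hx, hx2, ?_, rfl, fun W h _ => h⟩
    rw [sub_self]
    exact W₁.nonunits.zero_mem
  · -- `x' = x / (1 + e x)`
    have hex1 : e * x ∈ W₁.nonunits := by
      rw [mul_comm]
      exact s36nv_nu_mul W₁ hx he1
    have hv1 : W₁.valuation (1 + e * x) = 1 :=
      Valuation.map_one_add_of_lt _ (W₁.mem_nonunits_iff.mp hex1)
    have hve : W₂.valuation e = 1 := by
      have h1 := (W₂.valuation_le_one_iff _).mpr he2
      have h2 := (W₂.valuation_le_one_iff _).mpr he2'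
      rw [map_inv₀] at h2
      have h3 : (1 : W₂.ValueGroup) ≤ W₂.valuation e := by
        have h4 : W₂.valuation e ≠ 0 := (map_ne_zero _).mpr he0
        rw [inv_le_one₀ (zero_lt_iff.mpr h4)] at h2
        exact h2
      exact le_antisymm h1 h3
    have hvx : (1 : W₂.ValueGroup) < W₂.valuation x := by
      by_contra hcon
      exact hx2 ((W₂.valuation_le_one_iff _).mp (not_lt.mp hcon))
    have hv2 : W₂.valuation (1 + e * x) = W₂.valuation x := by
      have h1 : W₂.valuation (1 : F) < W₂.valuation (e * x) := by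
        rw [map_one, map_mul, hve, one_mul]
        exact hvx
      rw [Valuation.map_add_eq_of_lt_right _ h1, map_mul, hve, one_mul]
    have hx0 : W₂.valuation x ≠ 0 := fun h => by
      rw [h] at hvx
      exact absurd hvx (not_lt.mpr zero_le)
    have hne : 1 + e * x ≠ 0 := by
      intro h
      rw [h, map_zero] at hv2
      exact hx0 hv2.symm
    have hx'1 : W₁.valuation (x * (1 + e * x)⁻¹) = W₁.valuation x := by
      rw [map_mul, map_inv₀, hv1, inv_one, mul_one]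
    have hx'm : x * (1 + e * x)⁻¹ ∈ W₁ := by
      rw [← W₁.valuation_le_one_iff, hx'1]
      exact (W₁.valuation_le_one_iff _).mpr hx
    have hDi : (1 + e * x) * (1 + e * x)⁻¹ = 1 := mul_inv_cancel₀ hne
    refine ⟨x * (1 + e * x)⁻¹, hx'm, ?_, ?_, hx'1, ?_⟩
    · rw [← W₂.valuation_le_one_iff, map_mul, map_inv₀, hv2, mul_inv_cancel₀ hx0]
    · have h1 : x * (1 + e * x)⁻¹ - x = -((x * (1 + e * x)⁻¹) * (e * x)) := by
        linear_combination x * hDi
      rw [h1]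
      exact neg_mem (s36nv_nu_mul W₁ hx'm hex1)
    · intro W hW heW
      have h1 : W.valuation (1 - e * (x * (1 + e * x)⁻¹)) = 1 := by
        apply Valuation.map_one_sub_of_lt
        rw [mul_comm]
        exact W.mem_nonunits_iff.mp (s36nv_nu_mul W hW heW)
      have h2 : x = (x * (1 + e * x)⁻¹) * (1 - e * (x * (1 + e * x)⁻¹))⁻¹ := by
        have h3 : 1 - e * (x * (1 + e * x)⁻¹) = (1 + e * x)⁻¹ := by
          linear_combination (-1 : F) * hDi
        rw [h3, inv_inv, inv_mul_cancel_right₀ hne]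
      rw [h2, ← W.valuation_le_one_iff, map_mul, map_inv₀, h1, inv_one, mul_one]
      exact (W.valuation_le_one_iff _).mpr hW

/-- a valuation ring containing `W₀` in which a uniformiser of `W₀` is a non-unit is `W₀` -/
theorem s36ne_le_of_unif (W₀ W : ValuationSubring F) (hle : W₀ ≤ W) (π : F) (hπ0 : π ≠ 0)
    (hπW : π ∈ W.nonunits) (hunif : ∀ y ∈ W₀.nonunits, y * π⁻¹ ∈ W₀) : W ≤ W₀ := by
  intro x hx
  by_contra hx0
  have hxne : x ≠ 0 := by
    rintro rfl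
    exact hx0 (zero_mem _)
  have h1 : x⁻¹ ∈ W₀.nonunits := (W₀.inv_mem_nonunits_iff).mpr (Or.inr hx0)
  have h2 : x⁻¹ * π⁻¹ ∈ W := hle (hunif _ h1)
  have h3 : x⁻¹ ∈ W.nonunits := by
    have h4 : x⁻¹ = x⁻¹ * π⁻¹ * π := by
      rw [inv_mul_cancel_right₀ hπ0]
    rw [h4]
    exact s36nv_nu_mul W h2 hπW
  have h5 : (1 : F) ∈ W.nonunits := by
    rw [← mul_inv_cancel₀ hxne]
    exact s36nv_nu_mul W hx h3
  rw [W.mem_nonunits_iff, map_one] at h5
  exact lt_irrefl _ h5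

/-- the `iff` form of the bridge gives the non-unit form -/
theorem s36ne_nonunits_of_iff (VE : ValuationSubring E) (W : ValuationSubring F)
    (hW : ∀ x, algebraMap E F x ∈ W ↔ x ∈ VE) (x : E) (hx : x ∈ VE.nonunits) :
    algebraMap E F x ∈ W.nonunits := by
  rw [ValuationSubring.mem_nonunits_iff_or] at hx ⊢
  rcases hx with rfl | hx
  · left
    exact map_zero _
  · right
    rw [← map_inv₀, hW]
    exact hx

end NormResExhHelpers

/-! ### Shape `(1, 1) + (m, 1)`: residue fields, uniformisers, exhaustion -/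

section NormResExhPow

variable {E F : Type*} [Field E] [Field F] [Algebra E F]
  (VE : ValuationSubring E) (Wa Wc : ValuationSubring F)
  (hVa : ∀ x ∈ VE, algebraMap E F x ∈ Wa)
  (hVa' : ∀ x ∈ VE.nonunits, algebraMap E F x ∈ Wa.nonunits)
  (hVc : ∀ x ∈ VE, algebraMap E F x ∈ Wc)
  (hVc' : ∀ x ∈ VE.nonunits, algebraMap E F x ∈ Wc.nonunits)
  (τ : E) (hτ0 : τ ≠ 0) (hτ : τ ∈ VE.nonunits) (hτE : ∀ x ∈ VE.nonunits, x * τ⁻¹ ∈ VE)
  (m : ℕ) (z : F) (hz0 : z ≠ 0) (hza : z ∈ Wa) (hza' : z⁻¹ ∈ Wa)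
  (hzτ₁ : z ^ m * (algebraMap E F τ)⁻¹ ∈ Wc) (hzτ₂ : algebraMap E F τ * (z ^ m)⁻¹ ∈ Wc)
  (hcard : Module.finrank E F = m + 1)

include hVa hVa' hVc hVc' hτ0 hτ hτE hz0 hza hza' hzτ₁ hzτ₂ hcard in
/-- the columns of the multiplication matrix of `y ∈ W_a ∩ W_c` in the basis `1, z, …, z^m` -/
theorem s36ne_cols (y : F) (hya : y ∈ Wa) (hyc : y ∈ Wc) :
    ∃ M : Matrix (Fin (m + 1)) (Fin (m + 1)) VE, ∀ j : Fin (m + 1),
      ∑ l : Fin m, algebraMap E F (M l.castSucc j) * z ^ (l : ℕ)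
        + algebraMap E F (M (Fin.last m) j) * z ^ m = y * z ^ (j : ℕ) := by
  have hJ := s36nv_hJ VE Wa Wc hVa hVc τ hτE
  have hb := s36nv_pow_hb VE Wa Wc hVa' hVc' τ hτ0 hτ m z hz0 hza hzτ₁ hzτ₂
  have hind := s36nv_pow_hind VE Wa Wc hVa hVa' hVc hVc' τ hτ0 hτ hτE m z hz0 hza hza' hzτ₁ hzτ₂
  have hcard' : Fintype.card (Fin (m + 1)) = Module.finrank E F := by
    rw [Fintype.card_fin, hcard]
  obtain ⟨M, -, hM⟩ := s36nt_matrix VE (s36nvB Wa Wc) (s36nvJ Wa Wc (algebraMap E F τ)) hJ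
    (fun i : Fin (m + 1) => z ^ (i : ℕ)) hb hind hcard' y ⟨hya, hyc⟩
  refine ⟨M, fun j => ?_⟩
  rw [← hM j, ← s36nv_pow_sum m z (fun i => algebraMap E F (M i j))]
  exact Finset.sum_congr rfl (fun i _ => (Algebra.smul_def _ _).symm)

include hVa' hVc' hτ0 hτ hz0 hza' hzτ₁ hzτ₂ in
/-- the element `e' = τ / z^m`: a non-unit of `W_a` and a unit of `W_c` -/
theorem s36ne_e' :
    algebraMap E F τ * (z ^ m)⁻¹ ≠ 0 ∧ algebraMap E F τ * (z ^ m)⁻¹ ∈ Wa.nonunits ∧
      (algebraMap E F τ * (z ^ m)⁻¹)⁻¹ ∈ Wc := by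
  obtain ⟨hT0, hTa, hTc, hzm, hzc, hm1⟩ :=
    s36nv_basic VE Wa Wc hVa' hVc' τ hτ0 hτ m z hz0 hzτ₁ hzτ₂
  refine ⟨mul_ne_zero hT0 (inv_ne_zero (pow_ne_zero m hz0)), ?_, ?_⟩
  · rw [mul_comm, ← inv_pow]
    exact s36nv_nu_mul Wa (pow_mem hza' m) (Wa.mem_nonunits_iff.mpr hTa)
  · rw [mul_inv, inv_inv, mul_comm]
    exact hzτ₁

include hVa hVa' hVc hVc' hτ0 hτ hτE hz0 hza hza' hzτ₁ hzτ₂ hcard in
/-- **Residue degree one of `W_c`**: every element of `W_c` has a residue in `VE` -/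
theorem s36ne_res_c (x : F) (hx : x ∈ Wc) :
    ∃ r ∈ VE, x - algebraMap E F r ∈ Wc.nonunits := by
  obtain ⟨hT0, hTa, hTc, hzm, hzc, hm1⟩ :=
    s36nv_basic VE Wa Wc hVa' hVc' τ hτ0 hτ m z hz0 hzτ₁ hzτ₂
  obtain ⟨x', hx'c, hx'a, hdiff, -, -⟩ :=
    s36ne_approx Wc Wa z hz0 (Wc.mem_nonunits_iff.mpr hzc) hza hza' x hx
  obtain ⟨a, c, -, hc, -, hxc⟩ := s36nv_pow_res VE Wa Wc hVa hVa' hVc hVc' τ hτ0 hτ hτE m z hz0
    hza hza' hzτ₁ hzτ₂ hcard x' hx'a hx'c
  refine ⟨c, hc, ?_⟩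
  have h1 : x - algebraMap E F c = (x' - algebraMap E F c) - (x' - x) := by ring
  rw [h1]
  exact sub_mem hxc hdiff

include hVa hVa' hVc hVc' hτ0 hτ hτE hz0 hza hza' hzτ₁ hzτ₂ hcard in
/-- **Residue degree one of `W_a`**: every element of `W_a` has a residue in `VE` -/
theorem s36ne_res_a (x : F) (hx : x ∈ Wa) :
    ∃ r ∈ VE, x - algebraMap E F r ∈ Wa.nonunits := by
  obtain ⟨he'0, he'a, he'c⟩ := s36ne_e' VE Wa Wc hVa' hVc' τ hτ0 hτ m z hz0 hza' hzτ₁ hzτ₂
  obtain ⟨x', hx'a, hx'c, hdiff, -, -⟩ :=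
    s36ne_approx Wa Wc _ he'0 he'a hzτ₂ he'c x hx
  obtain ⟨a, c, ha, -, hxa, -⟩ := s36nv_pow_res VE Wa Wc hVa hVa' hVc hVc' τ hτ0 hτ hτE m z hz0
    hza hza' hzτ₁ hzτ₂ hcard x' hx'a hx'c
  refine ⟨a, ha, ?_⟩
  have h1 : x - algebraMap E F a = (x' - algebraMap E F a) - (x' - x) := by ring
  rw [h1]
  exact sub_mem hxa hdiff

include hVa hVa' hVc hVc' hτ0 hτ hτE hz0 hza hza' hzτ₁ hzτ₂ hcard in
/-- **`z` is a uniformiser of `W_c`** -/
theorem s36ne_unif_c (y : F) (hy : y ∈ Wc.nonunits) : y * z⁻¹ ∈ Wc := by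
  obtain ⟨hT0, hTa, hTc, hzm, hzc, hm1⟩ :=
    s36nv_basic VE Wa Wc hVa' hVc' τ hτ0 hτ m z hz0 hzτ₁ hzτ₂
  obtain ⟨y', hy'c, hy'a, -, hval, -⟩ :=
    s36ne_approx Wc Wa z hz0 (Wc.mem_nonunits_iff.mpr hzc) hza hza' y
      (ValuationSubring.nonunits_subset hy)
  rw [s36nv_le_iff Wc _ _ hz0, ← hval]
  have hy'nu : y' ∈ Wc.nonunits := by
    rw [Wc.mem_nonunits_iff, hval]
    exact Wc.mem_nonunits_iff.mp hy
  obtain ⟨M, hM⟩ := s36ne_cols VE Wa Wc hVa hVa' hVc hVc' τ hτ0 hτ hτE m z hz0 hza hza'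
    hzτ₁ hzτ₂ hcard y' hy'a hy'c
  have h0 := hM 0
  have hz00 : z ^ ((0 : Fin (m + 1)) : ℕ) = 1 := by
    rw [Fin.val_zero, pow_zero]
  rw [hz00, mul_one] at h0
  have hpow1 : ∀ k : ℕ, 1 ≤ k → Wc.valuation z ^ k ≤ Wc.valuation z := fun k hk => by
    have := pow_le_pow_right_of_le_one' hzc.le hk
    rwa [pow_one] at this
  have hcore := s36nv_core Wc z (algebraMap E F τ) m hz0 hzc hzm.ge
    (fun l : Fin m => algebraMap E F (M l.castSucc 0))
    (fun l => (Wc.valuation_le_one_iff _).mpr (hVc _ (M l.castSucc 0).2))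
    (fun l hl => s36nv_le_T VE Wc hVc τ hτ0 hτE
      (s36nv_bridge VE Wc hVc (Wc.mem_nonunits_iff.mpr hl)))
    y' ((Wc.valuation_le_one_iff _).mpr hy'c) 0 (by
      have h1 : ∑ l : Fin m, algebraMap E F (M l.castSucc 0) * z ^ (l : ℕ) - y' * z ^ 0
          = -(algebraMap E F (M (Fin.last m) 0) * z ^ m) := by
        linear_combination h0
      rw [h1, Valuation.map_neg, map_mul, map_pow]
      calc Wc.valuation (algebraMap E F (M (Fin.last m) 0)) * Wc.valuation z ^ m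
          ≤ 1 * Wc.valuation z ^ m := by
            gcongr
            exact (Wc.valuation_le_one_iff _).mpr (hVc _ (M (Fin.last m) 0).2)
        _ = _ := one_mul _)
  rw [← h0]
  refine Valuation.map_add_le _ (Valuation.map_sum_le _ (fun l _ => ?_)) ?_
  · by_cases hl : (l : ℕ) = 0
    · have h1 := (hcore l).2 hl
      have h2 : algebraMap E F (M l.castSucc 0) ∈ Wc.nonunits := by
        have h3 : algebraMap E F (M l.castSucc 0)
            = (algebraMap E F (M l.castSucc 0) - y') + y' := by ring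
        rw [h3]
        exact add_mem (Wc.mem_nonunits_iff.mpr h1) hy'nu
      have h3 := s36nv_le_T VE Wc hVc τ hτ0 hτE (s36nv_bridge VE Wc hVc h2)
      rw [hl, pow_zero, mul_one]
      calc Wc.valuation (algebraMap E F (M l.castSucc 0))
          ≤ Wc.valuation (algebraMap E F τ) := h3
        _ = Wc.valuation z ^ m := hzm.symm
        _ ≤ Wc.valuation z := hpow1 m hm1
    · rw [map_mul, map_pow]
      calc Wc.valuation (algebraMap E F (M l.castSucc 0)) * Wc.valuation z ^ (l : ℕ)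
          ≤ 1 * Wc.valuation z ^ (l : ℕ) := by
            gcongr
            exact (Wc.valuation_le_one_iff _).mpr (hVc _ (M l.castSucc 0).2)
        _ = Wc.valuation z ^ (l : ℕ) := one_mul _
        _ ≤ Wc.valuation z := hpow1 _ (by omega)
  · rw [map_mul, map_pow]
    calc Wc.valuation (algebraMap E F (M (Fin.last m) 0)) * Wc.valuation z ^ m
        ≤ 1 * Wc.valuation z ^ m := by
          gcongr
          exact (Wc.valuation_le_one_iff _).mpr (hVc _ (M (Fin.last m) 0).2)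
      _ = Wc.valuation z ^ m := one_mul _
      _ ≤ Wc.valuation z := hpow1 m hm1

include hVa hVa' hVc hVc' hτ0 hτ hτE hz0 hza hza' hzτ₁ hzτ₂ hcard in
/-- **`τ` is a uniformiser of `W_a`** (ramification index one) -/
theorem s36ne_unif_a (y : F) (hy : y ∈ Wa.nonunits) : y * (algebraMap E F τ)⁻¹ ∈ Wa := by
  obtain ⟨hT0, hTa, hTc, hzm, hzc, hm1⟩ :=
    s36nv_basic VE Wa Wc hVa' hVc' τ hτ0 hτ m z hz0 hzτ₁ hzτ₂
  obtain ⟨he'0, he'a, he'c⟩ := s36ne_e' VE Wa Wc hVa' hVc' τ hτ0 hτ m z hz0 hza' hzτ₁ hzτ₂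
  obtain ⟨y', hy'a, hy'c, -, hval, -⟩ :=
    s36ne_approx Wa Wc _ he'0 he'a hzτ₂ he'c y (ValuationSubring.nonunits_subset hy)
  have hzWc : z ∈ Wc := (Wc.valuation_le_one_iff _).mp hzc.le
  have hvz : Wa.valuation z = 1 := by
    have h1 := (Wa.valuation_le_one_iff _).mpr hza
    have h2 := (Wa.valuation_le_one_iff _).mpr hza'
    rw [map_inv₀, inv_le_one₀ (zero_lt_iff.mpr ((map_ne_zero _).mpr hz0))] at h2
    exact le_antisymm h1 h2
  -- `y₁ = y' z^m`
  have hval1 : Wa.valuation (y' * z ^ m) = Wa.valuation y := by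
    rw [map_mul, map_pow, hvz, one_pow, mul_one, hval]
  rw [s36nv_le_iff Wa _ _ hT0, ← hval1]
  have hy₁a : y' * z ^ m ∈ Wa := mul_mem hy'a (pow_mem hza m)
  have hy₁c : y' * z ^ m ∈ Wc := mul_mem hy'c (pow_mem hzWc m)
  have hy₁nu : y' * z ^ m ∈ Wa.nonunits := by
    rw [Wa.mem_nonunits_iff, hval1]
    exact Wa.mem_nonunits_iff.mp hy
  obtain ⟨M, hM⟩ := s36ne_cols VE Wa Wc hVa hVa' hVc hVc' τ hτ0 hτ hτE m z hz0 hza hza'
    hzτ₁ hzτ₂ hcard (y' * z ^ m) hy₁a hy₁c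
  have h0 := hM 0
  have hz00 : z ^ ((0 : Fin (m + 1)) : ℕ) = 1 := by
    rw [Fin.val_zero, pow_zero]
  rw [hz00, mul_one] at h0
  have hcore := s36nv_core Wc z (algebraMap E F τ) m hz0 hzc hzm.ge
    (fun l : Fin m => algebraMap E F (M l.castSucc 0))
    (fun l => (Wc.valuation_le_one_iff _).mpr (hVc _ (M l.castSucc 0).2))
    (fun l hl => s36nv_le_T VE Wc hVc τ hτ0 hτE
      (s36nv_bridge VE Wc hVc (Wc.mem_nonunits_iff.mpr hl)))
    0 (by rw [map_zero]; exact zero_le_one) m (by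
      rw [zero_mul, sub_zero]
      have h1 : ∑ l : Fin m, algebraMap E F (M l.castSucc 0) * z ^ (l : ℕ)
          = (y' - algebraMap E F (M (Fin.last m) 0)) * z ^ m := by
        linear_combination h0
      rw [h1, map_mul, map_pow]
      calc Wc.valuation (y' - algebraMap E F (M (Fin.last m) 0)) * Wc.valuation z ^ m
          ≤ 1 * Wc.valuation z ^ m := by
            gcongr
            exact (Wc.valuation_le_one_iff _).mpr (sub_mem hy'c (hVc _ (M (Fin.last m) 0).2))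
        _ = _ := one_mul _)
  have hlow : ∀ l : Fin m, ((M l.castSucc 0 : VE) : E) ∈ VE.nonunits := fun l =>
    s36nv_bridge VE Wc hVc (Wc.mem_nonunits_iff.mpr ((hcore l).1 l.2))
  have hlast : ((M (Fin.last m) 0 : VE) : E) ∈ VE.nonunits := by
    apply s36nv_bridge VE Wa hVa
    have h1 : algebraMap E F (M (Fin.last m) 0)
        = (y' * z ^ m - ∑ l : Fin m, algebraMap E F (M l.castSucc 0) * z ^ (l : ℕ)) * z⁻¹ ^ m := by
      rw [← h0, add_sub_cancel_left, mul_assoc, ← mul_pow, mul_inv_cancel₀ hz0, one_pow, mul_one]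
    rw [h1, mul_comm]
    refine s36nv_nu_mul Wa (pow_mem hza' m) (sub_mem hy₁nu (sum_mem (fun l _ => ?_)))
    rw [mul_comm]
    exact s36nv_nu_mul Wa (pow_mem hza _) (hVa' _ (hlow l))
  rw [← h0]
  refine Valuation.map_add_le _ (Valuation.map_sum_le _ (fun l _ => ?_)) ?_
  · rw [map_mul]
    calc Wa.valuation (algebraMap E F (M l.castSucc 0)) * Wa.valuation (z ^ (l : ℕ))
        ≤ Wa.valuation (algebraMap E F τ) * 1 := by
          gcongr
          · exact s36nv_le_T VE Wa hVa τ hτ0 hτE (hlow l)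
          · exact (Wa.valuation_le_one_iff _).mpr (pow_mem hza _)
      _ = _ := mul_one _
  · rw [map_mul]
    calc Wa.valuation (algebraMap E F (M (Fin.last m) 0)) * Wa.valuation (z ^ m)
        ≤ Wa.valuation (algebraMap E F τ) * 1 := by
          gcongr
          · exact s36nv_le_T VE Wa hVa τ hτ0 hτE hlast
          · exact (Wa.valuation_le_one_iff _).mpr (pow_mem hza _)
      _ = _ := mul_one _

include hVa hVa' hVc hVc' hτ0 hτ hτE hz0 hza hza' hzτ₁ hzτ₂ hcard in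
/-- **Exhaustion.**  A valuation subring of `F` above `VE` is `W_a` or `W_c`. -/
theorem s36ne_exh (W : ValuationSubring F) (hW : ∀ x ∈ VE, algebraMap E F x ∈ W)
    (hW' : ∀ x ∈ VE.nonunits, algebraMap E F x ∈ W.nonunits) : W = Wa ∨ W = Wc := by
  obtain ⟨hT0, hTa, hTc, hzm, hzc, hm1⟩ :=
    s36nv_basic VE Wa Wc hVa' hVc' τ hτ0 hτ m z hz0 hzτ₁ hzτ₂
  obtain ⟨he'0, he'a, he'c⟩ := s36ne_e' VE Wa Wc hVa' hVc' τ hτ0 hτ m z hz0 hza' hzτ₁ hzτ₂
  have hzWc : z ∈ Wc := (Wc.valuation_le_one_iff _).mp hzc.le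
  -- `W_a ∩ W_c ⊆ W`
  have hB : ∀ y : F, y ∈ Wa → y ∈ Wc → y ∈ W := by
    intro y hya hyc
    obtain ⟨M, hM⟩ := s36ne_cols VE Wa Wc hVa hVa' hVc hVc' τ hτ0 hτ hτE m z hz0 hza hza'
      hzτ₁ hzτ₂ hcard y hya hyc
    refine s36ne_stable_mem W (fun i : Fin (m + 1) => z ^ (i : ℕ)) 0 ?_ y
      (fun i j => algebraMap E F (M i j)) (fun i j => hW _ (M i j).2) (fun j => ?_)
    · rw [Fin.val_zero, pow_zero]
      exact one_ne_zero
    · rw [← hM j, s36nv_pow_sum m z (fun i => algebraMap E F (M i j))]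
  have hzW : z ∈ W := hB z hza hzWc
  by_cases hzi : z⁻¹ ∈ W
  · -- `W = W_a`
    left
    have he'W : algebraMap E F τ * (z ^ m)⁻¹ ∈ W.nonunits := by
      rw [mul_comm, ← inv_pow]
      exact s36nv_nu_mul W (pow_mem hzi m) (hW' τ hτ)
    have hle : Wa ≤ W := by
      intro x hx
      obtain ⟨x', hx'a, hx'c, -, -, hrec⟩ := s36ne_approx Wa Wc _ he'0 he'a hzτ₂ he'c x hx
      exact hrec W (hB x' hx'a hx'c) he'W
    exact le_antisymm (s36ne_le_of_unif Wa W hle (algebraMap E F τ) hT0 (hW' τ hτ)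
      (s36ne_unif_a VE Wa Wc hVa hVa' hVc hVc' τ hτ0 hτ hτE m z hz0 hza hza' hzτ₁ hzτ₂ hcard)) hle
  · -- `W = W_c`
    right
    have hzW' : z ∈ W.nonunits := (W.mem_nonunits_iff_or).mpr (Or.inr hzi)
    have hle : Wc ≤ W := by
      intro x hx
      obtain ⟨x', hx'c, hx'a, -, -, hrec⟩ :=
        s36ne_approx Wc Wa z hz0 (Wc.mem_nonunits_iff.mpr hzc) hza hza' x hx
      exact hrec W (hB x' hx'a hx'c) hzW'
    exact le_antisymm (s36ne_le_of_unif Wc W hle z hz0 hzW'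
      (s36ne_unif_c VE Wa Wc hVa hVa' hVc hVc' τ hτ0 hτ hτE m z hz0 hza hza' hzτ₁ hzτ₂ hcard)) hle

include hVa hVa' hVc hVc' hτ0 hτ hτE hz0 hza hza' hzτ₁ hzτ₂ hcard in
/-- **Exhaustion**, `iff` form of the bridge. -/
theorem s36ne_exh_iff (W : ValuationSubring F) (hW : ∀ x, algebraMap E F x ∈ W ↔ x ∈ VE) :
    W = Wa ∨ W = Wc :=
  s36ne_exh VE Wa Wc hVa hVa' hVc hVc' τ hτ0 hτ hτE m z hz0 hza hza' hzτ₁ hzτ₂ hcard W
    (fun x hx => (hW x).mpr hx) (s36ne_nonunits_of_iff VE W hW)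

end NormResExhPow


end Fermat.Agent.S36
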