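import Mathlib
import Fermat.Agent.S36.NormResExh
import Fermat.Agent.S36.Deg3
import Fermat.Agent.S35.HCoreDef
import Fermat.Agent.S34.Val2Inst
import Fermat.Agent.S37.FrobSeries
import Fermat.Agent.S37.TwoVal

/-!
# S36 [NR3-INST]: the four norm-residue congruences at the carrier (level `M q²` over `M q`)

Carrier: `q ∤ M`, `F₁ = K0(X₀(M q))`, `F₂ = K0(X₀(M q²))`, `α = heckeAlphaBar K0 (M * q) q`,
`β = heckeBetaBar K0 (M * q) q`, `V₁ = va2V1 M q K0 A0`, `V₂ = va2V2 M q hM K0 A0`,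
`N_α = s35NormA K0 (M * q) q`, `N_β = s35NormB K0 (M * q) q`, `W_a = va2V1 (M * q) q K0 A0`
(the Gauss valuation ring of `F₂`).  These are the binders `hNα1`, `hNα2`, `hNβ2`, `hNβ1` of
`s36tor_main` (TORIC3).

* `s36nri_alpha1` : `N_α u ≡ u_a u_c^(q-1)` mod `𝔪_{V₁}` -- for ANY valuation rings `W_a`, `W_c`
  with `α x ∈ W ↔ x ∈ V₁` and any `z ≠ 0`, a unit of `W_a`, with `z^(q-1) / q` a unit of `W_c`
  (unramified base: `q` generates `𝔪_{A0}`);
* `s36nri_beta2`  : `N_β u ≡ u_b u_c^(q-1)` mod `𝔪_{V₂}` -- same for `W_b`, `W_c` over `V₂` via `β`;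
* `s36nri_beta1`  : `β (N_β z) ≡ z^q` mod `𝔪_{W_a}` for `z ∈ W_a` (no hypothesis);
* `s36nri_alpha2` : `α (N_α z) ≡ z^q` mod `𝔪_{W_b}` for `z ∈ W_b := W_a.comap w2`, for any
  involution `w2` of `F₂` with `w2 ∘ α = β ∘ w1` (`w1 = va2Swap M q`).

Auxiliary: `s36nri_q_nu1/2`, `s36nri_q_gen1/2` (`q` is a uniformiser of `V₁`, `V₂` over an
unramified base), `s36nri_charP`, `s36nri_nu_iff`, `s36nri_rho_beta`, `s36nri_rho_J`.
-/

set_option autoImplicit false

noncomputable section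

open AlgebraicCurve ModularCurve Fermat.Agent.S18 Fermat.Agent.S34 Fermat.Agent.S35
  Fermat.Agent.S37

namespace Fermat.Agent.S36

local notation "Qb" => AlgebraicClosure ℚ

section General

/-- the residue characteristic of a valuation ring in which the prime `p` is a non-unit -/
theorem s36nri_charP {F : Type*} [Field F] (V : ValuationSubring F) (p : ℕ) [hp : Fact p.Prime]
    (h : ((p : ℕ) : F) ∈ V.nonunits) : CharP (IsLocalRing.ResidueField ↥V) p := by
  rw [CharP.charP_iff_prime_eq_zero hp.out]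
  have h1 : (((p : ℕ) : ↥V) : F) ∈ V.nonunits := by
    rw [show (((p : ℕ) : ↥V) : F) = ((p : ℕ) : F) from by simp]
    exact h
  have h2 : ((p : ℕ) : ↥V) ∈ IsLocalRing.maximalIdeal ↥V := (V.coe_mem_nonunits_iff).mp h1
  have h3 := (IsLocalRing.residue_eq_zero_iff ((p : ℕ) : ↥V)).mpr h2
  rwa [map_natCast] at h3

end General

section Carrier

variable (M q : ℕ) [NeZero M] [hq : Fact q.Prime] (hM : ¬ q ∣ M)
  (K0 : Type*) [Field K0] [Algebra ℚ K0] [Algebra K0 Qb]
  (A0 : ValuationSubring K0) [IsDiscreteValuationRing ↥A0]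

omit [Algebra K0 Qb] in
/-- `q ≠ 0` in the function field -/
theorem s36nri_q_ne (N : ℕ) [NeZero N] :
    ((q : ℕ) : ↥(laurentBaseChange K0 (modularFunctionFieldFull N))) ≠ 0 := by
  haveI : CharZero K0 := algebraRat.charZero K0
  rw [← map_natCast (algebraMap K0 ↥(laurentBaseChange K0 (modularFunctionFieldFull N))) q,
    Ne, map_eq_zero]
  exact Nat.cast_ne_zero.mpr hq.out.ne_zero

omit [Algebra K0 Qb] in
/-- `q` is a non-unit of `V₁` -/
theorem s36nri_q_nu1 (hA0 : A0.LiesOverPrime q) :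
    ((q : ℕ) : ↥(laurentBaseChange K0 (modularFunctionFieldFull (M * q))))
      ∈ (va2V1 M q K0 A0).nonunits := by
  have hq' : ((q : ℕ) : K0) ∈ A0.nonunits := hA0
  have h := cinst_algebraMap_mem_nonunits (va2V1 M q K0 A0) (fun _ => Iff.rfl)
    (⟨((q : ℕ) : K0), ValuationSubring.nonunits_subset hq'⟩ : A0) (by
      rw [← ValuationSubring.coe_mem_nonunits_iff]
      exact hq')
  rwa [map_natCast] at h

/-- `q` is a non-unit of `V₂` -/
theorem s36nri_q_nu2 (hA0 : A0.LiesOverPrime q) :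
    ((q : ℕ) : ↥(laurentBaseChange K0 (modularFunctionFieldFull (M * q))))
      ∈ (va2V2 M q hM K0 A0).nonunits := by
  rw [va2_mem_nonunits_V2, map_natCast]
  exact s36nri_q_nu1 M q K0 A0 hA0

omit [Algebra K0 Qb] in
/-- over an unramified base, `q` generates the maximal ideal of `V₁` -/
theorem s36nri_q_gen1 (hunr : ∀ x ∈ A0.nonunits, x * ((q : ℕ) : K0)⁻¹ ∈ A0)
    (x : ↥(laurentBaseChange K0 (modularFunctionFieldFull (M * q))))
    (hx : x ∈ (va2V1 M q K0 A0).nonunits) :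
    x * ((q : ℕ) : ↥(laurentBaseChange K0 (modularFunctionFieldFull (M * q))))⁻¹
      ∈ va2V1 M q K0 A0 := by
  obtain ⟨τ, hτ⟩ := IsDiscreteValuationRing.exists_irreducible ↥A0
  obtain ⟨y, hy, hxy⟩ := va2_taugen1 A0 M q τ hτ x hx
  have hτnu : (τ : K0) ∈ A0.nonunits := by
    rw [ValuationSubring.coe_mem_nonunits_iff, IsLocalRing.mem_maximalIdeal, mem_nonunits_iff]
    exact hτ.not_isUnit
  have hc := hunr _ hτnu
  have h1 : x * ((q : ℕ) : ↥(laurentBaseChange K0 (modularFunctionFieldFull (M * q))))⁻¹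
      = algebraMap K0 ↥(laurentBaseChange K0 (modularFunctionFieldFull (M * q)))
          ((τ : K0) * ((q : ℕ) : K0)⁻¹) * y := by
    rw [hxy, map_mul, map_inv₀, map_natCast]
    ring
  rw [h1]
  exact mul_mem ((cinst_algebraMap_mem_iff (va2V1 M q K0 A0) (fun _ => Iff.rfl) _).mpr hc) hy

/-- over an unramified base, `q` generates the maximal ideal of `V₂` -/
theorem s36nri_q_gen2 (hunr : ∀ x ∈ A0.nonunits, x * ((q : ℕ) : K0)⁻¹ ∈ A0)
    (x : ↥(laurentBaseChange K0 (modularFunctionFieldFull (M * q))))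
    (hx : x ∈ (va2V2 M q hM K0 A0).nonunits) :
    x * ((q : ℕ) : ↥(laurentBaseChange K0 (modularFunctionFieldFull (M * q))))⁻¹
      ∈ va2V2 M q hM K0 A0 := by
  obtain ⟨τ, hτ⟩ := IsDiscreteValuationRing.exists_irreducible ↥A0
  obtain ⟨y, hy, hxy⟩ := va2_taugen2 A0 M q hM τ hτ x hx
  have hτnu : (τ : K0) ∈ A0.nonunits := by
    rw [ValuationSubring.coe_mem_nonunits_iff, IsLocalRing.mem_maximalIdeal, mem_nonunits_iff]
    exact hτ.not_isUnit
  have hc := hunr _ hτnu
  have h1 : x * ((q : ℕ) : ↥(laurentBaseChange K0 (modularFunctionFieldFull (M * q))))⁻¹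
      = algebraMap K0 ↥(laurentBaseChange K0 (modularFunctionFieldFull (M * q)))
          ((τ : K0) * ((q : ℕ) : K0)⁻¹) * y := by
    rw [hxy, map_mul, map_inv₀, map_natCast]
    ring
  rw [h1]
  exact mul_mem (va2_const_mem_V2 A0 M q hM ⟨_, hc⟩) hy

/-! ### The two formulas of shape `(1, 1) + (q - 1, 1)` -/

omit [Algebra K0 Qb] in
/-- **`hNα1` at the carrier**: `N_α u ≡ u_a u_c^(q-1)` modulo `𝔪_{V₁}`, for any valuation rings
`W_a`, `W_c` above `V₁` via `α` and any `z` which is a unit of `W_a` with `z^(q-1) / q` a unit of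
`W_c`. -/
theorem s36nri_alpha1 (hA0 : A0.LiesOverPrime q)
    (hunr : ∀ x ∈ A0.nonunits, x * ((q : ℕ) : K0)⁻¹ ∈ A0)
    (Wa Wc : ValuationSubring ↥(laurentBaseChange K0 (modularFunctionFieldFull (M * q * q))))
    (hαa : ∀ x : ↥(laurentBaseChange K0 (modularFunctionFieldFull (M * q))),
      heckeAlphaBar K0 (M * q) q x ∈ Wa ↔ x ∈ va2V1 M q K0 A0)
    (hαc : ∀ x : ↥(laurentBaseChange K0 (modularFunctionFieldFull (M * q))),
      heckeAlphaBar K0 (M * q) q x ∈ Wc ↔ x ∈ va2V1 M q K0 A0)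
    (z : ↥(laurentBaseChange K0 (modularFunctionFieldFull (M * q * q)))) (hz0 : z ≠ 0)
    (hza : z ∈ Wa) (hza' : z⁻¹ ∈ Wa)
    (hzc : z ^ (q - 1) * ((q : ℕ) :
      ↥(laurentBaseChange K0 (modularFunctionFieldFull (M * q * q))))⁻¹ ∈ Wc)
    (hzc' : (z ^ (q - 1) * ((q : ℕ) :
      ↥(laurentBaseChange K0 (modularFunctionFieldFull (M * q * q))))⁻¹)⁻¹ ∈ Wc)
    (u : ↥(laurentBaseChange K0 (modularFunctionFieldFull (M * q * q))))
    (ua uc : ↥(laurentBaseChange K0 (modularFunctionFieldFull (M * q))))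
    (hua : ua ∈ va2V1 M q K0 A0) (huc : uc ∈ va2V1 M q K0 A0)
    (h1 : u - heckeAlphaBar K0 (M * q) q ua ∈ Wa.nonunits)
    (h2 : u - heckeAlphaBar K0 (M * q) q uc ∈ Wc.nonunits) :
    s35NormA K0 (M * q) q u - ua * uc ^ (q - 1) ∈ (va2V1 M q K0 A0).nonunits := by
  letI : Algebra ↥(laurentBaseChange K0 (modularFunctionFieldFull (M * q)))
      ↥(laurentBaseChange K0 (modularFunctionFieldFull (M * q * q))) :=
    algebraAlong (heckeAlphaBar K0 (M * q) q)
  have hcard : Module.finrank ↥(laurentBaseChange K0 (modularFunctionFieldFull (M * q)))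
      ↥(laurentBaseChange K0 (modularFunctionFieldFull (M * q * q))) = (q - 1) + 1 := by
    rw [Nat.sub_add_cancel hq.out.one_le]
    exact s36d_finrank_alpha K0 (M * q) q hq.out (dvd_mul_left q M)
  have hqα : heckeAlphaBar K0 (M * q) q
      ((q : ℕ) : ↥(laurentBaseChange K0 (modularFunctionFieldFull (M * q))))
      = ((q : ℕ) : ↥(laurentBaseChange K0 (modularFunctionFieldFull (M * q * q)))) :=
    map_natCast _ q
  have huWa : u ∈ Wa := by
    have h3 : u = (u - heckeAlphaBar K0 (M * q) q ua) + heckeAlphaBar K0 (M * q) q ua := by ring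
    rw [h3]
    exact add_mem (ValuationSubring.nonunits_subset h1) ((hαa ua).mpr hua)
  have huWc : u ∈ Wc := by
    have h3 : u = (u - heckeAlphaBar K0 (M * q) q uc) + heckeAlphaBar K0 (M * q) q uc := by ring
    rw [h3]
    exact add_mem (ValuationSubring.nonunits_subset h2) ((hαc uc).mpr huc)
  exact s36nv_two_pow (va2V1 M q K0 A0) Wa Wc (fun x hx => (hαa x).mpr hx)
    (s36ne_nonunits_of_iff (va2V1 M q K0 A0) Wa hαa) (fun x hx => (hαc x).mpr hx)
    (s36ne_nonunits_of_iff (va2V1 M q K0 A0) Wc hαc)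
    ((q : ℕ) : ↥(laurentBaseChange K0 (modularFunctionFieldFull (M * q))))
    (s36nri_q_ne q K0 (M * q)) (s36nri_q_nu1 M q K0 A0 hA0) (s36nri_q_gen1 M q K0 A0 hunr)
    (q - 1) z hz0 hza hza'
    (by
      show z ^ (q - 1) * (heckeAlphaBar K0 (M * q) q
        ((q : ℕ) : ↥(laurentBaseChange K0 (modularFunctionFieldFull (M * q)))))⁻¹ ∈ Wc
      rw [hqα]
      exact hzc)
    (by
      show heckeAlphaBar K0 (M * q) q
        ((q : ℕ) : ↥(laurentBaseChange K0 (modularFunctionFieldFull (M * q))))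
          * (z ^ (q - 1))⁻¹ ∈ Wc
      rw [hqα]
      have h3 : (z ^ (q - 1) * ((q : ℕ) :
          ↥(laurentBaseChange K0 (modularFunctionFieldFull (M * q * q))))⁻¹)⁻¹
          = ((q : ℕ) : ↥(laurentBaseChange K0 (modularFunctionFieldFull (M * q * q))))
            * (z ^ (q - 1))⁻¹ := by
        rw [mul_inv, inv_inv, mul_comm ((z ^ (q - 1))⁻¹)]
      rw [← h3]
      exact hzc')
    hcard u huWa huWc ua uc h1 h2

/-- **`hNβ2` at the carrier**: `N_β u ≡ u_b u_c^(q-1)` modulo `𝔪_{V₂}`, for any valuation rings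
`W_b`, `W_c` above `V₂` via `β` and any `z` which is a unit of `W_b` with `z^(q-1) / q` a unit of
`W_c`. -/
theorem s36nri_beta2 (hA0 : A0.LiesOverPrime q)
    (hunr : ∀ x ∈ A0.nonunits, x * ((q : ℕ) : K0)⁻¹ ∈ A0)
    (Wb Wc : ValuationSubring ↥(laurentBaseChange K0 (modularFunctionFieldFull (M * q * q))))
    (hβb : ∀ x : ↥(laurentBaseChange K0 (modularFunctionFieldFull (M * q))),
      heckeBetaBar K0 (M * q) q x ∈ Wb ↔ x ∈ va2V2 M q hM K0 A0)
    (hβc : ∀ x : ↥(laurentBaseChange K0 (modularFunctionFieldFull (M * q))),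
      heckeBetaBar K0 (M * q) q x ∈ Wc ↔ x ∈ va2V2 M q hM K0 A0)
    (z : ↥(laurentBaseChange K0 (modularFunctionFieldFull (M * q * q)))) (hz0 : z ≠ 0)
    (hzb : z ∈ Wb) (hzb' : z⁻¹ ∈ Wb)
    (hzc : z ^ (q - 1) * ((q : ℕ) :
      ↥(laurentBaseChange K0 (modularFunctionFieldFull (M * q * q))))⁻¹ ∈ Wc)
    (hzc' : (z ^ (q - 1) * ((q : ℕ) :
      ↥(laurentBaseChange K0 (modularFunctionFieldFull (M * q * q))))⁻¹)⁻¹ ∈ Wc)
    (u : ↥(laurentBaseChange K0 (modularFunctionFieldFull (M * q * q))))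
    (ub uc : ↥(laurentBaseChange K0 (modularFunctionFieldFull (M * q))))
    (hub : ub ∈ va2V2 M q hM K0 A0) (huc : uc ∈ va2V2 M q hM K0 A0)
    (h1 : u - heckeBetaBar K0 (M * q) q ub ∈ Wb.nonunits)
    (h2 : u - heckeBetaBar K0 (M * q) q uc ∈ Wc.nonunits) :
    s35NormB K0 (M * q) q u - ub * uc ^ (q - 1) ∈ (va2V2 M q hM K0 A0).nonunits := by
  letI : Algebra ↥(laurentBaseChange K0 (modularFunctionFieldFull (M * q)))
      ↥(laurentBaseChange K0 (modularFunctionFieldFull (M * q * q))) :=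
    algebraAlong (heckeBetaBar K0 (M * q) q)
  have hcard : Module.finrank ↥(laurentBaseChange K0 (modularFunctionFieldFull (M * q)))
      ↥(laurentBaseChange K0 (modularFunctionFieldFull (M * q * q))) = (q - 1) + 1 := by
    rw [Nat.sub_add_cancel hq.out.one_le]
    exact s36d_finrank_beta K0 M q hq.out hM
  have hqβ : heckeBetaBar K0 (M * q) q
      ((q : ℕ) : ↥(laurentBaseChange K0 (modularFunctionFieldFull (M * q))))
      = ((q : ℕ) : ↥(laurentBaseChange K0 (modularFunctionFieldFull (M * q * q)))) :=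
    map_natCast _ q
  have huWb : u ∈ Wb := by
    have h3 : u = (u - heckeBetaBar K0 (M * q) q ub) + heckeBetaBar K0 (M * q) q ub := by ring
    rw [h3]
    exact add_mem (ValuationSubring.nonunits_subset h1) ((hβb ub).mpr hub)
  have huWc : u ∈ Wc := by
    have h3 : u = (u - heckeBetaBar K0 (M * q) q uc) + heckeBetaBar K0 (M * q) q uc := by ring
    rw [h3]
    exact add_mem (ValuationSubring.nonunits_subset h2) ((hβc uc).mpr huc)
  exact s36nv_two_pow (va2V2 M q hM K0 A0) Wb Wc (fun x hx => (hβb x).mpr hx)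
    (s36ne_nonunits_of_iff (va2V2 M q hM K0 A0) Wb hβb) (fun x hx => (hβc x).mpr hx)
    (s36ne_nonunits_of_iff (va2V2 M q hM K0 A0) Wc hβc)
    ((q : ℕ) : ↥(laurentBaseChange K0 (modularFunctionFieldFull (M * q))))
    (s36nri_q_ne q K0 (M * q)) (s36nri_q_nu2 M q hM K0 A0 hA0) (s36nri_q_gen2 M q hM K0 A0 hunr)
    (q - 1) z hz0 hzb hzb'
    (by
      show z ^ (q - 1) * (heckeBetaBar K0 (M * q) q
        ((q : ℕ) : ↥(laurentBaseChange K0 (modularFunctionFieldFull (M * q)))))⁻¹ ∈ Wc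
      rw [hqβ]
      exact hzc)
    (by
      show heckeBetaBar K0 (M * q) q
        ((q : ℕ) : ↥(laurentBaseChange K0 (modularFunctionFieldFull (M * q))))
          * (z ^ (q - 1))⁻¹ ∈ Wc
      rw [hqβ]
      have h3 : (z ^ (q - 1) * ((q : ℕ) :
          ↥(laurentBaseChange K0 (modularFunctionFieldFull (M * q * q))))⁻¹)⁻¹
          = ((q : ℕ) : ↥(laurentBaseChange K0 (modularFunctionFieldFull (M * q * q))))
            * (z ^ (q - 1))⁻¹ := by
        rw [mul_inv, inv_inv, mul_comm ((z ^ (q - 1))⁻¹)]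
      rw [← h3]
      exact hzc')
    hcard u huWb huWc ub uc h1 h2

/-! ### The purely inseparable shape `(1, q)` -/

omit [Algebra K0 Qb] in
/-- non-units of the Gauss valuation ring = residue zero -/
theorem s36nri_nu_iff (x : ↥(laurentBaseChange K0 (modularFunctionFieldFull (M * q))))
    (hx : x ∈ va2V1 M q K0 A0) :
    x ∈ (va2V1 M q K0 A0).nonunits ↔ va2xRho1 M q K0 A0 ⟨x, hx⟩ = 0 := by
  rw [cinst_mem_nonunits_iff (va2V1 M q K0 A0) (fun _ => Iff.rfl) x]
  exact ⟨fun ⟨_, h⟩ => h, fun h => ⟨hx, h⟩⟩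

omit [Algebra K0 Qb] in
/-- the Gauss residue of `β x` -/
theorem s36nri_rho_beta (x : ↥(laurentBaseChange K0 (modularFunctionFieldFull (M * q))))
    (hx : x ∈ va2V1 M q K0 A0) :
    ∃ h : heckeBetaBar K0 (M * q) q x ∈ va2V1 (M * q) q K0 A0,
      va2xRho1 (M * q) q K0 A0 ⟨heckeBetaBar K0 (M * q) q x, h⟩
        = qExpand (IsLocalRing.ResidueField A0) q (va2xRho1 M q K0 A0 ⟨x, hx⟩) := by
  have hx' : (x : LaurentSeries K0) ∈ grV A0 := hx
  have h1 : heckeBetaBar K0 (M * q) q x ∈ va2V1 (M * q) q K0 A0 := by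
    show ((heckeBetaBar K0 (M * q) q x :
      ↥(laurentBaseChange K0 (modularFunctionFieldFull (M * q * q)))) : LaurentSeries K0) ∈ grV A0
    rw [coe_heckeBetaBar]
    exact tv_qExpand_mem A0 q hx'
  refine ⟨h1, ?_⟩
  rw [va2xRho1_apply, va2xRho1_apply]
  exact tv_grRho_qExpand A0 q hx'

omit [Algebra K0 Qb] in
/-- the Gauss residue of `j` -/
theorem s36nri_rho_J : ∃ h : grJ K0 (M * q) ∈ va2V1 M q K0 A0,
    va2xRho1 M q K0 A0 ⟨grJ K0 (M * q), h⟩ = jqModC (IsLocalRing.ResidueField A0) :=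
  ⟨gr_jqModC_mem A0, grRho_jqModC A0 _⟩

include hM in
/-- **`hNβ1` at the carrier**: for `z` in the Gauss valuation ring `W_a` of level `M q²`,
`β (N_β z) ≡ z ^ q` modulo `𝔪_{W_a}` (the residue extension of `W_a` over `V₁` along `β` is
purely inseparable of degree `q`, with basis `1, j, …, j^(q-1)`). -/
theorem s36nri_beta1 (hA0 : A0.LiesOverPrime q)
    (z : ↥(laurentBaseChange K0 (modularFunctionFieldFull (M * q * q))))
    (hz : z ∈ va2V1 (M * q) q K0 A0) :
    heckeBetaBar K0 (M * q) q (s35NormB K0 (M * q) q z) - z ^ q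
      ∈ (va2V1 (M * q) q K0 A0).nonunits := by
  letI : Algebra ↥(laurentBaseChange K0 (modularFunctionFieldFull (M * q)))
      ↥(laurentBaseChange K0 (modularFunctionFieldFull (M * q * q))) :=
    algebraAlong (heckeBetaBar K0 (M * q) q)
  haveI hcharA : CharP (IsLocalRing.ResidueField A0) q := grc_charP A0 q hA0
  haveI hchar : CharP (LaurentSeries (IsLocalRing.ResidueField A0)) q :=
    tvf_charP (k := IsLocalRing.ResidueField A0) q
  haveI hexp : ExpChar (LaurentSeries (IsLocalRing.ResidueField A0)) q := ExpChar.prime hq.out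
  haveI : CharP (IsLocalRing.ResidueField ↥(va2V1 M q K0 A0)) q :=
    s36nri_charP _ q (s36nri_q_nu1 M q K0 A0 hA0)
  haveI : Nonempty (Fin q) := ⟨⟨0, hq.out.pos⟩⟩
  obtain ⟨hJ1, hρJ1⟩ := s36nri_rho_J M q K0 A0
  obtain ⟨hJ2, hρJ2⟩ := s36nri_rho_J (M * q) q K0 A0
  -- the bridge for non-units
  have hV' : ∀ x ∈ (va2V1 M q K0 A0).nonunits,
      algebraMap ↥(laurentBaseChange K0 (modularFunctionFieldFull (M * q)))
        ↥(laurentBaseChange K0 (modularFunctionFieldFull (M * q * q))) x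
        ∈ (va2V1 (M * q) q K0 A0).nonunits := by
    intro x hx
    have hxV : x ∈ va2V1 M q K0 A0 := ValuationSubring.nonunits_subset hx
    obtain ⟨h, hρ⟩ := s36nri_rho_beta M q K0 A0 x hxV
    rw [(s36nri_nu_iff M q K0 A0 x hxV).mp hx, map_zero] at hρ
    exact (s36nri_nu_iff (M * q) q K0 A0 _ h).mpr hρ
  have hb : ∀ i : Fin q, grJ K0 (M * q * q) ^ (i : ℕ) ∈ va2V1 (M * q) q K0 A0 :=
    fun i => pow_mem hJ2 _
  -- the residue of a combination of the powers of `j`
  have hcomb : ∀ (c : Fin q → ↥(laurentBaseChange K0 (modularFunctionFieldFull (M * q))))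
      (hc : ∀ i, c i ∈ va2V1 M q K0 A0)
      (y : ↥(laurentBaseChange K0 (modularFunctionFieldFull (M * q * q)))),
      y = ∑ i, c i • grJ K0 (M * q * q) ^ (i : ℕ) →
      ∃ hy : y ∈ va2V1 (M * q) q K0 A0, va2xRho1 (M * q) q K0 A0 ⟨y, hy⟩
        = ∑ i, qExpand (IsLocalRing.ResidueField A0) q (va2xRho1 M q K0 A0 ⟨c i, hc i⟩)
            * jqModC (IsLocalRing.ResidueField A0) ^ (i : ℕ) := by
    intro c hc y hy
    have hmem : ∀ i, heckeBetaBar K0 (M * q) q (c i) ∈ va2V1 (M * q) q K0 A0 :=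
      fun i => (s36nri_rho_beta M q K0 A0 (c i) (hc i)).1
    have hy' : y = ∑ i, heckeBetaBar K0 (M * q) q (c i) * grJ K0 (M * q * q) ^ (i : ℕ) := by
      rw [hy]
      exact Finset.sum_congr rfl (fun i _ => Algebra.smul_def _ _)
    have hyW : y ∈ va2V1 (M * q) q K0 A0 := by
      rw [hy']
      exact sum_mem (fun i _ => mul_mem (hmem i) (hb i))
    refine ⟨hyW, ?_⟩
    have h1 : (⟨y, hyW⟩ : (va2V1 (M * q) q K0 A0).toSubring)
        = ∑ i, (⟨heckeBetaBar K0 (M * q) q (c i), hmem i⟩ : (va2V1 (M * q) q K0 A0).toSubring)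
          * (⟨grJ K0 (M * q * q), hJ2⟩ : (va2V1 (M * q) q K0 A0).toSubring) ^ (i : ℕ) := by
      apply Subtype.ext
      rw [AddSubmonoidClass.coe_finsetSum]
      exact hy'
    rw [h1, map_sum]
    refine Finset.sum_congr rfl (fun i _ => ?_)
    rw [map_mul, map_pow, hρJ2, (s36nri_rho_beta M q K0 A0 (c i) (hc i)).2]
  -- independence modulo the maximal ideal
  have hind : ∀ c : Fin q → ↥(laurentBaseChange K0 (modularFunctionFieldFull (M * q))),
      (∀ i, c i ∈ va2V1 M q K0 A0) →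
      ∑ i, c i • grJ K0 (M * q * q) ^ (i : ℕ) ∈ (va2V1 (M * q) q K0 A0).nonunits →
      ∀ i, c i ∈ (va2V1 M q K0 A0).nonunits := by
    intro c hc hS
    obtain ⟨hy, hρy⟩ := hcomb c hc _ rfl
    have h0 := (s36nri_nu_iff (M * q) q K0 A0 _ hy).mp hS
    rw [hρy] at h0
    have h1 := tvf_indep_jq q (fun i => va2xRho1 M q K0 A0 ⟨c i, hc i⟩) h0
    exact fun i => (s36nri_nu_iff M q K0 A0 (c i) (hc i)).mpr (h1 i)
  have hcard : Fintype.card (Fin q)
      = Module.finrank ↥(laurentBaseChange K0 (modularFunctionFieldFull (M * q)))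
        ↥(laurentBaseChange K0 (modularFunctionFieldFull (M * q * q))) := by
    rw [Fintype.card_fin]
    exact (s36d_finrank_beta K0 M q hq.out hM).symm
  -- the coordinates of `z`
  obtain ⟨Mx, -, hMx⟩ := s36nt_matrix (va2V1 M q K0 A0) (va2V1 (M * q) q K0 A0).toSubring
    ((va2V1 (M * q) q K0 A0).nonunits : Set _) (s36nv_insep_hJ (va2V1 M q K0 A0) _ hV')
    (fun i : Fin q => grJ K0 (M * q * q) ^ (i : ℕ)) hb hind hcard z hz
  have hz' : z = ∑ i, ((Mx i ⟨0, hq.out.pos⟩ : ↥(va2V1 M q K0 A0)) :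
      ↥(laurentBaseChange K0 (modularFunctionFieldFull (M * q)))) • grJ K0 (M * q * q) ^ (i : ℕ) := by
    rw [hMx ⟨0, hq.out.pos⟩, pow_zero, mul_one]
  obtain ⟨hz2, hρz⟩ := hcomb (fun i => ((Mx i ⟨0, hq.out.pos⟩ : ↥(va2V1 M q K0 A0)) :
      ↥(laurentBaseChange K0 (modularFunctionFieldFull (M * q))))) (fun i => (Mx i _).2) z hz'
  -- the `q`-th power residue
  have haV : ∑ i, ((Mx i ⟨0, hq.out.pos⟩ : ↥(va2V1 M q K0 A0)) :
      ↥(laurentBaseChange K0 (modularFunctionFieldFull (M * q)))) ^ q * grJ K0 (M * q) ^ (i : ℕ)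
      ∈ va2V1 M q K0 A0 :=
    sum_mem (fun i _ => mul_mem (pow_mem (Mx i _).2 q) (pow_mem hJ1 _))
  have hρa : va2xRho1 M q K0 A0 ⟨_, haV⟩
      = ∑ i, (va2xRho1 M q K0 A0 (Mx i ⟨0, hq.out.pos⟩)) ^ q
          * jqModC (IsLocalRing.ResidueField A0) ^ (i : ℕ) := by
    have h1 : (⟨_, haV⟩ : (va2V1 M q K0 A0).toSubring)
        = ∑ i, (Mx i ⟨0, hq.out.pos⟩) ^ q
          * (⟨grJ K0 (M * q), hJ1⟩ : (va2V1 M q K0 A0).toSubring) ^ (i : ℕ) := by
      apply Subtype.ext
      rw [AddSubmonoidClass.coe_finsetSum]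
      rfl
    rw [h1, map_sum]
    refine Finset.sum_congr rfl (fun i _ => ?_)
    rw [map_mul, map_pow, map_pow, hρJ1]
  obtain ⟨hβa, hρβa⟩ := s36nri_rho_beta M q K0 A0 _ haV
  have hua : z ^ q - algebraMap ↥(laurentBaseChange K0 (modularFunctionFieldFull (M * q)))
      ↥(laurentBaseChange K0 (modularFunctionFieldFull (M * q * q)))
      (∑ i, ((Mx i ⟨0, hq.out.pos⟩ : ↥(va2V1 M q K0 A0)) :
        ↥(laurentBaseChange K0 (modularFunctionFieldFull (M * q)))) ^ q * grJ K0 (M * q) ^ (i : ℕ))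
      ∈ (va2V1 (M * q) q K0 A0).nonunits := by
    have hmem : z ^ q - heckeBetaBar K0 (M * q) q
        (∑ i, ((Mx i ⟨0, hq.out.pos⟩ : ↥(va2V1 M q K0 A0)) :
          ↥(laurentBaseChange K0 (modularFunctionFieldFull (M * q)))) ^ q
            * grJ K0 (M * q) ^ (i : ℕ)) ∈ va2V1 (M * q) q K0 A0 :=
      sub_mem (pow_mem hz q) hβa
    refine (s36nri_nu_iff (M * q) q K0 A0 _ hmem).mpr ?_
    have h1 : (⟨_, hmem⟩ : (va2V1 (M * q) q K0 A0).toSubring)
        = (⟨z, hz⟩ : (va2V1 (M * q) q K0 A0).toSubring) ^ q - ⟨_, hβa⟩ := rfl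
    rw [h1, map_sub, map_pow, hρz, hρβa, hρa, sum_pow_char, map_sum, sub_eq_zero]
    refine Finset.sum_congr rfl (fun i _ => ?_)
    rw [mul_pow, map_mul]
    congr 1
    · exact (map_pow _ _ _).symm
    · rw [map_pow, ← tvf_jq_pow q, ← pow_mul, ← pow_mul, mul_comm (i : ℕ) q]
  have key := s36nv_insep (va2V1 M q K0 A0) (va2V1 (M * q) q K0 A0) hV'
    (fun i : Fin q => grJ K0 (M * q * q) ^ (i : ℕ)) hb hind hcard q (Fintype.card_fin q) z hz
    _ haV hua
  have h2 := hV' _ key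
  have h3 : heckeBetaBar K0 (M * q) q (s35NormB K0 (M * q) q z) - z ^ q
      = algebraMap ↥(laurentBaseChange K0 (modularFunctionFieldFull (M * q)))
          ↥(laurentBaseChange K0 (modularFunctionFieldFull (M * q * q)))
          (Algebra.norm ↥(laurentBaseChange K0 (modularFunctionFieldFull (M * q))) z
            - ∑ i, ((Mx i ⟨0, hq.out.pos⟩ : ↥(va2V1 M q K0 A0)) :
              ↥(laurentBaseChange K0 (modularFunctionFieldFull (M * q)))) ^ q
                * grJ K0 (M * q) ^ (i : ℕ))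
        - (z ^ q - algebraMap ↥(laurentBaseChange K0 (modularFunctionFieldFull (M * q)))
          ↥(laurentBaseChange K0 (modularFunctionFieldFull (M * q * q)))
          (∑ i, ((Mx i ⟨0, hq.out.pos⟩ : ↥(va2V1 M q K0 A0)) :
            ↥(laurentBaseChange K0 (modularFunctionFieldFull (M * q)))) ^ q
              * grJ K0 (M * q) ^ (i : ℕ))) := by
    rw [map_sub]
    show _ = heckeBetaBar K0 (M * q) q (s35NormB K0 (M * q) q z) - _ - _
    ring
  rw [h3]
  exact sub_mem h2 hua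

include hM in
/-- **`hNα2` at the carrier**: for any involution `w2` of the level-`M q²` field exchanging `α`
and `β` up to the level-`M q` swap, and `W_b := W_a.comap w2`: `α (N_α z) ≡ z ^ q` modulo
`𝔪_{W_b}` for `z ∈ W_b`. -/
theorem s36nri_alpha2 (hA0 : A0.LiesOverPrime q)
    (w2 : ↥(laurentBaseChange K0 (modularFunctionFieldFull (M * q * q))) →+*
      ↥(laurentBaseChange K0 (modularFunctionFieldFull (M * q * q))))
    (hw2 : ∀ x, w2 (w2 x) = x)
    (hw2α : ∀ x : ↥(laurentBaseChange K0 (modularFunctionFieldFull (M * q))),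
      w2 (heckeAlphaBar K0 (M * q) q x)
        = heckeBetaBar K0 (M * q) q (va2Swap M q hq.out hM K0 x))
    (z : ↥(laurentBaseChange K0 (modularFunctionFieldFull (M * q * q))))
    (hz : z ∈ (va2V1 (M * q) q K0 A0).comap w2) :
    heckeAlphaBar K0 (M * q) q (s35NormA K0 (M * q) q z) - z ^ q
      ∈ ((va2V1 (M * q) q K0 A0).comap w2).nonunits := by
  have hz' : w2 z ∈ va2V1 (M * q) q K0 A0 := hz
  -- the norm along `α` is the norm along `β` after the swaps
  have hN : va2Swap M q hq.out hM K0 (s35NormA K0 (M * q) q z)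
      = s35NormB K0 (M * q) q (w2 z) := by
    have h := @Algebra.norm_eq_of_equiv_equiv
      ↥(laurentBaseChange K0 (modularFunctionFieldFull (M * q)))
      ↥(laurentBaseChange K0 (modularFunctionFieldFull (M * q * q)))
      ↥(laurentBaseChange K0 (modularFunctionFieldFull (M * q)))
      ↥(laurentBaseChange K0 (modularFunctionFieldFull (M * q * q))) _ _ _ _
      (algebraAlong (heckeAlphaBar K0 (M * q) q)) (algebraAlong (heckeBetaBar K0 (M * q) q))
      (va2SwapEquiv M q hq.out hM K0)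
      (RingEquiv.ofRingHom w2 w2 (RingHom.ext hw2) (RingHom.ext hw2))
      (RingHom.ext fun x => (hw2α x).symm) z
    have h' : s35NormA K0 (M * q) q z
        = (va2SwapEquiv M q hq.out hM K0).symm (s35NormB K0 (M * q) q (w2 z)) := h
    rw [h']
    exact (va2SwapEquiv M q hq.out hM K0).apply_symm_apply _
  rw [va2_mem_nonunits_comap, map_sub, map_pow, hw2α, hN]
  exact s36nri_beta1 M q hM K0 A0 hA0 (w2 z) hz'

end Carrier

end Fermat.Agent.S36
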