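import Mathlib
import Fermat.Agent.S24.Differential
import Fermat.Agent.S34.ThetaDelta

/-!
# PSI-UNIT, leaf N1 (abstract): the modular unit `ν' = dh / dh_q`

`F / K` a function field in one variable with a `K`-algebra embedding `ι : F → K((t))`
(the `t`-expansion), `h, h_q ∈ F` with `ι h_q = φ_q (ι h)`.  Then there is `ν' ∈ F` with
`dh = ν' • dh_q` and `θ(ι h) = ι ν' * (q * φ_q (θ (ι h)))`.
-/

set_option autoImplicit false

open ModularCurve Polynomial KaehlerDifferential IntermediateField

namespace Fermat.Agent.S36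

variable {K F : Type*} [Field K] [Field F] [Algebra K F]

/-- a `K`-derivation `F → K((t))` attached to a `t`-expansion -/
theorem s36nd_lift_D (ι : F →ₐ[K] LaurentSeries K) (a b c : F)
    (habc : D K F a = c • D K F b) :
    Fermat.Agent.S34.thdTheta K (ι a) = ι c * Fermat.Agent.S34.thdTheta K (ι b) := by
  let _ : Algebra F (LaurentSeries K) := ι.toRingHom.toAlgebra
  have hsm : ∀ (x : F) (y : LaurentSeries K), x • y = ι x * y := fun x y => rfl
  have _ : IsScalarTower K F (LaurentSeries K) :=
    ⟨fun r x y => by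
      rw [hsm, hsm, Algebra.smul_def r x, map_mul, ι.commutes, mul_assoc]
      rw [Fermat.Agent.S34.thd_algebraMap_eq_single, ← HahnSeries.C_apply,
        HahnSeries.C_mul_eq_smul]⟩
  let d : Derivation K F (LaurentSeries K) :=
    (Fermat.Agent.S34.thdTheta K).compAlgebraMap F
  have h1 := congrArg d.liftKaehlerDifferential habc
  rw [map_smul, Derivation.liftKaehlerDifferential_comp_D,
    Derivation.liftKaehlerDifferential_comp_D] at h1
  exact h1

theorem s36nd_nu_exists [CharZero K] (ι : F →ₐ[K] LaurentSeries K) (q : ℕ) [NeZero q]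
    (h hq : F) [Algebra.IsAlgebraic K⟮hq⟯ F]
    (hι : ι hq = qExpand K q (ι h)) :
    ∃ ν' : F, D K F h = ν' • D K F hq ∧
      Fermat.Agent.S34.thdTheta K (ι h) =
        ι ν' * ((q : LaurentSeries K) * qExpand K q (Fermat.Agent.S34.thdTheta K (ι h))) := by
  have hmem : D K F h ∈ Submodule.span F {D K F hq} := by
    rw [Fermat.Agent.S24.span_D_eq_top (K := K) hq]
    exact Submodule.mem_top
  obtain ⟨g, hg⟩ := Submodule.mem_span_singleton.mp hmem
  refine ⟨g, hg.symm, ?_⟩
  have h1 := s36nd_lift_D ι h hq g hg.symm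
  rw [hι, Fermat.Agent.S34.thdTheta_qExpand] at h1
  exact h1

end Fermat.Agent.S36
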