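import Mathlib
import Fermat.Agent.S34.CuspNode
import Fermat.Agent.S34.Val2Exh
import Fermat.Agent.S36.NuDef

/-!
# S36, PSI-UNIT, STEP 2 (abstract): the swap of the modular unit `ν`

`K ⊆ F` fields, `w` a `K`-automorphism of `F` exchanging two elements `h`, `hq`.  If
`dh = ν' • dhq` in `Ω[F⁄K]` and `dhq ≠ 0`, then `w ν' * ν' = 1` (`s36ns_mul`): conjugating a
derivation `∂` with `∂ hq = 1` by `w` gives a derivation with value `1` at `h` and `w⁻¹ ν'` at `hq`.

Consequently, for a valuation ring `V₁` of `F`, a nonunit `c` of `V₁` fixed by `w` and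
`ν := c * ν'` a unit of `V₁`:  `w ν = c ^ 2 / ν` is a nonunit of `V₁` (`s36ns_nonunit`), i.e. `ν`
is a nonunit of `V₁.comap w` (`s36ns_nonunit_comap`).

Carrier instance (`s36ns_carrier`): `F = K0(X₀(M q))`, `w = va2Swap`, `h = α (nunH)`,
`θ = β (nunH)`, `c = q`: if `dh = ν' • dθ`, `dθ ≠ 0` and `(q ν')⁻¹ ∈ V₁ = va2V1`, then
`q ν' ∈ 𝔪_{V₂}` (`V₂ = va2V2`).
-/

set_option autoImplicit false

namespace Fermat.Agent.S36

section Swap

variable {K F : Type*} [Field K] [Field F] [Algebra K F]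

/-- The conjugate `w⁻¹ ∘ ∂ ∘ w` of a derivation of `F` by a `K`-automorphism `w`. -/
noncomputable def s36nsConj (w : F ≃ₐ[K] F) (d : Derivation K F F) : Derivation K F F where
  toFun x := w.symm (d (w x))
  map_add' x y := by simp
  map_smul' c x := by
    simp only [RingHom.id_apply]
    rw [map_smul, Derivation.map_smul, map_smul]
  map_one_eq_zero' := by
    show w.symm (d (w 1)) = 0
    rw [map_one, Derivation.map_one_eq_zero, map_zero]
  leibniz' x y := by
    show w.symm (d (w (x * y))) = x • w.symm (d (w y)) + y • w.symm (d (w x))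
    rw [map_mul, Derivation.leibniz, map_add, smul_eq_mul, smul_eq_mul, map_mul, map_mul,
      AlgEquiv.symm_apply_apply, AlgEquiv.symm_apply_apply, smul_eq_mul, smul_eq_mul]

@[simp]
theorem s36nsConj_apply (w : F ≃ₐ[K] F) (d : Derivation K F F) (x : F) :
    s36nsConj w d x = w.symm (d (w x)) := rfl

/-- **Swap relation.**  If `w` exchanges `h` and `hq` and `dh = ν' • dhq` with `dhq ≠ 0`, then
`w ν' * ν' = 1`. -/
theorem s36ns_mul (w : F ≃ₐ[K] F) (h hq ν' : F) (hw1 : w h = hq) (hw2 : w hq = h)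
    (hrel : KaehlerDifferential.D K F h = ν' • KaehlerDifferential.D K F hq)
    (hne : KaehlerDifferential.D K F hq ≠ 0) : w ν' * ν' = 1 := by
  -- a functional with value `1` at `dhq`
  obtain ⟨φ, hφ⟩ : ∃ φ : Module.Dual F (Ω[F⁄K]), φ (KaehlerDifferential.D K F hq) ≠ 0 := by
    by_contra hcon
    push Not at hcon
    exact hne ((Module.forall_dual_apply_eq_zero_iff F _).mp hcon)
  set ψ : Ω[F⁄K] →ₗ[F] F := (φ (KaehlerDifferential.D K F hq))⁻¹ • φ with hψ
  set d0 : Derivation K F F := ψ.compDer (KaehlerDifferential.D K F) with hd0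
  have hd0_apply : ∀ x : F, d0 x = ψ (KaehlerDifferential.D K F x) := fun x => rfl
  have hd0q : d0 hq = 1 := by
    rw [hd0_apply, hψ, LinearMap.smul_apply, smul_eq_mul, inv_mul_cancel₀ hφ]
  have hd0h : d0 h = ν' := by
    rw [hd0_apply, hrel, map_smul, ← hd0_apply, hd0q, smul_eq_mul, mul_one]
  -- the conjugate derivation
  set d1 : Derivation K F F := s36nsConj w d0 with hd1
  have hd1h : d1 h = 1 := by
    rw [hd1, s36nsConj_apply, hw1, hd0q, map_one]
  have hd1q : d1 hq = w.symm ν' := by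
    rw [hd1, s36nsConj_apply, hw2, hd0h]
  have key : d1 h = ν' • d1 hq := by
    have h1 := congrArg d1.liftKaehlerDifferential hrel
    rwa [map_smul, Derivation.liftKaehlerDifferential_comp_D,
      Derivation.liftKaehlerDifferential_comp_D] at h1
  rw [hd1h, hd1q, smul_eq_mul] at key
  have h2 := congrArg w key
  rw [map_one, map_mul, AlgEquiv.apply_symm_apply] at h2
  exact h2.symm

/-- `db ≠ 0` in `Ω[F⁄K]` as soon as `θ` does not kill the expansion of `b`
(`s36nd_lift_D` with `c = 0`). -/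
theorem s36ns_D_ne_zero (ι : F →ₐ[K] LaurentSeries K) (b : F)
    (hb : Fermat.Agent.S34.thdTheta K (ι b) ≠ 0) : KaehlerDifferential.D K F b ≠ 0 := by
  intro h0
  have h1 := s36nd_lift_D ι b b 0 (by rw [h0, zero_smul])
  rw [map_zero, zero_mul] at h1
  exact hb h1

/-- **`ν` is a nonunit at the swapped valuation.**  `V₁` a valuation ring of `F`, `c` a nonunit
of `V₁` fixed by `w`, `ν = c * ν'` a unit of `V₁` and `w ν' * ν' = 1`: then `w ν` is a nonunit
of `V₁`. -/
theorem s36ns_nonunit (V₁ : ValuationSubring F) (w : F ≃ₐ[K] F) (c ν' : F) (hwc : w c = c)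
    (hc : c ∈ V₁.nonunits) (hν : (c * ν')⁻¹ ∈ V₁) (hmul : w ν' * ν' = 1) :
    w (c * ν') ∈ V₁.nonunits := by
  have hw : w ν' = ν'⁻¹ := eq_inv_of_mul_eq_one_left hmul
  have hν0 : ν' ≠ 0 := by
    rintro rfl
    rw [mul_zero] at hmul
    exact zero_ne_one hmul
  by_cases hc0 : c = 0
  · rw [hc0, zero_mul, map_zero, ValuationSubring.mem_nonunits_iff, map_zero]
    exact zero_lt_one
  have e : w (c * ν') = c * (c * (c * ν')⁻¹) := by
    rw [map_mul, hwc, hw, mul_inv]
    field_simp
  rw [e, ValuationSubring.mem_nonunits_iff, map_mul, map_mul]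
  have h1 : V₁.valuation c < 1 := (V₁.mem_nonunits_iff).mp hc
  have h2 : V₁.valuation (c * ν')⁻¹ ≤ 1 := (V₁.valuation_le_one_iff _).mpr hν
  have h3 : V₁.valuation c * V₁.valuation (c * ν')⁻¹ ≤ 1 := by
    calc V₁.valuation c * V₁.valuation (c * ν')⁻¹ ≤ 1 * 1 := mul_le_mul' h1.le h2
      _ = 1 := one_mul 1
  calc V₁.valuation c * (V₁.valuation c * V₁.valuation (c * ν')⁻¹)
      ≤ V₁.valuation c * 1 := mul_le_mul' le_rfl h3
    _ = V₁.valuation c := mul_one _
    _ < 1 := h1

/-- The same, as membership in the nonunits of the pulled-back valuation ring. -/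
theorem s36ns_nonunit_comap (V₁ : ValuationSubring F) (w : F ≃ₐ[K] F) (c ν' : F) (hwc : w c = c)
    (hc : c ∈ V₁.nonunits) (hν : (c * ν')⁻¹ ∈ V₁) (hmul : w ν' * ν' = 1) :
    c * ν' ∈ (V₁.comap (w : F →+* F)).nonunits := by
  have h := s36ns_nonunit V₁ w c ν' hwc hc hν hmul
  rw [ValuationSubring.mem_nonunits_iff] at h ⊢
  by_contra hcon
  rw [not_lt] at hcon
  have h1 : ((c * ν')⁻¹) ∈ V₁.comap (w : F →+* F) := by
    rw [← ValuationSubring.valuation_le_one_iff, map_inv₀]
    exact inv_le_one_of_one_le₀ hcon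
  rw [ValuationSubring.mem_comap] at h1
  have h2 : w (c * ν')⁻¹ ∈ V₁ := h1
  rw [map_inv₀] at h2
  have h3 := (V₁.valuation_le_one_iff _).mpr h2
  rw [map_inv₀] at h3
  have h4 : V₁.valuation (w (c * ν')) ≠ 0 := by
    intro h0
    rw [h0, inv_zero] at h3
    rw [h0] at h
    -- `w (c ν') = 0` forces `c ν' = 0`, whose inverse `0` has valuation `0 < 1`
    have : c * ν' = 0 := by
      have := (Valuation.zero_iff _).mp h0
      exact (map_eq_zero_iff w w.injective).mp this
    rw [this, map_zero] at hcon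
    exact absurd hcon (by simp)
  have h5 : 1 ≤ V₁.valuation (w (c * ν')) := by
    rwa [inv_le_one₀ (zero_lt_iff.mpr h4)] at h3
  exact absurd h (not_lt.mpr h5)

end Swap

section Carrier

open AlgebraicCurve ModularCurve Fermat.Agent.S18 Fermat.Agent.S37 Fermat.Agent.S34

local notation "Qb" => AlgebraicClosure ℚ

variable (M q : ℕ) [NeZero M] [hq : Fact q.Prime] (hM : ¬ q ∣ M)
  (K0 : Type*) [Field K0] [Algebra ℚ K0] [Algebra K0 Qb]
  (A0 : ValuationSubring K0) [IsDiscreteValuationRing ↥A0]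
  {a2 : ℕ} (H : HauptRec a2 q)

/-- The swap of the level-`M q` function field as a `K0`-algebra automorphism. -/
noncomputable def s36nsSwap :
    ↥(laurentBaseChange K0 (modularFunctionFieldFull (M * q))) ≃ₐ[K0]
      ↥(laurentBaseChange K0 (modularFunctionFieldFull (M * q))) :=
  AlgEquiv.ofRingEquiv (f := va2SwapEquiv M q hq.out hM K0)
    (fun c => va2Swap_const M q hq.out hM K0 c)

theorem s36nsSwap_apply (x : ↥(laurentBaseChange K0 (modularFunctionFieldFull (M * q)))) :
    s36nsSwap M q hM K0 x = va2Swap M q hq.out hM K0 x := rfl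

omit [Algebra K0 Qb] in
/-- `q` is a nonunit of the Gauss valuation ring `V₁`. -/
theorem s36ns_q_nonunit (hA0 : A0.LiesOverPrime q) :
    ((q : ℕ) : ↥(laurentBaseChange K0 (modularFunctionFieldFull (M * q)))) ∈
      (va2V1 M q K0 A0).nonunits := by
  have h1 : ((q : A0) : K0) ∈ A0.nonunits := by
    have h2 : (q : K0) ∈ A0.nonunits := hA0
    simpa using h2
  rw [ValuationSubring.coe_mem_nonunits_iff] at h1
  have h3 := cinst_algebraMap_mem_nonunits (va2V1 M q K0 A0) (fun _ => Iff.rfl) (q : A0) h1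
  have h4 : algebraMap K0 ↥(laurentBaseChange K0 (modularFunctionFieldFull (M * q)))
      (((q : A0) : K0)) = ((q : ℕ) : ↥(laurentBaseChange K0 (modularFunctionFieldFull (M * q)))) := by
    have h5 : (((q : A0) : K0)) = ((q : ℕ) : K0) := by push_cast; rfl
    rw [h5, map_natCast]
  rwa [h4] at h3

/-- **NU-SWAP at the carrier.**  If `d(α h) = ν' • d(β h)` in `Ω[F⁄K0]`, `d(β h) ≠ 0` and
`(q ν')⁻¹` is Gauss-integral, then `ν = q ν'` lies in the maximal ideal of `V₂ = va2V2`. -/
theorem s36ns_carrier (ha2 : a2 ∣ M) (hA0 : A0.LiesOverPrime q)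
    (ν' : ↥(laurentBaseChange K0 (modularFunctionFieldFull (M * q))))
    (hrel : KaehlerDifferential.D K0 ↥(laurentBaseChange K0 (modularFunctionFieldFull (M * q)))
        (heckeAlphaBar K0 M q (nunH K0 M H ha2)) =
      ν' • KaehlerDifferential.D K0 ↥(laurentBaseChange K0 (modularFunctionFieldFull (M * q)))
        (heckeBetaBar K0 M q (nunH K0 M H ha2)))
    (hne : KaehlerDifferential.D K0 ↥(laurentBaseChange K0 (modularFunctionFieldFull (M * q)))
        (heckeBetaBar K0 M q (nunH K0 M H ha2)) ≠ 0)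
    (hν : (((q : ℕ) : ↥(laurentBaseChange K0 (modularFunctionFieldFull (M * q)))) * ν')⁻¹ ∈
      va2V1 M q K0 A0) :
    ((q : ℕ) : ↥(laurentBaseChange K0 (modularFunctionFieldFull (M * q)))) * ν' ∈
      (va2V2 M q hM K0 A0).nonunits := by
  have hmul : s36nsSwap M q hM K0 ν' * ν' = 1 :=
    s36ns_mul (s36nsSwap M q hM K0) _ _ ν'
      (by rw [s36nsSwap_apply, va2Swap_alpha]) (by rw [s36nsSwap_apply, va2Swap_beta]) hrel hne
  have h := s36ns_nonunit (va2V1 M q K0 A0) (s36nsSwap M q hM K0)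
    ((q : ℕ) : ↥(laurentBaseChange K0 (modularFunctionFieldFull (M * q)))) ν'
    (map_natCast _ q) (s36ns_q_nonunit M q K0 A0 hA0) hν hmul
  rw [s36nsSwap_apply] at h
  exact (va2x_comap_nonunits _ _ _).mpr h

/-- The swap relation at the carrier: `w ν' * ν' = 1`, hence `w (q ν') * (q ν') = q ^ 2`. -/
theorem s36ns_carrier_mul (ha2 : a2 ∣ M)
    (ν' : ↥(laurentBaseChange K0 (modularFunctionFieldFull (M * q))))
    (hrel : KaehlerDifferential.D K0 ↥(laurentBaseChange K0 (modularFunctionFieldFull (M * q)))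
        (heckeAlphaBar K0 M q (nunH K0 M H ha2)) =
      ν' • KaehlerDifferential.D K0 ↥(laurentBaseChange K0 (modularFunctionFieldFull (M * q)))
        (heckeBetaBar K0 M q (nunH K0 M H ha2)))
    (hne : KaehlerDifferential.D K0 ↥(laurentBaseChange K0 (modularFunctionFieldFull (M * q)))
        (heckeBetaBar K0 M q (nunH K0 M H ha2)) ≠ 0) :
    va2Swap M q hq.out hM K0 ν' * ν' = 1 ∧
    va2Swap M q hq.out hM K0
        (((q : ℕ) : ↥(laurentBaseChange K0 (modularFunctionFieldFull (M * q)))) * ν') *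
      (((q : ℕ) : ↥(laurentBaseChange K0 (modularFunctionFieldFull (M * q)))) * ν') =
      ((q : ℕ) : ↥(laurentBaseChange K0 (modularFunctionFieldFull (M * q)))) ^ 2 := by
  have hmul : s36nsSwap M q hM K0 ν' * ν' = 1 :=
    s36ns_mul (s36nsSwap M q hM K0) _ _ ν'
      (by rw [s36nsSwap_apply, va2Swap_alpha]) (by rw [s36nsSwap_apply, va2Swap_beta]) hrel hne
  rw [s36nsSwap_apply] at hmul
  refine ⟨hmul, ?_⟩
  rw [map_mul, map_natCast]
  calc ((q : ℕ) : ↥(laurentBaseChange K0 (modularFunctionFieldFull (M * q)))) *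
        va2Swap M q hq.out hM K0 ν' *
        (((q : ℕ) : ↥(laurentBaseChange K0 (modularFunctionFieldFull (M * q)))) * ν')
      = ((q : ℕ) : ↥(laurentBaseChange K0 (modularFunctionFieldFull (M * q)))) ^ 2 *
          (va2Swap M q hq.out hM K0 ν' * ν') := by ring
    _ = _ := by rw [hmul, mul_one]

end Carrier

end Fermat.Agent.S36
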