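import Mathlib
import Fermat.Agent.S34.Val2Exh
import Fermat.Agent.S34.InsepVal
import Fermat.Agent.S36.Deg3

/-!
# S36, [VAL3-INSEP]: the purely inseparable single-valuation cases at level `M q²`

`q ∤ M` a prime, `F₁ = K0(X₀(M q))`, `F₂ = K0(X₀(M q²))`, `al = heckeAlphaBar K0 (M q) q`,
`be = heckeBetaBar K0 (M q) q`, `V₁ = va2V1 M q`, `V₂ = va2V2 M q`, `W_a = va2V1 (M q) q`
(the Gauss valuation ring of level `M q²`).

Abstract part (`s36vi_abs_*`): a valuation subring `V` of `F`, `[F : β E] = l`, with a residue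
map `ρ` such that `ρ ∘ β = φ ∘ ρE`, `ρ ∘ α = ρE`, and an element `jE ∈ VE` whose residue `J`
satisfies `J ^ l = φ J`, `J ∉ range φ`: the powers `1, α jE, …, (α jE)^(l-1)` are an integral
basis of `V` over `β VE`; hence exhaustion, `l`-th powers come from below, and (if `φ κ_E ⊆ κ_E`)
residue degree one over `α`.

Carrier:
* `s36vi_exh_be_Wa`: a valuation subring `W` of `F₂` with `be x ∈ W ↔ x ∈ V₁` is `W_a`;
* `s36vi_insep_be_Wa`: every `x ∈ W_a` has `x ^ q ≡ be r` modulo `𝔪_{W_a}` for some `r ∈ V₁`;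
* `s36vi_res_al_Wa`: every `x ∈ W_a` has `x ≡ al r` modulo `𝔪_{W_a}` for some `r ∈ V₁`;
* `s36vi_exh_al_Wb`, `s36vi_insep_al_Wb`, `s36vi_res_be_Wb`: the same for `W_b = W_a.comap w2`
  and `V₂`, for any ring endomorphism `w2` of `F₂` with `w2 ∘ w2 = id`, `w2 ∘ al = be ∘ w1`.

Names are prefixed `s36vi`.
-/

set_option autoImplicit false
set_option linter.style.haveILetI false

noncomputable section

open AlgebraicCurve ModularCurve Fermat.Agent.S37 Fermat.Agent.S18 Fermat.Agent.S34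

namespace Fermat.Agent.S36

local notation "Qb" => AlgebraicClosure ℚ

/-! ### the abstract core -/

section Abs

variable {E F L : Type*} [Field E] [Field F] [Algebra E F] [Field L]
  (l : ℕ) [Fact l.Prime] [CharP L l]
  (alpha beta : E →+* F) (halg : ∀ a, algebraMap E F a = beta a)
  (VE : ValuationSubring E) (rhoE : VE →+* L) (hkerE : ∀ a : VE, (a : E)⁻¹ ∉ VE → rhoE a = 0)
  (V : ValuationSubring F) (rho : V.toSubring →+* L)
  (phi : L →+* L)
  (ha : ∀ a (h : a ∈ VE), ∃ h1 : alpha a ∈ V, rho ⟨alpha a, h1⟩ = rhoE ⟨a, h⟩)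
  (hb : ∀ a (h : a ∈ VE), ∃ h1 : beta a ∈ V, rho ⟨beta a, h1⟩ = phi (rhoE ⟨a, h⟩))
  (jE : E) (hjE : jE ∈ VE) (hJphi : (rhoE ⟨jE, hjE⟩) ^ l = phi (rhoE ⟨jE, hjE⟩))
  (hJ : ∀ c, phi c ≠ rhoE ⟨jE, hjE⟩)
  (hdeg : Module.finrank E F = l)

include halg ha hb hJphi hJ in
/-- the family `1, α jE, …, (α jE)^(l-1)` and its residues -/
theorem s36vi_abs_family :
    ∃ (hb₁ : ∀ i : Fin l, (alpha jE) ^ (i : ℕ) ∈ V.toSubring)
      (hV : ∀ a ∈ VE, algebraMap E F a ∈ V.toSubring),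
      (∀ (a : E) (h : a ∈ VE), rho ⟨algebraMap E F a, hV a h⟩ = phi (rhoE ⟨a, h⟩)) ∧
      (∀ i : Fin l, rho ⟨(alpha jE) ^ (i : ℕ), hb₁ i⟩ = (rhoE ⟨jE, hjE⟩) ^ (i : ℕ)) ∧
      (∀ c : Fin l → L, ∑ i, phi (c i) * rho ⟨(alpha jE) ^ (i : ℕ), hb₁ i⟩ = 0 →
        ∑ i, phi (c i) * rho ⟨(alpha jE) ^ (i : ℕ), hb₁ i⟩ = 0 → ∀ i, c i = 0) := by
  obtain ⟨hx1, hρx⟩ := ha jE hjE
  have hb₁ : ∀ i : Fin l, (alpha jE) ^ (i : ℕ) ∈ V.toSubring := fun i => pow_mem hx1 _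
  have hV : ∀ a ∈ VE, algebraMap E F a ∈ V.toSubring := fun a h => by
    rw [halg]
    exact (hb a h).1
  have hρV : ∀ (a : E) (h : a ∈ VE), rho ⟨algebraMap E F a, hV a h⟩ = phi (rhoE ⟨a, h⟩) := by
    intro a h
    obtain ⟨h1, h2⟩ := hb a h
    rw [← h2]
    congr 1
    exact Subtype.ext (halg a)
  have hρb : ∀ i : Fin l, rho ⟨(alpha jE) ^ (i : ℕ), hb₁ i⟩ = (rhoE ⟨jE, hjE⟩) ^ (i : ℕ) := by
    intro i
    have h1 : (⟨(alpha jE) ^ (i : ℕ), hb₁ i⟩ : V.toSubring) = ⟨alpha jE, hx1⟩ ^ (i : ℕ) := rfl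
    rw [h1, map_pow, hρx]
  refine ⟨hb₁, hV, hρV, hρb, fun c h _ => ?_⟩
  refine tvf_indep l phi (rhoE ⟨jE, hjE⟩) ⟨rhoE ⟨jE, hjE⟩, hJphi.symm⟩ hJ c ?_
  rw [← h]
  exact Finset.sum_congr rfl fun i _ => by rw [hρb]

include halg ha hb hJphi hJ hkerE hdeg in
/-- **integral basis**: every element of `V` is a `β VE`-combination of the powers of `α jE` -/
theorem s36vi_abs_coord (u : F) (hu : u ∈ V) :
    ∃ a : Fin l → E, (∀ i, a i ∈ VE) ∧ u = ∑ i, beta (a i) * (alpha jE) ^ (i : ℕ) := by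
  classical
  have hl : l.Prime := Fact.out
  obtain ⟨hb₁, hV, hρV, hρb, hind⟩ :=
    s36vi_abs_family l alpha beta halg VE rhoE V rho phi ha hb jE hjE hJphi hJ
  haveI : Nonempty (Fin l) := ⟨⟨0, hl.pos⟩⟩
  have hcard : Fintype.card (Fin l) = Module.finrank E F := by rw [Fintype.card_fin, hdeg]
  have hli := tva_linearIndependent VE V.toSubring V.toSubring hV hV rhoE rho rho phi phi
    hρV hρV (fun i : Fin l => (alpha jE) ^ (i : ℕ)) hb₁ hb₁ hind
  set B : Module.Basis (Fin l) E F := basisOfLinearIndependentOfCardEqFinrank hli hcard with hBdef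
  have hB : ∀ i, B i = (alpha jE) ^ (i : ℕ) := fun i => by
    rw [hBdef, coe_basisOfLinearIndependentOfCardEqFinrank]
  have hmem := tva_repr_mem VE V.toSubring V.toSubring hV hV rhoE rho rho phi phi
    hρV hρV hkerE (fun i : Fin l => (alpha jE) ^ (i : ℕ)) hb₁ hb₁ hind B hB u hu hu ⟨0, hl.pos⟩
  refine ⟨fun i => B.repr u i, fun i => ?_, ?_⟩
  · have h1 := hmem i
    simp only [pow_zero, mul_one] at h1
    exact h1
  · have h1 := (B.sum_repr u).symm
    rw [h1]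
    refine Finset.sum_congr rfl fun i _ => ?_
    rw [hB, Algebra.smul_def, halg]
    congr 2
    rw [← h1]

omit [Algebra E F] [Fact l.Prime] [CharP L l] in
include ha hb in
/-- the residue of a `β VE`-combination of the powers of `α jE` -/
theorem s36vi_abs_rho (a : Fin l → E) (ha' : ∀ i, a i ∈ VE)
    (hu : ∑ i, beta (a i) * (alpha jE) ^ (i : ℕ) ∈ V) :
    rho ⟨∑ i, beta (a i) * (alpha jE) ^ (i : ℕ), hu⟩ =
      ∑ i, phi (rhoE ⟨a i, ha' i⟩) * (rhoE ⟨jE, hjE⟩) ^ (i : ℕ) := by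
  obtain ⟨hx1, hρx⟩ := ha jE hjE
  have h1 : (⟨∑ i, beta (a i) * (alpha jE) ^ (i : ℕ), hu⟩ : V.toSubring) =
      ∑ i : Fin l, ⟨beta (a i), (hb (a i) (ha' i)).1⟩ * ⟨alpha jE, hx1⟩ ^ (i : ℕ) := by
    apply Subtype.ext
    rw [AddSubmonoidClass.coe_finsetSum]
    rfl
  rw [h1, map_sum]
  refine Finset.sum_congr rfl fun i _ => ?_
  rw [map_mul, map_pow, hρx, (hb (a i) (ha' i)).2]

include halg ha hb hJphi hJ hkerE hdeg in
/-- **exhaustion**: every valuation subring containing `β VE` contains `V` -/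
theorem s36vi_abs_le (W : ValuationSubring F) (hW : ∀ a ∈ VE, beta a ∈ W) : V ≤ W := by
  classical
  have hl : l.Prime := Fact.out
  obtain ⟨hb₁, hV, hρV, hρb, hind⟩ :=
    s36vi_abs_family l alpha beta halg VE rhoE V rho phi ha hb jE hjE hJphi hJ
  haveI : Nonempty (Fin l) := ⟨⟨0, hl.pos⟩⟩
  have hcard : Fintype.card (Fin l) = Module.finrank E F := by rw [Fintype.card_fin, hdeg]
  have h := tve_exh VE V V hV hV rhoE rho rho phi phi hρV hρV hkerE
    (fun i : Fin l => (alpha jE) ^ (i : ℕ)) hb₁ hb₁ hind hcard W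
    (fun a h => by rw [halg]; exact hW a h)
  exact h.elim id id

include halg ha hb hJphi hJ hkerE hdeg in
/-- **`l`-th powers come from below**: every `u ∈ V` has `u ^ l ≡ β r` for some `r ∈ VE` -/
theorem s36vi_abs_insep (u : F) (hu : u ∈ V) :
    ∃ r ∈ VE, u ^ l - beta r ∈ V.nonunits := by
  classical
  obtain ⟨a, ha', hua⟩ := s36vi_abs_coord l alpha beta halg VE rhoE hkerE V rho phi ha hb jE hjE
    hJphi hJ hdeg u hu
  set r : VE := ∑ i : Fin l, ⟨a i, ha' i⟩ ^ l * ⟨jE, hjE⟩ ^ (i : ℕ) with hr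
  obtain ⟨hβr, hρβr⟩ := hb (r : E) r.2
  refine ⟨(r : E), r.2, ?_⟩
  have hmem : u ^ l - beta (r : E) ∈ V := V.sub_mem (pow_mem hu l) hβr
  refine isv_nonunits_of_res V rho _ hmem ?_
  have h1 : (⟨u ^ l - beta (r : E), hmem⟩ : V.toSubring) = ⟨u, hu⟩ ^ l - ⟨beta (r : E), hβr⟩ := rfl
  have hu' : ∑ i, beta (a i) * (alpha jE) ^ (i : ℕ) ∈ V := hua ▸ hu
  have hρu : rho ⟨u, hu⟩ = ∑ i, phi (rhoE ⟨a i, ha' i⟩) * (rhoE ⟨jE, hjE⟩) ^ (i : ℕ) := by
    rw [← s36vi_abs_rho l alpha beta VE rhoE V rho phi ha hb jE hjE a ha' hu']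
    congr 1
    exact Subtype.ext hua
  have hρr : rhoE r = ∑ i, (rhoE ⟨a i, ha' i⟩) ^ l * (rhoE ⟨jE, hjE⟩) ^ (i : ℕ) := by
    rw [hr, map_sum]
    exact Finset.sum_congr rfl fun i _ => by rw [map_mul, map_pow, map_pow]
  have hsub : (⟨(r : E), r.2⟩ : VE) = r := rfl
  rw [h1, map_sub, map_pow, hρβr, hsub, hρr, hρu, sum_pow_char, map_sum, sub_eq_zero]
  refine Finset.sum_congr rfl fun i _ => ?_
  rw [mul_pow, map_mul, map_pow, map_pow, ← pow_mul, mul_comm (i : ℕ) l, pow_mul, hJphi]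

include halg ha hb hJphi hJ hkerE hdeg in
/-- **residue degree one over `α`**, when `φ κ_E ⊆ κ_E` -/
theorem s36vi_abs_res
    (hφE : ∀ a (h : a ∈ VE), ∃ (a' : E) (h' : a' ∈ VE), rhoE ⟨a', h'⟩ = phi (rhoE ⟨a, h⟩))
    (u : F) (hu : u ∈ V) :
    ∃ r ∈ VE, u - alpha r ∈ V.nonunits := by
  classical
  obtain ⟨a, ha', hua⟩ := s36vi_abs_coord l alpha beta halg VE rhoE hkerE V rho phi ha hb jE hjE
    hJphi hJ hdeg u hu
  choose a' ha'' hρa' using fun i => hφE (a i) (ha' i)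
  set r : VE := ∑ i : Fin l, ⟨a' i, ha'' i⟩ * ⟨jE, hjE⟩ ^ (i : ℕ) with hr
  obtain ⟨hαr, hραr⟩ := ha (r : E) r.2
  refine ⟨(r : E), r.2, ?_⟩
  have hmem : u - alpha (r : E) ∈ V := V.sub_mem hu hαr
  refine isv_nonunits_of_res V rho _ hmem ?_
  have h1 : (⟨u - alpha (r : E), hmem⟩ : V.toSubring) = ⟨u, hu⟩ - ⟨alpha (r : E), hαr⟩ := rfl
  have hu' : ∑ i, beta (a i) * (alpha jE) ^ (i : ℕ) ∈ V := hua ▸ hu
  have hρu : rho ⟨u, hu⟩ = ∑ i, phi (rhoE ⟨a i, ha' i⟩) * (rhoE ⟨jE, hjE⟩) ^ (i : ℕ) := by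
    rw [← s36vi_abs_rho l alpha beta VE rhoE V rho phi ha hb jE hjE a ha' hu']
    congr 1
    exact Subtype.ext hua
  have hρr : rhoE r = ∑ i, rhoE ⟨a' i, ha'' i⟩ * (rhoE ⟨jE, hjE⟩) ^ (i : ℕ) := by
    rw [hr, map_sum]
    exact Finset.sum_congr rfl fun i _ => by rw [map_mul, map_pow]
  have hsub : (⟨(r : E), r.2⟩ : VE) = r := rfl
  rw [h1, map_sub, hραr, hsub, hρr, hρu, sub_eq_zero]
  exact Finset.sum_congr rfl fun i _ => by rw [hρa']

end Abs

/-! ### the carrier: `W_a` over `V₁` -/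

section Carrier

variable (M q : ℕ) [NeZero M] [hq : Fact q.Prime] (hM : ¬ q ∣ M)
  (K0 : Type*) [Field K0] [Algebra ℚ K0] [Algebra K0 Qb]
  (A0 : ValuationSubring K0) [IsDiscreteValuationRing ↥A0]

omit [Algebra K0 Qb] in
/-- `ρ_a ∘ al = ρ₁` -/
theorem s36vi_ha (a : ↥(laurentBaseChange K0 (modularFunctionFieldFull (M * q))))
    (h : a ∈ va2V1 M q K0 A0) :
    ∃ h1 : (heckeAlphaBar K0 (M * q) q).toRingHom a ∈ va2V1 (M * q) q K0 A0,
      va2xRho1 (M * q) q K0 A0 ⟨(heckeAlphaBar K0 (M * q) q).toRingHom a, h1⟩ =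
        va2xRho1 M q K0 A0 ⟨a, h⟩ := by
  have h1 : (heckeAlphaBar K0 (M * q) q).toRingHom a ∈ va2V1 (M * q) q K0 A0 := by
    show ((heckeAlphaBar K0 (M * q) q a :
      ↥(laurentBaseChange K0 (modularFunctionFieldFull (M * q * q)))) : LaurentSeries K0) ∈ grV A0
    rw [coe_heckeAlphaBar]
    exact h
  exact ⟨h1, (va2xRho1_apply (M * q) q K0 A0 _ h1).trans
    ((congrArg (grRho A0) (Subtype.ext (coe_heckeAlphaBar (M * q) q a))).trans
      (va2xRho1_apply M q K0 A0 a h).symm)⟩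

omit [Algebra K0 Qb] in
/-- `ρ_a ∘ be = (t ↦ t^q) ∘ ρ₁` -/
theorem s36vi_hb (a : ↥(laurentBaseChange K0 (modularFunctionFieldFull (M * q))))
    (h : a ∈ va2V1 M q K0 A0) :
    ∃ h1 : (heckeBetaBar K0 (M * q) q).toRingHom a ∈ va2V1 (M * q) q K0 A0,
      va2xRho1 (M * q) q K0 A0 ⟨(heckeBetaBar K0 (M * q) q).toRingHom a, h1⟩ =
        qExpand (IsLocalRing.ResidueField A0) q (va2xRho1 M q K0 A0 ⟨a, h⟩) := by
  have h1 : (heckeBetaBar K0 (M * q) q).toRingHom a ∈ va2V1 (M * q) q K0 A0 := by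
    show ((heckeBetaBar K0 (M * q) q a :
      ↥(laurentBaseChange K0 (modularFunctionFieldFull (M * q * q)))) : LaurentSeries K0) ∈ grV A0
    rw [coe_heckeBetaBar]
    exact tv_qExpand_mem A0 q h
  refine ⟨h1, ?_⟩
  rw [va2xRho1_apply, va2xRho1_apply]
  exact tv_grRho_qExpand A0 q h

omit [Algebra K0 Qb] in
/-- the kernel of `ρ₁` contains the elements whose inverse is not in `V₁` -/
theorem s36vi_hkerE (a : ↥(va2V1 M q K0 A0))
    (ha : ((a : ↥(laurentBaseChange K0 (modularFunctionFieldFull (M * q)))))⁻¹ ∉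
      va2V1 M q K0 A0) :
    va2xRho1 M q K0 A0 a = 0 := by
  by_contra hne
  exact ha (va2x_hinv M q K0 A0 a hne)

include hM in
/-- `φ κ₁ ⊆ κ₁`: the `t ↦ t^q` twist of a residue of `V₁` is a residue of `V₁` -/
theorem s36vi_hphi (hA0 : A0.LiesOverPrime q)
    (a : ↥(laurentBaseChange K0 (modularFunctionFieldFull (M * q))))
    (h : a ∈ va2V1 M q K0 A0) :
    ∃ (a' : ↥(laurentBaseChange K0 (modularFunctionFieldFull (M * q))))
      (h' : a' ∈ va2V1 M q K0 A0),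
      va2xRho1 M q K0 A0 ⟨a', h'⟩ =
        qExpand (IsLocalRing.ResidueField A0) q (va2xRho1 M q K0 A0 ⟨a, h⟩) := by
  have hdeg : finrankAlong K0 (heckeAlphaBar K0 M q) = q + 1 := va2d_finrank K0 M hq.out hM
  obtain ⟨a0, ha0, hnon⟩ := va2x_res_one M q hM K0 A0 hA0 hdeg a h
  have ha0' : a0 ∈ grO A0 hA0 M hM := ha0
  obtain ⟨h1, hρ1⟩ := va2x_ha M q hM K0 A0 hA0 a0 ha0'
  obtain ⟨h2, hρ2⟩ := va2x_hb M q hM K0 A0 hA0 a0 ha0'
  refine ⟨(heckeBetaBar K0 M q).toRingHom a0, h2, ?_⟩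
  rw [hρ2, ← hρ1]
  congr 1
  have h0 := isv_res_of_nonunits (va2V1 M q K0 A0) (va2xRho1 M q K0 A0) (va2x_hinv M q K0 A0)
    _ ((va2V1 M q K0 A0).sub_mem h h1) hnon
  have h3 : (⟨a - (heckeAlphaBar K0 M q).toRingHom a0, (va2V1 M q K0 A0).sub_mem h h1⟩ :
      (va2V1 M q K0 A0).toSubring) = ⟨a, h⟩ - ⟨(heckeAlphaBar K0 M q).toRingHom a0, h1⟩ := rfl
  rw [h3, map_sub, sub_eq_zero] at h0
  exact h0.symm

end Carrier

/-! ### the three statements for `W_a` -/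

section Main

variable (M q : ℕ) [NeZero M] [hq : Fact q.Prime] (hM : ¬ q ∣ M)
  (K0 : Type*) [Field K0] [Algebra ℚ K0] [Algebra K0 Qb]
  (A0 : ValuationSubring K0) [IsDiscreteValuationRing ↥A0]

include hM in
/-- **`q`-th powers come from below** (`W_a` over `V₁` via `be`, purely inseparable of degree
`q`): every `x ∈ W_a` has `x ^ q ≡ be r` modulo `𝔪_{W_a}` for some `r ∈ V₁`. -/
theorem s36vi_insep_be_Wa (hA0 : A0.LiesOverPrime q)
    (x : ↥(laurentBaseChange K0 (modularFunctionFieldFull (M * q * q))))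
    (hx : x ∈ va2V1 (M * q) q K0 A0) :
    ∃ r ∈ va2V1 M q K0 A0,
      x ^ q - heckeBetaBar K0 (M * q) q r ∈ (va2V1 (M * q) q K0 A0).nonunits := by
  let _ : Algebra ↥(laurentBaseChange K0 (modularFunctionFieldFull (M * q)))
      ↥(laurentBaseChange K0 (modularFunctionFieldFull (M * q * q))) :=
    algebraAlong (heckeBetaBar K0 (M * q) q)
  have hcharA : CharP (IsLocalRing.ResidueField A0) q := grc_charP A0 q hA0
  have hchar := tvf_charP (k := IsLocalRing.ResidueField A0) q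
  have hJmem : grJ K0 (M * q) ∈ va2V1 M q K0 A0 := gr_jqModC_mem A0
  have hJres : va2xRho1 M q K0 A0 ⟨_, hJmem⟩ = jqModC (IsLocalRing.ResidueField A0) :=
    grRho_jqModC A0 _
  have hdeg : finrankAlong K0 (heckeBetaBar K0 (M * q) q) = q :=
    s36d_finrank_beta K0 M q hq.out hM
  obtain ⟨r, hr, hnon⟩ := s36vi_abs_insep q (heckeAlphaBar K0 (M * q) q).toRingHom
    (heckeBetaBar K0 (M * q) q).toRingHom (fun _ => rfl)
    (va2V1 M q K0 A0) (va2xRho1 M q K0 A0) (s36vi_hkerE M q K0 A0)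
    (va2V1 (M * q) q K0 A0) (va2xRho1 (M * q) q K0 A0)
    (qExpand (IsLocalRing.ResidueField A0) q)
    (s36vi_ha M q K0 A0) (s36vi_hb M q K0 A0)
    (grJ K0 (M * q)) hJmem (by rw [hJres]; exact tvf_jq_pow q)
    (by rw [hJres]; exact tvf_jq_not_range q) hdeg x hx
  exact ⟨r, hr, hnon⟩

include hM in
/-- **residue degree one** of `W_a` over `V₁` via `al`: every `x ∈ W_a` has `x ≡ al r` modulo
`𝔪_{W_a}` for some `r ∈ V₁`. -/
theorem s36vi_res_al_Wa (hA0 : A0.LiesOverPrime q)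
    (x : ↥(laurentBaseChange K0 (modularFunctionFieldFull (M * q * q))))
    (hx : x ∈ va2V1 (M * q) q K0 A0) :
    ∃ r ∈ va2V1 M q K0 A0,
      x - heckeAlphaBar K0 (M * q) q r ∈ (va2V1 (M * q) q K0 A0).nonunits := by
  let _ : Algebra ↥(laurentBaseChange K0 (modularFunctionFieldFull (M * q)))
      ↥(laurentBaseChange K0 (modularFunctionFieldFull (M * q * q))) :=
    algebraAlong (heckeBetaBar K0 (M * q) q)
  have hcharA : CharP (IsLocalRing.ResidueField A0) q := grc_charP A0 q hA0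
  have hchar := tvf_charP (k := IsLocalRing.ResidueField A0) q
  have hJmem : grJ K0 (M * q) ∈ va2V1 M q K0 A0 := gr_jqModC_mem A0
  have hJres : va2xRho1 M q K0 A0 ⟨_, hJmem⟩ = jqModC (IsLocalRing.ResidueField A0) :=
    grRho_jqModC A0 _
  have hdeg : finrankAlong K0 (heckeBetaBar K0 (M * q) q) = q :=
    s36d_finrank_beta K0 M q hq.out hM
  obtain ⟨r, hr, hnon⟩ := s36vi_abs_res q (heckeAlphaBar K0 (M * q) q).toRingHom
    (heckeBetaBar K0 (M * q) q).toRingHom (fun _ => rfl)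
    (va2V1 M q K0 A0) (va2xRho1 M q K0 A0) (s36vi_hkerE M q K0 A0)
    (va2V1 (M * q) q K0 A0) (va2xRho1 (M * q) q K0 A0)
    (qExpand (IsLocalRing.ResidueField A0) q)
    (s36vi_ha M q K0 A0) (s36vi_hb M q K0 A0)
    (grJ K0 (M * q)) hJmem (by rw [hJres]; exact tvf_jq_pow q)
    (by rw [hJres]; exact tvf_jq_not_range q) hdeg
    (s36vi_hphi M q hM K0 A0 hA0) x hx
  exact ⟨r, hr, hnon⟩

include hM in
/-- every valuation subring of `F₂` containing `be V₁` contains `W_a` -/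
theorem s36vi_le_be_Wa (hA0 : A0.LiesOverPrime q)
    (W : ValuationSubring ↥(laurentBaseChange K0 (modularFunctionFieldFull (M * q * q))))
    (hW : ∀ x ∈ va2V1 M q K0 A0, heckeBetaBar K0 (M * q) q x ∈ W) :
    va2V1 (M * q) q K0 A0 ≤ W := by
  let _ : Algebra ↥(laurentBaseChange K0 (modularFunctionFieldFull (M * q)))
      ↥(laurentBaseChange K0 (modularFunctionFieldFull (M * q * q))) :=
    algebraAlong (heckeBetaBar K0 (M * q) q)
  have hcharA : CharP (IsLocalRing.ResidueField A0) q := grc_charP A0 q hA0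
  have hchar := tvf_charP (k := IsLocalRing.ResidueField A0) q
  have hJmem : grJ K0 (M * q) ∈ va2V1 M q K0 A0 := gr_jqModC_mem A0
  have hJres : va2xRho1 M q K0 A0 ⟨_, hJmem⟩ = jqModC (IsLocalRing.ResidueField A0) :=
    grRho_jqModC A0 _
  have hdeg : finrankAlong K0 (heckeBetaBar K0 (M * q) q) = q :=
    s36d_finrank_beta K0 M q hq.out hM
  exact s36vi_abs_le q (heckeAlphaBar K0 (M * q) q).toRingHom
    (heckeBetaBar K0 (M * q) q).toRingHom (fun _ => rfl)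
    (va2V1 M q K0 A0) (va2xRho1 M q K0 A0) (s36vi_hkerE M q K0 A0)
    (va2V1 (M * q) q K0 A0) (va2xRho1 (M * q) q K0 A0)
    (qExpand (IsLocalRing.ResidueField A0) q)
    (s36vi_ha M q K0 A0) (s36vi_hb M q K0 A0)
    (grJ K0 (M * q)) hJmem (by rw [hJres]; exact tvf_jq_pow q)
    (by rw [hJres]; exact tvf_jq_not_range q) hdeg W (fun a ha => hW a ha)

include hM in
/-- **exhaustion over `V₁` via `be`**: a valuation subring `W` of `F₂` with
`be x ∈ W ↔ x ∈ V₁` is `W_a`. -/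
theorem s36vi_exh_be_Wa (hA0 : A0.LiesOverPrime q)
    (W : ValuationSubring ↥(laurentBaseChange K0 (modularFunctionFieldFull (M * q * q))))
    (hW : ∀ x, heckeBetaBar K0 (M * q) q x ∈ W ↔ x ∈ va2V1 M q K0 A0) :
    W = va2V1 (M * q) q K0 A0 := by
  have hle := s36vi_le_be_Wa M q hM K0 A0 hA0 W (fun a ha => (hW a).mpr ha)
  obtain ⟨τ, hτ⟩ := IsDiscreteValuationRing.exists_irreducible ↥A0
  have hτK : (τ : K0) ≠ 0 := fun h0 => hτ.ne_zero (Subtype.ext h0)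
  have hτ0 : algebraMap K0 ↥(laurentBaseChange K0 (modularFunctionFieldFull (M * q * q)))
      (τ : K0) ≠ 0 := by
    rw [Ne, map_eq_zero]
    exact hτK
  refine tve_eq_of_le _ W hle
    (algebraMap K0 ↥(laurentBaseChange K0 (modularFunctionFieldFull (M * q * q))) (τ : K0))
    (fun x hx => ?_) ?_
  · obtain ⟨y, hy, hxy⟩ := va2x_tau_gen1 (M * q) q K0 A0 τ hτ x hx
    have hxy' : x * (algebraMap K0 ↥(laurentBaseChange K0 (modularFunctionFieldFull (M * q * q)))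
        (τ : K0))⁻¹ = y := by
      rw [hxy, mul_comm _ y, mul_assoc y, mul_inv_cancel₀ hτ0, mul_one]
    rw [hxy']
    exact hy
  · intro hmem
    have h1 : (algebraMap K0 ↥(laurentBaseChange K0 (modularFunctionFieldFull (M * q * q)))
        (τ : K0))⁻¹ = heckeBetaBar K0 (M * q) q
          (algebraMap K0 ↥(laurentBaseChange K0 (modularFunctionFieldFull (M * q)))
            ((τ : K0)⁻¹)) := by
      rw [AlgHom.commutes, map_inv₀]
    rw [h1, hW, mem_va2V1] at hmem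
    have h3 : ((τ : K0))⁻¹ ∈ A0 := (gr_algebraMap_mem_iff A0 _).mp hmem
    exact hτ.not_isUnit (isUnit_iff_exists_inv.mpr
      ⟨⟨(τ : K0)⁻¹, h3⟩, Subtype.ext (mul_inv_cancel₀ hτK)⟩)

end Main

/-! ### transport to `W_b = W_a.comap w2` -/

section Swap

variable (M q : ℕ) [NeZero M] [hq : Fact q.Prime] (hM : ¬ q ∣ M)
  (K0 : Type*) [Field K0] [Algebra ℚ K0] [Algebra K0 Qb]
  (A0 : ValuationSubring K0) [IsDiscreteValuationRing ↥A0]
  (w2 : ↥(laurentBaseChange K0 (modularFunctionFieldFull (M * q * q))) →+*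
    ↥(laurentBaseChange K0 (modularFunctionFieldFull (M * q * q))))
  (hw2 : ∀ x, w2 (w2 x) = x)
  (hw2al : ∀ x : ↥(laurentBaseChange K0 (modularFunctionFieldFull (M * q))),
    w2 (heckeAlphaBar K0 (M * q) q x) =
      heckeBetaBar K0 (M * q) q (va2Swap M q hq.out hM K0 x))

include hw2 hw2al in
omit [IsDiscreteValuationRing ↥A0] in
/-- `w2 ∘ be = al ∘ w1` follows from `w2 ∘ al = be ∘ w1` for involutions -/
theorem s36vi_swap_be (x : ↥(laurentBaseChange K0 (modularFunctionFieldFull (M * q)))) :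
    w2 (heckeBetaBar K0 (M * q) q x) =
      heckeAlphaBar K0 (M * q) q (va2Swap M q hq.out hM K0 x) := by
  have h := hw2al (va2Swap M q hq.out hM K0 x)
  rw [va2Swap_swap] at h
  rw [← h, hw2]

include hw2 hw2al in
/-- **exhaustion over `V₂` via `al`**: a valuation subring `W` of `F₂` with
`al x ∈ W ↔ x ∈ V₂` is `W_b = W_a.comap w2`. -/
theorem s36vi_exh_al_Wb (hA0 : A0.LiesOverPrime q)
    (W : ValuationSubring ↥(laurentBaseChange K0 (modularFunctionFieldFull (M * q * q))))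
    (hW : ∀ x, heckeAlphaBar K0 (M * q) q x ∈ W ↔ x ∈ va2V2 M q hM K0 A0) :
    W = (va2V1 (M * q) q K0 A0).comap w2 := by
  have h1 : W.comap w2 = va2V1 (M * q) q K0 A0 := by
    apply s36vi_exh_be_Wa M q hM K0 A0 hA0
    intro x
    rw [ValuationSubring.mem_comap, s36vi_swap_be M q hM K0 w2 hw2 hw2al, hW, mem_va2V2,
      va2Swap_swap]
  ext x
  rw [ValuationSubring.mem_comap, ← h1, ValuationSubring.mem_comap, hw2]

include hw2 hw2al in
/-- **residue degree one** of `W_b` over `V₂` via `be` -/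
theorem s36vi_res_be_Wb (hA0 : A0.LiesOverPrime q)
    (x : ↥(laurentBaseChange K0 (modularFunctionFieldFull (M * q * q))))
    (hx : x ∈ (va2V1 (M * q) q K0 A0).comap w2) :
    ∃ r ∈ va2V2 M q hM K0 A0,
      x - heckeBetaBar K0 (M * q) q r ∈ ((va2V1 (M * q) q K0 A0).comap w2).nonunits := by
  obtain ⟨r', hr', hnon⟩ := s36vi_res_al_Wa M q hM K0 A0 hA0 (w2 x) hx
  refine ⟨va2Swap M q hq.out hM K0 r', ?_, ?_⟩
  · rw [mem_va2V2, va2Swap_swap]
    exact hr'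
  · rw [isv_mem_nonunits_comap, map_sub, s36vi_swap_be M q hM K0 w2 hw2 hw2al, va2Swap_swap]
    exact hnon

include hw2al in
/-- **`q`-th powers come from below** (`W_b` over `V₂` via `al`) -/
theorem s36vi_insep_al_Wb (hA0 : A0.LiesOverPrime q)
    (x : ↥(laurentBaseChange K0 (modularFunctionFieldFull (M * q * q))))
    (hx : x ∈ (va2V1 (M * q) q K0 A0).comap w2) :
    ∃ r ∈ va2V2 M q hM K0 A0,
      x ^ q - heckeAlphaBar K0 (M * q) q r ∈ ((va2V1 (M * q) q K0 A0).comap w2).nonunits := by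
  obtain ⟨r', hr', hnon⟩ := s36vi_insep_be_Wa M q hM K0 A0 hA0 (w2 x) hx
  refine ⟨va2Swap M q hq.out hM K0 r', ?_, ?_⟩
  · rw [mem_va2V2, va2Swap_swap]
    exact hr'
  · rw [isv_mem_nonunits_comap, map_sub, map_pow, hw2al, va2Swap_swap]
    exact hnon

end Swap

end Fermat.Agent.S36
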