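import Mathlib

/-!
# S36 [VAL3], abstract lifting lemma: the "other root" embedding

`E ⊆ F = E(x)` a finite simple field extension, `P ∈ E[Y]` monic of degree `[F : E] + 1` with
`P(x) = 0` and `P(a) = 0` for some `a ∈ E`, `x ≠ a` (so `P = (Y - a) · minpoly`).  For any field
homomorphism `e : E → Ω` and any root `y ≠ e a` of `P^e` in `Ω` there is a field homomorphism
`F → Ω` extending `e` and sending `x` to `y` (`s36vl_lift`).
-/

set_option autoImplicit false
set_option linter.style.haveILetI false

open Polynomial IntermediateField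

namespace Fermat.Agent.S36

section Lift

variable {E F Ω : Type*} [Field E] [Field F] [Field Ω] [Algebra E F]

/-- `P = (Y - a) · minpoly_E(x)` -/
theorem s36vl_factor [FiniteDimensional E F] (x : F) (hgen : E⟮x⟯ = ⊤) (a : E)
    (hxa : x ≠ algebraMap E F a) (P : E[X]) (hPm : P.Monic)
    (hPdeg : P.natDegree = Module.finrank E F + 1) (hPx : aeval x P = 0)
    (hPa : P.eval a = 0) : P = (X - C a) * minpoly E x := by
  have hx : IsIntegral E x := IsIntegral.of_finite E x
  set Q : E[X] := P /ₘ (X - C a) with hQ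
  have hPQ : (X - C a) * Q = P := mul_divByMonic_eq_iff_isRoot.mpr hPa
  have hQm : Q.Monic := Monic.of_mul_monic_left (monic_X_sub_C a) (by rw [hPQ]; exact hPm)
  have hQdeg : Q.natDegree = Module.finrank E F := by
    have h1 : P.natDegree = (X - C a).natDegree + Q.natDegree := by
      rw [← hPQ]
      exact (monic_X_sub_C a).natDegree_mul hQm
    rw [natDegree_X_sub_C, hPdeg] at h1
    omega
  have hQx : aeval x Q = 0 := by
    have h1 : aeval x P = (x - algebraMap E F a) * aeval x Q := by
      rw [← hPQ, map_mul, map_sub, aeval_X, aeval_C]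
    rw [hPx] at h1
    rcases mul_eq_zero.mp h1.symm with h | h
    · exact absurd (sub_eq_zero.mp h) hxa
    · exact h
  have hdvd : minpoly E x ∣ Q := minpoly.dvd E x hQx
  have hmdeg : (minpoly E x).natDegree = Module.finrank E F := by
    rw [← IntermediateField.adjoin.finrank hx, hgen, IntermediateField.finrank_top']
  have hQeq : Q = minpoly E x :=
    eq_of_monic_of_dvd_of_natDegree_le (minpoly.monic hx) hQm hdvd
      (by rw [hQdeg, hmdeg])
  rw [← hPQ, hQeq]

/-- **The "other root" embedding.** -/
theorem s36vl_lift [FiniteDimensional E F] (x : F) (hgen : E⟮x⟯ = ⊤) (a : E)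
    (hxa : x ≠ algebraMap E F a) (P : E[X]) (hPm : P.Monic)
    (hPdeg : P.natDegree = Module.finrank E F + 1) (hPx : aeval x P = 0)
    (hPa : P.eval a = 0) (e : E →+* Ω) (y : Ω) (hy : (P.map e).eval y = 0) (hya : y ≠ e a) :
    ∃ E' : F →+* Ω, (∀ z, E' (algebraMap E F z) = e z) ∧ E' x = y := by
  have hx : IsIntegral E x := IsIntegral.of_finite E x
  have hfac := s36vl_factor x hgen a hxa P hPm hPdeg hPx hPa
  have hmy : ((minpoly E x).map e).eval y = 0 := by
    rw [hfac, Polynomial.map_mul, Polynomial.map_sub, map_X, map_C, eval_mul, eval_sub, eval_X,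
      eval_C] at hy
    rcases mul_eq_zero.mp hy with h | h
    · exact absurd (sub_eq_zero.mp h) hya
    · exact h
  letI : Algebra E Ω := e.toAlgebra
  have hmy' : aeval y (minpoly E (IntermediateField.adjoin.powerBasis hx).gen) = 0 := by
    rw [IntermediateField.adjoin.powerBasis_gen, IntermediateField.minpoly_gen, aeval_def,
      eval₂_eq_eval_map]
    exact hmy
  let φ : ↥E⟮x⟯ →ₐ[E] Ω := (IntermediateField.adjoin.powerBasis hx).lift y hmy'
  let ψ : F ≃ₐ[E] ↥E⟮x⟯ :=
    (IntermediateField.topEquiv (F := E) (E := F)).symm.trans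
      (IntermediateField.equivOfEq hgen.symm)
  refine ⟨(φ.comp ψ.toAlgHom).toRingHom, fun z => ?_, ?_⟩
  · exact (φ.comp ψ.toAlgHom).commutes z
  · have h1 : ψ x = IntermediateField.AdjoinSimple.gen E x := Subtype.ext rfl
    show φ (ψ x) = y
    rw [h1, ← IntermediateField.adjoin.powerBasis_gen hx]
    exact (IntermediateField.adjoin.powerBasis hx).lift_gen y hmy'

end Lift

end Fermat.Agent.S36
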