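import Mathlib
import Fermat.Agent.S36.Val3Lift
import Fermat.Agent.S36.Deg3

/-!
# S36 [VAL3-SWAP]: the swap `w₂` of level `M q²`

`q ∤ M` a prime.  `F₁ = K0(X₀(M q))`, `F₂ = K0(X₀(M q²))`, `α₁, β₁ : F₁ → F₂` the two degeneracy
maps, `w₁ = va2Swap` the swap of level `M q`.

* over `ℚ̄`: `s36vsBar` with `s36vsBar_al` (`w₂ ∘ α₁ = β₁ ∘ w₁`), `s36vsBar_be`
  (`w₂ ∘ β₁ = α₁ ∘ w₁`), `s36vsBar_swap`, `s36vsBar_const`.  Construction: the "other root"
  lifting lemma `s36vl_lift` along `α₁` (no analytic input).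
* over `K0`: `s36v3Swap` with `s36v3Swap_swap`, `s36v3Swap_const`, `s36v3Swap_al`, `s36v3Swap_be`
  (descent along the generators `α₁(F₁) ∪ β₁(F₁)`).
-/

set_option autoImplicit false
set_option linter.unusedSectionVars false
set_option linter.style.haveILetI false

noncomputable section

open AlgebraicCurve ModularCurve Polynomial Fermat.Agent.S37 Fermat.Agent.S18 Fermat.Agent.S34
  Fermat.Agent.S35

open scoped IntermediateField

namespace Fermat.Agent.S36

local notation "Qb" => AlgebraicClosure ℚ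

/-! ### The swap over `ℚ̄` -/

section Bar

variable (M q : ℕ) [NeZero M] [hq : Fact q.Prime] (hM : ¬ q ∣ M)

include hM in
/-- `j(t^{q²}) ≠ j(t)` in the level-`M q²` function field -/
theorem s36vs_ne :
    heckeBetaBar Qb (M * q) q (heckeBetaBar Qb M q (grJ Qb M))
      ≠ heckeAlphaBar Qb (M * q) q (heckeAlphaBar Qb M q (grJ Qb M)) := by
  letI alg1 : Algebra ↥(modularFunctionFieldBar (M * q)) ↥(modularFunctionFieldBar (M * q * q)) :=
    algebraAlong (heckeAlphaBar Qb (M * q) q)
  have hdeg1 : Module.finrank ↥(modularFunctionFieldBar (M * q))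
      ↥(modularFunctionFieldBar (M * q * q)) = q :=
    s36d_finrank_alpha Qb (M * q) q hq.out (dvd_mul_left q M)
  have hgen1 : IntermediateField.adjoin ↥(modularFunctionFieldBar (M * q))
      ({heckeBetaBar Qb (M * q) q (heckeBetaBar Qb M q (grJ Qb M))} :
        Set ↥(modularFunctionFieldBar (M * q * q))) = ⊤ :=
    s36d_gen_alpha Qb M q hq.out (grJ Qb M) (nsq_gen_closure M q hq.out hM)
  intro h
  have hbot : IntermediateField.adjoin ↥(modularFunctionFieldBar (M * q))
      ({heckeBetaBar Qb (M * q) q (heckeBetaBar Qb M q (grJ Qb M))} :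
        Set ↥(modularFunctionFieldBar (M * q * q))) = ⊥ := by
    rw [IntermediateField.adjoin_simple_eq_bot_iff, h]
    exact (⊥ : IntermediateField ↥(modularFunctionFieldBar (M * q))
      ↥(modularFunctionFieldBar (M * q * q))).algebraMap_mem _
  have h1 : (⊥ : IntermediateField ↥(modularFunctionFieldBar (M * q))
      ↥(modularFunctionFieldBar (M * q * q))) = ⊤ := hbot.symm.trans hgen1
  have h2 := IntermediateField.bot_eq_top_iff_finrank_eq_one.mp h1
  rw [hdeg1] at h2
  exact hq.out.one_lt.ne' h2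

include hM in
/-- existence of the swap over `ℚ̄` -/
theorem s36vs_bar_exists :
    ∃ W : ↥(modularFunctionFieldBar (M * q * q)) →+* ↥(modularFunctionFieldBar (M * q * q)),
      (∀ z : ↥(modularFunctionFieldBar (M * q)),
        W (heckeAlphaBar Qb (M * q) q z) = heckeBetaBar Qb (M * q) q (swp M q hq.out hM z)) ∧
      W (heckeBetaBar Qb (M * q) q (heckeBetaBar Qb M q (grJ Qb M)))
        = heckeAlphaBar Qb (M * q) q (heckeAlphaBar Qb M q (grJ Qb M)) := by
  classical
  letI alg0 : Algebra ↥(modularFunctionFieldBar M) ↥(modularFunctionFieldBar (M * q)) :=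
    algebraAlong (heckeAlphaBar Qb M q)
  letI alg1 : Algebra ↥(modularFunctionFieldBar (M * q)) ↥(modularFunctionFieldBar (M * q * q)) :=
    algebraAlong (heckeAlphaBar Qb (M * q) q)
  haveI hfin0 : Module.Finite ↥(modularFunctionFieldBar M) ↥(modularFunctionFieldBar (M * q)) :=
    va2d_finite Qb M hq.out hM
  haveI hfin1 : Module.Finite ↥(modularFunctionFieldBar (M * q))
      ↥(modularFunctionFieldBar (M * q * q)) :=
    s36d_finite_alpha Qb (M * q) q hq.out (dvd_mul_left q M)
  have hdeg0 : Module.finrank ↥(modularFunctionFieldBar M) ↥(modularFunctionFieldBar (M * q))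
      = q + 1 := va2d_finrank Qb M hq.out hM
  have hdeg1 : Module.finrank ↥(modularFunctionFieldBar (M * q))
      ↥(modularFunctionFieldBar (M * q * q)) = q :=
    s36d_finrank_alpha Qb (M * q) q hq.out (dvd_mul_left q M)
  -- the maps as ring homomorphisms
  set a0 : ↥(modularFunctionFieldBar M) →+* ↥(modularFunctionFieldBar (M * q)) :=
    (heckeAlphaBar Qb M q).toRingHom with ha0
  set b0 : ↥(modularFunctionFieldBar M) →+* ↥(modularFunctionFieldBar (M * q)) :=
    (heckeBetaBar Qb M q).toRingHom with hb0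
  set a1 : ↥(modularFunctionFieldBar (M * q)) →+* ↥(modularFunctionFieldBar (M * q * q)) :=
    (heckeAlphaBar Qb (M * q) q).toRingHom with ha1
  set b1 : ↥(modularFunctionFieldBar (M * q)) →+* ↥(modularFunctionFieldBar (M * q * q)) :=
    (heckeBetaBar Qb (M * q) q).toRingHom with hb1
  set w1 : ↥(modularFunctionFieldBar (M * q)) →+* ↥(modularFunctionFieldBar (M * q)) :=
    swp M q hq.out hM with hw1
  set J : ↥(modularFunctionFieldBar M) := grJ Qb M with hJ
  have hba : ∀ z, b1 (a0 z) = a1 (b0 z) := fun z => s36d_beta_alpha Qb M q z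
  have hwa : ∀ z, w1 (a0 z) = b0 z := fun z => swp_alpha M q hq.out hM z
  have hwb : ∀ z, w1 (b0 z) = a0 z := fun z => swp_beta M q hq.out hM z
  -- the modular polynomial
  have hgen0 : IntermediateField.adjoin ↥(modularFunctionFieldBar M)
      ({b0 J} : Set ↥(modularFunctionFieldBar (M * q))) = ⊤ := nsq_gen_grJ M q hq.out hM
  have hint : IsIntegral ↥(modularFunctionFieldBar M) (b0 J) := IsIntegral.of_finite _ _
  set Φ : (↥(modularFunctionFieldBar M))[X] := minpoly ↥(modularFunctionFieldBar M) (b0 J)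
    with hΦ
  have hΦm : Φ.Monic := minpoly.monic hint
  have hΦdeg : Φ.natDegree = q + 1 := by
    rw [hΦ, ← IntermediateField.adjoin.finrank hint, hgen0, IntermediateField.finrank_top', hdeg0]
  have hΦ0 : Φ.eval₂ a0 (b0 J) = 0 := by
    have h := minpoly.aeval ↥(modularFunctionFieldBar M) (b0 J)
    rw [aeval_def] at h
    exact h
  set P : (↥(modularFunctionFieldBar (M * q)))[X] := Φ.map b0 with hP
  have hgen1 : IntermediateField.adjoin ↥(modularFunctionFieldBar (M * q))
      ({b1 (b0 J)} : Set ↥(modularFunctionFieldBar (M * q * q))) = ⊤ :=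
    s36d_gen_alpha Qb M q hq.out (grJ Qb M) (nsq_gen_closure M q hq.out hM)
  have hne : b1 (b0 J) ≠ a1 (a0 J) := s36vs_ne M q hM
  have hPm : P.Monic := hΦm.map _
  have hPdeg : P.natDegree = Module.finrank ↥(modularFunctionFieldBar (M * q))
      ↥(modularFunctionFieldBar (M * q * q)) + 1 := by
    rw [hdeg1, hP, hΦm.natDegree_map, hΦdeg]
  have hPa : P.eval (a0 J) = 0 := by
    rw [hP, eval_map]
    have hcomp : b0 = w1.comp a0 := RingHom.ext fun z => (hwa z).symm
    have h1 := Polynomial.hom_eval₂ Φ a0 w1 (b0 J)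
    rw [hΦ0, map_zero, hwb J, ← hcomp] at h1
    exact h1.symm
  have hPx : aeval (b1 (b0 J)) P = 0 := by
    rw [hP, aeval_def, eval₂_map]
    have hcomp : (algebraMap ↥(modularFunctionFieldBar (M * q))
        ↥(modularFunctionFieldBar (M * q * q))).comp b0 = b1.comp a0 :=
      RingHom.ext fun z => (hba z).symm
    rw [hcomp]
    have h1 := Polynomial.hom_eval₂ Φ a0 b1 (b0 J)
    rw [hΦ0, map_zero] at h1
    exact h1.symm
  have hy : (P.map (b1.comp w1)).eval (a1 (a0 J)) = 0 := by
    rw [hP, Polynomial.map_map, eval_map]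
    have hcomp : (b1.comp w1).comp b0 = a1.comp b0 :=
      RingHom.ext fun z => by
        show b1 (w1 (b0 z)) = a1 (b0 z)
        rw [hwb, hba]
    rw [hcomp]
    have h1 := Polynomial.hom_eval₂ Φ b0 a1 (a0 J)
    have h2 : Φ.eval₂ b0 (a0 J) = 0 := by
      have := hPa
      rwa [hP, eval_map] at this
    rw [h2, map_zero] at h1
    exact h1.symm
  have hya : a1 (a0 J) ≠ (b1.comp w1) (a0 J) := by
    show a1 (a0 J) ≠ b1 (w1 (a0 J))
    rw [hwa]
    exact hne.symm
  obtain ⟨W, hW1, hW2⟩ := s36vl_lift (E := ↥(modularFunctionFieldBar (M * q)))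
    (F := ↥(modularFunctionFieldBar (M * q * q))) (b1 (b0 J)) hgen1 (a0 J) hne P hPm hPdeg hPx
    hPa (b1.comp w1) (a1 (a0 J)) hy hya
  exact ⟨W, fun z => hW1 z, hW2⟩

/-- **The swap of level `M q²` over `ℚ̄`.** -/
def s36vsBar :
    ↥(modularFunctionFieldBar (M * q * q)) →+* ↥(modularFunctionFieldBar (M * q * q)) :=
  Classical.choose (s36vs_bar_exists M q hM)

/-- `w₂ ∘ α₁ = β₁ ∘ w₁` -/
theorem s36vsBar_al (z : ↥(modularFunctionFieldBar (M * q))) :
    s36vsBar M q hM (heckeAlphaBar Qb (M * q) q z)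
      = heckeBetaBar Qb (M * q) q (swp M q hq.out hM z) :=
  (Classical.choose_spec (s36vs_bar_exists M q hM)).1 z

theorem s36vsBar_gen :
    s36vsBar M q hM (heckeBetaBar Qb (M * q) q (heckeBetaBar Qb M q (grJ Qb M)))
      = heckeAlphaBar Qb (M * q) q (heckeAlphaBar Qb M q (grJ Qb M)) :=
  (Classical.choose_spec (s36vs_bar_exists M q hM)).2

/-- `w₂ ∘ β₁ = α₁ ∘ w₁` -/
theorem s36vsBar_be (z : ↥(modularFunctionFieldBar (M * q))) :
    s36vsBar M q hM (heckeBetaBar Qb (M * q) q z)
      = heckeAlphaBar Qb (M * q) q (swp M q hq.out hM z) := by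
  have hle : Subfield.closure (Set.range (heckeAlphaBar Qb M q) ∪
      {heckeBetaBar Qb M q (grJ Qb M)}) ≤
      RingHom.eqLocusField
        ((s36vsBar M q hM).comp (heckeBetaBar Qb (M * q) q).toRingHom)
        ((heckeAlphaBar Qb (M * q) q).toRingHom.comp (swp M q hq.out hM)) := by
    rw [Subfield.closure_le]
    rintro _ (⟨g, rfl⟩ | hb)
    · show s36vsBar M q hM (heckeBetaBar Qb (M * q) q (heckeAlphaBar Qb M q g))
        = heckeAlphaBar Qb (M * q) q (swp M q hq.out hM (heckeAlphaBar Qb M q g))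
      rw [s36d_beta_alpha, s36vsBar_al, swp_beta, swp_alpha, s36d_beta_alpha]
    · rw [Set.mem_singleton_iff] at hb
      rw [hb]
      show s36vsBar M q hM (heckeBetaBar Qb (M * q) q (heckeBetaBar Qb M q (grJ Qb M)))
        = heckeAlphaBar Qb (M * q) q (swp M q hq.out hM (heckeBetaBar Qb M q (grJ Qb M)))
      rw [s36vsBar_gen, swp_beta]
  exact hle (nsq_gen_closure M q hq.out hM z)

theorem s36vsBar_const (c : Qb) :
    s36vsBar M q hM (algebraMap Qb ↥(modularFunctionFieldBar (M * q * q)) c)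
      = algebraMap Qb ↥(modularFunctionFieldBar (M * q * q)) c := by
  have h1 : algebraMap Qb ↥(modularFunctionFieldBar (M * q * q)) c
      = heckeAlphaBar Qb (M * q) q (algebraMap Qb ↥(modularFunctionFieldBar (M * q)) c) :=
    (AlgHom.commutes _ c).symm
  have h2 : algebraMap Qb ↥(modularFunctionFieldBar (M * q * q)) c
      = heckeBetaBar Qb (M * q) q (algebraMap Qb ↥(modularFunctionFieldBar (M * q)) c) :=
    (AlgHom.commutes _ c).symm
  calc s36vsBar M q hM (algebraMap Qb ↥(modularFunctionFieldBar (M * q * q)) c)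
      = s36vsBar M q hM (heckeAlphaBar Qb (M * q) q
          (algebraMap Qb ↥(modularFunctionFieldBar (M * q)) c)) := by rw [← h1]
    _ = heckeBetaBar Qb (M * q) q (swp M q hq.out hM
          (algebraMap Qb ↥(modularFunctionFieldBar (M * q)) c)) := s36vsBar_al M q hM _
    _ = heckeBetaBar Qb (M * q) q (algebraMap Qb ↥(modularFunctionFieldBar (M * q)) c) := by
        rw [swp_const]
    _ = algebraMap Qb ↥(modularFunctionFieldBar (M * q * q)) c := h2.symm

/-- `w₂ ∘ w₂ = id` -/
theorem s36vsBar_swap (x : ↥(modularFunctionFieldBar (M * q * q))) :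
    s36vsBar M q hM (s36vsBar M q hM x) = x := by
  have hle : Subfield.closure (Set.range (heckeAlphaBar Qb (M * q) q) ∪
      {heckeBetaBar Qb (M * q) q (heckeBetaBar Qb M q (grJ Qb M))}) ≤
      RingHom.eqLocusField ((s36vsBar M q hM).comp (s36vsBar M q hM)) (RingHom.id _) := by
    rw [Subfield.closure_le]
    rintro _ (⟨g, rfl⟩ | hb)
    · show s36vsBar M q hM (s36vsBar M q hM (heckeAlphaBar Qb (M * q) q g))
        = heckeAlphaBar Qb (M * q) q g
      rw [s36vsBar_al, s36vsBar_be, swp_swp]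
    · rw [Set.mem_singleton_iff] at hb
      rw [hb]
      show s36vsBar M q hM (s36vsBar M q hM
          (heckeBetaBar Qb (M * q) q (heckeBetaBar Qb M q (grJ Qb M))))
        = heckeBetaBar Qb (M * q) q (heckeBetaBar Qb M q (grJ Qb M))
      rw [s36vsBar_be, s36vsBar_al, swp_swp]
  exact hle (s36d_gen_alpha_bar M q hq.out hM x)

end Bar

/-! ### Generation by the two images -/

section Gen

variable (M q : ℕ) [NeZero M] [hq : Fact q.Prime] (K : Type*) [Field K] [Algebra ℚ K]

/-- a subfield of the level-`M q²` function field containing `α₁(F₁)` and `β₁(F₁)` is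
everything -/
theorem s36vs_gen2 (S : Subfield ↥(laurentBaseChange K (modularFunctionFieldFull (M * q * q))))
    (ha : ∀ z, heckeAlphaBar K (M * q) q z ∈ S) (hb : ∀ z, heckeBetaBar K (M * q) q z ∈ S)
    (y : ↥(laurentBaseChange K (modularFunctionFieldFull (M * q * q)))) : y ∈ S := by
  refine va2_mem_of_gen S (fun c => ?_) (fun d _ hd => ?_) y
  · rw [← AlgHom.commutes (heckeAlphaBar K (M * q) q) c]
    exact ha _
  · rcases swp_dvd_cases (M * q) q hq.out hd with h | ⟨e, he, rfl⟩
    · rw [← s36d_alpha_jd K (M * q) q d h hd]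
      exact ha _
    · haveI : NeZero e := ⟨fun h0 => by
        subst h0
        exact (NeZero.ne (q * 0)) (Nat.mul_zero q)⟩
      rw [← s36d_beta_jd K (M * q) q e he hd]
      exact hb _

end Gen

/-! ### The swap over `K0` -/

section K0

variable (M q : ℕ) [NeZero M] [hq : Fact q.Prime] (hM : ¬ q ∣ M)
  (K0 : Type*) [Field K0] [Algebra ℚ K0] [Algebra K0 Qb]

theorem s36vs_bcf_al (z : ↥(laurentBaseChange K0 (modularFunctionFieldFull (M * q)))) :
    s36vsBar M q hM (bcfHom K0 Qb (modularFunctionFieldFull (M * q * q))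
        (heckeAlphaBar K0 (M * q) q z))
      = bcfHom K0 Qb (modularFunctionFieldFull (M * q * q))
          (heckeBetaBar K0 (M * q) q (va2Swap M q hq.out hM K0 z)) := by
  rw [va2_bcf_alpha, s36vsBar_al, va2_bcf_beta, va2Swap_spec]

theorem s36vs_bcf_be (z : ↥(laurentBaseChange K0 (modularFunctionFieldFull (M * q)))) :
    s36vsBar M q hM (bcfHom K0 Qb (modularFunctionFieldFull (M * q * q))
        (heckeBetaBar K0 (M * q) q z))
      = bcfHom K0 Qb (modularFunctionFieldFull (M * q * q))
          (heckeAlphaBar K0 (M * q) q (va2Swap M q hq.out hM K0 z)) := by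
  rw [va2_bcf_beta, s36vsBar_be, va2_bcf_alpha, va2Swap_spec]

theorem s36vs_mem_range (x : ↥(laurentBaseChange K0 (modularFunctionFieldFull (M * q * q)))) :
    ∃ y : ↥(laurentBaseChange K0 (modularFunctionFieldFull (M * q * q))),
      bcfHom K0 Qb (modularFunctionFieldFull (M * q * q)) y
        = ((s36vsBar M q hM).comp (bcfHom K0 Qb (modularFunctionFieldFull (M * q * q)))) x := by
  have key : x ∈ (RingHom.fieldRange (bcfHom K0 Qb (modularFunctionFieldFull (M * q * q)))).comap
      ((s36vsBar M q hM).comp (bcfHom K0 Qb (modularFunctionFieldFull (M * q * q)))) := by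
    refine s36vs_gen2 M q K0 _ (fun z => ?_) (fun z => ?_) x
    · rw [Subfield.mem_comap, RingHom.comp_apply, s36vs_bcf_al]
      exact ⟨_, rfl⟩
    · rw [Subfield.mem_comap, RingHom.comp_apply, s36vs_bcf_be]
      exact ⟨_, rfl⟩
  obtain ⟨y, hy⟩ := key
  exact ⟨y, hy⟩

/-- **The swap `w₂` of level `M q²` over `K0`.** -/
def s36v3Swap :
    ↥(laurentBaseChange K0 (modularFunctionFieldFull (M * q * q))) →+*
      ↥(laurentBaseChange K0 (modularFunctionFieldFull (M * q * q))) :=
  va2Lift (bcfHom K0 Qb (modularFunctionFieldFull (M * q * q))) (bcfHom_injective _ _ _)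
    ((s36vsBar M q hM).comp (bcfHom K0 Qb (modularFunctionFieldFull (M * q * q))))
    (s36vs_mem_range M q hM K0)

theorem s36v3Swap_spec (x : ↥(laurentBaseChange K0 (modularFunctionFieldFull (M * q * q)))) :
    bcfHom K0 Qb (modularFunctionFieldFull (M * q * q)) (s36v3Swap M q hM K0 x)
      = s36vsBar M q hM (bcfHom K0 Qb (modularFunctionFieldFull (M * q * q)) x) :=
  va2Lift_spec (bcfHom K0 Qb (modularFunctionFieldFull (M * q * q))) (bcfHom_injective _ _ _)
    ((s36vsBar M q hM).comp (bcfHom K0 Qb (modularFunctionFieldFull (M * q * q))))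
    (s36vs_mem_range M q hM K0) x

/-- `w₂ ∘ w₂ = id` -/
theorem s36v3Swap_swap (x : ↥(laurentBaseChange K0 (modularFunctionFieldFull (M * q * q)))) :
    s36v3Swap M q hM K0 (s36v3Swap M q hM K0 x) = x := by
  apply bcfHom_injective K0 Qb (modularFunctionFieldFull (M * q * q))
  rw [s36v3Swap_spec, s36v3Swap_spec, s36vsBar_swap]

theorem s36v3Swap_const (c : K0) :
    s36v3Swap M q hM K0
        (algebraMap K0 ↥(laurentBaseChange K0 (modularFunctionFieldFull (M * q * q))) c)
      = algebraMap K0 ↥(laurentBaseChange K0 (modularFunctionFieldFull (M * q * q))) c := by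
  apply bcfHom_injective K0 Qb (modularFunctionFieldFull (M * q * q))
  rw [s36v3Swap_spec, bcfHom_algebraMap, s36vsBar_const]

/-- `w₂ ∘ α₁ = β₁ ∘ w₁` -/
theorem s36v3Swap_al (x : ↥(laurentBaseChange K0 (modularFunctionFieldFull (M * q)))) :
    s36v3Swap M q hM K0 (heckeAlphaBar K0 (M * q) q x) =
      heckeBetaBar K0 (M * q) q (va2Swap M q hq.out hM K0 x) := by
  apply bcfHom_injective K0 Qb (modularFunctionFieldFull (M * q * q))
  rw [s36v3Swap_spec, s36vs_bcf_al]

/-- `w₂ ∘ β₁ = α₁ ∘ w₁` -/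
theorem s36v3Swap_be (x : ↥(laurentBaseChange K0 (modularFunctionFieldFull (M * q)))) :
    s36v3Swap M q hM K0 (heckeBetaBar K0 (M * q) q x) =
      heckeAlphaBar K0 (M * q) q (va2Swap M q hq.out hM K0 x) := by
  apply bcfHom_injective K0 Qb (modularFunctionFieldFull (M * q * q))
  rw [s36v3Swap_spec, s36vs_bcf_be]

theorem s36v3Swap_bijective : Function.Bijective (s36v3Swap M q hM K0) :=
  Function.Involutive.bijective (s36v3Swap_swap M q hM K0)

end K0

end Fermat.Agent.S36
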