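import Mathlib
import Fermat.Agent.S34.Val2Inst
import Fermat.Agent.S36.NormResExh
import Fermat.Agent.S36.NuSwap
import Fermat.Agent.S36.Val3Insep
import Fermat.Agent.S36.Val3Swap

/-!
# S36, [VAL3-EXH]: exhaustion and residue degree one for `W_c` at the carrier

`q ∤ M` a prime, `F₁ = K0(X₀(M q))`, `F₂ = K0(X₀(M q²))`, `al = heckeAlphaBar K0 (M q) q`,
`be = heckeBetaBar K0 (M q) q`, `V₁ = va2V1 M q`, `V₂ = va2V2 M q`, `W_a = va2V1 (M q) q`,
`W_b = W_a.comap (s36v3Swap M q hM K0)`.  The third valuation ring `W_c` and the element `z` are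
ARGUMENTS, with hypotheses in the shape of the `VAL3` contract: the table bridges
`al x ∈ W_c ↔ x ∈ V₁`, `be x ∈ W_c ↔ x ∈ V₂`, and `z^(q-1)/q` a unit of `W_c`, `z` a unit of
`W_a` (resp. of `W_b`); `q` is a uniformizer of `A0` (`hunr`).

* `s36vx_al_Wa`, `s36vx_al_Wb`, `s36vx_be_Wb`: the table bridges for `W_a`, `W_b`;
* `s36vx_exh_al1`: a valuation subring `W` with `al x ∈ W ↔ x ∈ V₁` is `W_a` or `W_c`;
* `s36vx_exh_be2`: a valuation subring `W` with `be x ∈ W ↔ x ∈ V₂` is `W_b` or `W_c`;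
* `s36vx_res_al_Wc`, `s36vx_res_be_Wc`: residue degree one of `W_c` over `V₁` via `al` and over
  `V₂` via `be`;
* `s36vx_unif_c`: `𝔪_{W_c} = z W_c`;
* `s36vx_hex`: a valuation subring of `F₂` with the trace of `W_a` on `K0(t)` is `W_a`, `W_b`
  or `W_c`.

Names are prefixed `s36vx`.
-/

set_option autoImplicit false
set_option linter.style.haveILetI false

noncomputable section

open AlgebraicCurve ModularCurve Polynomial Fermat.Agent.S37 Fermat.Agent.S18 Fermat.Agent.S34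

namespace Fermat.Agent.S36

local notation "Qb" => AlgebraicClosure ℚ

section Carrier

variable (M q : ℕ) [NeZero M] [hq : Fact q.Prime] (hM : ¬ q ∣ M)
  (K0 : Type*) [Field K0] [Algebra ℚ K0] [Algebra K0 Qb]
  (A0 : ValuationSubring K0) [IsDiscreteValuationRing ↥A0]

/-! ### the table for `W_a` and `W_b` -/

omit [Algebra K0 Qb] in
/-- `al x ∈ W_a ↔ x ∈ V₁` -/
theorem s36vx_al_Wa (x : ↥(laurentBaseChange K0 (modularFunctionFieldFull (M * q)))) :
    heckeAlphaBar K0 (M * q) q x ∈ va2V1 (M * q) q K0 A0 ↔ x ∈ va2V1 M q K0 A0 := by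
  rw [mem_va2V1, mem_va2V1, coe_heckeAlphaBar]

/-- `be x ∈ W_b ↔ x ∈ V₂` -/
theorem s36vx_be_Wb (x : ↥(laurentBaseChange K0 (modularFunctionFieldFull (M * q)))) :
    heckeBetaBar K0 (M * q) q x ∈ (va2V1 (M * q) q K0 A0).comap (s36v3Swap M q hM K0) ↔
      x ∈ va2V2 M q hM K0 A0 := by
  rw [ValuationSubring.mem_comap, s36v3Swap_be, s36vx_al_Wa, mem_va2V2]

/-! ### `q` as a uniformizer of `V₁`, `V₂` -/

omit [Algebra K0 Qb] [NeZero M] in
/-- `q ≠ 0` in a function field over `K0` -/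
theorem s36vx_q_ne_zero (N : ℕ) :
    ((q : ℕ) : ↥(laurentBaseChange K0 (modularFunctionFieldFull N))) ≠ 0 := by
  haveI : CharZero K0 := algebraRat.charZero K0
  have h1 : ((q : ℕ) : ↥(laurentBaseChange K0 (modularFunctionFieldFull N))) =
      algebraMap K0 _ ((q : ℕ) : K0) := (map_natCast _ q).symm
  rw [h1, Ne, map_eq_zero]
  exact Nat.cast_ne_zero.mpr hq.out.ne_zero

omit [Algebra K0 Qb] in
/-- under `hunr`, the non-units of `V₁` are the multiples of `q` -/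
theorem s36vx_q_gen1 (hunr : ∀ x ∈ A0.nonunits, x * ((q : ℕ) : K0)⁻¹ ∈ A0)
    (x : ↥(laurentBaseChange K0 (modularFunctionFieldFull (M * q))))
    (hx : x ∈ (va2V1 M q K0 A0).nonunits) :
    x * ((q : ℕ) : ↥(laurentBaseChange K0 (modularFunctionFieldFull (M * q))))⁻¹ ∈
      va2V1 M q K0 A0 := by
  obtain ⟨τ, hτ⟩ := IsDiscreteValuationRing.exists_irreducible ↥A0
  have hτK : (τ : K0) ≠ 0 := fun h0 => hτ.ne_zero (Subtype.ext h0)
  have h1 := va2_hg1 A0 M q τ hτ x hx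
  have hτn : (τ : K0) ∈ A0.nonunits := by
    rw [ValuationSubring.coe_mem_nonunits_iff, IsLocalRing.mem_maximalIdeal]
    exact hτ.not_isUnit
  have h2 := hunr _ hτn
  have h3 : algebraMap K0 ↥(laurentBaseChange K0 (modularFunctionFieldFull (M * q)))
      ((τ : K0) * ((q : ℕ) : K0)⁻¹) ∈ va2V1 M q K0 A0 := by
    rw [mem_va2V1]
    exact gr_algebraMap_mem A0 ⟨_, h2⟩
  have h4 : x * ((q : ℕ) : ↥(laurentBaseChange K0 (modularFunctionFieldFull (M * q))))⁻¹ =
      x * (algebraMap K0 ↥(laurentBaseChange K0 (modularFunctionFieldFull (M * q))) (τ : K0))⁻¹ *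
        algebraMap K0 ↥(laurentBaseChange K0 (modularFunctionFieldFull (M * q)))
          ((τ : K0) * ((q : ℕ) : K0)⁻¹) := by
    have hτF : algebraMap K0 ↥(laurentBaseChange K0 (modularFunctionFieldFull (M * q)))
        (τ : K0) ≠ 0 := by
      rw [Ne, map_eq_zero]
      exact hτK
    rw [map_mul, map_inv₀, map_natCast, mul_assoc x, ← mul_assoc _ _ (_)⁻¹,
      inv_mul_cancel₀ hτF, one_mul]
  rw [h4]
  exact (va2V1 M q K0 A0).mul_mem _ _ h1 h3

/-- under `hunr`, the non-units of `V₂` are the multiples of `q` -/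
theorem s36vx_q_gen2 (hunr : ∀ x ∈ A0.nonunits, x * ((q : ℕ) : K0)⁻¹ ∈ A0)
    (x : ↥(laurentBaseChange K0 (modularFunctionFieldFull (M * q))))
    (hx : x ∈ (va2V2 M q hM K0 A0).nonunits) :
    x * ((q : ℕ) : ↥(laurentBaseChange K0 (modularFunctionFieldFull (M * q))))⁻¹ ∈
      va2V2 M q hM K0 A0 := by
  have hwx : va2Swap M q hq.out hM K0 x ∈ (va2V1 M q K0 A0).nonunits :=
    (va2x_comap_nonunits _ _ x).mp hx
  have h1 := s36vx_q_gen1 M q K0 A0 hunr _ hwx
  rw [mem_va2V2, map_mul, map_inv₀, map_natCast]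
  exact h1

/-- `q` is a non-unit of `V₂` -/
theorem s36vx_q_nonunit2 (hA0 : A0.LiesOverPrime q) :
    ((q : ℕ) : ↥(laurentBaseChange K0 (modularFunctionFieldFull (M * q)))) ∈
      (va2V2 M q hM K0 A0).nonunits := by
  have h : ((q : ℕ) : ↥(laurentBaseChange K0 (modularFunctionFieldFull (M * q)))) ∈
      ((va2V1 M q K0 A0).comap (va2Swap M q hq.out hM K0)).nonunits := by
    rw [va2x_comap_nonunits, map_natCast]
    exact s36ns_q_nonunit M q K0 A0 hA0
  exact h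

end Carrier

/-! ### `W_a`, `W_c` over `V₁` via `al` -/

section Al

variable (M q : ℕ) [NeZero M] [hq : Fact q.Prime] (hM : ¬ q ∣ M)
  (K0 : Type*) [Field K0] [Algebra ℚ K0] [Algebra K0 Qb]
  (A0 : ValuationSubring K0) [IsDiscreteValuationRing ↥A0]
  (hA0 : A0.LiesOverPrime q) (hunr : ∀ x ∈ A0.nonunits, x * ((q : ℕ) : K0)⁻¹ ∈ A0)
  (Wc : ValuationSubring ↥(laurentBaseChange K0 (modularFunctionFieldFull (M * q * q))))
  (hWc : ∀ x, heckeAlphaBar K0 (M * q) q x ∈ Wc ↔ x ∈ va2V1 M q K0 A0)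
  (z : ↥(laurentBaseChange K0 (modularFunctionFieldFull (M * q * q)))) (hz0 : z ≠ 0)
  (hzc : z ^ (q - 1) * ((q : ℕ) :
    ↥(laurentBaseChange K0 (modularFunctionFieldFull (M * q * q))))⁻¹ ∈ Wc)
  (hzc' : (z ^ (q - 1) * ((q : ℕ) :
    ↥(laurentBaseChange K0 (modularFunctionFieldFull (M * q * q))))⁻¹)⁻¹ ∈ Wc)
  (hza : z ∈ va2V1 (M * q) q K0 A0) (hza' : z⁻¹ ∈ va2V1 (M * q) q K0 A0)

include hA0 hunr hWc hzc hzc' in
omit [Algebra K0 Qb] in
/-- the package of hypotheses of `NR-EXH` for `(V₁, W_a, W_c)` via `al` -/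
theorem s36vx_al_pack :
    letI := algebraAlong (heckeAlphaBar K0 (M * q) q)
    (∀ x ∈ va2V1 M q K0 A0, algebraMap ↥(laurentBaseChange K0 (modularFunctionFieldFull (M * q)))
      ↥(laurentBaseChange K0 (modularFunctionFieldFull (M * q * q))) x ∈
        va2V1 (M * q) q K0 A0) ∧
    (∀ x ∈ (va2V1 M q K0 A0).nonunits,
      algebraMap ↥(laurentBaseChange K0 (modularFunctionFieldFull (M * q)))
        ↥(laurentBaseChange K0 (modularFunctionFieldFull (M * q * q))) x ∈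
          (va2V1 (M * q) q K0 A0).nonunits) ∧
    (∀ x ∈ va2V1 M q K0 A0, algebraMap ↥(laurentBaseChange K0 (modularFunctionFieldFull (M * q)))
      ↥(laurentBaseChange K0 (modularFunctionFieldFull (M * q * q))) x ∈ Wc) ∧
    (∀ x ∈ (va2V1 M q K0 A0).nonunits,
      algebraMap ↥(laurentBaseChange K0 (modularFunctionFieldFull (M * q)))
        ↥(laurentBaseChange K0 (modularFunctionFieldFull (M * q * q))) x ∈ Wc.nonunits) ∧
    ((q : ℕ) : ↥(laurentBaseChange K0 (modularFunctionFieldFull (M * q)))) ≠ 0 ∧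
    ((q : ℕ) : ↥(laurentBaseChange K0 (modularFunctionFieldFull (M * q)))) ∈
      (va2V1 M q K0 A0).nonunits ∧
    (∀ x ∈ (va2V1 M q K0 A0).nonunits,
      x * ((q : ℕ) : ↥(laurentBaseChange K0 (modularFunctionFieldFull (M * q))))⁻¹ ∈
        va2V1 M q K0 A0) ∧
    z ^ (q - 1) * (algebraMap ↥(laurentBaseChange K0 (modularFunctionFieldFull (M * q)))
      ↥(laurentBaseChange K0 (modularFunctionFieldFull (M * q * q)))
        ((q : ℕ) : ↥(laurentBaseChange K0 (modularFunctionFieldFull (M * q)))))⁻¹ ∈ Wc ∧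
    algebraMap ↥(laurentBaseChange K0 (modularFunctionFieldFull (M * q)))
      ↥(laurentBaseChange K0 (modularFunctionFieldFull (M * q * q)))
        ((q : ℕ) : ↥(laurentBaseChange K0 (modularFunctionFieldFull (M * q)))) *
          (z ^ (q - 1))⁻¹ ∈ Wc ∧
    Module.finrank ↥(laurentBaseChange K0 (modularFunctionFieldFull (M * q)))
      ↥(laurentBaseChange K0 (modularFunctionFieldFull (M * q * q))) = (q - 1) + 1 := by
  letI := algebraAlong (heckeAlphaBar K0 (M * q) q)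
  have hbr_a : ∀ x, algebraMap ↥(laurentBaseChange K0 (modularFunctionFieldFull (M * q)))
      ↥(laurentBaseChange K0 (modularFunctionFieldFull (M * q * q))) x ∈
        va2V1 (M * q) q K0 A0 ↔ x ∈ va2V1 M q K0 A0 := fun x => s36vx_al_Wa M q K0 A0 x
  have hbr_c : ∀ x, algebraMap ↥(laurentBaseChange K0 (modularFunctionFieldFull (M * q)))
      ↥(laurentBaseChange K0 (modularFunctionFieldFull (M * q * q))) x ∈ Wc ↔
        x ∈ va2V1 M q K0 A0 := fun x => hWc x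
  have hcast : algebraMap ↥(laurentBaseChange K0 (modularFunctionFieldFull (M * q)))
      ↥(laurentBaseChange K0 (modularFunctionFieldFull (M * q * q)))
        ((q : ℕ) : ↥(laurentBaseChange K0 (modularFunctionFieldFull (M * q)))) =
      ((q : ℕ) : ↥(laurentBaseChange K0 (modularFunctionFieldFull (M * q * q)))) :=
    map_natCast _ q
  refine ⟨fun x hx => (hbr_a x).mpr hx, s36ne_nonunits_of_iff _ _ hbr_a,
    fun x hx => (hbr_c x).mpr hx, s36ne_nonunits_of_iff _ _ hbr_c,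
    s36vx_q_ne_zero q K0 (M * q), s36ns_q_nonunit M q K0 A0 hA0,
    s36vx_q_gen1 M q K0 A0 hunr, ?_, ?_, ?_⟩
  · rw [hcast]
    exact hzc
  · rw [hcast]
    have h1 : ((q : ℕ) : ↥(laurentBaseChange K0 (modularFunctionFieldFull (M * q * q)))) *
        (z ^ (q - 1))⁻¹ = (z ^ (q - 1) * ((q : ℕ) :
          ↥(laurentBaseChange K0 (modularFunctionFieldFull (M * q * q))))⁻¹)⁻¹ := by
      rw [mul_inv, inv_inv, mul_comm ((z ^ (q - 1))⁻¹)]
    rw [h1]
    exact hzc'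
  · have h1 : finrankAlong K0 (heckeAlphaBar K0 (M * q) q) = q :=
      s36d_finrank_alpha K0 (M * q) q hq.out (dvd_mul_left q M)
    rw [Nat.sub_add_cancel hq.out.pos]
    exact h1

include hA0 hunr hWc hz0 hzc hzc' hza hza' in
omit [Algebra K0 Qb] in
/-- **exhaustion over `V₁` via `al`**: a valuation subring `W` of `F₂` with
`al x ∈ W ↔ x ∈ V₁` is `W_a` or `W_c`. -/
theorem s36vx_exh_al1
    (W : ValuationSubring ↥(laurentBaseChange K0 (modularFunctionFieldFull (M * q * q))))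
    (hW : ∀ x, heckeAlphaBar K0 (M * q) q x ∈ W ↔ x ∈ va2V1 M q K0 A0) :
    W = va2V1 (M * q) q K0 A0 ∨ W = Wc := by
  letI := algebraAlong (heckeAlphaBar K0 (M * q) q)
  obtain ⟨hVa, hVa', hVc, hVc', hτ0, hτ, hτE, hzτ₁, hzτ₂, hcard⟩ :=
    s36vx_al_pack M q K0 A0 hA0 hunr Wc hWc z hzc hzc'
  exact s36ne_exh_iff (va2V1 M q K0 A0) (va2V1 (M * q) q K0 A0) Wc hVa hVa' hVc hVc' _ hτ0 hτ
    hτE (q - 1) z hz0 hza hza' hzτ₁ hzτ₂ hcard W (fun x => hW x)

include hA0 hunr hWc hz0 hzc hzc' hza hza' in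
omit [Algebra K0 Qb] in
/-- **residue degree one** of `W_c` over `V₁` via `al` -/
theorem s36vx_res_al_Wc
    (x : ↥(laurentBaseChange K0 (modularFunctionFieldFull (M * q * q)))) (hx : x ∈ Wc) :
    ∃ r ∈ va2V1 M q K0 A0, x - heckeAlphaBar K0 (M * q) q r ∈ Wc.nonunits := by
  letI := algebraAlong (heckeAlphaBar K0 (M * q) q)
  obtain ⟨hVa, hVa', hVc, hVc', hτ0, hτ, hτE, hzτ₁, hzτ₂, hcard⟩ :=
    s36vx_al_pack M q K0 A0 hA0 hunr Wc hWc z hzc hzc'
  exact s36ne_res_c (va2V1 M q K0 A0) (va2V1 (M * q) q K0 A0) Wc hVa hVa' hVc hVc' _ hτ0 hτ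
    hτE (q - 1) z hz0 hza hza' hzτ₁ hzτ₂ hcard x hx

include hA0 hunr hWc hz0 hzc hzc' hza hza' in
omit [Algebra K0 Qb] in
/-- **`z` is a uniformizer of `W_c`**: `𝔪_{W_c} = z W_c` -/
theorem s36vx_unif_c
    (y : ↥(laurentBaseChange K0 (modularFunctionFieldFull (M * q * q))))
    (hy : y ∈ Wc.nonunits) : y * z⁻¹ ∈ Wc := by
  letI := algebraAlong (heckeAlphaBar K0 (M * q) q)
  obtain ⟨hVa, hVa', hVc, hVc', hτ0, hτ, hτE, hzτ₁, hzτ₂, hcard⟩ :=
    s36vx_al_pack M q K0 A0 hA0 hunr Wc hWc z hzc hzc'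
  exact s36ne_unif_c (va2V1 M q K0 A0) (va2V1 (M * q) q K0 A0) Wc hVa hVa' hVc hVc' _ hτ0 hτ
    hτE (q - 1) z hz0 hza hza' hzτ₁ hzτ₂ hcard y hy

end Al

/-! ### `W_b`, `W_c` over `V₂` via `be` -/

section Be

variable (M q : ℕ) [NeZero M] [hq : Fact q.Prime] (hM : ¬ q ∣ M)
  (K0 : Type*) [Field K0] [Algebra ℚ K0] [Algebra K0 Qb]
  (A0 : ValuationSubring K0) [IsDiscreteValuationRing ↥A0]
  (hA0 : A0.LiesOverPrime q) (hunr : ∀ x ∈ A0.nonunits, x * ((q : ℕ) : K0)⁻¹ ∈ A0)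
  (Wc : ValuationSubring ↥(laurentBaseChange K0 (modularFunctionFieldFull (M * q * q))))
  (hWc : ∀ x, heckeBetaBar K0 (M * q) q x ∈ Wc ↔ x ∈ va2V2 M q hM K0 A0)
  (z : ↥(laurentBaseChange K0 (modularFunctionFieldFull (M * q * q)))) (hz0 : z ≠ 0)
  (hzc : z ^ (q - 1) * ((q : ℕ) :
    ↥(laurentBaseChange K0 (modularFunctionFieldFull (M * q * q))))⁻¹ ∈ Wc)
  (hzc' : (z ^ (q - 1) * ((q : ℕ) :
    ↥(laurentBaseChange K0 (modularFunctionFieldFull (M * q * q))))⁻¹)⁻¹ ∈ Wc)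
  (hzb : z ∈ (va2V1 (M * q) q K0 A0).comap (s36v3Swap M q hM K0))
  (hzb' : z⁻¹ ∈ (va2V1 (M * q) q K0 A0).comap (s36v3Swap M q hM K0))

include hA0 hunr hWc hzc hzc' in
/-- the package of hypotheses of `NR-EXH` for `(V₂, W_b, W_c)` via `be` -/
theorem s36vx_be_pack :
    letI := algebraAlong (heckeBetaBar K0 (M * q) q)
    (∀ x ∈ va2V2 M q hM K0 A0,
      algebraMap ↥(laurentBaseChange K0 (modularFunctionFieldFull (M * q)))
        ↥(laurentBaseChange K0 (modularFunctionFieldFull (M * q * q))) x ∈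
          (va2V1 (M * q) q K0 A0).comap (s36v3Swap M q hM K0)) ∧
    (∀ x ∈ (va2V2 M q hM K0 A0).nonunits,
      algebraMap ↥(laurentBaseChange K0 (modularFunctionFieldFull (M * q)))
        ↥(laurentBaseChange K0 (modularFunctionFieldFull (M * q * q))) x ∈
          ((va2V1 (M * q) q K0 A0).comap (s36v3Swap M q hM K0)).nonunits) ∧
    (∀ x ∈ va2V2 M q hM K0 A0,
      algebraMap ↥(laurentBaseChange K0 (modularFunctionFieldFull (M * q)))
        ↥(laurentBaseChange K0 (modularFunctionFieldFull (M * q * q))) x ∈ Wc) ∧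
    (∀ x ∈ (va2V2 M q hM K0 A0).nonunits,
      algebraMap ↥(laurentBaseChange K0 (modularFunctionFieldFull (M * q)))
        ↥(laurentBaseChange K0 (modularFunctionFieldFull (M * q * q))) x ∈ Wc.nonunits) ∧
    ((q : ℕ) : ↥(laurentBaseChange K0 (modularFunctionFieldFull (M * q)))) ≠ 0 ∧
    ((q : ℕ) : ↥(laurentBaseChange K0 (modularFunctionFieldFull (M * q)))) ∈
      (va2V2 M q hM K0 A0).nonunits ∧
    (∀ x ∈ (va2V2 M q hM K0 A0).nonunits,
      x * ((q : ℕ) : ↥(laurentBaseChange K0 (modularFunctionFieldFull (M * q))))⁻¹ ∈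
        va2V2 M q hM K0 A0) ∧
    z ^ (q - 1) * (algebraMap ↥(laurentBaseChange K0 (modularFunctionFieldFull (M * q)))
      ↥(laurentBaseChange K0 (modularFunctionFieldFull (M * q * q)))
        ((q : ℕ) : ↥(laurentBaseChange K0 (modularFunctionFieldFull (M * q)))))⁻¹ ∈ Wc ∧
    algebraMap ↥(laurentBaseChange K0 (modularFunctionFieldFull (M * q)))
      ↥(laurentBaseChange K0 (modularFunctionFieldFull (M * q * q)))
        ((q : ℕ) : ↥(laurentBaseChange K0 (modularFunctionFieldFull (M * q)))) *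
          (z ^ (q - 1))⁻¹ ∈ Wc ∧
    Module.finrank ↥(laurentBaseChange K0 (modularFunctionFieldFull (M * q)))
      ↥(laurentBaseChange K0 (modularFunctionFieldFull (M * q * q))) = (q - 1) + 1 := by
  letI := algebraAlong (heckeBetaBar K0 (M * q) q)
  have hbr_b : ∀ x, algebraMap ↥(laurentBaseChange K0 (modularFunctionFieldFull (M * q)))
      ↥(laurentBaseChange K0 (modularFunctionFieldFull (M * q * q))) x ∈
        (va2V1 (M * q) q K0 A0).comap (s36v3Swap M q hM K0) ↔ x ∈ va2V2 M q hM K0 A0 :=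
    fun x => s36vx_be_Wb M q hM K0 A0 x
  have hbr_c : ∀ x, algebraMap ↥(laurentBaseChange K0 (modularFunctionFieldFull (M * q)))
      ↥(laurentBaseChange K0 (modularFunctionFieldFull (M * q * q))) x ∈ Wc ↔
        x ∈ va2V2 M q hM K0 A0 := fun x => hWc x
  have hcast : algebraMap ↥(laurentBaseChange K0 (modularFunctionFieldFull (M * q)))
      ↥(laurentBaseChange K0 (modularFunctionFieldFull (M * q * q)))
        ((q : ℕ) : ↥(laurentBaseChange K0 (modularFunctionFieldFull (M * q)))) =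
      ((q : ℕ) : ↥(laurentBaseChange K0 (modularFunctionFieldFull (M * q * q)))) :=
    map_natCast _ q
  refine ⟨fun x hx => (hbr_b x).mpr hx, s36ne_nonunits_of_iff _ _ hbr_b,
    fun x hx => (hbr_c x).mpr hx, s36ne_nonunits_of_iff _ _ hbr_c,
    s36vx_q_ne_zero q K0 (M * q), s36vx_q_nonunit2 M q hM K0 A0 hA0,
    s36vx_q_gen2 M q hM K0 A0 hunr, ?_, ?_, ?_⟩
  · rw [hcast]
    exact hzc
  · rw [hcast]
    have h1 : ((q : ℕ) : ↥(laurentBaseChange K0 (modularFunctionFieldFull (M * q * q)))) *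
        (z ^ (q - 1))⁻¹ = (z ^ (q - 1) * ((q : ℕ) :
          ↥(laurentBaseChange K0 (modularFunctionFieldFull (M * q * q))))⁻¹)⁻¹ := by
      rw [mul_inv, inv_inv, mul_comm ((z ^ (q - 1))⁻¹)]
    rw [h1]
    exact hzc'
  · have h1 : finrankAlong K0 (heckeBetaBar K0 (M * q) q) = q :=
      s36d_finrank_beta K0 M q hq.out hM
    rw [Nat.sub_add_cancel hq.out.pos]
    exact h1

include hA0 hunr hWc hz0 hzc hzc' hzb hzb' in
/-- **exhaustion over `V₂` via `be`**: a valuation subring `W` of `F₂` with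
`be x ∈ W ↔ x ∈ V₂` is `W_b` or `W_c`. -/
theorem s36vx_exh_be2
    (W : ValuationSubring ↥(laurentBaseChange K0 (modularFunctionFieldFull (M * q * q))))
    (hW : ∀ x, heckeBetaBar K0 (M * q) q x ∈ W ↔ x ∈ va2V2 M q hM K0 A0) :
    W = (va2V1 (M * q) q K0 A0).comap (s36v3Swap M q hM K0) ∨ W = Wc := by
  letI := algebraAlong (heckeBetaBar K0 (M * q) q)
  obtain ⟨hVa, hVa', hVc, hVc', hτ0, hτ, hτE, hzτ₁, hzτ₂, hcard⟩ :=
    s36vx_be_pack M q hM K0 A0 hA0 hunr Wc hWc z hzc hzc'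
  exact s36ne_exh_iff (va2V2 M q hM K0 A0)
    ((va2V1 (M * q) q K0 A0).comap (s36v3Swap M q hM K0)) Wc hVa hVa' hVc hVc' _ hτ0 hτ
    hτE (q - 1) z hz0 hzb hzb' hzτ₁ hzτ₂ hcard W (fun x => hW x)

include hA0 hunr hWc hz0 hzc hzc' hzb hzb' in
/-- **residue degree one** of `W_c` over `V₂` via `be` -/
theorem s36vx_res_be_Wc
    (x : ↥(laurentBaseChange K0 (modularFunctionFieldFull (M * q * q)))) (hx : x ∈ Wc) :
    ∃ r ∈ va2V2 M q hM K0 A0, x - heckeBetaBar K0 (M * q) q r ∈ Wc.nonunits := by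
  letI := algebraAlong (heckeBetaBar K0 (M * q) q)
  obtain ⟨hVa, hVa', hVc, hVc', hτ0, hτ, hτE, hzτ₁, hzτ₂, hcard⟩ :=
    s36vx_be_pack M q hM K0 A0 hA0 hunr Wc hWc z hzc hzc'
  exact s36ne_res_c (va2V2 M q hM K0 A0)
    ((va2V1 (M * q) q K0 A0).comap (s36v3Swap M q hM K0)) Wc hVa hVa' hVc hVc' _ hτ0 hτ
    hτE (q - 1) z hz0 hzb hzb' hzτ₁ hzτ₂ hcard x hx

end Be

/-! ### (A4): the chart exhaustion -/

section Hex

variable (M q : ℕ) [NeZero M] [hq : Fact q.Prime] (hM : ¬ q ∣ M)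
  (K0 : Type*) [Field K0] [Algebra ℚ K0] [Algebra K0 Qb]
  (A0 : ValuationSubring K0) [IsDiscreteValuationRing ↥A0]
  {a2 : ℕ} (H : HauptRec a2 q) (ha2 : a2 ∣ M)

include ha2 in
omit [Algebra K0 Qb] in
/-- the chart coordinate of level `M q²` comes from level `M q` -/
theorem s36vx_alpha_t (c0 c1 : K0)
    (t : ↥(laurentBaseChange K0 (modularFunctionFieldFull (M * q * q))))
    (ht : (t : LaurentSeries K0) = cinstU H K0 c0 c1) :
    t = heckeAlphaBar K0 (M * q) q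
      ⟨cinstU H K0 c0 c1, cinstU_mem H K0 (ha2.mul_right q) c0 c1⟩ := by
  apply Subtype.ext
  rw [coe_heckeAlphaBar]
  exact ht

include ha2 in
omit [Algebra K0 Qb] in
/-- the trace on level `M q` of a valuation subring with the trace of `W_a` on `K0(t)` has the
trace of `V₁` on `K0(t)` -/
theorem s36vx_same_comap (c0 c1 : K0)
    (t : ↥(laurentBaseChange K0 (modularFunctionFieldFull (M * q * q))))
    (ht : (t : LaurentSeries K0) = cinstU H K0 c0 c1)
    (O' : ValuationSubring ↥(laurentBaseChange K0 (modularFunctionFieldFull (M * q * q))))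
    (hO' : ChtSame K0 (va2V1 (M * q) q K0 A0) t O') :
    ChtSame K0 (va2V1 M q K0 A0)
      (⟨cinstU H K0 c0 c1, cinstU_mem H K0 (ha2.mul_right q) c0 c1⟩ :
        ↥(laurentBaseChange K0 (modularFunctionFieldFull (M * q))))
      (O'.comap (heckeAlphaBar K0 (M * q) q).toRingHom) := by
  intro p r hr
  have htα := s36vx_alpha_t M q K0 H ha2 c0 c1 t ht
  have e : ∀ p : K0[X], heckeAlphaBar K0 (M * q) q
      (aeval (⟨cinstU H K0 c0 c1, cinstU_mem H K0 (ha2.mul_right q) c0 c1⟩ :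
        ↥(laurentBaseChange K0 (modularFunctionFieldFull (M * q)))) p) = aeval t p := by
    intro p
    rw [htα, aeval_algHom_apply]
  have hr' : aeval t r ≠ 0 := by
    rw [← e]
    exact (_root_.map_ne_zero _).mpr hr
  have h1 : heckeAlphaBar K0 (M * q) q
      (aeval (⟨cinstU H K0 c0 c1, cinstU_mem H K0 (ha2.mul_right q) c0 c1⟩ :
        ↥(laurentBaseChange K0 (modularFunctionFieldFull (M * q)))) p /
       aeval (⟨cinstU H K0 c0 c1, cinstU_mem H K0 (ha2.mul_right q) c0 c1⟩ :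
        ↥(laurentBaseChange K0 (modularFunctionFieldFull (M * q)))) r) =
      aeval t p / aeval t r := by
    rw [map_div₀, e, e]
  rw [ValuationSubring.mem_comap, AlgHom.toRingHom_eq_coe, RingHom.coe_coe, h1, hO' p r hr',
    ← h1, s36vx_al_Wa]

include ha2 in
/-- **(A4)**: a valuation subring of the level-`M q²` function field with the trace of `W_a` on
`K0(t)` is `W_a`, `W_b` or `W_c`. -/
theorem s36vx_hex (hA0 : A0.LiesOverPrime q)
    (hunr : ∀ x ∈ A0.nonunits, x * ((q : ℕ) : K0)⁻¹ ∈ A0)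
    (Wc : ValuationSubring ↥(laurentBaseChange K0 (modularFunctionFieldFull (M * q * q))))
    (hWc : ∀ x, heckeAlphaBar K0 (M * q) q x ∈ Wc ↔ x ∈ va2V1 M q K0 A0)
    (z : ↥(laurentBaseChange K0 (modularFunctionFieldFull (M * q * q)))) (hz0 : z ≠ 0)
    (hzc : z ^ (q - 1) * ((q : ℕ) :
      ↥(laurentBaseChange K0 (modularFunctionFieldFull (M * q * q))))⁻¹ ∈ Wc)
    (hzc' : (z ^ (q - 1) * ((q : ℕ) :
      ↥(laurentBaseChange K0 (modularFunctionFieldFull (M * q * q))))⁻¹)⁻¹ ∈ Wc)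
    (hza : z ∈ va2V1 (M * q) q K0 A0) (hza' : z⁻¹ ∈ va2V1 (M * q) q K0 A0)
    (c0 c1 : A0) (hc : IsLocalRing.residue A0 c0 ≠ IsLocalRing.residue A0 c1)
    (t : ↥(laurentBaseChange K0 (modularFunctionFieldFull (M * q * q))))
    (ht : (t : LaurentSeries K0) = cinstU H K0 (c0 : K0) (c1 : K0))
    (O' : ValuationSubring ↥(laurentBaseChange K0 (modularFunctionFieldFull (M * q * q))))
    (hO' : ChtSame K0 (va2V1 (M * q) q K0 A0) t O') :
    O' = va2V1 (M * q) q K0 A0 ∨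
      O' = (va2V1 (M * q) q K0 A0).comap (s36v3Swap M q hM K0) ∨ O' = Wc := by
  have h1 := s36vx_same_comap M q K0 A0 H ha2 (c0 : K0) (c1 : K0) t ht O' hO'
  have hmem : ∀ x : ↥(laurentBaseChange K0 (modularFunctionFieldFull (M * q))),
      heckeAlphaBar K0 (M * q) q x ∈ O' ↔
        x ∈ O'.comap (heckeAlphaBar K0 (M * q) q).toRingHom := by
    intro x
    rw [ValuationSubring.mem_comap, AlgHom.toRingHom_eq_coe, RingHom.coe_coe]
  rcases va2_hex A0 M q hM H ha2 hA0 c0 c1 hc _ rfl _ h1 with h | h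
  · have hW : ∀ x, heckeAlphaBar K0 (M * q) q x ∈ O' ↔ x ∈ va2V1 M q K0 A0 := by
      intro x
      rw [hmem, h]
    rcases s36vx_exh_al1 M q K0 A0 hA0 hunr Wc hWc z hz0 hzc hzc' hza hza' O' hW with h2 | h2
    · exact Or.inl h2
    · exact Or.inr (Or.inr h2)
  · have hW : ∀ x, heckeAlphaBar K0 (M * q) q x ∈ O' ↔ x ∈ va2V2 M q hM K0 A0 := by
      intro x
      rw [hmem, h]
    exact Or.inr (Or.inl (s36vi_exh_al_Wb M q hM K0 A0 (s36v3Swap M q hM K0)
      (s36v3Swap_swap M q hM K0) (s36v3Swap_al M q hM K0) hA0 O' hW))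

end Hex

end Fermat.Agent.S36
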