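import Fermat.Agent.S18.CuspConj
import Fermat.Agent.S18.GaussRing
import Fermat.Agent.S18.DvrDef
import Fermat.Agent.S18.Haupt4

/-!
# S36, package VAL3, part TW: the coefficient twist `t ↦ ζ t` and the Gauss ring

`K` a field, `ζ ∈ K`, `ccjTwist ζ hζ` the coefficientwise twist of `K((t))` (S18/CuspConj).

* `s36tw_qExpand`: the twist by a `q`-th root of unity fixes every series in `t^q`;
  `s36tw_algebraMap`: it fixes the constants; `s36tw_inv`: `T_{ζ⁻¹} ∘ T_ζ = id`;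
* `s36tw_coeffMap`: the twist of a series with coefficients in a valuation subring `A ∋ ζ, ζ⁻¹` has
  coefficients in `A`, with the same reduction when `ζ - 1 ∈ 𝔪_A`;
* `s36tw_mem_grV`, `s36tw_mem_grV_iff`, `s36tw_grRho`: the Gauss ring `grV A` is stable under the
  twist and the residue map `grRho A` is invariant (for `ζ - 1 ∈ 𝔪_A`);
* `s36tw_sub_unit`: for an integral series `Z = t⁻¹ (1 + ⋯)`,
  `Z(ζ t) - Z(t) = (ζ⁻¹ - 1) · (unit of the Gauss ring)`;
* `s36tw_root_mem`, `s36tw_root_sub_one`, `s36tw_cyc_unit`: a primitive `q`-th root of unity `ζ`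
  lies in every valuation subring, `ζ - 1` is a non-unit over `q`, and
  `(ζ⁻¹ - 1)^(q-1) / q` is a unit.
-/

set_option autoImplicit false

open ModularCurve Fermat.Agent.S18

namespace Fermat.Agent.S36

section Twist

variable {K : Type*} [Field K]

/-- the twist by a `q`-th root of unity fixes every series in `t^q` -/
theorem s36tw_qExpand (ζ : K) (hζ : ζ ≠ 0) (q : ℕ) [NeZero q] (hq : ζ ^ q = 1)
    (f : LaurentSeries K) : ccjTwist ζ hζ (qExpand K q f) = qExpand K q f := by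
  ext n
  rw [ccjTwist_coeff]
  by_cases hn : (q : ℤ) ∣ n
  · obtain ⟨k, rfl⟩ := hn
    rw [zpow_mul, zpow_natCast, hq, one_zpow, one_mul]
  · rw [qExpand_coeff_of_not_dvd q f hn, mul_zero]

/-- the twist fixes the constants -/
theorem s36tw_algebraMap (ζ : K) (hζ : ζ ≠ 0) (c : K) :
    ccjTwist ζ hζ (algebraMap K (LaurentSeries K) c) = algebraMap K (LaurentSeries K) c := by
  ext n
  rw [ccjTwist_coeff, algebraMap_laurentSeries_eq_single]
  by_cases hn : n = 0
  · subst hn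
    rw [zpow_zero, one_mul]
  · rw [HahnSeries.coeff_single_of_ne hn, mul_zero]

/-- `T_{ζ⁻¹} ∘ T_ζ = id` -/
theorem s36tw_inv (ζ : K) (hζ : ζ ≠ 0) (x : LaurentSeries K) :
    ccjTwist ζ⁻¹ (inv_ne_zero hζ) (ccjTwist ζ hζ x) = x := by
  ext n
  rw [ccjTwist_coeff, ccjTwist_coeff, ← mul_assoc, inv_zpow, inv_mul_cancel₀ (zpow_ne_zero n hζ),
    one_mul]

theorem s36tw_zpow_mem (A : ValuationSubring K) (ζ : K) (hζA : ζ ∈ A) (hζA' : ζ⁻¹ ∈ A) (n : ℤ) :
    ζ ^ n ∈ A := by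
  rcases Int.eq_nat_or_neg n with ⟨k, rfl | rfl⟩
  · rw [zpow_natCast]
    exact pow_mem hζA k
  · rw [zpow_neg, zpow_natCast, ← inv_pow]
    exact pow_mem hζA' k

/-- the twist of a series with coefficients in `A` has coefficients in `A` -/
theorem s36tw_coeffMap (A : ValuationSubring K) (ζ : K) (hζ : ζ ≠ 0) (hζA : ζ ∈ A)
    (hζA' : ζ⁻¹ ∈ A) (a : LaurentSeries A) :
    ∃ a' : LaurentSeries A, coeffMap A.subtype a' = ccjTwist ζ hζ (coeffMap A.subtype a) ∧
      (ζ - 1 ∈ A.nonunits →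
        coeffMap (IsLocalRing.residue A) a' = coeffMap (IsLocalRing.residue A) a) := by
  obtain ⟨a', ha'⟩ := dvd_lift_coeff A.toSubring (ccjTwist ζ hζ (coeffMap A.subtype a))
    (fun n => by
      rw [ccjTwist_coeff, coeffMap_coeff]
      exact A.mul_mem _ _ (s36tw_zpow_mem A ζ hζA hζA' n) (a.coeff n).2)
  refine ⟨a', ha', fun h1 => ?_⟩
  ext n
  rw [coeffMap_coeff, coeffMap_coeff]
  have hc : ((a'.coeff n : A) : K) = ζ ^ n * ((a.coeff n : A) : K) := by
    have := congrArg (fun s => HahnSeries.coeff s n) ha'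
    simpa [ccjTwist_coeff] using this
  have hζu : (⟨ζ ^ n, s36tw_zpow_mem A ζ hζA hζA' n⟩ : A) - 1 ∈ IsLocalRing.maximalIdeal A := by
    rw [IsLocalRing.mem_maximalIdeal, mem_nonunits_iff]
    intro hu
    have h2 : (ζ ^ n - 1 : K) ∈ A.nonunits := by
      -- `ζ^n - 1` is a multiple of `ζ - 1`
      have key : ∀ k : ℕ, (ζ ^ k - 1 : K) ∈ A.nonunits := by
        intro k
        induction k with
        | zero =>
          rw [pow_zero, sub_self, ValuationSubring.mem_nonunits_iff, map_zero]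
          exact zero_lt_one
        | succ k ih =>
          have e : (ζ ^ (k + 1) - 1 : K) = ζ * (ζ ^ k - 1) + (ζ - 1) := by ring
          rw [e, ValuationSubring.mem_nonunits_iff]
          refine lt_of_le_of_lt (Valuation.map_add _ _ _) (max_lt ?_ ?_)
          · rw [map_mul]
            exact lt_of_le_of_lt (mul_le_of_le_one_left' ((A.valuation_le_one_iff _).mpr hζA))
              ((ValuationSubring.mem_nonunits_iff _).mp ih)
          · exact (ValuationSubring.mem_nonunits_iff _).mp h1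
      rcases Int.eq_nat_or_neg n with ⟨k, rfl | rfl⟩
      · rw [zpow_natCast]
        exact key k
      · have e : (ζ ^ (-(k : ℤ)) - 1 : K) = -(ζ⁻¹ ^ k * (ζ ^ k - 1)) := by
          rw [zpow_neg, zpow_natCast, inv_pow]
          have : ζ ^ k ≠ 0 := pow_ne_zero k hζ
          field_simp
          ring
        rw [e, ValuationSubring.mem_nonunits_iff, Valuation.map_neg, map_mul]
        exact lt_of_le_of_lt
          (mul_le_of_le_one_left' ((A.valuation_le_one_iff _).mpr (pow_mem hζA' k)))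
          ((ValuationSubring.mem_nonunits_iff _).mp (key k))
    have h3 : ((⟨ζ ^ n, s36tw_zpow_mem A ζ hζA hζA' n⟩ - 1 : A) : K) = ζ ^ n - 1 := rfl
    obtain ⟨v, hv⟩ := hu.exists_right_inv
    have h4 : (ζ ^ n - 1 : K) * (v : K) = 1 := by
      rw [← h3]
      exact_mod_cast congrArg Subtype.val hv
    rw [ValuationSubring.mem_nonunits_iff] at h2
    have h5 : A.valuation ((ζ ^ n - 1 : K) * (v : K)) < 1 := by
      rw [map_mul]
      exact lt_of_le_of_lt (mul_le_of_le_one_right' ((A.valuation_le_one_iff _).mpr v.2)) h2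
    rw [h4, map_one] at h5
    exact lt_irrefl _ h5
  have hres : IsLocalRing.residue A (⟨ζ ^ n, s36tw_zpow_mem A ζ hζA hζA' n⟩ : A) = 1 := by
    have := (IsLocalRing.residue_eq_zero_iff _).mpr hζu
    rw [map_sub, map_one, sub_eq_zero] at this
    exact this
  have hcA : a'.coeff n = (⟨ζ ^ n, s36tw_zpow_mem A ζ hζA hζA' n⟩ : A) * a.coeff n :=
    Subtype.ext hc
  rw [hcA, map_mul, hres, one_mul]

/-- the Gauss ring is stable under the twist -/
theorem s36tw_mem_grV (A : ValuationSubring K) (ζ : K) (hζ : ζ ≠ 0) (hζA : ζ ∈ A)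
    (hζA' : ζ⁻¹ ∈ A) (h1 : ζ - 1 ∈ A.nonunits) {x : LaurentSeries K} (hx : x ∈ grV A) :
    ccjTwist ζ hζ x ∈ grV A := by
  obtain ⟨a, b, hb, h⟩ := hx
  obtain ⟨a', ha', -⟩ := s36tw_coeffMap A ζ hζ hζA hζA' a
  obtain ⟨b', hb', hb'r⟩ := s36tw_coeffMap A ζ hζ hζA hζA' b
  refine ⟨a', b', ?_, ?_⟩
  · rw [hb'r h1]
    exact hb
  · rw [ha', hb', ← map_mul, h]

/-- the residue map of the Gauss ring is invariant under the twist -/
theorem s36tw_grRho (A : ValuationSubring K) (ζ : K) (hζ : ζ ≠ 0) (hζA : ζ ∈ A)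
    (hζA' : ζ⁻¹ ∈ A) (h1 : ζ - 1 ∈ A.nonunits) (x : LaurentSeries K) (hx : x ∈ grV A)
    (hx' : ccjTwist ζ hζ x ∈ grV A) :
    grRho A ⟨ccjTwist ζ hζ x, hx'⟩ = grRho A ⟨x, hx⟩ := by
  obtain ⟨a, b, hb, h⟩ := hx
  obtain ⟨a', ha', ha'r⟩ := s36tw_coeffMap A ζ hζ hζA hζA' a
  obtain ⟨b', hb', hb'r⟩ := s36tw_coeffMap A ζ hζ hζA hζA' b
  have hb'0 : coeffMap (IsLocalRing.residue A) b' ≠ 0 := by
    rw [hb'r h1]
    exact hb
  have e1 := grRho_spec A ⟨ccjTwist ζ hζ x, hx'⟩ a' b' hb'0 (by rw [ha', hb', ← map_mul, h])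
  have e2 := grRho_spec A ⟨x, ⟨a, b, hb, h⟩⟩ a b hb h
  rw [ha'r h1, hb'r h1] at e1
  exact mul_right_cancel₀ hb (e1.trans e2.symm)

/-- `ζ⁻¹ - 1` is a non-unit when `ζ - 1` is -/
theorem s36tw_inv_sub_one (A : ValuationSubring K) (ζ : K) (hζ : ζ ≠ 0) (hζA' : ζ⁻¹ ∈ A)
    (h1 : ζ - 1 ∈ A.nonunits) : ζ⁻¹ - 1 ∈ A.nonunits := by
  have e : ζ⁻¹ - 1 = -(ζ⁻¹ * (ζ - 1)) := by
    field_simp
    ring
  rw [e, ValuationSubring.mem_nonunits_iff, Valuation.map_neg, map_mul]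
  exact lt_of_le_of_lt (mul_le_of_le_one_left' ((A.valuation_le_one_iff _).mpr hζA'))
    ((ValuationSubring.mem_nonunits_iff _).mp h1)

theorem s36tw_mem_grV_iff (A : ValuationSubring K) (ζ : K) (hζ : ζ ≠ 0) (hζA : ζ ∈ A)
    (hζA' : ζ⁻¹ ∈ A) (h1 : ζ - 1 ∈ A.nonunits) (x : LaurentSeries K) :
    ccjTwist ζ hζ x ∈ grV A ↔ x ∈ grV A := by
  refine ⟨fun h => ?_, fun h => s36tw_mem_grV A ζ hζ hζA hζA' h1 h⟩
  have h2 := s36tw_mem_grV A ζ⁻¹ (inv_ne_zero hζ) hζA' (by rw [inv_inv]; exact hζA)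
    (s36tw_inv_sub_one A ζ hζ hζA' h1) h
  rwa [s36tw_inv] at h2

end Twist

/-! ### `Z(ζ t) - Z(t)` for an integral series with a simple pole -/

section Diff

variable {K : Type*} [Field K]

theorem s36tw_geom_mem (A : ValuationSubring K) (ζ : K) (hζ : ζ ≠ 0) (hζA : ζ ∈ A)
    (hζ1 : ζ ≠ 1) (k : ℕ) : (ζ⁻¹ - 1)⁻¹ * (ζ ^ ((k : ℤ) - 1) - 1) ∈ A := by
  have hne : ζ⁻¹ - 1 ≠ 0 := by
    intro h
    apply hζ1
    have : ζ⁻¹ = 1 := sub_eq_zero.mp h
    rw [← inv_inv ζ, this, inv_one]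
  induction k with
  | zero =>
    have e : (ζ⁻¹ - 1)⁻¹ * (ζ ^ (((0 : ℕ) : ℤ) - 1) - 1) = 1 := by
      rw [Nat.cast_zero, zero_sub, zpow_neg, zpow_one, inv_mul_cancel₀ hne]
    rw [e]
    exact A.one_mem
  | succ k ih =>
    have e : (ζ⁻¹ - 1)⁻¹ * (ζ ^ (((k + 1 : ℕ) : ℤ) - 1) - 1)
        = ζ * ((ζ⁻¹ - 1)⁻¹ * (ζ ^ ((k : ℤ) - 1) - 1)) - ζ := by
      have h1 : ((k + 1 : ℕ) : ℤ) - 1 = ((k : ℤ) - 1) + 1 := by push_cast; ring
      rw [h1, zpow_add₀ hζ, zpow_one]
      field_simp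
      ring
    rw [e]
    exact A.toSubring.sub_mem (A.mul_mem _ _ hζA ih) hζA

/-- for an integral series `Z = t⁻¹ (1 + ⋯)`: `Z(ζ t) - Z(t) = (ζ⁻¹ - 1) · u` with `u` a unit of
the Gauss ring -/
theorem s36tw_sub_unit (A : ValuationSubring K) (ζ : K) (hζ : ζ ≠ 0) (hζA : ζ ∈ A)
    (hζ1 : ζ ≠ 1) (Z : LaurentSeries ℤ) (hZ : Hp4Lead Z (-1)) :
    ∃ u : LaurentSeries K, u ∈ grV A ∧ u⁻¹ ∈ grV A ∧
      ccjTwist ζ hζ (coeffMap (Int.castRingHom K) Z) - coeffMap (Int.castRingHom K) Z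
        = algebraMap K (LaurentSeries K) (ζ⁻¹ - 1) * u := by
  have hne : ζ⁻¹ - 1 ≠ 0 := by
    intro h
    apply hζ1
    have : ζ⁻¹ = 1 := sub_eq_zero.mp h
    rw [← inv_inv ζ, this, inv_one]
  set u : LaurentSeries K := algebraMap K (LaurentSeries K) (ζ⁻¹ - 1)⁻¹ *
    (ccjTwist ζ hζ (coeffMap (Int.castRingHom K) Z) - coeffMap (Int.castRingHom K) Z) with hu
  have hcoeff : ∀ n : ℤ, u.coeff n = (ζ⁻¹ - 1)⁻¹ * (ζ ^ n - 1) * ((Z.coeff n : ℤ) : K) := by
    intro n
    rw [hu, algebraMap_laurentSeries_eq_single, ← HahnSeries.C_apply, HahnSeries.C_mul_eq_smul,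
      HahnSeries.coeff_smul, HahnSeries.coeff_sub, ccjTwist_coeff, coeffMap_coeff, smul_eq_mul]
    simp only [eq_intCast]
    ring
  have hmem : ∀ n : ℤ, u.coeff n ∈ A.toSubring := by
    intro n
    rw [hcoeff]
    by_cases hn : n < -1
    · rw [hZ.coeff_lt hn, Int.cast_zero, mul_zero]
      exact A.zero_mem
    · push Not at hn
      obtain ⟨k, hk⟩ : ∃ k : ℕ, n = (k : ℤ) - 1 := ⟨(n + 1).toNat, by omega⟩
      rw [hk]
      refine A.mul_mem _ _ (s36tw_geom_mem A ζ hζ hζA hζ1 k) ?_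
      exact (Int.castRingHom A (Z.coeff ((k : ℤ) - 1))).2
  obtain ⟨u', hu'⟩ := dvd_lift_coeff A.toSubring u hmem
  have hu'1 : u'.coeff (-1) = 1 := by
    apply Subtype.ext
    have h1 : ((u'.coeff (-1) : A) : K) = u.coeff (-1) := by
      rw [← hu']
      rfl
    rw [h1, hcoeff, hZ.coeff_self, Int.cast_one, mul_one, zpow_neg, zpow_one,
      inv_mul_cancel₀ hne]
    rfl
  have humem : u ∈ grV A := by
    rw [← hu']
    exact gr_coeffMap_mem A u'
  have hρ : grRho A ⟨u, humem⟩ ≠ 0 := by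
    have h2 : grRho A ⟨u, humem⟩ = coeffMap (IsLocalRing.residue A) u' := by
      have := grRho_coeffMap A u'
      rw [← this]
      congr 1
      exact Subtype.ext hu'.symm
    rw [h2]
    intro h0
    have h3 := congrArg (fun s => HahnSeries.coeff s (-1)) h0
    simp only [coeffMap_coeff, HahnSeries.coeff_zero] at h3
    rw [hu'1, map_one] at h3
    exact one_ne_zero h3
  refine ⟨u, humem, gr_inv_mem A ⟨u, humem⟩ hρ, ?_⟩
  rw [hu, ← mul_assoc, ← map_mul, mul_inv_cancel₀ hne, map_one, one_mul]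

end Diff

/-! ### Roots of unity in a valuation ring -/

section Cyc

variable {K : Type*} [Field K]

/-- a root of unity lies in every valuation subring -/
theorem s36tw_root_mem (A : ValuationSubring K) (ζ : K) (n : ℕ) (hn : n ≠ 0) (h : ζ ^ n = 1) :
    ζ ∈ A := by
  by_contra hζ
  have h1 : A.valuation ζ⁻¹ < 1 := by
    rw [← ValuationSubring.mem_nonunits_iff, ValuationSubring.inv_mem_nonunits_iff]
    exact Or.inr hζ
  have h2 : A.valuation (ζ⁻¹ ^ n) < 1 := by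
    rw [map_pow]
    exact pow_lt_one₀ zero_le h1 hn
  rw [inv_pow, h, inv_one, map_one] at h2
  exact lt_irrefl _ h2

theorem s36tw_root_inv_mem (A : ValuationSubring K) (ζ : K) (n : ℕ) (hn : n ≠ 0)
    (h : ζ ^ n = 1) : ζ⁻¹ ∈ A :=
  s36tw_root_mem A ζ⁻¹ n hn (by rw [inv_pow, h, inv_one])

/-- over a prime `q`, a `q`-th root of unity is congruent to `1` -/
theorem s36tw_root_sub_one (A : ValuationSubring K) (q : ℕ) [hq : Fact q.Prime]
    (hqA : ((q : ℕ) : K) ∈ A.nonunits) (ζ : K) (h : ζ ^ q = 1) : ζ - 1 ∈ A.nonunits := by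
  have hζA : ζ ∈ A := s36tw_root_mem A ζ q hq.out.ne_zero h
  have hq0 : ((q : ℕ) : IsLocalRing.ResidueField A) = 0 := by
    have h1 : ((q : ℕ) : A) ∈ IsLocalRing.maximalIdeal A := by
      rw [← ValuationSubring.coe_mem_nonunits_iff]
      exact_mod_cast hqA
    have h2 := (IsLocalRing.residue_eq_zero_iff _).mpr h1
    rwa [map_natCast] at h2
  haveI : CharP (IsLocalRing.ResidueField A) q := (CharP.charP_iff_prime_eq_zero hq.out).mpr hq0
  have hx : IsLocalRing.residue A ⟨ζ, hζA⟩ ^ q = 1 := by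
    rw [← map_pow]
    have : (⟨ζ, hζA⟩ : A) ^ q = 1 := Subtype.ext h
    rw [this, map_one]
  have h3 : (IsLocalRing.residue A ⟨ζ, hζA⟩ - 1) ^ q = 0 := by
    rw [sub_pow_char, hx, one_pow, sub_self]
  have h4 : IsLocalRing.residue A (⟨ζ, hζA⟩ - 1) = 0 := by
    rw [map_sub, map_one]
    exact pow_eq_zero_iff hq.out.ne_zero |>.mp h3
  have h5 : (⟨ζ, hζA⟩ - 1 : A) ∈ IsLocalRing.maximalIdeal A :=
    (IsLocalRing.residue_eq_zero_iff _).mp h4
  have h6 := ValuationSubring.coe_mem_nonunits_iff.mpr h5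
  exact h6

theorem s36tw_add_unit (A : ValuationSubring K) {x y : K} (hx : x ∈ A) (hxi : x⁻¹ ∈ A)
    (hx0 : x ≠ 0) (hy : y ∈ A.nonunits) : (x + y)⁻¹ ∈ A := by
  have hvx : A.valuation x = 1 := by
    refine le_antisymm ((A.valuation_le_one_iff x).mpr hx) ?_
    have h1 := (A.valuation_le_one_iff _).mpr hxi
    rw [map_inv₀] at h1
    have hpos : 0 < A.valuation x := zero_lt_iff.mpr ((map_ne_zero _).mpr hx0)
    exact (inv_le_one₀ hpos).mp h1
  have hvy : A.valuation y < 1 := (ValuationSubring.mem_nonunits_iff _).mp hy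
  have hv : A.valuation (x + y) = 1 := by
    rw [Valuation.map_add_eq_of_lt_left _ (by rw [hvx]; exact hvy), hvx]
  rw [← A.valuation_le_one_iff, map_inv₀, hv, inv_one]

/-- a positive integer smaller than the residue characteristic is a unit -/
theorem s36tw_nat_unit (A : ValuationSubring K) (q : ℕ) [hq : Fact q.Prime]
    (hqA : ((q : ℕ) : K) ∈ A.nonunits) (j : ℕ) (hj0 : 0 < j) (hjq : j < q) :
    ((j : ℕ) : K)⁻¹ ∈ A := by
  by_contra hji
  have hjn : ((j : ℕ) : K) ∈ A.nonunits := by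
    have : (((j : ℕ) : K)⁻¹)⁻¹ ∈ A.nonunits :=
      (ValuationSubring.inv_mem_nonunits_iff _).mpr (Or.inr hji)
    rwa [inv_inv] at this
  have hcop : Nat.Coprime j q :=
    ((Nat.Prime.coprime_iff_not_dvd hq.out).mpr (Nat.not_dvd_of_pos_of_lt hj0 hjq)).symm
  obtain ⟨a, b, hab⟩ := Nat.isCoprime_iff_coprime.mpr hcop
  have h1 : ((a : ℤ) : K) * ((j : ℕ) : K) + ((b : ℤ) : K) * ((q : ℕ) : K) = 1 := by
    exact_mod_cast congrArg (Int.cast : ℤ → K) hab
  have hint : ∀ c : ℤ, A.valuation ((c : ℤ) : K) ≤ 1 := fun c =>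
    (A.valuation_le_one_iff _).mpr (intCast_mem A c)
  have h2 : A.valuation (1 : K) < 1 := by
    rw [← h1]
    refine lt_of_le_of_lt (Valuation.map_add _ _ _) (max_lt ?_ ?_)
    · rw [map_mul]
      exact lt_of_le_of_lt (mul_le_of_le_one_left' (hint a))
        ((ValuationSubring.mem_nonunits_iff _).mp hjn)
    · rw [map_mul]
      exact lt_of_le_of_lt (mul_le_of_le_one_left' (hint b))
        ((ValuationSubring.mem_nonunits_iff _).mp hqA)
  rw [map_one] at h2
  exact lt_irrefl _ h2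

/-- **the cyclotomic unit**: for a primitive `q`-th root of unity `ζ` and a valuation subring
over `q`, `(ζ⁻¹ - 1)^(q-1) / q` is a unit -/
theorem s36tw_cyc_unit (A : ValuationSubring K) (q : ℕ) [hq : Fact q.Prime]
    (hqA : ((q : ℕ) : K) ∈ A.nonunits) (ζ : K) (hζ : IsPrimitiveRoot ζ q) :
    (ζ⁻¹ - 1) ^ (q - 1) * ((q : ℕ) : K)⁻¹ ∈ A ∧
      ((ζ⁻¹ - 1) ^ (q - 1) * ((q : ℕ) : K)⁻¹)⁻¹ ∈ A := by
  have hq1 : q - 1 + 1 = q := Nat.succ_pred_eq_of_pos hq.out.pos
  have hpow : ζ ^ q = 1 := hζ.pow_eq_one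
  have hζ0 : ζ ≠ 0 := hζ.ne_zero hq.out.ne_zero
  have hζA : ζ ∈ A := s36tw_root_mem A ζ q hq.out.ne_zero hpow
  have hζA' : ζ⁻¹ ∈ A := s36tw_root_inv_mem A ζ q hq.out.ne_zero hpow
  have h1 : ζ - 1 ∈ A.nonunits := s36tw_root_sub_one A q hqA ζ hpow
  have hq0 : ((q : ℕ) : K) ≠ 0 := by
    intro h0
    have hζ' : IsPrimitiveRoot ζ (q - 1 + 1) := by rw [hq1]; exact hζ
    have h2 := hζ'.prod_one_sub_pow_eq_order
    have h3 : ((q - 1 : ℕ) : K) + 1 = ((q : ℕ) : K) := by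
      rw [← Nat.cast_one (R := K), ← Nat.cast_add, hq1]
    rw [h3, h0, Finset.prod_eq_zero_iff] at h2
    obtain ⟨k, hk, hk0⟩ := h2
    rw [Finset.mem_range] at hk
    have h4 : ζ ^ (k + 1) = 1 := (sub_eq_zero.mp hk0).symm
    have h5 := hζ.dvd_of_pow_eq_one _ h4
    have h6 := Nat.le_of_dvd (Nat.succ_pos k) h5
    omega
  -- the geometric sums are units
  set s : ℕ → K := fun j => ∑ i ∈ Finset.range j, ζ ^ i with hs
  have hs_mem : ∀ j, s j ∈ A := fun j =>
    A.toSubring.sum_mem fun i _ => pow_mem hζA i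
  have hs_sub : ∀ j, s j - ((j : ℕ) : K) ∈ A.nonunits := by
    intro j
    induction j with
    | zero =>
      rw [hs]
      simp only [Finset.range_zero, Finset.sum_empty, Nat.cast_zero, sub_self]
      rw [ValuationSubring.mem_nonunits_iff, map_zero]
      exact zero_lt_one
    | succ j ih =>
      have e : s (j + 1) - ((j + 1 : ℕ) : K) = (s j - ((j : ℕ) : K)) + (ζ ^ j - 1) := by
        rw [hs]
        simp only [Finset.sum_range_succ, Nat.cast_add, Nat.cast_one]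
        ring
      have hpj : ζ ^ j - 1 ∈ A.nonunits := by
        have e2 : ζ ^ j - 1 = s j * (ζ - 1) := (geom_sum_mul ζ j).symm
        rw [e2, ValuationSubring.mem_nonunits_iff, map_mul]
        exact lt_of_le_of_lt (mul_le_of_le_one_left' ((A.valuation_le_one_iff _).mpr (hs_mem j)))
          ((ValuationSubring.mem_nonunits_iff _).mp h1)
      rw [e, ValuationSubring.mem_nonunits_iff]
      exact lt_of_le_of_lt (Valuation.map_add _ _ _)
        (max_lt ((ValuationSubring.mem_nonunits_iff _).mp ih)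
          ((ValuationSubring.mem_nonunits_iff _).mp hpj))
  have hs_unit : ∀ j, 0 < j → j < q → (s j)⁻¹ ∈ A := by
    intro j hj0 hjq
    have hj0' : ((j : ℕ) : K) ≠ 0 := by
      intro h0
      have := s36tw_nat_unit A q hqA j hj0 hjq
      rw [h0, inv_zero] at this
      have hjn : ((j : ℕ) : K) ∈ A.nonunits := by
        rw [h0, ValuationSubring.mem_nonunits_iff, map_zero]
        exact zero_lt_one
      have h7 := hs_sub j
      rw [h0, sub_zero] at h7
      -- then `s j` is a non-unit, but `s j * (ζ - 1) = ζ^j - 1`: no contradiction needed here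
      exact absurd h0 (by
        intro _
        have hcop : Nat.Coprime j q :=
          ((Nat.Prime.coprime_iff_not_dvd hq.out).mpr (Nat.not_dvd_of_pos_of_lt hj0 hjq)).symm
        obtain ⟨a, b, hab⟩ := Nat.isCoprime_iff_coprime.mpr hcop
        have h8 : ((a : ℤ) : K) * ((j : ℕ) : K) + ((b : ℤ) : K) * ((q : ℕ) : K) = 1 := by
          exact_mod_cast congrArg (Int.cast : ℤ → K) hab
        rw [h0, mul_zero, zero_add] at h8
        have h9 : A.valuation (1 : K) < 1 := by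
          rw [← h8, map_mul]
          exact lt_of_le_of_lt
            (mul_le_of_le_one_left' ((A.valuation_le_one_iff _).mpr (intCast_mem A b)))
            ((ValuationSubring.mem_nonunits_iff _).mp hqA)
        rw [map_one] at h9
        exact lt_irrefl _ h9)
    have e : s j = ((j : ℕ) : K) + (s j - ((j : ℕ) : K)) := by ring
    rw [e]
    exact s36tw_add_unit A (natCast_mem A j) (s36tw_nat_unit A q hqA j hj0 hjq) hj0' (hs_sub j)
  -- the product formula
  have hζ' : IsPrimitiveRoot ζ (q - 1 + 1) := by rw [hq1]; exact hζ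
  have hprod := hζ'.prod_one_sub_pow_eq_order
  have h3 : ((q - 1 : ℕ) : K) + 1 = ((q : ℕ) : K) := by
    rw [← Nat.cast_one (R := K), ← Nat.cast_add, hq1]
  rw [h3] at hprod
  have hfac : ∀ k, 1 - ζ ^ (k + 1) = (1 - ζ) * s (k + 1) := by
    intro k
    have := geom_sum_mul ζ (k + 1)
    rw [hs]
    linear_combination this
  have hprod2 : (1 - ζ) ^ (q - 1) * ∏ k ∈ Finset.range (q - 1), s (k + 1) = ((q : ℕ) : K) := by
    rw [← hprod, Finset.prod_congr rfl (fun k _ => hfac k), Finset.prod_mul_distrib,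
      Finset.prod_const, Finset.card_range]
  set S : K := ∏ k ∈ Finset.range (q - 1), s (k + 1) with hS
  have hS_mem : S ∈ A := A.toSubring.prod_mem fun k _ => hs_mem (k + 1)
  have hS_inv : S⁻¹ ∈ A := by
    rw [hS, ← Finset.prod_inv_distrib]
    refine A.toSubring.prod_mem fun k hk => ?_
    rw [Finset.mem_range] at hk
    exact hs_unit (k + 1) (Nat.succ_pos k) (by omega)
  have hS0 : S ≠ 0 := by
    intro h0
    rw [h0, mul_zero] at hprod2
    exact hq0 hprod2.symm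
  have h1ζ : (1 - ζ) ≠ 0 := by
    intro h0
    rw [h0, zero_pow (by have := hq.out.two_le; omega), zero_mul] at hprod2
    exact hq0 hprod2.symm
  have e1 : (ζ⁻¹ - 1) ^ (q - 1) * ((q : ℕ) : K)⁻¹ = ζ⁻¹ ^ (q - 1) * S⁻¹ := by
    rw [← hprod2]
    have e2 : ζ⁻¹ - 1 = ζ⁻¹ * (1 - ζ) := by
      field_simp
    rw [e2, mul_pow, mul_inv]
    have h4 : (1 - ζ) ^ (q - 1) ≠ 0 := pow_ne_zero _ h1ζ
    field_simp
  have e3 : ((ζ⁻¹ - 1) ^ (q - 1) * ((q : ℕ) : K)⁻¹)⁻¹ = ζ ^ (q - 1) * S := by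
    rw [e1, mul_inv, inv_inv, inv_pow, inv_inv]
  refine ⟨?_, ?_⟩
  · rw [e1]
    exact A.mul_mem _ _ (pow_mem hζA' _) hS_inv
  · rw [e3]
    exact A.mul_mem _ _ (pow_mem hζA _) hS_mem

end Cyc

end Fermat.Agent.S36
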