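import Fermat.Agent.S36.Val3Ec
import Fermat.Agent.S36.Val3Tw
import Fermat.Agent.S34.Val2Mem
import Fermat.Agent.S34.KronVal
import Fermat.Agent.S18.ValExt

/-!
# S36, package VAL3, part WC: the valuation rings `W_a` (Gauss) and `W_c` (`e = q - 1`)

`K0` a field with an embedding into `ℚ̄`, `A0` a discrete valuation subring of `K0`, `q ∤ M` a
prime, `F1 = K0(X₀(M q))`, `F2 = K0(X₀(M q²))`, `al = heckeAlphaBar K0 (M q) q`,
`be = heckeBetaBar K0 (M q) q`, `V₁ = va2V1 M q K0 A0`, `V₂ = va2V2 M q hM K0 A0`.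

* `s36vcDom Ec A'`: a valuation subring dominating the local subring `{x | Ec x ∈ grV A'}` of a
  field `F` with an "expansion" `Ec : F → K'((t))` (`s36vcDom_mem`, `s36vcDom_nonunits`,
  `s36vcDom_unit`);
* `s36v3Ap K0 A0`: a chosen valuation subring of `ℚ̄` over `A0`;
* `s36v3Wa M q K0 A0`: the Gauss valuation ring of `F2`; `s36v3_al_Wa`, `s36v3_be_Wa`
  (`al x ∈ W_a ↔ x ∈ V₁`, `be x ∈ W_a ↔ x ∈ V₁`);
* `s36v3Zeta q`: a chosen primitive `q`-th root of unity of `ℚ̄`; `s36v3Ec M q hM K0` = helper29's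
  expansion `s36ecHom` at `ζ = s36v3Zeta q` (`s36v3Ec_al`, `s36v3Ec_be`, `s36v3Ec_z`);
* `s36v3Wc M q hM K0 A0 := s36vcDom (s36v3Ec ..) (s36v3Ap ..)`: the third valuation ring;
  `s36v3_Wc_of_series`, `s36v3_Wc_nonunits_of_series`, `s36v3_Wc_unit_of_series` (series
  criteria), `s36v3_al_Wc` (`al x ∈ W_c ↔ x ∈ V₁`), `s36v3_be_Wc` (`be x ∈ W_c ↔ x ∈ V₂`);
* `s36v3Z M q K0 f = f(t^(q²)) - f(t)`: `s36v3_z_Wa` (unit of `W_a`), `s36v3_z_Wc`
  (`z ∈ 𝔪_{W_c}` and `z^(q-1) / q` is a unit of `W_c`).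
-/

set_option autoImplicit false
set_option linter.style.haveILetI false

open AlgebraicCurve ModularCurve Fermat.Agent.S18 Fermat.Agent.S34 Fermat.Agent.S35
  Fermat.Agent.S37

namespace Fermat.Agent.S36

local notation "Qb" => AlgebraicClosure ℚ

/-! ### Domination of the local ring of an expansion -/

section Dom

variable {F K' : Type*} [Field F] [Field K']

theorem s36vc_exists (Ec : F →+* LaurentSeries K') (A' : ValuationSubring K') :
    ∃ W : ValuationSubring F, (∀ x, Ec x ∈ grV A' → x ∈ W) ∧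
      ∀ x (hx : Ec x ∈ grV A'), grRho A' ⟨Ec x, hx⟩ = 0 → x ∈ W.nonunits := by
  set S : Subring F := (grV A').comap Ec with hS
  set ρ : S →+* LaurentSeries (IsLocalRing.ResidueField A') :=
    (grRho A').comp (Ec.restrict S (grV A') (fun x hx => hx)) with hρ
  have hI : RingHom.ker ρ ≠ ⊤ := RingHom.ker_ne_top ρ
  obtain ⟨W, hle, hsub⟩ := Ideal.image_subset_nonunits_valuationSubring (RingHom.ker ρ) hI
  refine ⟨W, fun x hx => hle hx, fun x hx h0 => hsub ⟨⟨x, hx⟩, ?_, rfl⟩⟩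
  exact (RingHom.mem_ker).mpr h0

/-- a valuation subring dominating the local subring `{x | Ec x ∈ grV A'}` -/
noncomputable def s36vcDom (Ec : F →+* LaurentSeries K') (A' : ValuationSubring K') :
    ValuationSubring F :=
  Classical.choose (s36vc_exists Ec A')

theorem s36vcDom_mem (Ec : F →+* LaurentSeries K') (A' : ValuationSubring K') (x : F)
    (hx : Ec x ∈ grV A') : x ∈ s36vcDom Ec A' :=
  (Classical.choose_spec (s36vc_exists Ec A')).1 x hx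

theorem s36vcDom_nonunits (Ec : F →+* LaurentSeries K') (A' : ValuationSubring K') (x : F)
    (hx : Ec x ∈ grV A') (h0 : grRho A' ⟨Ec x, hx⟩ = 0) : x ∈ (s36vcDom Ec A').nonunits :=
  (Classical.choose_spec (s36vc_exists Ec A')).2 x hx h0

theorem s36vcDom_unit (Ec : F →+* LaurentSeries K') (A' : ValuationSubring K') (x : F)
    (hx : Ec x ∈ grV A') (hx' : (Ec x)⁻¹ ∈ grV A') :
    x ∈ s36vcDom Ec A' ∧ x⁻¹ ∈ s36vcDom Ec A' :=
  ⟨s36vcDom_mem Ec A' x hx, s36vcDom_mem Ec A' x⁻¹ (by rw [map_inv₀]; exact hx')⟩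

end Dom

/-! ### A valuation subring of `ℚ̄` over `A0` -/

section Ap

variable (K0 : Type*) [Field K0] [Algebra K0 Qb] (A0 : ValuationSubring K0)

/-- a chosen valuation subring of `ℚ̄` with trace `A0` on `K0` -/
noncomputable def s36v3Ap : ValuationSubring Qb :=
  Classical.choose (valext_exists (Ω := Qb) A0)

theorem s36v3Ap_comap : (s36v3Ap K0 A0).comap (algebraMap K0 Qb) = A0 :=
  Classical.choose_spec (valext_exists (Ω := Qb) A0)

variable {K0 A0}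

theorem s36v3Ap_mem (c : K0) : algebraMap K0 Qb c ∈ s36v3Ap K0 A0 ↔ c ∈ A0 := by
  conv_rhs => rw [← s36v3Ap_comap K0 A0]
  exact Iff.rfl

theorem s36v3_bc_aux (A' : ValuationSubring Qb) (B : ValuationSubring K0)
    (h : A'.comap (algebraMap K0 Qb) = B) (x : LaurentSeries K0) (hx : x ∈ grV B) :
    ∃ hx' : coeffMap (algebraMap K0 Qb) x ∈ grV A',
      (grRho B ⟨x, hx⟩ = 0 → grRho A' ⟨coeffMap (algebraMap K0 Qb) x, hx'⟩ = 0) := by
  subst h
  exact ⟨bcf_grV_mem A' hx, fun h0 => (bcf_grRho_eq_zero_iff A' ⟨x, hx⟩).mpr h0⟩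

/-- Gauss-integral series over `A0` are Gauss-integral over `s36v3Ap` -/
theorem s36v3_bc_mem (x : LaurentSeries K0) (hx : x ∈ grV A0) :
    coeffMap (algebraMap K0 Qb) x ∈ grV (s36v3Ap K0 A0) :=
  (s36v3_bc_aux (s36v3Ap K0 A0) A0 (s36v3Ap_comap K0 A0) x hx).1

theorem s36v3_bc_rho (x : LaurentSeries K0) (hx : x ∈ grV A0) (h0 : grRho A0 ⟨x, hx⟩ = 0)
    (hx' : coeffMap (algebraMap K0 Qb) x ∈ grV (s36v3Ap K0 A0)) :
    grRho (s36v3Ap K0 A0) ⟨coeffMap (algebraMap K0 Qb) x, hx'⟩ = 0 :=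
  (s36v3_bc_aux (s36v3Ap K0 A0) A0 (s36v3Ap_comap K0 A0) x hx).2 h0

end Ap

/-! ### Generalities on valuation subrings -/

section Gen

theorem s36vc_nonunits_iff {F : Type*} [Field F] (W : ValuationSubring F) (y : F) :
    y ∈ W.nonunits ↔ (y = 0 ∨ y⁻¹ ∉ W) := by
  have h := W.inv_mem_nonunits_iff (x := y⁻¹)
  rwa [inv_inv, inv_eq_zero] at h

/-- general bridge: the `iff` form of lying over gives the non-unit form -/
theorem s36v3_nonunits_of_iff {E F : Type*} [Field E] [Field F] (φ : E →+* F)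
    (V : ValuationSubring E) (W : ValuationSubring F) (h : ∀ x, φ x ∈ W ↔ x ∈ V) (x : E) :
    φ x ∈ W.nonunits ↔ x ∈ V.nonunits := by
  rw [s36vc_nonunits_iff, s36vc_nonunits_iff, ← map_inv₀, h, map_eq_zero]

/-- a local homomorphism of valuation rings is "lying over" -/
theorem s36vc_iff_of_local {E F : Type*} [Field E] [Field F] (φ : E →+* F)
    (V : ValuationSubring E) (W : ValuationSubring F) (h1 : ∀ x ∈ V, φ x ∈ W)
    (h2 : ∀ x ∈ V.nonunits, φ x ∈ W.nonunits) (x : E) : φ x ∈ W ↔ x ∈ V := by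
  refine ⟨fun hx => ?_, h1 x⟩
  by_contra hn
  have h3 : x⁻¹ ∈ V.nonunits := V.inv_mem_nonunits_iff.mpr (Or.inr hn)
  have h4 := h2 _ h3
  rw [map_inv₀, ValuationSubring.inv_mem_nonunits_iff] at h4
  rcases h4 with h0 | h0
  · rw [map_eq_zero] at h0
    exact hn (h0 ▸ V.zero_mem)
  · exact h0 hx

end Gen

/-! ### The root of unity -/

section Zeta

/-- a chosen primitive `q`-th root of unity of `ℚ̄` -/
noncomputable def s36v3Zeta (q : ℕ) [NeZero q] : Qb :=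
  Classical.choose (HasEnoughRootsOfUnity.exists_primitiveRoot Qb q)

theorem s36v3Zeta_spec (q : ℕ) [NeZero q] : IsPrimitiveRoot (s36v3Zeta q) q :=
  Classical.choose_spec (HasEnoughRootsOfUnity.exists_primitiveRoot Qb q)

theorem s36v3Zeta_ne_zero (q : ℕ) [NeZero q] : s36v3Zeta q ≠ 0 :=
  (s36v3Zeta_spec q).ne_zero (NeZero.ne q)

theorem s36v3Zeta_pow (q : ℕ) [NeZero q] : s36v3Zeta q ^ q = 1 :=
  (s36v3Zeta_spec q).pow_eq_one

theorem s36v3Zeta_ne_one (q : ℕ) [hq : Fact q.Prime] : s36v3Zeta q ≠ 1 :=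
  (s36v3Zeta_spec q).ne_one hq.out.one_lt

end Zeta

/-! ### The carrier -/

section Carrier

variable (M q : ℕ) [NeZero M] [hq : Fact q.Prime] (hM : ¬ q ∣ M)
  (K0 : Type*) [Field K0] [Algebra ℚ K0] [Algebra K0 Qb]
  (A0 : ValuationSubring K0) [IsDiscreteValuationRing ↥A0]

/-- the expansion of level `M q²` at the middle cusp (`ζ = s36v3Zeta q`) -/
noncomputable def s36v3Ec :
    ↥(laurentBaseChange K0 (modularFunctionFieldFull (M * q * q))) →+* LaurentSeries Qb :=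
  s36ecHom M q hM K0 (s36v3Zeta q) (s36v3Zeta_ne_zero q) (s36v3Zeta_pow q) (s36v3Zeta_ne_one q)

/-- `Ec ∘ al` is the (base-changed) expansion of level `M q` -/
theorem s36v3Ec_al (x : ↥(laurentBaseChange K0 (modularFunctionFieldFull (M * q)))) :
    s36v3Ec M q hM K0 (heckeAlphaBar K0 (M * q) q x) =
      coeffMap (algebraMap K0 Qb) (x : LaurentSeries K0) :=
  s36ec_al M q hM K0 _ _ _ _ x

/-- `Ec ∘ be = T_ζ ∘ (expansion of level `M q`) ∘ w1` -/
theorem s36v3Ec_be (x : ↥(laurentBaseChange K0 (modularFunctionFieldFull (M * q)))) :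
    s36v3Ec M q hM K0 (heckeBetaBar K0 (M * q) q x) =
      ccjTwist (s36v3Zeta q) (s36v3Zeta_ne_zero q)
        (coeffMap (algebraMap K0 Qb)
          ((va2Swap M q hq.out hM K0 x :
            ↥(laurentBaseChange K0 (modularFunctionFieldFull (M * q)))) : LaurentSeries K0)) :=
  s36ec_be M q hM K0 _ _ _ _ x

/-- `W_a`: the Gauss valuation ring of level `M q²` -/
noncomputable def s36v3Wa :
    ValuationSubring ↥(laurentBaseChange K0 (modularFunctionFieldFull (M * q * q))) :=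
  va2V1 (M * q) q K0 A0

/-- `W_c`: the third valuation ring (`e = q - 1`), dominating the local ring of the expansion
`Ec` at the middle cusp -/
noncomputable def s36v3Wc :
    ValuationSubring ↥(laurentBaseChange K0 (modularFunctionFieldFull (M * q * q))) :=
  s36vcDom (s36v3Ec M q hM K0) (s36v3Ap K0 A0)

/-- `z_f = f(t^(q²)) - f(t)` for `f` of level `M` -/
noncomputable def s36v3Z (f : ↥(laurentBaseChange K0 (modularFunctionFieldFull M))) :
    ↥(laurentBaseChange K0 (modularFunctionFieldFull (M * q * q))) :=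
  heckeBetaBar K0 (M * q) q (heckeBetaBar K0 M q f) -
    heckeAlphaBar K0 (M * q) q (heckeAlphaBar K0 M q f)

/-- the image of `z_f` under `Ec` is `f(ζ t) - f(t)` -/
theorem s36v3Ec_z (f : ↥(laurentBaseChange K0 (modularFunctionFieldFull M))) :
    s36v3Ec M q hM K0 (s36v3Z M q K0 f) =
      ccjTwist (s36v3Zeta q) (s36v3Zeta_ne_zero q)
          (coeffMap (algebraMap K0 Qb) (f : LaurentSeries K0))
        - coeffMap (algebraMap K0 Qb) (f : LaurentSeries K0) :=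
  s36ec_z M q hM K0 _ _ _ _ f

/-! ### Series criteria for `W_c` -/

theorem s36v3_Wc_of_series (x : ↥(laurentBaseChange K0 (modularFunctionFieldFull (M * q * q))))
    (hx : s36v3Ec M q hM K0 x ∈ grV (s36v3Ap K0 A0)) : x ∈ s36v3Wc M q hM K0 A0 :=
  s36vcDom_mem _ _ x hx

theorem s36v3_Wc_nonunits_of_series
    (x : ↥(laurentBaseChange K0 (modularFunctionFieldFull (M * q * q))))
    (hx : s36v3Ec M q hM K0 x ∈ grV (s36v3Ap K0 A0))
    (h0 : grRho (s36v3Ap K0 A0) ⟨s36v3Ec M q hM K0 x, hx⟩ = 0) :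
    x ∈ (s36v3Wc M q hM K0 A0).nonunits :=
  s36vcDom_nonunits _ _ x hx h0

theorem s36v3_Wc_unit_of_series
    (x : ↥(laurentBaseChange K0 (modularFunctionFieldFull (M * q * q))))
    (hx : s36v3Ec M q hM K0 x ∈ grV (s36v3Ap K0 A0))
    (hx' : (s36v3Ec M q hM K0 x)⁻¹ ∈ grV (s36v3Ap K0 A0)) :
    x ∈ s36v3Wc M q hM K0 A0 ∧ x⁻¹ ∈ s36v3Wc M q hM K0 A0 :=
  s36vcDom_unit _ _ x hx hx'

/-- series criterion with an explicit series -/
theorem s36v3_Wc_nonunits_of_series_eq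
    (x : ↥(laurentBaseChange K0 (modularFunctionFieldFull (M * q * q)))) (s : LaurentSeries Qb)
    (hxs : s36v3Ec M q hM K0 x = s) (hs : s ∈ grV (s36v3Ap K0 A0))
    (h0 : grRho (s36v3Ap K0 A0) ⟨s, hs⟩ = 0) : x ∈ (s36v3Wc M q hM K0 A0).nonunits := by
  subst hxs
  exact s36vcDom_nonunits _ _ x hs h0

/-! ### The root of unity and `A'` -/

omit [IsDiscreteValuationRing ↥A0] in
theorem s36v3_q_Ap (hA0 : A0.LiesOverPrime q) : ((q : ℕ) : Qb) ∈ (s36v3Ap K0 A0).nonunits := by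
  have h : ((q : ℕ) : K0) ∈ ((s36v3Ap K0 A0).comap (algebraMap K0 Qb)).nonunits := by
    rw [s36v3Ap_comap]
    exact hA0
  have h2 := (s36v3_nonunits_of_iff (algebraMap K0 Qb) _ (s36v3Ap K0 A0)
    (fun x => Iff.rfl) _).mpr h
  rwa [map_natCast] at h2

omit [IsDiscreteValuationRing ↥A0] in
theorem s36v3_zeta_Ap : s36v3Zeta q ∈ s36v3Ap K0 A0 :=
  s36tw_root_mem _ _ q hq.out.ne_zero (s36v3Zeta_pow q)

omit [IsDiscreteValuationRing ↥A0] in
theorem s36v3_zeta_inv_Ap : (s36v3Zeta q)⁻¹ ∈ s36v3Ap K0 A0 :=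
  s36tw_root_inv_mem _ _ q hq.out.ne_zero (s36v3Zeta_pow q)

omit [IsDiscreteValuationRing ↥A0] in
theorem s36v3_zeta_sub_one_Ap (hA0 : A0.LiesOverPrime q) :
    s36v3Zeta q - 1 ∈ (s36v3Ap K0 A0).nonunits :=
  s36tw_root_sub_one _ q (s36v3_q_Ap q K0 A0 hA0) _ (s36v3Zeta_pow q)

/-! ### The table: rows of `W_a` and `W_c` -/

omit [Algebra K0 Qb] in
theorem s36v3_al_Wa (x : ↥(laurentBaseChange K0 (modularFunctionFieldFull (M * q)))) :
    heckeAlphaBar K0 (M * q) q x ∈ s36v3Wa M q K0 A0 ↔ x ∈ va2V1 M q K0 A0 :=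
  va2m_alpha_mem1_iff (M * q) q K0 A0 (va2V1 M q K0 A0) (fun y => mem_va2V1 M q K0 A0 y) x

omit [Algebra K0 Qb] in
theorem s36v3_be_Wa (x : ↥(laurentBaseChange K0 (modularFunctionFieldFull (M * q)))) :
    heckeBetaBar K0 (M * q) q x ∈ s36v3Wa M q K0 A0 ↔ x ∈ va2V1 M q K0 A0 :=
  va2m_beta_mem1_iff (M * q) q K0 A0 (va2V1 M q K0 A0) (fun y => mem_va2V1 M q K0 A0 y) x

/-- `al` maps `V₁` into `W_c` -/
theorem s36v3_al_Wc_mem (x : ↥(laurentBaseChange K0 (modularFunctionFieldFull (M * q))))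
    (hx : x ∈ va2V1 M q K0 A0) : heckeAlphaBar K0 (M * q) q x ∈ s36v3Wc M q hM K0 A0 := by
  apply s36v3_Wc_of_series
  rw [s36v3Ec_al]
  exact s36v3_bc_mem _ ((mem_va2V1 M q K0 A0 x).mp hx)

/-- `al` maps `𝔪_{V₁}` into `𝔪_{W_c}` -/
theorem s36v3_al_Wc_nonunits (x : ↥(laurentBaseChange K0 (modularFunctionFieldFull (M * q))))
    (hx : x ∈ (va2V1 M q K0 A0).nonunits) :
    heckeAlphaBar K0 (M * q) q x ∈ (s36v3Wc M q hM K0 A0).nonunits := by
  obtain ⟨h, hρ⟩ := (cinst_mem_nonunits_iff (va2V1 M q K0 A0)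
    (fun y => mem_va2V1 M q K0 A0 y) x).mp hx
  exact s36v3_Wc_nonunits_of_series_eq M q hM K0 A0 _ _ (s36v3Ec_al M q hM K0 x)
    (s36v3_bc_mem _ h) (s36v3_bc_rho _ h hρ _)

/-- **table, `W_c` via `al`** -/
theorem s36v3_al_Wc (x : ↥(laurentBaseChange K0 (modularFunctionFieldFull (M * q)))) :
    heckeAlphaBar K0 (M * q) q x ∈ s36v3Wc M q hM K0 A0 ↔ x ∈ va2V1 M q K0 A0 :=
  s36vc_iff_of_local (heckeAlphaBar K0 (M * q) q).toRingHom _ _
    (s36v3_al_Wc_mem M q hM K0 A0) (s36v3_al_Wc_nonunits M q hM K0 A0) x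

/-- `be` maps `V₂` into `W_c` -/
theorem s36v3_be_Wc_mem (hA0 : A0.LiesOverPrime q)
    (x : ↥(laurentBaseChange K0 (modularFunctionFieldFull (M * q))))
    (hx : x ∈ va2V2 M q hM K0 A0) : heckeBetaBar K0 (M * q) q x ∈ s36v3Wc M q hM K0 A0 := by
  apply s36v3_Wc_of_series
  rw [s36v3Ec_be]
  exact s36tw_mem_grV _ _ _ (s36v3_zeta_Ap q K0 A0) (s36v3_zeta_inv_Ap q K0 A0)
    (s36v3_zeta_sub_one_Ap q K0 A0 hA0)
    (s36v3_bc_mem _ ((mem_va2V1 M q K0 A0 _).mp ((mem_va2V2 M q hM K0 A0 x).mp hx)))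

/-- `be` maps `𝔪_{V₂}` into `𝔪_{W_c}` -/
theorem s36v3_be_Wc_nonunits (hA0 : A0.LiesOverPrime q)
    (x : ↥(laurentBaseChange K0 (modularFunctionFieldFull (M * q))))
    (hx : x ∈ (va2V2 M q hM K0 A0).nonunits) :
    heckeBetaBar K0 (M * q) q x ∈ (s36v3Wc M q hM K0 A0).nonunits := by
  have hx1 : va2Swap M q hq.out hM K0 x ∈ (va2V1 M q K0 A0).nonunits :=
    (s36v3_nonunits_of_iff (va2Swap M q hq.out hM K0) (va2V2 M q hM K0 A0) (va2V1 M q K0 A0)
      (fun y => (mem_va2V2 M q hM K0 A0 y).symm) x).mpr hx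
  obtain ⟨h, hρ⟩ := (cinst_mem_nonunits_iff (va2V1 M q K0 A0)
    (fun y => mem_va2V1 M q K0 A0 y) _).mp hx1
  have hb := s36v3_bc_mem (A0 := A0) _ h
  have hb0 := s36v3_bc_rho (A0 := A0) _ h hρ hb
  have ht := s36tw_mem_grV _ _ (s36v3Zeta_ne_zero q) (s36v3_zeta_Ap q K0 A0)
    (s36v3_zeta_inv_Ap q K0 A0) (s36v3_zeta_sub_one_Ap q K0 A0 hA0) hb
  refine s36v3_Wc_nonunits_of_series_eq M q hM K0 A0 _ _ (s36v3Ec_be M q hM K0 x) ht ?_
  rw [s36tw_grRho _ _ (s36v3Zeta_ne_zero q) (s36v3_zeta_Ap q K0 A0)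
    (s36v3_zeta_inv_Ap q K0 A0) (s36v3_zeta_sub_one_Ap q K0 A0 hA0) _ hb ht]
  exact hb0

/-- **table, `W_c` via `be`** -/
theorem s36v3_be_Wc (hA0 : A0.LiesOverPrime q)
    (x : ↥(laurentBaseChange K0 (modularFunctionFieldFull (M * q)))) :
    heckeBetaBar K0 (M * q) q x ∈ s36v3Wc M q hM K0 A0 ↔ x ∈ va2V2 M q hM K0 A0 :=
  s36vc_iff_of_local (heckeBetaBar K0 (M * q) q).toRingHom _ _
    (s36v3_be_Wc_mem M q hM K0 A0 hA0) (s36v3_be_Wc_nonunits M q hM K0 A0 hA0) x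

/-! ### The element `z_f` -/

omit [Algebra K0 Qb] [NeZero M] in
/-- the expansion of `z_f` at the standard cusp -/
theorem s36v3_z_coe [NeZero M] [Algebra K0 Qb]
    (f : ↥(laurentBaseChange K0 (modularFunctionFieldFull M))) (Z : LaurentSeries ℤ)
    (hf : (f : LaurentSeries K0) = coeffMap (Int.castRingHom K0) Z) :
    ((s36v3Z M q K0 f : ↥(laurentBaseChange K0 (modularFunctionFieldFull (M * q * q)))) :
        LaurentSeries K0) =
      coeffMap (Int.castRingHom K0) (qExpand ℤ q (qExpand ℤ q Z) - Z) := by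
  unfold s36v3Z
  rw [AddSubgroupClass.coe_sub, coe_heckeBetaBar, coe_heckeBetaBar, coe_heckeAlphaBar,
    coe_heckeAlphaBar, hf, map_sub, coeffMap_qExpand, coeffMap_qExpand]

/-- `z_f` is a unit of `W_a` -/
theorem s36v3_z_Wa (f : ↥(laurentBaseChange K0 (modularFunctionFieldFull M)))
    (Z : LaurentSeries ℤ) (hf : (f : LaurentSeries K0) = coeffMap (Int.castRingHom K0) Z)
    (hZ : Hp4Lead Z (-1)) :
    s36v3Z M q K0 f ∈ s36v3Wa M q K0 A0 ∧ (s36v3Z M q K0 f)⁻¹ ∈ s36v3Wa M q K0 A0 := by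
  have hc := s36v3_z_coe M q K0 f Z hf
  have hnd : ¬ ((q : ℤ) ∣ (-1 : ℤ)) := by
    intro h
    rw [dvd_neg] at h
    have h' : q ∣ 1 := by exact_mod_cast h
    exact hq.out.one_lt.ne' (Nat.dvd_one.mp h')
  have h2 : (qExpand ℤ q (qExpand ℤ q Z) - Z).coeff (-1) = -1 := by
    rw [HahnSeries.coeff_sub, qExpand_coeff_of_not_dvd q _ hnd, hZ.coeff_self, zero_sub]
  have hne : coeffMap (Int.castRingHom (IsLocalRing.ResidueField A0))
      (qExpand ℤ q (qExpand ℤ q Z) - Z) ≠ 0 := by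
    intro h0
    have h1 := congrArg (fun s => HahnSeries.coeff s (-1)) h0
    simp only [coeffMap_coeff, HahnSeries.coeff_zero] at h1
    rw [h2] at h1
    simp at h1
  constructor
  · show s36v3Z M q K0 f ∈ va2V1 (M * q) q K0 A0
    rw [mem_va2V1, hc]
    exact krv_int_mem A0 _
  · show (s36v3Z M q K0 f)⁻¹ ∈ va2V1 (M * q) q K0 A0
    rw [mem_va2V1, IntermediateField.coe_inv, hc]
    exact krv_int_inv_mem A0 _ hne

/-- `z_f ∈ 𝔪_{W_c}` and `z_f^(q-1) / q` is a unit of `W_c` -/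
theorem s36v3_z_Wc (hA0 : A0.LiesOverPrime q)
    (f : ↥(laurentBaseChange K0 (modularFunctionFieldFull M)))
    (Z : LaurentSeries ℤ) (hf : (f : LaurentSeries K0) = coeffMap (Int.castRingHom K0) Z)
    (hZ : Hp4Lead Z (-1)) :
    s36v3Z M q K0 f ∈ (s36v3Wc M q hM K0 A0).nonunits ∧
    s36v3Z M q K0 f ^ (q - 1) * ((q : ℕ) :
        ↥(laurentBaseChange K0 (modularFunctionFieldFull (M * q * q))))⁻¹ ∈ s36v3Wc M q hM K0 A0 ∧
    (s36v3Z M q K0 f ^ (q - 1) * ((q : ℕ) :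
        ↥(laurentBaseChange K0 (modularFunctionFieldFull (M * q * q))))⁻¹)⁻¹ ∈
      s36v3Wc M q hM K0 A0 := by
  have hbc : coeffMap (algebraMap K0 Qb) (f : LaurentSeries K0)
      = coeffMap (Int.castRingHom Qb) Z := by
    rw [hf, coeffMap_coeffMap]
    have e : (algebraMap K0 Qb).comp (Int.castRingHom K0) = Int.castRingHom Qb :=
      RingHom.ext_int _ _
    rw [e]
  obtain ⟨u, hu, hui, hsub⟩ := s36tw_sub_unit (s36v3Ap K0 A0) (s36v3Zeta q)
    (s36v3Zeta_ne_zero q) (s36v3_zeta_Ap q K0 A0) (s36v3Zeta_ne_one q) Z hZ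
  have hEz : s36v3Ec M q hM K0 (s36v3Z M q K0 f)
      = algebraMap Qb (LaurentSeries Qb) ((s36v3Zeta q)⁻¹ - 1) * u := by
    rw [s36v3Ec_z, hbc, hsub]
  have hc1 : (s36v3Zeta q)⁻¹ - 1 ∈ (s36v3Ap K0 A0).nonunits :=
    s36tw_inv_sub_one _ _ (s36v3Zeta_ne_zero q) (s36v3_zeta_inv_Ap q K0 A0)
      (s36v3_zeta_sub_one_Ap q K0 A0 hA0)
  have hc1A : (s36v3Zeta q)⁻¹ - 1 ∈ s36v3Ap K0 A0 := (s36v3Ap K0 A0).nonunits_subset hc1
  refine ⟨?_, ?_⟩
  · have hC : algebraMap Qb (LaurentSeries Qb) ((s36v3Zeta q)⁻¹ - 1) ∈ grV (s36v3Ap K0 A0) :=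
      gr_algebraMap_mem (s36v3Ap K0 A0) ⟨_, hc1A⟩
    have hmem : algebraMap Qb (LaurentSeries Qb) ((s36v3Zeta q)⁻¹ - 1) * u
        ∈ grV (s36v3Ap K0 A0) := mul_mem hC hu
    refine s36v3_Wc_nonunits_of_series_eq M q hM K0 A0 _ _ hEz hmem ?_
    have e : (⟨_, hmem⟩ : grV (s36v3Ap K0 A0)) = ⟨_, hC⟩ * ⟨u, hu⟩ := rfl
    rw [e, map_mul]
    have h0 : grRho (s36v3Ap K0 A0) ⟨_, hC⟩ = 0 := by
      have h1 := grRho_algebraMap (s36v3Ap K0 A0) ⟨(s36v3Zeta q)⁻¹ - 1, hc1A⟩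
      have h2 : IsLocalRing.residue (s36v3Ap K0 A0) ⟨(s36v3Zeta q)⁻¹ - 1, hc1A⟩ = 0 :=
        (IsLocalRing.residue_eq_zero_iff _).mpr
          ((ValuationSubring.coe_mem_nonunits_iff (a := ⟨(s36v3Zeta q)⁻¹ - 1, hc1A⟩)).mp hc1)
      rw [h2, map_zero] at h1
      exact h1
    rw [h0, zero_mul]
  · obtain ⟨hcy, hcyi⟩ := s36tw_cyc_unit (s36v3Ap K0 A0) q (s36v3_q_Ap q K0 A0 hA0)
      (s36v3Zeta q) (s36v3Zeta_spec q)
    have hE : s36v3Ec M q hM K0 (s36v3Z M q K0 f ^ (q - 1) * ((q : ℕ) :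
        ↥(laurentBaseChange K0 (modularFunctionFieldFull (M * q * q))))⁻¹)
        = algebraMap Qb (LaurentSeries Qb)
            (((s36v3Zeta q)⁻¹ - 1) ^ (q - 1) * ((q : ℕ) : Qb)⁻¹) * u ^ (q - 1) := by
      rw [map_mul, map_pow, map_inv₀, map_natCast, hEz, map_mul, map_pow, map_inv₀, map_natCast]
      ring
    apply s36v3_Wc_unit_of_series
    · rw [hE]
      exact mul_mem (gr_algebraMap_mem (s36v3Ap K0 A0) ⟨_, hcy⟩) (pow_mem hu _)
    · rw [hE, mul_inv, ← map_inv₀, ← inv_pow]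
      exact mul_mem (gr_algebraMap_mem (s36v3Ap K0 A0) ⟨_, hcyi⟩) (pow_mem hui _)

end Carrier

end Fermat.Agent.S36
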