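import Mathlib
import Fermat.Agent.S36.Val3Swap
import Fermat.Agent.S36.Val3Tw

/-!
# S36 [VAL3-ZA]: `z_f = f(t^{q²}) - f(t)` is a unit at `W_a` and at `W_b`

`F₂ = K0(X₀(M q²))`, `W_a = va2V1 (M q) q K0 A0` its Gauss valuation ring (series at `∞`),
`W_b = W_a ∘ w₂` (`w₂ = s36v3Swap`).  For `f` of level `M` with an integral expansion
`Z = t⁻¹ (1 + ⋯)`:

* `s36za_series`: `Z(t^n) - Z(t)` (`n ≥ 2`) is a unit of the Gauss ring `grV A`;
* `s36za_coe`: the expansion of `z_f = β₁ (β₀ f) - α₁ (α₀ f)`;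
* `s36za_swap`: `w₂ z_f = - z_f`;
* `s36za_Wa`, `s36za_Wb`: `z_f, z_f⁻¹ ∈ W_a` and `∈ W_b`.
-/

set_option autoImplicit false
set_option linter.unusedSectionVars false

noncomputable section

open AlgebraicCurve ModularCurve Fermat.Agent.S18 Fermat.Agent.S34

namespace Fermat.Agent.S36

local notation "Qb" => AlgebraicClosure ℚ

section Series

variable {K : Type*} [Field K]

/-- For an integral series `Z = t⁻¹ (1 + ⋯)` and `n ≥ 2`: `Z(t^n) - Z(t)` is a unit of the Gauss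
ring. -/
theorem s36za_series (A : ValuationSubring K) (n : ℕ) [NeZero n] (hn : 2 ≤ n)
    (Z : LaurentSeries ℤ) (hZ : Hp4Lead Z (-1)) :
    qExpand K n (coeffMap (Int.castRingHom K) Z) - coeffMap (Int.castRingHom K) Z ∈ grV A ∧
      (qExpand K n (coeffMap (Int.castRingHom K) Z) - coeffMap (Int.castRingHom K) Z)⁻¹
        ∈ grV A := by
  set u : LaurentSeries K :=
    qExpand K n (coeffMap (Int.castRingHom K) Z) - coeffMap (Int.castRingHom K) Z with hu
  have hcoeff : ∀ k : ℤ, ∃ c : ℤ, u.coeff k = (c : K) := by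
    intro k
    by_cases hk : (n : ℤ) ∣ k
    · obtain ⟨m, rfl⟩ := hk
      refine ⟨Z.coeff m - Z.coeff ((n : ℤ) * m), ?_⟩
      rw [hu, HahnSeries.coeff_sub, qExpand_coeff_mul, coeffMap_coeff, coeffMap_coeff]
      simp only [eq_intCast, Int.cast_sub]
    · refine ⟨- Z.coeff k, ?_⟩
      rw [hu, HahnSeries.coeff_sub, qExpand_coeff_of_not_dvd n _ hk, coeffMap_coeff]
      simp only [eq_intCast, Int.cast_neg, zero_sub]
  have hmem : ∀ k : ℤ, u.coeff k ∈ A.toSubring := by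
    intro k
    obtain ⟨c, hc⟩ := hcoeff k
    rw [hc]
    exact (Int.castRingHom A c).2
  obtain ⟨u', hu'⟩ := dvd_lift_coeff A.toSubring u hmem
  have hu'1 : u'.coeff (-(n : ℤ)) = 1 := by
    apply Subtype.ext
    have h1 : ((u'.coeff (-(n : ℤ)) : A) : K) = u.coeff (-(n : ℤ)) := by
      rw [← hu']
      rfl
    have h2 : (-(n : ℤ)) = (n : ℤ) * (-1) := by ring
    have h3 : (-(n : ℤ)) < -1 := by
      have : (2 : ℤ) ≤ (n : ℤ) := by exact_mod_cast hn
      omega
    rw [h1, hu, HahnSeries.coeff_sub, coeffMap_coeff]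
    conv_lhs => rw [h2, qExpand_coeff_mul, ← h2]
    rw [coeffMap_coeff, hZ.coeff_self, hZ.coeff_lt h3]
    simp
  have humem : u ∈ grV A := by
    rw [← hu']
    exact gr_coeffMap_mem A u'
  have hρ : grRho A ⟨u, humem⟩ ≠ 0 := by
    have h2 : grRho A ⟨u, humem⟩ = coeffMap (IsLocalRing.residue A) u' := by
      have := grRho_coeffMap A u'
      rw [← this]
      congr 1
      exact Subtype.ext hu'.symm
    rw [h2]
    intro h0
    have h3 := congrArg (fun s => HahnSeries.coeff s (-(n : ℤ))) h0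
    simp only [coeffMap_coeff, HahnSeries.coeff_zero] at h3
    rw [hu'1, map_one] at h3
    exact one_ne_zero h3
  exact ⟨humem, gr_inv_mem A ⟨u, humem⟩ hρ⟩

end Series

section Carrier

variable (M q : ℕ) [NeZero M] [hq : Fact q.Prime] (hM : ¬ q ∣ M)
  (K0 : Type*) [Field K0] [Algebra ℚ K0] [Algebra K0 Qb]
  (A0 : ValuationSubring K0) [IsDiscreteValuationRing ↥A0]

omit [Algebra K0 Qb] in
/-- the expansion of `z_f = β₁ (β₀ f) - α₁ (α₀ f)` -/
theorem s36za_coe (f : ↥(laurentBaseChange K0 (modularFunctionFieldFull M))) :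
    ((heckeBetaBar K0 (M * q) q (heckeBetaBar K0 M q f) -
        heckeAlphaBar K0 (M * q) q (heckeAlphaBar K0 M q f) :
          ↥(laurentBaseChange K0 (modularFunctionFieldFull (M * q * q)))) : LaurentSeries K0)
      = qExpand K0 (q * q) (f : LaurentSeries K0) - (f : LaurentSeries K0) := by
  have h1 : ((heckeBetaBar K0 (M * q) q (heckeBetaBar K0 M q f) :
      ↥(laurentBaseChange K0 (modularFunctionFieldFull (M * q * q)))) : LaurentSeries K0)
      = qExpand K0 (q * q) (f : LaurentSeries K0) := by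
    rw [coe_heckeBetaBar, coe_heckeBetaBar, qExpand_qExpand]
  have h2 : ((heckeAlphaBar K0 (M * q) q (heckeAlphaBar K0 M q f) :
      ↥(laurentBaseChange K0 (modularFunctionFieldFull (M * q * q)))) : LaurentSeries K0)
      = (f : LaurentSeries K0) := by
    rw [coe_heckeAlphaBar, coe_heckeAlphaBar]
  rw [← h1, ← h2]
  rfl

/-- `w₂ z_f = - z_f` -/
theorem s36za_swap (f : ↥(laurentBaseChange K0 (modularFunctionFieldFull M))) :
    s36v3Swap M q hM K0 (heckeBetaBar K0 (M * q) q (heckeBetaBar K0 M q f) -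
        heckeAlphaBar K0 (M * q) q (heckeAlphaBar K0 M q f))
      = - (heckeBetaBar K0 (M * q) q (heckeBetaBar K0 M q f) -
        heckeAlphaBar K0 (M * q) q (heckeAlphaBar K0 M q f)) := by
  rw [map_sub, s36v3Swap_be, s36v3Swap_al, va2Swap_beta, va2Swap_alpha, neg_sub]

omit [Algebra K0 Qb] in
/-- `z_f` is a unit of `W_a` -/
theorem s36za_Wa (f : ↥(laurentBaseChange K0 (modularFunctionFieldFull M)))
    (Z : LaurentSeries ℤ)
    (hf : (f : LaurentSeries K0) = coeffMap (Int.castRingHom K0) Z) (hZ : Hp4Lead Z (-1)) :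
    (heckeBetaBar K0 (M * q) q (heckeBetaBar K0 M q f) -
        heckeAlphaBar K0 (M * q) q (heckeAlphaBar K0 M q f)) ∈ va2V1 (M * q) q K0 A0 ∧
    (heckeBetaBar K0 (M * q) q (heckeBetaBar K0 M q f) -
        heckeAlphaBar K0 (M * q) q (heckeAlphaBar K0 M q f))⁻¹ ∈ va2V1 (M * q) q K0 A0 := by
  have hq2 : 2 ≤ q * q := by
    have := hq.out.two_le
    nlinarith
  obtain ⟨h1, h2⟩ := s36za_series A0 (q * q) hq2 Z hZ
  rw [← hf, ← s36za_coe M q K0 f] at h1 h2
  refine ⟨(mem_va2V1 (M * q) q K0 A0 _).mpr h1, (mem_va2V1 (M * q) q K0 A0 _).mpr ?_⟩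
  have h3 : (((heckeBetaBar K0 (M * q) q (heckeBetaBar K0 M q f) -
        heckeAlphaBar K0 (M * q) q (heckeAlphaBar K0 M q f))⁻¹ :
          ↥(laurentBaseChange K0 (modularFunctionFieldFull (M * q * q)))) : LaurentSeries K0)
      = ((heckeBetaBar K0 (M * q) q (heckeBetaBar K0 M q f) -
        heckeAlphaBar K0 (M * q) q (heckeAlphaBar K0 M q f) :
          ↥(laurentBaseChange K0 (modularFunctionFieldFull (M * q * q)))) : LaurentSeries K0)⁻¹ :=
    rfl
  rw [h3]
  exact h2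

/-- `z_f` is a unit of `W_b = W_a ∘ w₂` -/
theorem s36za_Wb (f : ↥(laurentBaseChange K0 (modularFunctionFieldFull M)))
    (Z : LaurentSeries ℤ)
    (hf : (f : LaurentSeries K0) = coeffMap (Int.castRingHom K0) Z) (hZ : Hp4Lead Z (-1)) :
    (heckeBetaBar K0 (M * q) q (heckeBetaBar K0 M q f) -
        heckeAlphaBar K0 (M * q) q (heckeAlphaBar K0 M q f)) ∈
      (va2V1 (M * q) q K0 A0).comap (s36v3Swap M q hM K0) ∧
    (heckeBetaBar K0 (M * q) q (heckeBetaBar K0 M q f) -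
        heckeAlphaBar K0 (M * q) q (heckeAlphaBar K0 M q f))⁻¹ ∈
      (va2V1 (M * q) q K0 A0).comap (s36v3Swap M q hM K0) := by
  obtain ⟨h1, h2⟩ := s36za_Wa M q K0 A0 f Z hf hZ
  constructor
  · show s36v3Swap M q hM K0 _ ∈ va2V1 (M * q) q K0 A0
    rw [s36za_swap]
    exact neg_mem h1
  · show s36v3Swap M q hM K0 _ ∈ va2V1 (M * q) q K0 A0
    rw [map_inv₀, s36za_swap, inv_neg]
    exact neg_mem h2

end Carrier

end Fermat.Agent.S36
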