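import Mathlib
import Fermat.Agent.S34.NodeUnif
import Fermat.Agent.S36.Inst36FieldOf
import Fermat.Agent.S36.Val3Wc
import Fermat.Agent.S36.Val3Za
import Fermat.Agent.S36.Val3Exh
import Fermat.Agent.S36.Val3Insep
import Fermat.Agent.S36.Val3Swap
import Fermat.Agent.S36.App3Inst
import Fermat.Agent.S36.NormResInst3

/-!
# S36, package INST36, the field-level core from the point data

`s36in_field_pts`: `S36inField (M * q) q m B K0` (`B = (q + 1) (q (q - 1) (q + 1)) q`) over a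
generic field of definition `K0` with a discrete valuation subring `A0` in which `q` is a
uniformiser, for the three vertical valuation rings

* `W_a = va2V1 (M * q) q K0 A0` (the Gauss valuation ring of level `M q ^ 2`),
* `W_b = W_a.comap (s36v3Swap M q hM K0)`,
* `W_c = s36v3Wc M q hM K0 A0`,

from the point data (`S36inPtDat ∨ S36inPtTri` at every closed point of the special fibres of
the two Hauptmodul charts) ALONE: every other hypothesis of `s36in_field_of` is discharged from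
the packages VAL3, NR3-INST, APP3-INST.
-/

set_option autoImplicit false
set_option linter.unusedSectionVars false
set_option linter.unusedVariables false

noncomputable section

open ModularCurve AlgebraicCurve Polynomial
open Fermat.Agent.S18 Fermat.Agent.S34 Fermat.Agent.S35

namespace Fermat.Agent.S36

local notation "Qb" => AlgebraicClosure ℚ

section Field

variable (M q : ℕ) [NeZero M] [hq : Fact q.Prime] (hM : ¬ q ∣ M)
  (K0 : Type) [Field K0] [Algebra ℚ K0] [Algebra K0 Qb]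
  (A0 : ValuationSubring K0) [IsDiscreteValuationRing ↥A0]
  {a2 : ℕ} (H : HauptRec a2 q)

/-- **INST36, the field-level core from the point data.** -/
theorem s36in_field_pts
    [Algebra ↥A0 ↥(laurentBaseChange K0 (modularFunctionFieldFull (M * q)))]
    [IsScalarTower ↥A0 K0 ↥(laurentBaseChange K0 (modularFunctionFieldFull (M * q)))]
    [Algebra ↥A0 ↥(laurentBaseChange K0 (modularFunctionFieldFull (M * q * q)))]
    [IsScalarTower ↥A0 K0 ↥(laurentBaseChange K0 (modularFunctionFieldFull (M * q * q)))]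
    (ha2 : a2 ∣ M) (hA0 : A0.LiesOverPrime q)
    (hunr : ∀ x ∈ A0.nonunits, x * ((q : ℕ) : K0)⁻¹ ∈ A0)
    (τ : A0) (hτ : Irreducible τ) (m : ℕ) (hm2 : 2 ≤ m) (hmq : m.Coprime q)
    (c0 c1 : A0) (hc : IsLocalRing.residue A0 c0 ≠ IsLocalRing.residue A0 c1)
    (t : ↥(laurentBaseChange K0 (modularFunctionFieldFull (M * q * q))))
    (ht : (t : LaurentSeries K0) = cinstU H K0 (c0 : K0) (c1 : K0))
    (hpt₀ : ∀ 𝔫 : Ideal ↥(chtO A0 {t}), ∀ h𝔫 : 𝔫.IsMaximal,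
      algebraMap ↥A0 ↥(chtO A0 {t}) τ ∈ 𝔫 →
      S36inPtDat τ m q (va2V1 (M * q) q K0 A0)
        ((va2V1 (M * q) q K0 A0).comap (s36v3Swap M q hM K0)) (s36v3Wc M q hM K0 A0)
        (chtO A0 {t}) 𝔫 ∨
      S36inPtTri τ m (heckeAlphaBar K0 (M * q) q).toRingHom
        (heckeBetaBar K0 (M * q) q).toRingHom (s35NormA K0 (M * q) q) (s35NormB K0 (M * q) q)
        (va2V1 (M * q) q K0 A0) ((va2V1 (M * q) q K0 A0).comap (s36v3Swap M q hM K0))
        (s36v3Wc M q hM K0 A0) (chtO A0 {t}) 𝔫 h𝔫.isPrime)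
    (hpt₁ : ∀ 𝔫 : Ideal ↥(chtO A0 {t⁻¹}), ∀ h𝔫 : 𝔫.IsMaximal,
      algebraMap ↥A0 ↥(chtO A0 {t⁻¹}) τ ∈ 𝔫 →
      S36inPtDat τ m q (va2V1 (M * q) q K0 A0)
        ((va2V1 (M * q) q K0 A0).comap (s36v3Swap M q hM K0)) (s36v3Wc M q hM K0 A0)
        (chtO A0 {t⁻¹}) 𝔫 ∨
      S36inPtTri τ m (heckeAlphaBar K0 (M * q) q).toRingHom
        (heckeBetaBar K0 (M * q) q).toRingHom (s35NormA K0 (M * q) q) (s35NormB K0 (M * q) q)
        (va2V1 (M * q) q K0 A0) ((va2V1 (M * q) q K0 A0).comap (s36v3Swap M q hM K0))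
        (s36v3Wc M q hM K0 A0) (chtO A0 {t⁻¹}) 𝔫 h𝔫.isPrime) :
    S36inField (M * q) q m ((q + 1) * (q * (q - 1) * (q + 1)) * q) K0 := by
  classical
  -- the uniformiser `z = h(t^(q^2)) - h(t)` of `W_c`
  obtain ⟨z, hzdef⟩ : ∃ z : ↥(laurentBaseChange K0 (modularFunctionFieldFull (M * q * q))),
      z = s36v3Z M q K0 (nunH K0 M H ha2) := ⟨_, rfl⟩
  have hz0 : z ≠ 0 := by
    rw [hzdef]
    exact s36ai_z_ne_zero M q K0 (nunH K0 M H ha2) H.hZ rfl H.leadZ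
  obtain ⟨hza, hza'⟩ : z ∈ va2V1 (M * q) q K0 A0 ∧ z⁻¹ ∈ va2V1 (M * q) q K0 A0 := by
    rw [hzdef]
    exact s36za_Wa M q K0 A0 (nunH K0 M H ha2) H.hZ rfl H.leadZ
  obtain ⟨hzb, hzb'⟩ : z ∈ (va2V1 (M * q) q K0 A0).comap (s36v3Swap M q hM K0) ∧
      z⁻¹ ∈ (va2V1 (M * q) q K0 A0).comap (s36v3Swap M q hM K0) := by
    rw [hzdef]
    exact s36za_Wb M q hM K0 A0 (nunH K0 M H ha2) H.hZ rfl H.leadZ
  obtain ⟨hzc_nu, hzc, hzc'⟩ : z ∈ (s36v3Wc M q hM K0 A0).nonunits ∧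
      z ^ (q - 1) * ((q : ℕ) :
        ↥(laurentBaseChange K0 (modularFunctionFieldFull (M * q * q))))⁻¹ ∈
        s36v3Wc M q hM K0 A0 ∧
      (z ^ (q - 1) * ((q : ℕ) :
        ↥(laurentBaseChange K0 (modularFunctionFieldFull (M * q * q))))⁻¹)⁻¹ ∈
        s36v3Wc M q hM K0 A0 := by
    rw [hzdef]
    exact s36v3_z_Wc M q hM K0 A0 hA0 (nunH K0 M H ha2) H.hZ rfl H.leadZ
  -- the table
  have hαa : ∀ x : ↥(laurentBaseChange K0 (modularFunctionFieldFull (M * q))),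
      heckeAlphaBar K0 (M * q) q x ∈ va2V1 (M * q) q K0 A0 ↔ x ∈ va2V1 M q K0 A0 :=
    fun x => s36vx_al_Wa M q K0 A0 x
  have hβa : ∀ x : ↥(laurentBaseChange K0 (modularFunctionFieldFull (M * q))),
      heckeBetaBar K0 (M * q) q x ∈ va2V1 (M * q) q K0 A0 ↔ x ∈ va2V1 M q K0 A0 :=
    fun x => s36v3_be_Wa M q K0 A0 x
  have hαb : ∀ x : ↥(laurentBaseChange K0 (modularFunctionFieldFull (M * q))),
      heckeAlphaBar K0 (M * q) q x ∈ (va2V1 (M * q) q K0 A0).comap (s36v3Swap M q hM K0) ↔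
        x ∈ va2V2 M q hM K0 A0 := by
    intro x
    rw [ValuationSubring.mem_comap, s36v3Swap_al, hβa, mem_va2V2]
  have hβb : ∀ x : ↥(laurentBaseChange K0 (modularFunctionFieldFull (M * q))),
      heckeBetaBar K0 (M * q) q x ∈ (va2V1 (M * q) q K0 A0).comap (s36v3Swap M q hM K0) ↔
        x ∈ va2V2 M q hM K0 A0 :=
    fun x => s36vx_be_Wb M q hM K0 A0 x
  have hαc : ∀ x : ↥(laurentBaseChange K0 (modularFunctionFieldFull (M * q))),
      heckeAlphaBar K0 (M * q) q x ∈ s36v3Wc M q hM K0 A0 ↔ x ∈ va2V1 M q K0 A0 :=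
    fun x => s36v3_al_Wc M q hM K0 A0 x
  have hβc : ∀ x : ↥(laurentBaseChange K0 (modularFunctionFieldFull (M * q))),
      heckeBetaBar K0 (M * q) q x ∈ s36v3Wc M q hM K0 A0 ↔ x ∈ va2V2 M q hM K0 A0 :=
    fun x => s36v3_be_Wc M q hM K0 A0 hA0 x
  -- `z` generates the maximal ideal of `W_c`
  have hgen : ∀ y ∈ (s36v3Wc M q hM K0 A0).nonunits, y * z⁻¹ ∈ s36v3Wc M q hM K0 A0 :=
    fun y hy => s36vx_unif_c M q K0 A0 hA0 hunr (s36v3Wc M q hM K0 A0) hαc z hz0 hzc hzc' hza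
      hza' y hy
  have hmapF : ∀ a : ↥A0,
      algebraMap ↥A0 ↥(laurentBaseChange K0 (modularFunctionFieldFull (M * q * q))) a =
        algebraMap K0 ↥(laurentBaseChange K0 (modularFunctionFieldFull (M * q * q))) (a : K0) :=
    fun a => IsScalarTower.algebraMap_apply ↥A0 K0 _ a
  refine s36in_field_of M q hM K0 A0 H ha2 hA0 hunr τ hτ
    ((va2V1 (M * q) q K0 A0).comap (s36v3Swap M q hM K0)) (s36v3Wc M q hM K0 A0)
    hαa hβa hαb hβb hαc hβc
    (fun W hW => s36vx_exh_al1 M q K0 A0 hA0 hunr (s36v3Wc M q hM K0 A0) hαc z hz0 hzc hzc' hza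
      hza' W hW)
    (fun W hW => s36vi_exh_al_Wb M q hM K0 A0 (s36v3Swap M q hM K0) (s36v3Swap_swap M q hM K0)
      (s36v3Swap_al M q hM K0) hA0 W hW)
    (fun x hx => s36vi_res_al_Wa M q hM K0 A0 hA0 x hx)
    (fun x hx => s36vx_res_al_Wc M q K0 A0 hA0 hunr (s36v3Wc M q hM K0 A0) hαc z hz0 hzc hzc'
      hza hza' x hx)
    (fun x hx => s36vi_res_be_Wb M q hM K0 A0 (s36v3Swap M q hM K0) (s36v3Swap_swap M q hM K0)
      (s36v3Swap_al M q hM K0) hA0 x hx)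
    (fun x hx => s36vx_res_be_Wc M q hM K0 A0 hA0 hunr (s36v3Wc M q hM K0 A0) hβc z hz0 hzc hzc'
      hzb hzb' x hx)
    z hz0 hzc_nu hzc hzc' hza hza' hzb hzb'
    ?_ ?_
    (s36ai_dec_Wc M q K0 A0 hA0 (s36v3Wc M q hM K0 A0) hαc z hz0 hgen hzc)
    m hm2 hmq
    (fun u ua uc hua huc h1 h2 => s36nri_alpha1 M q K0 A0 hA0 hunr (va2V1 (M * q) q K0 A0)
      (s36v3Wc M q hM K0 A0) hαa hαc z hz0 hza hza' hzc hzc' u ua uc hua huc h1 h2)
    (fun u hu => s36nri_alpha2 M q hM K0 A0 hA0 (s36v3Swap M q hM K0) (s36v3Swap_swap M q hM K0)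
      (s36v3Swap_al M q hM K0) u hu)
    (fun u ub uc hub huc h1 h2 => s36nri_beta2 M q hM K0 A0 hA0 hunr
      ((va2V1 (M * q) q K0 A0).comap (s36v3Swap M q hM K0)) (s36v3Wc M q hM K0 A0) hβb hβc z hz0
      hzb hzb' hzc hzc' u ub uc hub huc h1 h2)
    (fun u hu => s36nri_beta1 M q hM K0 A0 hA0 u hu)
    (s36ai_happ M q hM K0 A0 H ha2 hA0 (s36v3Swap M q hM K0)
      ((va2V1 (M * q) q K0 A0).comap (s36v3Swap M q hM K0)) (s36v3Wc M q hM K0 A0)
      (fun _ => Iff.rfl) hαa hαc hαb hβa hβb hβc z hz0 hzc_nu hgen hzc)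
    c0 c1 hc t ht hpt₀ hpt₁
  · intro y hy
    rw [hmapF]
    exact s36ai_dec_a M q K0 A0 τ hτ y hy
  · intro y hy
    rw [hmapF]
    exact s36ai_dec_b M q K0 A0 (s36v3Swap M q hM K0) (s36v3Swap_const M q hM K0)
      ((va2V1 (M * q) q K0 A0).comap (s36v3Swap M q hM K0)) (fun _ => Iff.rfl) τ hτ y hy

end Field

end Fermat.Agent.S36
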