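import Mathlib
import Fermat.Agent.S36.Inst36FieldPts

/-!
# S36, package INST36, the field-level core: final wiring

* `S36inComp3 M q hM K0 A0 H c0 c1 m`: the statement of the carrier form of COMP3 -- the point
  data (`S36inPtDat ∨ S36inPtTri`) at every closed point of the special fibres of the two
  Hauptmodul charts `chtO A0 {t}`, `chtO A0 {t⁻¹}` of level `M q ^ 2`, for every irreducible
  `τ` of `A0`.
* `s36in_field_of_comp3`: the hypothesis `hfield` of `s36ir_reduce_of_base` (S36/InstReduce36)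
  from `S36inComp3`.
-/

set_option autoImplicit false
set_option linter.unusedSectionVars false
set_option linter.unusedVariables false

noncomputable section

open ModularCurve AlgebraicCurve Polynomial
open Fermat.Agent.S18 Fermat.Agent.S34 Fermat.Agent.S35

namespace Fermat.Agent.S36

local notation "Qb" => AlgebraicClosure ℚ

section Field

variable (M q : ℕ) [NeZero M] [hq : Fact q.Prime] (hM : ¬ q ∣ M)
  (K0 : Type) [Field K0] [Algebra ℚ K0] [Algebra K0 Qb]
  (A0 : ValuationSubring K0) [IsDiscreteValuationRing ↥A0]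
  {a2 : ℕ} (H : HauptRec a2 q)

/-- **The carrier form of COMP3**: the point data at every closed point of the special fibres
of the two Hauptmodul charts of level `M q ^ 2`, for the three vertical valuation rings
`W_a = va2V1 (M * q) q K0 A0`, `W_b = W_a.comap (s36v3Swap M q hM K0)`,
`W_c = s36v3Wc M q hM K0 A0`. -/
def S36inComp3
    [Algebra ↥A0 ↥(laurentBaseChange K0 (modularFunctionFieldFull (M * q * q)))]
    (c0 c1 : A0) (m : ℕ) : Prop :=
  ∀ (τ : A0), Irreducible τ →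
    ∀ t : ↥(laurentBaseChange K0 (modularFunctionFieldFull (M * q * q))),
      (t : LaurentSeries K0) = cinstU H K0 (c0 : K0) (c1 : K0) →
    (∀ 𝔫 : Ideal ↥(chtO A0 {t}), ∀ h𝔫 : 𝔫.IsMaximal,
      algebraMap ↥A0 ↥(chtO A0 {t}) τ ∈ 𝔫 →
      S36inPtDat τ m q (va2V1 (M * q) q K0 A0)
        ((va2V1 (M * q) q K0 A0).comap (s36v3Swap M q hM K0)) (s36v3Wc M q hM K0 A0)
        (chtO A0 {t}) 𝔫 ∨
      S36inPtTri τ m (heckeAlphaBar K0 (M * q) q).toRingHom
        (heckeBetaBar K0 (M * q) q).toRingHom (s35NormA K0 (M * q) q) (s35NormB K0 (M * q) q)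
        (va2V1 (M * q) q K0 A0) ((va2V1 (M * q) q K0 A0).comap (s36v3Swap M q hM K0))
        (s36v3Wc M q hM K0 A0) (chtO A0 {t}) 𝔫 h𝔫.isPrime) ∧
    (∀ 𝔫 : Ideal ↥(chtO A0 {t⁻¹}), ∀ h𝔫 : 𝔫.IsMaximal,
      algebraMap ↥A0 ↥(chtO A0 {t⁻¹}) τ ∈ 𝔫 →
      S36inPtDat τ m q (va2V1 (M * q) q K0 A0)
        ((va2V1 (M * q) q K0 A0).comap (s36v3Swap M q hM K0)) (s36v3Wc M q hM K0 A0)
        (chtO A0 {t⁻¹}) 𝔫 ∨
      S36inPtTri τ m (heckeAlphaBar K0 (M * q) q).toRingHom
        (heckeBetaBar K0 (M * q) q).toRingHom (s35NormA K0 (M * q) q) (s35NormB K0 (M * q) q)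
        (va2V1 (M * q) q K0 A0) ((va2V1 (M * q) q K0 A0).comap (s36v3Swap M q hM K0))
        (s36v3Wc M q hM K0 A0) (chtO A0 {t⁻¹}) 𝔫 h𝔫.isPrime)

/-- **INST36: the field-level core from the carrier form of COMP3** (the conclusion is the
hypothesis `hfield` of `s36ir_reduce_of_base` for `B = (q + 1) (q (q - 1) (q + 1)) q`). -/
theorem s36in_field_of_comp3 (ha2 : a2 ∣ M) (hA0 : A0.LiesOverPrime q)
    (hunif : ∀ x ∈ A0.nonunits, ∃ a ∈ A0, x = (q : K0) * a)
    (c0 c1 : A0) (hc : IsLocalRing.residue ↥A0 c0 ≠ IsLocalRing.residue ↥A0 c1)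
    (m : ℕ) (hm2 : 2 ≤ m) (hmq : m.Coprime q)
    (hcomp : ∀ [Algebra ↥A0 ↥(laurentBaseChange K0 (modularFunctionFieldFull (M * q)))]
      [IsScalarTower ↥A0 K0 ↥(laurentBaseChange K0 (modularFunctionFieldFull (M * q)))]
      [Algebra ↥A0 ↥(laurentBaseChange K0 (modularFunctionFieldFull (M * q * q)))]
      [IsScalarTower ↥A0 K0 ↥(laurentBaseChange K0 (modularFunctionFieldFull (M * q * q)))],
      S36inComp3 M q hM K0 A0 H c0 c1 m) :
    S36inField (M * q) q m ((q + 1) * (q * (q - 1) * (q + 1)) * q) K0 := by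
  classical
  let _ : Algebra ↥A0 ↥(laurentBaseChange K0 (modularFunctionFieldFull (M * q))) :=
    ((algebraMap K0 ↥(laurentBaseChange K0 (modularFunctionFieldFull (M * q)))).comp
      A0.subtype).toAlgebra
  have : IsScalarTower ↥A0 K0 ↥(laurentBaseChange K0 (modularFunctionFieldFull (M * q))) :=
    IsScalarTower.of_algebraMap_eq (fun _ => rfl)
  let _ : Algebra ↥A0 ↥(laurentBaseChange K0 (modularFunctionFieldFull (M * q * q))) :=
    ((algebraMap K0 ↥(laurentBaseChange K0 (modularFunctionFieldFull (M * q * q)))).comp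
      A0.subtype).toAlgebra
  have : IsScalarTower ↥A0 K0 ↥(laurentBaseChange K0 (modularFunctionFieldFull (M * q * q))) :=
    IsScalarTower.of_algebraMap_eq (fun _ => rfl)
  have : CharZero K0 := algebraRat.charZero K0
  have hq0 : ((q : ℕ) : K0) ≠ 0 := Nat.cast_ne_zero.mpr hq.out.ne_zero
  have hunr : ∀ x ∈ A0.nonunits, x * ((q : ℕ) : K0)⁻¹ ∈ A0 := by
    intro x hx
    obtain ⟨a, ha, rfl⟩ := hunif x hx
    rw [mul_comm ((q : ℕ) : K0) a, mul_assoc, mul_inv_cancel₀ hq0, mul_one]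
    exact ha
  obtain ⟨τ, hτ⟩ := IsDiscreteValuationRing.exists_irreducible ↥A0
  obtain ⟨hpt₀, hpt₁⟩ := hcomp τ hτ
    ⟨cinstU H K0 (c0 : K0) (c1 : K0), cinstU_mem H K0 ((ha2.mul_right q).mul_right q) _ _⟩ rfl
  exact s36in_field_pts M q hM K0 A0 H ha2 hA0 hunr τ hτ m hm2 hmq c0 c1 hc _ rfl hpt₀ hpt₁

end Field

end Fermat.Agent.S36
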