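import Mathlib
import Fermat.Agent.S34.CompInst
import Fermat.Agent.S35.LocICPt
import Fermat.Agent.S36.Val3Insep

/-!
# S36, leaf HD3: the components of the level-`M q^2` special fibre through the map `α`

* `s36cd_ic_abs` : `S35IC` from the residue form of (FRAC) and the elementwise valuation-ring
  property of the branch (no exact (FRAC), no reducedness of the fibre);
* `s36cd_ic_loc` : `S35IC` at a point `𝔫` whose local ring contains the image of a ring with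
  Dedekind reduction generating the residue field (the binders of `S34.cpl_key`);
* `s36cd_hD_abs` : the generalisation of `S34.cmi_abs` to a lower chart whose component
  (not its whole special fibre) is Dedekind;
* carrier: `s36cd_rfrac_V1` (level `M q`), `s36cd_al_hD`, `s36cd_al_rfrac`, `s36cd_al_ic`
  (level `M q^2`, any valuation ring `W` lying over `V₁` through `α` with residue degree one:
  `W = W_a` and `W = W_c`), their `_inv` forms for the chart `chtO A0 {t⁻¹}`, and the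
  instances `s36cd_Wa_hD`, `s36cd_Wa_ic` (+ `_inv`) for the Gauss ring `W_a`.
-/

set_option autoImplicit false
set_option linter.unusedSectionVars false

open ModularCurve AlgebraicCurve Polynomial
open Fermat.Agent.S18 Fermat.Agent.S37 Fermat.Agent.S34 Fermat.Agent.S35
open scoped IntermediateField

namespace Fermat.Agent.S36

local notation "Qb" => AlgebraicClosure ℚ

/-! ### Abstract statements -/

section Abs

variable {A F : Type*} [CommRing A] [Field F] [Algebra A F]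

/-- a product of two elements outside `𝔪_V`, the first one in `V`, is outside `𝔪_V` -/
theorem s36cd_not_nu_mul (V : ValuationSubring F) {x y : F} (hx : x ∈ V) (hx' : x ∉ V.nonunits)
    (hy' : y ∉ V.nonunits) : x * y ∉ V.nonunits := fun h =>
  hy' (cpl_nu_cancel V hx hx' (by rwa [mul_comm] at h))

/-- powers of congruent elements are congruent -/
theorem s36cd_nu_sub_pow (V : ValuationSubring F) {x y : F} (hx : x ∈ V) (hy : y ∈ V)
    (hxy : x - y ∈ V.nonunits) (k : ℕ) : x ^ k - y ^ k ∈ V.nonunits := by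
  induction k with
  | zero => simp
  | succ k ih =>
    have e : x ^ (k + 1) - y ^ (k + 1) = (x ^ k - y ^ k) * x + (x - y) * y ^ k := by ring
    rw [e]
    exact V.nonunits.add_mem (cpl_nu_mul V ih hx) (cpl_nu_mul V hxy (V.pow_mem hy k))

/-- the `iff` form of "`W` lies over `V`" gives the non-unit form -/
theorem s36cd_nonunits_iff {E : Type*} [Field E] (φ : E →+* F)
    (V : ValuationSubring E) (W : ValuationSubring F) (h : ∀ x, φ x ∈ W ↔ x ∈ V) (x : E) :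
    φ x ∈ W.nonunits ↔ x ∈ V.nonunits := by
  rw [ValuationSubring.mem_nonunits_iff_or, ValuationSubring.mem_nonunits_iff_or, map_eq_zero,
    ← map_inv₀, h]

/-- **`S35IC` from the residue form of (FRAC) and the valuation-ring property of the branch.** -/
theorem s36cd_ic_abs (O : Subalgebra A F) (𝔫 : Ideal ↥O) [h𝔫 : 𝔫.IsPrime]
    (W : ValuationSubring F) (hOW : ∀ x ∈ O, x ∈ W)
    (hp𝔫 : ∀ x : ↥O, (x : F) ∈ W.nonunits → x ∈ 𝔫)
    (hrf : ∀ z ∈ W, ∃ a s : ↥O, (s : F) ∉ W.nonunits ∧ z * (s : F) - (a : F) ∈ W.nonunits)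
    (htot : ∀ a b : ↥O, ∃ s : ↥O, s ∉ 𝔫 ∧ ∃ c : ↥O,
      ((a : F) * (c : F) - (s : F) * (b : F) ∈ W.nonunits) ∨
      ((b : F) * (c : F) - (s : F) * (a : F) ∈ W.nonunits))
    (m : ℕ) (hm : 0 < m) : S35IC m O 𝔫 W := by
  rintro z ⟨a, s, ha, hs, hzas⟩
  have hsW : (s : F) ∈ W := hOW _ s.2
  have haW : (a : F) ∈ W := hOW _ a.2
  have hs' : (s : F) ∉ W.nonunits := fun h => hs (hp𝔫 s h)
  -- `z ∈ W`
  have hzW : z ∈ W := by
    have h1 : z ^ m * (s : F) ∈ W := by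
      have := W.add_mem _ _ (ValuationSubring.nonunits_subset hzas) haW
      simpa using this
    have hsW' := hsW
    rw [← ValuationSubring.valuation_le_one_iff] at h1 hsW' ⊢
    rw [ValuationSubring.mem_nonunits_iff, not_lt] at hs'
    have hs1 : W.valuation (s : F) = 1 := le_antisymm hsW' hs'
    rw [map_mul, hs1, mul_one, map_pow] at h1
    exact (pow_le_one_iff hm.ne').mp h1
  obtain ⟨a₀, s₀, hs₀, hz₀⟩ := hrf z hzW
  have hs₀W : (s₀ : F) ∈ W := hOW _ s₀.2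
  obtain ⟨σ, hσ, γ, hγ⟩ := htot a₀ s₀
  have hσW : (σ : F) ∈ W := hOW _ σ.2
  have hγW : (γ : F) ∈ W := hOW _ γ.2
  rcases hγ with hγ | hγ
  · -- `a₀ γ ≡ σ s₀`, hence `z γ ≡ σ`
    have h1 : z * (γ : F) - (σ : F) ∈ W.nonunits := by
      refine cpl_nu_cancel W hs₀W hs₀ ?_
      have e : (z * (γ : F) - (σ : F)) * (s₀ : F) =
          (z * (s₀ : F) - (a₀ : F)) * (γ : F) + ((a₀ : F) * (γ : F) - (σ : F) * (s₀ : F)) := by
        ring
      rw [e]
      exact W.nonunits.add_mem (cpl_nu_mul W hz₀ hγW) hγ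
    by_cases hγ𝔫 : γ ∈ 𝔫
    · exfalso
      have h2 : (z * (γ : F)) ^ m - (σ : F) ^ m ∈ W.nonunits :=
        s36cd_nu_sub_pow W (W.mul_mem _ _ hzW hγW) hσW h1 m
      have h3 : (a : F) * (γ : F) ^ m - (s : F) * (σ : F) ^ m ∈ W.nonunits := by
        have e : (a : F) * (γ : F) ^ m - (s : F) * (σ : F) ^ m =
            ((z * (γ : F)) ^ m - (σ : F) ^ m) * (s : F) -
              (z ^ m * (s : F) - (a : F)) * (γ : F) ^ m := by ring
        rw [e]
        exact W.nonunits.sub_mem (cpl_nu_mul W h2 hsW) (cpl_nu_mul W hzas (W.pow_mem hγW m))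
      have h4 : a * γ ^ m - s * σ ^ m ∈ 𝔫 := hp𝔫 _ (by simpa using h3)
      have h5 : s * σ ^ m ∈ 𝔫 := by
        have h6 : a * γ ^ m ∈ 𝔫 := 𝔫.mul_mem_left _ (𝔫.pow_mem_of_mem hγ𝔫 m hm)
        have := 𝔫.sub_mem h6 h4
        simpa using this
      rcases h𝔫.mem_or_mem h5 with h | h
      · exact hs h
      · exact hσ (h𝔫.mem_of_pow_mem m h)
    · exact ⟨σ, γ, hγ𝔫, h1⟩
  · -- `s₀ γ ≡ σ a₀`, hence `z σ ≡ γ`
    refine ⟨γ, σ, hσ, ?_⟩
    refine cpl_nu_cancel W hs₀W hs₀ ?_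
    have e : (z * (σ : F) - (γ : F)) * (s₀ : F) =
        (z * (s₀ : F) - (a₀ : F)) * (σ : F) - ((s₀ : F) * (γ : F) - (σ : F) * (a₀ : F)) := by
      ring
    rw [e]
    exact W.nonunits.sub_mem (cpl_nu_mul W hz₀ hσW) hγ

/-- the residue form of (FRAC) at a point whose local ring contains the image of a ring
generating the residue field of `V` -/
theorem s36cd_rfrac_loc (O : Subalgebra A F) (V : ValuationSubring F)
    (hOV : ∀ x ∈ O, x ∈ V) (𝔫 : Ideal ↥O)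
    (hp𝔫 : ∀ x : ↥O, (x : F) ∈ V.nonunits → x ∈ 𝔫)
    {R : Type*} [CommRing R] (ψ : R →+* F)
    (hres : ∀ x ∈ V, ∃ a s : R, ψ s ∉ V.nonunits ∧ x * ψ s - ψ a ∈ V.nonunits)
    (hRO : ∀ z : R, ∃ s : ↥O, s ∉ 𝔫 ∧ (s : F) * ψ z ∈ O) :
    ∀ z ∈ V, ∃ a s : ↥O, (s : F) ∉ V.nonunits ∧ z * (s : F) - (a : F) ∈ V.nonunits := by
  intro z hz
  obtain ⟨a, s, hs, hzs⟩ := hres z hz
  obtain ⟨sa, hsa, hsaO⟩ := hRO a
  obtain ⟨ss, hss, hssO⟩ := hRO s
  have hsa' : (sa : F) ∉ V.nonunits := fun h => hsa (hp𝔫 sa h)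
  have hss' : (ss : F) ∉ V.nonunits := fun h => hss (hp𝔫 ss h)
  refine ⟨⟨(sa : F) * ψ a, hsaO⟩ * ss, ⟨(ss : F) * ψ s, hssO⟩ * sa, ?_, ?_⟩
  · show (ss : F) * ψ s * (sa : F) ∉ V.nonunits
    have h1 : (ss : F) * ψ s ∉ V.nonunits := s36cd_not_nu_mul V (hOV _ ss.2) hss' hs
    exact s36cd_not_nu_mul V (hOV _ hssO) h1 hsa'
  · show z * ((ss : F) * ψ s * (sa : F)) - (sa : F) * ψ a * (ss : F) ∈ V.nonunits
    have e : z * ((ss : F) * ψ s * (sa : F)) - (sa : F) * ψ a * (ss : F) =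
        (z * ψ s - ψ a) * ((ss : F) * (sa : F)) := by ring
    rw [e]
    exact cpl_nu_mul V hzs (V.mul_mem _ _ (hOV _ ss.2) (hOV _ sa.2))

/-- **`S35IC` from local domination**: the binders of `S34.cpl_key`. -/
theorem s36cd_ic_loc (O : Subalgebra A F) (V : ValuationSubring F)
    (hOV : ∀ x ∈ O, x ∈ V) (𝔭 : Ideal ↥O)
    (h𝔭 : ∀ x : ↥O, x ∈ 𝔭 ↔ (x : F) ∈ V.nonunits)
    (𝔫 : Ideal ↥O) [h𝔫 : 𝔫.IsPrime] (h𝔭𝔫 : 𝔭 ≤ 𝔫)
    {R : Type*} [CommRing R] {B : Type*} [CommRing B] [IsDedekindDomain B]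
    (ψ : R →+* F) (π : R →+* B) (hπ : Function.Surjective π)
    (hψV : ∀ z : R, ψ z ∈ V)
    (hker : ∀ z : R, π z = 0 ↔ ψ z ∈ V.nonunits)
    (hres : ∀ x ∈ V, ∃ a s : R, ψ s ∉ V.nonunits ∧ x * ψ s - ψ a ∈ V.nonunits)
    (hRO : ∀ z : R, ∃ s : ↥O, s ∉ 𝔫 ∧ (s : F) * ψ z ∈ O)
    (m : ℕ) (hm : 0 < m) : S35IC m O 𝔫 V := by
  have hp𝔫 : ∀ x : ↥O, (x : F) ∈ V.nonunits → x ∈ 𝔫 := fun x hx => h𝔭𝔫 ((h𝔭 x).mpr hx)
  refine s36cd_ic_abs O 𝔫 V hOV hp𝔫 (s36cd_rfrac_loc O V hOV 𝔫 hp𝔫 ψ hres hRO) ?_ m hm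
  intro a b
  obtain ⟨s, hs, c, hc⟩ := cpl_key O V hOV 𝔭 h𝔭 𝔫 h𝔭𝔫 ψ π hπ hψV hker hres hRO a b
  refine ⟨s, hs, c, ?_⟩
  rcases hc with hc | hc
  · left
    have := (h𝔭 _).mp hc
    simpa using this
  · right
    have := (h𝔭 _).mp hc
    simpa using this

/-- **`S35IC` from a Dedekind coordinate ring of the component** and the residue form of
(FRAC) (the analogue of `S35.s35i_ic_ded` without exact (FRAC)). -/
theorem s36cd_ic_ded (O : Subalgebra A F) (𝔫 : Ideal ↥O) [h𝔫 : 𝔫.IsPrime]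
    (V : ValuationSubring F) (hOV : ∀ x ∈ O, x ∈ V)
    (𝔭 : Ideal ↥O) (h𝔭 : ∀ x : ↥O, x ∈ 𝔭 ↔ (x : F) ∈ V.nonunits) [IsDedekindDomain (↥O ⧸ 𝔭)]
    (h𝔭𝔫 : 𝔭 ≤ 𝔫)
    (hrf : ∀ z ∈ V, ∃ a s : ↥O, (s : F) ∉ V.nonunits ∧ z * (s : F) - (a : F) ∈ V.nonunits)
    (m : ℕ) (hm : 0 < m) : S35IC m O 𝔫 V := by
  have hp𝔫 : ∀ x : ↥O, (x : F) ∈ V.nonunits → x ∈ 𝔫 := fun x hx => h𝔭𝔫 ((h𝔭 x).mpr hx)
  have hPprime : (𝔫.map (Ideal.Quotient.mk 𝔭)).IsPrime :=
    Ideal.map_isPrime_of_surjective Ideal.Quotient.mk_surjective (by rw [Ideal.mk_ker]; exact h𝔭𝔫)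
  refine s36cd_ic_abs O 𝔫 V hOV hp𝔫 hrf ?_ m hm
  intro a b
  obtain ⟨σ', hσ', γ', hγ'⟩ := cpl_ded_total (𝔫.map (Ideal.Quotient.mk 𝔭))
    (Ideal.Quotient.mk 𝔭 a) (Ideal.Quotient.mk 𝔭 b)
  obtain ⟨σ, rfl⟩ := Ideal.Quotient.mk_surjective σ'
  obtain ⟨γ, rfl⟩ := Ideal.Quotient.mk_surjective γ'
  refine ⟨σ, fun h => hσ' (Ideal.mem_map_of_mem _ h), γ, ?_⟩
  rcases hγ' with h | h
  · left
    rw [← map_mul, ← map_mul, Ideal.Quotient.eq] at h
    have := (h𝔭 _).mp h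
    simpa using this
  · right
    rw [← map_mul, ← map_mul, Ideal.Quotient.eq] at h
    have := (h𝔭 _).mp h
    simpa using this

end Abs

/-! ### The global form: a generalisation of `S34.cmi_abs` -/

section Glob

variable {A E F : Type*} [CommRing A] [Field E] [Field F] [Algebra A E] [Algebra A F]

/-- **The component through `α`, global form.**  `α : E → F` an embedding of fields over `A`,
`VE`, `V` valuation rings of `E`, `F` with `V ∩ E = VE` and residue degree one; the component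
`chtO A {tE} ⧸ 𝔭'`, `𝔭' = chtO A {tE} ∩ 𝔪_{VE}`, of the chart of `E` is Dedekind and generates
the residue field of `VE`.  Then the component `chtO A {α tE} ⧸ 𝔭`, `𝔭 = chtO A {α tE} ∩ 𝔪_V`,
is a Dedekind domain. -/
theorem s36cd_hD_abs (α : E →ₐ[A] F) (tE : E)
    (VE : ValuationSubring E) (V : ValuationSubring F)
    (hmem : ∀ y : E, α y ∈ V ↔ y ∈ VE)
    (hAV : ∀ a : A, algebraMap A F a ∈ V) (htV : α tE ∈ V)
    (hVE : ∀ x ∈ chtO A {tE}, x ∈ VE)
    (𝔭' : Ideal ↥(chtO A {tE}))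
    (h𝔭' : ∀ x : ↥(chtO A {tE}), x ∈ 𝔭' ↔ (x : E) ∈ VE.nonunits)
    [hD : IsDedekindDomain (↥(chtO A {tE}) ⧸ 𝔭')]
    (hrf : ∀ z ∈ VE, ∃ a s : ↥(chtO A {tE}),
      (s : E) ∉ VE.nonunits ∧ z * (s : E) - (a : E) ∈ VE.nonunits)
    (hresα : ∀ x ∈ V, ∃ a' : E, a' ∈ VE ∧ x - α a' ∈ V.nonunits)
    (𝔭 : Ideal ↥(chtO A {α tE}))
    (h𝔭 : ∀ x : ↥(chtO A {α tE}), x ∈ 𝔭 ↔ (x : F) ∈ V.nonunits) :
    IsDedekindDomain (↥(chtO A {α tE}) ⧸ 𝔭) := by
  classical
  have hnon : ∀ y : E, α y ∈ V.nonunits ↔ y ∈ VE.nonunits :=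
    fun y => s36cd_nonunits_iff (α : E →+* F) VE V hmem y
  have hinj : Function.Injective α := α.toRingHom.injective
  let e : ↥(chtO A {tE}) ≃ₐ[A] ↥((chtO A {tE}).map α) :=
    (chtO A {tE}).equivMapOfInjective α hinj
  have he : ∀ y : ↥(chtO A {tE}), ((e y : ↥((chtO A {tE}).map α)) : F) = α (y : E) :=
    fun y => rfl
  have hle : (chtO A {tE}).map α ≤ chtO A {α tE} := by
    rintro x ⟨y, hy, rfl⟩
    exact cmi_map_mem α tE hy
  have hOFV : ∀ x ∈ chtO A {α tE}, x ∈ V := fun x hx =>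
    cht_le_valuationSubring V hAV (s := {α tE}) (by rintro y rfl; exact htV) hx
  have hadj : Algebra.adjoin A {α tE} ≤ (chtO A {tE}).map α := by
    refine Algebra.adjoin_le ?_
    rintro y rfl
    exact ⟨tE, (cht_h1 tE).1, rfl⟩
  have hint : ∀ x ∈ chtO A {α tE}, IsIntegral ↥((chtO A {tE}).map α) x := by
    intro x hx
    rw [cht_mem_iff_poly] at hx
    obtain ⟨p, hp, hc, hpx⟩ := hx
    exact (cht_isIntegral_iff _ x).mpr ⟨p, hp, fun i => hadj (hc i), hpx⟩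
  let πE : ↥((chtO A {tE}).map α) →+* (↥(chtO A {tE}) ⧸ 𝔭') :=
    (Ideal.Quotient.mk _).comp (e.symm : ↥((chtO A {tE}).map α) →+* ↥(chtO A {tE}))
  have hπE : Function.Surjective πE :=
    Ideal.Quotient.mk_surjective.comp e.symm.surjective
  have hker : ∀ x : ↥((chtO A {tE}).map α), πE x = 0 ↔ (x : F) ∈ V.nonunits := by
    intro x
    obtain ⟨y, rfl⟩ := e.surjective x
    have h1 : πE (e y) = Ideal.Quotient.mk _ y := by
      show Ideal.Quotient.mk _ (e.symm (e y)) = _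
      rw [AlgEquiv.symm_apply_apply]
    rw [h1, Ideal.Quotient.eq_zero_iff_mem, h𝔭', he, hnon]
  have hres : ∀ x ∈ V, ∃ a s : ↥((chtO A {tE}).map α),
      (s : F) ∉ V.nonunits ∧ x * (s : F) - (a : F) ∈ V.nonunits := by
    intro x hx
    obtain ⟨a', ha', hxa⟩ := hresα x hx
    obtain ⟨a, s, hs, has⟩ := hrf a' ha'
    refine ⟨e a, e s, ?_, ?_⟩
    · rw [he, hnon]
      exact hs
    · rw [he, he]
      have e1 : x * α (s : E) - α (a : E) =
          (x - α a') * α (s : E) + α (a' * (s : E) - (a : E)) := by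
        rw [map_sub, map_mul]
        ring
      rw [e1]
      exact V.nonunits.add_mem (cpl_nu_mul V hxa ((hmem _).mpr (hVE _ s.2)))
        ((hnon _).mpr has)
  exact s34c_dedekind _ (chtO A {α tE}) hle V hOFV hint πE hπE hker hres 𝔭 h𝔭

end Glob

/-! ### The carrier -/

section Inst

variable (M q : ℕ) [NeZero M] [hq : Fact q.Prime] (hM : ¬ q ∣ M)
  (K0 : Type*) [Field K0] [Algebra ℚ K0] [Algebra K0 Qb]
  (A0 : ValuationSubring K0) [IsDiscreteValuationRing ↥A0]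
  {a2 : ℕ} (H : HauptRec a2 q)

include hM in
/-- **The residue field of `V₁` is generated by the level-`M q` chart** (residue form of
(FRAC); no witness in the second component is needed). -/
theorem s36cd_rfrac_V1 (ha2 : a2 ∣ M) (hA0 : A0.LiesOverPrime q)
    [Algebra A0 ↥(laurentBaseChange K0 (modularFunctionFieldFull (M * q)))]
    [IsScalarTower A0 K0 ↥(laurentBaseChange K0 (modularFunctionFieldFull (M * q)))]
    (c0 c1 : A0) (hc : IsLocalRing.residue A0 c0 ≠ IsLocalRing.residue A0 c1)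
    (t : ↥(laurentBaseChange K0 (modularFunctionFieldFull (M * q))))
    (ht : (t : LaurentSeries K0) = cinstU H K0 (c0 : K0) (c1 : K0))
    (τ : A0) (hτ : Irreducible τ) :
    ∀ z ∈ va2V1 M q K0 A0, ∃ a s : ↥(chtO A0 {t}),
      (s : ↥(laurentBaseChange K0 (modularFunctionFieldFull (M * q)))) ∉
        (va2V1 M q K0 A0).nonunits ∧
      z * (s : ↥(laurentBaseChange K0 (modularFunctionFieldFull (M * q)))) -
        (a : ↥(laurentBaseChange K0 (modularFunctionFieldFull (M * q)))) ∈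
          (va2V1 M q K0 A0).nonunits := by
  classical
  have : CharZero K0 := algebraRat.charZero K0
  let algE : Algebra A0 ↥(laurentBaseChange K0 (modularFunctionFieldFull M)) :=
    ((algebraMap K0 ↥(laurentBaseChange K0 (modularFunctionFieldFull M))).comp
      A0.subtype).toAlgebra
  have towE : IsScalarTower A0 K0 ↥(laurentBaseChange K0 (modularFunctionFieldFull M)) :=
    IsScalarTower.of_algebraMap_eq (fun _ => rfl)
  set tE : ↥(laurentBaseChange K0 (modularFunctionFieldFull M)) :=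
    ⟨cinstU H K0 (c0 : K0) (c1 : K0), cinstU_mem H K0 ha2 _ _⟩ with htE
  let α : ↥(laurentBaseChange K0 (modularFunctionFieldFull M)) →ₐ[A0]
      ↥(laurentBaseChange K0 (modularFunctionFieldFull (M * q))) :=
    (heckeAlphaBar K0 M q).restrictScalars A0
  have hαt : α tE = t := Subtype.ext ((coe_heckeAlphaBar M q tE).trans ht.symm)
  subst hαt
  have hVGE : ∀ x : ↥(laurentBaseChange K0 (modularFunctionFieldFull M)),
      x ∈ grO A0 hA0 M hM ↔ (x : LaurentSeries K0) ∈ grV A0 := fun x => Iff.rfl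
  obtain ⟨hA, hτV, hτgen, htt, htV, htV', hG, hfin, hconst⟩ :=
    c2i_hyps A0 M H (grO A0 hA0 M hM) hVGE c0 c1 hc tE rfl τ hτ
  have hc' : (c0 : K0) ≠ (c1 : K0) := by
    intro h0
    apply hc
    rw [Subtype.ext h0]
  have hL := cinst_adjoin_grJ_le M H _ _ hc' tE rfl
  have huniq := cht_huniq_of_sub (K0 := K0) (L := ↥K0⟮grJ K0 M⟯) (grO A0 hA0 M hM) tE hL
    (gr_unique_j A0 hA0 M hM)
  obtain ⟨-, htO, -, ⟨b0, hb0, hspan0⟩, -, -, -, hfrac, -, -, -, hVO, -, hVτ, -⟩ :=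
    cht_all (K0 := K0) (grO A0 hA0 M hM) hA hτ hτV hτgen tE htt htV htV' hG hfin huniq hconst
      1 one_pos
  have hnoeth : IsNoetherianRing ↥(chtO A0 {tE}) := cz_noeth tE (chtO A0 {tE}) htO b0 hb0 hspan0
  have hτ0 : algebraMap A0 ↥(laurentBaseChange K0 (modularFunctionFieldFull M)) τ ≠ 0 := by
    intro h0
    have h1 : (τ : K0) = 0 := by
      have h2 : algebraMap K0 ↥(laurentBaseChange K0 (modularFunctionFieldFull M)) (τ : K0)
          = 0 := h0
      exact (map_eq_zero _).mp h2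
    exact hτ.ne_zero (Subtype.ext h1)
  have hcoe : ∀ y : ↥(laurentBaseChange K0 (modularFunctionFieldFull M)),
      ((α y : ↥(laurentBaseChange K0 (modularFunctionFieldFull (M * q)))) : LaurentSeries K0)
        = (y : LaurentSeries K0) := fun y => coe_heckeAlphaBar M q y
  have hmem : ∀ y : ↥(laurentBaseChange K0 (modularFunctionFieldFull M)),
      α y ∈ va2V1 M q K0 A0 ↔ y ∈ grO A0 hA0 M hM := by
    intro y
    rw [mem_va2V1, hcoe y]
    exact (hVGE y).symm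
  have hnon : ∀ y : ↥(laurentBaseChange K0 (modularFunctionFieldFull M)),
      α y ∈ (va2V1 M q K0 A0).nonunits ↔ y ∈ (grO A0 hA0 M hM).nonunits := by
    intro y
    rw [cinst_mem_nonunits_iff (va2V1 M q K0 A0) (mem_va2V1 M q K0 A0),
      cinst_mem_nonunits_iff (grO A0 hA0 M hM) hVGE, hcoe y]
  intro z hz
  obtain ⟨a', ha', hza⟩ := va2x_res_one M q hM K0 A0 hA0 (va2d_finrank K0 M hq.out hM) z hz
  obtain ⟨a, s, hs, has⟩ :=
    cz_frac1 τ (grO A0 hA0 M hM) (chtO A0 {tE}) hτV hτ0 hfrac hVO hVτ a' ha'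
  refine ⟨⟨α (a : ↥(laurentBaseChange K0 (modularFunctionFieldFull M))), cmi_map_mem α tE a.2⟩,
    ⟨α (s : ↥(laurentBaseChange K0 (modularFunctionFieldFull M))), cmi_map_mem α tE s.2⟩, ?_, ?_⟩
  · show α (s : ↥(laurentBaseChange K0 (modularFunctionFieldFull M))) ∉ _
    rw [hnon]
    intro h
    have h1 := (grO A0 hA0 M hM).mem_nonunits_iff.mp h
    rw [hs] at h1
    exact lt_irrefl _ h1
  · show z * α (s : ↥(laurentBaseChange K0 (modularFunctionFieldFull M))) -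
      α (a : ↥(laurentBaseChange K0 (modularFunctionFieldFull M))) ∈ _
    rw [← has, map_mul, ← sub_mul]
    exact cht_nonunits_mul (va2V1 M q K0 A0) hza ((hmem _).mpr (hVO _ s.2))

include hM in
/-- **HD3, global form**: for every valuation ring `W` of the level-`M q^2` field lying over
`V₁` through `α` with residue degree one (`W = W_a`, `W = W_c`), the component
`chtO A0 {t} ⧸ 𝔭`, `𝔭 = chtO A0 {t} ∩ 𝔪_W`, of the level-`M q^2` chart is a Dedekind domain. -/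
theorem s36cd_al_hD (ha2 : a2 ∣ M) (hA0 : A0.LiesOverPrime q)
    [Algebra A0 ↥(laurentBaseChange K0 (modularFunctionFieldFull (M * q * q)))]
    [IsScalarTower A0 K0 ↥(laurentBaseChange K0 (modularFunctionFieldFull (M * q * q)))]
    (c0 c1 : A0) (hc : IsLocalRing.residue A0 c0 ≠ IsLocalRing.residue A0 c1)
    (hSM : cinstSMChart K0 A0 M H (c0 : K0) (c1 : K0))
    (W : ValuationSubring ↥(laurentBaseChange K0 (modularFunctionFieldFull (M * q * q))))
    (hW : ∀ x : ↥(laurentBaseChange K0 (modularFunctionFieldFull (M * q))),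
      heckeAlphaBar K0 (M * q) q x ∈ W ↔ x ∈ va2V1 M q K0 A0)
    (hWres : ∀ x ∈ W, ∃ r ∈ va2V1 M q K0 A0, x - heckeAlphaBar K0 (M * q) q r ∈ W.nonunits)
    (t : ↥(laurentBaseChange K0 (modularFunctionFieldFull (M * q * q))))
    (ht : (t : LaurentSeries K0) = cinstU H K0 (c0 : K0) (c1 : K0))
    (τ : A0) (hτ : Irreducible τ)
    (𝔭 : Ideal ↥(chtO A0 {t}))
    (h𝔭 : ∀ x : ↥(chtO A0 {t}), x ∈ 𝔭 ↔
      (x : ↥(laurentBaseChange K0 (modularFunctionFieldFull (M * q * q)))) ∈ W.nonunits) :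
    IsDedekindDomain (↥(chtO A0 {t}) ⧸ 𝔭) := by
  classical
  let algE : Algebra A0 ↥(laurentBaseChange K0 (modularFunctionFieldFull (M * q))) :=
    ((algebraMap K0 ↥(laurentBaseChange K0 (modularFunctionFieldFull (M * q)))).comp
      A0.subtype).toAlgebra
  have towE : IsScalarTower A0 K0 ↥(laurentBaseChange K0 (modularFunctionFieldFull (M * q))) :=
    IsScalarTower.of_algebraMap_eq (fun _ => rfl)
  set t1 : ↥(laurentBaseChange K0 (modularFunctionFieldFull (M * q))) :=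
    ⟨cinstU H K0 (c0 : K0) (c1 : K0), cinstU_mem H K0 (Dvd.dvd.mul_right ha2 q) _ _⟩ with ht1
  let α : ↥(laurentBaseChange K0 (modularFunctionFieldFull (M * q))) →ₐ[A0]
      ↥(laurentBaseChange K0 (modularFunctionFieldFull (M * q * q))) :=
    (heckeAlphaBar K0 (M * q) q).restrictScalars A0
  have hαt : α t1 = t := Subtype.ext ((coe_heckeAlphaBar (M * q) q t1).trans ht.symm)
  subst hαt
  have hVG : ∀ x : ↥(laurentBaseChange K0 (modularFunctionFieldFull (M * q))),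
      x ∈ va2V1 M q K0 A0 ↔ (x : LaurentSeries K0) ∈ grV A0 := fun x => Iff.rfl
  obtain ⟨hA, -, -, -, htV, -, -, -, -⟩ :=
    c2i_hyps A0 (M * q) H (va2V1 M q K0 A0) hVG c0 c1 hc t1 rfl τ hτ
  have hVE : ∀ x ∈ chtO A0 {t1}, x ∈ va2V1 M q K0 A0 := fun x hx =>
    cht_le_valuationSubring (va2V1 M q K0 A0) hA (s := {t1}) (by rintro y rfl; exact htV) hx
  obtain ⟨𝔭', h𝔭'⟩ := s35ip_exists_p (chtO A0 {t1}) (va2V1 M q K0 A0) hVE
  have hD : IsDedekindDomain (↥(chtO A0 {t1}) ⧸ 𝔭') :=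
    cmi_hD M q hM K0 A0 H ha2 hA0 c0 c1 hc hSM t1 rfl τ hτ 𝔭' h𝔭'
  have hAW : ∀ a : A0,
      algebraMap A0 ↥(laurentBaseChange K0 (modularFunctionFieldFull (M * q * q))) a ∈ W := by
    intro a
    rw [← α.commutes a]
    exact (hW _).mpr (hA a)
  exact s36cd_hD_abs α t1 (va2V1 M q K0 A0) W (fun y => hW y) hAW ((hW _).mpr htV) hVE 𝔭' h𝔭'
    (s36cd_rfrac_V1 M q hM K0 A0 H ha2 hA0 c0 c1 hc t1 rfl τ hτ) hWres 𝔭 h𝔭

include hM in
/-- **The residue field of `W` is generated by the level-`M q^2` chart** (residue form of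
(FRAC)), for `W` over `V₁` through `α` with residue degree one. -/
theorem s36cd_al_rfrac (ha2 : a2 ∣ M) (hA0 : A0.LiesOverPrime q)
    [Algebra A0 ↥(laurentBaseChange K0 (modularFunctionFieldFull (M * q * q)))]
    [IsScalarTower A0 K0 ↥(laurentBaseChange K0 (modularFunctionFieldFull (M * q * q)))]
    (c0 c1 : A0) (hc : IsLocalRing.residue A0 c0 ≠ IsLocalRing.residue A0 c1)
    (W : ValuationSubring ↥(laurentBaseChange K0 (modularFunctionFieldFull (M * q * q))))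
    (hW : ∀ x : ↥(laurentBaseChange K0 (modularFunctionFieldFull (M * q))),
      heckeAlphaBar K0 (M * q) q x ∈ W ↔ x ∈ va2V1 M q K0 A0)
    (hWres : ∀ x ∈ W, ∃ r ∈ va2V1 M q K0 A0, x - heckeAlphaBar K0 (M * q) q r ∈ W.nonunits)
    (t : ↥(laurentBaseChange K0 (modularFunctionFieldFull (M * q * q))))
    (ht : (t : LaurentSeries K0) = cinstU H K0 (c0 : K0) (c1 : K0))
    (τ : A0) (hτ : Irreducible τ) :
    ∀ z ∈ W, ∃ a s : ↥(chtO A0 {t}),
      (s : ↥(laurentBaseChange K0 (modularFunctionFieldFull (M * q * q)))) ∉ W.nonunits ∧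
      z * (s : ↥(laurentBaseChange K0 (modularFunctionFieldFull (M * q * q)))) -
        (a : ↥(laurentBaseChange K0 (modularFunctionFieldFull (M * q * q)))) ∈ W.nonunits := by
  classical
  let algE : Algebra A0 ↥(laurentBaseChange K0 (modularFunctionFieldFull (M * q))) :=
    ((algebraMap K0 ↥(laurentBaseChange K0 (modularFunctionFieldFull (M * q)))).comp
      A0.subtype).toAlgebra
  have towE : IsScalarTower A0 K0 ↥(laurentBaseChange K0 (modularFunctionFieldFull (M * q))) :=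
    IsScalarTower.of_algebraMap_eq (fun _ => rfl)
  set t1 : ↥(laurentBaseChange K0 (modularFunctionFieldFull (M * q))) :=
    ⟨cinstU H K0 (c0 : K0) (c1 : K0), cinstU_mem H K0 (Dvd.dvd.mul_right ha2 q) _ _⟩ with ht1
  let α : ↥(laurentBaseChange K0 (modularFunctionFieldFull (M * q))) →ₐ[A0]
      ↥(laurentBaseChange K0 (modularFunctionFieldFull (M * q * q))) :=
    (heckeAlphaBar K0 (M * q) q).restrictScalars A0
  have hαt : α t1 = t := Subtype.ext ((coe_heckeAlphaBar (M * q) q t1).trans ht.symm)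
  subst hαt
  have hVG : ∀ x : ↥(laurentBaseChange K0 (modularFunctionFieldFull (M * q))),
      x ∈ va2V1 M q K0 A0 ↔ (x : LaurentSeries K0) ∈ grV A0 := fun x => Iff.rfl
  obtain ⟨hA, -, -, -, htV, -, -, -, -⟩ :=
    c2i_hyps A0 (M * q) H (va2V1 M q K0 A0) hVG c0 c1 hc t1 rfl τ hτ
  have hVE : ∀ x ∈ chtO A0 {t1}, x ∈ va2V1 M q K0 A0 := fun x hx =>
    cht_le_valuationSubring (va2V1 M q K0 A0) hA (s := {t1}) (by rintro y rfl; exact htV) hx
  have hnon : ∀ y : ↥(laurentBaseChange K0 (modularFunctionFieldFull (M * q))),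
      α y ∈ W.nonunits ↔ y ∈ (va2V1 M q K0 A0).nonunits :=
    fun y => s36cd_nonunits_iff (α : _ →+* _) (va2V1 M q K0 A0) W (fun y => hW y) y
  intro z hz
  obtain ⟨r, hr, hzr⟩ := hWres z hz
  obtain ⟨a, s, hs, has⟩ := s36cd_rfrac_V1 M q hM K0 A0 H ha2 hA0 c0 c1 hc t1 rfl τ hτ r hr
  refine ⟨⟨α (a : ↥(laurentBaseChange K0 (modularFunctionFieldFull (M * q)))),
      cmi_map_mem α t1 a.2⟩,
    ⟨α (s : ↥(laurentBaseChange K0 (modularFunctionFieldFull (M * q)))),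
      cmi_map_mem α t1 s.2⟩, ?_, ?_⟩
  · show α (s : ↥(laurentBaseChange K0 (modularFunctionFieldFull (M * q)))) ∉ _
    rw [hnon]
    exact hs
  · show z * α (s : ↥(laurentBaseChange K0 (modularFunctionFieldFull (M * q)))) -
      α (a : ↥(laurentBaseChange K0 (modularFunctionFieldFull (M * q)))) ∈ _
    have e1 : z * α (s : ↥(laurentBaseChange K0 (modularFunctionFieldFull (M * q)))) -
        α (a : ↥(laurentBaseChange K0 (modularFunctionFieldFull (M * q)))) =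
        (z - α r) * α (s : ↥(laurentBaseChange K0 (modularFunctionFieldFull (M * q)))) +
          α (r * (s : ↥(laurentBaseChange K0 (modularFunctionFieldFull (M * q)))) -
            (a : ↥(laurentBaseChange K0 (modularFunctionFieldFull (M * q))))) := by
      rw [map_sub, map_mul]
      ring
    rw [e1]
    exact W.nonunits.add_mem (cpl_nu_mul W hzr ((hW _).mpr (hVE _ s.2))) ((hnon _).mpr has)

include hM in
/-- **HD3, `S35IC` form**: at every prime `𝔫` of the level-`M q^2` chart on the component of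
`W` (over `V₁` through `α`, residue degree one: `W = W_a`, `W = W_c`), an `m`-th root modulo
`𝔪_W` of a unit of `O_𝔫` is a function of `O_𝔫` modulo `𝔪_W`. -/
theorem s36cd_al_ic (ha2 : a2 ∣ M) (hA0 : A0.LiesOverPrime q)
    [Algebra A0 ↥(laurentBaseChange K0 (modularFunctionFieldFull (M * q * q)))]
    [IsScalarTower A0 K0 ↥(laurentBaseChange K0 (modularFunctionFieldFull (M * q * q)))]
    (c0 c1 : A0) (hc : IsLocalRing.residue A0 c0 ≠ IsLocalRing.residue A0 c1)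
    (hSM : cinstSMChart K0 A0 M H (c0 : K0) (c1 : K0))
    (W : ValuationSubring ↥(laurentBaseChange K0 (modularFunctionFieldFull (M * q * q))))
    (hW : ∀ x : ↥(laurentBaseChange K0 (modularFunctionFieldFull (M * q))),
      heckeAlphaBar K0 (M * q) q x ∈ W ↔ x ∈ va2V1 M q K0 A0)
    (hWres : ∀ x ∈ W, ∃ r ∈ va2V1 M q K0 A0, x - heckeAlphaBar K0 (M * q) q r ∈ W.nonunits)
    (t : ↥(laurentBaseChange K0 (modularFunctionFieldFull (M * q * q))))
    (ht : (t : LaurentSeries K0) = cinstU H K0 (c0 : K0) (c1 : K0))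
    (τ : A0) (hτ : Irreducible τ)
    (𝔫 : Ideal ↥(chtO A0 {t})) [𝔫.IsPrime]
    (hp𝔫 : ∀ x : ↥(chtO A0 {t}),
      (x : ↥(laurentBaseChange K0 (modularFunctionFieldFull (M * q * q)))) ∈ W.nonunits → x ∈ 𝔫)
    (m : ℕ) (hm : 0 < m) : S35IC m (chtO A0 {t}) 𝔫 W := by
  classical
  have hVG : ∀ x : ↥(laurentBaseChange K0 (modularFunctionFieldFull (M * q))),
      x ∈ va2V1 M q K0 A0 ↔ (x : LaurentSeries K0) ∈ grV A0 := fun x => Iff.rfl
  have hOW : ∀ x ∈ chtO A0 {t}, x ∈ W := by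
    let algE : Algebra A0 ↥(laurentBaseChange K0 (modularFunctionFieldFull (M * q))) :=
      ((algebraMap K0 ↥(laurentBaseChange K0 (modularFunctionFieldFull (M * q)))).comp
        A0.subtype).toAlgebra
    have towE : IsScalarTower A0 K0 ↥(laurentBaseChange K0 (modularFunctionFieldFull (M * q))) :=
      IsScalarTower.of_algebraMap_eq (fun _ => rfl)
    set t1 : ↥(laurentBaseChange K0 (modularFunctionFieldFull (M * q))) :=
      ⟨cinstU H K0 (c0 : K0) (c1 : K0), cinstU_mem H K0 (Dvd.dvd.mul_right ha2 q) _ _⟩ with ht1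
    let α : ↥(laurentBaseChange K0 (modularFunctionFieldFull (M * q))) →ₐ[A0]
        ↥(laurentBaseChange K0 (modularFunctionFieldFull (M * q * q))) :=
      (heckeAlphaBar K0 (M * q) q).restrictScalars A0
    have hαt : α t1 = t := Subtype.ext ((coe_heckeAlphaBar (M * q) q t1).trans ht.symm)
    obtain ⟨hA, -, -, -, htV, -, -, -, -⟩ :=
      c2i_hyps A0 (M * q) H (va2V1 M q K0 A0) hVG c0 c1 hc t1 rfl τ hτ
    have hAW : ∀ a : A0,
        algebraMap A0 ↥(laurentBaseChange K0 (modularFunctionFieldFull (M * q * q))) a ∈ W := by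
      intro a
      rw [← α.commutes a]
      exact (hW _).mpr (hA a)
    have htW : t ∈ W := by
      rw [← hαt]
      exact (hW _).mpr htV
    exact fun x hx => cht_le_valuationSubring W hAW (s := {t}) (by rintro y rfl; exact htW) hx
  obtain ⟨𝔭, h𝔭⟩ := s35ip_exists_p (chtO A0 {t}) W hOW
  have hD : IsDedekindDomain (↥(chtO A0 {t}) ⧸ 𝔭) :=
    s36cd_al_hD M q hM K0 A0 H ha2 hA0 c0 c1 hc hSM W hW hWres t ht τ hτ 𝔭 h𝔭
  exact s36cd_ic_ded (chtO A0 {t}) 𝔫 W hOW 𝔭 h𝔭 (fun x hx => hp𝔫 x ((h𝔭 x).mp hx))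
    (s36cd_al_rfrac M q hM K0 A0 H ha2 hA0 c0 c1 hc W hW hWres t ht τ hτ) m hm

include hM in
/-- `s36cd_al_hD` for the chart `chtO A0 {t⁻¹}`. -/
theorem s36cd_al_hD_inv (ha2 : a2 ∣ M) (hA0 : A0.LiesOverPrime q)
    [Algebra A0 ↥(laurentBaseChange K0 (modularFunctionFieldFull (M * q * q)))]
    [IsScalarTower A0 K0 ↥(laurentBaseChange K0 (modularFunctionFieldFull (M * q * q)))]
    (c0 c1 : A0) (hc : IsLocalRing.residue A0 c0 ≠ IsLocalRing.residue A0 c1)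
    (hSM : cinstSMChart K0 A0 M H (c1 : K0) (c0 : K0))
    (W : ValuationSubring ↥(laurentBaseChange K0 (modularFunctionFieldFull (M * q * q))))
    (hW : ∀ x : ↥(laurentBaseChange K0 (modularFunctionFieldFull (M * q))),
      heckeAlphaBar K0 (M * q) q x ∈ W ↔ x ∈ va2V1 M q K0 A0)
    (hWres : ∀ x ∈ W, ∃ r ∈ va2V1 M q K0 A0, x - heckeAlphaBar K0 (M * q) q r ∈ W.nonunits)
    (t : ↥(laurentBaseChange K0 (modularFunctionFieldFull (M * q * q))))
    (ht : (t : LaurentSeries K0) = cinstU H K0 (c0 : K0) (c1 : K0))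
    (τ : A0) (hτ : Irreducible τ)
    (𝔭 : Ideal ↥(chtO A0 {t⁻¹}))
    (h𝔭 : ∀ x : ↥(chtO A0 {t⁻¹}), x ∈ 𝔭 ↔
      (x : ↥(laurentBaseChange K0 (modularFunctionFieldFull (M * q * q)))) ∈ W.nonunits) :
    IsDedekindDomain (↥(chtO A0 {t⁻¹}) ⧸ 𝔭) := by
  have ht' : ((t⁻¹ : ↥(laurentBaseChange K0 (modularFunctionFieldFull (M * q * q)))) :
      LaurentSeries K0) = cinstU H K0 (c1 : K0) (c0 : K0) := by
    rw [IntermediateField.coe_inv, ht, cinstU_inv]
  exact s36cd_al_hD M q hM K0 A0 H ha2 hA0 c1 c0 (fun h => hc h.symm) hSM W hW hWres t⁻¹ ht'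
    τ hτ 𝔭 h𝔭

include hM in
/-- `s36cd_al_ic` for the chart `chtO A0 {t⁻¹}`. -/
theorem s36cd_al_ic_inv (ha2 : a2 ∣ M) (hA0 : A0.LiesOverPrime q)
    [Algebra A0 ↥(laurentBaseChange K0 (modularFunctionFieldFull (M * q * q)))]
    [IsScalarTower A0 K0 ↥(laurentBaseChange K0 (modularFunctionFieldFull (M * q * q)))]
    (c0 c1 : A0) (hc : IsLocalRing.residue A0 c0 ≠ IsLocalRing.residue A0 c1)
    (hSM : cinstSMChart K0 A0 M H (c1 : K0) (c0 : K0))
    (W : ValuationSubring ↥(laurentBaseChange K0 (modularFunctionFieldFull (M * q * q))))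
    (hW : ∀ x : ↥(laurentBaseChange K0 (modularFunctionFieldFull (M * q))),
      heckeAlphaBar K0 (M * q) q x ∈ W ↔ x ∈ va2V1 M q K0 A0)
    (hWres : ∀ x ∈ W, ∃ r ∈ va2V1 M q K0 A0, x - heckeAlphaBar K0 (M * q) q r ∈ W.nonunits)
    (t : ↥(laurentBaseChange K0 (modularFunctionFieldFull (M * q * q))))
    (ht : (t : LaurentSeries K0) = cinstU H K0 (c0 : K0) (c1 : K0))
    (τ : A0) (hτ : Irreducible τ)
    (𝔫 : Ideal ↥(chtO A0 {t⁻¹})) [𝔫.IsPrime]
    (hp𝔫 : ∀ x : ↥(chtO A0 {t⁻¹}),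
      (x : ↥(laurentBaseChange K0 (modularFunctionFieldFull (M * q * q)))) ∈ W.nonunits → x ∈ 𝔫)
    (m : ℕ) (hm : 0 < m) : S35IC m (chtO A0 {t⁻¹}) 𝔫 W := by
  have ht' : ((t⁻¹ : ↥(laurentBaseChange K0 (modularFunctionFieldFull (M * q * q)))) :
      LaurentSeries K0) = cinstU H K0 (c1 : K0) (c0 : K0) := by
    rw [IntermediateField.coe_inv, ht, cinstU_inv]
  exact s36cd_al_ic M q hM K0 A0 H ha2 hA0 c1 c0 (fun h => hc h.symm) hSM W hW hWres t⁻¹ ht'
    τ hτ 𝔫 hp𝔫 m hm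

/-! ### The Gauss component `W_a = va2V1 (M * q) q K0 A0` -/

omit [Algebra K0 Qb] in
/-- the table entry `(α, W_a)`: `W_a` lies over `V₁` through `α` -/
theorem s36cd_al_Wa (x : ↥(laurentBaseChange K0 (modularFunctionFieldFull (M * q)))) :
    heckeAlphaBar K0 (M * q) q x ∈ va2V1 (M * q) q K0 A0 ↔ x ∈ va2V1 M q K0 A0 := by
  rw [mem_va2V1, mem_va2V1, coe_heckeAlphaBar]

include hM in
/-- **HD3 for `W_a`**: the Gauss component of the level-`M q^2` chart is Dedekind. -/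
theorem s36cd_Wa_hD (ha2 : a2 ∣ M) (hA0 : A0.LiesOverPrime q)
    [Algebra A0 ↥(laurentBaseChange K0 (modularFunctionFieldFull (M * q * q)))]
    [IsScalarTower A0 K0 ↥(laurentBaseChange K0 (modularFunctionFieldFull (M * q * q)))]
    (c0 c1 : A0) (hc : IsLocalRing.residue A0 c0 ≠ IsLocalRing.residue A0 c1)
    (hSM : cinstSMChart K0 A0 M H (c0 : K0) (c1 : K0))
    (t : ↥(laurentBaseChange K0 (modularFunctionFieldFull (M * q * q))))
    (ht : (t : LaurentSeries K0) = cinstU H K0 (c0 : K0) (c1 : K0))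
    (τ : A0) (hτ : Irreducible τ)
    (𝔭 : Ideal ↥(chtO A0 {t}))
    (h𝔭 : ∀ x : ↥(chtO A0 {t}), x ∈ 𝔭 ↔
      (x : ↥(laurentBaseChange K0 (modularFunctionFieldFull (M * q * q)))) ∈
        (va2V1 (M * q) q K0 A0).nonunits) :
    IsDedekindDomain (↥(chtO A0 {t}) ⧸ 𝔭) :=
  s36cd_al_hD M q hM K0 A0 H ha2 hA0 c0 c1 hc hSM (va2V1 (M * q) q K0 A0)
    (s36cd_al_Wa M q K0 A0) (s36vi_res_al_Wa M q hM K0 A0 hA0) t ht τ hτ 𝔭 h𝔭

include hM in
/-- `s36cd_Wa_hD` for the chart `chtO A0 {t⁻¹}`. -/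
theorem s36cd_Wa_hD_inv (ha2 : a2 ∣ M) (hA0 : A0.LiesOverPrime q)
    [Algebra A0 ↥(laurentBaseChange K0 (modularFunctionFieldFull (M * q * q)))]
    [IsScalarTower A0 K0 ↥(laurentBaseChange K0 (modularFunctionFieldFull (M * q * q)))]
    (c0 c1 : A0) (hc : IsLocalRing.residue A0 c0 ≠ IsLocalRing.residue A0 c1)
    (hSM : cinstSMChart K0 A0 M H (c1 : K0) (c0 : K0))
    (t : ↥(laurentBaseChange K0 (modularFunctionFieldFull (M * q * q))))
    (ht : (t : LaurentSeries K0) = cinstU H K0 (c0 : K0) (c1 : K0))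
    (τ : A0) (hτ : Irreducible τ)
    (𝔭 : Ideal ↥(chtO A0 {t⁻¹}))
    (h𝔭 : ∀ x : ↥(chtO A0 {t⁻¹}), x ∈ 𝔭 ↔
      (x : ↥(laurentBaseChange K0 (modularFunctionFieldFull (M * q * q)))) ∈
        (va2V1 (M * q) q K0 A0).nonunits) :
    IsDedekindDomain (↥(chtO A0 {t⁻¹}) ⧸ 𝔭) :=
  s36cd_al_hD_inv M q hM K0 A0 H ha2 hA0 c0 c1 hc hSM (va2V1 (M * q) q K0 A0)
    (s36cd_al_Wa M q K0 A0) (s36vi_res_al_Wa M q hM K0 A0 hA0) t ht τ hτ 𝔭 h𝔭

include hM in
/-- **HD3 for `W_a`, `S35IC` form.** -/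
theorem s36cd_Wa_ic (ha2 : a2 ∣ M) (hA0 : A0.LiesOverPrime q)
    [Algebra A0 ↥(laurentBaseChange K0 (modularFunctionFieldFull (M * q * q)))]
    [IsScalarTower A0 K0 ↥(laurentBaseChange K0 (modularFunctionFieldFull (M * q * q)))]
    (c0 c1 : A0) (hc : IsLocalRing.residue A0 c0 ≠ IsLocalRing.residue A0 c1)
    (hSM : cinstSMChart K0 A0 M H (c0 : K0) (c1 : K0))
    (t : ↥(laurentBaseChange K0 (modularFunctionFieldFull (M * q * q))))
    (ht : (t : LaurentSeries K0) = cinstU H K0 (c0 : K0) (c1 : K0))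
    (τ : A0) (hτ : Irreducible τ)
    (𝔫 : Ideal ↥(chtO A0 {t})) [𝔫.IsPrime]
    (hp𝔫 : ∀ x : ↥(chtO A0 {t}),
      (x : ↥(laurentBaseChange K0 (modularFunctionFieldFull (M * q * q)))) ∈
        (va2V1 (M * q) q K0 A0).nonunits → x ∈ 𝔫)
    (m : ℕ) (hm : 0 < m) : S35IC m (chtO A0 {t}) 𝔫 (va2V1 (M * q) q K0 A0) :=
  s36cd_al_ic M q hM K0 A0 H ha2 hA0 c0 c1 hc hSM (va2V1 (M * q) q K0 A0)
    (s36cd_al_Wa M q K0 A0) (s36vi_res_al_Wa M q hM K0 A0 hA0) t ht τ hτ 𝔫 hp𝔫 m hm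

include hM in
/-- `s36cd_Wa_ic` for the chart `chtO A0 {t⁻¹}`. -/
theorem s36cd_Wa_ic_inv (ha2 : a2 ∣ M) (hA0 : A0.LiesOverPrime q)
    [Algebra A0 ↥(laurentBaseChange K0 (modularFunctionFieldFull (M * q * q)))]
    [IsScalarTower A0 K0 ↥(laurentBaseChange K0 (modularFunctionFieldFull (M * q * q)))]
    (c0 c1 : A0) (hc : IsLocalRing.residue A0 c0 ≠ IsLocalRing.residue A0 c1)
    (hSM : cinstSMChart K0 A0 M H (c1 : K0) (c0 : K0))
    (t : ↥(laurentBaseChange K0 (modularFunctionFieldFull (M * q * q))))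
    (ht : (t : LaurentSeries K0) = cinstU H K0 (c0 : K0) (c1 : K0))
    (τ : A0) (hτ : Irreducible τ)
    (𝔫 : Ideal ↥(chtO A0 {t⁻¹})) [𝔫.IsPrime]
    (hp𝔫 : ∀ x : ↥(chtO A0 {t⁻¹}),
      (x : ↥(laurentBaseChange K0 (modularFunctionFieldFull (M * q * q)))) ∈
        (va2V1 (M * q) q K0 A0).nonunits → x ∈ 𝔫)
    (m : ℕ) (hm : 0 < m) : S35IC m (chtO A0 {t⁻¹}) 𝔫 (va2V1 (M * q) q K0 A0) :=
  s36cd_al_ic_inv M q hM K0 A0 H ha2 hA0 c0 c1 hc hSM (va2V1 (M * q) q K0 A0)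
    (s36cd_al_Wa M q K0 A0) (s36vi_res_al_Wa M q hM K0 A0 hA0) t ht τ hτ 𝔫 hp𝔫 m hm

end Inst

end Fermat.Agent.S36
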