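import Mathlib
import Fermat.Agent.S35.LocICPt
import Fermat.Agent.S36.WcPoint
import Fermat.Agent.S36.LocUnit3
import Fermat.Agent.S36.DatOne

/-!
# S36, leaf ONE-AB: closed points lying on ONE reduced component of a three-component model

Setting: a noetherian integrally closed chart `O` of the function field `F` with three vertical
valuation rings `W₁`, `W₂`, `W₃ ⊇ O` (chart binders of `s36wc_loc3` and `s36u3_main3`), `τ` a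
uniformiser of `W₁` (`hdec`), the coordinate ring of the component `W₁` Dedekind (`hD`), and a
closed point `𝔫` on `W₁` which the other two components miss.  "`Wᵢ` misses `𝔫`" is used in the
archimedean form of `s36u3_main3` (`∃ X ∈ O ∖ 𝔫, ∀ z, ∃ N, z * X ^ N ∈ Wᵢ`); `s36oi_off` gives
it from discreteness of `Wᵢ` and "`Wᵢ` does not pass through `𝔫`".

* `s36oi_gen_of_dec`: a uniformiser in the `hdec` form generates the maximal ideal.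
* `s36oi_off`: the archimedean form of "`V` misses `𝔫`".
* `s36oi_frac`: (FRAC) `W₁` is the local ring of the chart at the generic point of its component.
* `s36oi_ic`: `S35IC m O 𝔫 W₁` (the branch ring at `𝔫` is closed under `m`-th roots of units).
* `s36oi_unit`: `S35Unit m O 𝔫 f` for every `f ≠ 0` with `hord` which is a unit of `W₁`.
* `s36oi_one`: both together (the one-component clause of the point classification).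
* `s36oi_dat`: the local datum of the blueprint (written out, conclusion of `s36do_dat_one`) for
  every `W` with `hord` and `W ≡ 1` on `W₁`.
* `s36oi_one'`, `s36oi_dat'`: the same with "misses `𝔫`" in the plain form.
-/

set_option autoImplicit false
set_option linter.unusedSectionVars false
set_option linter.unusedVariables false

namespace Fermat.Agent.S36

open Fermat.Agent.S18 Fermat.Agent.S34 Fermat.Agent.S35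

section OneInst

variable {A F : Type*} [CommRing A] [Field F] [Algebra A F]

/-- The archimedean property is monotone in the exponent. -/
theorem s36oi_arch_mono (V : ValuationSubring F) (X : F) (hX : X ∈ V) (z : F) {N M : ℕ}
    (h : N ≤ M) (hz : z * X ^ N ∈ V) : z * X ^ M ∈ V := by
  obtain ⟨k, rfl⟩ := Nat.exists_eq_add_of_le h
  rw [pow_add, ← mul_assoc]
  exact V.mul_mem _ _ hz (pow_mem hX k)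

/-- An element killing a proper valuation ring is a nonunit of it. -/
theorem s36oi_arch_nu (V : ValuationSubring F) (hVtop : V ≠ ⊤) (X : F)
    (harch : ∀ z : F, ∃ N : ℕ, z * X ^ N ∈ V) : X ∈ V.nonunits := by
  rw [ValuationSubring.mem_nonunits_iff_or]
  by_contra hcon
  rw [not_or, not_not] at hcon
  obtain ⟨hX0, hXinv⟩ := hcon
  apply hVtop
  rw [eq_top_iff]
  intro z _
  obtain ⟨N, hN⟩ := harch z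
  have e : z = z * X ^ N * (X⁻¹) ^ N := by
    have h1 : X ^ N * (X⁻¹) ^ N = 1 := by rw [← mul_pow, mul_inv_cancel₀ hX0, one_pow]
    rw [mul_assoc, h1, mul_one]
  rw [e]
  exact V.mul_mem _ _ hN (pow_mem hXinv N)

/-- A uniformiser in the `hdec` form generates the maximal ideal. -/
theorem s36oi_gen_of_dec (V : ValuationSubring F) (ϖ : F) (hϖ : ϖ ∈ V) (hϖ0 : ϖ ≠ 0)
    (hdec : ∀ z : F, z ≠ 0 → ∃ j : ℤ, z * ϖ ^ j ∈ V ∧ (z * ϖ ^ j)⁻¹ ∈ V) :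
    ∀ x ∈ V.nonunits, x * ϖ⁻¹ ∈ V := by
  intro x hx
  by_cases hx0 : x = 0
  · rw [hx0, zero_mul]
    exact V.zero_mem
  obtain ⟨j, hj, hj'⟩ := hdec x hx0
  rcases j with n | n
  · exfalso
    rw [Int.ofNat_eq_natCast, zpow_natCast] at hj hj'
    exact s35i_not_nu_of_inv V (mul_ne_zero hx0 (pow_ne_zero n hϖ0)) hj'
      (cpl_nu_mul V hx (pow_mem hϖ n))
  · rw [zpow_negSucc] at hj
    have e : x * ϖ⁻¹ = x * (ϖ ^ (n + 1))⁻¹ * ϖ ^ n := by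
      rw [pow_succ]
      field_simp
    rw [e]
    exact V.mul_mem _ _ hj (pow_mem hϖ n)

/-- "`V` misses `𝔫`" in the archimedean form, from discreteness of `V`. -/
theorem s36oi_off (O : Subalgebra A F) (𝔫 : Ideal ↥O) (V : ValuationSubring F)
    (ϖ : F) (hϖ : ϖ ∈ V) (hϖ0 : ϖ ≠ 0)
    (hdec : ∀ z : F, z ≠ 0 → ∃ j : ℤ, z * ϖ ^ j ∈ V ∧ (z * ϖ ^ j)⁻¹ ∈ V)
    (hmiss : ¬ ∀ x : ↥O, (x : F) ∈ V.nonunits → x ∈ 𝔫) :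
    ∃ X : ↥O, X ∉ 𝔫 ∧ ∀ z : F, ∃ N : ℕ, z * (X : F) ^ N ∈ V := by
  rw [not_forall] at hmiss
  obtain ⟨X, hX⟩ := hmiss
  rw [Classical.not_imp] at hX
  refine ⟨X, hX.2, fun z => s36u3_arch V ϖ hϖ hϖ0 hdec 1 (X : F) ?_ z⟩
  rw [pow_one]
  exact s36oi_gen_of_dec V ϖ hϖ hϖ0 hdec _ hX.1

/-- (FRAC) for `W₁`: every `z ∈ W₁` is `a / s` with `a, s ∈ O`, `s` a unit of `W₁`, as soon as
some `X ∈ O`, a unit of `W₁`, kills the other two valuations. -/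
theorem s36oi_frac (τ : A) (hτ0 : algebraMap A F τ ≠ 0) (O : Subalgebra A F)
    (hfrac : ∀ x : F, ∃ a ∈ O, ∃ s ∈ O, s ≠ 0 ∧ x * s = a)
    (W₁ W₂ W₃ : ValuationSubring F)
    (hO₁ : ∀ y ∈ O, y ∈ W₁) (hO₂ : ∀ y ∈ O, y ∈ W₂) (hO₃ : ∀ y ∈ O, y ∈ W₃)
    (hdiv : ∀ x ∈ O, x * (algebraMap A F τ)⁻¹ ∈ W₁ → x * (algebraMap A F τ)⁻¹ ∈ W₂ →
      x * (algebraMap A F τ)⁻¹ ∈ W₃ → x * (algebraMap A F τ)⁻¹ ∈ O)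
    (hτW : algebraMap A F τ ∈ W₁.nonunits)
    (hdec : ∀ z : F, z ≠ 0 → ∃ j : ℤ, z * algebraMap A F τ ^ j ∈ W₁ ∧
      (z * algebraMap A F τ ^ j)⁻¹ ∈ W₁)
    (X : ↥O) (hX₁ : (X : F) ∉ W₁.nonunits)
    (hX₂ : ∀ z : F, ∃ N : ℕ, z * (X : F) ^ N ∈ W₂)
    (hX₃ : ∀ z : F, ∃ N : ℕ, z * (X : F) ^ N ∈ W₃)
    (z : F) (hz : z ∈ W₁) :
    ∃ a s : ↥O, (s : F) ∉ W₁.nonunits ∧ z * (s : F) = (a : F) := by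
  classical
  obtain ⟨a, ha, b, hb, hb0, hzb⟩ := hfrac z
  obtain ⟨j, hj, hj'⟩ := hdec b hb0
  have hτpow : ∀ n : ℕ, algebraMap A F τ ^ (n + 1) ∈ W₁.nonunits := by
    intro n
    rw [pow_succ']
    exact cpl_nu_mul W₁ hτW (W₁.pow_mem (ValuationSubring.nonunits_subset hτW) n)
  have hjle : j ≤ 0 := by
    by_contra hcon
    have hcon' : 0 < j := not_le.mp hcon
    obtain ⟨k, hk⟩ : ∃ k : ℕ, j = (k : ℤ) + 1 := ⟨(j - 1).toNat, by omega⟩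
    have h1 : b * algebraMap A F τ ^ j ∈ W₁.nonunits := by
      rw [hk, zpow_add_one₀ hτ0, zpow_natCast, ← pow_succ, mul_comm]
      exact cpl_nu_mul W₁ (hτpow k) (hO₁ _ hb)
    exact s35i_not_nu_of_inv W₁ (mul_ne_zero hb0 (zpow_ne_zero _ hτ0)) hj' h1
  obtain ⟨n, hn⟩ : ∃ n : ℕ, j = -(n : ℤ) := ⟨(-j).toNat, by omega⟩
  rw [hn, zpow_neg, zpow_natCast, ← inv_pow] at hj hj'
  obtain ⟨Nb₂, hNb₂⟩ := hX₂ (b * (algebraMap A F τ)⁻¹ ^ n)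
  obtain ⟨Nb₃, hNb₃⟩ := hX₃ (b * (algebraMap A F τ)⁻¹ ^ n)
  obtain ⟨Na₂, hNa₂⟩ := hX₂ (a * (algebraMap A F τ)⁻¹ ^ n)
  obtain ⟨Na₃, hNa₃⟩ := hX₃ (a * (algebraMap A F τ)⁻¹ ^ n)
  obtain ⟨N, hN1, hN2, hN3, hN4⟩ : ∃ N : ℕ, Nb₂ ≤ N ∧ Nb₃ ≤ N ∧ Na₂ ≤ N ∧ Na₃ ≤ N :=
    ⟨Nb₂ + Nb₃ + Na₂ + Na₃, by omega, by omega, by omega, by omega⟩
  have hXV₁ : (X : F) ∈ W₁ := hO₁ _ X.2
  have hXV₂ : (X : F) ∈ W₂ := hO₂ _ X.2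
  have hXV₃ : (X : F) ∈ W₃ := hO₃ _ X.2
  have hOV : ∀ V ∈ ({W₁, W₂, W₃} : Finset (ValuationSubring F)), ∀ x ∈ O, x ∈ V := by
    intro V hV
    rcases (by simpa using hV : V = W₁ ∨ V = W₂ ∨ V = W₃) with h | h | h
    · rw [h]; exact hO₁
    · rw [h]; exact hO₂
    · rw [h]; exact hO₃
  have hdivS : ∀ x ∈ O, (∀ V ∈ ({W₁, W₂, W₃} : Finset (ValuationSubring F)),
      x * (algebraMap A F τ)⁻¹ ∈ V) → x * (algebraMap A F τ)⁻¹ ∈ O := by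
    intro x hx h
    exact hdiv x hx (h W₁ (by simp)) (h W₂ (by simp)) (h W₃ (by simp))
  have hdivpow := s36u3_div_pow τ O {W₁, W₂, W₃} hOV hdivS n
  have eb : b * (X : F) ^ N * (algebraMap A F τ)⁻¹ ^ n =
      b * (algebraMap A F τ)⁻¹ ^ n * (X : F) ^ N := by ring
  have ea : a * (X : F) ^ N * (algebraMap A F τ)⁻¹ ^ n =
      a * (algebraMap A F τ)⁻¹ ^ n * (X : F) ^ N := by ring
  have ea' : a * (algebraMap A F τ)⁻¹ ^ n = z * (b * (algebraMap A F τ)⁻¹ ^ n) := by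
    rw [← hzb]; ring
  have hs : b * (X : F) ^ N * (algebraMap A F τ)⁻¹ ^ n ∈ O := by
    apply hdivpow _ (O.mul_mem hb (O.pow_mem X.2 N))
    intro V hV
    rw [eb]
    rcases (by simpa using hV : V = W₁ ∨ V = W₂ ∨ V = W₃) with h | h | h
    · rw [h]; exact W₁.mul_mem _ _ hj (pow_mem hXV₁ N)
    · rw [h]; exact s36oi_arch_mono W₂ _ hXV₂ _ hN1 hNb₂
    · rw [h]; exact s36oi_arch_mono W₃ _ hXV₃ _ hN2 hNb₃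
  have ha' : a * (X : F) ^ N * (algebraMap A F τ)⁻¹ ^ n ∈ O := by
    apply hdivpow _ (O.mul_mem ha (O.pow_mem X.2 N))
    intro V hV
    rw [ea]
    rcases (by simpa using hV : V = W₁ ∨ V = W₂ ∨ V = W₃) with h | h | h
    · rw [h, ea']; exact W₁.mul_mem _ _ (W₁.mul_mem _ _ hz hj) (pow_mem hXV₁ N)
    · rw [h]; exact s36oi_arch_mono W₂ _ hXV₂ _ hN3 hNa₂
    · rw [h]; exact s36oi_arch_mono W₃ _ hXV₃ _ hN4 hNa₃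
  have hX0 : (X : F) ≠ 0 := fun h0 => hX₁ (by rw [h0]; exact W₁.nonunits.zero_mem)
  have hτn0 : (algebraMap A F τ)⁻¹ ^ n ≠ 0 := pow_ne_zero _ (inv_ne_zero hτ0)
  refine ⟨⟨_, ha'⟩, ⟨_, hs⟩, ?_, ?_⟩
  · show b * (X : F) ^ N * (algebraMap A F τ)⁻¹ ^ n ∉ W₁.nonunits
    rw [eb]
    apply s35i_not_nu_of_inv W₁ (mul_ne_zero (mul_ne_zero hb0 hτn0) (pow_ne_zero _ hX0))
    rw [mul_inv, ← inv_pow]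
    exact W₁.mul_mem _ _ hj' (pow_mem (s35i_inv_mem W₁ hX₁) N)
  · show z * (b * (X : F) ^ N * (algebraMap A F τ)⁻¹ ^ n) =
      a * (X : F) ^ N * (algebraMap A F τ)⁻¹ ^ n
    rw [← hzb]; ring

/-- **`S35IC` at a point of one component**: the branch ring of `W₁` at `𝔫` is closed under
`m`-th roots of units, when the coordinate ring of the component `W₁` is Dedekind and the other
two components miss `𝔫`. -/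
theorem s36oi_ic (τ : A) (hτ0 : algebraMap A F τ ≠ 0) (O : Subalgebra A F)
    (hfrac : ∀ x : F, ∃ a ∈ O, ∃ s ∈ O, s ≠ 0 ∧ x * s = a)
    (W₁ W₂ W₃ : ValuationSubring F)
    (hO₁ : ∀ y ∈ O, y ∈ W₁) (hO₂ : ∀ y ∈ O, y ∈ W₂) (hO₃ : ∀ y ∈ O, y ∈ W₃)
    (hdiv : ∀ x ∈ O, x * (algebraMap A F τ)⁻¹ ∈ W₁ → x * (algebraMap A F τ)⁻¹ ∈ W₂ →
      x * (algebraMap A F τ)⁻¹ ∈ W₃ → x * (algebraMap A F τ)⁻¹ ∈ O)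
    (hτW : algebraMap A F τ ∈ W₁.nonunits)
    (hdec : ∀ z : F, z ≠ 0 → ∃ j : ℤ, z * algebraMap A F τ ^ j ∈ W₁ ∧
      (z * algebraMap A F τ ^ j)⁻¹ ∈ W₁)
    (hD : ∀ 𝔭 : Ideal ↥O, (∀ x : ↥O, x ∈ 𝔭 ↔ (x : F) ∈ W₁.nonunits) →
      IsDedekindDomain (↥O ⧸ 𝔭))
    (m : ℕ) (hm : 0 < m) (𝔫 : Ideal ↥O) [h𝔫 : 𝔫.IsPrime]
    (h1 : ∀ x : ↥O, (x : F) ∈ W₁.nonunits → x ∈ 𝔫)
    (hoff₂ : ∃ X : ↥O, X ∉ 𝔫 ∧ ∀ z : F, ∃ N : ℕ, z * (X : F) ^ N ∈ W₂)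
    (hoff₃ : ∃ X : ↥O, X ∉ 𝔫 ∧ ∀ z : F, ∃ N : ℕ, z * (X : F) ^ N ∈ W₃) :
    S35IC m O 𝔫 W₁ := by
  obtain ⟨X₂, hX₂𝔫, hX₂⟩ := hoff₂
  obtain ⟨X₃, hX₃𝔫, hX₃⟩ := hoff₃
  obtain ⟨p, hpmem⟩ := s35ip_exists_p O W₁ hO₁
  have hded : IsDedekindDomain (↥O ⧸ p) := hD p hpmem
  have hp𝔫 : p ≤ 𝔫 := fun x hx => h1 x ((hpmem x).mp hx)
  refine s35i_ic_ded O 𝔫 W₁ hO₁ p hpmem hp𝔫 ?_ m hm
  intro z hz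
  refine s36oi_frac τ hτ0 O hfrac W₁ W₂ W₃ hO₁ hO₂ hO₃ hdiv hτW hdec (X₂ * X₃) ?_ ?_ ?_ z hz
  · intro h
    exact (h𝔫.mem_or_mem (h1 _ h)).elim hX₂𝔫 hX₃𝔫
  · intro z
    obtain ⟨N, hN⟩ := hX₂ z
    refine ⟨N, ?_⟩
    rw [Subalgebra.coe_mul, mul_pow, ← mul_assoc]
    exact W₂.mul_mem _ _ hN (pow_mem (hO₂ _ X₃.2) N)
  · intro z
    obtain ⟨N, hN⟩ := hX₃ z
    refine ⟨N, ?_⟩
    rw [Subalgebra.coe_mul, mul_pow, mul_comm ((X₂ : F) ^ N), ← mul_assoc]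
    exact W₃.mul_mem _ _ hN (pow_mem (hO₃ _ X₂.2) N)

/-- **`S35Unit` at a point of one component**: every `f ≠ 0` with `hord` which is a unit of
`W₁` is a unit of `O_𝔫` times an `m`-th power. -/
theorem s36oi_unit (τ : A) (hτ0 : algebraMap A F τ ≠ 0) (O : Subalgebra A F)
    [IsNoetherianRing ↥O] (hfrac : ∀ x : F, ∃ a ∈ O, ∃ s ∈ O, s ≠ 0 ∧ x * s = a)
    (hic : ∀ x : F, IsIntegral ↥O x → x ∈ O)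
    (W₁ W₂ W₃ : ValuationSubring F)
    (hO₁ : ∀ y ∈ O, y ∈ W₁) (hO₂ : ∀ y ∈ O, y ∈ W₂) (hO₃ : ∀ y ∈ O, y ∈ W₃)
    (hW₁top : W₁ ≠ ⊤) (hW₂top : W₂ ≠ ⊤) (hW₃top : W₃ ≠ ⊤)
    (hdiv : ∀ x ∈ O, x * (algebraMap A F τ)⁻¹ ∈ W₁ → x * (algebraMap A F τ)⁻¹ ∈ W₂ →
      x * (algebraMap A F τ)⁻¹ ∈ W₃ → x * (algebraMap A F τ)⁻¹ ∈ O)
    (hred : ∀ x ∈ O, x ∈ W₁.nonunits → x ∈ W₂.nonunits → x ∈ W₃.nonunits →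
      ∃ (N : ℕ), ∃ y ∈ O, x ^ N = algebraMap A F τ * y)
    (hτW : algebraMap A F τ ∈ W₁.nonunits)
    (hdec : ∀ z : F, z ≠ 0 → ∃ j : ℤ, z * algebraMap A F τ ^ j ∈ W₁ ∧
      (z * algebraMap A F τ ^ j)⁻¹ ∈ W₁)
    (hD : ∀ 𝔭 : Ideal ↥O, (∀ x : ↥O, x ∈ 𝔭 ↔ (x : F) ∈ W₁.nonunits) →
      IsDedekindDomain (↥O ⧸ 𝔭))
    (m : ℕ) (hm : 0 < m) (𝔫 : Ideal ↥O) (h𝔫 : 𝔫.IsMaximal)
    (h1 : ∀ x : ↥O, (x : F) ∈ W₁.nonunits → x ∈ 𝔫)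
    (hoff₂ : ∃ X : ↥O, X ∉ 𝔫 ∧ ∀ z : F, ∃ N : ℕ, z * (X : F) ^ N ∈ W₂)
    (hoff₃ : ∃ X : ↥O, X ∉ 𝔫 ∧ ∀ z : F, ∃ N : ℕ, z * (X : F) ^ N ∈ W₃)
    (f : F) (hf : f ≠ 0)
    (hord : ∀ V : ValuationSubring F, (∀ a : A, algebraMap A F a ∈ V) →
        (algebraMap A F τ)⁻¹ ∈ V → IsPrincipalIdealRing V →
        ∃ u : F, u ≠ 0 ∧ f * u ^ m ∈ V ∧ (f * u ^ m)⁻¹ ∈ V)
    (hfW : f ∈ W₁) (hfW' : f⁻¹ ∈ W₁) : S35Unit m O 𝔫 f := by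
  have hprime : 𝔫.IsPrime := h𝔫.isPrime
  have hτV : algebraMap A F τ ∈ W₁ := ValuationSubring.nonunits_subset hτW
  have hτgen := s36oi_gen_of_dec W₁ (algebraMap A F τ) hτV hτ0 hdec
  obtain ⟨X₂, hX₂𝔫, hX₂⟩ := hoff₂
  obtain ⟨X₃, hX₃𝔫, hX₃⟩ := hoff₃
  have hX₂nu : (X₂ : F) ∈ W₂.nonunits := s36oi_arch_nu W₂ hW₂top _ hX₂
  have hX₃nu : (X₃ : F) ∈ W₃.nonunits := s36oi_arch_nu W₃ hW₃top _ hX₃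
  have hn₂ : ¬ ∀ x : ↥O, (x : F) ∈ W₂.nonunits → x ∈ 𝔫 := fun h => hX₂𝔫 (h X₂ hX₂nu)
  have hn₃ : ¬ ∀ x : ↥O, (x : F) ∈ W₃.nonunits → x ∈ 𝔫 := fun h => hX₃𝔫 (h X₃ hX₃nu)
  have hone : (1 : ↥O) ∉ 𝔫 := fun h => hprime.ne_top ((Ideal.eq_top_iff_one 𝔫).mpr h)
  have hloc : S34Loc τ m O f 𝔫 :=
    s36wc_loc3 τ hτ0 O hfrac hic W₁ W₂ W₃ hO₁ hO₂ hO₃ hW₁top hW₂top hW₃top hred hD m hm 𝔫 h𝔫 h1
      (algebraMap A F τ) hτ0 hτW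
      ⟨algebraMap A ↥O τ, 1, hone, by
        rw [Subalgebra.coe_one, mul_one, Subalgebra.coe_algebraMap]⟩
      hτgen (Or.inr ⟨X₂, hX₂nu, hX₂𝔫⟩) (Or.inr ⟨X₃, hX₃nu, hX₃𝔫⟩)
      (fun V _ _ _ _ h => h) f hf hord
  have hmem : ∀ V : ValuationSubring F, V ∈ ({W₁, W₂, W₃} : Set (ValuationSubring F)) →
      (∀ x : ↥O, (x : F) ∈ V.nonunits → x ∈ 𝔫) → V = W₁ := by
    intro V hV hthr
    rcases (by simpa using hV : V = W₁ ∨ V = W₂ ∨ V = W₃) with h | h | h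
    · exact h
    · rw [h] at hthr; exact absurd hthr hn₂
    · rw [h] at hthr; exact absurd hthr hn₃
  refine s36u3_main3 τ hτ0 O 𝔫 W₁ W₂ W₃ hO₁ hO₂ hO₃ hdiv ?_ ?_ m f hf hloc ?_
  · intro V hV hVn
    rcases (by simpa using hV : V = W₁ ∨ V = W₂ ∨ V = W₃) with h | h | h
    · rw [h] at hVn; exact absurd h1 hVn
    · rw [h]; exact ⟨X₂, hX₂𝔫, hX₂⟩
    · rw [h]; exact ⟨X₃, hX₃𝔫, hX₃⟩
  · intro V hV hVthr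
    have hVeq : V = W₁ := hmem V hV hVthr
    rw [hVeq]
    refine ⟨algebraMap A F τ, hτ0, (ndrLoc O 𝔫).algebraMap_mem τ, ⟨1, 1, 1, hone, ?_⟩, hdec, ?_⟩
    · rw [Subalgebra.coe_one, mul_one, one_mul, pow_one]
    · intro V' hV' hne hV'thr
      exact absurd (hmem V' hV' hV'thr) hne
  · intro V hV hVthr
    rw [hmem V hV hVthr]
    exact ⟨hfW, hfW'⟩

/-- **The one-component clause of the point classification.**  At a closed point `𝔫` of the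
chart lying on the component `W₁` only (`τ` a uniformiser of `W₁`, Dedekind coordinate ring):
`S35IC m O 𝔫 W₁`, and `S35Unit m O 𝔫 f` for every `f ≠ 0` with `hord` which is a unit of `W₁`
(the two inputs of `s36do_dat_one`). -/
theorem s36oi_one (τ : A) (hτ0 : algebraMap A F τ ≠ 0) (O : Subalgebra A F)
    [IsNoetherianRing ↥O] (hfrac : ∀ x : F, ∃ a ∈ O, ∃ s ∈ O, s ≠ 0 ∧ x * s = a)
    (hic : ∀ x : F, IsIntegral ↥O x → x ∈ O)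
    (W₁ W₂ W₃ : ValuationSubring F)
    (hO₁ : ∀ y ∈ O, y ∈ W₁) (hO₂ : ∀ y ∈ O, y ∈ W₂) (hO₃ : ∀ y ∈ O, y ∈ W₃)
    (hW₁top : W₁ ≠ ⊤) (hW₂top : W₂ ≠ ⊤) (hW₃top : W₃ ≠ ⊤)
    (hdiv : ∀ x ∈ O, x * (algebraMap A F τ)⁻¹ ∈ W₁ → x * (algebraMap A F τ)⁻¹ ∈ W₂ →
      x * (algebraMap A F τ)⁻¹ ∈ W₃ → x * (algebraMap A F τ)⁻¹ ∈ O)
    (hred : ∀ x ∈ O, x ∈ W₁.nonunits → x ∈ W₂.nonunits → x ∈ W₃.nonunits →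
      ∃ (N : ℕ), ∃ y ∈ O, x ^ N = algebraMap A F τ * y)
    (hτW : algebraMap A F τ ∈ W₁.nonunits)
    (hdec : ∀ z : F, z ≠ 0 → ∃ j : ℤ, z * algebraMap A F τ ^ j ∈ W₁ ∧
      (z * algebraMap A F τ ^ j)⁻¹ ∈ W₁)
    (hD : ∀ 𝔭 : Ideal ↥O, (∀ x : ↥O, x ∈ 𝔭 ↔ (x : F) ∈ W₁.nonunits) →
      IsDedekindDomain (↥O ⧸ 𝔭))
    (m : ℕ) (hm : 0 < m) (𝔫 : Ideal ↥O) (h𝔫 : 𝔫.IsMaximal)
    (h1 : ∀ x : ↥O, (x : F) ∈ W₁.nonunits → x ∈ 𝔫)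
    (hoff₂ : ∃ X : ↥O, X ∉ 𝔫 ∧ ∀ z : F, ∃ N : ℕ, z * (X : F) ^ N ∈ W₂)
    (hoff₃ : ∃ X : ↥O, X ∉ 𝔫 ∧ ∀ z : F, ∃ N : ℕ, z * (X : F) ^ N ∈ W₃) :
    S35IC m O 𝔫 W₁ ∧
    ∀ f : F, f ≠ 0 →
      (∀ V : ValuationSubring F, (∀ a : A, algebraMap A F a ∈ V) →
        (algebraMap A F τ)⁻¹ ∈ V → IsPrincipalIdealRing V →
        ∃ u : F, u ≠ 0 ∧ f * u ^ m ∈ V ∧ (f * u ^ m)⁻¹ ∈ V) →
      f ∈ W₁ → f⁻¹ ∈ W₁ → S35Unit m O 𝔫 f := by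
  have hprime : 𝔫.IsPrime := h𝔫.isPrime
  exact ⟨s36oi_ic τ hτ0 O hfrac W₁ W₂ W₃ hO₁ hO₂ hO₃ hdiv hτW hdec hD m hm 𝔫 h1 hoff₂ hoff₃,
    fun f hf hord hfW hfW' => s36oi_unit τ hτ0 O hfrac hic W₁ W₂ W₃ hO₁ hO₂ hO₃ hW₁top hW₂top
      hW₃top hdiv hred hτW hdec hD m hm 𝔫 h𝔫 h1 hoff₂ hoff₃ f hf hord hfW hfW'⟩

/-- **The local datum at a point of one component** (the body of `S36Dat`, written out, for any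
family `S ⊆ {W₁, W₂, W₃}`): for every `W` with `hord` and `W ≡ 1` on `W₁`. -/
theorem s36oi_dat (τ : A) (hτ0 : algebraMap A F τ ≠ 0) (O : Subalgebra A F)
    [IsNoetherianRing ↥O] (hfrac : ∀ x : F, ∃ a ∈ O, ∃ s ∈ O, s ≠ 0 ∧ x * s = a)
    (hic : ∀ x : F, IsIntegral ↥O x → x ∈ O)
    (W₁ W₂ W₃ : ValuationSubring F)
    (hO₁ : ∀ y ∈ O, y ∈ W₁) (hO₂ : ∀ y ∈ O, y ∈ W₂) (hO₃ : ∀ y ∈ O, y ∈ W₃)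
    (hW₁top : W₁ ≠ ⊤) (hW₂top : W₂ ≠ ⊤) (hW₃top : W₃ ≠ ⊤)
    (hdiv : ∀ x ∈ O, x * (algebraMap A F τ)⁻¹ ∈ W₁ → x * (algebraMap A F τ)⁻¹ ∈ W₂ →
      x * (algebraMap A F τ)⁻¹ ∈ W₃ → x * (algebraMap A F τ)⁻¹ ∈ O)
    (hred : ∀ x ∈ O, x ∈ W₁.nonunits → x ∈ W₂.nonunits → x ∈ W₃.nonunits →
      ∃ (N : ℕ), ∃ y ∈ O, x ^ N = algebraMap A F τ * y)
    (hτW : algebraMap A F τ ∈ W₁.nonunits)
    (hdec : ∀ z : F, z ≠ 0 → ∃ j : ℤ, z * algebraMap A F τ ^ j ∈ W₁ ∧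
      (z * algebraMap A F τ ^ j)⁻¹ ∈ W₁)
    (hD : ∀ 𝔭 : Ideal ↥O, (∀ x : ↥O, x ∈ 𝔭 ↔ (x : F) ∈ W₁.nonunits) →
      IsDedekindDomain (↥O ⧸ 𝔭))
    (m q : ℕ) (hm : 0 < m) (𝔫 : Ideal ↥O) (h𝔫 : 𝔫.IsMaximal)
    (h1 : ∀ x : ↥O, (x : F) ∈ W₁.nonunits → x ∈ 𝔫)
    (hoff₂ : ∃ X : ↥O, X ∉ 𝔫 ∧ ∀ z : F, ∃ N : ℕ, z * (X : F) ^ N ∈ W₂)
    (hoff₃ : ∃ X : ↥O, X ∉ 𝔫 ∧ ∀ z : F, ∃ N : ℕ, z * (X : F) ^ N ∈ W₃)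
    (S : Set (ValuationSubring F)) (hS : ∀ V' ∈ S, V' = W₁ ∨ V' = W₂ ∨ V' = W₃)
    (W : F)
    (hord : ∀ V : ValuationSubring F, (∀ a : A, algebraMap A F a ∈ V) →
        (algebraMap A F τ)⁻¹ ∈ V → IsPrincipalIdealRing V →
        ∃ u : F, u ≠ 0 ∧ W * u ^ m ∈ V ∧ (W * u ^ m)⁻¹ ∈ V)
    (hW1 : W - 1 ∈ W₁.nonunits) :
    ∃ (k : ℕ) (g : F) (a s r s₀ : ↥O), s ∉ 𝔫 ∧ r ∉ 𝔫 ∧ s₀ ∉ 𝔫 ∧
      W ^ (q ^ k) * (s : F) = (a : F) * g ^ m ∧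
      ∀ V' ∈ S, (∀ x : ↥O, (x : F) ∈ V'.nonunits → x ∈ 𝔫) →
        g * (s₀ : F) - (r : F) ∈ V'.nonunits := by
  have hprime : 𝔫.IsPrime := h𝔫.isPrime
  obtain ⟨hIC, hU⟩ := s36oi_one τ hτ0 O hfrac hic W₁ W₂ W₃ hO₁ hO₂ hO₃ hW₁top hW₂top hW₃top
    hdiv hred hτW hdec hD m hm 𝔫 h𝔫 h1 hoff₂ hoff₃
  -- `W` is a unit of `W₁`
  have hWV : W ∈ W₁ := by
    have e : W = (W - 1) + 1 := by ring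
    rw [e]
    exact W₁.add_mem _ _ (s35pt_nu_mem W₁ hW1) W₁.one_mem
  have hWnu : W ∉ W₁.nonunits := by
    intro h
    have e : (1 : F) = W - (W - 1) := by ring
    exact s35pt_one_not_nu W₁ (e ▸ s35pt_nu_sub W₁ h hW1)
  have hW0 : W ≠ 0 := fun h0 => hWnu (by rw [h0]; exact s35pt_nu_zero W₁)
  have hWinv : W⁻¹ ∈ W₁ := s35pt_inv_mem W₁ hWnu
  -- the other two components miss `𝔫`
  obtain ⟨X₂, hX₂𝔫, hX₂⟩ := hoff₂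
  obtain ⟨X₃, hX₃𝔫, hX₃⟩ := hoff₃
  have hX₂nu : (X₂ : F) ∈ W₂.nonunits := s36oi_arch_nu W₂ hW₂top _ hX₂
  have hX₃nu : (X₃ : F) ∈ W₃.nonunits := s36oi_arch_nu W₃ hW₃top _ hX₃
  refine s36do_dat_one O 𝔫 S W₁ hO₁ h1 ?_ m q hm hIC W (hU W hW0 hord hWV hWinv) hW1
  intro V' hV' hthr
  rcases hS V' hV' with h | h | h
  · exact h
  · rw [h] at hthr; exact absurd (hthr X₂ hX₂nu) hX₂𝔫
  · rw [h] at hthr; exact absurd (hthr X₃ hX₃nu) hX₃𝔫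

/-- `s36oi_one` with "`W₂`, `W₃` miss `𝔫`" in the plain form (`W₂`, `W₃` discrete with
uniformisers `ϖ₂`, `ϖ₃`). -/
theorem s36oi_one' (τ : A) (hτ0 : algebraMap A F τ ≠ 0) (O : Subalgebra A F)
    [IsNoetherianRing ↥O] (hfrac : ∀ x : F, ∃ a ∈ O, ∃ s ∈ O, s ≠ 0 ∧ x * s = a)
    (hic : ∀ x : F, IsIntegral ↥O x → x ∈ O)
    (W₁ W₂ W₃ : ValuationSubring F)
    (hO₁ : ∀ y ∈ O, y ∈ W₁) (hO₂ : ∀ y ∈ O, y ∈ W₂) (hO₃ : ∀ y ∈ O, y ∈ W₃)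
    (hW₁top : W₁ ≠ ⊤) (hW₂top : W₂ ≠ ⊤) (hW₃top : W₃ ≠ ⊤)
    (hdiv : ∀ x ∈ O, x * (algebraMap A F τ)⁻¹ ∈ W₁ → x * (algebraMap A F τ)⁻¹ ∈ W₂ →
      x * (algebraMap A F τ)⁻¹ ∈ W₃ → x * (algebraMap A F τ)⁻¹ ∈ O)
    (hred : ∀ x ∈ O, x ∈ W₁.nonunits → x ∈ W₂.nonunits → x ∈ W₃.nonunits →
      ∃ (N : ℕ), ∃ y ∈ O, x ^ N = algebraMap A F τ * y)
    (hτW : algebraMap A F τ ∈ W₁.nonunits)
    (hdec : ∀ z : F, z ≠ 0 → ∃ j : ℤ, z * algebraMap A F τ ^ j ∈ W₁ ∧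
      (z * algebraMap A F τ ^ j)⁻¹ ∈ W₁)
    (ϖ₂ : F) (hϖ₂ : ϖ₂ ∈ W₂) (hϖ₂0 : ϖ₂ ≠ 0)
    (hdec₂ : ∀ z : F, z ≠ 0 → ∃ j : ℤ, z * ϖ₂ ^ j ∈ W₂ ∧ (z * ϖ₂ ^ j)⁻¹ ∈ W₂)
    (ϖ₃ : F) (hϖ₃ : ϖ₃ ∈ W₃) (hϖ₃0 : ϖ₃ ≠ 0)
    (hdec₃ : ∀ z : F, z ≠ 0 → ∃ j : ℤ, z * ϖ₃ ^ j ∈ W₃ ∧ (z * ϖ₃ ^ j)⁻¹ ∈ W₃)
    (hD : ∀ 𝔭 : Ideal ↥O, (∀ x : ↥O, x ∈ 𝔭 ↔ (x : F) ∈ W₁.nonunits) →
      IsDedekindDomain (↥O ⧸ 𝔭))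
    (m : ℕ) (hm : 0 < m) (𝔫 : Ideal ↥O) (h𝔫 : 𝔫.IsMaximal)
    (h1 : ∀ x : ↥O, (x : F) ∈ W₁.nonunits → x ∈ 𝔫)
    (hmiss₂ : ¬ ∀ x : ↥O, (x : F) ∈ W₂.nonunits → x ∈ 𝔫)
    (hmiss₃ : ¬ ∀ x : ↥O, (x : F) ∈ W₃.nonunits → x ∈ 𝔫) :
    S35IC m O 𝔫 W₁ ∧
    ∀ f : F, f ≠ 0 →
      (∀ V : ValuationSubring F, (∀ a : A, algebraMap A F a ∈ V) →
        (algebraMap A F τ)⁻¹ ∈ V → IsPrincipalIdealRing V →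
        ∃ u : F, u ≠ 0 ∧ f * u ^ m ∈ V ∧ (f * u ^ m)⁻¹ ∈ V) →
      f ∈ W₁ → f⁻¹ ∈ W₁ → S35Unit m O 𝔫 f :=
  s36oi_one τ hτ0 O hfrac hic W₁ W₂ W₃ hO₁ hO₂ hO₃ hW₁top hW₂top hW₃top hdiv hred hτW hdec hD
    m hm 𝔫 h𝔫 h1 (s36oi_off O 𝔫 W₂ ϖ₂ hϖ₂ hϖ₂0 hdec₂ hmiss₂)
    (s36oi_off O 𝔫 W₃ ϖ₃ hϖ₃ hϖ₃0 hdec₃ hmiss₃)

/-- `s36oi_dat` with "`W₂`, `W₃` miss `𝔫`" in the plain form (`W₂`, `W₃` discrete with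
uniformisers `ϖ₂`, `ϖ₃`). -/
theorem s36oi_dat' (τ : A) (hτ0 : algebraMap A F τ ≠ 0) (O : Subalgebra A F)
    [IsNoetherianRing ↥O] (hfrac : ∀ x : F, ∃ a ∈ O, ∃ s ∈ O, s ≠ 0 ∧ x * s = a)
    (hic : ∀ x : F, IsIntegral ↥O x → x ∈ O)
    (W₁ W₂ W₃ : ValuationSubring F)
    (hO₁ : ∀ y ∈ O, y ∈ W₁) (hO₂ : ∀ y ∈ O, y ∈ W₂) (hO₃ : ∀ y ∈ O, y ∈ W₃)
    (hW₁top : W₁ ≠ ⊤) (hW₂top : W₂ ≠ ⊤) (hW₃top : W₃ ≠ ⊤)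
    (hdiv : ∀ x ∈ O, x * (algebraMap A F τ)⁻¹ ∈ W₁ → x * (algebraMap A F τ)⁻¹ ∈ W₂ →
      x * (algebraMap A F τ)⁻¹ ∈ W₃ → x * (algebraMap A F τ)⁻¹ ∈ O)
    (hred : ∀ x ∈ O, x ∈ W₁.nonunits → x ∈ W₂.nonunits → x ∈ W₃.nonunits →
      ∃ (N : ℕ), ∃ y ∈ O, x ^ N = algebraMap A F τ * y)
    (hτW : algebraMap A F τ ∈ W₁.nonunits)
    (hdec : ∀ z : F, z ≠ 0 → ∃ j : ℤ, z * algebraMap A F τ ^ j ∈ W₁ ∧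
      (z * algebraMap A F τ ^ j)⁻¹ ∈ W₁)
    (ϖ₂ : F) (hϖ₂ : ϖ₂ ∈ W₂) (hϖ₂0 : ϖ₂ ≠ 0)
    (hdec₂ : ∀ z : F, z ≠ 0 → ∃ j : ℤ, z * ϖ₂ ^ j ∈ W₂ ∧ (z * ϖ₂ ^ j)⁻¹ ∈ W₂)
    (ϖ₃ : F) (hϖ₃ : ϖ₃ ∈ W₃) (hϖ₃0 : ϖ₃ ≠ 0)
    (hdec₃ : ∀ z : F, z ≠ 0 → ∃ j : ℤ, z * ϖ₃ ^ j ∈ W₃ ∧ (z * ϖ₃ ^ j)⁻¹ ∈ W₃)
    (hD : ∀ 𝔭 : Ideal ↥O, (∀ x : ↥O, x ∈ 𝔭 ↔ (x : F) ∈ W₁.nonunits) →
      IsDedekindDomain (↥O ⧸ 𝔭))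
    (m q : ℕ) (hm : 0 < m) (𝔫 : Ideal ↥O) (h𝔫 : 𝔫.IsMaximal)
    (h1 : ∀ x : ↥O, (x : F) ∈ W₁.nonunits → x ∈ 𝔫)
    (hmiss₂ : ¬ ∀ x : ↥O, (x : F) ∈ W₂.nonunits → x ∈ 𝔫)
    (hmiss₃ : ¬ ∀ x : ↥O, (x : F) ∈ W₃.nonunits → x ∈ 𝔫)
    (S : Set (ValuationSubring F)) (hS : ∀ V' ∈ S, V' = W₁ ∨ V' = W₂ ∨ V' = W₃)
    (W : F)
    (hord : ∀ V : ValuationSubring F, (∀ a : A, algebraMap A F a ∈ V) →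
        (algebraMap A F τ)⁻¹ ∈ V → IsPrincipalIdealRing V →
        ∃ u : F, u ≠ 0 ∧ W * u ^ m ∈ V ∧ (W * u ^ m)⁻¹ ∈ V)
    (hW1 : W - 1 ∈ W₁.nonunits) :
    ∃ (k : ℕ) (g : F) (a s r s₀ : ↥O), s ∉ 𝔫 ∧ r ∉ 𝔫 ∧ s₀ ∉ 𝔫 ∧
      W ^ (q ^ k) * (s : F) = (a : F) * g ^ m ∧
      ∀ V' ∈ S, (∀ x : ↥O, (x : F) ∈ V'.nonunits → x ∈ 𝔫) →
        g * (s₀ : F) - (r : F) ∈ V'.nonunits :=
  s36oi_dat τ hτ0 O hfrac hic W₁ W₂ W₃ hO₁ hO₂ hO₃ hW₁top hW₂top hW₃top hdiv hred hτW hdec hD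
    m q hm 𝔫 h𝔫 h1 (s36oi_off O 𝔫 W₂ ϖ₂ hϖ₂ hϖ₂0 hdec₂ hmiss₂)
    (s36oi_off O 𝔫 W₃ ϖ₃ hϖ₃ hϖ₃0 hdec₃ hmiss₃) S hS W hord hW1

end OneInst

end Fermat.Agent.S36
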