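import Mathlib
import Fermat.Agent.S35.GaussSep
import Fermat.Agent.S36.Charts3
import Fermat.Agent.S36.CompDed3
import Fermat.Agent.S36.OneInst
import Fermat.Agent.S36.Inst36Abs

/-!
# S36, leaf ONE-A at the carrier: the closed points lying on the component `W_a` only

* `s36oi_ptone`: the point predicate `S36inPtOne τ m Wa Wb Wc O 𝔫` of the abstract assembly
  (`S36/Inst36Abs.lean`) with `V := Wa`, from the chart block, the uniformisers of the three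
  vertical valuations (`τ` for `Wa`, `Wb`; `π` for `Wc` with `π ^ e / τ ∈ Wc`), the Dedekind
  coordinate ring of the component `Wa` and the two witnesses "`Wb`, `Wc` miss `𝔫`"
  (`s36oi_one'` + the radical form of the special fibre).
* `s36oi_carrier`: the same at the carrier, for the two Hauptmodul charts `chtO A0 {t}`,
  `chtO A0 {t⁻¹}` of level `M q ^ 2`, `W_a = va2V1 (M * q) q K0 A0` the Gauss valuation ring and
  `W_b`, `W_c` ANY two valuation subrings with the binders of `s36c3_chart` (CHT3) and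
  uniformisers `τ`, `π`.  Inputs: `s36c3_chart`, `s36cd_Wa_hD`, `s36cd_Wa_hD_inv`, `gsp_hdec₁`.
-/

set_option autoImplicit false
set_option linter.unusedSectionVars false
set_option linter.unusedVariables false

open AlgebraicCurve ModularCurve Polynomial
open Fermat.Agent.S28 Fermat.Agent.S18 Fermat.Agent.S34 Fermat.Agent.S35

namespace Fermat.Agent.S36

local notation "Qb" => AlgebraicClosure ℚ

section Abs

variable {A F : Type*} [CommRing A] [Field F] [Algebra A F]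

/-- A valuation ring with a nonzero nonunit is proper. -/
theorem s36oi_ne_top (V : ValuationSubring F) (x : F) (hx0 : x ≠ 0) (hx : x ∈ V.nonunits) :
    V ≠ ⊤ := by
  intro h
  rcases (ValuationSubring.mem_nonunits_iff_or V).mp hx with h0 | h1
  · exact hx0 h0
  · exact h1 (h ▸ ValuationSubring.mem_top _)

/-- **The point predicate at a point of `Wa` only.** -/
theorem s36oi_ptone (τ : A) (hτ0 : algebraMap A F τ ≠ 0) (O : Subalgebra A F)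
    [IsNoetherianRing ↥O] (hfrac : ∀ x : F, ∃ a ∈ O, ∃ s ∈ O, s ≠ 0 ∧ x * s = a)
    (hic : ∀ x : F, IsIntegral ↥O x → x ∈ O)
    (Wa Wb Wc : ValuationSubring F)
    (hO : ∀ x ∈ O, x ∈ Wa ∧ x ∈ Wb ∧ x ∈ Wc)
    (hdiv : ∀ x ∈ O, x * (algebraMap A F τ)⁻¹ ∈ Wa → x * (algebraMap A F τ)⁻¹ ∈ Wb →
      x * (algebraMap A F τ)⁻¹ ∈ Wc → x * (algebraMap A F τ)⁻¹ ∈ O)
    (hτa : algebraMap A F τ ∈ Wa.nonunits) (hτb : algebraMap A F τ ∈ Wb.nonunits)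
    (hdeca : ∀ z : F, z ≠ 0 → ∃ j : ℤ, z * algebraMap A F τ ^ j ∈ Wa ∧
      (z * algebraMap A F τ ^ j)⁻¹ ∈ Wa)
    (hdecb : ∀ z : F, z ≠ 0 → ∃ j : ℤ, z * algebraMap A F τ ^ j ∈ Wb ∧
      (z * algebraMap A F τ ^ j)⁻¹ ∈ Wb)
    (π : F) (hπ0 : π ≠ 0) (hπc : π ∈ Wc.nonunits)
    (hdecc : ∀ z : F, z ≠ 0 → ∃ j : ℤ, z * π ^ j ∈ Wc ∧ (z * π ^ j)⁻¹ ∈ Wc)
    (e : ℕ) (he : 0 < e) (hπτ : π ^ e * (algebraMap A F τ)⁻¹ ∈ Wc)
    (hD : ∀ 𝔭 : Ideal ↥O, (∀ x : ↥O, x ∈ 𝔭 ↔ (x : F) ∈ Wa.nonunits) →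
      IsDedekindDomain (↥O ⧸ 𝔭))
    (m : ℕ) (hm : 0 < m) (𝔫 : Ideal ↥O) (h𝔫 : 𝔫.IsMaximal)
    (h1 : ∀ x : ↥O, (x : F) ∈ Wa.nonunits → x ∈ 𝔫)
    (hXb : ∃ X : ↥O, (X : F) ∈ Wb.nonunits ∧ X ∉ 𝔫)
    (hXc : ∃ X : ↥O, (X : F) ∈ Wc.nonunits ∧ X ∉ 𝔫) :
    S36inPtOne τ m Wa Wb Wc O 𝔫 := by
  have hOa : ∀ y ∈ O, y ∈ Wa := fun y hy => (hO y hy).1
  have hOb : ∀ y ∈ O, y ∈ Wb := fun y hy => (hO y hy).2.1
  have hOc : ∀ y ∈ O, y ∈ Wc := fun y hy => (hO y hy).2.2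
  have hτWa : algebraMap A F τ ∈ Wa := ValuationSubring.nonunits_subset hτa
  have hτWb : algebraMap A F τ ∈ Wb := ValuationSubring.nonunits_subset hτb
  have hπWc : π ∈ Wc := ValuationSubring.nonunits_subset hπc
  have hgena := s36oi_gen_of_dec Wa _ hτWa hτ0 hdeca
  have hgenb := s36oi_gen_of_dec Wb _ hτWb hτ0 hdecb
  have hgenc := s36oi_gen_of_dec Wc π hπWc hπ0 hdecc
  have hE : ∀ x ∈ Wc.nonunits, x ^ e * (algebraMap A F τ)⁻¹ ∈ Wc := by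
    intro x hx
    have e1 : x ^ e * (algebraMap A F τ)⁻¹ = (x * π⁻¹) ^ e * (π ^ e * (algebraMap A F τ)⁻¹) := by
      rw [mul_pow, inv_pow]
      field_simp
    rw [e1]
    exact Wc.mul_mem _ _ (Wc.pow_mem (hgenc x hx) e) hπτ
  have hred := s36wc_hred3 τ O Wa Wb Wc hOa hOb hgena hgenb e he hE hτ0 hdiv
  have hmb : ¬ ∀ x : ↥O, (x : F) ∈ Wb.nonunits → x ∈ 𝔫 := by
    obtain ⟨X, hX, hX𝔫⟩ := hXb
    exact fun h => hX𝔫 (h X hX)
  have hmc : ¬ ∀ x : ↥O, (x : F) ∈ Wc.nonunits → x ∈ 𝔫 := by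
    obtain ⟨X, hX, hX𝔫⟩ := hXc
    exact fun h => hX𝔫 (h X hX)
  obtain ⟨hIC, hU⟩ := s36oi_one' τ hτ0 O hfrac hic Wa Wb Wc hOa hOb hOc
    (s36oi_ne_top Wa _ hτ0 hτa) (s36oi_ne_top Wb _ hτ0 hτb) (s36oi_ne_top Wc π hπ0 hπc)
    hdiv hred hτa hdeca (algebraMap A F τ) hτWb hτ0 hdecb π hπWc hπ0 hdecc hD m hm 𝔫 h𝔫 h1
    hmb hmc
  refine ⟨Wa, Or.inl rfl, h1, ?_, hIC, fun f hf hord hfW hfW' => hU f hf hord hfW hfW'⟩
  intro V' hV'
  rcases hV' with h | h | h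
  · exact Or.inl h
  · rw [h]; exact Or.inr hXb
  · rw [h]; exact Or.inr hXc

end Abs

section Carrier

variable {K0 : Type*} [Field K0] [Algebra ℚ K0] [Algebra K0 Qb] (A0 : ValuationSubring K0)
  [IsDiscreteValuationRing ↥A0]
  (M q : ℕ) [NeZero M] [hq : Fact q.Prime] (hM : ¬ q ∣ M)
  {a2 : ℕ} (H : HauptRec a2 q) (ha2 : a2 ∣ M)

include ha2 in
/-- **ONE-A at the carrier.**  At every closed point of the two Hauptmodul charts of level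
`M q ^ 2` lying on the Gauss component `W_a = va2V1 (M * q) q K0 A0` and missed by `W_b`, `W_c`:
the point predicate `S36inPtOne` of the abstract assembly. -/
theorem s36oi_carrier
    [Algebra A0 ↥(laurentBaseChange K0 (modularFunctionFieldFull (M * q * q)))]
    [IsScalarTower A0 K0 ↥(laurentBaseChange K0 (modularFunctionFieldFull (M * q * q)))]
    (hA0 : A0.LiesOverPrime q)
    (Wb Wc : ValuationSubring ↥(laurentBaseChange K0 (modularFunctionFieldFull (M * q * q))))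
    (halb : ∀ x, heckeAlphaBar K0 (M * q) q x ∈ Wb ↔ x ∈ va2V2 M q hM K0 A0)
    (halc : ∀ x, heckeAlphaBar K0 (M * q) q x ∈ Wc ↔ x ∈ va2V1 M q K0 A0)
    (hexh1 : ∀ W : ValuationSubring ↥(laurentBaseChange K0 (modularFunctionFieldFull (M * q * q))),
      (∀ x, heckeAlphaBar K0 (M * q) q x ∈ W ↔ x ∈ va2V1 M q K0 A0) →
      W = va2V1 (M * q) q K0 A0 ∨ W = Wc)
    (hexh2 : ∀ W : ValuationSubring ↥(laurentBaseChange K0 (modularFunctionFieldFull (M * q * q))),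
      (∀ x, heckeAlphaBar K0 (M * q) q x ∈ W ↔ x ∈ va2V2 M q hM K0 A0) → W = Wb)
    (c0 c1 : A0) (hc : IsLocalRing.residue A0 c0 ≠ IsLocalRing.residue A0 c1)
    (hSM : cinstSMChart K0 A0 M H (c0 : K0) (c1 : K0))
    (hSM' : cinstSMChart K0 A0 M H (c1 : K0) (c0 : K0))
    (t : ↥(laurentBaseChange K0 (modularFunctionFieldFull (M * q * q))))
    (ht : (t : LaurentSeries K0) = cinstU H K0 (c0 : K0) (c1 : K0))
    (τ : A0) (hτ : Irreducible τ)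
    (hτb : algebraMap A0 ↥(laurentBaseChange K0 (modularFunctionFieldFull (M * q * q))) τ ∈
      Wb.nonunits)
    (hdecb : ∀ z : ↥(laurentBaseChange K0 (modularFunctionFieldFull (M * q * q))), z ≠ 0 →
      ∃ j : ℤ,
        z * algebraMap A0 ↥(laurentBaseChange K0 (modularFunctionFieldFull (M * q * q))) τ ^ j
          ∈ Wb ∧
        (z * algebraMap A0 ↥(laurentBaseChange K0 (modularFunctionFieldFull (M * q * q))) τ ^ j)⁻¹
          ∈ Wb)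
    (π : ↥(laurentBaseChange K0 (modularFunctionFieldFull (M * q * q)))) (hπ0 : π ≠ 0)
    (hπc : π ∈ Wc.nonunits)
    (hdecc : ∀ z : ↥(laurentBaseChange K0 (modularFunctionFieldFull (M * q * q))), z ≠ 0 →
      ∃ j : ℤ, z * π ^ j ∈ Wc ∧ (z * π ^ j)⁻¹ ∈ Wc)
    (e : ℕ) (he : 0 < e)
    (hπτ : π ^ e *
      (algebraMap A0 ↥(laurentBaseChange K0 (modularFunctionFieldFull (M * q * q))) τ)⁻¹ ∈ Wc)
    (m : ℕ) (hm : 0 < m) :
    (∀ 𝔫 : Ideal ↥(chtO A0 {t}), 𝔫.IsMaximal →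
      (∀ x : ↥(chtO A0 {t}),
        (x : ↥(laurentBaseChange K0 (modularFunctionFieldFull (M * q * q)))) ∈
          (va2V1 (M * q) q K0 A0).nonunits → x ∈ 𝔫) →
      (∃ X : ↥(chtO A0 {t}),
        (X : ↥(laurentBaseChange K0 (modularFunctionFieldFull (M * q * q)))) ∈ Wb.nonunits ∧
          X ∉ 𝔫) →
      (∃ X : ↥(chtO A0 {t}),
        (X : ↥(laurentBaseChange K0 (modularFunctionFieldFull (M * q * q)))) ∈ Wc.nonunits ∧
          X ∉ 𝔫) →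
      S36inPtOne τ m (va2V1 (M * q) q K0 A0) Wb Wc (chtO A0 {t}) 𝔫) ∧
    (∀ 𝔫 : Ideal ↥(chtO A0 {t⁻¹}), 𝔫.IsMaximal →
      (∀ x : ↥(chtO A0 {t⁻¹}),
        (x : ↥(laurentBaseChange K0 (modularFunctionFieldFull (M * q * q)))) ∈
          (va2V1 (M * q) q K0 A0).nonunits → x ∈ 𝔫) →
      (∃ X : ↥(chtO A0 {t⁻¹}),
        (X : ↥(laurentBaseChange K0 (modularFunctionFieldFull (M * q * q)))) ∈ Wb.nonunits ∧
          X ∉ 𝔫) →
      (∃ X : ↥(chtO A0 {t⁻¹}),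
        (X : ↥(laurentBaseChange K0 (modularFunctionFieldFull (M * q * q)))) ∈ Wc.nonunits ∧
          X ∉ 𝔫) →
      S36inPtOne τ m (va2V1 (M * q) q K0 A0) Wb Wc (chtO A0 {t⁻¹}) 𝔫) := by
  obtain ⟨⟨hAa, hAb, hAc, hτa, hgena, htt, hex⟩, h1, h2, h3, ⟨b0, hb0, hspan0⟩,
    ⟨b1, hb1, hspan1⟩, h01, h10, hfrac0, hfrac1, hroot0, hroot1, hcap, hV0, hV1, hdiv0, hdiv1,
    hNoe0, hNoe1, hic0, hic1⟩ := s36c3_chart A0 M q hM H ha2 hA0 Wb Wc halb halc hexh1 hexh2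
      c0 c1 hc t ht τ hτ m hm
  have hτ0 : algebraMap A0 ↥(laurentBaseChange K0 (modularFunctionFieldFull (M * q * q))) τ ≠ 0 := by
    rw [IsScalarTower.algebraMap_apply A0 K0
      ↥(laurentBaseChange K0 (modularFunctionFieldFull (M * q * q)))]
    refine (_root_.map_ne_zero _).mpr ?_
    intro h0
    exact hτ.ne_zero (Subtype.ext h0)
  have hdeca := gsp_hdec₁ (M * q) q K0 A0 τ hτ
  refine ⟨?_, ?_⟩
  · intro 𝔫 h𝔫 hthr hXb hXc
    exact s36oi_ptone τ hτ0 (chtO A0 {t}) hfrac0 hic0 (va2V1 (M * q) q K0 A0) Wb Wc hV0 hdiv0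
      hτa hτb hdeca hdecb π hπ0 hπc hdecc e he hπτ
      (fun 𝔭 h𝔭 => s36cd_Wa_hD M q hM K0 A0 H ha2 hA0 c0 c1 hc hSM t ht τ hτ 𝔭 h𝔭)
      m hm 𝔫 h𝔫 hthr hXb hXc
  · intro 𝔫 h𝔫 hthr hXb hXc
    exact s36oi_ptone τ hτ0 (chtO A0 {t⁻¹}) hfrac1 hic1 (va2V1 (M * q) q K0 A0) Wb Wc hV1 hdiv1
      hτa hτb hdeca hdecb π hπ0 hπc hdecc e he hπτ
      (fun 𝔭 h𝔭 => s36cd_Wa_hD_inv M q hM K0 A0 H ha2 hA0 c0 c1 hc hSM' t ht τ hτ 𝔭 h𝔭)
      m hm 𝔫 h𝔫 hthr hXb hXc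

end Carrier

end Fermat.Agent.S36
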