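import Mathlib
import Fermat.Agent.S36.OneInstCar

/-!
# S36, ONE-B by the direct route: the closed points lying on the component `W_b` only

Twin of `s36oi_ptone` / `s36oi_carrier` (S36/OneInstCar.lean) for the second reduced component:
once the coordinate ring of the component `W_b` of a chart is known to be Dedekind (`hDb`), the
one-component theorem `s36oi_one'` applies verbatim with `(W₁, W₂, W₃) = (Wb, Wa, Wc)`.

* `s36oi_ptone_b`: `S36inPtOne τ m Wa Wb Wc O 𝔫` with `V := Wb` (abstract).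
* `s36oi_carrier_b`: the same at the carrier for the two Hauptmodul charts of level `M q ^ 2`,
  with the two Dedekind statements for `W_b` as hypotheses.
-/

set_option autoImplicit false
set_option linter.unusedSectionVars false
set_option linter.unusedVariables false

open AlgebraicCurve ModularCurve Polynomial
open Fermat.Agent.S28 Fermat.Agent.S18 Fermat.Agent.S34 Fermat.Agent.S35

namespace Fermat.Agent.S36

local notation "Qb" => AlgebraicClosure ℚ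

section Abs

variable {A F : Type*} [CommRing A] [Field F] [Algebra A F]

/-- **The point predicate at a point of `Wb` only.** -/
theorem s36oi_ptone_b (τ : A) (hτ0 : algebraMap A F τ ≠ 0) (O : Subalgebra A F)
    [IsNoetherianRing ↥O] (hfrac : ∀ x : F, ∃ a ∈ O, ∃ s ∈ O, s ≠ 0 ∧ x * s = a)
    (hic : ∀ x : F, IsIntegral ↥O x → x ∈ O)
    (Wa Wb Wc : ValuationSubring F)
    (hO : ∀ x ∈ O, x ∈ Wa ∧ x ∈ Wb ∧ x ∈ Wc)
    (hdiv : ∀ x ∈ O, x * (algebraMap A F τ)⁻¹ ∈ Wa → x * (algebraMap A F τ)⁻¹ ∈ Wb →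
      x * (algebraMap A F τ)⁻¹ ∈ Wc → x * (algebraMap A F τ)⁻¹ ∈ O)
    (hτa : algebraMap A F τ ∈ Wa.nonunits) (hτb : algebraMap A F τ ∈ Wb.nonunits)
    (hdeca : ∀ z : F, z ≠ 0 → ∃ j : ℤ, z * algebraMap A F τ ^ j ∈ Wa ∧
      (z * algebraMap A F τ ^ j)⁻¹ ∈ Wa)
    (hdecb : ∀ z : F, z ≠ 0 → ∃ j : ℤ, z * algebraMap A F τ ^ j ∈ Wb ∧
      (z * algebraMap A F τ ^ j)⁻¹ ∈ Wb)
    (π : F) (hπ0 : π ≠ 0) (hπc : π ∈ Wc.nonunits)
    (hdecc : ∀ z : F, z ≠ 0 → ∃ j : ℤ, z * π ^ j ∈ Wc ∧ (z * π ^ j)⁻¹ ∈ Wc)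
    (e : ℕ) (he : 0 < e) (hπτ : π ^ e * (algebraMap A F τ)⁻¹ ∈ Wc)
    (hDb : ∀ 𝔭 : Ideal ↥O, (∀ x : ↥O, x ∈ 𝔭 ↔ (x : F) ∈ Wb.nonunits) →
      IsDedekindDomain (↥O ⧸ 𝔭))
    (m : ℕ) (hm : 0 < m) (𝔫 : Ideal ↥O) (h𝔫 : 𝔫.IsMaximal)
    (h1 : ∀ x : ↥O, (x : F) ∈ Wb.nonunits → x ∈ 𝔫)
    (hXa : ∃ X : ↥O, (X : F) ∈ Wa.nonunits ∧ X ∉ 𝔫)
    (hXc : ∃ X : ↥O, (X : F) ∈ Wc.nonunits ∧ X ∉ 𝔫) :
    S36inPtOne τ m Wa Wb Wc O 𝔫 := by
  have hOa : ∀ y ∈ O, y ∈ Wa := fun y hy => (hO y hy).1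
  have hOb : ∀ y ∈ O, y ∈ Wb := fun y hy => (hO y hy).2.1
  have hOc : ∀ y ∈ O, y ∈ Wc := fun y hy => (hO y hy).2.2
  have hτWa : algebraMap A F τ ∈ Wa := ValuationSubring.nonunits_subset hτa
  have hτWb : algebraMap A F τ ∈ Wb := ValuationSubring.nonunits_subset hτb
  have hπWc : π ∈ Wc := ValuationSubring.nonunits_subset hπc
  have hgena := s36oi_gen_of_dec Wa _ hτWa hτ0 hdeca
  have hgenb := s36oi_gen_of_dec Wb _ hτWb hτ0 hdecb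
  have hgenc := s36oi_gen_of_dec Wc π hπWc hπ0 hdecc
  have hE : ∀ x ∈ Wc.nonunits, x ^ e * (algebraMap A F τ)⁻¹ ∈ Wc := by
    intro x hx
    have e1 : x ^ e * (algebraMap A F τ)⁻¹ = (x * π⁻¹) ^ e * (π ^ e * (algebraMap A F τ)⁻¹) := by
      rw [mul_pow, inv_pow]
      field_simp
    rw [e1]
    exact Wc.mul_mem _ _ (Wc.pow_mem (hgenc x hx) e) hπτ
  have hdiv' : ∀ x ∈ O, x * (algebraMap A F τ)⁻¹ ∈ Wb → x * (algebraMap A F τ)⁻¹ ∈ Wa →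
      x * (algebraMap A F τ)⁻¹ ∈ Wc → x * (algebraMap A F τ)⁻¹ ∈ O :=
    fun x hx hb ha hc => hdiv x hx ha hb hc
  have hred := s36wc_hred3 τ O Wb Wa Wc hOb hOa hgenb hgena e he hE hτ0 hdiv'
  have hma : ¬ ∀ x : ↥O, (x : F) ∈ Wa.nonunits → x ∈ 𝔫 := by
    obtain ⟨X, hX, hX𝔫⟩ := hXa
    exact fun h => hX𝔫 (h X hX)
  have hmc : ¬ ∀ x : ↥O, (x : F) ∈ Wc.nonunits → x ∈ 𝔫 := by
    obtain ⟨X, hX, hX𝔫⟩ := hXc
    exact fun h => hX𝔫 (h X hX)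
  obtain ⟨hIC, hU⟩ := s36oi_one' τ hτ0 O hfrac hic Wb Wa Wc hOb hOa hOc
    (s36oi_ne_top Wb _ hτ0 hτb) (s36oi_ne_top Wa _ hτ0 hτa) (s36oi_ne_top Wc π hπ0 hπc)
    hdiv' hred hτb hdecb (algebraMap A F τ) hτWa hτ0 hdeca π hπWc hπ0 hdecc hDb m hm 𝔫 h𝔫 h1
    hma hmc
  refine ⟨Wb, Or.inr (Or.inl rfl), h1, ?_, hIC, fun f hf hord hfW hfW' => hU f hf hord hfW hfW'⟩
  intro V' hV'
  rcases hV' with h | h | h
  · rw [h]; exact Or.inr hXa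
  · exact Or.inl h
  · rw [h]; exact Or.inr hXc

end Abs

section Carrier

variable {K0 : Type*} [Field K0] [Algebra ℚ K0] [Algebra K0 Qb] (A0 : ValuationSubring K0)
  [IsDiscreteValuationRing ↥A0]
  (M q : ℕ) [NeZero M] [hq : Fact q.Prime] (hM : ¬ q ∣ M)
  {a2 : ℕ} (H : HauptRec a2 q) (ha2 : a2 ∣ M)

include ha2 in
/-- **ONE-B at the carrier, direct route.**  At every closed point of the two Hauptmodul charts
of level `M q ^ 2` lying on `W_b` and missed by `W_a`, `W_c`: the point predicate `S36inPtOne`,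
given that the `W_b`-components of the two charts are Dedekind (`hDb0`, `hDb1`). -/
theorem s36oi_carrier_b
    [Algebra A0 ↥(laurentBaseChange K0 (modularFunctionFieldFull (M * q * q)))]
    [IsScalarTower A0 K0 ↥(laurentBaseChange K0 (modularFunctionFieldFull (M * q * q)))]
    (hA0 : A0.LiesOverPrime q)
    (Wb Wc : ValuationSubring ↥(laurentBaseChange K0 (modularFunctionFieldFull (M * q * q))))
    (halb : ∀ x, heckeAlphaBar K0 (M * q) q x ∈ Wb ↔ x ∈ va2V2 M q hM K0 A0)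
    (halc : ∀ x, heckeAlphaBar K0 (M * q) q x ∈ Wc ↔ x ∈ va2V1 M q K0 A0)
    (hexh1 : ∀ W : ValuationSubring ↥(laurentBaseChange K0 (modularFunctionFieldFull (M * q * q))),
      (∀ x, heckeAlphaBar K0 (M * q) q x ∈ W ↔ x ∈ va2V1 M q K0 A0) →
      W = va2V1 (M * q) q K0 A0 ∨ W = Wc)
    (hexh2 : ∀ W : ValuationSubring ↥(laurentBaseChange K0 (modularFunctionFieldFull (M * q * q))),
      (∀ x, heckeAlphaBar K0 (M * q) q x ∈ W ↔ x ∈ va2V2 M q hM K0 A0) → W = Wb)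
    (c0 c1 : A0) (hc : IsLocalRing.residue A0 c0 ≠ IsLocalRing.residue A0 c1)
    (t : ↥(laurentBaseChange K0 (modularFunctionFieldFull (M * q * q))))
    (ht : (t : LaurentSeries K0) = cinstU H K0 (c0 : K0) (c1 : K0))
    (τ : A0) (hτ : Irreducible τ)
    (hτb : algebraMap A0 ↥(laurentBaseChange K0 (modularFunctionFieldFull (M * q * q))) τ ∈
      Wb.nonunits)
    (hdecb : ∀ z : ↥(laurentBaseChange K0 (modularFunctionFieldFull (M * q * q))), z ≠ 0 →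
      ∃ j : ℤ,
        z * algebraMap A0 ↥(laurentBaseChange K0 (modularFunctionFieldFull (M * q * q))) τ ^ j
          ∈ Wb ∧
        (z * algebraMap A0 ↥(laurentBaseChange K0 (modularFunctionFieldFull (M * q * q))) τ ^ j)⁻¹
          ∈ Wb)
    (π : ↥(laurentBaseChange K0 (modularFunctionFieldFull (M * q * q)))) (hπ0 : π ≠ 0)
    (hπc : π ∈ Wc.nonunits)
    (hdecc : ∀ z : ↥(laurentBaseChange K0 (modularFunctionFieldFull (M * q * q))), z ≠ 0 →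
      ∃ j : ℤ, z * π ^ j ∈ Wc ∧ (z * π ^ j)⁻¹ ∈ Wc)
    (e : ℕ) (he : 0 < e)
    (hπτ : π ^ e *
      (algebraMap A0 ↥(laurentBaseChange K0 (modularFunctionFieldFull (M * q * q))) τ)⁻¹ ∈ Wc)
    (hDb0 : ∀ 𝔭 : Ideal ↥(chtO A0 {t}), (∀ x : ↥(chtO A0 {t}), x ∈ 𝔭 ↔
      (x : ↥(laurentBaseChange K0 (modularFunctionFieldFull (M * q * q)))) ∈ Wb.nonunits) →
      IsDedekindDomain (↥(chtO A0 {t}) ⧸ 𝔭))
    (hDb1 : ∀ 𝔭 : Ideal ↥(chtO A0 {t⁻¹}), (∀ x : ↥(chtO A0 {t⁻¹}), x ∈ 𝔭 ↔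
      (x : ↥(laurentBaseChange K0 (modularFunctionFieldFull (M * q * q)))) ∈ Wb.nonunits) →
      IsDedekindDomain (↥(chtO A0 {t⁻¹}) ⧸ 𝔭))
    (m : ℕ) (hm : 0 < m) :
    (∀ 𝔫 : Ideal ↥(chtO A0 {t}), 𝔫.IsMaximal →
      (∀ x : ↥(chtO A0 {t}),
        (x : ↥(laurentBaseChange K0 (modularFunctionFieldFull (M * q * q)))) ∈ Wb.nonunits →
          x ∈ 𝔫) →
      (∃ X : ↥(chtO A0 {t}),
        (X : ↥(laurentBaseChange K0 (modularFunctionFieldFull (M * q * q)))) ∈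
          (va2V1 (M * q) q K0 A0).nonunits ∧ X ∉ 𝔫) →
      (∃ X : ↥(chtO A0 {t}),
        (X : ↥(laurentBaseChange K0 (modularFunctionFieldFull (M * q * q)))) ∈ Wc.nonunits ∧
          X ∉ 𝔫) →
      S36inPtOne τ m (va2V1 (M * q) q K0 A0) Wb Wc (chtO A0 {t}) 𝔫) ∧
    (∀ 𝔫 : Ideal ↥(chtO A0 {t⁻¹}), 𝔫.IsMaximal →
      (∀ x : ↥(chtO A0 {t⁻¹}),
        (x : ↥(laurentBaseChange K0 (modularFunctionFieldFull (M * q * q)))) ∈ Wb.nonunits →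
          x ∈ 𝔫) →
      (∃ X : ↥(chtO A0 {t⁻¹}),
        (X : ↥(laurentBaseChange K0 (modularFunctionFieldFull (M * q * q)))) ∈
          (va2V1 (M * q) q K0 A0).nonunits ∧ X ∉ 𝔫) →
      (∃ X : ↥(chtO A0 {t⁻¹}),
        (X : ↥(laurentBaseChange K0 (modularFunctionFieldFull (M * q * q)))) ∈ Wc.nonunits ∧
          X ∉ 𝔫) →
      S36inPtOne τ m (va2V1 (M * q) q K0 A0) Wb Wc (chtO A0 {t⁻¹}) 𝔫) := by
  obtain ⟨⟨hAa, hAb, hAc, hτa, hgena, htt, hex⟩, h1, h2, h3, ⟨b0, hb0, hspan0⟩,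
    ⟨b1, hb1, hspan1⟩, h01, h10, hfrac0, hfrac1, hroot0, hroot1, hcap, hV0, hV1, hdiv0, hdiv1,
    hNoe0, hNoe1, hic0, hic1⟩ := s36c3_chart A0 M q hM H ha2 hA0 Wb Wc halb halc hexh1 hexh2
      c0 c1 hc t ht τ hτ m hm
  have hτ0 : algebraMap A0 ↥(laurentBaseChange K0 (modularFunctionFieldFull (M * q * q))) τ ≠ 0 := by
    rw [IsScalarTower.algebraMap_apply A0 K0
      ↥(laurentBaseChange K0 (modularFunctionFieldFull (M * q * q)))]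
    refine (_root_.map_ne_zero _).mpr ?_
    intro h0
    exact hτ.ne_zero (Subtype.ext h0)
  have hdeca := gsp_hdec₁ (M * q) q K0 A0 τ hτ
  refine ⟨?_, ?_⟩
  · intro 𝔫 h𝔫 hthr hXa hXc
    exact s36oi_ptone_b τ hτ0 (chtO A0 {t}) hfrac0 hic0 (va2V1 (M * q) q K0 A0) Wb Wc hV0 hdiv0
      hτa hτb hdeca hdecb π hπ0 hπc hdecc e he hπτ hDb0 m hm 𝔫 h𝔫 hthr hXa hXc
  · intro 𝔫 h𝔫 hthr hXa hXc
    exact s36oi_ptone_b τ hτ0 (chtO A0 {t⁻¹}) hfrac1 hic1 (va2V1 (M * q) q K0 A0) Wb Wc hV1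
      hdiv1 hτa hτb hdeca hdecb π hπ0 hπc hdecc e he hπτ hDb1 m hm 𝔫 h𝔫 hthr hXa hXc

end Carrier

end Fermat.Agent.S36
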