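import Mathlib
import Fermat.Agent.S36.OneInstCarB
import Fermat.Agent.S36.Inst36PostDat

/-!
# S36, ONE-A / ONE-B at the carrier in the datum form consumed by COMP3

The clauses `hA` and `hB` of `s36k3_point` (S36/Comp3.lean), verbatim, for the two Hauptmodul
charts of level `M q ^ 2`:

* `s36oi_hA`: at every closed point on `W_a` only, `S36inPtDat` (from `s36oi_carrier` and
  `s36in_dat_of_one`);
* `s36oi_hB`: at every closed point on `W_b` only, `S36inPtDat`, given that the `W_b`-components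
  of the two charts are Dedekind (from `s36oi_carrier_b` and `s36in_dat_of_one`).
-/

set_option autoImplicit false
set_option linter.unusedSectionVars false
set_option linter.unusedVariables false

open AlgebraicCurve ModularCurve Polynomial
open Fermat.Agent.S28 Fermat.Agent.S18 Fermat.Agent.S34 Fermat.Agent.S35

namespace Fermat.Agent.S36

local notation "Qb" => AlgebraicClosure ℚ

section Carrier

variable {K0 : Type*} [Field K0] [Algebra ℚ K0] [Algebra K0 Qb] (A0 : ValuationSubring K0)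
  [IsDiscreteValuationRing ↥A0]
  (M q : ℕ) [NeZero M] [hq : Fact q.Prime] (hM : ¬ q ∣ M)
  {a2 : ℕ} (H : HauptRec a2 q) (ha2 : a2 ∣ M)

include ha2 in
/-- **Clause `hA` of `s36k3_point` at the carrier** (both charts). -/
theorem s36oi_hA
    [Algebra A0 ↥(laurentBaseChange K0 (modularFunctionFieldFull (M * q * q)))]
    [IsScalarTower A0 K0 ↥(laurentBaseChange K0 (modularFunctionFieldFull (M * q * q)))]
    (hA0 : A0.LiesOverPrime q)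
    (Wb Wc : ValuationSubring ↥(laurentBaseChange K0 (modularFunctionFieldFull (M * q * q))))
    (halb : ∀ x, heckeAlphaBar K0 (M * q) q x ∈ Wb ↔ x ∈ va2V2 M q hM K0 A0)
    (halc : ∀ x, heckeAlphaBar K0 (M * q) q x ∈ Wc ↔ x ∈ va2V1 M q K0 A0)
    (hexh1 : ∀ W : ValuationSubring ↥(laurentBaseChange K0 (modularFunctionFieldFull (M * q * q))),
      (∀ x, heckeAlphaBar K0 (M * q) q x ∈ W ↔ x ∈ va2V1 M q K0 A0) →
      W = va2V1 (M * q) q K0 A0 ∨ W = Wc)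
    (hexh2 : ∀ W : ValuationSubring ↥(laurentBaseChange K0 (modularFunctionFieldFull (M * q * q))),
      (∀ x, heckeAlphaBar K0 (M * q) q x ∈ W ↔ x ∈ va2V2 M q hM K0 A0) → W = Wb)
    (c0 c1 : A0) (hc : IsLocalRing.residue A0 c0 ≠ IsLocalRing.residue A0 c1)
    (hSM : cinstSMChart K0 A0 M H (c0 : K0) (c1 : K0))
    (hSM' : cinstSMChart K0 A0 M H (c1 : K0) (c0 : K0))
    (t : ↥(laurentBaseChange K0 (modularFunctionFieldFull (M * q * q))))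
    (ht : (t : LaurentSeries K0) = cinstU H K0 (c0 : K0) (c1 : K0))
    (τ : A0) (hτ : Irreducible τ)
    (hτb : algebraMap A0 ↥(laurentBaseChange K0 (modularFunctionFieldFull (M * q * q))) τ ∈
      Wb.nonunits)
    (hdecb : ∀ z : ↥(laurentBaseChange K0 (modularFunctionFieldFull (M * q * q))), z ≠ 0 →
      ∃ j : ℤ,
        z * algebraMap A0 ↥(laurentBaseChange K0 (modularFunctionFieldFull (M * q * q))) τ ^ j
          ∈ Wb ∧
        (z * algebraMap A0 ↥(laurentBaseChange K0 (modularFunctionFieldFull (M * q * q))) τ ^ j)⁻¹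
          ∈ Wb)
    (π : ↥(laurentBaseChange K0 (modularFunctionFieldFull (M * q * q)))) (hπ0 : π ≠ 0)
    (hπc : π ∈ Wc.nonunits)
    (hdecc : ∀ z : ↥(laurentBaseChange K0 (modularFunctionFieldFull (M * q * q))), z ≠ 0 →
      ∃ j : ℤ, z * π ^ j ∈ Wc ∧ (z * π ^ j)⁻¹ ∈ Wc)
    (e : ℕ) (he : 0 < e)
    (hπτ : π ^ e *
      (algebraMap A0 ↥(laurentBaseChange K0 (modularFunctionFieldFull (M * q * q))) τ)⁻¹ ∈ Wc)
    (m : ℕ) (hm : 0 < m) :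
    (∀ 𝔫 : Ideal ↥(chtO A0 {t}), 𝔫.IsMaximal → algebraMap A0 ↥(chtO A0 {t}) τ ∈ 𝔫 →
      (∀ x : ↥(chtO A0 {t}), (x : ↥(laurentBaseChange K0 (modularFunctionFieldFull (M * q * q)))) ∈ (va2V1 (M * q) q K0 A0).nonunits → x ∈ 𝔫) →
      (∃ r : ↥(chtO A0 {t}), (r : ↥(laurentBaseChange K0 (modularFunctionFieldFull (M * q * q)))) ∈ (Wb).nonunits ∧ r ∉ 𝔫) →
      (∃ r : ↥(chtO A0 {t}), (r : ↥(laurentBaseChange K0 (modularFunctionFieldFull (M * q * q)))) ∈ (Wc).nonunits ∧ r ∉ 𝔫) →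
      S36inPtDat τ m q (va2V1 (M * q) q K0 A0) Wb Wc (chtO A0 {t}) 𝔫) ∧
    (∀ 𝔫 : Ideal ↥(chtO A0 {t⁻¹}), 𝔫.IsMaximal → algebraMap A0 ↥(chtO A0 {t⁻¹}) τ ∈ 𝔫 →
      (∀ x : ↥(chtO A0 {t⁻¹}), (x : ↥(laurentBaseChange K0 (modularFunctionFieldFull (M * q * q)))) ∈ (va2V1 (M * q) q K0 A0).nonunits → x ∈ 𝔫) →
      (∃ r : ↥(chtO A0 {t⁻¹}), (r : ↥(laurentBaseChange K0 (modularFunctionFieldFull (M * q * q)))) ∈ (Wb).nonunits ∧ r ∉ 𝔫) →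
      (∃ r : ↥(chtO A0 {t⁻¹}), (r : ↥(laurentBaseChange K0 (modularFunctionFieldFull (M * q * q)))) ∈ (Wc).nonunits ∧ r ∉ 𝔫) →
      S36inPtDat τ m q (va2V1 (M * q) q K0 A0) Wb Wc (chtO A0 {t⁻¹}) 𝔫) := by
  obtain ⟨hc0, hc1⟩ := s36oi_carrier A0 M q hM H ha2 hA0 Wb Wc halb halc hexh1 hexh2 c0 c1 hc
    hSM hSM' t ht τ hτ hτb hdecb π hπ0 hπc hdecc e he hπτ m hm
  obtain ⟨-, h1, h2, h3, -, -, h01, h10, hfrac0, hfrac1, hroot0, hroot1, hcap, hV0, hV1, -⟩ :=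
    s36c3_chart A0 M q hM H ha2 hA0 Wb Wc halb halc hexh1 hexh2 c0 c1 hc t ht τ hτ m hm
  refine ⟨?_, ?_⟩
  · intro 𝔫 h𝔫 _ hthr hXb hXc
    have : 𝔫.IsPrime := h𝔫.isPrime
    exact s36in_dat_of_one τ m q hm _ Wb Wc _ hV0 𝔫 (hc0 𝔫 h𝔫 hthr hXb hXc)
  · intro 𝔫 h𝔫 _ hthr hXb hXc
    have : 𝔫.IsPrime := h𝔫.isPrime
    exact s36in_dat_of_one τ m q hm _ Wb Wc _ hV1 𝔫 (hc1 𝔫 h𝔫 hthr hXb hXc)

include ha2 in
/-- **Clause `hB` of `s36k3_point` at the carrier** (both charts), given the Dedekind property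
of the `W_b`-components. -/
theorem s36oi_hB
    [Algebra A0 ↥(laurentBaseChange K0 (modularFunctionFieldFull (M * q * q)))]
    [IsScalarTower A0 K0 ↥(laurentBaseChange K0 (modularFunctionFieldFull (M * q * q)))]
    (hA0 : A0.LiesOverPrime q)
    (Wb Wc : ValuationSubring ↥(laurentBaseChange K0 (modularFunctionFieldFull (M * q * q))))
    (halb : ∀ x, heckeAlphaBar K0 (M * q) q x ∈ Wb ↔ x ∈ va2V2 M q hM K0 A0)
    (halc : ∀ x, heckeAlphaBar K0 (M * q) q x ∈ Wc ↔ x ∈ va2V1 M q K0 A0)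
    (hexh1 : ∀ W : ValuationSubring ↥(laurentBaseChange K0 (modularFunctionFieldFull (M * q * q))),
      (∀ x, heckeAlphaBar K0 (M * q) q x ∈ W ↔ x ∈ va2V1 M q K0 A0) →
      W = va2V1 (M * q) q K0 A0 ∨ W = Wc)
    (hexh2 : ∀ W : ValuationSubring ↥(laurentBaseChange K0 (modularFunctionFieldFull (M * q * q))),
      (∀ x, heckeAlphaBar K0 (M * q) q x ∈ W ↔ x ∈ va2V2 M q hM K0 A0) → W = Wb)
    (c0 c1 : A0) (hc : IsLocalRing.residue A0 c0 ≠ IsLocalRing.residue A0 c1)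
    (t : ↥(laurentBaseChange K0 (modularFunctionFieldFull (M * q * q))))
    (ht : (t : LaurentSeries K0) = cinstU H K0 (c0 : K0) (c1 : K0))
    (τ : A0) (hτ : Irreducible τ)
    (hτb : algebraMap A0 ↥(laurentBaseChange K0 (modularFunctionFieldFull (M * q * q))) τ ∈
      Wb.nonunits)
    (hdecb : ∀ z : ↥(laurentBaseChange K0 (modularFunctionFieldFull (M * q * q))), z ≠ 0 →
      ∃ j : ℤ,
        z * algebraMap A0 ↥(laurentBaseChange K0 (modularFunctionFieldFull (M * q * q))) τ ^ j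
          ∈ Wb ∧
        (z * algebraMap A0 ↥(laurentBaseChange K0 (modularFunctionFieldFull (M * q * q))) τ ^ j)⁻¹
          ∈ Wb)
    (π : ↥(laurentBaseChange K0 (modularFunctionFieldFull (M * q * q)))) (hπ0 : π ≠ 0)
    (hπc : π ∈ Wc.nonunits)
    (hdecc : ∀ z : ↥(laurentBaseChange K0 (modularFunctionFieldFull (M * q * q))), z ≠ 0 →
      ∃ j : ℤ, z * π ^ j ∈ Wc ∧ (z * π ^ j)⁻¹ ∈ Wc)
    (e : ℕ) (he : 0 < e)
    (hπτ : π ^ e *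
      (algebraMap A0 ↥(laurentBaseChange K0 (modularFunctionFieldFull (M * q * q))) τ)⁻¹ ∈ Wc)
    (hDb0 : ∀ 𝔭 : Ideal ↥(chtO A0 {t}), (∀ x : ↥(chtO A0 {t}), x ∈ 𝔭 ↔
      (x : ↥(laurentBaseChange K0 (modularFunctionFieldFull (M * q * q)))) ∈ Wb.nonunits) →
      IsDedekindDomain (↥(chtO A0 {t}) ⧸ 𝔭))
    (hDb1 : ∀ 𝔭 : Ideal ↥(chtO A0 {t⁻¹}), (∀ x : ↥(chtO A0 {t⁻¹}), x ∈ 𝔭 ↔
      (x : ↥(laurentBaseChange K0 (modularFunctionFieldFull (M * q * q)))) ∈ Wb.nonunits) →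
      IsDedekindDomain (↥(chtO A0 {t⁻¹}) ⧸ 𝔭))
    (m : ℕ) (hm : 0 < m) :
    (∀ 𝔫 : Ideal ↥(chtO A0 {t}), 𝔫.IsMaximal → algebraMap A0 ↥(chtO A0 {t}) τ ∈ 𝔫 →
      (∀ x : ↥(chtO A0 {t}), (x : ↥(laurentBaseChange K0 (modularFunctionFieldFull (M * q * q)))) ∈ (Wb).nonunits → x ∈ 𝔫) →
      (∃ r : ↥(chtO A0 {t}), (r : ↥(laurentBaseChange K0 (modularFunctionFieldFull (M * q * q)))) ∈ (va2V1 (M * q) q K0 A0).nonunits ∧ r ∉ 𝔫) →
      (∃ r : ↥(chtO A0 {t}), (r : ↥(laurentBaseChange K0 (modularFunctionFieldFull (M * q * q)))) ∈ (Wc).nonunits ∧ r ∉ 𝔫) →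
      S36inPtDat τ m q (va2V1 (M * q) q K0 A0) Wb Wc (chtO A0 {t}) 𝔫) ∧
    (∀ 𝔫 : Ideal ↥(chtO A0 {t⁻¹}), 𝔫.IsMaximal → algebraMap A0 ↥(chtO A0 {t⁻¹}) τ ∈ 𝔫 →
      (∀ x : ↥(chtO A0 {t⁻¹}), (x : ↥(laurentBaseChange K0 (modularFunctionFieldFull (M * q * q)))) ∈ (Wb).nonunits → x ∈ 𝔫) →
      (∃ r : ↥(chtO A0 {t⁻¹}), (r : ↥(laurentBaseChange K0 (modularFunctionFieldFull (M * q * q)))) ∈ (va2V1 (M * q) q K0 A0).nonunits ∧ r ∉ 𝔫) →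
      (∃ r : ↥(chtO A0 {t⁻¹}), (r : ↥(laurentBaseChange K0 (modularFunctionFieldFull (M * q * q)))) ∈ (Wc).nonunits ∧ r ∉ 𝔫) →
      S36inPtDat τ m q (va2V1 (M * q) q K0 A0) Wb Wc (chtO A0 {t⁻¹}) 𝔫) := by
  obtain ⟨hc0, hc1⟩ := s36oi_carrier_b A0 M q hM H ha2 hA0 Wb Wc halb halc hexh1 hexh2 c0 c1 hc
    t ht τ hτ hτb hdecb π hπ0 hπc hdecc e he hπτ hDb0 hDb1 m hm
  obtain ⟨-, h1, h2, h3, -, -, h01, h10, hfrac0, hfrac1, hroot0, hroot1, hcap, hV0, hV1, -⟩ :=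
    s36c3_chart A0 M q hM H ha2 hA0 Wb Wc halb halc hexh1 hexh2 c0 c1 hc t ht τ hτ m hm
  refine ⟨?_, ?_⟩
  · intro 𝔫 h𝔫 _ hthr hXa hXc
    have : 𝔫.IsPrime := h𝔫.isPrime
    exact s36in_dat_of_one τ m q hm _ Wb Wc _ hV0 𝔫 (hc0 𝔫 h𝔫 hthr hXa hXc)
  · intro 𝔫 h𝔫 _ hthr hXa hXc
    have : 𝔫.IsPrime := h𝔫.isPrime
    exact s36in_dat_of_one τ m q hm _ Wb Wc _ hV1 𝔫 (hc1 𝔫 h𝔫 hthr hXa hXc)

end Carrier

end Fermat.Agent.S36
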