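import Mathlib
import Fermat.Agent.S36.Comp3
import Fermat.Agent.S36.OneInstDat
import Fermat.Agent.S36.Inst36FieldComp

/-!
# S36, package COMP3 at the carrier

`s36kc_comp3`: the carrier form `S36inComp3 M q hM K0 A0 H c0 c1 m` of COMP3
(S36/Inst36FieldComp.lean) -- the point data at every closed point of the special fibres of the
two Hauptmodul charts of level `M q ^ 2` -- from the dispatch `s36k3_point` (S36/Comp3.lean)
on each chart, with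

* the clause of the `W_a`-only points: `s36oi_hA` (S36/OneInstDat.lean);
* the clause of the `W_b`-only points: `s36oi_hB`, given the Dedekind property of the
  `W_b`-components of the two charts (hypothesis `hDb`);
* `hred`: `s36c3_hred` (S36/Charts3.lean);
* the clauses of the `W_c`-only points (`hC`) and of the triple points (`hT`) and the
  three statements "a closed point on two components is on the three" (`hab`, `hac`, `hbc`)
  as hypotheses, in the binder shapes of `s36k3_point`, one conjunction per clause: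
  first component the chart `chtO A0 {t}`, second component the chart `chtO A0 {t⁻¹}`.

`s36kc_hC_of_branch`, `s36kc_hC_of_one`: the clause `hC` from its branch form and from
`S36inPtOne`.
-/

set_option autoImplicit false
set_option linter.unusedSectionVars false
set_option linter.unusedVariables false

noncomputable section

open ModularCurve AlgebraicCurve Polynomial
open Fermat.Agent.S18 Fermat.Agent.S34 Fermat.Agent.S35

namespace Fermat.Agent.S36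

local notation "Qb" => AlgebraicClosure ℚ

section Conv

variable {A F : Type*} [CommRing A] [Field F] [Algebra A F]

/-- the clause `hC` of `s36k3_point` from `S36inPtOne` -/
theorem s36kc_hC_of_one (τ : A) (m q : ℕ) (hm : 0 < m) (O : Subalgebra A F)
    (Wa Wb Wc : ValuationSubring F)
    (hOa : ∀ y ∈ O, y ∈ Wa) (hOb : ∀ y ∈ O, y ∈ Wb) (hOc : ∀ y ∈ O, y ∈ Wc)
    (hC : ∀ 𝔫 : Ideal ↥O, 𝔫.IsMaximal → algebraMap A ↥O τ ∈ 𝔫 →
      (∀ x : ↥O, (x : F) ∈ Wc.nonunits → x ∈ 𝔫) →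
      (∃ r : ↥O, (r : F) ∈ Wa.nonunits ∧ r ∉ 𝔫) → (∃ r : ↥O, (r : F) ∈ Wb.nonunits ∧ r ∉ 𝔫) →
      S36inPtOne τ m Wa Wb Wc O 𝔫) :
    ∀ 𝔫 : Ideal ↥O, 𝔫.IsMaximal → algebraMap A ↥O τ ∈ 𝔫 →
      (∀ x : ↥O, (x : F) ∈ Wc.nonunits → x ∈ 𝔫) →
      (∃ r : ↥O, (r : F) ∈ Wa.nonunits ∧ r ∉ 𝔫) → (∃ r : ↥O, (r : F) ∈ Wb.nonunits ∧ r ∉ 𝔫) →
      S36inPtDat τ m q Wa Wb Wc O 𝔫 := by
  intro 𝔫 h𝔫 hτ𝔫 h1 h2 h3
  have : 𝔫.IsPrime := h𝔫.isPrime
  exact s36in_dat_of_one τ m q hm Wa Wb Wc O (fun x hx => ⟨hOa x hx, hOb x hx, hOc x hx⟩) 𝔫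
    (hC 𝔫 h𝔫 hτ𝔫 h1 h2 h3)

/-- the clause `hC` of `s36k3_point` from its branch form (`S35IC` and `S35Unit`) -/
theorem s36kc_hC_of_branch (τ : A) (m q : ℕ) (hm : 0 < m) (O : Subalgebra A F)
    (Wa Wb Wc : ValuationSubring F)
    (hOa : ∀ y ∈ O, y ∈ Wa) (hOb : ∀ y ∈ O, y ∈ Wb) (hOc : ∀ y ∈ O, y ∈ Wc)
    (hC : ∀ 𝔫 : Ideal ↥O, 𝔫.IsMaximal → algebraMap A ↥O τ ∈ 𝔫 →
      (∀ x : ↥O, (x : F) ∈ Wc.nonunits → x ∈ 𝔫) →
      (∃ r : ↥O, (r : F) ∈ Wa.nonunits ∧ r ∉ 𝔫) → (∃ r : ↥O, (r : F) ∈ Wb.nonunits ∧ r ∉ 𝔫) →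
      S35IC m O 𝔫 Wc ∧
        ∀ f : F, f ≠ 0 → S36inOrd τ m f → f ∈ Wc → f⁻¹ ∈ Wc → S35Unit m O 𝔫 f) :
    ∀ 𝔫 : Ideal ↥O, 𝔫.IsMaximal → algebraMap A ↥O τ ∈ 𝔫 →
      (∀ x : ↥O, (x : F) ∈ Wc.nonunits → x ∈ 𝔫) →
      (∃ r : ↥O, (r : F) ∈ Wa.nonunits ∧ r ∉ 𝔫) → (∃ r : ↥O, (r : F) ∈ Wb.nonunits ∧ r ∉ 𝔫) →
      S36inPtDat τ m q Wa Wb Wc O 𝔫 :=
  s36kc_hC_of_one τ m q hm O Wa Wb Wc hOa hOb hOc
    (fun 𝔫 h𝔫 hτ𝔫 h1 h2 h3 => s36k3_ptOne_c τ m Wa Wb Wc O 𝔫 h1 h2 h3 (hC 𝔫 h𝔫 hτ𝔫 h1 h2 h3))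

end Conv

section Carrier

variable (M q : ℕ) [NeZero M] [hq : Fact q.Prime] (hM : ¬ q ∣ M)
  (K0 : Type) [Field K0] [Algebra ℚ K0] [Algebra K0 Qb]
  (A0 : ValuationSubring K0) [IsDiscreteValuationRing ↥A0]
  {a2 : ℕ} (H : HauptRec a2 q)

/-- **COMP3 at the carrier.** -/
theorem s36kc_comp3
    [Algebra ↥A0 ↥(laurentBaseChange K0 (modularFunctionFieldFull (M * q)))]
    [IsScalarTower ↥A0 K0 ↥(laurentBaseChange K0 (modularFunctionFieldFull (M * q)))]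
    [Algebra ↥A0 ↥(laurentBaseChange K0 (modularFunctionFieldFull (M * q * q)))]
    [IsScalarTower ↥A0 K0 ↥(laurentBaseChange K0 (modularFunctionFieldFull (M * q * q)))]
    (ha2 : a2 ∣ M) (hA0 : A0.LiesOverPrime q)
    (hunif : ∀ x ∈ A0.nonunits, ∃ a ∈ A0, x = (q : K0) * a)
    (c0 c1 : A0) (hc : IsLocalRing.residue ↥A0 c0 ≠ IsLocalRing.residue ↥A0 c1)
    (hSM : cinstSMChart K0 A0 M H (c0 : K0) (c1 : K0))
    (hSM' : cinstSMChart K0 A0 M H (c1 : K0) (c0 : K0))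
    (m : ℕ) (hm : 0 < m)
    -- HD3-B: the `W_b`-components of the two charts are Dedekind
    (hDb : ∀ t : ↥(laurentBaseChange K0 (modularFunctionFieldFull (M * q * q))),
      (t : LaurentSeries K0) = cinstU H K0 (c0 : K0) (c1 : K0) →
      (∀ 𝔭 : Ideal ↥(chtO A0 {t}), (∀ x : ↥(chtO A0 {t}), x ∈ 𝔭 ↔
        (x : ↥(laurentBaseChange K0 (modularFunctionFieldFull (M * q * q)))) ∈
          ((va2V1 (M * q) q K0 A0).comap (s36v3Swap M q hM K0)).nonunits) →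
        IsDedekindDomain (↥(chtO A0 {t}) ⧸ 𝔭)) ∧
      (∀ 𝔭 : Ideal ↥(chtO A0 {t⁻¹}), (∀ x : ↥(chtO A0 {t⁻¹}), x ∈ 𝔭 ↔
        (x : ↥(laurentBaseChange K0 (modularFunctionFieldFull (M * q * q)))) ∈
          ((va2V1 (M * q) q K0 A0).comap (s36v3Swap M q hM K0)).nonunits) →
        IsDedekindDomain (↥(chtO A0 {t⁻¹}) ⧸ 𝔭)))
    -- PT-TYPES: a closed point on two components is on the three
    (hab : ∀ τ : A0, Irreducible τ →
      ∀ t : ↥(laurentBaseChange K0 (modularFunctionFieldFull (M * q * q))),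
      (t : LaurentSeries K0) = cinstU H K0 (c0 : K0) (c1 : K0) →
      (∀ 𝔫 : Ideal ↥(chtO A0 {t}), 𝔫.IsMaximal → algebraMap ↥A0 ↥(chtO A0 {t}) τ ∈ 𝔫 →
        (∀ x : ↥(chtO A0 {t}),
          (x : ↥(laurentBaseChange K0 (modularFunctionFieldFull (M * q * q)))) ∈
            (va2V1 (M * q) q K0 A0).nonunits → x ∈ 𝔫) →
        (∀ x : ↥(chtO A0 {t}),
          (x : ↥(laurentBaseChange K0 (modularFunctionFieldFull (M * q * q)))) ∈
            ((va2V1 (M * q) q K0 A0).comap (s36v3Swap M q hM K0)).nonunits → x ∈ 𝔫) →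
        ∀ x : ↥(chtO A0 {t}),
          (x : ↥(laurentBaseChange K0 (modularFunctionFieldFull (M * q * q)))) ∈
            (s36v3Wc M q hM K0 A0).nonunits → x ∈ 𝔫) ∧
      (∀ 𝔫 : Ideal ↥(chtO A0 {t⁻¹}), 𝔫.IsMaximal → algebraMap ↥A0 ↥(chtO A0 {t⁻¹}) τ ∈ 𝔫 →
        (∀ x : ↥(chtO A0 {t⁻¹}),
          (x : ↥(laurentBaseChange K0 (modularFunctionFieldFull (M * q * q)))) ∈
            (va2V1 (M * q) q K0 A0).nonunits → x ∈ 𝔫) →
        (∀ x : ↥(chtO A0 {t⁻¹}),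
          (x : ↥(laurentBaseChange K0 (modularFunctionFieldFull (M * q * q)))) ∈
            ((va2V1 (M * q) q K0 A0).comap (s36v3Swap M q hM K0)).nonunits → x ∈ 𝔫) →
        ∀ x : ↥(chtO A0 {t⁻¹}),
          (x : ↥(laurentBaseChange K0 (modularFunctionFieldFull (M * q * q)))) ∈
            (s36v3Wc M q hM K0 A0).nonunits → x ∈ 𝔫))
    (hac : ∀ τ : A0, Irreducible τ →
      ∀ t : ↥(laurentBaseChange K0 (modularFunctionFieldFull (M * q * q))),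
      (t : LaurentSeries K0) = cinstU H K0 (c0 : K0) (c1 : K0) →
      (∀ 𝔫 : Ideal ↥(chtO A0 {t}), 𝔫.IsMaximal → algebraMap ↥A0 ↥(chtO A0 {t}) τ ∈ 𝔫 →
        (∀ x : ↥(chtO A0 {t}),
          (x : ↥(laurentBaseChange K0 (modularFunctionFieldFull (M * q * q)))) ∈
            (va2V1 (M * q) q K0 A0).nonunits → x ∈ 𝔫) →
        (∀ x : ↥(chtO A0 {t}),
          (x : ↥(laurentBaseChange K0 (modularFunctionFieldFull (M * q * q)))) ∈
            (s36v3Wc M q hM K0 A0).nonunits → x ∈ 𝔫) →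
        ∀ x : ↥(chtO A0 {t}),
          (x : ↥(laurentBaseChange K0 (modularFunctionFieldFull (M * q * q)))) ∈
            ((va2V1 (M * q) q K0 A0).comap (s36v3Swap M q hM K0)).nonunits → x ∈ 𝔫) ∧
      (∀ 𝔫 : Ideal ↥(chtO A0 {t⁻¹}), 𝔫.IsMaximal → algebraMap ↥A0 ↥(chtO A0 {t⁻¹}) τ ∈ 𝔫 →
        (∀ x : ↥(chtO A0 {t⁻¹}),
          (x : ↥(laurentBaseChange K0 (modularFunctionFieldFull (M * q * q)))) ∈
            (va2V1 (M * q) q K0 A0).nonunits → x ∈ 𝔫) →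
        (∀ x : ↥(chtO A0 {t⁻¹}),
          (x : ↥(laurentBaseChange K0 (modularFunctionFieldFull (M * q * q)))) ∈
            (s36v3Wc M q hM K0 A0).nonunits → x ∈ 𝔫) →
        ∀ x : ↥(chtO A0 {t⁻¹}),
          (x : ↥(laurentBaseChange K0 (modularFunctionFieldFull (M * q * q)))) ∈
            ((va2V1 (M * q) q K0 A0).comap (s36v3Swap M q hM K0)).nonunits → x ∈ 𝔫))
    (hbc : ∀ τ : A0, Irreducible τ →
      ∀ t : ↥(laurentBaseChange K0 (modularFunctionFieldFull (M * q * q))),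
      (t : LaurentSeries K0) = cinstU H K0 (c0 : K0) (c1 : K0) →
      (∀ 𝔫 : Ideal ↥(chtO A0 {t}), 𝔫.IsMaximal → algebraMap ↥A0 ↥(chtO A0 {t}) τ ∈ 𝔫 →
        (∀ x : ↥(chtO A0 {t}),
          (x : ↥(laurentBaseChange K0 (modularFunctionFieldFull (M * q * q)))) ∈
            ((va2V1 (M * q) q K0 A0).comap (s36v3Swap M q hM K0)).nonunits → x ∈ 𝔫) →
        (∀ x : ↥(chtO A0 {t}),
          (x : ↥(laurentBaseChange K0 (modularFunctionFieldFull (M * q * q)))) ∈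
            (s36v3Wc M q hM K0 A0).nonunits → x ∈ 𝔫) →
        ∀ x : ↥(chtO A0 {t}),
          (x : ↥(laurentBaseChange K0 (modularFunctionFieldFull (M * q * q)))) ∈
            (va2V1 (M * q) q K0 A0).nonunits → x ∈ 𝔫) ∧
      (∀ 𝔫 : Ideal ↥(chtO A0 {t⁻¹}), 𝔫.IsMaximal → algebraMap ↥A0 ↥(chtO A0 {t⁻¹}) τ ∈ 𝔫 →
        (∀ x : ↥(chtO A0 {t⁻¹}),
          (x : ↥(laurentBaseChange K0 (modularFunctionFieldFull (M * q * q)))) ∈
            ((va2V1 (M * q) q K0 A0).comap (s36v3Swap M q hM K0)).nonunits → x ∈ 𝔫) →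
        (∀ x : ↥(chtO A0 {t⁻¹}),
          (x : ↥(laurentBaseChange K0 (modularFunctionFieldFull (M * q * q)))) ∈
            (s36v3Wc M q hM K0 A0).nonunits → x ∈ 𝔫) →
        ∀ x : ↥(chtO A0 {t⁻¹}),
          (x : ↥(laurentBaseChange K0 (modularFunctionFieldFull (M * q * q)))) ∈
            (va2V1 (M * q) q K0 A0).nonunits → x ∈ 𝔫))
    -- the clause of the `W_c`-only points
    (hC : ∀ τ : A0, Irreducible τ →
      ∀ t : ↥(laurentBaseChange K0 (modularFunctionFieldFull (M * q * q))),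
      (t : LaurentSeries K0) = cinstU H K0 (c0 : K0) (c1 : K0) →
      (∀ 𝔫 : Ideal ↥(chtO A0 {t}), 𝔫.IsMaximal → algebraMap ↥A0 ↥(chtO A0 {t}) τ ∈ 𝔫 →
        (∀ x : ↥(chtO A0 {t}),
          (x : ↥(laurentBaseChange K0 (modularFunctionFieldFull (M * q * q)))) ∈
            (s36v3Wc M q hM K0 A0).nonunits → x ∈ 𝔫) →
        (∃ r : ↥(chtO A0 {t}),
          (r : ↥(laurentBaseChange K0 (modularFunctionFieldFull (M * q * q)))) ∈
            (va2V1 (M * q) q K0 A0).nonunits ∧ r ∉ 𝔫) →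
        (∃ r : ↥(chtO A0 {t}),
          (r : ↥(laurentBaseChange K0 (modularFunctionFieldFull (M * q * q)))) ∈
            ((va2V1 (M * q) q K0 A0).comap (s36v3Swap M q hM K0)).nonunits ∧ r ∉ 𝔫) →
        S36inPtDat τ m q (va2V1 (M * q) q K0 A0)
          ((va2V1 (M * q) q K0 A0).comap (s36v3Swap M q hM K0)) (s36v3Wc M q hM K0 A0)
          (chtO A0 {t}) 𝔫) ∧
      (∀ 𝔫 : Ideal ↥(chtO A0 {t⁻¹}), 𝔫.IsMaximal → algebraMap ↥A0 ↥(chtO A0 {t⁻¹}) τ ∈ 𝔫 →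
        (∀ x : ↥(chtO A0 {t⁻¹}),
          (x : ↥(laurentBaseChange K0 (modularFunctionFieldFull (M * q * q)))) ∈
            (s36v3Wc M q hM K0 A0).nonunits → x ∈ 𝔫) →
        (∃ r : ↥(chtO A0 {t⁻¹}),
          (r : ↥(laurentBaseChange K0 (modularFunctionFieldFull (M * q * q)))) ∈
            (va2V1 (M * q) q K0 A0).nonunits ∧ r ∉ 𝔫) →
        (∃ r : ↥(chtO A0 {t⁻¹}),
          (r : ↥(laurentBaseChange K0 (modularFunctionFieldFull (M * q * q)))) ∈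
            ((va2V1 (M * q) q K0 A0).comap (s36v3Swap M q hM K0)).nonunits ∧ r ∉ 𝔫) →
        S36inPtDat τ m q (va2V1 (M * q) q K0 A0)
          ((va2V1 (M * q) q K0 A0).comap (s36v3Swap M q hM K0)) (s36v3Wc M q hM K0 A0)
          (chtO A0 {t⁻¹}) 𝔫))
    -- the clause of the triple points
    (hT : ∀ τ : A0, Irreducible τ →
      ∀ t : ↥(laurentBaseChange K0 (modularFunctionFieldFull (M * q * q))),
      (t : LaurentSeries K0) = cinstU H K0 (c0 : K0) (c1 : K0) →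
      (∀ 𝔫 : Ideal ↥(chtO A0 {t}), ∀ h𝔫 : 𝔫.IsMaximal, algebraMap ↥A0 ↥(chtO A0 {t}) τ ∈ 𝔫 →
        (∀ x : ↥(chtO A0 {t}),
          (x : ↥(laurentBaseChange K0 (modularFunctionFieldFull (M * q * q)))) ∈
            (va2V1 (M * q) q K0 A0).nonunits → x ∈ 𝔫) →
        (∀ x : ↥(chtO A0 {t}),
          (x : ↥(laurentBaseChange K0 (modularFunctionFieldFull (M * q * q)))) ∈
            ((va2V1 (M * q) q K0 A0).comap (s36v3Swap M q hM K0)).nonunits → x ∈ 𝔫) →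
        (∀ x : ↥(chtO A0 {t}),
          (x : ↥(laurentBaseChange K0 (modularFunctionFieldFull (M * q * q)))) ∈
            (s36v3Wc M q hM K0 A0).nonunits → x ∈ 𝔫) →
        S36inPtTri τ m (heckeAlphaBar K0 (M * q) q).toRingHom
          (heckeBetaBar K0 (M * q) q).toRingHom (s35NormA K0 (M * q) q) (s35NormB K0 (M * q) q)
          (va2V1 (M * q) q K0 A0) ((va2V1 (M * q) q K0 A0).comap (s36v3Swap M q hM K0))
          (s36v3Wc M q hM K0 A0) (chtO A0 {t}) 𝔫 h𝔫.isPrime) ∧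
      (∀ 𝔫 : Ideal ↥(chtO A0 {t⁻¹}), ∀ h𝔫 : 𝔫.IsMaximal,
        algebraMap ↥A0 ↥(chtO A0 {t⁻¹}) τ ∈ 𝔫 →
        (∀ x : ↥(chtO A0 {t⁻¹}),
          (x : ↥(laurentBaseChange K0 (modularFunctionFieldFull (M * q * q)))) ∈
            (va2V1 (M * q) q K0 A0).nonunits → x ∈ 𝔫) →
        (∀ x : ↥(chtO A0 {t⁻¹}),
          (x : ↥(laurentBaseChange K0 (modularFunctionFieldFull (M * q * q)))) ∈
            ((va2V1 (M * q) q K0 A0).comap (s36v3Swap M q hM K0)).nonunits → x ∈ 𝔫) →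
        (∀ x : ↥(chtO A0 {t⁻¹}),
          (x : ↥(laurentBaseChange K0 (modularFunctionFieldFull (M * q * q)))) ∈
            (s36v3Wc M q hM K0 A0).nonunits → x ∈ 𝔫) →
        S36inPtTri τ m (heckeAlphaBar K0 (M * q) q).toRingHom
          (heckeBetaBar K0 (M * q) q).toRingHom (s35NormA K0 (M * q) q) (s35NormB K0 (M * q) q)
          (va2V1 (M * q) q K0 A0) ((va2V1 (M * q) q K0 A0).comap (s36v3Swap M q hM K0))
          (s36v3Wc M q hM K0 A0) (chtO A0 {t⁻¹}) 𝔫 h𝔫.isPrime)) :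
    S36inComp3 M q hM K0 A0 H c0 c1 m := by
  classical
  intro τ hτ t ht
  have hqp : q.Prime := hq.out
  have : CharZero K0 := algebraRat.charZero K0
  have hq0 : ((q : ℕ) : K0) ≠ 0 := Nat.cast_ne_zero.mpr hqp.ne_zero
  have hunr : ∀ x ∈ A0.nonunits, x * ((q : ℕ) : K0)⁻¹ ∈ A0 := by
    intro x hx
    obtain ⟨a, ha, rfl⟩ := hunif x hx
    rw [mul_comm ((q : ℕ) : K0) a, mul_assoc, mul_inv_cancel₀ hq0, mul_one]
    exact ha
  -- the uniformiser `z = h(t^(q^2)) - h(t)` of `W_c`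
  obtain ⟨z, hzdef⟩ : ∃ z : ↥(laurentBaseChange K0 (modularFunctionFieldFull (M * q * q))),
      z = s36v3Z M q K0 (nunH K0 M H ha2) := ⟨_, rfl⟩
  have hz0 : z ≠ 0 := by
    rw [hzdef]
    exact s36ai_z_ne_zero M q K0 (nunH K0 M H ha2) H.hZ rfl H.leadZ
  obtain ⟨hza, hza'⟩ : z ∈ va2V1 (M * q) q K0 A0 ∧ z⁻¹ ∈ va2V1 (M * q) q K0 A0 := by
    rw [hzdef]
    exact s36za_Wa M q K0 A0 (nunH K0 M H ha2) H.hZ rfl H.leadZ
  obtain ⟨hzc_nu, hzc, hzc'⟩ : z ∈ (s36v3Wc M q hM K0 A0).nonunits ∧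
      z ^ (q - 1) * ((q : ℕ) :
        ↥(laurentBaseChange K0 (modularFunctionFieldFull (M * q * q))))⁻¹ ∈
        s36v3Wc M q hM K0 A0 ∧
      (z ^ (q - 1) * ((q : ℕ) :
        ↥(laurentBaseChange K0 (modularFunctionFieldFull (M * q * q))))⁻¹)⁻¹ ∈
        s36v3Wc M q hM K0 A0 := by
    rw [hzdef]
    exact s36v3_z_Wc M q hM K0 A0 hA0 (nunH K0 M H ha2) H.hZ rfl H.leadZ
  -- the table
  have hαa : ∀ x : ↥(laurentBaseChange K0 (modularFunctionFieldFull (M * q))),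
      heckeAlphaBar K0 (M * q) q x ∈ va2V1 (M * q) q K0 A0 ↔ x ∈ va2V1 M q K0 A0 :=
    fun x => s36vx_al_Wa M q K0 A0 x
  have hβa : ∀ x : ↥(laurentBaseChange K0 (modularFunctionFieldFull (M * q))),
      heckeBetaBar K0 (M * q) q x ∈ va2V1 (M * q) q K0 A0 ↔ x ∈ va2V1 M q K0 A0 :=
    fun x => s36v3_be_Wa M q K0 A0 x
  have hαb : ∀ x : ↥(laurentBaseChange K0 (modularFunctionFieldFull (M * q))),
      heckeAlphaBar K0 (M * q) q x ∈ (va2V1 (M * q) q K0 A0).comap (s36v3Swap M q hM K0) ↔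
        x ∈ va2V2 M q hM K0 A0 := by
    intro x
    rw [ValuationSubring.mem_comap, s36v3Swap_al, hβa, mem_va2V2]
  have hβb : ∀ x : ↥(laurentBaseChange K0 (modularFunctionFieldFull (M * q))),
      heckeBetaBar K0 (M * q) q x ∈ (va2V1 (M * q) q K0 A0).comap (s36v3Swap M q hM K0) ↔
        x ∈ va2V2 M q hM K0 A0 :=
    fun x => s36vx_be_Wb M q hM K0 A0 x
  have hαc : ∀ x : ↥(laurentBaseChange K0 (modularFunctionFieldFull (M * q))),
      heckeAlphaBar K0 (M * q) q x ∈ s36v3Wc M q hM K0 A0 ↔ x ∈ va2V1 M q K0 A0 :=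
    fun x => s36v3_al_Wc M q hM K0 A0 x
  have hβc : ∀ x : ↥(laurentBaseChange K0 (modularFunctionFieldFull (M * q))),
      heckeBetaBar K0 (M * q) q x ∈ s36v3Wc M q hM K0 A0 ↔ x ∈ va2V2 M q hM K0 A0 :=
    fun x => s36v3_be_Wc M q hM K0 A0 hA0 x
  have hgen : ∀ y ∈ (s36v3Wc M q hM K0 A0).nonunits, y * z⁻¹ ∈ s36v3Wc M q hM K0 A0 :=
    fun y hy => s36vx_unif_c M q K0 A0 hA0 hunr (s36v3Wc M q hM K0 A0) hαc z hz0 hzc hzc' hza
      hza' y hy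
  have hmapF : ∀ a : ↥A0,
      algebraMap ↥A0 ↥(laurentBaseChange K0 (modularFunctionFieldFull (M * q * q))) a =
        algebraMap K0 ↥(laurentBaseChange K0 (modularFunctionFieldFull (M * q * q))) (a : K0) :=
    fun a => IsScalarTower.algebraMap_apply ↥A0 K0 _ a
  have hexh1 : ∀ W : ValuationSubring
      ↥(laurentBaseChange K0 (modularFunctionFieldFull (M * q * q))),
      (∀ x, heckeAlphaBar K0 (M * q) q x ∈ W ↔ x ∈ va2V1 M q K0 A0) →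
      W = va2V1 (M * q) q K0 A0 ∨ W = s36v3Wc M q hM K0 A0 :=
    fun W hW => s36vx_exh_al1 M q K0 A0 hA0 hunr (s36v3Wc M q hM K0 A0) hαc z hz0 hzc hzc' hza
      hza' W hW
  have hexh2 : ∀ W : ValuationSubring
      ↥(laurentBaseChange K0 (modularFunctionFieldFull (M * q * q))),
      (∀ x, heckeAlphaBar K0 (M * q) q x ∈ W ↔ x ∈ va2V2 M q hM K0 A0) →
      W = (va2V1 (M * q) q K0 A0).comap (s36v3Swap M q hM K0) :=
    fun W hW => s36vi_exh_al_Wb M q hM K0 A0 (s36v3Swap M q hM K0) (s36v3Swap_swap M q hM K0)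
      (s36v3Swap_al M q hM K0) hA0 W hW
  have hRαc : ∀ x ∈ s36v3Wc M q hM K0 A0, ∃ r ∈ va2V1 M q K0 A0,
      x - heckeAlphaBar K0 (M * q) q r ∈ (s36v3Wc M q hM K0 A0).nonunits :=
    fun x hx => s36vx_res_al_Wc M q K0 A0 hA0 hunr (s36v3Wc M q hM K0 A0) hαc z hz0 hzc hzc'
      hza hza' x hx
  have hdeca : ∀ y : ↥(laurentBaseChange K0 (modularFunctionFieldFull (M * q * q))), y ≠ 0 →
      ∃ j : ℤ,
        y * algebraMap ↥A0 ↥(laurentBaseChange K0 (modularFunctionFieldFull (M * q * q))) τ ^ j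
          ∈ va2V1 (M * q) q K0 A0 ∧
        (y * algebraMap ↥A0 ↥(laurentBaseChange K0 (modularFunctionFieldFull (M * q * q))) τ ^ j)⁻¹
          ∈ va2V1 (M * q) q K0 A0 := by
    intro y hy
    rw [hmapF]
    exact s36ai_dec_a M q K0 A0 τ hτ y hy
  have hdecb : ∀ y : ↥(laurentBaseChange K0 (modularFunctionFieldFull (M * q * q))), y ≠ 0 →
      ∃ j : ℤ,
        y * algebraMap ↥A0 ↥(laurentBaseChange K0 (modularFunctionFieldFull (M * q * q))) τ ^ j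
          ∈ (va2V1 (M * q) q K0 A0).comap (s36v3Swap M q hM K0) ∧
        (y * algebraMap ↥A0 ↥(laurentBaseChange K0 (modularFunctionFieldFull (M * q * q))) τ ^ j)⁻¹
          ∈ (va2V1 (M * q) q K0 A0).comap (s36v3Swap M q hM K0) := by
    intro y hy
    rw [hmapF]
    exact s36ai_dec_b M q K0 A0 (s36v3Swap M q hM K0) (s36v3Swap_const M q hM K0)
      ((va2V1 (M * q) q K0 A0).comap (s36v3Swap M q hM K0)) (fun _ => Iff.rfl) τ hτ y hy
  have hdecc : ∀ y : ↥(laurentBaseChange K0 (modularFunctionFieldFull (M * q * q))), y ≠ 0 →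
      ∃ j : ℤ, y * z ^ j ∈ s36v3Wc M q hM K0 A0 ∧ (y * z ^ j)⁻¹ ∈ s36v3Wc M q hM K0 A0 :=
    s36ai_dec_Wc M q K0 A0 hA0 (s36v3Wc M q hM K0 A0) hαc z hz0 hgen hzc
  -- the chart bundle
  obtain ⟨⟨hAa, hAb, hAc, hτa, hgena, htt, hex⟩, h1, h2, h3, -, -, h01, h10, hfrac0, hfrac1,
      hroot0, hroot1, hcap, hV0, hV1, hdiv0, hdiv1, hNoe0, hNoe1, hic0, hic1⟩ :=
    s36c3_chart A0 M q hM H ha2 hA0 ((va2V1 (M * q) q K0 A0).comap (s36v3Swap M q hM K0))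
      (s36v3Wc M q hM K0 A0) hαb hαc hexh1 hexh2 c0 c1 hc t ht τ hτ m hm
  -- the uniformiser binders
  obtain ⟨-, -, -, -, -, -, -, -, hτF0, -, -, hτb, hτc, -, -, -, -, hπτ, -⟩ :=
    s36vc_binders M q hM K0 A0 H ha2 hA0 hunr τ hτ (va2V1 (M * q) q K0 A0)
      ((va2V1 (M * q) q K0 A0).comap (s36v3Swap M q hM K0)) (s36v3Wc M q hM K0 A0) hαa hβa hαb
      hβb hαc hβc hRαc z hz0 hzc hzc' hdeca 1 one_pos (Nat.coprime_one_left q)
  have he : 0 < q - 1 := Nat.sub_pos_of_lt hqp.one_lt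
  have hgenb : ∀ y ∈ ((va2V1 (M * q) q K0 A0).comap (s36v3Swap M q hM K0)).nonunits,
      y * (algebraMap ↥A0
        ↥(laurentBaseChange K0 (modularFunctionFieldFull (M * q * q))) τ)⁻¹ ∈
        (va2V1 (M * q) q K0 A0).comap (s36v3Swap M q hM K0) :=
    fun y hy => s36in_gen _ _ hτF0 hτb hdecb y hy
  have hgenc : ∀ y ∈ (s36v3Wc M q hM K0 A0).nonunits,
      y ^ (q - 1) * (algebraMap ↥A0
        ↥(laurentBaseChange K0 (modularFunctionFieldFull (M * q * q))) τ)⁻¹ ∈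
        s36v3Wc M q hM K0 A0 := fun y hy => by
    have e1 : y ^ (q - 1) * (algebraMap ↥A0
        ↥(laurentBaseChange K0 (modularFunctionFieldFull (M * q * q))) τ)⁻¹ =
        (y * z⁻¹) ^ (q - 1) * (z ^ (q - 1) * (algebraMap ↥A0
        ↥(laurentBaseChange K0 (modularFunctionFieldFull (M * q * q))) τ)⁻¹) := by
      rw [mul_pow, inv_pow]
      field_simp
    rw [e1]
    exact (s36v3Wc M q hM K0 A0).mul_mem _ _
      ((s36v3Wc M q hM K0 A0).pow_mem (hgen y hy) _) hπτ.1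
  -- the clauses of the one-component points
  obtain ⟨hA₀, hA₁⟩ := s36oi_hA A0 M q hM H ha2 hA0
    ((va2V1 (M * q) q K0 A0).comap (s36v3Swap M q hM K0)) (s36v3Wc M q hM K0 A0) hαb hαc hexh1
    hexh2 c0 c1 hc hSM hSM' t ht τ hτ hτb hdecb z hz0 hzc_nu hdecc (q - 1) he hπτ.1 m hm
  obtain ⟨hB₀, hB₁⟩ := s36oi_hB A0 M q hM H ha2 hA0
    ((va2V1 (M * q) q K0 A0).comap (s36v3Swap M q hM K0)) (s36v3Wc M q hM K0 A0) hαb hαc hexh1
    hexh2 c0 c1 hc t ht τ hτ hτb hdecb z hz0 hzc_nu hdecc (q - 1) he hπτ.1 (hDb t ht).1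
    (hDb t ht).2 m hm
  obtain ⟨hab₀, hab₁⟩ := hab τ hτ t ht
  obtain ⟨hac₀, hac₁⟩ := hac τ hτ t ht
  obtain ⟨hbc₀, hbc₁⟩ := hbc τ hτ t ht
  obtain ⟨hC₀, hC₁⟩ := hC τ hτ t ht
  obtain ⟨hT₀, hT₁⟩ := hT τ hτ t ht
  refine ⟨?_, ?_⟩
  · exact s36k3_point τ m q (heckeAlphaBar K0 (M * q) q).toRingHom
      (heckeBetaBar K0 (M * q) q).toRingHom (s35NormA K0 (M * q) q) (s35NormB K0 (M * q) q)
      (chtO A0 {t}) (va2V1 (M * q) q K0 A0)
      ((va2V1 (M * q) q K0 A0).comap (s36v3Swap M q hM K0)) (s36v3Wc M q hM K0 A0)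
      (fun y hy => (hV0 y hy).1) (fun y hy => (hV0 y hy).2.1) (fun y hy => (hV0 y hy).2.2)
      (s36c3_hred τ hτF0 (chtO A0 {t}) _ _ _ hV0 hdiv0 hgena hgenb (q - 1) he hgenc)
      hab₀ hac₀ hbc₀ hA₀ hB₀ hC₀ hT₀
  · exact s36k3_point τ m q (heckeAlphaBar K0 (M * q) q).toRingHom
      (heckeBetaBar K0 (M * q) q).toRingHom (s35NormA K0 (M * q) q) (s35NormB K0 (M * q) q)
      (chtO A0 {t⁻¹}) (va2V1 (M * q) q K0 A0)
      ((va2V1 (M * q) q K0 A0).comap (s36v3Swap M q hM K0)) (s36v3Wc M q hM K0 A0)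
      (fun y hy => (hV1 y hy).1) (fun y hy => (hV1 y hy).2.1) (fun y hy => (hV1 y hy).2.2)
      (s36c3_hred τ hτF0 (chtO A0 {t⁻¹}) _ _ _ hV1 hdiv1 hgena hgenb (q - 1) he hgenc)
      hab₁ hac₁ hbc₁ hA₁ hB₁ hC₁ hT₁

end Carrier

end Fermat.Agent.S36
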