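import Mathlib
import Fermat.Agent.S36.Comp3Car

/-!
# S36, package COMP3 at the carrier, variants

* `s36kc_core`: for one irreducible `τ` and one chart coordinate `t`: the two Hauptmodul charts
  of level `M q ^ 2` lie in the three vertical valuation rings, the radical statement `hred`
  of `s36k3_point` on both charts, the clause `hA` of `s36k3_point` on both charts, and the
  clause `hB` on both charts from the Dedekind property of the `W_b`-components.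
* `s36kc_hB_car`: the clause `hB` at the carrier (datum form, both charts) from the Dedekind
  property of the `W_b`-components.
* `s36kc_hC_car`: the clause `hC` at the carrier in datum form from its branch form.
* `s36kc_comp3_dat`: `S36inComp3` from the six clauses `hB`, `hab`, `hac`, `hbc`, `hC`, `hT`,
  the clauses of the one-component points in datum form.
-/

set_option autoImplicit false
set_option linter.unusedSectionVars false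
set_option linter.unusedVariables false
set_option linter.style.longLine false

noncomputable section

open ModularCurve AlgebraicCurve Polynomial
open Fermat.Agent.S18 Fermat.Agent.S34 Fermat.Agent.S35

namespace Fermat.Agent.S36

local notation "Qb" => AlgebraicClosure ℚ

section Carrier

variable (M q : ℕ) [NeZero M] [hq : Fact q.Prime] (hM : ¬ q ∣ M)
  (K0 : Type) [Field K0] [Algebra ℚ K0] [Algebra K0 Qb]
  (A0 : ValuationSubring K0) [IsDiscreteValuationRing ↥A0]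
  {a2 : ℕ} (H : HauptRec a2 q)

/-- **COMP3 at the carrier, the common core**: chart inclusions, `hred`, `hA`, and `hB` from
the Dedekind property of the `W_b`-components, for one `τ` and one `t`. -/
theorem s36kc_core
    [Algebra ↥A0 ↥(laurentBaseChange K0 (modularFunctionFieldFull (M * q)))]
    [IsScalarTower ↥A0 K0 ↥(laurentBaseChange K0 (modularFunctionFieldFull (M * q)))]
    [Algebra ↥A0 ↥(laurentBaseChange K0 (modularFunctionFieldFull (M * q * q)))]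
    [IsScalarTower ↥A0 K0 ↥(laurentBaseChange K0 (modularFunctionFieldFull (M * q * q)))]
    (ha2 : a2 ∣ M) (hA0 : A0.LiesOverPrime q)
    (hunif : ∀ x ∈ A0.nonunits, ∃ a ∈ A0, x = (q : K0) * a)
    (c0 c1 : A0) (hc : IsLocalRing.residue ↥A0 c0 ≠ IsLocalRing.residue ↥A0 c1)
    (t : ↥(laurentBaseChange K0 (modularFunctionFieldFull (M * q * q))))
    (ht : (t : LaurentSeries K0) = cinstU H K0 (c0 : K0) (c1 : K0))
    (τ : A0) (hτ : Irreducible τ) (m : ℕ) (hm : 0 < m) :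
    (∀ y ∈ chtO A0 {t}, y ∈ (va2V1 (M * q) q K0 A0) ∧ y ∈ ((va2V1 (M * q) q K0 A0).comap (s36v3Swap
      M q hM K0)) ∧ y ∈ (s36v3Wc M q hM K0 A0)) ∧
    (∀ y ∈ chtO A0 {t⁻¹}, y ∈ (va2V1 (M * q) q K0 A0) ∧ y ∈ ((va2V1 (M * q) q K0 A0).comap
      (s36v3Swap M q hM K0)) ∧ y ∈ (s36v3Wc M q hM K0 A0)) ∧
    (∀ x ∈ chtO A0 {t}, x ∈ (va2V1 (M * q) q K0 A0).nonunits → x ∈ ((va2V1 (M * q) q K0 A0).comap
      (s36v3Swap M q hM K0)).nonunits → x ∈ (s36v3Wc M q hM K0 A0).nonunits → ∃ (N : ℕ), ∃ y ∈ chtO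
      A0 {t}, x ^ N = algebraMap ↥A0 ↥(laurentBaseChange K0 (modularFunctionFieldFull (M * q * q)))
      τ * y) ∧
    (∀ x ∈ chtO A0 {t⁻¹}, x ∈ (va2V1 (M * q) q K0 A0).nonunits → x ∈ ((va2V1 (M * q) q K0 A0).comap
      (s36v3Swap M q hM K0)).nonunits → x ∈ (s36v3Wc M q hM K0 A0).nonunits → ∃ (N : ℕ), ∃ y ∈ chtO
      A0 {t⁻¹}, x ^ N = algebraMap ↥A0 ↥(laurentBaseChange K0 (modularFunctionFieldFull (M * q *
      q))) τ * y) ∧
    (cinstSMChart K0 A0 M H (c0 : K0) (c1 : K0) → cinstSMChart K0 A0 M H (c1 : K0) (c0 : K0) →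
      (∀ 𝔫 : Ideal ↥(chtO A0 {t}), 𝔫.IsMaximal → algebraMap ↥A0 ↥(chtO A0 {t}) τ ∈ 𝔫 → (∀ x : ↥(chtO
        A0 {t}), (x : ↥(laurentBaseChange K0 (modularFunctionFieldFull (M * q * q)))) ∈ (va2V1 (M *
        q) q K0 A0).nonunits → x ∈ 𝔫) → (∃ r : ↥(chtO A0 {t}), (r : ↥(laurentBaseChange K0
        (modularFunctionFieldFull (M * q * q)))) ∈ ((va2V1 (M * q) q K0 A0).comap (s36v3Swap M q hM
        K0)).nonunits ∧ r ∉ 𝔫) → (∃ r : ↥(chtO A0 {t}), (r : ↥(laurentBaseChange K0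
        (modularFunctionFieldFull (M * q * q)))) ∈ (s36v3Wc M q hM K0 A0).nonunits ∧ r ∉ 𝔫) →
        S36inPtDat τ m q (va2V1 (M * q) q K0 A0) ((va2V1 (M * q) q K0 A0).comap (s36v3Swap M q hM
        K0)) (s36v3Wc M q hM K0 A0) (chtO A0 {t}) 𝔫) ∧
      (∀ 𝔫 : Ideal ↥(chtO A0 {t⁻¹}), 𝔫.IsMaximal → algebraMap ↥A0 ↥(chtO A0 {t⁻¹}) τ ∈ 𝔫 → (∀ x :
        ↥(chtO A0 {t⁻¹}), (x : ↥(laurentBaseChange K0 (modularFunctionFieldFull (M * q * q)))) ∈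
        (va2V1 (M * q) q K0 A0).nonunits → x ∈ 𝔫) → (∃ r : ↥(chtO A0 {t⁻¹}), (r :
        ↥(laurentBaseChange K0 (modularFunctionFieldFull (M * q * q)))) ∈ ((va2V1 (M * q) q K0
        A0).comap (s36v3Swap M q hM K0)).nonunits ∧ r ∉ 𝔫) → (∃ r : ↥(chtO A0 {t⁻¹}), (r :
        ↥(laurentBaseChange K0 (modularFunctionFieldFull (M * q * q)))) ∈ (s36v3Wc M q hM K0
        A0).nonunits ∧ r ∉ 𝔫) → S36inPtDat τ m q (va2V1 (M * q) q K0 A0) ((va2V1 (M * q) q K0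
        A0).comap (s36v3Swap M q hM K0)) (s36v3Wc M q hM K0 A0) (chtO A0 {t⁻¹}) 𝔫)) ∧
    ((∀ 𝔭 : Ideal ↥(chtO A0 {t}), (∀ x : ↥(chtO A0 {t}), x ∈ 𝔭 ↔ (x : ↥(laurentBaseChange K0
      (modularFunctionFieldFull (M * q * q)))) ∈ ((va2V1 (M * q) q K0 A0).comap (s36v3Swap M q hM
      K0)).nonunits) → IsDedekindDomain (↥(chtO A0 {t}) ⧸ 𝔭)) →
      (∀ 𝔭 : Ideal ↥(chtO A0 {t⁻¹}), (∀ x : ↥(chtO A0 {t⁻¹}), x ∈ 𝔭 ↔ (x : ↥(laurentBaseChange K0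
        (modularFunctionFieldFull (M * q * q)))) ∈ ((va2V1 (M * q) q K0 A0).comap (s36v3Swap M q hM
        K0)).nonunits) → IsDedekindDomain (↥(chtO A0 {t⁻¹}) ⧸ 𝔭)) →
      (∀ 𝔫 : Ideal ↥(chtO A0 {t}), 𝔫.IsMaximal → algebraMap ↥A0 ↥(chtO A0 {t}) τ ∈ 𝔫 → (∀ x : ↥(chtO
        A0 {t}), (x : ↥(laurentBaseChange K0 (modularFunctionFieldFull (M * q * q)))) ∈ ((va2V1 (M *
        q) q K0 A0).comap (s36v3Swap M q hM K0)).nonunits → x ∈ 𝔫) → (∃ r : ↥(chtO A0 {t}), (r :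
        ↥(laurentBaseChange K0 (modularFunctionFieldFull (M * q * q)))) ∈ (va2V1 (M * q) q K0
        A0).nonunits ∧ r ∉ 𝔫) → (∃ r : ↥(chtO A0 {t}), (r : ↥(laurentBaseChange K0
        (modularFunctionFieldFull (M * q * q)))) ∈ (s36v3Wc M q hM K0 A0).nonunits ∧ r ∉ 𝔫) →
        S36inPtDat τ m q (va2V1 (M * q) q K0 A0) ((va2V1 (M * q) q K0 A0).comap (s36v3Swap M q hM
        K0)) (s36v3Wc M q hM K0 A0) (chtO A0 {t}) 𝔫) ∧
      (∀ 𝔫 : Ideal ↥(chtO A0 {t⁻¹}), 𝔫.IsMaximal → algebraMap ↥A0 ↥(chtO A0 {t⁻¹}) τ ∈ 𝔫 → (∀ x :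
        ↥(chtO A0 {t⁻¹}), (x : ↥(laurentBaseChange K0 (modularFunctionFieldFull (M * q * q)))) ∈
        ((va2V1 (M * q) q K0 A0).comap (s36v3Swap M q hM K0)).nonunits → x ∈ 𝔫) → (∃ r : ↥(chtO A0
        {t⁻¹}), (r : ↥(laurentBaseChange K0 (modularFunctionFieldFull (M * q * q)))) ∈ (va2V1 (M *
        q) q K0 A0).nonunits ∧ r ∉ 𝔫) → (∃ r : ↥(chtO A0 {t⁻¹}), (r : ↥(laurentBaseChange K0
        (modularFunctionFieldFull (M * q * q)))) ∈ (s36v3Wc M q hM K0 A0).nonunits ∧ r ∉ 𝔫) →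
        S36inPtDat τ m q (va2V1 (M * q) q K0 A0) ((va2V1 (M * q) q K0 A0).comap (s36v3Swap M q hM
        K0)) (s36v3Wc M q hM K0 A0) (chtO A0 {t⁻¹}) 𝔫)) := by
  classical
  have hqp : q.Prime := hq.out
  have : CharZero K0 := algebraRat.charZero K0
  have hq0 : ((q : ℕ) : K0) ≠ 0 := Nat.cast_ne_zero.mpr hqp.ne_zero
  have hunr : ∀ x ∈ A0.nonunits, x * ((q : ℕ) : K0)⁻¹ ∈ A0 := by
    intro x hx
    obtain ⟨a, ha, rfl⟩ := hunif x hx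
    rw [mul_comm ((q : ℕ) : K0) a, mul_assoc, mul_inv_cancel₀ hq0, mul_one]
    exact ha
  -- the uniformiser `z = h(t^(q^2)) - h(t)` of `W_c`
  obtain ⟨z, hzdef⟩ : ∃ z : ↥(laurentBaseChange K0 (modularFunctionFieldFull (M * q * q))),
      z = s36v3Z M q K0 (nunH K0 M H ha2) := ⟨_, rfl⟩
  have hz0 : z ≠ 0 := by
    rw [hzdef]
    exact s36ai_z_ne_zero M q K0 (nunH K0 M H ha2) H.hZ rfl H.leadZ
  obtain ⟨hza, hza'⟩ : z ∈ va2V1 (M * q) q K0 A0 ∧ z⁻¹ ∈ va2V1 (M * q) q K0 A0 := by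
    rw [hzdef]
    exact s36za_Wa M q K0 A0 (nunH K0 M H ha2) H.hZ rfl H.leadZ
  obtain ⟨hzc_nu, hzc, hzc'⟩ : z ∈ (s36v3Wc M q hM K0 A0).nonunits ∧
      z ^ (q - 1) * ((q : ℕ) :
        ↥(laurentBaseChange K0 (modularFunctionFieldFull (M * q * q))))⁻¹ ∈
        s36v3Wc M q hM K0 A0 ∧
      (z ^ (q - 1) * ((q : ℕ) :
        ↥(laurentBaseChange K0 (modularFunctionFieldFull (M * q * q))))⁻¹)⁻¹ ∈
        s36v3Wc M q hM K0 A0 := by
    rw [hzdef]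
    exact s36v3_z_Wc M q hM K0 A0 hA0 (nunH K0 M H ha2) H.hZ rfl H.leadZ
  -- the table
  have hαa : ∀ x : ↥(laurentBaseChange K0 (modularFunctionFieldFull (M * q))),
      heckeAlphaBar K0 (M * q) q x ∈ va2V1 (M * q) q K0 A0 ↔ x ∈ va2V1 M q K0 A0 :=
    fun x => s36vx_al_Wa M q K0 A0 x
  have hβa : ∀ x : ↥(laurentBaseChange K0 (modularFunctionFieldFull (M * q))),
      heckeBetaBar K0 (M * q) q x ∈ va2V1 (M * q) q K0 A0 ↔ x ∈ va2V1 M q K0 A0 :=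
    fun x => s36v3_be_Wa M q K0 A0 x
  have hαb : ∀ x : ↥(laurentBaseChange K0 (modularFunctionFieldFull (M * q))),
      heckeAlphaBar K0 (M * q) q x ∈ (va2V1 (M * q) q K0 A0).comap (s36v3Swap M q hM K0) ↔
        x ∈ va2V2 M q hM K0 A0 := by
    intro x
    rw [ValuationSubring.mem_comap, s36v3Swap_al, hβa, mem_va2V2]
  have hβb : ∀ x : ↥(laurentBaseChange K0 (modularFunctionFieldFull (M * q))),
      heckeBetaBar K0 (M * q) q x ∈ (va2V1 (M * q) q K0 A0).comap (s36v3Swap M q hM K0) ↔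
        x ∈ va2V2 M q hM K0 A0 :=
    fun x => s36vx_be_Wb M q hM K0 A0 x
  have hαc : ∀ x : ↥(laurentBaseChange K0 (modularFunctionFieldFull (M * q))),
      heckeAlphaBar K0 (M * q) q x ∈ s36v3Wc M q hM K0 A0 ↔ x ∈ va2V1 M q K0 A0 :=
    fun x => s36v3_al_Wc M q hM K0 A0 x
  have hβc : ∀ x : ↥(laurentBaseChange K0 (modularFunctionFieldFull (M * q))),
      heckeBetaBar K0 (M * q) q x ∈ s36v3Wc M q hM K0 A0 ↔ x ∈ va2V2 M q hM K0 A0 :=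
    fun x => s36v3_be_Wc M q hM K0 A0 hA0 x
  have hgen : ∀ y ∈ (s36v3Wc M q hM K0 A0).nonunits, y * z⁻¹ ∈ s36v3Wc M q hM K0 A0 :=
    fun y hy => s36vx_unif_c M q K0 A0 hA0 hunr (s36v3Wc M q hM K0 A0) hαc z hz0 hzc hzc' hza
      hza' y hy
  have hmapF : ∀ a : ↥A0,
      algebraMap ↥A0 ↥(laurentBaseChange K0 (modularFunctionFieldFull (M * q * q))) a =
        algebraMap K0 ↥(laurentBaseChange K0 (modularFunctionFieldFull (M * q * q))) (a : K0) :=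
    fun a => IsScalarTower.algebraMap_apply ↥A0 K0 _ a
  have hexh1 : ∀ W : ValuationSubring
      ↥(laurentBaseChange K0 (modularFunctionFieldFull (M * q * q))),
      (∀ x, heckeAlphaBar K0 (M * q) q x ∈ W ↔ x ∈ va2V1 M q K0 A0) →
      W = va2V1 (M * q) q K0 A0 ∨ W = s36v3Wc M q hM K0 A0 :=
    fun W hW => s36vx_exh_al1 M q K0 A0 hA0 hunr (s36v3Wc M q hM K0 A0) hαc z hz0 hzc hzc' hza
      hza' W hW
  have hexh2 : ∀ W : ValuationSubring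
      ↥(laurentBaseChange K0 (modularFunctionFieldFull (M * q * q))),
      (∀ x, heckeAlphaBar K0 (M * q) q x ∈ W ↔ x ∈ va2V2 M q hM K0 A0) →
      W = (va2V1 (M * q) q K0 A0).comap (s36v3Swap M q hM K0) :=
    fun W hW => s36vi_exh_al_Wb M q hM K0 A0 (s36v3Swap M q hM K0) (s36v3Swap_swap M q hM K0)
      (s36v3Swap_al M q hM K0) hA0 W hW
  have hRαc : ∀ x ∈ s36v3Wc M q hM K0 A0, ∃ r ∈ va2V1 M q K0 A0,
      x - heckeAlphaBar K0 (M * q) q r ∈ (s36v3Wc M q hM K0 A0).nonunits :=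
    fun x hx => s36vx_res_al_Wc M q K0 A0 hA0 hunr (s36v3Wc M q hM K0 A0) hαc z hz0 hzc hzc'
      hza hza' x hx
  have hdeca : ∀ y : ↥(laurentBaseChange K0 (modularFunctionFieldFull (M * q * q))), y ≠ 0 →
      ∃ j : ℤ,
        y * algebraMap ↥A0 ↥(laurentBaseChange K0 (modularFunctionFieldFull (M * q * q))) τ ^ j
          ∈ va2V1 (M * q) q K0 A0 ∧
        (y * algebraMap ↥A0 ↥(laurentBaseChange K0 (modularFunctionFieldFull (M * q * q))) τ ^ j)⁻¹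
          ∈ va2V1 (M * q) q K0 A0 := by
    intro y hy
    rw [hmapF]
    exact s36ai_dec_a M q K0 A0 τ hτ y hy
  have hdecb : ∀ y : ↥(laurentBaseChange K0 (modularFunctionFieldFull (M * q * q))), y ≠ 0 →
      ∃ j : ℤ,
        y * algebraMap ↥A0 ↥(laurentBaseChange K0 (modularFunctionFieldFull (M * q * q))) τ ^ j
          ∈ (va2V1 (M * q) q K0 A0).comap (s36v3Swap M q hM K0) ∧
        (y * algebraMap ↥A0 ↥(laurentBaseChange K0 (modularFunctionFieldFull (M * q * q))) τ ^ j)⁻¹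
          ∈ (va2V1 (M * q) q K0 A0).comap (s36v3Swap M q hM K0) := by
    intro y hy
    rw [hmapF]
    exact s36ai_dec_b M q K0 A0 (s36v3Swap M q hM K0) (s36v3Swap_const M q hM K0)
      ((va2V1 (M * q) q K0 A0).comap (s36v3Swap M q hM K0)) (fun _ => Iff.rfl) τ hτ y hy
  have hdecc : ∀ y : ↥(laurentBaseChange K0 (modularFunctionFieldFull (M * q * q))), y ≠ 0 →
      ∃ j : ℤ, y * z ^ j ∈ s36v3Wc M q hM K0 A0 ∧ (y * z ^ j)⁻¹ ∈ s36v3Wc M q hM K0 A0 :=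
    s36ai_dec_Wc M q K0 A0 hA0 (s36v3Wc M q hM K0 A0) hαc z hz0 hgen hzc
  -- the chart bundle
  obtain ⟨⟨hAa, hAb, hAc, hτa, hgena, htt, hex⟩, h1, h2, h3, -, -, h01, h10, hfrac0, hfrac1,
      hroot0, hroot1, hcap, hV0, hV1, hdiv0, hdiv1, hNoe0, hNoe1, hic0, hic1⟩ :=
    s36c3_chart A0 M q hM H ha2 hA0 ((va2V1 (M * q) q K0 A0).comap (s36v3Swap M q hM K0))
      (s36v3Wc M q hM K0 A0) hαb hαc hexh1 hexh2 c0 c1 hc t ht τ hτ m hm
  -- the uniformiser binders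
  obtain ⟨-, -, -, -, -, -, -, -, hτF0, -, -, hτb, hτc, -, -, -, -, hπτ, -⟩ :=
    s36vc_binders M q hM K0 A0 H ha2 hA0 hunr τ hτ (va2V1 (M * q) q K0 A0)
      ((va2V1 (M * q) q K0 A0).comap (s36v3Swap M q hM K0)) (s36v3Wc M q hM K0 A0) hαa hβa hαb
      hβb hαc hβc hRαc z hz0 hzc hzc' hdeca 1 one_pos (Nat.coprime_one_left q)
  have he : 0 < q - 1 := Nat.sub_pos_of_lt hqp.one_lt
  have hgenb : ∀ y ∈ ((va2V1 (M * q) q K0 A0).comap (s36v3Swap M q hM K0)).nonunits,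
      y * (algebraMap ↥A0
        ↥(laurentBaseChange K0 (modularFunctionFieldFull (M * q * q))) τ)⁻¹ ∈
        (va2V1 (M * q) q K0 A0).comap (s36v3Swap M q hM K0) :=
    fun y hy => s36in_gen _ _ hτF0 hτb hdecb y hy
  have hgenc : ∀ y ∈ (s36v3Wc M q hM K0 A0).nonunits,
      y ^ (q - 1) * (algebraMap ↥A0
        ↥(laurentBaseChange K0 (modularFunctionFieldFull (M * q * q))) τ)⁻¹ ∈
        s36v3Wc M q hM K0 A0 := fun y hy => by
    have e1 : y ^ (q - 1) * (algebraMap ↥A0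
        ↥(laurentBaseChange K0 (modularFunctionFieldFull (M * q * q))) τ)⁻¹ =
        (y * z⁻¹) ^ (q - 1) * (z ^ (q - 1) * (algebraMap ↥A0
        ↥(laurentBaseChange K0 (modularFunctionFieldFull (M * q * q))) τ)⁻¹) := by
      rw [mul_pow, inv_pow]
      field_simp
    rw [e1]
    exact (s36v3Wc M q hM K0 A0).mul_mem _ _
      ((s36v3Wc M q hM K0 A0).pow_mem (hgen y hy) _) hπτ.1
  refine ⟨hV0, hV1,
    s36c3_hred τ hτF0 (chtO A0 {t}) _ _ _ hV0 hdiv0 hgena hgenb (q - 1) he hgenc,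
    s36c3_hred τ hτF0 (chtO A0 {t⁻¹}) _ _ _ hV1 hdiv1 hgena hgenb (q - 1) he hgenc, ?_, ?_⟩
  · intro hSM hSM'
    exact s36oi_hA A0 M q hM H ha2 hA0
      ((va2V1 (M * q) q K0 A0).comap (s36v3Swap M q hM K0)) (s36v3Wc M q hM K0 A0) hαb hαc hexh1
      hexh2 c0 c1 hc hSM hSM' t ht τ hτ hτb hdecb z hz0 hzc_nu hdecc (q - 1) he hπτ.1 m hm
  · intro hDb0 hDb1
    exact s36oi_hB A0 M q hM H ha2 hA0
      ((va2V1 (M * q) q K0 A0).comap (s36v3Swap M q hM K0)) (s36v3Wc M q hM K0 A0) hαb hαc hexh1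
      hexh2 c0 c1 hc t ht τ hτ hτb hdecb z hz0 hzc_nu hdecc (q - 1) he hπτ.1 hDb0 hDb1 m hm


/-- **The clause `hB` at the carrier** (datum form, both charts) from the Dedekind property of
the `W_b`-components of the two charts. -/
theorem s36kc_hB_car
    [Algebra ↥A0 ↥(laurentBaseChange K0 (modularFunctionFieldFull (M * q)))]
    [IsScalarTower ↥A0 K0 ↥(laurentBaseChange K0 (modularFunctionFieldFull (M * q)))]
    [Algebra ↥A0 ↥(laurentBaseChange K0 (modularFunctionFieldFull (M * q * q)))]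
    [IsScalarTower ↥A0 K0 ↥(laurentBaseChange K0 (modularFunctionFieldFull (M * q * q)))]
    (ha2 : a2 ∣ M) (hA0 : A0.LiesOverPrime q)
    (hunif : ∀ x ∈ A0.nonunits, ∃ a ∈ A0, x = (q : K0) * a)
    (c0 c1 : A0) (hc : IsLocalRing.residue ↥A0 c0 ≠ IsLocalRing.residue ↥A0 c1)
    (m : ℕ) (hm : 0 < m)
    (hDb : ∀ t : ↥(laurentBaseChange K0 (modularFunctionFieldFull (M * q * q))),
      (t : LaurentSeries K0) = cinstU H K0 (c0 : K0) (c1 : K0) →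
      (∀ 𝔭 : Ideal ↥(chtO A0 {t}), (∀ x : ↥(chtO A0 {t}), x ∈ 𝔭 ↔ (x : ↥(laurentBaseChange K0
        (modularFunctionFieldFull (M * q * q)))) ∈ ((va2V1 (M * q) q K0 A0).comap (s36v3Swap M q hM
        K0)).nonunits) → IsDedekindDomain (↥(chtO A0 {t}) ⧸ 𝔭)) ∧
      (∀ 𝔭 : Ideal ↥(chtO A0 {t⁻¹}), (∀ x : ↥(chtO A0 {t⁻¹}), x ∈ 𝔭 ↔ (x : ↥(laurentBaseChange K0
        (modularFunctionFieldFull (M * q * q)))) ∈ ((va2V1 (M * q) q K0 A0).comap (s36v3Swap M q hM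
        K0)).nonunits) → IsDedekindDomain (↥(chtO A0 {t⁻¹}) ⧸ 𝔭))) :
    ∀ τ : A0, Irreducible τ → ∀ t : ↥(laurentBaseChange K0 (modularFunctionFieldFull (M * q * q))),
      (t : LaurentSeries K0) = cinstU H K0 (c0 : K0) (c1 : K0) →
      (∀ 𝔫 : Ideal ↥(chtO A0 {t}), 𝔫.IsMaximal → algebraMap ↥A0 ↥(chtO A0 {t}) τ ∈ 𝔫 → (∀ x : ↥(chtO
        A0 {t}), (x : ↥(laurentBaseChange K0 (modularFunctionFieldFull (M * q * q)))) ∈ ((va2V1 (M *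
        q) q K0 A0).comap (s36v3Swap M q hM K0)).nonunits → x ∈ 𝔫) → (∃ r : ↥(chtO A0 {t}), (r :
        ↥(laurentBaseChange K0 (modularFunctionFieldFull (M * q * q)))) ∈ (va2V1 (M * q) q K0
        A0).nonunits ∧ r ∉ 𝔫) → (∃ r : ↥(chtO A0 {t}), (r : ↥(laurentBaseChange K0
        (modularFunctionFieldFull (M * q * q)))) ∈ (s36v3Wc M q hM K0 A0).nonunits ∧ r ∉ 𝔫) →
        S36inPtDat τ m q (va2V1 (M * q) q K0 A0) ((va2V1 (M * q) q K0 A0).comap (s36v3Swap M q hM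
        K0)) (s36v3Wc M q hM K0 A0) (chtO A0 {t}) 𝔫) ∧
      (∀ 𝔫 : Ideal ↥(chtO A0 {t⁻¹}), 𝔫.IsMaximal → algebraMap ↥A0 ↥(chtO A0 {t⁻¹}) τ ∈ 𝔫 → (∀ x :
        ↥(chtO A0 {t⁻¹}), (x : ↥(laurentBaseChange K0 (modularFunctionFieldFull (M * q * q)))) ∈
        ((va2V1 (M * q) q K0 A0).comap (s36v3Swap M q hM K0)).nonunits → x ∈ 𝔫) → (∃ r : ↥(chtO A0
        {t⁻¹}), (r : ↥(laurentBaseChange K0 (modularFunctionFieldFull (M * q * q)))) ∈ (va2V1 (M *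
        q) q K0 A0).nonunits ∧ r ∉ 𝔫) → (∃ r : ↥(chtO A0 {t⁻¹}), (r : ↥(laurentBaseChange K0
        (modularFunctionFieldFull (M * q * q)))) ∈ (s36v3Wc M q hM K0 A0).nonunits ∧ r ∉ 𝔫) →
        S36inPtDat τ m q (va2V1 (M * q) q K0 A0) ((va2V1 (M * q) q K0 A0).comap (s36v3Swap M q hM
        K0)) (s36v3Wc M q hM K0 A0) (chtO A0 {t⁻¹}) 𝔫) := by
  intro τ hτ t ht
  obtain ⟨-, -, -, -, -, hB⟩ := s36kc_core M q hM K0 A0 H ha2 hA0 hunif c0 c1 hc t ht τ hτ m hm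
  exact hB (hDb t ht).1 (hDb t ht).2


/-- **The clause `hC` at the carrier** in datum form from its branch form (both charts). -/
theorem s36kc_hC_car
    [Algebra ↥A0 ↥(laurentBaseChange K0 (modularFunctionFieldFull (M * q)))]
    [IsScalarTower ↥A0 K0 ↥(laurentBaseChange K0 (modularFunctionFieldFull (M * q)))]
    [Algebra ↥A0 ↥(laurentBaseChange K0 (modularFunctionFieldFull (M * q * q)))]
    [IsScalarTower ↥A0 K0 ↥(laurentBaseChange K0 (modularFunctionFieldFull (M * q * q)))]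
    (ha2 : a2 ∣ M) (hA0 : A0.LiesOverPrime q)
    (hunif : ∀ x ∈ A0.nonunits, ∃ a ∈ A0, x = (q : K0) * a)
    (c0 c1 : A0) (hc : IsLocalRing.residue ↥A0 c0 ≠ IsLocalRing.residue ↥A0 c1)
    (m : ℕ) (hm : 0 < m)
    (hC : ∀ τ : A0, Irreducible τ → ∀ t : ↥(laurentBaseChange K0 (modularFunctionFieldFull (M * q *
      q))),
      (t : LaurentSeries K0) = cinstU H K0 (c0 : K0) (c1 : K0) →
      (∀ 𝔫 : Ideal ↥(chtO A0 {t}), 𝔫.IsMaximal → algebraMap ↥A0 ↥(chtO A0 {t}) τ ∈ 𝔫 → (∀ x : ↥(chtO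
        A0 {t}), (x : ↥(laurentBaseChange K0 (modularFunctionFieldFull (M * q * q)))) ∈ (s36v3Wc M q
        hM K0 A0).nonunits → x ∈ 𝔫) → (∃ r : ↥(chtO A0 {t}), (r : ↥(laurentBaseChange K0
        (modularFunctionFieldFull (M * q * q)))) ∈ (va2V1 (M * q) q K0 A0).nonunits ∧ r ∉ 𝔫) → (∃ r
        : ↥(chtO A0 {t}), (r : ↥(laurentBaseChange K0 (modularFunctionFieldFull (M * q * q)))) ∈
        ((va2V1 (M * q) q K0 A0).comap (s36v3Swap M q hM K0)).nonunits ∧ r ∉ 𝔫) → (S35IC m (chtO A0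
        {t}) 𝔫 (s36v3Wc M q hM K0 A0) ∧ ∀ f : ↥(laurentBaseChange K0 (modularFunctionFieldFull (M *
        q * q))), f ≠ 0 → S36inOrd τ m f → f ∈ (s36v3Wc M q hM K0 A0) → f⁻¹ ∈ (s36v3Wc M q hM K0 A0)
        → S35Unit m (chtO A0 {t}) 𝔫 f)) ∧
      (∀ 𝔫 : Ideal ↥(chtO A0 {t⁻¹}), 𝔫.IsMaximal → algebraMap ↥A0 ↥(chtO A0 {t⁻¹}) τ ∈ 𝔫 → (∀ x :
        ↥(chtO A0 {t⁻¹}), (x : ↥(laurentBaseChange K0 (modularFunctionFieldFull (M * q * q)))) ∈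
        (s36v3Wc M q hM K0 A0).nonunits → x ∈ 𝔫) → (∃ r : ↥(chtO A0 {t⁻¹}), (r : ↥(laurentBaseChange
        K0 (modularFunctionFieldFull (M * q * q)))) ∈ (va2V1 (M * q) q K0 A0).nonunits ∧ r ∉ 𝔫) → (∃
        r : ↥(chtO A0 {t⁻¹}), (r : ↥(laurentBaseChange K0 (modularFunctionFieldFull (M * q * q)))) ∈
        ((va2V1 (M * q) q K0 A0).comap (s36v3Swap M q hM K0)).nonunits ∧ r ∉ 𝔫) → (S35IC m (chtO A0
        {t⁻¹}) 𝔫 (s36v3Wc M q hM K0 A0) ∧ ∀ f : ↥(laurentBaseChange K0 (modularFunctionFieldFull (M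
        * q * q))), f ≠ 0 → S36inOrd τ m f → f ∈ (s36v3Wc M q hM K0 A0) → f⁻¹ ∈ (s36v3Wc M q hM K0
        A0) → S35Unit m (chtO A0 {t⁻¹}) 𝔫 f))) :
    ∀ τ : A0, Irreducible τ → ∀ t : ↥(laurentBaseChange K0 (modularFunctionFieldFull (M * q * q))),
      (t : LaurentSeries K0) = cinstU H K0 (c0 : K0) (c1 : K0) →
      (∀ 𝔫 : Ideal ↥(chtO A0 {t}), 𝔫.IsMaximal → algebraMap ↥A0 ↥(chtO A0 {t}) τ ∈ 𝔫 → (∀ x : ↥(chtO
        A0 {t}), (x : ↥(laurentBaseChange K0 (modularFunctionFieldFull (M * q * q)))) ∈ (s36v3Wc M q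
        hM K0 A0).nonunits → x ∈ 𝔫) → (∃ r : ↥(chtO A0 {t}), (r : ↥(laurentBaseChange K0
        (modularFunctionFieldFull (M * q * q)))) ∈ (va2V1 (M * q) q K0 A0).nonunits ∧ r ∉ 𝔫) → (∃ r
        : ↥(chtO A0 {t}), (r : ↥(laurentBaseChange K0 (modularFunctionFieldFull (M * q * q)))) ∈
        ((va2V1 (M * q) q K0 A0).comap (s36v3Swap M q hM K0)).nonunits ∧ r ∉ 𝔫) → S36inPtDat τ m q
        (va2V1 (M * q) q K0 A0) ((va2V1 (M * q) q K0 A0).comap (s36v3Swap M q hM K0)) (s36v3Wc M q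
        hM K0 A0) (chtO A0 {t}) 𝔫) ∧
      (∀ 𝔫 : Ideal ↥(chtO A0 {t⁻¹}), 𝔫.IsMaximal → algebraMap ↥A0 ↥(chtO A0 {t⁻¹}) τ ∈ 𝔫 → (∀ x :
        ↥(chtO A0 {t⁻¹}), (x : ↥(laurentBaseChange K0 (modularFunctionFieldFull (M * q * q)))) ∈
        (s36v3Wc M q hM K0 A0).nonunits → x ∈ 𝔫) → (∃ r : ↥(chtO A0 {t⁻¹}), (r : ↥(laurentBaseChange
        K0 (modularFunctionFieldFull (M * q * q)))) ∈ (va2V1 (M * q) q K0 A0).nonunits ∧ r ∉ 𝔫) → (∃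
        r : ↥(chtO A0 {t⁻¹}), (r : ↥(laurentBaseChange K0 (modularFunctionFieldFull (M * q * q)))) ∈
        ((va2V1 (M * q) q K0 A0).comap (s36v3Swap M q hM K0)).nonunits ∧ r ∉ 𝔫) → S36inPtDat τ m q
        (va2V1 (M * q) q K0 A0) ((va2V1 (M * q) q K0 A0).comap (s36v3Swap M q hM K0)) (s36v3Wc M q
        hM K0 A0) (chtO A0 {t⁻¹}) 𝔫) := by
  intro τ hτ t ht
  obtain ⟨hV0, hV1, -⟩ := s36kc_core M q hM K0 A0 H ha2 hA0 hunif c0 c1 hc t ht τ hτ m hm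
  obtain ⟨hC₀, hC₁⟩ := hC τ hτ t ht
  exact ⟨s36kc_hC_of_branch τ m q hm (chtO A0 {t}) _ _ _ (fun y hy => (hV0 y hy).1)
      (fun y hy => (hV0 y hy).2.1) (fun y hy => (hV0 y hy).2.2) hC₀,
    s36kc_hC_of_branch τ m q hm (chtO A0 {t⁻¹}) _ _ _ (fun y hy => (hV1 y hy).1)
      (fun y hy => (hV1 y hy).2.1) (fun y hy => (hV1 y hy).2.2) hC₁⟩


/-- **COMP3 at the carrier, datum form**: `S36inComp3` from the six clauses. -/
theorem s36kc_comp3_dat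
    [Algebra ↥A0 ↥(laurentBaseChange K0 (modularFunctionFieldFull (M * q)))]
    [IsScalarTower ↥A0 K0 ↥(laurentBaseChange K0 (modularFunctionFieldFull (M * q)))]
    [Algebra ↥A0 ↥(laurentBaseChange K0 (modularFunctionFieldFull (M * q * q)))]
    [IsScalarTower ↥A0 K0 ↥(laurentBaseChange K0 (modularFunctionFieldFull (M * q * q)))]
    (ha2 : a2 ∣ M) (hA0 : A0.LiesOverPrime q)
    (hunif : ∀ x ∈ A0.nonunits, ∃ a ∈ A0, x = (q : K0) * a)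
    (c0 c1 : A0) (hc : IsLocalRing.residue ↥A0 c0 ≠ IsLocalRing.residue ↥A0 c1)
    (hSM : cinstSMChart K0 A0 M H (c0 : K0) (c1 : K0))
    (hSM' : cinstSMChart K0 A0 M H (c1 : K0) (c0 : K0))
    (m : ℕ) (hm : 0 < m)
    (hB : ∀ τ : A0, Irreducible τ → ∀ t : ↥(laurentBaseChange K0 (modularFunctionFieldFull (M * q *
      q))),
      (t : LaurentSeries K0) = cinstU H K0 (c0 : K0) (c1 : K0) →
      (∀ 𝔫 : Ideal ↥(chtO A0 {t}), 𝔫.IsMaximal → algebraMap ↥A0 ↥(chtO A0 {t}) τ ∈ 𝔫 → (∀ x : ↥(chtO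
        A0 {t}), (x : ↥(laurentBaseChange K0 (modularFunctionFieldFull (M * q * q)))) ∈ ((va2V1 (M *
        q) q K0 A0).comap (s36v3Swap M q hM K0)).nonunits → x ∈ 𝔫) → (∃ r : ↥(chtO A0 {t}), (r :
        ↥(laurentBaseChange K0 (modularFunctionFieldFull (M * q * q)))) ∈ (va2V1 (M * q) q K0
        A0).nonunits ∧ r ∉ 𝔫) → (∃ r : ↥(chtO A0 {t}), (r : ↥(laurentBaseChange K0
        (modularFunctionFieldFull (M * q * q)))) ∈ (s36v3Wc M q hM K0 A0).nonunits ∧ r ∉ 𝔫) →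
        S36inPtDat τ m q (va2V1 (M * q) q K0 A0) ((va2V1 (M * q) q K0 A0).comap (s36v3Swap M q hM
        K0)) (s36v3Wc M q hM K0 A0) (chtO A0 {t}) 𝔫) ∧
      (∀ 𝔫 : Ideal ↥(chtO A0 {t⁻¹}), 𝔫.IsMaximal → algebraMap ↥A0 ↥(chtO A0 {t⁻¹}) τ ∈ 𝔫 → (∀ x :
        ↥(chtO A0 {t⁻¹}), (x : ↥(laurentBaseChange K0 (modularFunctionFieldFull (M * q * q)))) ∈
        ((va2V1 (M * q) q K0 A0).comap (s36v3Swap M q hM K0)).nonunits → x ∈ 𝔫) → (∃ r : ↥(chtO A0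
        {t⁻¹}), (r : ↥(laurentBaseChange K0 (modularFunctionFieldFull (M * q * q)))) ∈ (va2V1 (M *
        q) q K0 A0).nonunits ∧ r ∉ 𝔫) → (∃ r : ↥(chtO A0 {t⁻¹}), (r : ↥(laurentBaseChange K0
        (modularFunctionFieldFull (M * q * q)))) ∈ (s36v3Wc M q hM K0 A0).nonunits ∧ r ∉ 𝔫) →
        S36inPtDat τ m q (va2V1 (M * q) q K0 A0) ((va2V1 (M * q) q K0 A0).comap (s36v3Swap M q hM
        K0)) (s36v3Wc M q hM K0 A0) (chtO A0 {t⁻¹}) 𝔫))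
    (hab : ∀ τ : A0, Irreducible τ → ∀ t : ↥(laurentBaseChange K0 (modularFunctionFieldFull (M * q *
      q))),
      (t : LaurentSeries K0) = cinstU H K0 (c0 : K0) (c1 : K0) →
      (∀ 𝔫 : Ideal ↥(chtO A0 {t}), 𝔫.IsMaximal → algebraMap ↥A0 ↥(chtO A0 {t}) τ ∈ 𝔫 → (∀ x : ↥(chtO
        A0 {t}), (x : ↥(laurentBaseChange K0 (modularFunctionFieldFull (M * q * q)))) ∈ (va2V1 (M *
        q) q K0 A0).nonunits → x ∈ 𝔫) → (∀ x : ↥(chtO A0 {t}), (x : ↥(laurentBaseChange K0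
        (modularFunctionFieldFull (M * q * q)))) ∈ ((va2V1 (M * q) q K0 A0).comap (s36v3Swap M q hM
        K0)).nonunits → x ∈ 𝔫) → (∀ x : ↥(chtO A0 {t}), (x : ↥(laurentBaseChange K0
        (modularFunctionFieldFull (M * q * q)))) ∈ (s36v3Wc M q hM K0 A0).nonunits → x ∈ 𝔫)) ∧
      (∀ 𝔫 : Ideal ↥(chtO A0 {t⁻¹}), 𝔫.IsMaximal → algebraMap ↥A0 ↥(chtO A0 {t⁻¹}) τ ∈ 𝔫 → (∀ x :
        ↥(chtO A0 {t⁻¹}), (x : ↥(laurentBaseChange K0 (modularFunctionFieldFull (M * q * q)))) ∈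
        (va2V1 (M * q) q K0 A0).nonunits → x ∈ 𝔫) → (∀ x : ↥(chtO A0 {t⁻¹}), (x :
        ↥(laurentBaseChange K0 (modularFunctionFieldFull (M * q * q)))) ∈ ((va2V1 (M * q) q K0
        A0).comap (s36v3Swap M q hM K0)).nonunits → x ∈ 𝔫) → (∀ x : ↥(chtO A0 {t⁻¹}), (x :
        ↥(laurentBaseChange K0 (modularFunctionFieldFull (M * q * q)))) ∈ (s36v3Wc M q hM K0
        A0).nonunits → x ∈ 𝔫)))
    (hac : ∀ τ : A0, Irreducible τ → ∀ t : ↥(laurentBaseChange K0 (modularFunctionFieldFull (M * q *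
      q))),
      (t : LaurentSeries K0) = cinstU H K0 (c0 : K0) (c1 : K0) →
      (∀ 𝔫 : Ideal ↥(chtO A0 {t}), 𝔫.IsMaximal → algebraMap ↥A0 ↥(chtO A0 {t}) τ ∈ 𝔫 → (∀ x : ↥(chtO
        A0 {t}), (x : ↥(laurentBaseChange K0 (modularFunctionFieldFull (M * q * q)))) ∈ (va2V1 (M *
        q) q K0 A0).nonunits → x ∈ 𝔫) → (∀ x : ↥(chtO A0 {t}), (x : ↥(laurentBaseChange K0
        (modularFunctionFieldFull (M * q * q)))) ∈ (s36v3Wc M q hM K0 A0).nonunits → x ∈ 𝔫) → (∀ x :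
        ↥(chtO A0 {t}), (x : ↥(laurentBaseChange K0 (modularFunctionFieldFull (M * q * q)))) ∈
        ((va2V1 (M * q) q K0 A0).comap (s36v3Swap M q hM K0)).nonunits → x ∈ 𝔫)) ∧
      (∀ 𝔫 : Ideal ↥(chtO A0 {t⁻¹}), 𝔫.IsMaximal → algebraMap ↥A0 ↥(chtO A0 {t⁻¹}) τ ∈ 𝔫 → (∀ x :
        ↥(chtO A0 {t⁻¹}), (x : ↥(laurentBaseChange K0 (modularFunctionFieldFull (M * q * q)))) ∈
        (va2V1 (M * q) q K0 A0).nonunits → x ∈ 𝔫) → (∀ x : ↥(chtO A0 {t⁻¹}), (x :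
        ↥(laurentBaseChange K0 (modularFunctionFieldFull (M * q * q)))) ∈ (s36v3Wc M q hM K0
        A0).nonunits → x ∈ 𝔫) → (∀ x : ↥(chtO A0 {t⁻¹}), (x : ↥(laurentBaseChange K0
        (modularFunctionFieldFull (M * q * q)))) ∈ ((va2V1 (M * q) q K0 A0).comap (s36v3Swap M q hM
        K0)).nonunits → x ∈ 𝔫)))
    (hbc : ∀ τ : A0, Irreducible τ → ∀ t : ↥(laurentBaseChange K0 (modularFunctionFieldFull (M * q *
      q))),
      (t : LaurentSeries K0) = cinstU H K0 (c0 : K0) (c1 : K0) →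
      (∀ 𝔫 : Ideal ↥(chtO A0 {t}), 𝔫.IsMaximal → algebraMap ↥A0 ↥(chtO A0 {t}) τ ∈ 𝔫 → (∀ x : ↥(chtO
        A0 {t}), (x : ↥(laurentBaseChange K0 (modularFunctionFieldFull (M * q * q)))) ∈ ((va2V1 (M *
        q) q K0 A0).comap (s36v3Swap M q hM K0)).nonunits → x ∈ 𝔫) → (∀ x : ↥(chtO A0 {t}), (x :
        ↥(laurentBaseChange K0 (modularFunctionFieldFull (M * q * q)))) ∈ (s36v3Wc M q hM K0
        A0).nonunits → x ∈ 𝔫) → (∀ x : ↥(chtO A0 {t}), (x : ↥(laurentBaseChange K0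
        (modularFunctionFieldFull (M * q * q)))) ∈ (va2V1 (M * q) q K0 A0).nonunits → x ∈ 𝔫)) ∧
      (∀ 𝔫 : Ideal ↥(chtO A0 {t⁻¹}), 𝔫.IsMaximal → algebraMap ↥A0 ↥(chtO A0 {t⁻¹}) τ ∈ 𝔫 → (∀ x :
        ↥(chtO A0 {t⁻¹}), (x : ↥(laurentBaseChange K0 (modularFunctionFieldFull (M * q * q)))) ∈
        ((va2V1 (M * q) q K0 A0).comap (s36v3Swap M q hM K0)).nonunits → x ∈ 𝔫) → (∀ x : ↥(chtO A0
        {t⁻¹}), (x : ↥(laurentBaseChange K0 (modularFunctionFieldFull (M * q * q)))) ∈ (s36v3Wc M q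
        hM K0 A0).nonunits → x ∈ 𝔫) → (∀ x : ↥(chtO A0 {t⁻¹}), (x : ↥(laurentBaseChange K0
        (modularFunctionFieldFull (M * q * q)))) ∈ (va2V1 (M * q) q K0 A0).nonunits → x ∈ 𝔫)))
    (hC : ∀ τ : A0, Irreducible τ → ∀ t : ↥(laurentBaseChange K0 (modularFunctionFieldFull (M * q *
      q))),
      (t : LaurentSeries K0) = cinstU H K0 (c0 : K0) (c1 : K0) →
      (∀ 𝔫 : Ideal ↥(chtO A0 {t}), 𝔫.IsMaximal → algebraMap ↥A0 ↥(chtO A0 {t}) τ ∈ 𝔫 → (∀ x : ↥(chtO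
        A0 {t}), (x : ↥(laurentBaseChange K0 (modularFunctionFieldFull (M * q * q)))) ∈ (s36v3Wc M q
        hM K0 A0).nonunits → x ∈ 𝔫) → (∃ r : ↥(chtO A0 {t}), (r : ↥(laurentBaseChange K0
        (modularFunctionFieldFull (M * q * q)))) ∈ (va2V1 (M * q) q K0 A0).nonunits ∧ r ∉ 𝔫) → (∃ r
        : ↥(chtO A0 {t}), (r : ↥(laurentBaseChange K0 (modularFunctionFieldFull (M * q * q)))) ∈
        ((va2V1 (M * q) q K0 A0).comap (s36v3Swap M q hM K0)).nonunits ∧ r ∉ 𝔫) → S36inPtDat τ m q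
        (va2V1 (M * q) q K0 A0) ((va2V1 (M * q) q K0 A0).comap (s36v3Swap M q hM K0)) (s36v3Wc M q
        hM K0 A0) (chtO A0 {t}) 𝔫) ∧
      (∀ 𝔫 : Ideal ↥(chtO A0 {t⁻¹}), 𝔫.IsMaximal → algebraMap ↥A0 ↥(chtO A0 {t⁻¹}) τ ∈ 𝔫 → (∀ x :
        ↥(chtO A0 {t⁻¹}), (x : ↥(laurentBaseChange K0 (modularFunctionFieldFull (M * q * q)))) ∈
        (s36v3Wc M q hM K0 A0).nonunits → x ∈ 𝔫) → (∃ r : ↥(chtO A0 {t⁻¹}), (r : ↥(laurentBaseChange
        K0 (modularFunctionFieldFull (M * q * q)))) ∈ (va2V1 (M * q) q K0 A0).nonunits ∧ r ∉ 𝔫) → (∃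
        r : ↥(chtO A0 {t⁻¹}), (r : ↥(laurentBaseChange K0 (modularFunctionFieldFull (M * q * q)))) ∈
        ((va2V1 (M * q) q K0 A0).comap (s36v3Swap M q hM K0)).nonunits ∧ r ∉ 𝔫) → S36inPtDat τ m q
        (va2V1 (M * q) q K0 A0) ((va2V1 (M * q) q K0 A0).comap (s36v3Swap M q hM K0)) (s36v3Wc M q
        hM K0 A0) (chtO A0 {t⁻¹}) 𝔫))
    (hT : ∀ τ : A0, Irreducible τ → ∀ t : ↥(laurentBaseChange K0 (modularFunctionFieldFull (M * q *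
      q))),
      (t : LaurentSeries K0) = cinstU H K0 (c0 : K0) (c1 : K0) →
      (∀ 𝔫 : Ideal ↥(chtO A0 {t}), ∀ h𝔫 : 𝔫.IsMaximal, algebraMap ↥A0 ↥(chtO A0 {t}) τ ∈ 𝔫 → (∀ x :
        ↥(chtO A0 {t}), (x : ↥(laurentBaseChange K0 (modularFunctionFieldFull (M * q * q)))) ∈
        (va2V1 (M * q) q K0 A0).nonunits → x ∈ 𝔫) → (∀ x : ↥(chtO A0 {t}), (x : ↥(laurentBaseChange
        K0 (modularFunctionFieldFull (M * q * q)))) ∈ ((va2V1 (M * q) q K0 A0).comap (s36v3Swap M q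
        hM K0)).nonunits → x ∈ 𝔫) → (∀ x : ↥(chtO A0 {t}), (x : ↥(laurentBaseChange K0
        (modularFunctionFieldFull (M * q * q)))) ∈ (s36v3Wc M q hM K0 A0).nonunits → x ∈ 𝔫) →
        S36inPtTri τ m (heckeAlphaBar K0 (M * q) q).toRingHom (heckeBetaBar K0 (M * q) q).toRingHom
        (s35NormA K0 (M * q) q) (s35NormB K0 (M * q) q) (va2V1 (M * q) q K0 A0) ((va2V1 (M * q) q K0
        A0).comap (s36v3Swap M q hM K0)) (s36v3Wc M q hM K0 A0) (chtO A0 {t}) 𝔫 h𝔫.isPrime) ∧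
      (∀ 𝔫 : Ideal ↥(chtO A0 {t⁻¹}), ∀ h𝔫 : 𝔫.IsMaximal, algebraMap ↥A0 ↥(chtO A0 {t⁻¹}) τ ∈ 𝔫 → (∀
        x : ↥(chtO A0 {t⁻¹}), (x : ↥(laurentBaseChange K0 (modularFunctionFieldFull (M * q * q)))) ∈
        (va2V1 (M * q) q K0 A0).nonunits → x ∈ 𝔫) → (∀ x : ↥(chtO A0 {t⁻¹}), (x :
        ↥(laurentBaseChange K0 (modularFunctionFieldFull (M * q * q)))) ∈ ((va2V1 (M * q) q K0
        A0).comap (s36v3Swap M q hM K0)).nonunits → x ∈ 𝔫) → (∀ x : ↥(chtO A0 {t⁻¹}), (x :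
        ↥(laurentBaseChange K0 (modularFunctionFieldFull (M * q * q)))) ∈ (s36v3Wc M q hM K0
        A0).nonunits → x ∈ 𝔫) → S36inPtTri τ m (heckeAlphaBar K0 (M * q) q).toRingHom (heckeBetaBar
        K0 (M * q) q).toRingHom (s35NormA K0 (M * q) q) (s35NormB K0 (M * q) q) (va2V1 (M * q) q K0
        A0) ((va2V1 (M * q) q K0 A0).comap (s36v3Swap M q hM K0)) (s36v3Wc M q hM K0 A0) (chtO A0
        {t⁻¹}) 𝔫 h𝔫.isPrime)) :
    S36inComp3 M q hM K0 A0 H c0 c1 m := by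
  intro τ hτ t ht
  obtain ⟨hV0, hV1, hred0, hred1, hA, -⟩ :=
    s36kc_core M q hM K0 A0 H ha2 hA0 hunif c0 c1 hc t ht τ hτ m hm
  obtain ⟨hA₀, hA₁⟩ := hA hSM hSM'
  obtain ⟨hB₀, hB₁⟩ := hB τ hτ t ht
  obtain ⟨hab₀, hab₁⟩ := hab τ hτ t ht
  obtain ⟨hac₀, hac₁⟩ := hac τ hτ t ht
  obtain ⟨hbc₀, hbc₁⟩ := hbc τ hτ t ht
  obtain ⟨hC₀, hC₁⟩ := hC τ hτ t ht
  obtain ⟨hT₀, hT₁⟩ := hT τ hτ t ht
  refine ⟨?_, ?_⟩
  · exact s36k3_point τ m q (heckeAlphaBar K0 (M * q) q).toRingHom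
      (heckeBetaBar K0 (M * q) q).toRingHom (s35NormA K0 (M * q) q) (s35NormB K0 (M * q) q)
      (chtO A0 {t}) (va2V1 (M * q) q K0 A0)
      ((va2V1 (M * q) q K0 A0).comap (s36v3Swap M q hM K0)) (s36v3Wc M q hM K0 A0)
      (fun y hy => (hV0 y hy).1) (fun y hy => (hV0 y hy).2.1) (fun y hy => (hV0 y hy).2.2)
      hred0 hab₀ hac₀ hbc₀ hA₀ hB₀ hC₀ hT₀
  · exact s36k3_point τ m q (heckeAlphaBar K0 (M * q) q).toRingHom
      (heckeBetaBar K0 (M * q) q).toRingHom (s35NormA K0 (M * q) q) (s35NormB K0 (M * q) q)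
      (chtO A0 {t⁻¹}) (va2V1 (M * q) q K0 A0)
      ((va2V1 (M * q) q K0 A0).comap (s36v3Swap M q hM K0)) (s36v3Wc M q hM K0 A0)
      (fun y hy => (hV1 y hy).1) (fun y hy => (hV1 y hy).2.1) (fun y hy => (hV1 y hy).2.2)
      hred1 hab₁ hac₁ hbc₁ hA₁ hB₁ hC₁ hT₁


end Carrier

end Fermat.Agent.S36
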