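import Fermat.Agent.S36.Val3Def
import Fermat.Agent.S36.Val3Exh

/-!
# S36, package VAL3, part FIN: exhaustion, residue degree one and uniformizers at the carrier

The remaining statements of the `VAL3` contract for the three valuation rings
`W_a = s36v3Wa`, `W_b = s36v3Wb`, `W_c = s36v3Wc` of `F2 = K0(X₀(M q²))`:

* `s36v3_jlead`, `s36v3_j_coe`: the `j`-invariant has an integral expansion with leading term
  `t⁻¹` (so `z_j = j(t^(q²)) - j(t)` is available at every level `M`);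
* `s36v3_z_ne_zero`, `s36v3_z_unif`: `z_f` is a uniformizer of `W_c`, `z_f^(q-1)/q` is a unit of
  `W_c`, `z_f` is a unit of `W_a` and of `W_b`;
* `s36v3_exh_al1` (`W_a`, `W_c` are the only valuation rings over `V₁` via `al`),
  `s36v3_exh_be2` (`W_b`, `W_c` are the only ones over `V₂` via `be`);
* `s36v3_res_al_Wc`, `s36v3_res_be_Wc`: residue degree one of `W_c` over `V₁` via `al` and over
  `V₂` via `be`;
* `s36v3_gen_Wa`, `s36v3_gen_Wb`: `𝔪_{W_a} = τ W_a`, `𝔪_{W_b} = τ W_b`.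
-/

set_option autoImplicit false
set_option linter.style.haveILetI false
set_option linter.unusedSectionVars false

open AlgebraicCurve ModularCurve Fermat.Agent.S18 Fermat.Agent.S34 Fermat.Agent.S35
  Fermat.Agent.S37

namespace Fermat.Agent.S36

local notation "Qb" => AlgebraicClosure ℚ

/-- the `j`-invariant has an integral expansion with leading term `t⁻¹` -/
theorem s36v3_jlead : Hp4Lead (jqModC ℤ) (-1) := by
  refine ⟨jNum.map (Int.castRingHom ℤ), ?_, rfl⟩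
  have h : PowerSeries.constantCoeff (jNum.map (Int.castRingHom ℤ))
      = (Int.castRingHom ℤ) (PowerSeries.constantCoeff jNum) := by
    rw [← PowerSeries.coeff_zero_eq_constantCoeff_apply, PowerSeries.coeff_map,
      PowerSeries.coeff_zero_eq_constantCoeff_apply]
  rw [h, constantCoeff_jNum, map_one]

section Carrier

variable (M q : ℕ) [NeZero M] [hq : Fact q.Prime] (hM : ¬ q ∣ M)
  (K0 : Type*) [Field K0] [Algebra ℚ K0] [Algebra K0 Qb]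
  (A0 : ValuationSubring K0) [IsDiscreteValuationRing ↥A0]

omit [Algebra K0 Qb] [Algebra ℚ K0] in
theorem s36v3_j_coe [Algebra ℚ K0] :
    ((grJ K0 M : ↥(laurentBaseChange K0 (modularFunctionFieldFull M))) : LaurentSeries K0)
      = coeffMap (Int.castRingHom K0) (jqModC ℤ) :=
  (coeffMap_jqModC (Int.castRingHom K0)).symm

/-- `z_f ≠ 0` -/
theorem s36v3_z_ne_zero (f : ↥(laurentBaseChange K0 (modularFunctionFieldFull M)))
    (Z : LaurentSeries ℤ) (hf : (f : LaurentSeries K0) = coeffMap (Int.castRingHom K0) Z)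
    (hZ : Hp4Lead Z (-1)) : s36v3Z M q K0 f ≠ 0 := by
  intro h0
  have hc := s36v3_z_coe M q K0 f Z hf
  rw [h0] at hc
  have hnd : ¬ ((q : ℤ) ∣ (-1 : ℤ)) := by
    intro h
    rw [dvd_neg] at h
    have h' : q ∣ 1 := by exact_mod_cast h
    exact hq.out.one_lt.ne' (Nat.dvd_one.mp h')
  have h2 : (qExpand ℤ q (qExpand ℤ q Z) - Z).coeff (-1) = -1 := by
    rw [HahnSeries.coeff_sub, qExpand_coeff_of_not_dvd q _ hnd, hZ.coeff_self, zero_sub]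
  have h1 := congrArg (fun s => HahnSeries.coeff s (-1)) hc
  simp only [coeffMap_coeff] at h1
  rw [h2] at h1
  have h3 : ((0 : ↥(laurentBaseChange K0 (modularFunctionFieldFull (M * q * q)))) :
      LaurentSeries K0).coeff (-1) = 0 := rfl
  rw [h3] at h1
  simp at h1

/-- **(A1) the uniformizer of `W_c`** -/
theorem s36v3_z_unif (hA0 : A0.LiesOverPrime q)
    (hunr : ∀ x ∈ A0.nonunits, x * ((q : ℕ) : K0)⁻¹ ∈ A0)
    (f : ↥(laurentBaseChange K0 (modularFunctionFieldFull M))) (Z : LaurentSeries ℤ)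
    (hf : (f : LaurentSeries K0) = coeffMap (Int.castRingHom K0) Z) (hZ : Hp4Lead Z (-1)) :
    s36v3Z M q K0 f ∈ (s36v3Wc M q hM K0 A0).nonunits ∧
    (∀ y ∈ (s36v3Wc M q hM K0 A0).nonunits, y * (s36v3Z M q K0 f)⁻¹ ∈ s36v3Wc M q hM K0 A0) ∧
    s36v3Z M q K0 f ^ (q - 1) * ((q : ℕ) :
        ↥(laurentBaseChange K0 (modularFunctionFieldFull (M * q * q))))⁻¹ ∈ s36v3Wc M q hM K0 A0 ∧
    (s36v3Z M q K0 f ^ (q - 1) * ((q : ℕ) :
        ↥(laurentBaseChange K0 (modularFunctionFieldFull (M * q * q))))⁻¹)⁻¹ ∈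
      s36v3Wc M q hM K0 A0 ∧
    s36v3Z M q K0 f ∈ s36v3Wa M q K0 A0 ∧ (s36v3Z M q K0 f)⁻¹ ∈ s36v3Wa M q K0 A0 ∧
    s36v3Z M q K0 f ∈ s36v3Wb M q hM K0 A0 ∧ (s36v3Z M q K0 f)⁻¹ ∈ s36v3Wb M q hM K0 A0 := by
  obtain ⟨hzn, hzc, hzc'⟩ := s36v3_z_Wc M q hM K0 A0 hA0 f Z hf hZ
  obtain ⟨hza, hza'⟩ := s36v3_z_Wa M q K0 A0 f Z hf hZ
  obtain ⟨hzb, hzb'⟩ := s36v3_z_Wb M q hM K0 A0 f Z hf hZ
  have hz0 := s36v3_z_ne_zero M q K0 f Z hf hZ
  exact ⟨hzn, fun y hy => s36vx_unif_c M q K0 A0 hA0 hunr (s36v3Wc M q hM K0 A0)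
    (s36v3_al_Wc M q hM K0 A0) _ hz0 hzc hzc' hza hza' y hy, hzc, hzc', hza, hza', hzb, hzb'⟩

/-! ### (A3) exhaustion in the two separable cases -/

theorem s36v3_exh_al1 (hA0 : A0.LiesOverPrime q)
    (hunr : ∀ x ∈ A0.nonunits, x * ((q : ℕ) : K0)⁻¹ ∈ A0)
    (W : ValuationSubring ↥(laurentBaseChange K0 (modularFunctionFieldFull (M * q * q))))
    (hW : ∀ x, heckeAlphaBar K0 (M * q) q x ∈ W ↔ x ∈ va2V1 M q K0 A0) :
    W = s36v3Wa M q K0 A0 ∨ W = s36v3Wc M q hM K0 A0 := by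
  obtain ⟨hzn, hzc, hzc'⟩ := s36v3_z_Wc M q hM K0 A0 hA0 (grJ K0 M) _ (s36v3_j_coe M K0)
    s36v3_jlead
  obtain ⟨hza, hza'⟩ := s36v3_z_Wa M q K0 A0 (grJ K0 M) _ (s36v3_j_coe M K0) s36v3_jlead
  have hz0 := s36v3_z_ne_zero M q K0 (grJ K0 M) _ (s36v3_j_coe M K0) s36v3_jlead
  exact s36vx_exh_al1 M q K0 A0 hA0 hunr (s36v3Wc M q hM K0 A0) (s36v3_al_Wc M q hM K0 A0) _
    hz0 hzc hzc' hza hza' W hW

theorem s36v3_exh_be2 (hA0 : A0.LiesOverPrime q)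
    (hunr : ∀ x ∈ A0.nonunits, x * ((q : ℕ) : K0)⁻¹ ∈ A0)
    (W : ValuationSubring ↥(laurentBaseChange K0 (modularFunctionFieldFull (M * q * q))))
    (hW : ∀ x, heckeBetaBar K0 (M * q) q x ∈ W ↔ x ∈ va2V2 M q hM K0 A0) :
    W = s36v3Wb M q hM K0 A0 ∨ W = s36v3Wc M q hM K0 A0 := by
  obtain ⟨hzn, hzc, hzc'⟩ := s36v3_z_Wc M q hM K0 A0 hA0 (grJ K0 M) _ (s36v3_j_coe M K0)
    s36v3_jlead
  obtain ⟨hzb, hzb'⟩ := s36v3_z_Wb M q hM K0 A0 (grJ K0 M) _ (s36v3_j_coe M K0) s36v3_jlead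
  have hz0 := s36v3_z_ne_zero M q K0 (grJ K0 M) _ (s36v3_j_coe M K0) s36v3_jlead
  exact s36vx_exh_be2 M q hM K0 A0 hA0 hunr (s36v3Wc M q hM K0 A0)
    (s36v3_be_Wc M q hM K0 A0 hA0) _ hz0 hzc hzc' hzb hzb' W hW

/-! ### (A5) residue degree one of `W_c` -/

theorem s36v3_res_al_Wc (hA0 : A0.LiesOverPrime q)
    (hunr : ∀ x ∈ A0.nonunits, x * ((q : ℕ) : K0)⁻¹ ∈ A0)
    (x : ↥(laurentBaseChange K0 (modularFunctionFieldFull (M * q * q))))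
    (hx : x ∈ s36v3Wc M q hM K0 A0) :
    ∃ r ∈ va2V1 M q K0 A0,
      x - heckeAlphaBar K0 (M * q) q r ∈ (s36v3Wc M q hM K0 A0).nonunits := by
  obtain ⟨hzn, hzc, hzc'⟩ := s36v3_z_Wc M q hM K0 A0 hA0 (grJ K0 M) _ (s36v3_j_coe M K0)
    s36v3_jlead
  obtain ⟨hza, hza'⟩ := s36v3_z_Wa M q K0 A0 (grJ K0 M) _ (s36v3_j_coe M K0) s36v3_jlead
  have hz0 := s36v3_z_ne_zero M q K0 (grJ K0 M) _ (s36v3_j_coe M K0) s36v3_jlead
  exact s36vx_res_al_Wc M q K0 A0 hA0 hunr (s36v3Wc M q hM K0 A0) (s36v3_al_Wc M q hM K0 A0) _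
    hz0 hzc hzc' hza hza' x hx

theorem s36v3_res_be_Wc (hA0 : A0.LiesOverPrime q)
    (hunr : ∀ x ∈ A0.nonunits, x * ((q : ℕ) : K0)⁻¹ ∈ A0)
    (x : ↥(laurentBaseChange K0 (modularFunctionFieldFull (M * q * q))))
    (hx : x ∈ s36v3Wc M q hM K0 A0) :
    ∃ r ∈ va2V2 M q hM K0 A0,
      x - heckeBetaBar K0 (M * q) q r ∈ (s36v3Wc M q hM K0 A0).nonunits := by
  obtain ⟨hzn, hzc, hzc'⟩ := s36v3_z_Wc M q hM K0 A0 hA0 (grJ K0 M) _ (s36v3_j_coe M K0)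
    s36v3_jlead
  obtain ⟨hzb, hzb'⟩ := s36v3_z_Wb M q hM K0 A0 (grJ K0 M) _ (s36v3_j_coe M K0) s36v3_jlead
  have hz0 := s36v3_z_ne_zero M q K0 (grJ K0 M) _ (s36v3_j_coe M K0) s36v3_jlead
  exact s36vx_res_be_Wc M q hM K0 A0 hA0 hunr (s36v3Wc M q hM K0 A0)
    (s36v3_be_Wc M q hM K0 A0 hA0) _ hz0 hzc hzc' hzb hzb' x hx

/-! ### `τ` is a uniformizer of `W_a` and of `W_b` -/

omit [Algebra K0 Qb] in
/-- `𝔪_{W_a} = τ W_a` -/
theorem s36v3_gen_Wa (τ : A0) (hτ : Irreducible τ)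
    (x : ↥(laurentBaseChange K0 (modularFunctionFieldFull (M * q * q))))
    (hx : x ∈ (s36v3Wa M q K0 A0).nonunits) :
    x * (algebraMap K0 ↥(laurentBaseChange K0 (modularFunctionFieldFull (M * q * q)))
      (τ : K0))⁻¹ ∈ s36v3Wa M q K0 A0 :=
  va2_hg1 A0 (M * q) q τ hτ x hx

/-- `𝔪_{W_b} = τ W_b` -/
theorem s36v3_gen_Wb (τ : A0) (hτ : Irreducible τ)
    (x : ↥(laurentBaseChange K0 (modularFunctionFieldFull (M * q * q))))
    (hx : x ∈ (s36v3Wb M q hM K0 A0).nonunits) :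
    x * (algebraMap K0 ↥(laurentBaseChange K0 (modularFunctionFieldFull (M * q * q)))
      (τ : K0))⁻¹ ∈ s36v3Wb M q hM K0 A0 := by
  have hx' : s36v3Swap M q hM K0 x ∈ (s36v3Wa M q K0 A0).nonunits :=
    (s36v3_nonunits_of_iff (s36v3Swap M q hM K0) (s36v3Wb M q hM K0 A0) (s36v3Wa M q K0 A0)
      (fun y => (s36v3_mem_Wb M q hM K0 A0 y).symm) x).mpr hx
  have h := s36v3_gen_Wa M q K0 A0 τ hτ _ hx'
  rw [s36v3_mem_Wb, map_mul, map_inv₀, s36v3Swap_const]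
  exact h

end Carrier

end Fermat.Agent.S36
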