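import Mathlib
import Fermat.Agent.S34.Comp2
import Fermat.Agent.S34.DomInst
import Fermat.Agent.S34.CompInst
import Fermat.Agent.S34.CompLoc
import Fermat.Agent.S34.LocRing
import Fermat.Agent.S36.Val3Fin

/-!
# S36, leaf HD3-B: the component `W_b` of the standard level-`M q^2` charts is Dedekind

The standard charts `chtO A0 {t}`, `chtO A0 {t⁻¹}` of level `M q^2` (`t = (h₀ - c1) / (h₀ - c0)`,
`h₀ = α α' h`) are not integral over the images of level-`M q` charts under `β`; the component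
of `W_b` (residue degree one over the Gauss ring of level `M` through `β β'`) is handled by
`S34.cp2_dedekind`: at every closed point `𝔫` the image under `β β'` of one of the two level-`M`
charts lies in the local ring `O_𝔫` (two-step domination `j₀ → j₁ → j₂`).

* `s36cb_dom2` : the abstract two-step form of `S34.dma_main`;
* `s36cb_dom` : at every prime `𝔫 ∋ τ` of the level-`M q^2` chart, `β β' t_M` or its inverse lies
  in `O_𝔫`;
* `s36cb_hD`, `s36cb_hD_inv` : `chtO A0 {t} ⧸ 𝔭` (resp. `{t⁻¹}`), `𝔭 = chart ∩ 𝔪_{W_b}`, is a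
  Dedekind domain.
-/

set_option autoImplicit false
set_option linter.unusedSectionVars false

open ModularCurve AlgebraicCurve Polynomial
open Fermat.Agent.S18 Fermat.Agent.S37 Fermat.Agent.S34 Fermat.Agent.S35
open scoped IntermediateField

namespace Fermat.Agent.S36

local notation "Qb" => AlgebraicClosure ℚ

/-! ### Abstract statements -/

section Abs

variable {A F : Type*} [CommRing A] [Field F] [Algebra A F]

/-- transport of a modular relation along a ring homomorphism -/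
theorem s36cb_map_rel {F₁ F₂ : Type*} [Field F₁] [Field F₂] (f : F₁ →+* F₂) (Φ : ℤ[X][X])
    (a b : F₁) (h : Φ.eval₂ ((aeval a : ℤ[X] →ₐ[ℤ] F₁).toRingHom) b = 0) :
    Φ.eval₂ ((aeval (f a) : ℤ[X] →ₐ[ℤ] F₂).toRingHom) (f b) = 0 := by
  have hhom : f.comp ((aeval a : ℤ[X] →ₐ[ℤ] F₁).toRingHom)
      = (aeval (f a) : ℤ[X] →ₐ[ℤ] F₂).toRingHom := by
    refine Polynomial.ringHom_ext (fun c => ?_) ?_
    · simp
    · simp
  rw [← hhom, ← Polynomial.hom_eval₂, h, map_zero]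

variable (O : Subalgebra A F) (n : Ideal O) [n.IsPrime]

/-- an element integral over a subalgebra contained in `O_n` lies in `O_n` -/
theorem s36cb_loc_of_integral (hint : ∀ x : F, IsIntegral O x → x ∈ O) (S : Subalgebra A F)
    (hS : ∀ r ∈ S, r ∈ dmaLoc O n) (z : F) (hz : IsIntegral ↥S z) : z ∈ dmaLoc O n := by
  obtain ⟨p, hp, hc, hpx⟩ := (cht_isIntegral_iff S z).mp hz
  have hcoef : (↑p.coeffs : Set F) ⊆ ↑(dmaLoc O n) := by
    intro c hc'
    obtain ⟨i, -, rfl⟩ := Polynomial.mem_coeffs_iff.mp hc'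
    exact hS _ (hc i)
  refine dma_mem_of_monic O n hint (p.toSubring (dmaLoc O n) hcoef)
    ((Polynomial.monic_toSubring p _ hcoef).mpr hp) ?_
  rw [Polynomial.eval₂_eq_eval_map, Polynomial.map_toSubring]
  exact hpx

/-- **DOM, abstract two-step form** (`j → j₁ → j_q`): at every prime `n` of an integrally
closed chart `O` containing the residue characteristic `ℓ`, the chart coordinate
`T = (h_q - c₁)/(h_q - c₀)` of the doubly degenerated Hauptmodul or its inverse lies in `O_n`. -/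
theorem s36cb_dom2 (hint : ∀ x : F, IsIntegral O x → x ∈ O) (ℓ : ℕ) (hℓ : (ℓ : O) ∈ n)
    (P Q U V W : ℤ[X]) (hP : P.Monic) (hdeg : Q.natDegree < P.natDegree)
    (hUV : U * P + V * Q = 1 + C (ℓ : ℤ) * W)
    (h hq j j1 jq c0 c1 : F) (hj0 : j ≠ 0) (hj10 : j1 ≠ 0) (hjq0 : jq ≠ 0)
    (hrel : j * aeval h Q = aeval h P) (hrelq : jq * aeval hq Q = aeval hq P)
    (Φ : ℤ[X][X]) (hΦ : Φ.Monic)
    (h01 : Φ.eval₂ ((aeval j : ℤ[X] →ₐ[ℤ] F).toRingHom) j1 = 0)
    (h10 : Φ.eval₂ ((aeval j1 : ℤ[X] →ₐ[ℤ] F).toRingHom) j = 0)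
    (h12 : Φ.eval₂ ((aeval j1 : ℤ[X] →ₐ[ℤ] F).toRingHom) jq = 0)
    (h21 : Φ.eval₂ ((aeval jq : ℤ[X] →ₐ[ℤ] F).toRingHom) j1 = 0)
    (hc0 : c0 ∈ O) (hc1 : c1 ∈ O) (hc01 : (c0 - c1)⁻¹ ∈ O) (hc : c0 ≠ c1)
    (hQ0 : (aeval c0 Q)⁻¹ ∈ O) (hQ0' : aeval c0 Q ≠ 0)
    (hh : h ≠ c0) (hhq0 : hq ≠ c0) (ht : (h - c1) / (h - c0) ∈ O) :
    (∃ a s : O, s ∉ n ∧ (hq - c1) / (hq - c0) * (s : F) = a) ∨
      (∃ a s : O, s ∉ n ∧ ((hq - c1) / (hq - c0))⁻¹ * (s : F) = a) := by
  have hc0S := dma_of_mem O n hc0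
  have hc1S := dma_of_mem O n hc1
  have hc' : c0 - c1 ≠ 0 := sub_ne_zero.mpr hc
  have hd0 : hq - c0 ≠ 0 := sub_ne_zero.mpr hhq0
  rcases dma_j_dichotomy O n ℓ hℓ P Q U V W hP hdeg hUV hj0 hrel hc0 hc1 hc01 hc hh ht
    with hj | hj
  · -- `j ∈ O_n`
    have hj1 : j1 ∈ dmaLoc O n := dma_mem_of_rel O n hint hj Φ hΦ h01
    have hhq : hq ∈ dmaLoc O n := dma_hq_mem O n hint P Q hP hdeg hrelq Φ hΦ h12 hj1
    have h0S : hq - c0 ∈ dmaLoc O n := (dmaLoc O n).sub_mem hhq hc0S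
    have h1S : hq - c1 ∈ dmaLoc O n := (dmaLoc O n).sub_mem hhq hc1S
    by_cases h0 : hq - c0 ∈ dmaMax O n
    · right
      have h1 : hq - c1 ∉ dmaMax O n := by
        intro h1
        have h2 : c0 - c1 ∈ dmaMax O n := by
          have := (dmaMax O n).sub_mem h1 h0
          rwa [show hq - c1 - (hq - c0) = c0 - c1 by ring] at this
        have h3 := dma_max_mul O n (dma_of_mem O n hc01) h2
        rw [inv_mul_cancel₀ hc'] at h3
        exact dma_one_notMem_max O n h3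
      have hinv := dma_inv_mem O n h1S h1
      have hmem : ((hq - c1) / (hq - c0))⁻¹ ∈ dmaLoc O n := by
        rw [inv_div, div_eq_mul_inv]
        exact (dmaLoc O n).mul_mem h0S hinv
      exact hmem
    · left
      have hinv := dma_inv_mem O n h0S h0
      have hmem : (hq - c1) / (hq - c0) ∈ dmaLoc O n := by
        rw [div_eq_mul_inv]
        exact (dmaLoc O n).mul_mem h1S hinv
      exact hmem
  · -- `1/j ∈ n O_n`
    left
    have hv1 : j1⁻¹ ∈ dmaMax O n := dma_cusp_swap O n hint hj0 hj10 hj Φ hΦ h10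
    have hv : jq⁻¹ ∈ dmaMax O n := dma_cusp_swap O n hint hj10 hjq0 hv1 Φ hΦ h21
    let v' : dmaLoc O n := ⟨jq⁻¹, dma_max_le O n hv⟩
    let c0' : dmaLoc O n := ⟨c0, hc0S⟩
    let G : (dmaLoc O n)[X] := (C v' * P.map (Int.castRingHom (dmaLoc O n))
      - Q.map (Int.castRingHom (dmaLoc O n))).comp (X + C c0')
    have hev : ∀ y : F, eval₂ (dmaLoc O n).subtype y G
        = jq⁻¹ * aeval (y + c0) P - aeval (y + c0) Q := by
      intro y
      show eval₂ (dmaLoc O n).subtype y ((C v' * P.map (Int.castRingHom (dmaLoc O n))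
        - Q.map (Int.castRingHom (dmaLoc O n))).comp (X + C c0')) = _
      rw [eval₂_comp, eval₂_add, eval₂_X, eval₂_C, eval₂_sub, eval₂_mul, eval₂_C,
        dma_eval₂_map, dma_eval₂_map]
      rfl
    have hG : eval₂ (dmaLoc O n).subtype (hq - c0) G = 0 := by
      rw [hev, sub_add_cancel, ← hrelq]
      field_simp
      ring
    have hu : eval₂ (dmaLoc O n).subtype 0 G ∉ dmaMax O n := by
      rw [hev, zero_add]
      intro hmem
      have h1 : jq⁻¹ * aeval c0 P ∈ dmaMax O n := by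
        rw [mul_comm]
        exact dma_max_mul O n (dma_aeval_mem O n hc0S P) hv
      have h2 : aeval c0 Q ∈ dmaMax O n := by
        have := (dmaMax O n).sub_mem h1 hmem
        rwa [sub_sub_cancel] at this
      have h3 := dma_max_mul O n (dma_of_mem O n hQ0) h2
      rw [inv_mul_cancel₀ hQ0'] at h3
      exact dma_one_notMem_max O n h3
    have hz : (hq - c0)⁻¹ ∈ dmaLoc O n := dma_inv_root O n hint G hd0 hG hu
    have hmem : (hq - c1) / (hq - c0) ∈ dmaLoc O n := by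
      have h1 : (hq - c1) / (hq - c0) = 1 + (c0 - c1) * (hq - c0)⁻¹ := by
        field_simp
        ring
      rw [h1]
      exact (dmaLoc O n).add_mem (dmaLoc O n).one_mem
        ((dmaLoc O n).mul_mem ((dmaLoc O n).sub_mem hc0S hc1S) hz)
    exact hmem

end Abs

/-! ### The carrier: two-step domination -/

section Inst

variable (M q : ℕ) [NeZero M] [hq : Fact q.Prime] (hM : ¬ q ∣ M)
  (K0 : Type*) [Field K0] [Algebra ℚ K0] [Algebra K0 Qb]
  (A0 : ValuationSubring K0) [IsDiscreteValuationRing ↥A0]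
  {a2 : ℕ} (H : HauptRec a2 q)

set_option maxHeartbeats 1600000 in
include hM in
/-- **Two-step domination.**  At every prime `𝔫 ∋ τ` of the level-`M q^2` chart `chtO A0 {t}`,
`t = (h₀ - c1) / (h₀ - c0)`, the doubly degenerated coordinate `β β' t_M` of level `M` or its
inverse lies in the local ring at `𝔫`. -/
theorem s36cb_dom (ha2 : a2 ∣ M) (hA0 : A0.LiesOverPrime q)
    [Algebra A0 ↥(laurentBaseChange K0 (modularFunctionFieldFull (M * q * q)))]
    [IsScalarTower A0 K0 ↥(laurentBaseChange K0 (modularFunctionFieldFull (M * q * q)))]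
    (c0 c1 : A0) (hc : ((c0 : K0) - (c1 : K0))⁻¹ ∈ A0) (hc' : (c0 : K0) ≠ (c1 : K0))
    (hQ0 : (aeval (c0 : K0) H.Q)⁻¹ ∈ A0) (hQ0n : aeval (c0 : K0) H.Q ≠ 0)
    (t : ↥(laurentBaseChange K0 (modularFunctionFieldFull (M * q * q))))
    (ht : (t : LaurentSeries K0) = cinstU H K0 (c0 : K0) (c1 : K0))
    (tM : ↥(laurentBaseChange K0 (modularFunctionFieldFull M)))
    (htM : (tM : LaurentSeries K0) = cinstU H K0 (c0 : K0) (c1 : K0))
    (τ : A0) (hτ : Irreducible τ)
    (𝔫 : Ideal ↥(chtO A0 {t})) [h𝔫 : 𝔫.IsPrime]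
    (hτ𝔫 : algebraMap A0 ↥(chtO A0 {t}) τ ∈ 𝔫) :
    heckeBetaBar K0 (M * q) q (heckeBetaBar K0 M q tM) ∈ dmaLoc (chtO A0 {t}) 𝔫 ∨
    (heckeBetaBar K0 (M * q) q (heckeBetaBar K0 M q tM))⁻¹ ∈ dmaLoc (chtO A0 {t}) 𝔫 := by
  classical
  obtain ⟨U, V, W, hUV⟩ := dmi_bezout H.P H.Q H.coprime_mod
  obtain ⟨Φ, hΦ, hΦ1, hΦ2⟩ := mqk_exists_poly M q hq.out hM K0
  -- `q ∈ 𝔫`
  have hq𝔫 : ((q : ℕ) : ↥(chtO A0 {t})) ∈ 𝔫 := by
    have hqA : ((q : ℕ) : K0) ∈ A0.nonunits := hA0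
    have h1 : (((q : ℕ) : A0) : K0) ∈ A0.nonunits := by simpa using hqA
    rw [ValuationSubring.coe_mem_nonunits_iff, hτ.maximalIdeal_eq,
      Ideal.mem_span_singleton] at h1
    obtain ⟨a, ha⟩ := h1
    have h2 : ((q : ℕ) : ↥(chtO A0 {t})) = algebraMap A0 ↥(chtO A0 {t}) τ *
        algebraMap A0 ↥(chtO A0 {t}) a := by
      rw [← map_mul, ← ha, map_natCast]
    rw [h2]
    exact 𝔫.mul_mem_right _ hτ𝔫
  have ha2'' : a2 ∣ M * q * q := (ha2.mul_right q).mul_right q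
  -- the two degeneracy maps as ring homomorphisms
  let al : ↥(laurentBaseChange K0 (modularFunctionFieldFull (M * q))) →+*
      ↥(laurentBaseChange K0 (modularFunctionFieldFull (M * q * q))) :=
    (heckeAlphaBar K0 (M * q) q).toRingHom
  let be : ↥(laurentBaseChange K0 (modularFunctionFieldFull (M * q))) →+*
      ↥(laurentBaseChange K0 (modularFunctionFieldFull (M * q * q))) :=
    (heckeBetaBar K0 (M * q) q).toRingHom
  let β₂ : ↥(laurentBaseChange K0 (modularFunctionFieldFull M)) →+*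
      ↥(laurentBaseChange K0 (modularFunctionFieldFull (M * q * q))) :=
    be.comp (heckeBetaBar K0 M q).toRingHom
  have hβ₂ : ∀ x, β₂ x = heckeBetaBar K0 (M * q) q (heckeBetaBar K0 M q x) := fun x => rfl
  have hβ₂c : ∀ c : K0, β₂ (algebraMap K0 _ c) = algebraMap K0 _ c := by
    intro c
    rw [hβ₂, AlgHom.commutes, AlgHom.commutes]
  -- the three `j`-functions of level `M q^2`
  have hd1 : q ∣ M * q * q := dvd_mul_left q (M * q)
  have hd2 : q * q ∣ M * q * q := ⟨M, by ring⟩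
  set j0 := va2Jd K0 (M * q * q) 1 (one_dvd _) with hj0
  set j1 := va2Jd K0 (M * q * q) q hd1 with hj1
  set j2 := va2Jd K0 (M * q * q) (q * q) hd2 with hj2
  have e_al_J : al (va2Jd K0 (M * q) 1 (one_dvd _)) = j0 :=
    s36d_alpha_jd K0 (M * q) q 1 (one_dvd _) (one_dvd _)
  have e_al_Jq : al (va2Jd K0 (M * q) q (dvd_mul_left q M)) = j1 :=
    s36d_alpha_jd K0 (M * q) q q (dvd_mul_left q M) hd1
  have e_be_J : be (va2Jd K0 (M * q) 1 (one_dvd _)) = j1 := by
    have h1 := s36d_beta_jd K0 (M * q) q 1 (one_dvd _) (by rw [mul_one]; exact hd1)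
    exact h1.trans (mqk_va2Jd_congr K0 (M * q * q) (mul_one q) _ _)
  have e_be_Jq : be (va2Jd K0 (M * q) q (dvd_mul_left q M)) = j2 :=
    s36d_beta_jd K0 (M * q) q q (dvd_mul_left q M) hd2
  have e_be'_J : heckeBetaBar K0 M q (va2Jd K0 M 1 (one_dvd _)) =
      va2Jd K0 (M * q) q (dvd_mul_left q M) := by
    have h1 := s36d_beta_jd K0 M q 1 (one_dvd _) (by rw [mul_one]; exact dvd_mul_left q M)
    exact h1.trans (mqk_va2Jd_congr K0 (M * q) (mul_one q) _ _)
  have h01 := s36cb_map_rel al Φ _ _ hΦ1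
  rw [e_al_J, e_al_Jq] at h01
  have h10 := s36cb_map_rel al Φ _ _ hΦ2
  rw [e_al_J, e_al_Jq] at h10
  have h12 := s36cb_map_rel be Φ _ _ hΦ1
  rw [e_be_J, e_be_Jq] at h12
  have h21 := s36cb_map_rel be Φ _ _ hΦ2
  rw [e_be_J, e_be_Jq] at h21
  -- the Hauptmoduln
  set h0 := dmiH K0 (M * q * q) H ha2'' with hh0
  set hq2 := β₂ (dmiH K0 M H ha2) with hhq2
  have hrel : j0 * aeval h0 H.Q = aeval h0 H.P := dmi_rel K0 (M * q * q) H ha2''
  have hrelq : j2 * aeval hq2 H.Q = aeval hq2 H.P := by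
    have h := congrArg β₂ (dmi_rel K0 M H ha2)
    rw [map_mul, dmi_map_aeval, dmi_map_aeval] at h
    have e : β₂ (va2Jd K0 M 1 (one_dvd _)) = j2 := by
      rw [hβ₂, e_be'_J]
      exact e_be_Jq
    rw [e] at h
    exact h
  have hβ₂inj : Function.Injective β₂ := β₂.injective
  have hne : ∀ c : K0, hq2 ≠
      algebraMap K0 ↥(laurentBaseChange K0 (modularFunctionFieldFull (M * q * q))) c := by
    intro c h0'
    rw [← hβ₂c c] at h0'
    exact dmiH_sub_ne K0 M H ha2 c (hβ₂inj h0')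
  have hc01 : (algebraMap K0 ↥(laurentBaseChange K0 (modularFunctionFieldFull (M * q * q)))
      (c0 : K0) - algebraMap K0 _ (c1 : K0))⁻¹ ∈ chtO A0 {t} := by
    rw [← map_sub, ← map_inv₀]
    exact dmi_const_mem A0 _ hc
  have hQ0' : (aeval (algebraMap K0
      ↥(laurentBaseChange K0 (modularFunctionFieldFull (M * q * q))) (c0 : K0)) H.Q)⁻¹ ∈
      chtO A0 {t} := by
    rw [← dmi_map_aeval, ← map_inv₀]
    exact dmi_const_mem A0 _ hQ0
  have htO : (h0 - algebraMap K0 _ (c1 : K0)) / (h0 - algebraMap K0 _ (c0 : K0)) ∈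
      chtO A0 {t} := by
    rw [← dmi_t_eq K0 (M * q * q) H ha2'' (c0 : K0) (c1 : K0) t ht]
    exact (cht_h1 t).1
  have hcF : algebraMap K0 ↥(laurentBaseChange K0 (modularFunctionFieldFull (M * q * q)))
      (c0 : K0) ≠ algebraMap K0 _ (c1 : K0) := (algebraMap K0 _).injective.ne hc'
  have hQ0n' : aeval (algebraMap K0
      ↥(laurentBaseChange K0 (modularFunctionFieldFull (M * q * q))) (c0 : K0)) H.Q ≠ 0 := by
    rw [← dmi_map_aeval]
    exact (_root_.map_ne_zero _).mpr hQ0n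
  have key := s36cb_dom2 (chtO A0 {t}) 𝔫 (fun x hx => cht_integral_closed {t} hx) q hq𝔫
    H.P H.Q U V W H.P_monic (by rw [H.natDegree_P]; exact H.natDegree_Q) hUV
    h0 hq2 j0 j1 j2
    (algebraMap K0 _ (c0 : K0)) (algebraMap K0 _ (c1 : K0))
    (dmi_jd_ne_zero K0 (M * q * q) 1 _) (dmi_jd_ne_zero K0 (M * q * q) q _)
    (dmi_jd_ne_zero K0 (M * q * q) (q * q) _)
    hrel hrelq Φ hΦ h01 h10 h12 h21
    (dmi_const_mem A0 _ c0.2) (dmi_const_mem A0 _ c1.2) hc01 hcF hQ0' hQ0n'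
    (dmiH_sub_ne K0 (M * q * q) H ha2'' _) (hne _) htO
  have et : heckeBetaBar K0 (M * q) q (heckeBetaBar K0 M q tM) =
      (hq2 - algebraMap K0 _ (c1 : K0)) / (hq2 - algebraMap K0 _ (c0 : K0)) := by
    rw [← hβ₂, dmi_t_eq K0 M H ha2 (c0 : K0) (c1 : K0) tM htM, map_div₀, map_sub, map_sub,
      hβ₂c, hβ₂c]
  rw [et]
  exact key

/-! ### The carrier: the level-`M` charts through `β β'` and the component `W_b` -/

set_option maxHeartbeats 1600000 in
include hM in
/-- **The level-`M` chart through `β β'`**: its image lies in `W_b`, its special fibre is the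
trace of `𝔪_{W_b}`, and it generates the residue field of `W_b`. -/
theorem s36cb_pack (ha2 : a2 ∣ M) (hA0 : A0.LiesOverPrime q)
    [Algebra A0 ↥(laurentBaseChange K0 (modularFunctionFieldFull M))]
    [IsScalarTower A0 K0 ↥(laurentBaseChange K0 (modularFunctionFieldFull M))]
    (d0 d1 : A0) (hd : IsLocalRing.residue A0 d0 ≠ IsLocalRing.residue A0 d1)
    (v : ↥(laurentBaseChange K0 (modularFunctionFieldFull M)))
    (hv : (v : LaurentSeries K0) = cinstU H K0 (d0 : K0) (d1 : K0))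
    (τ : A0) (hτ : Irreducible τ) :
    (∀ z : ↥(chtO A0 {v}),
      heckeBetaBar K0 (M * q) q (heckeBetaBar K0 M q
        (z : ↥(laurentBaseChange K0 (modularFunctionFieldFull M)))) ∈ s36v3Wb M q hM K0 A0) ∧
    (∀ z : ↥(chtO A0 {v}), z ∈ Ideal.span {algebraMap A0 ↥(chtO A0 {v}) τ} ↔
      heckeBetaBar K0 (M * q) q (heckeBetaBar K0 M q
        (z : ↥(laurentBaseChange K0 (modularFunctionFieldFull M)))) ∈
          (s36v3Wb M q hM K0 A0).nonunits) ∧
    (∀ x ∈ s36v3Wb M q hM K0 A0, ∃ a s : ↥(chtO A0 {v}),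
      heckeBetaBar K0 (M * q) q (heckeBetaBar K0 M q
        (s : ↥(laurentBaseChange K0 (modularFunctionFieldFull M)))) ∉
          (s36v3Wb M q hM K0 A0).nonunits ∧
      x * heckeBetaBar K0 (M * q) q (heckeBetaBar K0 M q
          (s : ↥(laurentBaseChange K0 (modularFunctionFieldFull M)))) -
        heckeBetaBar K0 (M * q) q (heckeBetaBar K0 M q
          (a : ↥(laurentBaseChange K0 (modularFunctionFieldFull M)))) ∈
            (s36v3Wb M q hM K0 A0).nonunits) := by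
  classical
  have : CharZero K0 := algebraRat.charZero K0
  have hVGE : ∀ x : ↥(laurentBaseChange K0 (modularFunctionFieldFull M)),
      x ∈ grO A0 hA0 M hM ↔ (x : LaurentSeries K0) ∈ grV A0 := fun x => Iff.rfl
  obtain ⟨hA, hτV, hτgen, htt, htV, htV', hG, hfin, hconst⟩ :=
    c2i_hyps A0 M H (grO A0 hA0 M hM) hVGE d0 d1 hd v hv τ hτ
  have hd' : (d0 : K0) ≠ (d1 : K0) := by
    intro h0
    apply hd
    rw [Subtype.ext h0]
  have hL := cinst_adjoin_grJ_le M H _ _ hd' v hv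
  have huniq := cht_huniq_of_sub (K0 := K0) (L := ↥K0⟮grJ K0 M⟯) (grO A0 hA0 M hM) v hL
    (gr_unique_j A0 hA0 M hM)
  obtain ⟨-, htO, -, ⟨b0, hb0, hspan0⟩, -, -, -, hfrac, -, -, -, hVO, -, hVτ, -⟩ :=
    cht_all (K0 := K0) (grO A0 hA0 M hM) hA hτ hτV hτgen v htt htV htV' hG hfin huniq hconst
      1 one_pos
  have hnoeth : IsNoetherianRing ↥(chtO A0 {v}) := cz_noeth v (chtO A0 {v}) htO b0 hb0 hspan0
  have hτ0 : algebraMap A0 ↥(laurentBaseChange K0 (modularFunctionFieldFull M)) τ ≠ 0 := by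
    intro h0
    have h1 : (τ : K0) = 0 := by
      have h2 : algebraMap K0 ↥(laurentBaseChange K0 (modularFunctionFieldFull M)) (τ : K0)
          = 0 :=
        (IsScalarTower.algebraMap_apply A0 K0
          ↥(laurentBaseChange K0 (modularFunctionFieldFull M)) τ).symm.trans h0
      exact (map_eq_zero _).mp h2
    exact hτ.ne_zero (Subtype.ext h1)
  let φ : ↥(laurentBaseChange K0 (modularFunctionFieldFull M)) →+*
      ↥(laurentBaseChange K0 (modularFunctionFieldFull (M * q * q))) :=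
    (heckeBetaBar K0 (M * q) q).toRingHom.comp (heckeBetaBar K0 M q).toRingHom
  have hφ : ∀ y, φ y = heckeBetaBar K0 (M * q) q (heckeBetaBar K0 M q y) := fun y => rfl
  have hmem : ∀ y : ↥(laurentBaseChange K0 (modularFunctionFieldFull M)),
      φ y ∈ s36v3Wb M q hM K0 A0 ↔ y ∈ grO A0 hA0 M hM := by
    intro y
    rw [hφ, s36v3_be_Wb, mem_va2V2, va2Swap_beta, mem_va2V1, coe_heckeAlphaBar]
    exact (hVGE y).symm
  have hnon : ∀ y : ↥(laurentBaseChange K0 (modularFunctionFieldFull M)),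
      φ y ∈ (s36v3Wb M q hM K0 A0).nonunits ↔ y ∈ (grO A0 hA0 M hM).nonunits :=
    fun y => s36v3_nonunits_of_iff φ _ _ hmem y
  refine ⟨fun z => (hmem _).mpr (hVO _ z.2), fun z => ?_, fun x hx => ?_⟩
  · rw [Ideal.mem_span_singleton, ← hφ, hnon]
    constructor
    · rintro ⟨w, rfl⟩
      exact cht_nonunits_mul (grO A0 hA0 M hM) hτV (hVO _ w.2)
    · intro hz
      obtain ⟨w, hw, hzw⟩ := hVτ _ z.2 hz
      exact ⟨⟨w, hw⟩, Subtype.ext hzw⟩
  · obtain ⟨r, hr, hxr⟩ := s36v3_res_be_Wb M q hM K0 A0 hA0 x hx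
    obtain ⟨a', ha', hra⟩ :=
      va2x_res_one' M q hM K0 A0 hA0 (va2d_finrank K0 M hq.out hM) r hr
    obtain ⟨a, s, hs, has⟩ :=
      cz_frac1 τ (grO A0 hA0 M hM) (chtO A0 {v}) hτV hτ0 hfrac hVO hVτ a' ha'
    refine ⟨a, s, ?_, ?_⟩
    · rw [← hφ, hnon]
      intro h
      have h1 := (grO A0 hA0 M hM).mem_nonunits_iff.mp h
      rw [hs] at h1
      exact lt_irrefl _ h1
    · rw [← hφ, ← hφ, ← has, map_mul, ← sub_mul]
      have h1 : x - φ a' ∈ (s36v3Wb M q hM K0 A0).nonunits := by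
        have e : x - φ a' = (x - heckeBetaBar K0 (M * q) q r) +
            heckeBetaBar K0 (M * q) q (r - heckeBetaBar K0 M q a') := by
          rw [hφ, map_sub]
          ring
        rw [e]
        exact (s36v3Wb M q hM K0 A0).nonunits.add_mem hxr
          ((s36v3_nonunits_of_iff (heckeBetaBar K0 (M * q) q).toRingHom _ _
            (s36v3_be_Wb M q hM K0 A0) _).mpr hra)
      exact cht_nonunits_mul (s36v3Wb M q hM K0 A0) h1 ((hmem _).mpr (hVO _ s.2))

end Inst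

end Fermat.Agent.S36
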