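import Mathlib
import Fermat.Agent.S36.CompDedB

/-!
# S36, leaf HD3-B (second part): the component `W_b` of the standard level-`M q^2` charts is
Dedekind

* `s36cb_loc_abs` : the local datum of `S34.cpl_dedekind` from a chart `chtO A {v}` of a subfield
  `E` with Dedekind special fibre, mapped into `F` by `β₂`, as soon as `β₂ v ∈ O_𝔫`;
* `s36cb_hD`, `s36cb_hD_inv` : `chtO A0 {t} ⧸ 𝔭` (resp. `chtO A0 {t⁻¹} ⧸ 𝔭`),
  `𝔭 = chart ∩ 𝔪_{W_b}`, is a Dedekind domain.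
-/

set_option autoImplicit false
set_option linter.unusedSectionVars false

open ModularCurve AlgebraicCurve Polynomial
open Fermat.Agent.S18 Fermat.Agent.S37 Fermat.Agent.S34 Fermat.Agent.S35
open scoped IntermediateField

namespace Fermat.Agent.S36

local notation "Qb" => AlgebraicClosure ℚ

universe uA uE uF

/-- the local datum of `S34.cpl_dedekind` from a chart of a subfield through `β₂` -/
theorem s36cb_loc_abs {A : Type uA} {E : Type uE} {F : Type uF} [CommRing A] [Field E] [Field F]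
    [Algebra A E] [Algebra A F]
    (t : F) (𝔫 : Ideal ↥(chtO A {t})) [𝔫.IsPrime]
    (W : ValuationSubring F) (β₂ : E →ₐ[A] F) (v : E) (τ : A)
    (hDed : IsDedekindDomain (↥(chtO A {v}) ⧸ Ideal.span {algebraMap A ↥(chtO A {v}) τ}))
    (h1 : ∀ z : ↥(chtO A {v}), β₂ (z : E) ∈ W)
    (h2 : ∀ z : ↥(chtO A {v}), z ∈ Ideal.span {algebraMap A ↥(chtO A {v}) τ} ↔
      β₂ (z : E) ∈ W.nonunits)
    (h3 : ∀ x ∈ W, ∃ a s : ↥(chtO A {v}), β₂ (s : E) ∉ W.nonunits ∧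
      x * β₂ (s : E) - β₂ (a : E) ∈ W.nonunits)
    (hβv : β₂ v ∈ dmaLoc (chtO A {t}) 𝔫) :
    ∃ (R : Type uE) (_ : CommRing R) (B : Type uE) (_ : CommRing B) (_ : IsDedekindDomain B)
      (ψ : R →+* F) (π : R →+* B), Function.Surjective π ∧ (∀ z : R, ψ z ∈ W) ∧
      (∀ z : R, π z = 0 ↔ ψ z ∈ W.nonunits) ∧
      (∀ x ∈ W, ∃ a s : R, ψ s ∉ W.nonunits ∧ x * ψ s - ψ a ∈ W.nonunits) ∧
      (∀ z : R, ∃ s : ↥(chtO A {t}), s ∉ 𝔫 ∧ (s : F) * ψ z ∈ chtO A {t}) := by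
  refine ⟨↥(chtO A {v}), inferInstance,
    ↥(chtO A {v}) ⧸ Ideal.span {algebraMap A ↥(chtO A {v}) τ}, inferInstance, hDed,
    (β₂ : E →+* F).comp (chtO A {v}).val.toRingHom, Ideal.Quotient.mk _,
    Ideal.Quotient.mk_surjective, h1, fun z => ?_, h3, fun z => ?_⟩
  · rw [Ideal.Quotient.eq_zero_iff_mem]
    exact h2 z
  · have hz1 : β₂ (z : E) ∈ chtO A {β₂ v} := cmi_map_mem β₂ v z.2
    have hS : ∀ r ∈ Algebra.adjoin A {β₂ v}, r ∈ dmaLoc (chtO A {t}) 𝔫 := by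
      intro r hr
      have hle : Algebra.adjoin A {β₂ v} ≤ ndrLoc (chtO A {t}) 𝔫 := by
        refine Algebra.adjoin_le ?_
        rintro y rfl
        exact hβv
      exact hle hr
    obtain ⟨a, s, hs, has⟩ := s36cb_loc_of_integral (chtO A {t}) 𝔫
      (fun x hx => cht_integral_closed {t} hx) (Algebra.adjoin A {β₂ v}) hS _ hz1
    refine ⟨s, hs, ?_⟩
    show (s : F) * β₂ (z : E) ∈ chtO A {t}
    rw [mul_comm, has]
    exact a.2

section Inst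

variable (M q : ℕ) [NeZero M] [hq : Fact q.Prime] (hM : ¬ q ∣ M)
  (K0 : Type*) [Field K0] [Algebra ℚ K0] [Algebra K0 Qb]
  (A0 : ValuationSubring K0) [IsDiscreteValuationRing ↥A0]
  {a2 : ℕ} (H : HauptRec a2 q)

set_option maxHeartbeats 1600000 in
include hM in
/-- **HD3-B**: the component of `W_b` of the standard level-`M q^2` chart `chtO A0 {t}`,
`t = (h₀ - c1) / (h₀ - c0)`, has a Dedekind coordinate ring. -/
theorem s36cb_hD (ha2 : a2 ∣ M) (hA0 : A0.LiesOverPrime q)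
    [Algebra A0 ↥(laurentBaseChange K0 (modularFunctionFieldFull (M * q * q)))]
    [IsScalarTower A0 K0 ↥(laurentBaseChange K0 (modularFunctionFieldFull (M * q * q)))]
    (c0 c1 : A0) (hc : IsLocalRing.residue A0 c0 ≠ IsLocalRing.residue A0 c1)
    (hQ0 : smi2U A0 (aeval (c0 : K0) H.Qrad))
    (hSM0 : cinstSMChart K0 A0 M H (c0 : K0) (c1 : K0))
    (hSM1 : cinstSMChart K0 A0 M H (c1 : K0) (c0 : K0))
    (t : ↥(laurentBaseChange K0 (modularFunctionFieldFull (M * q * q))))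
    (ht : (t : LaurentSeries K0) = cinstU H K0 (c0 : K0) (c1 : K0))
    (τ : A0) (hτ : Irreducible τ)
    [IsNoetherianRing ↥(chtO A0 {t})]
    (hOW : ∀ x ∈ chtO A0 {t}, x ∈ s36v3Wb M q hM K0 A0)
    (𝔭 : Ideal ↥(chtO A0 {t}))
    (h𝔭 : ∀ x : ↥(chtO A0 {t}), x ∈ 𝔭 ↔
      (x : ↥(laurentBaseChange K0 (modularFunctionFieldFull (M * q * q)))) ∈
        (s36v3Wb M q hM K0 A0).nonunits) :
    IsDedekindDomain (↥(chtO A0 {t}) ⧸ 𝔭) := by
  classical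
  let algE : Algebra A0 ↥(laurentBaseChange K0 (modularFunctionFieldFull M)) :=
    ((algebraMap K0 ↥(laurentBaseChange K0 (modularFunctionFieldFull M))).comp
      A0.subtype).toAlgebra
  have towE : IsScalarTower A0 K0 ↥(laurentBaseChange K0 (modularFunctionFieldFull M)) :=
    IsScalarTower.of_algebraMap_eq (fun _ => rfl)
  let tE : ↥(laurentBaseChange K0 (modularFunctionFieldFull M)) :=
    ⟨cinstU H K0 (c0 : K0) (c1 : K0), cinstU_mem H K0 ha2 _ _⟩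
  have htE : (tE : LaurentSeries K0) = cinstU H K0 (c0 : K0) (c1 : K0) := rfl
  have htE' : ((tE⁻¹ : ↥(laurentBaseChange K0 (modularFunctionFieldFull M))) :
      LaurentSeries K0) = cinstU H K0 (c1 : K0) (c0 : K0) := by
    rw [IntermediateField.coe_inv, htE, cinstU_inv]
  have hcU : smi2U A0 ((c0 : K0) - (c1 : K0)) := by
    have h : IsLocalRing.residue A0 (c0 - c1) ≠ 0 := by
      rw [map_sub, sub_ne_zero]
      exact hc
    exact smi2U_of_residue_ne_zero h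
  let β₂ : ↥(laurentBaseChange K0 (modularFunctionFieldFull M)) →ₐ[A0]
      ↥(laurentBaseChange K0 (modularFunctionFieldFull (M * q * q))) :=
    ((heckeBetaBar K0 (M * q) q).comp (heckeBetaBar K0 M q)).restrictScalars A0
  have hβ₂ : ∀ y, β₂ y = heckeBetaBar K0 (M * q) q (heckeBetaBar K0 M q y) := fun y => rfl
  -- `τ ∈ 𝔭`
  have hτ𝔭 : algebraMap A0 ↥(chtO A0 {t}) τ ∈ 𝔭 := by
    rw [h𝔭]
    have h1 : ((algebraMap A0 ↥(chtO A0 {t}) τ : ↥(chtO A0 {t})) :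
        ↥(laurentBaseChange K0 (modularFunctionFieldFull (M * q * q)))) =
        algebraMap K0 _ (τ : K0) :=
      IsScalarTower.algebraMap_apply A0 K0
        ↥(laurentBaseChange K0 (modularFunctionFieldFull (M * q * q))) τ
    rw [h1, s36v3_const_nonunits_Wb, ValuationSubring.coe_mem_nonunits_iff,
      IsLocalRing.mem_maximalIdeal, mem_nonunits_iff]
    exact hτ.not_isUnit
  refine cpl_dedekind (chtO A0 {t}) (s36v3Wb M q hM K0 A0) hOW 𝔭 h𝔭 ?_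
  intro 𝔫 h𝔫 h𝔭𝔫
  have h𝔫p : 𝔫.IsPrime := h𝔫.isPrime
  have hτ𝔫 : algebraMap A0 ↥(chtO A0 {t}) τ ∈ 𝔫 := h𝔭𝔫 hτ𝔭
  rcases s36cb_dom M q hM K0 A0 H ha2 hA0 c0 c1 hcU.2.2 (sub_ne_zero.mp hcU.2.1)
    (smi2_Q_unit H A0 c0.2 hQ0).2.2 (smi2_Q_unit H A0 c0.2 hQ0).2.1 t ht tE htE τ hτ 𝔫 hτ𝔫
    with h | h
  · obtain ⟨h1, h2, h3⟩ := s36cb_pack M q hM K0 A0 H ha2 hA0 c0 c1 hc tE htE τ hτ
    exact s36cb_loc_abs t 𝔫 (s36v3Wb M q hM K0 A0) β₂ tE τ (hSM0 tE htE τ hτ)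
      (fun z => by rw [hβ₂]; exact h1 z) (fun z => by rw [hβ₂]; exact h2 z)
      (fun x hx => by
        obtain ⟨a, s, hs, has⟩ := h3 x hx
        exact ⟨a, s, by rw [hβ₂]; exact hs, by rw [hβ₂, hβ₂]; exact has⟩)
      (by rw [hβ₂]; exact h)
  · obtain ⟨h1, h2, h3⟩ := s36cb_pack M q hM K0 A0 H ha2 hA0 c1 c0 (fun h' => hc h'.symm)
      tE⁻¹ htE' τ hτ
    exact s36cb_loc_abs t 𝔫 (s36v3Wb M q hM K0 A0) β₂ tE⁻¹ τ (hSM1 tE⁻¹ htE' τ hτ)
      (fun z => by rw [hβ₂]; exact h1 z) (fun z => by rw [hβ₂]; exact h2 z)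
      (fun x hx => by
        obtain ⟨a, s, hs, has⟩ := h3 x hx
        exact ⟨a, s, by rw [hβ₂]; exact hs, by rw [hβ₂, hβ₂]; exact has⟩)
      (by rw [hβ₂, map_inv₀, map_inv₀]; exact h)

include hM in
/-- **HD3-B**, the chart at infinity: the component of `W_b` of `chtO A0 {t⁻¹}` has a Dedekind
coordinate ring. -/
theorem s36cb_hD_inv (ha2 : a2 ∣ M) (hA0 : A0.LiesOverPrime q)
    [Algebra A0 ↥(laurentBaseChange K0 (modularFunctionFieldFull (M * q * q)))]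
    [IsScalarTower A0 K0 ↥(laurentBaseChange K0 (modularFunctionFieldFull (M * q * q)))]
    (c0 c1 : A0) (hc : IsLocalRing.residue A0 c0 ≠ IsLocalRing.residue A0 c1)
    (hQ1 : smi2U A0 (aeval (c1 : K0) H.Qrad))
    (hSM0 : cinstSMChart K0 A0 M H (c0 : K0) (c1 : K0))
    (hSM1 : cinstSMChart K0 A0 M H (c1 : K0) (c0 : K0))
    (t : ↥(laurentBaseChange K0 (modularFunctionFieldFull (M * q * q))))
    (ht : (t : LaurentSeries K0) = cinstU H K0 (c0 : K0) (c1 : K0))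
    (τ : A0) (hτ : Irreducible τ)
    [IsNoetherianRing ↥(chtO A0 {t⁻¹})]
    (hOW : ∀ x ∈ chtO A0 {t⁻¹}, x ∈ s36v3Wb M q hM K0 A0)
    (𝔭 : Ideal ↥(chtO A0 {t⁻¹}))
    (h𝔭 : ∀ x : ↥(chtO A0 {t⁻¹}), x ∈ 𝔭 ↔
      (x : ↥(laurentBaseChange K0 (modularFunctionFieldFull (M * q * q)))) ∈
        (s36v3Wb M q hM K0 A0).nonunits) :
    IsDedekindDomain (↥(chtO A0 {t⁻¹}) ⧸ 𝔭) :=
  s36cb_hD M q hM K0 A0 H ha2 hA0 c1 c0 (fun h => hc h.symm) hQ1 hSM1 hSM0 t⁻¹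
    (by rw [IntermediateField.coe_inv, ht, cinstU_inv]) τ hτ hOW 𝔭 h𝔭

end Inst

end Fermat.Agent.S36
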