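import Mathlib
import Fermat.Agent.S36.Comp3CarB
import Fermat.Agent.S36.CompDedBD

/-!
# S36, package COMP3 at the carrier: the clause of the `W_b`-only points

* `s36kc_hDb`: the `W_b`-components of the two Hauptmodul charts of level `M q ^ 2` have
  Dedekind coordinate rings (`s36cb_hD`, `s36cb_hD_inv` of S36/CompDedBD.lean, the Noetherian
  property and the inclusion of the charts in `W_b` from `s36c3_chart`).
* `s36kc_hB`: the clause `hB` of `s36k3_point` at the carrier (datum form, both charts), no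
  open hypothesis.
-/

set_option autoImplicit false
set_option linter.unusedSectionVars false
set_option linter.unusedVariables false
set_option linter.style.longLine false

noncomputable section

open ModularCurve AlgebraicCurve Polynomial
open Fermat.Agent.S18 Fermat.Agent.S34 Fermat.Agent.S35

namespace Fermat.Agent.S36

local notation "Qb" => AlgebraicClosure ℚ

section Carrier

variable (M q : ℕ) [NeZero M] [hq : Fact q.Prime] (hM : ¬ q ∣ M)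
  (K0 : Type) [Field K0] [Algebra ℚ K0] [Algebra K0 Qb]
  (A0 : ValuationSubring K0) [IsDiscreteValuationRing ↥A0]
  {a2 : ℕ} (H : HauptRec a2 q)

/-- **HD3-B at the carrier**: the `W_b`-components of the two charts are Dedekind. -/
theorem s36kc_hDb
    [Algebra ↥A0 ↥(laurentBaseChange K0 (modularFunctionFieldFull (M * q)))]
    [IsScalarTower ↥A0 K0 ↥(laurentBaseChange K0 (modularFunctionFieldFull (M * q)))]
    [Algebra ↥A0 ↥(laurentBaseChange K0 (modularFunctionFieldFull (M * q * q)))]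
    [IsScalarTower ↥A0 K0 ↥(laurentBaseChange K0 (modularFunctionFieldFull (M * q * q)))]
    (ha2 : a2 ∣ M) (hA0 : A0.LiesOverPrime q)
    (hunif : ∀ x ∈ A0.nonunits, ∃ a ∈ A0, x = (q : K0) * a)
    (c0 c1 : A0) (hc : IsLocalRing.residue ↥A0 c0 ≠ IsLocalRing.residue ↥A0 c1)
    (hQ0 : smi2U A0 (aeval (c0 : K0) H.Qrad)) (hQ1 : smi2U A0 (aeval (c1 : K0) H.Qrad))
    (hSM : cinstSMChart K0 A0 M H (c0 : K0) (c1 : K0))
    (hSM' : cinstSMChart K0 A0 M H (c1 : K0) (c0 : K0)) :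
    ∀ t : ↥(laurentBaseChange K0 (modularFunctionFieldFull (M * q * q))),
      (t : LaurentSeries K0) = cinstU H K0 (c0 : K0) (c1 : K0) →
      (∀ 𝔭 : Ideal ↥(chtO A0 {t}), (∀ x : ↥(chtO A0 {t}), x ∈ 𝔭 ↔ (x : ↥(laurentBaseChange K0
        (modularFunctionFieldFull (M * q * q)))) ∈ ((va2V1 (M * q) q K0 A0).comap (s36v3Swap M q hM
        K0)).nonunits) → IsDedekindDomain (↥(chtO A0 {t}) ⧸ 𝔭)) ∧
      (∀ 𝔭 : Ideal ↥(chtO A0 {t⁻¹}), (∀ x : ↥(chtO A0 {t⁻¹}), x ∈ 𝔭 ↔ (x : ↥(laurentBaseChange K0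
        (modularFunctionFieldFull (M * q * q)))) ∈ ((va2V1 (M * q) q K0 A0).comap (s36v3Swap M q hM
        K0)).nonunits) → IsDedekindDomain (↥(chtO A0 {t⁻¹}) ⧸ 𝔭)) := by
  classical
  intro t ht
  obtain ⟨τ, hτ⟩ := IsDiscreteValuationRing.exists_irreducible ↥A0
  have hqp : q.Prime := hq.out
  have : CharZero K0 := algebraRat.charZero K0
  have hq0 : ((q : ℕ) : K0) ≠ 0 := Nat.cast_ne_zero.mpr hqp.ne_zero
  have hunr : ∀ x ∈ A0.nonunits, x * ((q : ℕ) : K0)⁻¹ ∈ A0 := by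
    intro x hx
    obtain ⟨a, ha, rfl⟩ := hunif x hx
    rw [mul_comm ((q : ℕ) : K0) a, mul_assoc, mul_inv_cancel₀ hq0, mul_one]
    exact ha
  -- the uniformiser `z = h(t^(q^2)) - h(t)` of `W_c`
  obtain ⟨z, hzdef⟩ : ∃ z : ↥(laurentBaseChange K0 (modularFunctionFieldFull (M * q * q))),
      z = s36v3Z M q K0 (nunH K0 M H ha2) := ⟨_, rfl⟩
  have hz0 : z ≠ 0 := by
    rw [hzdef]
    exact s36ai_z_ne_zero M q K0 (nunH K0 M H ha2) H.hZ rfl H.leadZ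
  obtain ⟨hza, hza'⟩ : z ∈ va2V1 (M * q) q K0 A0 ∧ z⁻¹ ∈ va2V1 (M * q) q K0 A0 := by
    rw [hzdef]
    exact s36za_Wa M q K0 A0 (nunH K0 M H ha2) H.hZ rfl H.leadZ
  obtain ⟨hzc_nu, hzc, hzc'⟩ : z ∈ (s36v3Wc M q hM K0 A0).nonunits ∧
      z ^ (q - 1) * ((q : ℕ) :
        ↥(laurentBaseChange K0 (modularFunctionFieldFull (M * q * q))))⁻¹ ∈
        s36v3Wc M q hM K0 A0 ∧
      (z ^ (q - 1) * ((q : ℕ) :
        ↥(laurentBaseChange K0 (modularFunctionFieldFull (M * q * q))))⁻¹)⁻¹ ∈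
        s36v3Wc M q hM K0 A0 := by
    rw [hzdef]
    exact s36v3_z_Wc M q hM K0 A0 hA0 (nunH K0 M H ha2) H.hZ rfl H.leadZ
  -- the table
  have hαa : ∀ x : ↥(laurentBaseChange K0 (modularFunctionFieldFull (M * q))),
      heckeAlphaBar K0 (M * q) q x ∈ va2V1 (M * q) q K0 A0 ↔ x ∈ va2V1 M q K0 A0 :=
    fun x => s36vx_al_Wa M q K0 A0 x
  have hβa : ∀ x : ↥(laurentBaseChange K0 (modularFunctionFieldFull (M * q))),
      heckeBetaBar K0 (M * q) q x ∈ va2V1 (M * q) q K0 A0 ↔ x ∈ va2V1 M q K0 A0 :=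
    fun x => s36v3_be_Wa M q K0 A0 x
  have hαb : ∀ x : ↥(laurentBaseChange K0 (modularFunctionFieldFull (M * q))),
      heckeAlphaBar K0 (M * q) q x ∈ (va2V1 (M * q) q K0 A0).comap (s36v3Swap M q hM K0) ↔
        x ∈ va2V2 M q hM K0 A0 := by
    intro x
    rw [ValuationSubring.mem_comap, s36v3Swap_al, hβa, mem_va2V2]
  have hβb : ∀ x : ↥(laurentBaseChange K0 (modularFunctionFieldFull (M * q))),
      heckeBetaBar K0 (M * q) q x ∈ (va2V1 (M * q) q K0 A0).comap (s36v3Swap M q hM K0) ↔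
        x ∈ va2V2 M q hM K0 A0 :=
    fun x => s36vx_be_Wb M q hM K0 A0 x
  have hαc : ∀ x : ↥(laurentBaseChange K0 (modularFunctionFieldFull (M * q))),
      heckeAlphaBar K0 (M * q) q x ∈ s36v3Wc M q hM K0 A0 ↔ x ∈ va2V1 M q K0 A0 :=
    fun x => s36v3_al_Wc M q hM K0 A0 x
  have hβc : ∀ x : ↥(laurentBaseChange K0 (modularFunctionFieldFull (M * q))),
      heckeBetaBar K0 (M * q) q x ∈ s36v3Wc M q hM K0 A0 ↔ x ∈ va2V2 M q hM K0 A0 :=
    fun x => s36v3_be_Wc M q hM K0 A0 hA0 x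
  have hgen : ∀ y ∈ (s36v3Wc M q hM K0 A0).nonunits, y * z⁻¹ ∈ s36v3Wc M q hM K0 A0 :=
    fun y hy => s36vx_unif_c M q K0 A0 hA0 hunr (s36v3Wc M q hM K0 A0) hαc z hz0 hzc hzc' hza
      hza' y hy
  have hmapF : ∀ a : ↥A0,
      algebraMap ↥A0 ↥(laurentBaseChange K0 (modularFunctionFieldFull (M * q * q))) a =
        algebraMap K0 ↥(laurentBaseChange K0 (modularFunctionFieldFull (M * q * q))) (a : K0) :=
    fun a => IsScalarTower.algebraMap_apply ↥A0 K0 _ a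
  have hexh1 : ∀ W : ValuationSubring
      ↥(laurentBaseChange K0 (modularFunctionFieldFull (M * q * q))),
      (∀ x, heckeAlphaBar K0 (M * q) q x ∈ W ↔ x ∈ va2V1 M q K0 A0) →
      W = va2V1 (M * q) q K0 A0 ∨ W = s36v3Wc M q hM K0 A0 :=
    fun W hW => s36vx_exh_al1 M q K0 A0 hA0 hunr (s36v3Wc M q hM K0 A0) hαc z hz0 hzc hzc' hza
      hza' W hW
  have hexh2 : ∀ W : ValuationSubring
      ↥(laurentBaseChange K0 (modularFunctionFieldFull (M * q * q))),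
      (∀ x, heckeAlphaBar K0 (M * q) q x ∈ W ↔ x ∈ va2V2 M q hM K0 A0) →
      W = (va2V1 (M * q) q K0 A0).comap (s36v3Swap M q hM K0) :=
    fun W hW => s36vi_exh_al_Wb M q hM K0 A0 (s36v3Swap M q hM K0) (s36v3Swap_swap M q hM K0)
      (s36v3Swap_al M q hM K0) hA0 W hW
  have hRαc : ∀ x ∈ s36v3Wc M q hM K0 A0, ∃ r ∈ va2V1 M q K0 A0,
      x - heckeAlphaBar K0 (M * q) q r ∈ (s36v3Wc M q hM K0 A0).nonunits :=
    fun x hx => s36vx_res_al_Wc M q K0 A0 hA0 hunr (s36v3Wc M q hM K0 A0) hαc z hz0 hzc hzc'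
      hza hza' x hx
  have hdeca : ∀ y : ↥(laurentBaseChange K0 (modularFunctionFieldFull (M * q * q))), y ≠ 0 →
      ∃ j : ℤ,
        y * algebraMap ↥A0 ↥(laurentBaseChange K0 (modularFunctionFieldFull (M * q * q))) τ ^ j
          ∈ va2V1 (M * q) q K0 A0 ∧
        (y * algebraMap ↥A0 ↥(laurentBaseChange K0 (modularFunctionFieldFull (M * q * q))) τ ^ j)⁻¹
          ∈ va2V1 (M * q) q K0 A0 := by
    intro y hy
    rw [hmapF]
    exact s36ai_dec_a M q K0 A0 τ hτ y hy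
  have hdecb : ∀ y : ↥(laurentBaseChange K0 (modularFunctionFieldFull (M * q * q))), y ≠ 0 →
      ∃ j : ℤ,
        y * algebraMap ↥A0 ↥(laurentBaseChange K0 (modularFunctionFieldFull (M * q * q))) τ ^ j
          ∈ (va2V1 (M * q) q K0 A0).comap (s36v3Swap M q hM K0) ∧
        (y * algebraMap ↥A0 ↥(laurentBaseChange K0 (modularFunctionFieldFull (M * q * q))) τ ^ j)⁻¹
          ∈ (va2V1 (M * q) q K0 A0).comap (s36v3Swap M q hM K0) := by
    intro y hy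
    rw [hmapF]
    exact s36ai_dec_b M q K0 A0 (s36v3Swap M q hM K0) (s36v3Swap_const M q hM K0)
      ((va2V1 (M * q) q K0 A0).comap (s36v3Swap M q hM K0)) (fun _ => Iff.rfl) τ hτ y hy
  have hdecc : ∀ y : ↥(laurentBaseChange K0 (modularFunctionFieldFull (M * q * q))), y ≠ 0 →
      ∃ j : ℤ, y * z ^ j ∈ s36v3Wc M q hM K0 A0 ∧ (y * z ^ j)⁻¹ ∈ s36v3Wc M q hM K0 A0 :=
    s36ai_dec_Wc M q K0 A0 hA0 (s36v3Wc M q hM K0 A0) hαc z hz0 hgen hzc
  -- the chart bundle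
  obtain ⟨⟨hAa, hAb, hAc, hτa, hgena, htt, hex⟩, h1, h2, h3, -, -, h01, h10, hfrac0, hfrac1,
      hroot0, hroot1, hcap, hV0, hV1, hdiv0, hdiv1, hNoe0, hNoe1, hic0, hic1⟩ :=
    s36c3_chart A0 M q hM H ha2 hA0 ((va2V1 (M * q) q K0 A0).comap (s36v3Swap M q hM K0))
      (s36v3Wc M q hM K0 A0) hαb hαc hexh1 hexh2 c0 c1 hc t ht τ hτ 1 one_pos
  have := hNoe0
  have := hNoe1
  exact ⟨fun 𝔭 h𝔭 => s36cb_hD M q hM K0 A0 H ha2 hA0 c0 c1 hc hQ0 hSM hSM' t ht τ hτ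
      (fun x hx => (hV0 x hx).2.1) 𝔭 h𝔭,
    fun 𝔭 h𝔭 => s36cb_hD_inv M q hM K0 A0 H ha2 hA0 c0 c1 hc hQ1 hSM hSM' t ht τ hτ
      (fun x hx => (hV1 x hx).2.1) 𝔭 h𝔭⟩


/-- **The clause `hB` of `s36k3_point` at the carrier** (datum form, both charts). -/
theorem s36kc_hB
    [Algebra ↥A0 ↥(laurentBaseChange K0 (modularFunctionFieldFull (M * q)))]
    [IsScalarTower ↥A0 K0 ↥(laurentBaseChange K0 (modularFunctionFieldFull (M * q)))]
    [Algebra ↥A0 ↥(laurentBaseChange K0 (modularFunctionFieldFull (M * q * q)))]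
    [IsScalarTower ↥A0 K0 ↥(laurentBaseChange K0 (modularFunctionFieldFull (M * q * q)))]
    (ha2 : a2 ∣ M) (hA0 : A0.LiesOverPrime q)
    (hunif : ∀ x ∈ A0.nonunits, ∃ a ∈ A0, x = (q : K0) * a)
    (c0 c1 : A0) (hc : IsLocalRing.residue ↥A0 c0 ≠ IsLocalRing.residue ↥A0 c1)
    (hQ0 : smi2U A0 (aeval (c0 : K0) H.Qrad)) (hQ1 : smi2U A0 (aeval (c1 : K0) H.Qrad))
    (hSM : cinstSMChart K0 A0 M H (c0 : K0) (c1 : K0))
    (hSM' : cinstSMChart K0 A0 M H (c1 : K0) (c0 : K0))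
    (m : ℕ) (hm : 0 < m) :
    ∀ τ : A0, Irreducible τ → ∀ t : ↥(laurentBaseChange K0 (modularFunctionFieldFull (M * q * q))),
      (t : LaurentSeries K0) = cinstU H K0 (c0 : K0) (c1 : K0) →
      (∀ 𝔫 : Ideal ↥(chtO A0 {t}), 𝔫.IsMaximal → algebraMap ↥A0 ↥(chtO A0 {t}) τ ∈ 𝔫 → (∀ x : ↥(chtO
        A0 {t}), (x : ↥(laurentBaseChange K0 (modularFunctionFieldFull (M * q * q)))) ∈ ((va2V1 (M *
        q) q K0 A0).comap (s36v3Swap M q hM K0)).nonunits → x ∈ 𝔫) → (∃ r : ↥(chtO A0 {t}), (r :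
        ↥(laurentBaseChange K0 (modularFunctionFieldFull (M * q * q)))) ∈ (va2V1 (M * q) q K0
        A0).nonunits ∧ r ∉ 𝔫) → (∃ r : ↥(chtO A0 {t}), (r : ↥(laurentBaseChange K0
        (modularFunctionFieldFull (M * q * q)))) ∈ (s36v3Wc M q hM K0 A0).nonunits ∧ r ∉ 𝔫) →
        S36inPtDat τ m q (va2V1 (M * q) q K0 A0) ((va2V1 (M * q) q K0 A0).comap (s36v3Swap M q hM
        K0)) (s36v3Wc M q hM K0 A0) (chtO A0 {t}) 𝔫) ∧
      (∀ 𝔫 : Ideal ↥(chtO A0 {t⁻¹}), 𝔫.IsMaximal → algebraMap ↥A0 ↥(chtO A0 {t⁻¹}) τ ∈ 𝔫 → (∀ x :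
        ↥(chtO A0 {t⁻¹}), (x : ↥(laurentBaseChange K0 (modularFunctionFieldFull (M * q * q)))) ∈
        ((va2V1 (M * q) q K0 A0).comap (s36v3Swap M q hM K0)).nonunits → x ∈ 𝔫) → (∃ r : ↥(chtO A0
        {t⁻¹}), (r : ↥(laurentBaseChange K0 (modularFunctionFieldFull (M * q * q)))) ∈ (va2V1 (M *
        q) q K0 A0).nonunits ∧ r ∉ 𝔫) → (∃ r : ↥(chtO A0 {t⁻¹}), (r : ↥(laurentBaseChange K0
        (modularFunctionFieldFull (M * q * q)))) ∈ (s36v3Wc M q hM K0 A0).nonunits ∧ r ∉ 𝔫) →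
        S36inPtDat τ m q (va2V1 (M * q) q K0 A0) ((va2V1 (M * q) q K0 A0).comap (s36v3Swap M q hM
        K0)) (s36v3Wc M q hM K0 A0) (chtO A0 {t⁻¹}) 𝔫) :=
  s36kc_hB_car M q hM K0 A0 H ha2 hA0 hunif c0 c1 hc m hm
    (s36kc_hDb M q hM K0 A0 H ha2 hA0 hunif c0 c1 hc hQ0 hQ1 hSM hSM')


end Carrier

end Fermat.Agent.S36
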