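import Mathlib
import Fermat.Agent.S34.KrullSub
import Fermat.Agent.S35.LocIC

/-!
# S36, family CHART3, leaf [PT-TYPES]: the point types of the level `L q ^ 2` charts

Abstract setting: fields `E` (level `L q`) and `F` (level `L q ^ 2`), an embedding
`φ : E →ₐ[A] F` (`al` or `be`), a chart `O'` of `E` and a chart `O` of `F` with `φ O' ⊆ O` and
`O` integral over `φ O'` (a `φ`-adapted pair of charts: for `al` the pair
`chtO A {t'}`, `chtO A {al t'}`; for `be` the pair `chtO A {t'}`, `chtO A {be t'}`),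
valuation rings `V` of `E` and `W` of `F` with the table entry `∀ x, φ x ∈ W ↔ x ∈ V`.
"`W` passes through `𝔫`" is `∀ y : ↥O, (y : F) ∈ W.nonunits → y ∈ 𝔫`.

* `s36ptRes`, `s36ptCen` : the restriction `O' → O` of `φ`, the centre of `W` on `O`;
* `s36pt_comap_isMaximal` : the contraction of a maximal ideal is maximal;
* `s36pt_cen_val` : a prime of `O` over the centre of `V` is the centre of a valuation ring of
  `F` restricting to `V` (`V` a local ring of `O'`);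
* `s36pt_through`, `s36pt_through_iff` (K1) : if `W` is the only valuation ring over `V`, then
  `V` passes through the contraction of `𝔫` iff `W` passes through `𝔫` (going down);
* `s36pt_through2`, `s36pt_through2_iff` (K2) : the same with two valuation rings over `V`;
* `s36pt_exists_over` : going up along a component;
* `s36pt_insep_chart` : chart-level pure inseparability (exponent `q`; `q = 1` is residue
  degree one) from the valuation-level statement, when the component `O' / 𝔭_V` is integrally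
  closed;
* `s36pt_unique_on`, `s36pt_unique` (K3) : uniqueness of the point of `O` on `W` (resp. of the
  point of `O`) over a point of `O'` on `V`;
* `s36pt_three_aux` : if `V` (unique, purely inseparable `W`) and `V'` pass through the
  contraction of `𝔫`, every `W'` over `V'` passes through `𝔫`;
* `s36pt_three` : for a pair of charts adapted to BOTH `al` and `be`: a prime of `O` on two
  of `W_a`, `W_b`, `W_c` lies on all three;
* `s36pt_int_trans` : transitivity of integrality in the shape of the chart API.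
-/

set_option autoImplicit false

namespace Fermat.Agent.S36

open Fermat.Agent.S34 Fermat.Agent.S35

section Ring

variable {R S : Type*} [CommRing R] [CommRing S]

/-- going up for an integral ring homomorphism, comap form -/
theorem s36pt_going_up (f : R →+* S) (hint : f.IsIntegral) (I : Ideal S) (𝔫' : Ideal R)
    [𝔫'.IsPrime] (h : I.comap f ≤ 𝔫') :
    ∃ Q : Ideal S, I ≤ Q ∧ Q.IsPrime ∧ Q.comap f = 𝔫' := by
  let _ : Algebra R S := f.toAlgebra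
  have : Algebra.IsIntegral R S := ⟨hint⟩
  obtain ⟨Q, hQ, hQp, hQc⟩ := Ideal.exists_ideal_over_prime_of_isIntegral 𝔫' I h
  exact ⟨Q, hQ, hQp, hQc⟩

/-- going down for an injective integral ring homomorphism from an integrally closed domain to
a domain, comap form -/
theorem s36pt_going_down [IsDomain S] [IsIntegrallyClosed R] (f : R →+* S)
    (hf : Function.Injective f) (hint : f.IsIntegral) (p : Ideal R) [p.IsPrime]
    (𝔫 : Ideal S) [𝔫.IsPrime] (hp : p ≤ 𝔫.comap f) :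
    ∃ P : Ideal S, P.IsPrime ∧ P ≤ 𝔫 ∧ P.comap f = p := by
  let _ : Algebra R S := f.toAlgebra
  have : Algebra.IsIntegral R S := ⟨hint⟩
  have : FaithfulSMul R S := (faithfulSMul_iff_algebraMap_injective R S).mpr hf
  have h𝔫' : (𝔫.comap f).IsPrime := Ideal.comap_isPrime f 𝔫
  have hlo : 𝔫.LiesOver (𝔫.comap f) := ⟨rfl⟩
  obtain ⟨P, hP, hPp, hPl⟩ :=
    Ideal.exists_ideal_le_liesOver_of_le (p := p) (q := 𝔫.comap f) 𝔫 hp
  exact ⟨P, hPp, hP, hPl.over.symm⟩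

/-- if `P` lies below every prime over `p`, then `P` lies below every prime whose contraction
contains `p` -/
theorem s36pt_ring_le [IsDomain S] [IsIntegrallyClosed R] (f : R →+* S)
    (hf : Function.Injective f) (hint : f.IsIntegral) (p : Ideal R) [p.IsPrime] (P : Ideal S)
    (huniq : ∀ Q : Ideal S, Q.IsPrime → Q.comap f = p → P ≤ Q)
    (𝔫 : Ideal S) [𝔫.IsPrime] (hp : p ≤ 𝔫.comap f) : P ≤ 𝔫 := by
  obtain ⟨Q, hQ, hQ𝔫, hQp⟩ := s36pt_going_down f hf hint p 𝔫 hp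
  exact (huniq Q hQ hQp).trans hQ𝔫

/-- two primes containing `P` with the same contraction are equal, when every element of `S`
has a `q`-th power congruent modulo `P` to an element of `R` -/
theorem s36pt_ring_unique_on (f : R →+* S) (P : Ideal S)
    (q : ℕ) (hq : 0 < q) (hins : ∀ y : S, ∃ r : R, y ^ q - f r ∈ P)
    (𝔫₁ 𝔫₂ : Ideal S) [𝔫₁.IsPrime] [𝔫₂.IsPrime] (hP1 : P ≤ 𝔫₁) (hP2 : P ≤ 𝔫₂)
    (h12 : 𝔫₁.comap f = 𝔫₂.comap f) : 𝔫₁ = 𝔫₂ := by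
  have key : ∀ 𝔞 𝔟 : Ideal S, 𝔟.IsPrime → P ≤ 𝔞 → P ≤ 𝔟 → 𝔞.comap f = 𝔟.comap f →
      𝔞 ≤ 𝔟 := by
    intro 𝔞 𝔟 h𝔟 hPa hPb hab y hy
    obtain ⟨r, hr⟩ := hins y
    have h1 : f r ∈ 𝔞 := by
      have : f r = y ^ q - (y ^ q - f r) := by ring
      rw [this]
      exact 𝔞.sub_mem (Ideal.pow_mem_of_mem 𝔞 hy q hq) (hPa hr)
    have h2 : r ∈ 𝔟.comap f := by
      rw [← hab]
      exact Ideal.mem_comap.mpr h1
    have h3 : y ^ q ∈ 𝔟 := by
      have : y ^ q = (y ^ q - f r) + f r := by ring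
      rw [this]
      exact 𝔟.add_mem (hPb hr) (Ideal.mem_comap.mp h2)
    exact h𝔟.mem_of_pow_mem q h3
  exact le_antisymm (key 𝔫₁ 𝔫₂ inferInstance hP1 hP2 h12)
    (key 𝔫₂ 𝔫₁ inferInstance hP2 hP1 h12.symm)

end Ring

section Val

variable {F : Type*} [Field F]

/-- every prime of a subring of a field is the centre of a valuation ring -/
theorem s36pt_exists_val {R : Type*} [CommRing R] (ι : R →+* F) (hι : Function.Injective ι)
    (Q : Ideal R) [Q.IsPrime] :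
    ∃ B : ValuationSubring F, (∀ r, ι r ∈ B) ∧ ∀ r, r ∈ Q ↔ ι r ∈ B.nonunits := by
  have hu : ∀ y : Q.primeCompl, IsUnit (ι y) := by
    intro y
    refine IsUnit.mk0 _ (fun h0 => ?_)
    have h1 : (y : R) = 0 := hι (by rw [h0, map_zero])
    exact y.2 (h1 ▸ Q.zero_mem)
  let f : Localization.AtPrime Q →+* F := IsLocalization.lift (M := Q.primeCompl) hu
  have hf : ∀ r, f (algebraMap R _ r) = ι r := fun r => IsLocalization.lift_eq hu r
  obtain ⟨B, hle, hloc⟩ := (LocalSubring.range f).exists_le_valuationSubring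
  have hmem : ∀ z, f z ∈ B := fun z => hle ⟨z, rfl⟩
  refine ⟨B, fun r => hf r ▸ hmem _, fun r => ⟨fun hr => ?_, fun hr => ?_⟩⟩
  · by_contra hnu
    have hinv : (ι r)⁻¹ ∈ B := s35i_inv_mem B hnu
    have h0 : ι r ≠ 0 := fun h => hnu (h ▸ B.nonunits.zero_mem)
    have hunitB : IsUnit (⟨f (algebraMap R _ r), hmem _⟩ : B) := by
      refine IsUnit.of_mul_eq_one (⟨(ι r)⁻¹, hinv⟩ : B) ?_
      apply Subtype.ext
      show f (algebraMap R _ r) * (ι r)⁻¹ = 1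
      rw [hf r, mul_inv_cancel₀ h0]
    have hunitR : IsUnit (⟨f (algebraMap R _ r), ⟨_, rfl⟩⟩ : (LocalSubring.range f).toSubring) :=
      hloc.map_nonunit _ hunitB
    obtain ⟨⟨w, hw⟩, hw1⟩ := hunitR.exists_right_inv
    obtain ⟨z, rfl⟩ : ∃ z, f z = w := hw
    have hw2 : f (algebraMap R _ r) * f z = 1 := congrArg Subtype.val hw1
    have hmax : algebraMap R (Localization.AtPrime Q) r * z ∈
        IsLocalRing.maximalIdeal (Localization.AtPrime Q) :=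
      Ideal.mul_mem_right _ _
        ((IsLocalization.AtPrime.to_map_mem_maximal_iff (Localization.AtPrime Q) Q r).mpr hr)
    have hun : IsUnit (1 - algebraMap R (Localization.AtPrime Q) r * z) :=
      IsLocalRing.isUnit_one_sub_self_of_mem_nonunits _ hmax
    have h1 : f (1 - algebraMap R (Localization.AtPrime Q) r * z) = 0 := by
      rw [map_sub, map_one, map_mul, hw2, sub_self]
    exact (hun.map f).ne_zero h1
  · by_contra hrQ
    have hun : IsUnit (algebraMap R (Localization.AtPrime Q) r) :=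
      IsLocalization.map_units (Localization.AtPrime Q) (⟨r, hrQ⟩ : Q.primeCompl)
    obtain ⟨z, hz⟩ := hun.exists_right_inv
    have h1 : ι r * f z = 1 := by
      rw [← hf r, ← map_mul, hz, map_one]
    have h0 : ι r ≠ 0 := left_ne_zero_of_mul_eq_one h1
    have h2 : (ι r)⁻¹ = f z := (eq_inv_of_mul_eq_one_right h1).symm
    exact s35i_not_nu_of_inv B h0 (h2 ▸ hmem z) hr

/-- a valuation ring is maximal for domination -/
theorem s36pt_val_dom (V V' : ValuationSubring F)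
    (h2 : ∀ x ∈ V.nonunits, x ∈ V'.nonunits) (x : F) (hx : x ∈ V') : x ∈ V := by
  by_contra hxV
  have hx0 : x ≠ 0 := fun h => hxV (h ▸ V.zero_mem)
  have h3 : x⁻¹ ∈ V.nonunits :=
    (ValuationSubring.mem_nonunits_iff_or V).mpr (Or.inr (by rwa [inv_inv]))
  have h4 := h2 _ h3
  exact s35i_not_nu_of_inv V' (inv_ne_zero hx0) (by rwa [inv_inv]) h4

/-- the `iff` form of a restriction gives the non-unit form -/
theorem s36pt_nonunits_iff {E : Type*} [Field E] (φ : E →+* F) (V : ValuationSubring E)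
    (W : ValuationSubring F) (h : ∀ x, φ x ∈ W ↔ x ∈ V) (x : E) :
    φ x ∈ W.nonunits ↔ x ∈ V.nonunits := by
  rw [ValuationSubring.mem_nonunits_iff_or, ValuationSubring.mem_nonunits_iff_or, ← map_inv₀, h,
    map_eq_zero]

end Val

section Field

variable {A E F : Type*} [CommRing A] [Field E] [Field F] [Algebra A E] [Algebra A F]

/-- the restriction of `φ` to the charts -/
def s36ptRes (φ : E →ₐ[A] F) (O' : Subalgebra A E) (O : Subalgebra A F)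
    (hφO : ∀ x ∈ O', φ x ∈ O) : ↥O' →+* ↥O :=
  ((φ : E →+* F).comp (O'.val : ↥O' →+* E)).codRestrict O (fun x => hφO x x.2)

theorem s36ptRes_coe (φ : E →ₐ[A] F) (O' : Subalgebra A E) (O : Subalgebra A F)
    (hφO : ∀ x ∈ O', φ x ∈ O) (x : ↥O') :
    ((s36ptRes φ O' O hφO x : ↥O) : F) = φ (x : E) := rfl

theorem s36ptRes_injective (φ : E →ₐ[A] F) (O' : Subalgebra A E) (O : Subalgebra A F)
    (hφO : ∀ x ∈ O', φ x ∈ O) : Function.Injective (s36ptRes φ O' O hφO) := fun _ _ h =>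
  Subtype.ext (φ.toRingHom.injective (congrArg Subtype.val h))

/-- integrality over the image of the chart, as an integral element of a ring homomorphism -/
theorem s36pt_int_elem (φ : E →ₐ[A] F) (O' : Subalgebra A E) (y : F)
    (hy : IsIntegral ↥(O'.map φ) y) :
    ((φ : E →+* F).comp (O'.val : ↥O' →+* E)).IsIntegralElem y := by
  let e : ↥O' ≃ₐ[A] ↥(O'.map φ) := O'.equivMapOfInjective φ φ.toRingHom.injective
  obtain ⟨p, hp, hpy⟩ := hy
  refine ⟨p.map (e.symm : ↥(O'.map φ) →+* ↥O'), hp.map _, ?_⟩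
  rw [Polynomial.eval₂_map]
  have h1 : ((φ : E →+* F).comp (O'.val : ↥O' →+* E)).comp (e.symm : ↥(O'.map φ) →+* ↥O') =
      algebraMap ↥(O'.map φ) F := by
    ext x
    obtain ⟨z, rfl⟩ := e.surjective x
    show φ ((e.symm (e z) : ↥O') : E) = ((e z : ↥(O'.map φ)) : F)
    rw [AlgEquiv.symm_apply_apply]
    rfl
  rw [h1]
  exact hpy

theorem s36ptRes_isIntegral (φ : E →ₐ[A] F) (O' : Subalgebra A E) (O : Subalgebra A F)
    (hφO : ∀ x ∈ O', φ x ∈ O) (hint : ∀ y ∈ O, IsIntegral ↥(O'.map φ) y) :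
    (s36ptRes φ O' O hφO).IsIntegral := by
  intro y
  obtain ⟨p, hp, hpy⟩ := s36pt_int_elem φ O' (y : F) (hint _ y.2)
  refine ⟨p, hp, Subtype.ext ?_⟩
  have h := Polynomial.hom_eval₂ p (s36ptRes φ O' O hφO) (O.val : ↥O →+* F) y
  exact h.trans hpy

/-- the contraction of a maximal ideal of `O` to `O'` is maximal -/
theorem s36pt_comap_isMaximal (φ : E →ₐ[A] F) (O' : Subalgebra A E) (O : Subalgebra A F)
    (hφO : ∀ x ∈ O', φ x ∈ O) (hint : ∀ y ∈ O, IsIntegral ↥(O'.map φ) y)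
    (𝔫 : Ideal ↥O) [h𝔫 : 𝔫.IsMaximal] : (𝔫.comap (s36ptRes φ O' O hφO)).IsMaximal := by
  let _ : Algebra ↥O' ↥O := (s36ptRes φ O' O hφO).toAlgebra
  have : Algebra.IsIntegral ↥O' ↥O := ⟨s36ptRes_isIntegral φ O' O hφO hint⟩
  exact Ideal.isMaximal_comap_of_isIntegral_of_isMaximal (R := ↥O') 𝔫

/-- the centre of `W` on the chart `O` -/
def s36ptCen (O : Subalgebra A F) (W : ValuationSubring F) (hOW : ∀ y ∈ O, y ∈ W) : Ideal ↥O :=
  (IsLocalRing.maximalIdeal ↥W).comap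
    ((O.val : ↥O →+* F).codRestrict W (fun x => hOW x x.2))

theorem s36ptCen_mem (O : Subalgebra A F) (W : ValuationSubring F) (hOW : ∀ y ∈ O, y ∈ W)
    (x : ↥O) : x ∈ s36ptCen O W hOW ↔ (x : F) ∈ W.nonunits := by
  rw [ValuationSubring.mem_nonunits_iff_exists_mem_maximalIdeal]
  exact ⟨fun h => ⟨hOW x x.2, h⟩, fun ⟨_, h⟩ => h⟩

instance s36ptCen_isPrime (O : Subalgebra A F) (W : ValuationSubring F)
    (hOW : ∀ y ∈ O, y ∈ W) : (s36ptCen O W hOW).IsPrime :=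
  Ideal.comap_isPrime _ _

/-- a prime of `O` lying over the centre of `V` is the centre of a valuation ring of `F`
restricting to `V` -/
theorem s36pt_cen_val (φ : E →ₐ[A] F) (O' : Subalgebra A E) (O : Subalgebra A F)
    (hφO : ∀ x ∈ O', φ x ∈ O) (V : ValuationSubring E) (hO'V : ∀ x ∈ O', x ∈ V)
    (hloc : ∀ z ∈ V, ∃ a s : ↥O', (s : E) ∉ V.nonunits ∧ z * (s : E) = (a : E))
    (Q : Ideal ↥O) [Q.IsPrime]
    (hQ : ∀ x : ↥O', s36ptRes φ O' O hφO x ∈ Q ↔ (x : E) ∈ V.nonunits) :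
    ∃ W' : ValuationSubring F, (∀ x, φ x ∈ W' ↔ x ∈ V) ∧ (∀ y ∈ O, y ∈ W') ∧
      ∀ y : ↥O, y ∈ Q ↔ (y : F) ∈ W'.nonunits := by
  obtain ⟨W', hOW', hQW'⟩ := s36pt_exists_val (O.val : ↥O →+* F) Subtype.val_injective Q
  have hO : ∀ y ∈ O, y ∈ W' := fun y hy => hOW' ⟨y, hy⟩
  have hQ' : ∀ y : ↥O, y ∈ Q ↔ (y : F) ∈ W'.nonunits := hQW'
  have hnu : ∀ x : ↥O', φ (x : E) ∈ W'.nonunits ↔ (x : E) ∈ V.nonunits := fun x =>
    (hQ' (s36ptRes φ O' O hφO x)).symm.trans (hQ x)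
  have hfwd : ∀ x ∈ V, φ x ∈ W' := by
    intro x hx
    obtain ⟨a, s, hs, has⟩ := hloc x hx
    have hs0 : (s : E) ≠ 0 := fun h => hs (h ▸ V.nonunits.zero_mem)
    have h1 : φ (s : E) ∉ W'.nonunits := fun h => hs ((hnu s).mp h)
    have h2 : (φ (s : E))⁻¹ ∈ W' := s35i_inv_mem W' h1
    have hs0' : φ (s : E) ≠ 0 := fun h => hs0 ((map_eq_zero φ).mp h)
    have h3 : φ x = φ (a : E) * (φ (s : E))⁻¹ := by
      rw [← has, map_mul, mul_assoc, mul_inv_cancel₀ hs0', mul_one]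
    rw [h3]
    exact W'.mul_mem _ _ (hO _ (hφO _ a.2)) h2
  refine ⟨W', fun x => ⟨fun hx => ?_, hfwd x⟩, hO, hQ'⟩
  by_contra hxV
  have hx0 : x ≠ 0 := fun h => hxV (h ▸ V.zero_mem)
  have h3 : x⁻¹ ∈ V.nonunits :=
    (ValuationSubring.mem_nonunits_iff_or V).mpr (Or.inr (by rwa [inv_inv]))
  obtain ⟨a, s, hs, has⟩ := hloc x⁻¹ (ValuationSubring.nonunits_subset h3)
  have ha : (a : E) ∈ V.nonunits := by
    rw [← has]
    exact cpl_nu_mul V h3 (hO'V _ s.2)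
  have ha' : φ (a : E) ∈ W'.nonunits := (hnu a).mpr ha
  have hs' : φ (s : E) ∈ W'.nonunits := by
    have h4 : φ (s : E) = φ (a : E) * φ x := by
      rw [← has, map_mul, map_inv₀, mul_comm (φ x)⁻¹, mul_assoc,
        inv_mul_cancel₀ (fun h => hx0 ((map_eq_zero φ).mp h)), mul_one]
    rw [h4]
    exact cpl_nu_mul W' ha' hx
  exact hs ((hnu s).mp hs')

/-- **(K1)** if `W` is the only valuation ring of `F` over `V` (along `φ`) and `V` passes
through the contraction of `𝔫`, then `W` passes through `𝔫`. -/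
theorem s36pt_through (φ : E →ₐ[A] F) (O' : Subalgebra A E) (O : Subalgebra A F)
    [IsIntegrallyClosed ↥O']
    (hφO : ∀ x ∈ O', φ x ∈ O) (hint : ∀ y ∈ O, IsIntegral ↥(O'.map φ) y)
    (V : ValuationSubring E) (W : ValuationSubring F)
    (hO'V : ∀ x ∈ O', x ∈ V) (hOW : ∀ y ∈ O, y ∈ W)
    (hloc : ∀ z ∈ V, ∃ a s : ↥O', (s : E) ∉ V.nonunits ∧ z * (s : E) = (a : E))
    (hexh : ∀ W' : ValuationSubring F, (∀ x, φ x ∈ W' ↔ x ∈ V) → W' = W)
    (𝔫 : Ideal ↥O) [𝔫.IsPrime]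
    (h : ∀ x : ↥O', (x : E) ∈ V.nonunits → s36ptRes φ O' O hφO x ∈ 𝔫) :
    ∀ y : ↥O, (y : F) ∈ W.nonunits → y ∈ 𝔫 := by
  have hle : s36ptCen O W hOW ≤ 𝔫 :=
    s36pt_ring_le (s36ptRes φ O' O hφO) (s36ptRes_injective φ O' O hφO)
      (s36ptRes_isIntegral φ O' O hφO hint) (s36ptCen O' V hO'V) (s36ptCen O W hOW)
      (fun Q hQ hQp y hy => by
        have hQ' : ∀ x : ↥O', s36ptRes φ O' O hφO x ∈ Q ↔ (x : E) ∈ V.nonunits := fun x => by
          rw [← s36ptCen_mem O' V hO'V, ← hQp]; rfl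
        obtain ⟨W', hW', -, hQW'⟩ := s36pt_cen_val φ O' O hφO V hO'V hloc Q hQ'
        rw [hQW', hexh W' hW']
        exact (s36ptCen_mem O W hOW y).mp hy)
      𝔫 (fun x hx => h x ((s36ptCen_mem O' V hO'V x).mp hx))
  exact fun y hy => hle ((s36ptCen_mem O W hOW y).mpr hy)

/-- **(K2)** the same with two valuation rings of `F` over `V`. -/
theorem s36pt_through2 (φ : E →ₐ[A] F) (O' : Subalgebra A E) (O : Subalgebra A F)
    [IsIntegrallyClosed ↥O']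
    (hφO : ∀ x ∈ O', φ x ∈ O) (hint : ∀ y ∈ O, IsIntegral ↥(O'.map φ) y)
    (V : ValuationSubring E) (W W₂ : ValuationSubring F)
    (hO'V : ∀ x ∈ O', x ∈ V)
    (hloc : ∀ z ∈ V, ∃ a s : ↥O', (s : E) ∉ V.nonunits ∧ z * (s : E) = (a : E))
    (hexh : ∀ W' : ValuationSubring F, (∀ x, φ x ∈ W' ↔ x ∈ V) → W' = W ∨ W' = W₂)
    (𝔫 : Ideal ↥O) [𝔫.IsPrime]
    (h : ∀ x : ↥O', (x : E) ∈ V.nonunits → s36ptRes φ O' O hφO x ∈ 𝔫) :
    (∀ y : ↥O, (y : F) ∈ W.nonunits → y ∈ 𝔫) ∨ (∀ y : ↥O, (y : F) ∈ W₂.nonunits → y ∈ 𝔫) := by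
  obtain ⟨Q, hQ, hQ𝔫, hQp⟩ := s36pt_going_down (s36ptRes φ O' O hφO)
    (s36ptRes_injective φ O' O hφO) (s36ptRes_isIntegral φ O' O hφO hint)
    (s36ptCen O' V hO'V) 𝔫 (fun x hx => h x ((s36ptCen_mem O' V hO'V x).mp hx))
  have hQ' : ∀ x : ↥O', s36ptRes φ O' O hφO x ∈ Q ↔ (x : E) ∈ V.nonunits := fun x => by
    rw [← s36ptCen_mem O' V hO'V, ← hQp]; rfl
  obtain ⟨W', hW', -, hQW'⟩ := s36pt_cen_val φ O' O hφO V hO'V hloc Q hQ'
  rcases hexh W' hW' with rfl | rfl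
  · exact Or.inl fun y hy => hQ𝔫 ((hQW' y).mpr hy)
  · exact Or.inr fun y hy => hQ𝔫 ((hQW' y).mpr hy)

/-- the trivial direction: `W` through `𝔫` ⟹ `V` through the contraction of `𝔫` -/
theorem s36pt_comap_through (φ : E →ₐ[A] F) (O' : Subalgebra A E) (O : Subalgebra A F)
    (hφO : ∀ x ∈ O', φ x ∈ O) (V : ValuationSubring E) (W : ValuationSubring F)
    (hVW : ∀ x, φ x ∈ W ↔ x ∈ V) (𝔫 : Ideal ↥O)
    (h : ∀ y : ↥O, (y : F) ∈ W.nonunits → y ∈ 𝔫) :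
    ∀ x : ↥O', (x : E) ∈ V.nonunits → s36ptRes φ O' O hφO x ∈ 𝔫 := fun x hx =>
  h _ ((s36pt_nonunits_iff (φ : E →+* F) V W hVW (x : E)).mpr hx)

/-- chart-level pure inseparability from the valuation-level one: if the residue field of `W`
is purely inseparable (exponent `q`) over that of `V`, the component `O' / 𝔭_V` is integrally
closed with fraction field the residue field of `V`, then every `y ∈ O` has `y ^ q ≡ φ r`
modulo `𝔪_W` with `r ∈ O'`. -/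
theorem s36pt_insep_chart (φ : E →ₐ[A] F) (O' : Subalgebra A E) (O : Subalgebra A F)
    (hint : ∀ y ∈ O, IsIntegral ↥(O'.map φ) y)
    (V : ValuationSubring E) (W : ValuationSubring F)
    (hO'V : ∀ x ∈ O', x ∈ V) (hOW : ∀ y ∈ O, y ∈ W)
    (hVW : ∀ x, φ x ∈ W ↔ x ∈ V)
    (hloc : ∀ z ∈ V, ∃ a s : ↥O', (s : E) ∉ V.nonunits ∧ z * (s : E) = (a : E))
    (hD : ∀ 𝔭 : Ideal ↥O', (∀ x : ↥O', x ∈ 𝔭 ↔ (x : E) ∈ V.nonunits) →
      IsIntegrallyClosed (↥O' ⧸ 𝔭))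
    (q : ℕ) (hins : ∀ y ∈ W, ∃ r ∈ V, y ^ q - φ r ∈ W.nonunits)
    (y : F) (hy : y ∈ O) : ∃ r : ↥O', y ^ q - φ (r : E) ∈ W.nonunits := by
  classical
  let 𝔭 : Ideal ↥O' := s36ptCen O' V hO'V
  have h𝔭 : ∀ x : ↥O', x ∈ 𝔭 ↔ (x : E) ∈ V.nonunits := s36ptCen_mem O' V hO'V
  have hic : IsIntegrallyClosed (↥O' ⧸ 𝔭) := hD 𝔭 h𝔭
  have hnu : ∀ x, φ x ∈ W.nonunits ↔ x ∈ V.nonunits :=
    s36pt_nonunits_iff (φ : E →+* F) V W hVW
  -- the maps to the residue field of `W`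
  let ρ' : ↥O' →+* ↥W := ((φ : E →+* F).comp (O'.val : ↥O' →+* E)).codRestrict W
    (fun x => (hVW _).mpr (hO'V _ x.2))
  let ρ : ↥O' →+* IsLocalRing.ResidueField ↥W := (IsLocalRing.residue ↥W).comp ρ'
  have hρ : ∀ x : ↥O', ρ x = 0 ↔ x ∈ 𝔭 := by
    intro x
    rw [h𝔭, ← hnu]
    show IsLocalRing.residue ↥W (ρ' x) = 0 ↔ _
    rw [IsLocalRing.residue_eq_zero_iff,
      ValuationSubring.mem_nonunits_iff_exists_mem_maximalIdeal]
    exact ⟨fun h => ⟨(ρ' x).2, h⟩, fun ⟨_, h⟩ => h⟩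
  let g : (↥O' ⧸ 𝔭) →+* IsLocalRing.ResidueField ↥W :=
    Ideal.Quotient.lift 𝔭 ρ (fun a ha => (hρ a).mpr ha)
  have hgmk : ∀ a : ↥O', g (Ideal.Quotient.mk 𝔭 a) = ρ a := fun a => rfl
  have hg : Function.Injective g := by
    rw [injective_iff_map_eq_zero]
    intro z hz
    obtain ⟨a, rfl⟩ := Ideal.Quotient.mk_surjective z
    rw [Ideal.Quotient.eq_zero_iff_mem]
    exact (hρ a).mp hz
  -- the element
  have hyq : y ^ q ∈ O := pow_mem hy q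
  obtain ⟨r, hr, hyr⟩ := hins y (hOW y hy)
  obtain ⟨a, s, hs, has⟩ := hloc r hr
  let zW : ↥W := ⟨y ^ q, hOW _ hyq⟩
  let zb : IsLocalRing.ResidueField ↥W := IsLocalRing.residue ↥W zW
  have h1 : g (Ideal.Quotient.mk 𝔭 s) * zb = g (Ideal.Quotient.mk 𝔭 a) := by
    show IsLocalRing.residue ↥W (ρ' s) * IsLocalRing.residue ↥W zW =
      IsLocalRing.residue ↥W (ρ' a)
    rw [← map_mul, ← sub_eq_zero, ← map_sub, IsLocalRing.residue_eq_zero_iff]
    have h0 : ((ρ' s * zW - ρ' a : ↥W) : F) ∈ W.nonunits := by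
      show φ (s : E) * y ^ q - φ (a : E) ∈ W.nonunits
      have e1 : φ (s : E) * y ^ q - φ (a : E) = (y ^ q - φ r) * φ (s : E) := by
        rw [← has, map_mul]; ring
      rw [e1]
      exact cpl_nu_mul W hyr ((hVW _).mpr (hO'V _ s.2))
    obtain ⟨_, h⟩ := ValuationSubring.mem_nonunits_iff_exists_mem_maximalIdeal.mp h0
    exact h
  have h2 : g (Ideal.Quotient.mk 𝔭 s) ≠ 0 := fun h => hs ((h𝔭 s).mp ((hρ s).mp h))
  -- integrality
  obtain ⟨p, hp, hpy⟩ := s36pt_int_elem φ O' (y ^ q) (hint _ hyq)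
  have h3 : Polynomial.eval₂ ρ zb p = 0 := by
    have e1 : Polynomial.eval₂ ρ' zW p = 0 := by
      apply Subtype.ext
      have h := Polynomial.hom_eval₂ p ρ' (W.subtype : ↥W →+* F) zW
      exact h.trans hpy
    have h := Polynomial.hom_eval₂ p ρ' (IsLocalRing.residue ↥W) zW
    rw [e1, map_zero] at h
    exact h.symm
  -- the fraction field of the component
  let K := FractionRing (↥O' ⧸ 𝔭)
  let j : K →+* IsLocalRing.ResidueField ↥W := IsFractionRing.lift hg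
  have hj : ∀ x, j (algebraMap (↥O' ⧸ 𝔭) K x) = g x := fun x =>
    IsFractionRing.lift_algebraMap hg x
  let x : K := algebraMap (↥O' ⧸ 𝔭) K (Ideal.Quotient.mk 𝔭 a) /
    algebraMap (↥O' ⧸ 𝔭) K (Ideal.Quotient.mk 𝔭 s)
  have hjx : j x = zb := by
    show j (_ / _) = zb
    rw [map_div₀, hj, hj, ← h1, mul_div_cancel_left₀ _ h2]
  have hxint : IsIntegral (↥O' ⧸ 𝔭) x := by
    refine ⟨p.map (Ideal.Quotient.mk 𝔭), hp.map _, ?_⟩
    apply j.injective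
    rw [map_zero, Polynomial.hom_eval₂, Polynomial.eval₂_map, hjx]
    have e2 : (j.comp (algebraMap (↥O' ⧸ 𝔭) K)).comp (Ideal.Quotient.mk 𝔭) = ρ := by
      ext a
      show j (algebraMap _ K (Ideal.Quotient.mk 𝔭 a)) = ρ a
      rw [hj]
      exact hgmk a
    rw [e2]
    exact h3
  obtain ⟨r₀, hr₀⟩ := (isIntegrallyClosed_iff K).mp hic hxint
  obtain ⟨r₁, rfl⟩ := Ideal.Quotient.mk_surjective r₀
  refine ⟨r₁, ?_⟩
  have h4 : ρ r₁ = zb := by
    have h : g (Ideal.Quotient.mk 𝔭 r₁) = zb := by rw [← hj, hr₀, hjx]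
    exact h
  have h5 : zW - ρ' r₁ ∈ IsLocalRing.maximalIdeal ↥W := by
    rw [← IsLocalRing.residue_eq_zero_iff, map_sub, sub_eq_zero]
    exact h4.symm
  exact ValuationSubring.mem_nonunits_iff_exists_mem_maximalIdeal.mpr ⟨(zW - ρ' r₁).2, h5⟩

/-- **(K3), on a component**: two primes of `O` on the component `W` with the same contraction
to `O'` are equal, when the residue field of `W` is purely inseparable of exponent `q` over that
of `V` (`q = 1`: residue degree one) and the component `O' / 𝔭_V` is integrally closed. -/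
theorem s36pt_unique_on (φ : E →ₐ[A] F) (O' : Subalgebra A E) (O : Subalgebra A F)
    (hφO : ∀ x ∈ O', φ x ∈ O) (hint : ∀ y ∈ O, IsIntegral ↥(O'.map φ) y)
    (V : ValuationSubring E) (W : ValuationSubring F)
    (hO'V : ∀ x ∈ O', x ∈ V) (hOW : ∀ y ∈ O, y ∈ W)
    (hVW : ∀ x, φ x ∈ W ↔ x ∈ V)
    (hloc : ∀ z ∈ V, ∃ a s : ↥O', (s : E) ∉ V.nonunits ∧ z * (s : E) = (a : E))
    (hD : ∀ 𝔭 : Ideal ↥O', (∀ x : ↥O', x ∈ 𝔭 ↔ (x : E) ∈ V.nonunits) →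
      IsIntegrallyClosed (↥O' ⧸ 𝔭))
    (q : ℕ) (hq : 0 < q) (hins : ∀ y ∈ W, ∃ r ∈ V, y ^ q - φ r ∈ W.nonunits)
    (𝔫₁ 𝔫₂ : Ideal ↥O) [𝔫₁.IsPrime] [𝔫₂.IsPrime]
    (h1 : ∀ y : ↥O, (y : F) ∈ W.nonunits → y ∈ 𝔫₁)
    (h2 : ∀ y : ↥O, (y : F) ∈ W.nonunits → y ∈ 𝔫₂)
    (h12 : ∀ x : ↥O', s36ptRes φ O' O hφO x ∈ 𝔫₁ ↔ s36ptRes φ O' O hφO x ∈ 𝔫₂) :
    𝔫₁ = 𝔫₂ := by
  refine s36pt_ring_unique_on (s36ptRes φ O' O hφO) (s36ptCen O W hOW) q hq (fun y => ?_) 𝔫₁ 𝔫₂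
    (fun y hy => h1 y ((s36ptCen_mem O W hOW y).mp hy))
    (fun y hy => h2 y ((s36ptCen_mem O W hOW y).mp hy)) (Ideal.ext fun x => h12 x)
  obtain ⟨r, hr⟩ := s36pt_insep_chart φ O' O hint V W hO'V hOW hVW hloc hD q hins (y : F) y.2
  exact ⟨r, (s36ptCen_mem O W hOW _).mpr hr⟩

/-- **(K3)** uniqueness of the point of `O` over a point of `O'` on `V`, when `W` is the only
valuation ring of `F` over `V` and its residue field is purely inseparable over that of `V`: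
two primes of `O` with the same contraction, through which `V` passes, are equal. -/
theorem s36pt_unique (φ : E →ₐ[A] F) (O' : Subalgebra A E) (O : Subalgebra A F)
    [IsIntegrallyClosed ↥O']
    (hφO : ∀ x ∈ O', φ x ∈ O) (hint : ∀ y ∈ O, IsIntegral ↥(O'.map φ) y)
    (V : ValuationSubring E) (W : ValuationSubring F)
    (hO'V : ∀ x ∈ O', x ∈ V) (hOW : ∀ y ∈ O, y ∈ W)
    (hVW : ∀ x, φ x ∈ W ↔ x ∈ V)
    (hloc : ∀ z ∈ V, ∃ a s : ↥O', (s : E) ∉ V.nonunits ∧ z * (s : E) = (a : E))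
    (hexh : ∀ W' : ValuationSubring F, (∀ x, φ x ∈ W' ↔ x ∈ V) → W' = W)
    (hD : ∀ 𝔭 : Ideal ↥O', (∀ x : ↥O', x ∈ 𝔭 ↔ (x : E) ∈ V.nonunits) →
      IsIntegrallyClosed (↥O' ⧸ 𝔭))
    (q : ℕ) (hq : 0 < q) (hins : ∀ y ∈ W, ∃ r ∈ V, y ^ q - φ r ∈ W.nonunits)
    (𝔫₁ 𝔫₂ : Ideal ↥O) [𝔫₁.IsPrime] [𝔫₂.IsPrime]
    (h1 : ∀ x : ↥O', (x : E) ∈ V.nonunits → s36ptRes φ O' O hφO x ∈ 𝔫₁)
    (h12 : ∀ x : ↥O', s36ptRes φ O' O hφO x ∈ 𝔫₁ ↔ s36ptRes φ O' O hφO x ∈ 𝔫₂) :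
    𝔫₁ = 𝔫₂ :=
  s36pt_unique_on φ O' O hφO hint V W hO'V hOW hVW hloc hD q hq hins 𝔫₁ 𝔫₂
    (s36pt_through φ O' O hφO hint V W hO'V hOW hloc hexh 𝔫₁ h1)
    (s36pt_through φ O' O hφO hint V W hO'V hOW hloc hexh 𝔫₂
      (fun x hx => (h12 x).mp (h1 x hx))) h12

/-- over every prime of `O'` through which `V` passes there is a prime of `O` on the
component `W` -/
theorem s36pt_exists_over (φ : E →ₐ[A] F) (O' : Subalgebra A E) (O : Subalgebra A F)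
    (hφO : ∀ x ∈ O', φ x ∈ O) (hint : ∀ y ∈ O, IsIntegral ↥(O'.map φ) y)
    (V : ValuationSubring E) (W : ValuationSubring F) (hOW : ∀ y ∈ O, y ∈ W)
    (hVW : ∀ x, φ x ∈ W ↔ x ∈ V)
    (𝔫' : Ideal ↥O') [𝔫'.IsPrime] (h : ∀ x : ↥O', (x : E) ∈ V.nonunits → x ∈ 𝔫') :
    ∃ Q : Ideal ↥O, Q.IsPrime ∧ (∀ y : ↥O, (y : F) ∈ W.nonunits → y ∈ Q) ∧
      Q.comap (s36ptRes φ O' O hφO) = 𝔫' := by
  obtain ⟨Q, hIQ, hQ, hQc⟩ := s36pt_going_up (s36ptRes φ O' O hφO)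
    (s36ptRes_isIntegral φ O' O hφO hint) (s36ptCen O W hOW) 𝔫' (fun x hx => by
      have h1 : φ (x : E) ∈ W.nonunits := (s36ptCen_mem O W hOW _).mp (Ideal.mem_comap.mp hx)
      exact h x ((s36pt_nonunits_iff (φ : E →+* F) V W hVW (x : E)).mp h1))
  exact ⟨Q, hQ, fun y hy => hIQ ((s36ptCen_mem O W hOW y).mpr hy), hQc⟩

/-- the mechanism of the three-components lemma: `(V, W)` a pair with `W` the only valuation
ring over `V`, purely inseparable; `(V', W')` any pair of the table.  If `V` and `V'` pass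
through the contraction of `𝔫`, then `W'` passes through `𝔫`. -/
theorem s36pt_three_aux (φ : E →ₐ[A] F) (O' : Subalgebra A E) (O : Subalgebra A F)
    [IsIntegrallyClosed ↥O']
    (hφO : ∀ x ∈ O', φ x ∈ O) (hint : ∀ y ∈ O, IsIntegral ↥(O'.map φ) y)
    (V : ValuationSubring E) (W : ValuationSubring F)
    (hO'V : ∀ x ∈ O', x ∈ V) (hOW : ∀ y ∈ O, y ∈ W)
    (hVW : ∀ x, φ x ∈ W ↔ x ∈ V)
    (hloc : ∀ z ∈ V, ∃ a s : ↥O', (s : E) ∉ V.nonunits ∧ z * (s : E) = (a : E))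
    (hexh : ∀ W' : ValuationSubring F, (∀ x, φ x ∈ W' ↔ x ∈ V) → W' = W)
    (hD : ∀ 𝔭 : Ideal ↥O', (∀ x : ↥O', x ∈ 𝔭 ↔ (x : E) ∈ V.nonunits) →
      IsIntegrallyClosed (↥O' ⧸ 𝔭))
    (q : ℕ) (hq : 0 < q) (hins : ∀ y ∈ W, ∃ r ∈ V, y ^ q - φ r ∈ W.nonunits)
    (V' : ValuationSubring E) (W' : ValuationSubring F) (hOW' : ∀ y ∈ O, y ∈ W')
    (hVW' : ∀ x, φ x ∈ W' ↔ x ∈ V')
    (𝔫 : Ideal ↥O) [𝔫.IsPrime]
    (hV : ∀ x : ↥O', (x : E) ∈ V.nonunits → s36ptRes φ O' O hφO x ∈ 𝔫)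
    (hV' : ∀ x : ↥O', (x : E) ∈ V'.nonunits → s36ptRes φ O' O hφO x ∈ 𝔫) :
    ∀ y : ↥O, (y : F) ∈ W'.nonunits → y ∈ 𝔫 := by
  have h𝔫' : (𝔫.comap (s36ptRes φ O' O hφO)).IsPrime := Ideal.comap_isPrime _ _
  obtain ⟨Q, hQ, hQW', hQc⟩ := s36pt_exists_over φ O' O hφO hint V' W' hOW' hVW'
    (𝔫.comap (s36ptRes φ O' O hφO)) (fun x hx => Ideal.mem_comap.mpr (hV' x hx))
  have hEq : 𝔫 = Q := s36pt_unique φ O' O hφO hint V W hO'V hOW hVW hloc hexh hD q hq hins 𝔫 Q hV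
    (fun x => by
      have h2 : x ∈ Q.comap (s36ptRes φ O' O hφO) ↔ x ∈ 𝔫.comap (s36ptRes φ O' O hφO) := by
        rw [hQc]
      exact h2.symm)
  intro y hy
  rw [hEq]
  exact hQW' y hy

/-- **[PT-TYPES] (2): a prime of the level-`L q ^ 2` chart through which two of the three
vertical valuation rings pass lies on all three.**  Inputs: the table (contract 245), the
exhaustions `exh_al2`, `exh_be1`, the inseparable case `insep_be_Wa`, the residue degree one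
case `res_al_Wc`, and at level `L q`: `V₁`, `V₂` are local rings of the chart and the FIRST
component of the chart is integrally closed. -/
theorem s36pt_three (al be : E →ₐ[A] F) (O' : Subalgebra A E) (O : Subalgebra A F)
    [IsIntegrallyClosed ↥O']
    (halO : ∀ x ∈ O', al x ∈ O) (hbeO : ∀ x ∈ O', be x ∈ O)
    (hintal : ∀ y ∈ O, IsIntegral ↥(O'.map al) y)
    (hintbe : ∀ y ∈ O, IsIntegral ↥(O'.map be) y)
    (V1 V2 : ValuationSubring E) (Wa Wb Wc : ValuationSubring F)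
    (hO1 : ∀ x ∈ O', x ∈ V1) (hO2 : ∀ x ∈ O', x ∈ V2)
    (hOa : ∀ y ∈ O, y ∈ Wa) (hOb : ∀ y ∈ O, y ∈ Wb) (hOc : ∀ y ∈ O, y ∈ Wc)
    (hal_a : ∀ x, al x ∈ Wa ↔ x ∈ V1) (hbe_a : ∀ x, be x ∈ Wa ↔ x ∈ V1)
    (hal_b : ∀ x, al x ∈ Wb ↔ x ∈ V2) (hbe_b : ∀ x, be x ∈ Wb ↔ x ∈ V2)
    (hal_c : ∀ x, al x ∈ Wc ↔ x ∈ V1) (hbe_c : ∀ x, be x ∈ Wc ↔ x ∈ V2)
    (hloc1 : ∀ z ∈ V1, ∃ a s : ↥O', (s : E) ∉ V1.nonunits ∧ z * (s : E) = (a : E))
    (hloc2 : ∀ z ∈ V2, ∃ a s : ↥O', (s : E) ∉ V2.nonunits ∧ z * (s : E) = (a : E))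
    (hexh_al2 : ∀ W : ValuationSubring F, (∀ x, al x ∈ W ↔ x ∈ V2) → W = Wb)
    (hexh_be1 : ∀ W : ValuationSubring F, (∀ x, be x ∈ W ↔ x ∈ V1) → W = Wa)
    (hD1 : ∀ 𝔭 : Ideal ↥O', (∀ x : ↥O', x ∈ 𝔭 ↔ (x : E) ∈ V1.nonunits) →
      IsIntegrallyClosed (↥O' ⧸ 𝔭))
    (q : ℕ) (hq : 0 < q)
    (hins_be : ∀ y ∈ Wa, ∃ r ∈ V1, y ^ q - be r ∈ Wa.nonunits)
    (hres_al : ∀ y ∈ Wc, ∃ r ∈ V1, y - al r ∈ Wc.nonunits)
    (𝔫 : Ideal ↥O) [𝔫.IsPrime] :
    ((∀ y : ↥O, (y : F) ∈ Wa.nonunits → y ∈ 𝔫) → (∀ y : ↥O, (y : F) ∈ Wb.nonunits → y ∈ 𝔫) →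
      ∀ y : ↥O, (y : F) ∈ Wc.nonunits → y ∈ 𝔫) ∧
    ((∀ y : ↥O, (y : F) ∈ Wa.nonunits → y ∈ 𝔫) → (∀ y : ↥O, (y : F) ∈ Wc.nonunits → y ∈ 𝔫) →
      ∀ y : ↥O, (y : F) ∈ Wb.nonunits → y ∈ 𝔫) ∧
    ((∀ y : ↥O, (y : F) ∈ Wb.nonunits → y ∈ 𝔫) → (∀ y : ↥O, (y : F) ∈ Wc.nonunits → y ∈ 𝔫) →
      ∀ y : ↥O, (y : F) ∈ Wa.nonunits → y ∈ 𝔫) := by
  -- `a, b ⟹ c` at every prime, via `be` and the pair `(V₁, W_a)`
  have hab : ∀ (𝔪 : Ideal ↥O) [𝔪.IsPrime], (∀ y : ↥O, (y : F) ∈ Wa.nonunits → y ∈ 𝔪) →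
      (∀ y : ↥O, (y : F) ∈ Wb.nonunits → y ∈ 𝔪) → ∀ y : ↥O, (y : F) ∈ Wc.nonunits → y ∈ 𝔪 :=
    fun 𝔪 _ ha hb =>
      s36pt_three_aux be O' O hbeO hintbe V1 Wa hO1 hOa hbe_a hloc1 hexh_be1 hD1 q hq
        hins_be V2 Wc hOc hbe_c 𝔪 (s36pt_comap_through be O' O hbeO V1 Wa hbe_a 𝔪 ha)
        (s36pt_comap_through be O' O hbeO V2 Wb hbe_b 𝔪 hb)
  refine ⟨hab 𝔫, fun ha hc => ?_, fun hb hc => ?_⟩
  · exact s36pt_three_aux be O' O hbeO hintbe V1 Wa hO1 hOa hbe_a hloc1 hexh_be1 hD1 q hq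
      hins_be V2 Wb hOb hbe_b 𝔫 (s36pt_comap_through be O' O hbeO V1 Wa hbe_a 𝔫 ha)
      (s36pt_comap_through be O' O hbeO V2 Wc hbe_c 𝔫 hc)
  · -- a point `Q` on `W_a` over the contraction of `𝔫` along `al`
    have h𝔫' : (𝔫.comap (s36ptRes al O' O halO)).IsPrime := Ideal.comap_isPrime _ _
    obtain ⟨Q, hQ, hQa, hQc⟩ := s36pt_exists_over al O' O halO hintal V1 Wa hOa hal_a
      (𝔫.comap (s36ptRes al O' O halO))
      (fun x hx => Ideal.mem_comap.mpr (s36pt_comap_through al O' O halO V1 Wc hal_c 𝔫 hc x hx))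
    have hQ𝔫 : ∀ x : ↥O', s36ptRes al O' O halO x ∈ Q ↔ s36ptRes al O' O halO x ∈ 𝔫 := fun x => by
      have h2 : x ∈ Q.comap (s36ptRes al O' O halO) ↔ x ∈ 𝔫.comap (s36ptRes al O' O halO) := by
        rw [hQc]
      exact h2
    -- `W_b` passes through `Q`
    have hQb : ∀ y : ↥O, (y : F) ∈ Wb.nonunits → y ∈ Q :=
      s36pt_through al O' O halO hintal V2 Wb hO2 hOb hloc2 hexh_al2 Q
        (fun x hx => (hQ𝔫 x).mpr (s36pt_comap_through al O' O halO V2 Wb hal_b 𝔫 hb x hx))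
    -- hence `W_c` passes through `Q`, and `Q = 𝔫` by residue degree one on `W_c`
    have hQc' : ∀ y : ↥O, (y : F) ∈ Wc.nonunits → y ∈ Q := hab Q hQa hQb
    have hEq : Q = 𝔫 := s36pt_unique_on al O' O halO hintal V1 Wc hO1 hOc hal_c hloc1 hD1 1
      Nat.one_pos (fun y hy => by
        obtain ⟨r, hr, h⟩ := hres_al y hy
        exact ⟨r, hr, by rwa [pow_one]⟩) Q 𝔫 hQc' hc hQ𝔫
    intro y hy
    rw [← hEq]
    exact hQa y hy

/-- **(K1), `iff` form.** -/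
theorem s36pt_through_iff (φ : E →ₐ[A] F) (O' : Subalgebra A E) (O : Subalgebra A F)
    [IsIntegrallyClosed ↥O']
    (hφO : ∀ x ∈ O', φ x ∈ O) (hint : ∀ y ∈ O, IsIntegral ↥(O'.map φ) y)
    (V : ValuationSubring E) (W : ValuationSubring F)
    (hO'V : ∀ x ∈ O', x ∈ V) (hOW : ∀ y ∈ O, y ∈ W) (hVW : ∀ x, φ x ∈ W ↔ x ∈ V)
    (hloc : ∀ z ∈ V, ∃ a s : ↥O', (s : E) ∉ V.nonunits ∧ z * (s : E) = (a : E))
    (hexh : ∀ W' : ValuationSubring F, (∀ x, φ x ∈ W' ↔ x ∈ V) → W' = W)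
    (𝔫 : Ideal ↥O) [𝔫.IsPrime] :
    (∀ x : ↥O', (x : E) ∈ V.nonunits → s36ptRes φ O' O hφO x ∈ 𝔫) ↔
      ∀ y : ↥O, (y : F) ∈ W.nonunits → y ∈ 𝔫 :=
  ⟨s36pt_through φ O' O hφO hint V W hO'V hOW hloc hexh 𝔫,
    s36pt_comap_through φ O' O hφO V W hVW 𝔫⟩

/-- **(K2), `iff` form.** -/
theorem s36pt_through2_iff (φ : E →ₐ[A] F) (O' : Subalgebra A E) (O : Subalgebra A F)
    [IsIntegrallyClosed ↥O']
    (hφO : ∀ x ∈ O', φ x ∈ O) (hint : ∀ y ∈ O, IsIntegral ↥(O'.map φ) y)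
    (V : ValuationSubring E) (W W₂ : ValuationSubring F)
    (hO'V : ∀ x ∈ O', x ∈ V) (hVW : ∀ x, φ x ∈ W ↔ x ∈ V) (hVW₂ : ∀ x, φ x ∈ W₂ ↔ x ∈ V)
    (hloc : ∀ z ∈ V, ∃ a s : ↥O', (s : E) ∉ V.nonunits ∧ z * (s : E) = (a : E))
    (hexh : ∀ W' : ValuationSubring F, (∀ x, φ x ∈ W' ↔ x ∈ V) → W' = W ∨ W' = W₂)
    (𝔫 : Ideal ↥O) [𝔫.IsPrime] :
    (∀ x : ↥O', (x : E) ∈ V.nonunits → s36ptRes φ O' O hφO x ∈ 𝔫) ↔
      ((∀ y : ↥O, (y : F) ∈ W.nonunits → y ∈ 𝔫) ∨ (∀ y : ↥O, (y : F) ∈ W₂.nonunits → y ∈ 𝔫)) :=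
  ⟨s36pt_through2 φ O' O hφO hint V W W₂ hO'V hloc hexh 𝔫, fun h => by
    rcases h with h | h
    · exact s36pt_comap_through φ O' O hφO V W hVW 𝔫 h
    · exact s36pt_comap_through φ O' O hφO V W₂ hVW₂ 𝔫 h⟩

/-- transitivity of integrality, in the shape of the chart API: if the generators `s` are
integral over the subalgebra `B`, everything integral over `A[s]` is integral over `B`. -/
theorem s36pt_int_trans (B : Subalgebra A F) (s : Set F) (hs : ∀ x ∈ s, IsIntegral ↥B x)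
    (y : F) (hy : IsIntegral ↥(Algebra.adjoin A s) y) : IsIntegral ↥B y := by
  let C : Subalgebra ↥B F := integralClosure ↥B F
  have hle : ∀ x ∈ Algebra.adjoin A s, x ∈ C := by
    intro x hx
    induction hx using Algebra.adjoin_induction with
    | mem x hx => exact hs x hx
    | algebraMap r =>
      have h1 : algebraMap A F r = algebraMap ↥B F (algebraMap A ↥B r) := rfl
      rw [h1]
      exact C.algebraMap_mem _
    | add x y _ _ hx hy => exact C.add_mem hx hy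
    | mul x y _ _ hx hy => exact C.mul_mem hx hy
  obtain ⟨p, hp, hpy⟩ := hy
  let ι : ↥(Algebra.adjoin A s) →+* ↥C :=
    ((Algebra.adjoin A s).val : ↥(Algebra.adjoin A s) →+* F).codRestrict C
      (fun x => hle x x.2)
  have hC : IsIntegral ↥C y := by
    refine ⟨p.map ι, hp.map _, ?_⟩
    rw [Polynomial.eval₂_map]
    exact hpy
  exact isIntegral_trans y hC

end Field

end Fermat.Agent.S36
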