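import Mathlib
import Fermat.Agent.S34.LocRing
import Fermat.Agent.S36.PtTypes

/-!
# S36, family CHART3, leaf [PT-TYPES], local form

The uniqueness statement (K3) of `S36/PtTypes.lean` with the hypothesis `hD` (the component
`O' / 𝔭_V` is integrally closed) replaced by the LOCAL branch statement (BR) at the contracted
point `𝔫'` (shape of `s36tk_br_ded` / `s36tk_br_principal` in `S36/TriBranch.lean`: the image
of `O'_𝔫'` in the residue field of `V` is a valuation ring).  At a crossing point of the level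
`L q` chart (BR) for `V₂` follows from the node data (`S35Node` clause 4), whereas `hD` is on
main only for `V₁`.

* `s36pt_br_unique` : two primes of `O` on the component `W` with the same contraction `𝔫'`
  are equal, when the residue field of `W` is purely inseparable over that of `V` and (BR)
  holds for `(O', 𝔫', V)`;
* `s36pt_br_al_three` : **(P-al)** along `al`, on an `al`-adapted pair of charts: a prime `𝔫`
  through which `W_b` passes and one of `W_a`, `W_c` passes lies on all three (inputs: the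
  `al`-column of the table, `exh_al2`, `insep_al_Wb`, `V₂` a local ring of `O'`, (BR) for
  `V₂` at the contraction of `𝔫`).
-/

set_option autoImplicit false

namespace Fermat.Agent.S36

open Fermat.Agent.S34 Fermat.Agent.S35

section Field

variable {A E F : Type*} [CommRing A] [Field E] [Field F] [Algebra A E] [Algebra A F]

/-- one inclusion of `s36pt_br_unique` -/
theorem s36pt_br_le (φ : E →ₐ[A] F) (O' : Subalgebra A E) (O : Subalgebra A F)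
    (hφO : ∀ x ∈ O', φ x ∈ O)
    (V : ValuationSubring E) (W : ValuationSubring F) (hOW : ∀ y ∈ O, y ∈ W)
    (hVW : ∀ x, φ x ∈ W ↔ x ∈ V)
    (q : ℕ) (hq : 0 < q) (hins : ∀ y ∈ W, ∃ r ∈ V, y ^ q - φ r ∈ W.nonunits)
    (𝔞 𝔟 : Ideal ↥O) [𝔞.IsPrime] [h𝔟 : 𝔟.IsPrime]
    (h1 : ∀ y : ↥O, (y : F) ∈ W.nonunits → y ∈ 𝔞)
    (h2 : ∀ y : ↥O, (y : F) ∈ W.nonunits → y ∈ 𝔟)
    (𝔫' : Ideal ↥O') [𝔫'.IsPrime]
    (ha : ∀ x : ↥O', x ∈ 𝔫' ↔ s36ptRes φ O' O hφO x ∈ 𝔞)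
    (hb : ∀ x : ↥O', x ∈ 𝔫' ↔ s36ptRes φ O' O hφO x ∈ 𝔟)
    (hBR : ∀ s ∈ V, (∃ c ∈ ndrLoc O' 𝔫', s - c ∈ V.nonunits) ∨
      (∃ g ∈ ndrLoc O' 𝔫', s * g - 1 ∈ V.nonunits)) :
    𝔞 ≤ 𝔟 := by
  have hnu : ∀ x, φ x ∈ W.nonunits ↔ x ∈ V.nonunits :=
    s36pt_nonunits_iff (φ : E →+* F) V W hVW
  have hφW : ∀ x : ↥O', φ (x : E) ∈ W := fun x => hOW _ (hφO _ x.2)
  intro y hy
  have hyq : y ^ q ∈ 𝔞 := Ideal.pow_mem_of_mem 𝔞 hy q hq
  obtain ⟨r, hr, hyr⟩ := hins (y : F) (hOW _ y.2)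
  rcases hBR r hr with ⟨c, ⟨a, s, hs, hcs⟩, hrc⟩ | ⟨g, ⟨a, s, hs, hgs⟩, hrg⟩
  · -- `r ≡ a / s` modulo `𝔪_V`
    have hel : ((s36ptRes φ O' O hφO s * y ^ q - s36ptRes φ O' O hφO a : ↥O) : F) ∈
        W.nonunits := by
      have e1 : ((s36ptRes φ O' O hφO s * y ^ q - s36ptRes φ O' O hφO a : ↥O) : F) =
          ((y : F) ^ q - φ r) * φ (s : E) + φ (r - c) * φ (s : E) := by
        have e2 : φ (a : E) = φ c * φ (s : E) := by rw [← hcs, map_mul]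
        show φ (s : E) * (y : F) ^ q - φ (a : E) = _
        rw [e2, map_sub]
        ring
      rw [e1]
      exact W.nonunits.add_mem (cpl_nu_mul W hyr (hφW s))
        (cpl_nu_mul W ((hnu _).mpr hrc) (hφW s))
    have h3 : s36ptRes φ O' O hφO a ∈ 𝔞 := by
      have e3 : s36ptRes φ O' O hφO a = s36ptRes φ O' O hφO s * y ^ q -
          (s36ptRes φ O' O hφO s * y ^ q - s36ptRes φ O' O hφO a) := by ring
      rw [e3]
      exact 𝔞.sub_mem (𝔞.mul_mem_left _ hyq) (h1 _ hel)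
    have h4 : s36ptRes φ O' O hφO a ∈ 𝔟 := (hb a).mp ((ha a).mpr h3)
    have h5 : s36ptRes φ O' O hφO s * y ^ q ∈ 𝔟 := by
      have e4 : s36ptRes φ O' O hφO s * y ^ q =
          (s36ptRes φ O' O hφO s * y ^ q - s36ptRes φ O' O hφO a) + s36ptRes φ O' O hφO a := by
        ring
      rw [e4]
      exact 𝔟.add_mem (h2 _ hel) h4
    rcases h𝔟.mem_or_mem h5 with h6 | h6
    · exact absurd ((hb s).mpr h6) hs
    · exact h𝔟.mem_of_pow_mem q h6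
  · -- `r * (a / s) ≡ 1` modulo `𝔪_V`: impossible for `y ∈ 𝔞`
    exfalso
    have hel : ((y ^ q * s36ptRes φ O' O hφO a - s36ptRes φ O' O hφO s : ↥O) : F) ∈
        W.nonunits := by
      have e1 : ((y ^ q * s36ptRes φ O' O hφO a - s36ptRes φ O' O hφO s : ↥O) : F) =
          ((y : F) ^ q - φ r) * φ (a : E) + φ (r * g - 1) * φ (s : E) := by
        have e2 : φ (a : E) = φ g * φ (s : E) := by rw [← hgs, map_mul]
        show (y : F) ^ q * φ (a : E) - φ (s : E) = _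
        rw [map_sub, map_mul, map_one, e2]
        ring
      rw [e1]
      exact W.nonunits.add_mem (cpl_nu_mul W hyr (hφW a))
        (cpl_nu_mul W ((hnu _).mpr hrg) (hφW s))
    have h3 : s36ptRes φ O' O hφO s ∈ 𝔞 := by
      have e3 : s36ptRes φ O' O hφO s = y ^ q * s36ptRes φ O' O hφO a -
          (y ^ q * s36ptRes φ O' O hφO a - s36ptRes φ O' O hφO s) := by ring
      rw [e3]
      exact 𝔞.sub_mem (𝔞.mul_mem_right _ hyq) (h1 _ hel)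
    exact hs ((ha s).mpr h3)

/-- **(K3), local form.**  Two primes of `O` on the component `W` with the same contraction
`𝔫'` to `O'` are equal, when the residue field of `W` is purely inseparable (exponent `q`) over
that of `V` and the branch of `V` at `𝔫'` is a valuation ring (BR). -/
theorem s36pt_br_unique (φ : E →ₐ[A] F) (O' : Subalgebra A E) (O : Subalgebra A F)
    (hφO : ∀ x ∈ O', φ x ∈ O)
    (V : ValuationSubring E) (W : ValuationSubring F) (hOW : ∀ y ∈ O, y ∈ W)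
    (hVW : ∀ x, φ x ∈ W ↔ x ∈ V)
    (q : ℕ) (hq : 0 < q) (hins : ∀ y ∈ W, ∃ r ∈ V, y ^ q - φ r ∈ W.nonunits)
    (𝔫₁ 𝔫₂ : Ideal ↥O) [𝔫₁.IsPrime] [𝔫₂.IsPrime]
    (h1 : ∀ y : ↥O, (y : F) ∈ W.nonunits → y ∈ 𝔫₁)
    (h2 : ∀ y : ↥O, (y : F) ∈ W.nonunits → y ∈ 𝔫₂)
    (𝔫' : Ideal ↥O') [𝔫'.IsPrime]
    (hn1 : ∀ x : ↥O', x ∈ 𝔫' ↔ s36ptRes φ O' O hφO x ∈ 𝔫₁)
    (hn2 : ∀ x : ↥O', x ∈ 𝔫' ↔ s36ptRes φ O' O hφO x ∈ 𝔫₂)
    (hBR : ∀ s ∈ V, (∃ c ∈ ndrLoc O' 𝔫', s - c ∈ V.nonunits) ∨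
      (∃ g ∈ ndrLoc O' 𝔫', s * g - 1 ∈ V.nonunits)) :
    𝔫₁ = 𝔫₂ :=
  le_antisymm
    (s36pt_br_le φ O' O hφO V W hOW hVW q hq hins 𝔫₁ 𝔫₂ h1 h2 𝔫' hn1 hn2 hBR)
    (s36pt_br_le φ O' O hφO V W hOW hVW q hq hins 𝔫₂ 𝔫₁ h2 h1 𝔫' hn2 hn1 hBR)

/-- **[PT-TYPES] (P-al).**  On an `al`-adapted pair of charts: a prime `𝔫` of `O` through which
`W_b` passes lies on `W_a` if and only if it lies on `W_c`.  `𝔫'` is the contraction of `𝔫`
(a crossing point of `O'`), (BR) the branch statement for `V₂` at `𝔫'`. -/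
theorem s36pt_br_al_three (al : E →ₐ[A] F) (O' : Subalgebra A E) (O : Subalgebra A F)
    [IsIntegrallyClosed ↥O']
    (halO : ∀ x ∈ O', al x ∈ O) (hintal : ∀ y ∈ O, IsIntegral ↥(O'.map al) y)
    (V1 V2 : ValuationSubring E) (Wa Wb Wc : ValuationSubring F)
    (hO2 : ∀ x ∈ O', x ∈ V2)
    (hOa : ∀ y ∈ O, y ∈ Wa) (hOb : ∀ y ∈ O, y ∈ Wb) (hOc : ∀ y ∈ O, y ∈ Wc)
    (hal_a : ∀ x, al x ∈ Wa ↔ x ∈ V1) (hal_b : ∀ x, al x ∈ Wb ↔ x ∈ V2)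
    (hal_c : ∀ x, al x ∈ Wc ↔ x ∈ V1)
    (hloc2 : ∀ z ∈ V2, ∃ a s : ↥O', (s : E) ∉ V2.nonunits ∧ z * (s : E) = (a : E))
    (hexh_al2 : ∀ W : ValuationSubring F, (∀ x, al x ∈ W ↔ x ∈ V2) → W = Wb)
    (q : ℕ) (hq : 0 < q) (hins_al : ∀ y ∈ Wb, ∃ r ∈ V2, y ^ q - al r ∈ Wb.nonunits)
    (𝔫 : Ideal ↥O) [𝔫.IsPrime] (𝔫' : Ideal ↥O') [𝔫'.IsPrime]
    (h𝔫' : ∀ x : ↥O', x ∈ 𝔫' ↔ s36ptRes al O' O halO x ∈ 𝔫)
    (hBR : ∀ s ∈ V2, (∃ c ∈ ndrLoc O' 𝔫', s - c ∈ V2.nonunits) ∨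
      (∃ g ∈ ndrLoc O' 𝔫', s * g - 1 ∈ V2.nonunits))
    (hb : ∀ y : ↥O, (y : F) ∈ Wb.nonunits → y ∈ 𝔫) :
    ((∀ y : ↥O, (y : F) ∈ Wa.nonunits → y ∈ 𝔫) → ∀ y : ↥O, (y : F) ∈ Wc.nonunits → y ∈ 𝔫) ∧
    ((∀ y : ↥O, (y : F) ∈ Wc.nonunits → y ∈ 𝔫) → ∀ y : ↥O, (y : F) ∈ Wa.nonunits → y ∈ 𝔫) := by
  have h𝔫c : (𝔫.comap (s36ptRes al O' O halO)).IsPrime := Ideal.comap_isPrime _ _
  -- the mechanism: `V₁` through the contraction, `W'` over `V₁` ⟹ `W'` through `𝔫`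
  have key : ∀ W' : ValuationSubring F, (∀ y ∈ O, y ∈ W') → (∀ x, al x ∈ W' ↔ x ∈ V1) →
      (∀ x : ↥O', (x : E) ∈ V1.nonunits → s36ptRes al O' O halO x ∈ 𝔫) →
      ∀ y : ↥O, (y : F) ∈ W'.nonunits → y ∈ 𝔫 := by
    intro W' hOW' hVW' hV1
    obtain ⟨Q, hQ, hQW', hQc⟩ := s36pt_exists_over al O' O halO hintal V1 W' hOW' hVW'
      (𝔫.comap (s36ptRes al O' O halO)) (fun x hx => Ideal.mem_comap.mpr (hV1 x hx))
    have hQ𝔫 : ∀ x : ↥O', s36ptRes al O' O halO x ∈ Q ↔ s36ptRes al O' O halO x ∈ 𝔫 :=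
      fun x => by
        have h2 : x ∈ Q.comap (s36ptRes al O' O halO) ↔
            x ∈ 𝔫.comap (s36ptRes al O' O halO) := by rw [hQc]
        exact h2
    have hQb : ∀ y : ↥O, (y : F) ∈ Wb.nonunits → y ∈ Q :=
      s36pt_through al O' O halO hintal V2 Wb hO2 hOb hloc2 hexh_al2 Q
        (fun x hx => (hQ𝔫 x).mpr (s36pt_comap_through al O' O halO V2 Wb hal_b 𝔫 hb x hx))
    have hEq : 𝔫 = Q := s36pt_br_unique al O' O halO V2 Wb hOb hal_b q hq hins_al 𝔫 Q hb hQb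
      𝔫' h𝔫' (fun x => (h𝔫' x).trans (hQ𝔫 x).symm) hBR
    intro y hy
    rw [hEq]
    exact hQW' y hy
  exact ⟨fun ha => key Wc hOc hal_c (s36pt_comap_through al O' O halO V1 Wa hal_a 𝔫 ha),
    fun hc => key Wa hOa hal_a (s36pt_comap_through al O' O halO V1 Wc hal_c 𝔫 hc)⟩

end Field

end Fermat.Agent.S36
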