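/-
S36, family D (NORMRES-TORIC), leaf [TRI-ABS] (COORD-6 R8, msg 1627).
Mathlib + S35/AbsNorm + S36/Toric3Def.  Prefix `s36ti_`.

The abstract adapter: the nine clauses of `S36Tri` (the local data at a triple point of the
special fibre at level `L q²` consumed by the toric core `s36tor_main`) for a subring `R` of the
function field `F` (the local ring of the chart at the triple point) from

* generic facts on `R`: `R ⊆ Wa, Wb, Wc`, constants, `R` local, closed under `m`-th roots;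
* (i) the local rings `R1`, `R2` of the two nodes below (level `L q`, via `α`, resp. `β`) map into
  `R`, and the norms of elements of `R` lie in them (integrality + `R1`, `R2` integrally closed:
  `s36ti_norm_mem`);
* (ii) the two decompositions `R = α(R1) + (R ∩ 𝔪_Wa)`, `R = β(R2) + (R ∩ 𝔪_Wb)`;
* the node below via `α`: the maximal ideal of `R1` is the sum of the two branch ideals
  (e.g. `𝔪_R1 = (x', y')` with `α x' ∈ 𝔪_Wa`, `α y' ∈ 𝔪_Wb`: `s36ti_main_xy`).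

Bridges for the instance: `s36ti_local` (`IsLocalRing ↥R` gives the locality binder),
`s36ti_root` (integrally closed gives the root binder), `s36ti_norm_mem` (norm of an element
integral over an integrally closed subring), `s36ti_dec` (the decomposition (ii) from residue
degree one and the discrete valuation ring `R1 / (R1 ∩ 𝔪_V1)`).
-/
import Mathlib
import Fermat.Agent.S35.AbsNorm
import Fermat.Agent.S36.Toric3Def

set_option autoImplicit false

namespace Fermat.Agent.S36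

open Fermat.Agent.S35

section Abs

variable {A E F : Type*} [CommRing A] [Field E] [Field F] [Algebra A F]

/-- an element of `𝔪_W` is not a unit of a subring `R ⊆ W` -/
theorem s36ti_nu (W : ValuationSubring F) (R : Subring F) (hRW : ∀ x ∈ R, x ∈ W) {p : F}
    (hp : p ∈ W.nonunits) : p = 0 ∨ p⁻¹ ∉ R := by
  rcases (ValuationSubring.mem_nonunits_iff_or W).1 hp with h | h
  · exact Or.inl h
  · exact Or.inr fun h' => h (hRW _ h')

/-- a monoid homomorphism between fields commutes with inversion -/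
theorem s36ti_inv (N : F →* E) (u : F) : (N u)⁻¹ = N u⁻¹ := by
  by_cases hu : u = 0
  · subst hu
    rw [inv_zero]
    have h : N 0 * N 0 = N 0 := by rw [← map_mul, mul_zero]
    by_cases h0 : N 0 = 0
    · rw [h0, inv_zero]
    · have h1 : N 0 = 1 := by
        have h2 : N 0 * N 0 = N 0 * 1 := by rw [mul_one]; exact h
        exact mul_left_cancel₀ h0 h2
      rw [h1, inv_one]
  · have h : N u * N u⁻¹ = 1 := by rw [← map_mul, mul_inv_cancel₀ hu, map_one]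
    exact inv_eq_of_mul_eq_one_right h

/-- **[TRI-ABS]** the local data `S36Tri` at a triple point from the two nodes below. -/
theorem s36ti_main (α β : E →+* F) (Nα Nβ : F →* E) (Wa Wb Wc : ValuationSubring F) (m : ℕ)
    (R : Subring F) (R1 R2 : Subring E)
    -- generic facts on the local ring `R`
    (hRa : ∀ x ∈ R, x ∈ Wa) (hRb : ∀ x ∈ R, x ∈ Wb) (hRc : ∀ x ∈ R, x ∈ Wc)
    (hconst : ∀ a : A, algebraMap A F a ∈ R)
    (hlocal : ∀ x ∈ R, x ≠ 0 → x⁻¹ ∈ R → ∀ y ∈ R, (y = 0 ∨ y⁻¹ ∉ R) →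
      x + y ≠ 0 ∧ (x + y)⁻¹ ∈ R)
    (hroot : ∀ x : F, x ^ m ∈ R → x ∈ R)
    -- (i) the local rings of the nodes below; norms
    (hαR : ∀ r ∈ R1, α r ∈ R) (hβR : ∀ r ∈ R2, β r ∈ R)
    (hNα : ∀ u ∈ R, Nα u ∈ R1) (hNβ : ∀ u ∈ R, Nβ u ∈ R2)
    -- (ii) the two decompositions
    (h8 : ∀ a ∈ R, ∃ a1 ∈ R1, a - α a1 ∈ Wa.nonunits)
    (h9 : ∀ a ∈ R, ∃ b1 ∈ R2, a - β b1 ∈ Wb.nonunits)
    -- the node below via `α`: its maximal ideal is the sum of the two branch ideals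
    (hnode : ∀ a ∈ R1, (a = 0 ∨ a⁻¹ ∉ R1) → ∃ v ∈ R1, ∃ w ∈ R1,
      α v ∈ Wa.nonunits ∧ α w ∈ Wb.nonunits ∧ a = v + w) :
    S36Tri (A := A) α β Nα Nβ Wa Wb Wc m R := by
  -- locality in the form of clause 3
  have hloc3 : ∀ x ∈ R, x⁻¹ ∈ R → x ≠ 0 → ∀ p ∈ R, p ∈ Wa.nonunits → ∀ p' ∈ R,
      p' ∈ Wb.nonunits → x + p + p' ≠ 0 ∧ (x + p + p')⁻¹ ∈ R := by
    intro x hx hxi hx0 p hp hpa p' hp' hpb
    obtain ⟨h1, h2⟩ := hlocal x hx hx0 hxi p hp (s36ti_nu Wa R hRa hpa)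
    exact hlocal (x + p) (R.add_mem hx hp) h1 h2 p' hp' (s36ti_nu Wb R hRb hpb)
  refine ⟨fun x hx => ⟨hRa x hx, hRb x hx, hRc x hx⟩, hconst, hloc3, ?_, hroot, ?_, ?_, ?_, ?_⟩
  · -- clause 4: `P_c ⊆ P_a + P_b`
    intro z hz hzc
    obtain ⟨a1, ha1, hza⟩ := h8 z hz
    have hαa1 : α a1 ∈ R := hαR a1 ha1
    have hdR : z - α a1 ∈ R := R.sub_mem hz hαa1
    by_cases hu : a1 = 0 ∨ a1⁻¹ ∉ R1
    · obtain ⟨v, hv, w, hw, hva, hwb, hvw⟩ := hnode a1 ha1 hu
      refine ⟨z - α a1 + α v, R.add_mem hdR (hαR v hv), s35n_nu_add Wa hza hva, α w, hαR w hw,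
        hwb, ?_⟩
      rw [hvw, map_add]; ring
    · -- `a1` a unit of `R1`: then `z` is a unit of `R`, which is absurd
      exfalso
      rw [not_or, not_not] at hu
      obtain ⟨ha10, ha1i⟩ := hu
      have h1 : α a1 ≠ 0 := by
        rw [Ne, map_eq_zero]; exact ha10
      have h2 : (α a1)⁻¹ ∈ R := by
        rw [← map_inv₀]; exact hαR _ ha1i
      obtain ⟨h3, h4⟩ := hlocal (α a1) hαa1 h1 h2 (z - α a1) hdR (s36ti_nu Wa R hRa hza)
      have h5 : α a1 + (z - α a1) = z := by ring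
      rw [h5] at h3 h4
      rcases (ValuationSubring.mem_nonunits_iff_or Wc).1 hzc with h | h
      · exact h3 h
      · exact h (hRc _ h4)
  · -- clause 6
    intro u hu hui
    refine ⟨hαR _ (hNα u hu), ?_⟩
    rw [← map_inv₀, s36ti_inv]
    exact hαR _ (hNα _ hui)
  · -- clause 7
    intro u hu hui
    refine ⟨hβR _ (hNβ u hu), ?_⟩
    rw [← map_inv₀, s36ti_inv]
    exact hβR _ (hNβ _ hui)
  · -- clause 8
    intro a ha
    obtain ⟨a1, ha1, h⟩ := h8 a ha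
    exact ⟨a1, hαR a1 ha1, h⟩
  · -- clause 9
    intro a ha
    obtain ⟨b1, hb1, h⟩ := h9 a ha
    exact ⟨b1, hβR b1 hb1, h⟩

/-- `s36ti_main` with the node in the form `𝔪_R1 = (x', y')`, `α x' ∈ 𝔪_Wa`, `α y' ∈ 𝔪_Wb`. -/
theorem s36ti_main_xy (α β : E →+* F) (Nα Nβ : F →* E) (Wa Wb Wc : ValuationSubring F) (m : ℕ)
    (R : Subring F) (R1 R2 : Subring E)
    (hRa : ∀ x ∈ R, x ∈ Wa) (hRb : ∀ x ∈ R, x ∈ Wb) (hRc : ∀ x ∈ R, x ∈ Wc)
    (hconst : ∀ a : A, algebraMap A F a ∈ R)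
    (hlocal : ∀ x ∈ R, x ≠ 0 → x⁻¹ ∈ R → ∀ y ∈ R, (y = 0 ∨ y⁻¹ ∉ R) →
      x + y ≠ 0 ∧ (x + y)⁻¹ ∈ R)
    (hroot : ∀ x : F, x ^ m ∈ R → x ∈ R)
    (hαR : ∀ r ∈ R1, α r ∈ R) (hβR : ∀ r ∈ R2, β r ∈ R)
    (hNα : ∀ u ∈ R, Nα u ∈ R1) (hNβ : ∀ u ∈ R, Nβ u ∈ R2)
    (h8 : ∀ a ∈ R, ∃ a1 ∈ R1, a - α a1 ∈ Wa.nonunits)
    (h9 : ∀ a ∈ R, ∃ b1 ∈ R2, a - β b1 ∈ Wb.nonunits)
    (x' y' : E) (hx'R : x' ∈ R1) (hy'R : y' ∈ R1)
    (hx' : α x' ∈ Wa.nonunits) (hy' : α y' ∈ Wb.nonunits)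
    (hnode : ∀ a ∈ R1, (a = 0 ∨ a⁻¹ ∉ R1) → ∃ r ∈ R1, ∃ r' ∈ R1, a = x' * r + y' * r') :
    S36Tri (A := A) α β Nα Nβ Wa Wb Wc m R := by
  refine s36ti_main α β Nα Nβ Wa Wb Wc m R R1 R2 hRa hRb hRc hconst hlocal hroot hαR hβR hNα hNβ
    h8 h9 ?_
  intro a ha hu
  obtain ⟨r, hr, r', hr', h⟩ := hnode a ha hu
  refine ⟨x' * r, R1.mul_mem hx'R hr, y' * r', R1.mul_mem hy'R hr', ?_, ?_, h⟩
  · rw [map_mul]; exact s35n_nu_mul' Wa hx' (hRa _ (hαR r hr))
  · rw [map_mul]; exact s35n_nu_mul' Wb hy' (hRb _ (hαR r' hr'))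

/-- **the decomposition (ii)**: `R = α(R1) + (R ∩ 𝔪_Wa)`, from residue degree one of `Wa` over
`V1` along `α` and the fact that `R1 / (R1 ∩ 𝔪_V1)` is a discrete valuation ring with
uniformiser `y'` and fraction field `k(V1)` (element form `hdvr`), `α y'` being a non-unit of
the local ring `R`: a discrete valuation ring is a maximal proper subring of its fraction
field. -/
theorem s36ti_dec (α : E →+* F) (Wa : ValuationSubring F) (V1 : ValuationSubring E)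
    (R : Subring F) (R1 : Subring E)
    (hRa : ∀ x ∈ R, x ∈ Wa)
    (hlocal : ∀ x ∈ R, x ≠ 0 → x⁻¹ ∈ R → ∀ y ∈ R, (y = 0 ∨ y⁻¹ ∉ R) →
      x + y ≠ 0 ∧ (x + y)⁻¹ ∈ R)
    (hαR : ∀ r ∈ R1, α r ∈ R)
    (hαV : ∀ x ∈ V1.nonunits, α x ∈ Wa.nonunits)
    (hres : ∀ x ∈ Wa, ∃ s ∈ V1, x - α s ∈ Wa.nonunits)
    (y' : E) (hy'R : y' ∈ R1) (hy'n : α y' = 0 ∨ (α y')⁻¹ ∉ R)
    (hdvr : ∀ s ∈ V1, s ∉ V1.nonunits → ∃ (j : ℕ) (u : E), u ∈ R1 ∧ u⁻¹ ∈ R1 ∧ u ≠ 0 ∧
      (s - u * y' ^ j ∈ V1.nonunits ∨ s * y' ^ j - u ∈ V1.nonunits)) :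
    ∀ a ∈ R, ∃ a1 ∈ R1, a - α a1 ∈ Wa.nonunits := by
  intro r hr
  obtain ⟨s, hsV, hrs⟩ := hres r (hRa r hr)
  by_cases hs : s ∈ V1.nonunits
  · refine ⟨0, R1.zero_mem, ?_⟩
    have h := s35n_nu_add Wa hrs (hαV s hs)
    rw [sub_add_cancel] at h
    rw [map_zero, sub_zero]; exact h
  obtain ⟨j, u, hu, hui, hu0, h⟩ := hdvr s hsV hs
  rcases h with h | h
  · refine ⟨u * y' ^ j, R1.mul_mem hu (R1.pow_mem hy'R j), ?_⟩
    have h1 := s35n_nu_add Wa hrs (hαV _ h)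
    have h2 : r - α s + α (s - u * y' ^ j) = r - α (u * y' ^ j) := by
      rw [map_sub]; ring
    rw [h2] at h1; exact h1
  · rcases Nat.eq_zero_or_pos j with hj | hj
    · subst hj
      rw [pow_zero, mul_one] at h
      refine ⟨u, hu, ?_⟩
      have h1 := s35n_nu_add Wa hrs (hαV _ h)
      have h2 : r - α s + α (s - u) = r - α u := by
        rw [map_sub]; ring
      rw [h2] at h1; exact h1
    · exfalso
      have hyR : α y' ∈ R := hαR y' hy'R
      have hyjR : α y' ^ j ∈ R := R.pow_mem hyR j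
      have h1 : (r - α s) * α y' ^ j + α (s * y' ^ j - u) ∈ Wa.nonunits :=
        s35n_nu_add Wa (s35n_nu_mul' Wa hrs (hRa _ hyjR)) (hαV _ h)
      have h2 : (r - α s) * α y' ^ j + α (s * y' ^ j - u) = r * α y' ^ j - α u := by
        rw [map_sub, map_mul, map_pow]; ring
      rw [h2] at h1
      have hαu : α u ∈ R := hαR u hu
      have hαu0 : α u ≠ 0 := by rw [Ne, map_eq_zero]; exact hu0
      have hαui : (α u)⁻¹ ∈ R := by rw [← map_inv₀]; exact hαR _ hui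
      have hdR : r * α y' ^ j - α u ∈ R := R.sub_mem (R.mul_mem hr hyjR) hαu
      obtain ⟨h3, h4⟩ := hlocal (α u) hαu hαu0 hαui _ hdR (s36ti_nu Wa R hRa h1)
      have h5 : α u + (r * α y' ^ j - α u) = r * α y' ^ j := by ring
      rw [h5] at h3 h4
      have hy0 : α y' ≠ 0 := by
        intro h0
        rw [h0, zero_pow hj.ne', mul_zero] at h3
        exact h3 rfl
      rcases hy'n with h6 | h6
      · exact hy0 h6
      · apply h6
        have h7 : (α y')⁻¹ = r * α y' ^ (j - 1) * (r * α y' ^ j)⁻¹ := by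
          have hr0 : r ≠ 0 := by
            intro h0
            rw [h0, zero_mul] at h3
            exact h3 rfl
          obtain ⟨k, rfl⟩ : ∃ k, j = k + 1 := ⟨j - 1, by omega⟩
          rw [Nat.add_sub_cancel, pow_succ]
          field_simp
        rw [h7]
        exact R.mul_mem (R.mul_mem hr (R.pow_mem hyR _)) h4

/-- the locality binder of `s36ti_main` from `IsLocalRing ↥R` -/
theorem s36ti_local (R : Subring F) [IsLocalRing ↥R] :
    ∀ x ∈ R, x ≠ 0 → x⁻¹ ∈ R → ∀ y ∈ R, (y = 0 ∨ y⁻¹ ∉ R) → x + y ≠ 0 ∧ (x + y)⁻¹ ∈ R := by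
  have hunit : ∀ (z : F) (hz : z ∈ R), IsUnit (⟨z, hz⟩ : ↥R) ↔ z ≠ 0 ∧ z⁻¹ ∈ R := by
    intro z hz
    constructor
    · intro h
      obtain ⟨⟨w, hw⟩, h1⟩ := h.exists_right_inv
      have h2 : z * w = 1 := congrArg Subtype.val h1
      have hz0 : z ≠ 0 := by
        rintro rfl
        rw [zero_mul] at h2
        exact zero_ne_one h2
      refine ⟨hz0, ?_⟩
      have h3 : z⁻¹ = w := by
        rw [inv_eq_iff_eq_inv]; exact (eq_inv_of_mul_eq_one_left h2)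
      rw [h3]; exact hw
    · rintro ⟨hz0, hzi⟩
      refine IsUnit.of_mul_eq_one (⟨z⁻¹, hzi⟩ : ↥R) ?_
      exact Subtype.ext (mul_inv_cancel₀ hz0)
  intro x hx hx0 hxi y hy hyn
  have hxu : IsUnit (⟨x, hx⟩ : ↥R) := (hunit x hx).2 ⟨hx0, hxi⟩
  have hyn' : ¬ IsUnit (⟨y, hy⟩ : ↥R) := fun h => by
    obtain ⟨h1, h2⟩ := (hunit y hy).1 h
    rcases hyn with h | h
    · exact h1 h
    · exact h h2
  have hs : IsUnit (⟨x + y, R.add_mem hx hy⟩ : ↥R) := by
    by_contra hc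
    have h1 : (⟨x + y, R.add_mem hx hy⟩ : ↥R) ∈ IsLocalRing.maximalIdeal ↥R :=
      (IsLocalRing.mem_maximalIdeal _).2 hc
    have h2 : (⟨y, hy⟩ : ↥R) ∈ IsLocalRing.maximalIdeal ↥R :=
      (IsLocalRing.mem_maximalIdeal _).2 hyn'
    have h3 := Ideal.sub_mem _ h1 h2
    have h4 : (⟨x + y, R.add_mem hx hy⟩ : ↥R) - ⟨y, hy⟩ = ⟨x, hx⟩ :=
      Subtype.ext (add_sub_cancel_right x y)
    rw [h4] at h3
    exact (IsLocalRing.mem_maximalIdeal _).1 h3 hxu
  exact (hunit (x + y) (R.add_mem hx hy)).1 hs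

/-- the root binder of `s36ti_main` from integral closedness -/
theorem s36ti_root (R : Subring F) (hic : ∀ x : F, IsIntegral ↥R x → x ∈ R) (m : ℕ) (hm : 0 < m) :
    ∀ x : F, x ^ m ∈ R → x ∈ R := by
  intro x hx
  apply hic
  refine ⟨Polynomial.X ^ m - Polynomial.C (⟨x ^ m, hx⟩ : ↥R),
    Polynomial.monic_X_pow_sub_C _ hm.ne', ?_⟩
  rw [Polynomial.eval₂_sub, Polynomial.eval₂_pow, Polynomial.eval₂_X, Polynomial.eval₂_C]
  exact sub_self _

/-- **norm of an integral element**: for the algebra structure `α.toAlgebra` on `F` over `E`,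
the norm of an element of `F` integral over (the image of) an integrally closed subring `R1`
of `E` lies in `R1`.  (`s35NormA`, `s35NormB` are `Algebra.norm` for `algebraAlong`, which is
`RingHom.toAlgebra`.) -/
theorem s36ti_norm_mem (α : E →+* F) (R1 : Subring E)
    (hic : ∀ x : E, IsIntegral ↥R1 x → x ∈ R1) (r : F)
    (hr : ∃ p : Polynomial E, p.Monic ∧ (∀ i, p.coeff i ∈ R1) ∧ Polynomial.eval₂ α r p = 0) :
    (letI := α.toAlgebra; Algebra.norm E r) ∈ R1 := by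
  let _ := α.toAlgebra
  let _ : Algebra ↥R1 F := (α.comp R1.subtype).toAlgebra
  have : IsScalarTower ↥R1 E F := IsScalarTower.of_algebraMap_eq fun x => rfl
  apply hic
  apply Algebra.isIntegral_norm
  obtain ⟨p, hp, hc, h0⟩ := hr
  have hp' : p ∈ Polynomial.lifts R1.subtype := by
    rw [Polynomial.lifts_iff_coeff_lifts]
    intro i
    exact ⟨⟨p.coeff i, hc i⟩, rfl⟩
  obtain ⟨P, hP, -, hPm⟩ := Polynomial.lifts_and_degree_eq_and_monic hp' hp
  refine ⟨P, hPm, ?_⟩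
  have h1 : Polynomial.eval₂ (algebraMap ↥R1 F) r P = Polynomial.eval₂ α r (P.map R1.subtype) := by
    rw [Polynomial.eval₂_map]; rfl
  rw [h1, hP]; exact h0

end Abs

end Fermat.Agent.S36
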