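/-
S36, family D (NORMRES-TORIC), leaf [TRI-BRANCH] (branch-DVR element forms for the triple points;
COORD-6 R12 / msg 1670).  Imports S34/LocRing, S34/CompLoc, S35/LocIC, S36/TriAbs.
Prefix `s36tk_`.

Chart forms of the inputs of `s36ti_main` (S36/TriAbs.lean):

* `s36tk_dec_abs`: the decomposition `R = α(R1) + (R ∩ 𝔪_Wa)` (binder `h8`/`h9`) from residue
  degree one of `Wa` over `V1` along `α`, a LOCAL homomorphism `R1 → R`, and the fact that the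
  image of `R1` in the residue field of `V1` is a valuation ring (`hbr`);
* `s36tk_br`: `hbr` for `R1 = ndrLoc O' 𝔫` from (FRAC) for `V1` on the chart `O'` and the
  elementwise valuation-ring property of `O' ⧸ p` at `𝔫`;
  `s36tk_br_ded` (Dedekind coordinate ring: `cmi_hD`), `s36tk_br_principal` (principal maximal
  ideal modulo the component: the branch hypothesis `hB` of the node, S35Node clauses 3/4);
* `s36tk_dec`: `h8` in chart form (`R1 = ndrLoc O' 𝔫1`);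
* `s36tk_node`: the binder `hnode` of `s36ti_main` in chart form, from S35Node clauses 2, 3;
* `s36tk_root`, `s36tk_le`: the binders `hroot`, `hRa` for `ndrLoc O 𝔫`;
* `s36tk_tri`: `S36Tri` for `(ndrLoc O 𝔫).toSubring` from chart-level data on both sides.
-/
import Mathlib
import Fermat.Agent.S34.LocRing
import Fermat.Agent.S34.CompLoc
import Fermat.Agent.S35.LocIC
import Fermat.Agent.S36.TriAbs

set_option autoImplicit false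

namespace Fermat.Agent.S36

open Fermat.Agent.S34 Fermat.Agent.S35

section Abs

variable {E F : Type*} [Field E] [Field F]

/-- **the decomposition `R = α(R1) + (R ∩ 𝔪_Wa)`** (binder `h8` of `s36ti_main`; `h9` is the
same statement for `(β, Wb, V2, R2)`): `Wa` has residue degree one over `V1` along `α`, `α` maps
`R1` to `R` and non-units to non-units, `R` is local, and the image of `R1` in the residue field
of `V1` is a valuation ring (`hbr`). -/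
theorem s36tk_dec_abs (α : E →+* F) (Wa : ValuationSubring F) (V1 : ValuationSubring E)
    (R : Subring F) (R1 : Subring E)
    (hRa : ∀ x ∈ R, x ∈ Wa)
    (hlocal : ∀ x ∈ R, x ≠ 0 → x⁻¹ ∈ R → ∀ y ∈ R, (y = 0 ∨ y⁻¹ ∉ R) →
      x + y ≠ 0 ∧ (x + y)⁻¹ ∈ R)
    (hαR : ∀ r ∈ R1, α r ∈ R)
    (hαnu : ∀ c ∈ R1, (c = 0 ∨ c⁻¹ ∉ R1) → (α c = 0 ∨ (α c)⁻¹ ∉ R))
    (hαV : ∀ x ∈ V1.nonunits, α x ∈ Wa.nonunits)
    (hres : ∀ x ∈ Wa, ∃ s ∈ V1, x - α s ∈ Wa.nonunits)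
    (hbr : ∀ s ∈ V1, (∃ c ∈ R1, s - c ∈ V1.nonunits) ∨ (∃ g ∈ R1, s * g - 1 ∈ V1.nonunits)) :
    ∀ a ∈ R, ∃ a1 ∈ R1, a - α a1 ∈ Wa.nonunits := by
  intro r hr
  obtain ⟨s, hsV, hrs⟩ := hres r (hRa r hr)
  rcases hbr s hsV with ⟨c, hc, hsc⟩ | ⟨g, hg, hsg⟩
  · refine ⟨c, hc, ?_⟩
    have h1 := s35n_nu_add Wa hrs (hαV _ hsc)
    have h2 : r - α s + α (s - c) = r - α c := by rw [map_sub]; ring
    rw [h2] at h1; exact h1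
  · have hgR : α g ∈ R := hαR g hg
    have h1 : (r - α s) * α g + α (s * g - 1) ∈ Wa.nonunits :=
      s35n_nu_add Wa (s35n_nu_mul' Wa hrs (hRa _ hgR)) (hαV _ hsg)
    have h2 : (r - α s) * α g + α (s * g - 1) = r * α g - 1 := by
      rw [map_sub, map_mul, map_one]; ring
    rw [h2] at h1
    obtain ⟨h3, h4⟩ := hlocal 1 R.one_mem one_ne_zero (by rw [inv_one]; exact R.one_mem) _
      (R.sub_mem (R.mul_mem hr hgR) R.one_mem) (s36ti_nu Wa R hRa h1)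
    have h5 : (1 : F) + (r * α g - 1) = r * α g := by ring
    rw [h5] at h3 h4
    have hg0 : α g ≠ 0 := fun h0 => h3 (by rw [h0, mul_zero])
    have hr0 : r ≠ 0 := fun h0 => h3 (by rw [h0, zero_mul])
    have h7 : (α g)⁻¹ = r * (r * α g)⁻¹ := by
      field_simp
    have hgi : (α g)⁻¹ ∈ R := by rw [h7]; exact R.mul_mem hr h4
    by_cases hgu : g = 0 ∨ g⁻¹ ∉ R1
    · exfalso
      rcases hαnu g hg hgu with h6 | h6
      · exact hg0 h6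
      · exact h6 hgi
    · rw [not_or, not_not] at hgu
      refine ⟨g⁻¹, hgu.2, ?_⟩
      have h8 : r - α g⁻¹ = (r * α g - 1) * (α g)⁻¹ := by
        rw [map_inv₀]; field_simp
      rw [h8]
      exact s35n_nu_mul' Wa h1 (hRa _ hgi)

end Abs

section Chart

variable {A E : Type*} [CommRing A] [Field E] [Algebra A E]

/-- the component `p = O ∩ 𝔪_V` as an ideal -/
theorem s36tk_exists_p (O : Subalgebra A E) (V : ValuationSubring E) (hOV : ∀ x ∈ O, x ∈ V) :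
    ∃ p : Ideal ↥O, ∀ x : ↥O, x ∈ p ↔ (x : E) ∈ V.nonunits := by
  refine ⟨{ carrier := {x : ↥O | (x : E) ∈ V.nonunits}
            add_mem' := ?_
            zero_mem' := ?_
            smul_mem' := ?_ }, fun x => Iff.rfl⟩
  · intro x y hx hy
    show ((x + y : ↥O) : E) ∈ V.nonunits
    push_cast
    exact s35n_nu_add V hx hy
  · show ((0 : ↥O) : E) ∈ V.nonunits
    push_cast
    exact s35n_nu_zero V
  · intro c x hx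
    show ((c • x : ↥O) : E) ∈ V.nonunits
    rw [smul_eq_mul]
    push_cast
    exact s35n_nu_mul V (hOV _ c.2) hx

/-- an element of the chart outside `𝔪_V` is a unit of `V` -/
theorem s36tk_inv_mem (V : ValuationSubring E) {x : E} (hx : x ∉ V.nonunits) : x⁻¹ ∈ V := by
  by_contra h
  exact hx ((ValuationSubring.mem_nonunits_iff_or V).mpr (Or.inr h))

/-- **(BR)**: the image of `O_𝔫` in the residue field of `V` is a valuation ring, from (FRAC)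
and the elementwise valuation-ring property of `O ⧸ p` at `𝔫`. -/
theorem s36tk_br (O : Subalgebra A E) (𝔫 : Ideal ↥O) [h𝔫 : 𝔫.IsPrime] (V : ValuationSubring E)
    (hOV : ∀ x ∈ O, x ∈ V)
    (p : Ideal ↥O) (hp : ∀ x : ↥O, x ∈ p ↔ (x : E) ∈ V.nonunits) (hp𝔫 : p ≤ 𝔫)
    (hFRAC : ∀ z ∈ V, ∃ a s : ↥O, (s : E) ∉ V.nonunits ∧ z * (s : E) = (a : E))
    (htot : ∀ β₁ β₂ : ↥O ⧸ p, ∃ σ, σ ∉ 𝔫.map (Ideal.Quotient.mk p) ∧
      ∃ γ, β₁ * γ = σ * β₂ ∨ β₂ * γ = σ * β₁) :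
    ∀ s ∈ V, (∃ c ∈ ndrLoc O 𝔫, s - c ∈ V.nonunits) ∨
      (∃ g ∈ ndrLoc O 𝔫, s * g - 1 ∈ V.nonunits) := by
  intro s hs
  obtain ⟨a, b, hb, hsb⟩ := hFRAC s hs
  have hbV : (b : E) ∈ V := hOV _ b.2
  have hbi : (b : E)⁻¹ ∈ V := s36tk_inv_mem V hb
  have hb0 : (b : E) ≠ 0 := fun h0 => hb (by rw [h0]; exact s35n_nu_zero V)
  obtain ⟨σ', hσ', γ', hγ'⟩ := htot (Ideal.Quotient.mk p a) (Ideal.Quotient.mk p b)
  obtain ⟨σ, rfl⟩ := Ideal.Quotient.mk_surjective σ'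
  obtain ⟨γ, rfl⟩ := Ideal.Quotient.mk_surjective γ'
  have hσ : σ ∉ 𝔫 := fun h => hσ' ((Ideal.mem_quotient_iff_mem hp𝔫).mpr h)
  have hσnu : (σ : E) ∉ V.nonunits := fun h => hσ (hp𝔫 ((hp σ).mpr h))
  have hσi : (σ : E)⁻¹ ∈ V := s36tk_inv_mem V hσnu
  have hσ0 : (σ : E) ≠ 0 := fun h0 => hσnu (by rw [h0]; exact s35n_nu_zero V)
  have hmem : (γ : E) * (σ : E)⁻¹ ∈ ndrLoc O 𝔫 :=
    ⟨γ, σ, hσ, by rw [mul_assoc, inv_mul_cancel₀ hσ0, mul_one]⟩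
  rcases hγ' with h | h
  · -- `a γ ≡ σ b`: `s * (γ / σ) ≡ 1`
    right
    refine ⟨(γ : E) * (σ : E)⁻¹, hmem, ?_⟩
    rw [← map_mul, ← map_mul, Ideal.Quotient.eq, hp] at h
    have h1 : s * ((γ : E) * (σ : E)⁻¹) - 1 =
        ((a * γ - σ * b : ↥O) : E) * ((b : E)⁻¹ * (σ : E)⁻¹) := by
      push_cast
      rw [← hsb]
      field_simp
    rw [h1]
    exact s35n_nu_mul' V h (V.mul_mem _ _ hbi hσi)
  · -- `b γ ≡ σ a`: `s ≡ γ / σ`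
    left
    refine ⟨(γ : E) * (σ : E)⁻¹, hmem, ?_⟩
    rw [← map_mul, ← map_mul, Ideal.Quotient.eq, hp] at h
    have h1 : s - (γ : E) * (σ : E)⁻¹ =
        -(((b * γ - σ * a : ↥O) : E) * ((b : E)⁻¹ * (σ : E)⁻¹)) := by
      push_cast
      rw [← hsb]
      field_simp
      ring
    rw [h1]
    exact s35n_nu_neg V (s35n_nu_mul' V h (V.mul_mem _ _ hbi hσi))

/-- (BR) from a Dedekind coordinate ring of the component (`hD`). -/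
theorem s36tk_br_ded (O : Subalgebra A E) (𝔫 : Ideal ↥O) [h𝔫 : 𝔫.IsPrime]
    (V : ValuationSubring E) (hOV : ∀ x ∈ O, x ∈ V)
    (hthr : ∀ x : ↥O, (x : E) ∈ V.nonunits → x ∈ 𝔫)
    (hD : ∀ p : Ideal ↥O, (∀ x : ↥O, x ∈ p ↔ (x : E) ∈ V.nonunits) →
      IsDedekindDomain (↥O ⧸ p))
    (hFRAC : ∀ z ∈ V, ∃ a s : ↥O, (s : E) ∉ V.nonunits ∧ z * (s : E) = (a : E)) :
    ∀ s ∈ V, (∃ c ∈ ndrLoc O 𝔫, s - c ∈ V.nonunits) ∨
      (∃ g ∈ ndrLoc O 𝔫, s * g - 1 ∈ V.nonunits) := by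
  obtain ⟨p, hp⟩ := s36tk_exists_p O V hOV
  have hp𝔫 : p ≤ 𝔫 := fun x hx => hthr x ((hp x).mp hx)
  have := hD p hp
  have hPprime : (𝔫.map (Ideal.Quotient.mk p)).IsPrime :=
    Ideal.map_isPrime_of_surjective Ideal.Quotient.mk_surjective (by rw [Ideal.mk_ker]; exact hp𝔫)
  exact s36tk_br O 𝔫 V hOV p hp hp𝔫 hFRAC
    (fun β₁ β₂ => cpl_ded_total (𝔫.map (Ideal.Quotient.mk p)) β₁ β₂)

/-- (BR) from a principal maximal ideal modulo the component (the branch hypothesis `hB` of a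
node: S35Node clauses 3 / 4; binders of `s35i_ic_principal`). -/
theorem s36tk_br_principal (O : Subalgebra A E) [IsNoetherianRing ↥O] (𝔫 : Ideal ↥O)
    [h𝔫 : 𝔫.IsPrime] (V : ValuationSubring E) (hOV : ∀ x ∈ O, x ∈ V)
    (hthr : ∀ x : ↥O, (x : E) ∈ V.nonunits → x ∈ 𝔫)
    (hFRAC : ∀ z ∈ V, ∃ a s : ↥O, (s : E) ∉ V.nonunits ∧ z * (s : E) = (a : E))
    (π : E) (hπ : ∃ a s : ↥O, a ∈ 𝔫 ∧ s ∉ 𝔫 ∧ π * (s : E) = (a : E))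
    (hB : ∀ a : ↥O, a ∈ 𝔫 → ∃ b c : ↥O, c ∉ 𝔫 ∧ (a : E) * (c : E) - π * (b : E) ∈ V.nonunits) :
    ∀ s ∈ V, (∃ c ∈ ndrLoc O 𝔫, s - c ∈ V.nonunits) ∨
      (∃ g ∈ ndrLoc O 𝔫, s * g - 1 ∈ V.nonunits) := by
  obtain ⟨p, hpmem⟩ := s36tk_exists_p O V hOV
  have hp𝔫 : p ≤ 𝔫 := fun x hx => hthr x ((hpmem x).mp hx)
  have hpprime : p.IsPrime := s35i_prime O V hOV p hpmem
  have hPprime : (𝔫.map (Ideal.Quotient.mk p)).IsPrime :=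
    Ideal.map_isPrime_of_surjective Ideal.Quotient.mk_surjective (by rw [Ideal.mk_ker]; exact hp𝔫)
  obtain ⟨a₁, s₁, ha₁, hs₁, hπeq⟩ := hπ
  have hs₁V : (s₁ : E) ∈ V := hOV _ s₁.2
  have hϖ : Ideal.Quotient.mk p a₁ ∈ 𝔫.map (Ideal.Quotient.mk p) := by
    rw [Ideal.mem_quotient_iff_mem hp𝔫]; exact ha₁
  have hgen : ∀ x ∈ 𝔫.map (Ideal.Quotient.mk p), ∃ b c : ↥O ⧸ p,
      c ∉ 𝔫.map (Ideal.Quotient.mk p) ∧ x * c = Ideal.Quotient.mk p a₁ * b := by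
    intro x hx
    obtain ⟨x, rfl⟩ := Ideal.Quotient.mk_surjective x
    rw [Ideal.mem_quotient_iff_mem hp𝔫] at hx
    obtain ⟨b, c, hc, hbc⟩ := hB x hx
    refine ⟨Ideal.Quotient.mk p b, Ideal.Quotient.mk p (c * s₁), ?_, ?_⟩
    · rw [Ideal.mem_quotient_iff_mem hp𝔫]
      intro h
      rcases h𝔫.mem_or_mem h with h | h
      · exact hc h
      · exact hs₁ h
    · rw [← map_mul, ← map_mul, Ideal.Quotient.eq, hpmem]
      have h1 : ((x * (c * s₁) - a₁ * b : ↥O) : E) =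
          ((x : E) * (c : E) - π * (b : E)) * (s₁ : E) := by
        push_cast
        rw [← hπeq]
        ring
      rw [h1]
      exact s35n_nu_mul' V hbc hs₁V
  exact s36tk_br O 𝔫 V hOV p hpmem hp𝔫 hFRAC
    (fun β₁ β₂ => s35i_total_principal (𝔫.map (Ideal.Quotient.mk p)) (Ideal.Quotient.mk p a₁)
      hϖ hgen β₁ β₂)

end Chart

section Loc

variable {A F : Type*} [CommRing A] [Field F] [Algebra A F]

/-- an element `a / s` with `a ∈ 𝔫`, `s ∉ 𝔫` is not a unit of `ndrLoc O 𝔫` -/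
theorem s36tk_nonunit (O : Subalgebra A F) (𝔫 : Ideal ↥O) [h𝔫 : 𝔫.IsPrime] {x : F}
    (h : ∃ a s : ↥O, a ∈ 𝔫 ∧ s ∉ 𝔫 ∧ x * (s : F) = (a : F)) :
    x = 0 ∨ x⁻¹ ∉ ndrLoc O 𝔫 := by
  obtain ⟨a, s, ha, hs, hx⟩ := h
  by_cases hx0 : x = 0
  · exact Or.inl hx0
  right
  rintro ⟨a', s', hs', hx'⟩
  have h1 : (s : F) * (s' : F) = (a : F) * (a' : F) := by
    rw [← hx, ← hx']
    field_simp
  have h2 : s * s' = a * a' := Subtype.ext (by push_cast; exact h1)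
  have h3 : s * s' ∈ 𝔫 := by rw [h2]; exact 𝔫.mul_mem_right _ ha
  rcases h𝔫.mem_or_mem h3 with h4 | h4
  · exact hs h4
  · exact hs' h4

/-- the binder `hRa` for `ndrLoc O 𝔫`: a valuation ring containing the chart and passing
through `𝔫` contains the local ring -/
theorem s36tk_le (O : Subalgebra A F) (𝔫 : Ideal ↥O) [h𝔫 : 𝔫.IsPrime] (W : ValuationSubring F)
    (hOW : ∀ x ∈ O, x ∈ W) (hthr : ∀ x : ↥O, (x : F) ∈ W.nonunits → x ∈ 𝔫) :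
    ∀ x ∈ ndrLoc O 𝔫, x ∈ W := by
  rintro x ⟨a, s, hs, hx⟩
  have hsi : (s : F)⁻¹ ∈ W := s36tk_inv_mem W (fun h => hs (hthr s h))
  have hs0 : (s : F) ≠ 0 := fun h0 => hs (by
    have : s = 0 := Subtype.ext h0
    rw [this]; exact 𝔫.zero_mem)
  have h1 : x = (a : F) * (s : F)⁻¹ := by
    rw [← hx, mul_assoc, mul_inv_cancel₀ hs0, mul_one]
  rw [h1]
  exact W.mul_mem _ _ (hOW _ a.2) hsi

/-- the binder `hroot` for `ndrLoc O 𝔫` from the chart -/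
theorem s36tk_root (O : Subalgebra A F) (𝔫 : Ideal ↥O) [h𝔫 : 𝔫.IsPrime] (m : ℕ)
    (hrootO : ∀ x : F, x ^ m ∈ O → x ∈ O) :
    ∀ x : F, x ^ m ∈ ndrLoc O 𝔫 → x ∈ ndrLoc O 𝔫 := by
  intro x hx
  rcases Nat.eq_zero_or_pos m with hm | hm
  · subst hm
    exact ndr_le O 𝔫 (hrootO x (by rw [pow_zero]; exact O.one_mem))
  obtain ⟨a, s, hs, h⟩ := hx
  obtain ⟨k, rfl⟩ : ∃ k, m = k + 1 := ⟨m - 1, by omega⟩
  have h1 : (x * (s : F)) ^ (k + 1) = (a : F) * (s : F) ^ k := by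
    rw [← h]; ring
  have h2 : x * (s : F) ∈ O := hrootO _ (by
    rw [h1]; exact O.mul_mem a.2 (O.pow_mem s.2 k))
  exact ⟨⟨x * (s : F), h2⟩, s, hs, rfl⟩

end Loc

section Below

variable {A E F : Type*} [CommRing A] [Field E] [Field F] [Algebra A E]

/-- a ring homomorphism mapping the chart `O'` into `R` and `O' ∖ 𝔫'` to units of `R` maps the
local ring `ndrLoc O' 𝔫'` into `R` -/
theorem s36tk_map_loc (α : E →+* F) (R : Subring F) (O' : Subalgebra A E) (𝔫' : Ideal ↥O')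
    [h𝔫' : 𝔫'.IsPrime] (hαO : ∀ x : ↥O', α (x : E) ∈ R)
    (hαu : ∀ x : ↥O', x ∉ 𝔫' → (α (x : E))⁻¹ ∈ R) :
    ∀ r ∈ ndrLoc O' 𝔫', α r ∈ R := by
  rintro r ⟨a, s, hs, h⟩
  have hs0 : (s : E) ≠ 0 := fun h0 => hs (by
    have : s = 0 := Subtype.ext h0
    rw [this]; exact 𝔫'.zero_mem)
  have hαs0 : α (s : E) ≠ 0 := by rw [Ne, map_eq_zero]; exact hs0
  have h1 : α r = α (a : E) * (α (s : E))⁻¹ := by
    rw [← h, map_mul, mul_assoc, mul_inv_cancel₀ hαs0, mul_one]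
  rw [h1]
  exact R.mul_mem (hαO a) (hαu s hs)

/-- a non-unit of `ndrLoc O' 𝔫'` is `a / s` with `a ∈ 𝔫'` -/
theorem s36tk_num_mem (O' : Subalgebra A E) (𝔫' : Ideal ↥O') [h𝔫' : 𝔫'.IsPrime] {c : E}
    (hc : c = 0 ∨ c⁻¹ ∉ ndrLoc O' 𝔫') (a s : ↥O') (h : c * (s : E) = (a : E)) :
    a ∈ 𝔫' := by
  by_contra ha
  have ha0 : (a : E) ≠ 0 := fun h0 => ha (by
    have : a = 0 := Subtype.ext h0
    rw [this]; exact 𝔫'.zero_mem)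
  have hc0 : c ≠ 0 := by
    rintro rfl
    rw [zero_mul] at h
    exact ha0 h.symm
  rcases hc with hc | hc
  · exact hc0 hc
  · apply hc
    refine ⟨s, a, ha, ?_⟩
    rw [← h]
    field_simp

/-- **the decomposition in chart form** (binder `h8` of `s36ti_main` with
`R1 = ndrLoc O' 𝔫1`; `h9` is the same lemma for `(β, Wb, V2)`). -/
theorem s36tk_dec (α : E →+* F) (Wa : ValuationSubring F) (V1 : ValuationSubring E)
    (R : Subring F) (O' : Subalgebra A E) (𝔫1 : Ideal ↥O') [h𝔫1 : 𝔫1.IsPrime]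
    (hRa : ∀ x ∈ R, x ∈ Wa)
    (hlocal : ∀ x ∈ R, x ≠ 0 → x⁻¹ ∈ R → ∀ y ∈ R, (y = 0 ∨ y⁻¹ ∉ R) →
      x + y ≠ 0 ∧ (x + y)⁻¹ ∈ R)
    (hαO : ∀ x : ↥O', α (x : E) ∈ R)
    (hαu : ∀ x : ↥O', x ∉ 𝔫1 → (α (x : E))⁻¹ ∈ R)
    (hαn : ∀ x : ↥O', x ∈ 𝔫1 → α (x : E) = 0 ∨ (α (x : E))⁻¹ ∉ R)
    (hαV : ∀ x ∈ V1.nonunits, α x ∈ Wa.nonunits)
    (hres : ∀ x ∈ Wa, ∃ s ∈ V1, x - α s ∈ Wa.nonunits)
    (hbr : ∀ s ∈ V1, (∃ c ∈ ndrLoc O' 𝔫1, s - c ∈ V1.nonunits) ∨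
      (∃ g ∈ ndrLoc O' 𝔫1, s * g - 1 ∈ V1.nonunits)) :
    ∀ a ∈ R, ∃ a1 ∈ ndrLoc O' 𝔫1, a - α a1 ∈ Wa.nonunits := by
  have hαR := s36tk_map_loc α R O' 𝔫1 hαO hαu
  have hαnu : ∀ c ∈ (ndrLoc O' 𝔫1).toSubring,
      (c = 0 ∨ c⁻¹ ∉ (ndrLoc O' 𝔫1).toSubring) → (α c = 0 ∨ (α c)⁻¹ ∉ R) := by
    intro c hc hcn
    obtain ⟨a, s, hs, h⟩ := hc
    have ha : a ∈ 𝔫1 := s36tk_num_mem O' 𝔫1 hcn a s h
    have hs0 : (s : E) ≠ 0 := fun h0 => hs (by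
      have : s = 0 := Subtype.ext h0
      rw [this]; exact 𝔫1.zero_mem)
    have hαs0 : α (s : E) ≠ 0 := by rw [Ne, map_eq_zero]; exact hs0
    by_cases hc0 : α c = 0
    · exact Or.inl hc0
    right
    intro hci
    have h1 : α (a : E) = α c * α (s : E) := by rw [← h, map_mul]
    rcases hαn a ha with h2 | h2
    · rw [h1] at h2
      rcases mul_eq_zero.mp h2 with h3 | h3
      · exact hc0 h3
      · exact hαs0 h3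
    · apply h2
      rw [h1, mul_inv]
      exact R.mul_mem hci (hαu s hs)
  exact s36tk_dec_abs α Wa V1 R (ndrLoc O' 𝔫1).toSubring hRa hlocal hαR hαnu hαV hres hbr

/-- **the node binder `hnode` of `s36ti_main` in chart form**, from S35Node clauses 2, 3 for the
node `𝔫1` of the chart `O'` (`y'` the local equation of the other branch). -/
theorem s36tk_node (α : E →+* F) (Wa Wb : ValuationSubring F) (V1 : ValuationSubring E)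
    (R : Subring F) (O' : Subalgebra A E) (𝔫1 : Ideal ↥O') [h𝔫1 : 𝔫1.IsPrime]
    (hRa : ∀ x ∈ R, x ∈ Wa) (hRb : ∀ x ∈ R, x ∈ Wb)
    (hαO : ∀ x : ↥O', α (x : E) ∈ R)
    (hαu : ∀ x : ↥O', x ∉ 𝔫1 → (α (x : E))⁻¹ ∈ R)
    (hαV : ∀ x ∈ V1.nonunits, α x ∈ Wa.nonunits)
    (y' : E) (hy'R : ∃ a s : ↥O', s ∉ 𝔫1 ∧ y' * (s : E) = (a : E)) (hy'b : α y' ∈ Wb.nonunits)
    (hB : ∀ a : ↥O', a ∈ 𝔫1 → ∃ b c : ↥O', c ∉ 𝔫1 ∧
      (a : E) * (c : E) - y' * (b : E) ∈ V1.nonunits) :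
    ∀ a ∈ ndrLoc O' 𝔫1, (a = 0 ∨ a⁻¹ ∉ ndrLoc O' 𝔫1) → ∃ v ∈ ndrLoc O' 𝔫1,
      ∃ w ∈ ndrLoc O' 𝔫1, α v ∈ Wa.nonunits ∧ α w ∈ Wb.nonunits ∧ a = v + w := by
  intro a haR han
  obtain ⟨a0, s0, hs0, h⟩ := haR
  have ha0 : a0 ∈ 𝔫1 := s36tk_num_mem O' 𝔫1 han a0 s0 h
  obtain ⟨b, c, hc, hd⟩ := hB a0 ha0
  have hcs : c * s0 ∉ 𝔫1 := fun hh => (h𝔫1.mem_or_mem hh).elim hc hs0
  have hcs0 : ((c * s0 : ↥O') : E) ≠ 0 := fun h0 => hcs (by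
    have : c * s0 = 0 := Subtype.ext h0
    rw [this]; exact 𝔫1.zero_mem)
  have hcsE : ((c * s0 : ↥O') : E) = (c : E) * (s0 : E) := by push_cast; rfl
  have hc0 : (c : E) ≠ 0 := fun h0 => hcs0 (by rw [hcsE, h0, zero_mul])
  have hs00 : (s0 : E) ≠ 0 := fun h0 => hcs0 (by rw [hcsE, h0, mul_zero])
  have hinv : ((c * s0 : ↥O') : E)⁻¹ ∈ ndrLoc O' 𝔫1 := ndr_inv_mem O' 𝔫1 _ hcs
  have hy'm : y' ∈ ndrLoc O' 𝔫1 := hy'R
  have hαR := s36tk_map_loc α R O' 𝔫1 hαO hαu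
  have hαinv : α (((c * s0 : ↥O') : E)⁻¹) ∈ R := hαR _ hinv
  refine ⟨((a0 : E) * (c : E) - y' * (b : E)) * ((c * s0 : ↥O') : E)⁻¹, ?_,
    y' * (b : E) * ((c * s0 : ↥O') : E)⁻¹, ?_, ?_, ?_, ?_⟩
  · exact (ndrLoc O' 𝔫1).mul_mem ((ndrLoc O' 𝔫1).sub_mem
      ((ndrLoc O' 𝔫1).mul_mem (ndr_le O' 𝔫1 a0.2) (ndr_le O' 𝔫1 c.2))
      ((ndrLoc O' 𝔫1).mul_mem hy'm (ndr_le O' 𝔫1 b.2))) hinv
  · exact (ndrLoc O' 𝔫1).mul_mem ((ndrLoc O' 𝔫1).mul_mem hy'm (ndr_le O' 𝔫1 b.2)) hinv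
  · rw [map_mul]
    exact s35n_nu_mul' Wa (hαV _ hd) (hRa _ hαinv)
  · rw [map_mul, map_mul, mul_assoc]
    exact s35n_nu_mul' Wb hy'b (hRb _ (R.mul_mem (hαO b) hαinv))
  · rw [hcsE]
    have h1 : a = (a0 : E) * (s0 : E)⁻¹ := by
      rw [← h, mul_assoc, mul_inv_cancel₀ hs00, mul_one]
    rw [h1]
    field_simp
    ring

end Below

section Tri

variable {A E F : Type*} [CommRing A] [Field E] [Field F] [Algebra A E] [Algebra A F]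

/-- **[TRI-BRANCH] `S36Tri` for the local ring `ndrLoc O 𝔫` at a triple point, chart form.**
`O` the chart of level `L q²`, `𝔫` the triple point (the three vertical valuations pass through
it); `O1`, `𝔫1` the chart and the node below via `α` (`α` maps `O1` into `O_𝔫`, `O1 ∖ 𝔫1` to
units, `𝔫1` to non-units), `V1` its branch with residue degree one under `Wa`, `y'` the local
equation of the other branch (S35Node clauses 2, 3); `O2`, `𝔫2`, `V2` the same via `β` for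
`Wb`; norms of elements of `O_𝔫` lie in the node rings. -/
theorem s36tk_tri (α β : E →+* F) (Nα Nβ : F →* E) (Wa Wb Wc : ValuationSubring F)
    (V1 V2 : ValuationSubring E) (m : ℕ)
    (O : Subalgebra A F) (𝔫 : Ideal ↥O) [h𝔫 : 𝔫.IsPrime]
    (hOa : ∀ x ∈ O, x ∈ Wa) (hOb : ∀ x ∈ O, x ∈ Wb) (hOc : ∀ x ∈ O, x ∈ Wc)
    (hta : ∀ x : ↥O, (x : F) ∈ Wa.nonunits → x ∈ 𝔫)
    (htb : ∀ x : ↥O, (x : F) ∈ Wb.nonunits → x ∈ 𝔫)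
    (htc : ∀ x : ↥O, (x : F) ∈ Wc.nonunits → x ∈ 𝔫)
    (hrootO : ∀ x : F, x ^ m ∈ O → x ∈ O)
    -- the node below via `α`
    (O1 : Subalgebra A E) (𝔫1 : Ideal ↥O1) [h𝔫1 : 𝔫1.IsPrime]
    (hαO : ∀ x : ↥O1, α (x : E) ∈ ndrLoc O 𝔫)
    (hαu : ∀ x : ↥O1, x ∉ 𝔫1 → (α (x : E))⁻¹ ∈ ndrLoc O 𝔫)
    (hαn : ∀ x : ↥O1, x ∈ 𝔫1 → α (x : E) = 0 ∨ (α (x : E))⁻¹ ∉ ndrLoc O 𝔫)
    (hNα : ∀ u ∈ ndrLoc O 𝔫, Nα u ∈ ndrLoc O1 𝔫1)
    (hαV : ∀ x ∈ V1.nonunits, α x ∈ Wa.nonunits)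
    (hresa : ∀ x ∈ Wa, ∃ s ∈ V1, x - α s ∈ Wa.nonunits)
    (hbr1 : ∀ s ∈ V1, (∃ c ∈ ndrLoc O1 𝔫1, s - c ∈ V1.nonunits) ∨
      (∃ g ∈ ndrLoc O1 𝔫1, s * g - 1 ∈ V1.nonunits))
    (y' : E) (hy'R : ∃ a s : ↥O1, s ∉ 𝔫1 ∧ y' * (s : E) = (a : E)) (hy'b : α y' ∈ Wb.nonunits)
    (hB1 : ∀ a : ↥O1, a ∈ 𝔫1 → ∃ b c : ↥O1, c ∉ 𝔫1 ∧
      (a : E) * (c : E) - y' * (b : E) ∈ V1.nonunits)
    -- the node below via `β`
    (O2 : Subalgebra A E) (𝔫2 : Ideal ↥O2) [h𝔫2 : 𝔫2.IsPrime]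
    (hβO : ∀ x : ↥O2, β (x : E) ∈ ndrLoc O 𝔫)
    (hβu : ∀ x : ↥O2, x ∉ 𝔫2 → (β (x : E))⁻¹ ∈ ndrLoc O 𝔫)
    (hβn : ∀ x : ↥O2, x ∈ 𝔫2 → β (x : E) = 0 ∨ (β (x : E))⁻¹ ∉ ndrLoc O 𝔫)
    (hNβ : ∀ u ∈ ndrLoc O 𝔫, Nβ u ∈ ndrLoc O2 𝔫2)
    (hβV : ∀ x ∈ V2.nonunits, β x ∈ Wb.nonunits)
    (hresb : ∀ x ∈ Wb, ∃ s ∈ V2, x - β s ∈ Wb.nonunits)
    (hbr2 : ∀ s ∈ V2, (∃ c ∈ ndrLoc O2 𝔫2, s - c ∈ V2.nonunits) ∨
      (∃ g ∈ ndrLoc O2 𝔫2, s * g - 1 ∈ V2.nonunits)) :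
    S36Tri (A := A) α β Nα Nβ Wa Wb Wc m (ndrLoc O 𝔫).toSubring := by
  have hRa : ∀ x ∈ (ndrLoc O 𝔫).toSubring, x ∈ Wa := s36tk_le O 𝔫 Wa hOa hta
  have hRb : ∀ x ∈ (ndrLoc O 𝔫).toSubring, x ∈ Wb := s36tk_le O 𝔫 Wb hOb htb
  have hRc : ∀ x ∈ (ndrLoc O 𝔫).toSubring, x ∈ Wc := s36tk_le O 𝔫 Wc hOc htc
  have hlocal : ∀ x ∈ (ndrLoc O 𝔫).toSubring, x ≠ 0 → x⁻¹ ∈ (ndrLoc O 𝔫).toSubring →
      ∀ y ∈ (ndrLoc O 𝔫).toSubring, (y = 0 ∨ y⁻¹ ∉ (ndrLoc O 𝔫).toSubring) →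
      x + y ≠ 0 ∧ (x + y)⁻¹ ∈ (ndrLoc O 𝔫).toSubring :=
    haveI : IsLocalRing ↥(ndrLoc O 𝔫).toSubring := inferInstanceAs (IsLocalRing ↥(ndrLoc O 𝔫))
    s36ti_local _
  exact s36ti_main α β Nα Nβ Wa Wb Wc m (ndrLoc O 𝔫).toSubring (ndrLoc O1 𝔫1).toSubring
    (ndrLoc O2 𝔫2).toSubring hRa hRb hRc (fun a => (ndrLoc O 𝔫).algebraMap_mem a) hlocal
    (s36tk_root O 𝔫 m hrootO)
    (s36tk_map_loc α (ndrLoc O 𝔫).toSubring O1 𝔫1 hαO hαu)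
    (s36tk_map_loc β (ndrLoc O 𝔫).toSubring O2 𝔫2 hβO hβu)
    hNα hNβ
    (s36tk_dec α Wa V1 (ndrLoc O 𝔫).toSubring O1 𝔫1 hRa hlocal hαO hαu hαn hαV hresa hbr1)
    (s36tk_dec β Wb V2 (ndrLoc O 𝔫).toSubring O2 𝔫2 hRb hlocal hβO hβu hβn hβV hresb hbr2)
    (s36tk_node α Wa Wb V1 (ndrLoc O 𝔫).toSubring O1 𝔫1 hRa hRb hαO hαu hαV y' hy'R hy'b hB1)

end Tri

end Fermat.Agent.S36
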