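import Fermat.Agent.S36.Val3Wc
import Fermat.Agent.S36.Val3Swap
import Fermat.Agent.S36.Val3Insep
import Fermat.Agent.S36.Val3Za

/-!
# S36, package VAL3, part DEF: the valuation ring `W_b` and the table

Carrier: `F1 = K0(X₀(M q))`, `F2 = K0(X₀(M q²))`, `al = heckeAlphaBar K0 (M q) q`,
`be = heckeBetaBar K0 (M q) q`, `V₁ = va2V1 M q K0 A0`, `V₂ = va2V2 M q hM K0 A0`,
`W_a = s36v3Wa`, `W_c = s36v3Wc` (`Val3Wc`), `w₂ = s36v3Swap` (`Val3Swap`).

* `s36v3Wb M q hM K0 A0 := W_a.comap w₂`; `s36v3_al_Wb`, `s36v3_be_Wb` (`al x ∈ W_b ↔ x ∈ V₂`,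
  `be x ∈ W_b ↔ x ∈ V₂`);
* constants: `s36v3_const_V1`, `s36v3_const_Wa`, `s36v3_const_Wb`, `s36v3_const_Wc`
  (`c ∈ W ↔ c ∈ A0` for `c ∈ K0`) and the non-unit forms `s36v3_const_nonunits_*`;
* `s36v3_z_Wb`: `z_f` is a unit of `W_b`; `s36v3_swap_z`: `w₂ z_f = - z_f`;
* the purely inseparable / residue-degree-one statements of the contract (re-exports of
  `Val3Insep`): `s36v3_exh_al2`, `s36v3_exh_be1`, `s36v3_res_al_Wa`, `s36v3_res_be_Wb`,
  `s36v3_insep_al_Wb`, `s36v3_insep_be_Wa`.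
-/

set_option autoImplicit false
set_option linter.style.haveILetI false
set_option linter.unusedSectionVars false

open AlgebraicCurve ModularCurve Fermat.Agent.S18 Fermat.Agent.S34 Fermat.Agent.S35
  Fermat.Agent.S37

namespace Fermat.Agent.S36

local notation "Qb" => AlgebraicClosure ℚ

section Carrier

variable (M q : ℕ) [NeZero M] [hq : Fact q.Prime] (hM : ¬ q ∣ M)
  (K0 : Type*) [Field K0] [Algebra ℚ K0] [Algebra K0 Qb]
  (A0 : ValuationSubring K0) [IsDiscreteValuationRing ↥A0]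

/-- `W_b = W_a ∘ w₂` -/
noncomputable def s36v3Wb :
    ValuationSubring ↥(laurentBaseChange K0 (modularFunctionFieldFull (M * q * q))) :=
  (s36v3Wa M q K0 A0).comap (s36v3Swap M q hM K0)

theorem s36v3_mem_Wb (x : ↥(laurentBaseChange K0 (modularFunctionFieldFull (M * q * q)))) :
    x ∈ s36v3Wb M q hM K0 A0 ↔ s36v3Swap M q hM K0 x ∈ s36v3Wa M q K0 A0 := Iff.rfl

/-- `x ∈ W_a ↔ w₂ x ∈ W_b` -/
theorem s36v3_mem_Wa_swap (x : ↥(laurentBaseChange K0 (modularFunctionFieldFull (M * q * q)))) :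
    s36v3Swap M q hM K0 x ∈ s36v3Wb M q hM K0 A0 ↔ x ∈ s36v3Wa M q K0 A0 := by
  rw [s36v3_mem_Wb, s36v3Swap_swap]

/-! ### The table: rows of `W_b` -/

/-- **table, `W_b` via `al`** -/
theorem s36v3_al_Wb (x : ↥(laurentBaseChange K0 (modularFunctionFieldFull (M * q)))) :
    heckeAlphaBar K0 (M * q) q x ∈ s36v3Wb M q hM K0 A0 ↔ x ∈ va2V2 M q hM K0 A0 := by
  rw [s36v3_mem_Wb, s36v3Swap_al, s36v3_be_Wa, mem_va2V2]

/-- **table, `W_b` via `be`** -/
theorem s36v3_be_Wb (x : ↥(laurentBaseChange K0 (modularFunctionFieldFull (M * q)))) :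
    heckeBetaBar K0 (M * q) q x ∈ s36v3Wb M q hM K0 A0 ↔ x ∈ va2V2 M q hM K0 A0 := by
  rw [s36v3_mem_Wb, s36v3Swap_be, s36v3_al_Wa, mem_va2V2]

/-! ### Constants -/

omit [Algebra K0 Qb] in
theorem s36v3_const_V1 (c : K0) :
    algebraMap K0 ↥(laurentBaseChange K0 (modularFunctionFieldFull (M * q))) c
      ∈ va2V1 M q K0 A0 ↔ c ∈ A0 := by
  rw [mem_va2V1]
  exact gr_algebraMap_mem_iff A0 c

omit [Algebra K0 Qb] in
theorem s36v3_const_Wa (c : K0) :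
    algebraMap K0 ↥(laurentBaseChange K0 (modularFunctionFieldFull (M * q * q))) c
      ∈ s36v3Wa M q K0 A0 ↔ c ∈ A0 :=
  s36v3_const_V1 (M * q) q K0 A0 c

theorem s36v3_const_Wb (c : K0) :
    algebraMap K0 ↥(laurentBaseChange K0 (modularFunctionFieldFull (M * q * q))) c
      ∈ s36v3Wb M q hM K0 A0 ↔ c ∈ A0 := by
  rw [s36v3_mem_Wb, s36v3Swap_const, s36v3_const_Wa]

theorem s36v3_const_Wc (c : K0) :
    algebraMap K0 ↥(laurentBaseChange K0 (modularFunctionFieldFull (M * q * q))) c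
      ∈ s36v3Wc M q hM K0 A0 ↔ c ∈ A0 := by
  have h1 : algebraMap K0 ↥(laurentBaseChange K0 (modularFunctionFieldFull (M * q * q))) c
      = heckeAlphaBar K0 (M * q) q
          (algebraMap K0 ↥(laurentBaseChange K0 (modularFunctionFieldFull (M * q))) c) :=
    (AlgHom.commutes _ c).symm
  rw [h1, s36v3_al_Wc, s36v3_const_V1]

omit [Algebra K0 Qb] in
theorem s36v3_const_nonunits_V1 (c : K0) :
    algebraMap K0 ↥(laurentBaseChange K0 (modularFunctionFieldFull (M * q))) c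
      ∈ (va2V1 M q K0 A0).nonunits ↔ c ∈ A0.nonunits :=
  s36v3_nonunits_of_iff (algebraMap K0 _) A0 (va2V1 M q K0 A0) (s36v3_const_V1 M q K0 A0) c

omit [Algebra K0 Qb] in
theorem s36v3_const_nonunits_Wa (c : K0) :
    algebraMap K0 ↥(laurentBaseChange K0 (modularFunctionFieldFull (M * q * q))) c
      ∈ (s36v3Wa M q K0 A0).nonunits ↔ c ∈ A0.nonunits :=
  s36v3_nonunits_of_iff (algebraMap K0 _) A0 (s36v3Wa M q K0 A0) (s36v3_const_Wa M q K0 A0) c

theorem s36v3_const_nonunits_Wb (c : K0) :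
    algebraMap K0 ↥(laurentBaseChange K0 (modularFunctionFieldFull (M * q * q))) c
      ∈ (s36v3Wb M q hM K0 A0).nonunits ↔ c ∈ A0.nonunits :=
  s36v3_nonunits_of_iff (algebraMap K0 _) A0 (s36v3Wb M q hM K0 A0)
    (s36v3_const_Wb M q hM K0 A0) c

theorem s36v3_const_nonunits_Wc (c : K0) :
    algebraMap K0 ↥(laurentBaseChange K0 (modularFunctionFieldFull (M * q * q))) c
      ∈ (s36v3Wc M q hM K0 A0).nonunits ↔ c ∈ A0.nonunits :=
  s36v3_nonunits_of_iff (algebraMap K0 _) A0 (s36v3Wc M q hM K0 A0)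
    (s36v3_const_Wc M q hM K0 A0) c

/-! ### `z_f` at `W_b` -/

/-- `w₂ z_f = - z_f` -/
theorem s36v3_swap_z (f : ↥(laurentBaseChange K0 (modularFunctionFieldFull M))) :
    s36v3Swap M q hM K0 (s36v3Z M q K0 f) = - s36v3Z M q K0 f :=
  s36za_swap M q hM K0 f

/-- `z_f` is a unit of `W_b` -/
theorem s36v3_z_Wb (f : ↥(laurentBaseChange K0 (modularFunctionFieldFull M)))
    (Z : LaurentSeries ℤ) (hf : (f : LaurentSeries K0) = coeffMap (Int.castRingHom K0) Z)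
    (hZ : Hp4Lead Z (-1)) :
    s36v3Z M q K0 f ∈ s36v3Wb M q hM K0 A0 ∧ (s36v3Z M q K0 f)⁻¹ ∈ s36v3Wb M q hM K0 A0 :=
  s36za_Wb M q hM K0 A0 f Z hf hZ

/-! ### The purely inseparable cases and residue degree one at `W_a`, `W_b` -/

theorem s36v3_exh_al2 (hA0 : A0.LiesOverPrime q)
    (W : ValuationSubring ↥(laurentBaseChange K0 (modularFunctionFieldFull (M * q * q))))
    (hW : ∀ x, heckeAlphaBar K0 (M * q) q x ∈ W ↔ x ∈ va2V2 M q hM K0 A0) :
    W = s36v3Wb M q hM K0 A0 :=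
  s36vi_exh_al_Wb M q hM K0 A0 (s36v3Swap M q hM K0) (s36v3Swap_swap M q hM K0)
    (s36v3Swap_al M q hM K0) hA0 W hW

include hM in
theorem s36v3_exh_be1 (hA0 : A0.LiesOverPrime q)
    (W : ValuationSubring ↥(laurentBaseChange K0 (modularFunctionFieldFull (M * q * q))))
    (hW : ∀ x, heckeBetaBar K0 (M * q) q x ∈ W ↔ x ∈ va2V1 M q K0 A0) :
    W = s36v3Wa M q K0 A0 :=
  s36vi_exh_be_Wa M q hM K0 A0 hA0 W hW

include hM in
theorem s36v3_res_al_Wa (hA0 : A0.LiesOverPrime q)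
    (x : ↥(laurentBaseChange K0 (modularFunctionFieldFull (M * q * q))))
    (hx : x ∈ s36v3Wa M q K0 A0) :
    ∃ r ∈ va2V1 M q K0 A0, x - heckeAlphaBar K0 (M * q) q r ∈ (s36v3Wa M q K0 A0).nonunits :=
  s36vi_res_al_Wa M q hM K0 A0 hA0 x hx

theorem s36v3_res_be_Wb (hA0 : A0.LiesOverPrime q)
    (x : ↥(laurentBaseChange K0 (modularFunctionFieldFull (M * q * q))))
    (hx : x ∈ s36v3Wb M q hM K0 A0) :
    ∃ r ∈ va2V2 M q hM K0 A0,
      x - heckeBetaBar K0 (M * q) q r ∈ (s36v3Wb M q hM K0 A0).nonunits :=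
  s36vi_res_be_Wb M q hM K0 A0 (s36v3Swap M q hM K0) (s36v3Swap_swap M q hM K0)
    (s36v3Swap_al M q hM K0) hA0 x hx

theorem s36v3_insep_al_Wb (hA0 : A0.LiesOverPrime q)
    (x : ↥(laurentBaseChange K0 (modularFunctionFieldFull (M * q * q))))
    (hx : x ∈ s36v3Wb M q hM K0 A0) :
    ∃ r ∈ va2V2 M q hM K0 A0,
      x ^ q - heckeAlphaBar K0 (M * q) q r ∈ (s36v3Wb M q hM K0 A0).nonunits :=
  s36vi_insep_al_Wb M q hM K0 A0 (s36v3Swap M q hM K0) (s36v3Swap_al M q hM K0) hA0 x hx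

include hM in
theorem s36v3_insep_be_Wa (hA0 : A0.LiesOverPrime q)
    (x : ↥(laurentBaseChange K0 (modularFunctionFieldFull (M * q * q))))
    (hx : x ∈ s36v3Wa M q K0 A0) :
    ∃ r ∈ va2V1 M q K0 A0,
      x ^ q - heckeBetaBar K0 (M * q) q r ∈ (s36v3Wa M q K0 A0).nonunits :=
  s36vi_insep_be_Wa M q hM K0 A0 hA0 x hx

end Carrier

end Fermat.Agent.S36
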