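import Mathlib
import Fermat.Agent.S34.InstGeom
import Fermat.Agent.S34.CompInst
import Fermat.Agent.S34.KrullSub
import Fermat.Agent.S35.NodeData
import Fermat.Agent.S35.GaussSep
import Fermat.Agent.S35.LocICPt
import Fermat.Agent.S36.Val3Def
import Fermat.Agent.S36.TriBranch
import Fermat.Agent.S36.PtTypesLoc

/-!
# S36, family CHART3, leaf [PT-INST-AL]: the point types along `al` at the carrier

The binders `hab` and `hbc` of `s36k3_point` (S36/Comp3.lean) for the two Hauptmodul charts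
`chtO A0 {t}`, `chtO A0 {t⁻¹}` of level `M q ^ 2`, with `W_a = va2V1 (M * q) q K0 A0`,
`W_b = s36v3Wb`, `W_c = s36v3Wc`:

* `s36py_chart_le` : a chart `chtO A {al t₁}` lies in every valuation ring `W` over a valuation
  ring `V ∋ t₁` containing the constants;
* `s36py_pair` : the `al`-adapted pair of charts (`al` maps `chtO A {t₁}` into `chtO A {al t₁}`,
  the latter is integral over the image);
* `s36py_br` : the branch statement (BR) for `V₂` at a crossing point of a chart of level `M q`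
  (node datum `s35nd_node`, `s36tk_br_principal`);
* `s36py_chart` : at a maximal ideal `𝔫` of `chtO A0 {t}` through which `W_b` passes,
  `W_a` passes through `𝔫` if and only if `W_c` does (`s36pt_br_al_three`);
* `s36py_hab`, `s36py_hbc` : the two binders, both charts.
-/

set_option autoImplicit false
set_option linter.unusedSectionVars false
set_option linter.unusedVariables false
set_option linter.style.haveILetI false

open AlgebraicCurve ModularCurve Polynomial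
open Fermat.Agent.S28 Fermat.Agent.S18 Fermat.Agent.S37 Fermat.Agent.S34 Fermat.Agent.S35

namespace Fermat.Agent.S36

local notation "Qb" => AlgebraicClosure ℚ

section Abs

variable {A E F : Type*} [CommRing A] [Field E] [Field F] [Algebra A E] [Algebra A F]

/-- the chart `chtO A {al t₁}` lies in every valuation ring over a valuation ring containing
the constants and `t₁` -/
theorem s36py_chart_le (al : E →ₐ[A] F) (t₁ : E) (V : ValuationSubring E)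
    (W : ValuationSubring F) (hVW : ∀ x, al x ∈ W ↔ x ∈ V)
    (hA : ∀ a : A, algebraMap A E a ∈ V) (ht : t₁ ∈ V) :
    ∀ y ∈ chtO A {al t₁}, y ∈ W := by
  have hAW : ∀ a : A, algebraMap A F a ∈ W := by
    intro a
    rw [← al.commutes a]
    exact (hVW _).mpr (hA a)
  exact fun y hy => cht_le_valuationSubring W hAW (s := {al t₁})
    (by rintro z rfl; exact (hVW _).mpr ht) hy

/-- the `al`-adapted pair of charts -/
theorem s36py_pair (al : E →ₐ[A] F) (t₁ : E) :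
    (∀ x ∈ chtO A {t₁}, al x ∈ chtO A {al t₁}) ∧
    ∀ y ∈ chtO A {al t₁}, IsIntegral ↥((chtO A {t₁}).map al) y := by
  refine ⟨fun x hx => cmi_map_mem al t₁ hx, fun x hx => ?_⟩
  have hadj : Algebra.adjoin A {al t₁} ≤ (chtO A {t₁}).map al := by
    refine Algebra.adjoin_le ?_
    rintro y rfl
    exact ⟨t₁, (cht_h1 t₁).1, rfl⟩
  rw [cht_mem_iff_poly] at hx
  obtain ⟨p, hp, hc, hpx⟩ := hx
  exact (cht_isIntegral_iff _ x).mpr ⟨p, hp, fun i => hadj (hc i), hpx⟩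

end Abs

section Carrier

variable {K0 : Type*} [Field K0] [Algebra ℚ K0] [Algebra K0 Qb] (A0 : ValuationSubring K0)
  [IsDiscreteValuationRing ↥A0]
  (M q : ℕ) [NeZero M] [hq : Fact q.Prime] (hM : ¬ q ∣ M)
  {a2 : ℕ} (H : HauptRec a2 q) (ha2 : a2 ∣ M)

include ha2 in
/-- **(BR) for `V₂` at a crossing point of a chart of level `M q`**: the image of the local
ring of the chart in the residue field of `V₂` is a valuation ring. -/
theorem s36py_br (hA0 : A0.LiesOverPrime q) (c0 c1 : A0)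
    (hc : IsLocalRing.residue A0 c0 ≠ IsLocalRing.residue A0 c1)
    (hQ0 : smi2U A0 (aeval (c0 : K0) H.Qrad))
    (hSM0 : cinstSMChart K0 A0 M H (c0 : K0) (c1 : K0))
    (hSM1 : cinstSMChart K0 A0 M H (c1 : K0) (c0 : K0))
    (hu0 : unrChart K0 A0 M H c0 c1) (hu1 : unrChart K0 A0 M H c1 c0)
    [Algebra A0 ↥(laurentBaseChange K0 (modularFunctionFieldFull (M * q)))]
    [IsScalarTower A0 K0 ↥(laurentBaseChange K0 (modularFunctionFieldFull (M * q)))]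
    (t₁ : ↥(laurentBaseChange K0 (modularFunctionFieldFull (M * q))))
    (ht₁ : (t₁ : LaurentSeries K0) = cinstU H K0 (c0 : K0) (c1 : K0))
    (τ : A0) (hτ : Irreducible τ)
    (𝔫' : Ideal ↥(chtO A0 {t₁})) (h𝔫' : 𝔫'.IsMaximal)
    (hc₁ : ∀ x : ↥(chtO A0 {t₁}),
      (x : ↥(laurentBaseChange K0 (modularFunctionFieldFull (M * q)))) ∈
        (va2V1 M q K0 A0).nonunits → x ∈ 𝔫')
    (hc₂ : ∀ x : ↥(chtO A0 {t₁}),
      (x : ↥(laurentBaseChange K0 (modularFunctionFieldFull (M * q)))) ∈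
        (va2V2 M q hM K0 A0).nonunits → x ∈ 𝔫') :
    haveI := h𝔫'.isPrime
    (∀ z ∈ va2V2 M q hM K0 A0, ∃ a s : ↥(chtO A0 {t₁}),
      (s : ↥(laurentBaseChange K0 (modularFunctionFieldFull (M * q)))) ∉
        (va2V2 M q hM K0 A0).nonunits ∧
      z * (s : ↥(laurentBaseChange K0 (modularFunctionFieldFull (M * q)))) =
        (a : ↥(laurentBaseChange K0 (modularFunctionFieldFull (M * q))))) ∧
    ∀ s ∈ va2V2 M q hM K0 A0,
      (∃ c ∈ ndrLoc (chtO A0 {t₁}) 𝔫', s - c ∈ (va2V2 M q hM K0 A0).nonunits) ∨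
      (∃ g ∈ ndrLoc (chtO A0 {t₁}) 𝔫', s * g - 1 ∈ (va2V2 M q hM K0 A0).nonunits) := by
  classical
  haveI hprime := h𝔫'.isPrime
  have hVG : ∀ x : ↥(laurentBaseChange K0 (modularFunctionFieldFull (M * q))),
      x ∈ va2V1 M q K0 A0 ↔ (x : LaurentSeries K0) ∈ grV A0 := fun x => Iff.rfl
  obtain ⟨hA₂, hτV₂, hτgen₂⟩ := s34im_V2_basic M q hM K0 A0 τ hτ
  have hVal := s34if_val M q hM K0 A0 H ha2 hA0 c0 c1 hc
  obtain ⟨htV₂, htV₂', hex⟩ := hVal t₁ ht₁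
  obtain ⟨-, -, -, -, -, -, -, hfrac, -, -, -, hO12, -, -, -, hred, -⟩ :=
    c2i_chart A0 (M * q) H (va2V1 M q K0 A0) (va2V2 M q hM K0 A0) hVG c0 c1 hc t₁ ht₁ τ hτ hA₂
      hτgen₂ htV₂ htV₂' hex 1 one_pos
  have hNoeth : IsNoetherianRing ↥(chtO A0 {t₁}) :=
    s34im_noeth M q hM K0 A0 H c0 c1 hc t₁ ht₁ τ hτ hVal
  have hτ0 : algebraMap A0 ↥(laurentBaseChange K0 (modularFunctionFieldFull (M * q))) τ ≠ 0 := by
    rw [IsScalarTower.algebraMap_apply A0 K0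
      ↥(laurentBaseChange K0 (modularFunctionFieldFull (M * q)))]
    refine (_root_.map_ne_zero _).mpr ?_
    intro h0
    exact hτ.ne_zero (Subtype.ext h0)
  obtain ⟨-, hB₂, -, -, hx, -⟩ := s35nd_node M q hM K0 A0 H ha2 hA0 c0 c1 hc hQ0 hSM0 hSM1 hu0
    hu1 t₁ ht₁ τ hτ 𝔫' h𝔫' hc₁ hc₂
  obtain ⟨hx₂, hx₂', hx0⟩ := gsp_x_unit₂ M q hM K0 A0 H ha2
  have hx₁ := gsp_x_mem₁ M q hM K0 A0 H ha2 hA0
  have hxΛ : ∃ a s : ↥(chtO A0 {t₁}), s ∉ 𝔫' ∧
      (heckeAlphaBar K0 M q (nunH K0 M H ha2) ^ q - heckeBetaBar K0 M q (nunH K0 M H ha2)) *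
        (s : ↥(laurentBaseChange K0 (modularFunctionFieldFull (M * q)))) =
        (a : ↥(laurentBaseChange K0 (modularFunctionFieldFull (M * q)))) := by
    obtain ⟨a, s, -, hs, h⟩ := hx
    exact ⟨a, s, hs, h⟩
  have hFRAC : ∀ z ∈ va2V2 M q hM K0 A0, ∃ a s : ↥(chtO A0 {t₁}),
      (s : ↥(laurentBaseChange K0 (modularFunctionFieldFull (M * q)))) ∉
        (va2V2 M q hM K0 A0).nonunits ∧
      z * (s : ↥(laurentBaseChange K0 (modularFunctionFieldFull (M * q)))) =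
        (a : ↥(laurentBaseChange K0 (modularFunctionFieldFull (M * q)))) :=
    s35ip_frac_node τ hτ0 (chtO A0 {t₁}) 𝔫' (va2V2 M q hM K0 A0) (va2V1 M q K0 A0)
      (fun x hx => (hO12 x hx).2) (fun x hx => (hO12 x hx).1) hfrac hτV₂ hτgen₂
      (gsp_hdec₂ M q hM K0 A0 τ hτ) (fun z hz h2 h1 => hred z hz h1 h2) hc₂ _ hx₁ hx₂' hx0 hxΛ
  exact ⟨hFRAC, s36tk_br_principal (chtO A0 {t₁}) 𝔫' (va2V2 M q hM K0 A0)
    (fun x hx => (hO12 x hx).2) hc₂ hFRAC _ hx hB₂⟩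

include ha2 in
/-- **(P-al) at the carrier, one chart**: at a maximal ideal `𝔫` of the chart `chtO A0 {t}` of
level `M q ^ 2` through which `W_b` passes, `W_a` passes through `𝔫` if and only if `W_c`
does. -/
theorem s36py_chart
    [Algebra A0 ↥(laurentBaseChange K0 (modularFunctionFieldFull (M * q * q)))]
    [IsScalarTower A0 K0 ↥(laurentBaseChange K0 (modularFunctionFieldFull (M * q * q)))]
    (hA0 : A0.LiesOverPrime q) (c0 c1 : A0)
    (hc : IsLocalRing.residue A0 c0 ≠ IsLocalRing.residue A0 c1)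
    (hQ0 : smi2U A0 (aeval (c0 : K0) H.Qrad))
    (hSM0 : cinstSMChart K0 A0 M H (c0 : K0) (c1 : K0))
    (hSM1 : cinstSMChart K0 A0 M H (c1 : K0) (c0 : K0))
    (hu0 : unrChart K0 A0 M H c0 c1) (hu1 : unrChart K0 A0 M H c1 c0)
    (t : ↥(laurentBaseChange K0 (modularFunctionFieldFull (M * q * q))))
    (ht : (t : LaurentSeries K0) = cinstU H K0 (c0 : K0) (c1 : K0))
    (τ : A0) (hτ : Irreducible τ)
    (𝔫 : Ideal ↥(chtO A0 {t})) (h𝔫 : 𝔫.IsMaximal)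
    (hb : (∀ x : ↥(chtO A0 {t}), (x : ↥(laurentBaseChange K0 (modularFunctionFieldFull (M * q * q)))) ∈ (s36v3Wb M q hM K0 A0).nonunits → x ∈ 𝔫)) :
    ((∀ x : ↥(chtO A0 {t}), (x : ↥(laurentBaseChange K0 (modularFunctionFieldFull (M * q * q)))) ∈ (va2V1 (M * q) q K0 A0).nonunits → x ∈ 𝔫) →
      (∀ x : ↥(chtO A0 {t}), (x : ↥(laurentBaseChange K0 (modularFunctionFieldFull (M * q * q)))) ∈ (s36v3Wc M q hM K0 A0).nonunits → x ∈ 𝔫)) ∧
    ((∀ x : ↥(chtO A0 {t}), (x : ↥(laurentBaseChange K0 (modularFunctionFieldFull (M * q * q)))) ∈ (s36v3Wc M q hM K0 A0).nonunits → x ∈ 𝔫) →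
      (∀ x : ↥(chtO A0 {t}), (x : ↥(laurentBaseChange K0 (modularFunctionFieldFull (M * q * q)))) ∈ (va2V1 (M * q) q K0 A0).nonunits → x ∈ 𝔫)) := by
  classical
  let algE : Algebra A0 ↥(laurentBaseChange K0 (modularFunctionFieldFull (M * q))) :=
    ((algebraMap K0 ↥(laurentBaseChange K0 (modularFunctionFieldFull (M * q)))).comp
      A0.subtype).toAlgebra
  have towE : IsScalarTower A0 K0 ↥(laurentBaseChange K0 (modularFunctionFieldFull (M * q))) :=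
    IsScalarTower.of_algebraMap_eq (fun _ => rfl)
  set t₁ : ↥(laurentBaseChange K0 (modularFunctionFieldFull (M * q))) :=
    ⟨cinstU H K0 (c0 : K0) (c1 : K0), cinstU_mem H K0 (Dvd.dvd.mul_right ha2 q) _ _⟩ with ht₁
  let α : ↥(laurentBaseChange K0 (modularFunctionFieldFull (M * q))) →ₐ[A0]
      ↥(laurentBaseChange K0 (modularFunctionFieldFull (M * q * q))) :=
    (heckeAlphaBar K0 (M * q) q).restrictScalars A0
  have hαt : α t₁ = t := Subtype.ext ((coe_heckeAlphaBar (M * q) q t₁).trans ht.symm)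
  subst hαt
  haveI hprime : 𝔫.IsPrime := h𝔫.isPrime
  obtain ⟨halO, hintal⟩ := s36py_pair α t₁
  -- the chart of level `M q`
  have hVG : ∀ x : ↥(laurentBaseChange K0 (modularFunctionFieldFull (M * q))),
      x ∈ va2V1 M q K0 A0 ↔ (x : LaurentSeries K0) ∈ grV A0 := fun x => Iff.rfl
  obtain ⟨hA₂, hτV₂, hτgen₂⟩ := s34im_V2_basic M q hM K0 A0 τ hτ
  obtain ⟨hA, -, -, -, htV, -, -, -, -⟩ :=
    c2i_hyps A0 (M * q) H (va2V1 M q K0 A0) hVG c0 c1 hc t₁ rfl τ hτ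
  have hVal := s34if_val M q hM K0 A0 H ha2 hA0 c0 c1 hc
  obtain ⟨htV₂, htV₂', hex⟩ := hVal t₁ rfl
  obtain ⟨-, -, -, -, -, -, -, hfrac, -, -, -, hO12, -, -, -, hred, -⟩ :=
    c2i_chart A0 (M * q) H (va2V1 M q K0 A0) (va2V2 M q hM K0 A0) hVG c0 c1 hc t₁ rfl τ hτ hA₂
      hτgen₂ htV₂ htV₂' hex 1 one_pos
  haveI hIC : IsIntegrallyClosed ↥(chtO A0 {t₁}) :=
    kri_sub_isIntegrallyClosed (chtO A0 {t₁}) hfrac (fun x hx => cht_integral_closed {t₁} hx)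
  -- the table
  have hal_a : ∀ x, α x ∈ va2V1 (M * q) q K0 A0 ↔ x ∈ va2V1 M q K0 A0 :=
    s36v3_al_Wa M q K0 A0
  have hal_b : ∀ x, α x ∈ s36v3Wb M q hM K0 A0 ↔ x ∈ va2V2 M q hM K0 A0 :=
    s36v3_al_Wb M q hM K0 A0
  have hal_c : ∀ x, α x ∈ s36v3Wc M q hM K0 A0 ↔ x ∈ va2V1 M q K0 A0 :=
    s36v3_al_Wc M q hM K0 A0
  have hOa := s36py_chart_le α t₁ (va2V1 M q K0 A0) (va2V1 (M * q) q K0 A0) hal_a hA htV
  have hOb := s36py_chart_le α t₁ (va2V2 M q hM K0 A0) (s36v3Wb M q hM K0 A0) hal_b hA₂ htV₂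
  have hOc := s36py_chart_le α t₁ (va2V1 M q K0 A0) (s36v3Wc M q hM K0 A0) hal_c hA htV
  -- the contracted point
  have h𝔫'max : (𝔫.comap (s36ptRes α (chtO A0 {t₁}) (chtO A0 {α t₁}) halO)).IsMaximal :=
    s36pt_comap_isMaximal α _ _ halO hintal 𝔫
  haveI h𝔫'prime := h𝔫'max.isPrime
  have hc₂ : ∀ x : ↥(chtO A0 {t₁}),
      (x : ↥(laurentBaseChange K0 (modularFunctionFieldFull (M * q)))) ∈
        (va2V2 M q hM K0 A0).nonunits →
      x ∈ 𝔫.comap (s36ptRes α (chtO A0 {t₁}) (chtO A0 {α t₁}) halO) :=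
    fun x hx => Ideal.mem_comap.mpr
      (s36pt_comap_through α _ _ halO _ _ hal_b 𝔫 hb x hx)
  have key : ∀ Y : ValuationSubring ↥(laurentBaseChange K0 (modularFunctionFieldFull (M * q * q))),
      (∀ x, α x ∈ Y ↔ x ∈ va2V1 M q K0 A0) →
      (∀ y : ↥(chtO A0 {α t₁}),
        (y : ↥(laurentBaseChange K0 (modularFunctionFieldFull (M * q * q)))) ∈ Y.nonunits → y ∈ 𝔫) →
      ((∀ x : ↥(chtO A0 {α t₁}), (x : ↥(laurentBaseChange K0 (modularFunctionFieldFull (M * q * q)))) ∈ (va2V1 (M * q) q K0 A0).nonunits → x ∈ 𝔫) →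
        (∀ x : ↥(chtO A0 {α t₁}), (x : ↥(laurentBaseChange K0 (modularFunctionFieldFull (M * q * q)))) ∈ (s36v3Wc M q hM K0 A0).nonunits → x ∈ 𝔫)) ∧
      ((∀ x : ↥(chtO A0 {α t₁}), (x : ↥(laurentBaseChange K0 (modularFunctionFieldFull (M * q * q)))) ∈ (s36v3Wc M q hM K0 A0).nonunits → x ∈ 𝔫) →
        (∀ x : ↥(chtO A0 {α t₁}), (x : ↥(laurentBaseChange K0 (modularFunctionFieldFull (M * q * q)))) ∈ (va2V1 (M * q) q K0 A0).nonunits → x ∈ 𝔫)) := by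
    intro Y hY hthrY
    have hc₁ : ∀ x : ↥(chtO A0 {t₁}),
        (x : ↥(laurentBaseChange K0 (modularFunctionFieldFull (M * q)))) ∈
          (va2V1 M q K0 A0).nonunits →
        x ∈ 𝔫.comap (s36ptRes α (chtO A0 {t₁}) (chtO A0 {α t₁}) halO) :=
      fun x hx => Ideal.mem_comap.mpr
        (s36pt_comap_through α _ _ halO _ Y hY 𝔫 hthrY x hx)
    obtain ⟨hFRAC, hBR⟩ := s36py_br A0 M q hM H ha2 hA0 c0 c1 hc hQ0 hSM0 hSM1 hu0 hu1 t₁ rfl τ hτ
      _ h𝔫'max hc₁ hc₂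
    exact s36pt_br_al_three α (chtO A0 {t₁}) (chtO A0 {α t₁}) halO hintal
      (va2V1 M q K0 A0) (va2V2 M q hM K0 A0) (va2V1 (M * q) q K0 A0) (s36v3Wb M q hM K0 A0)
      (s36v3Wc M q hM K0 A0) (fun x hx => (hO12 x hx).2) hOa hOb hOc hal_a hal_b hal_c hFRAC
      (s36v3_exh_al2 M q hM K0 A0 hA0) q hq.out.pos (s36v3_insep_al_Wb M q hM K0 A0 hA0) 𝔫
      (𝔫.comap (s36ptRes α (chtO A0 {t₁}) (chtO A0 {α t₁}) halO)) (fun _ => Ideal.mem_comap) hBR hb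
  exact ⟨fun ha => (key _ hal_a ha).1 ha, fun hc' => (key _ hal_c hc').2 hc'⟩

include ha2 in
/-- **Binder `hab` of `s36k3_point` at the carrier** (both charts): a closed point on `W_a` and
`W_b` lies on `W_c`. -/
theorem s36py_hab
    [Algebra A0 ↥(laurentBaseChange K0 (modularFunctionFieldFull (M * q * q)))]
    [IsScalarTower A0 K0 ↥(laurentBaseChange K0 (modularFunctionFieldFull (M * q * q)))]
    (hA0 : A0.LiesOverPrime q) (c0 c1 : A0)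
    (hc : IsLocalRing.residue A0 c0 ≠ IsLocalRing.residue A0 c1)
    (hQ0 : smi2U A0 (aeval (c0 : K0) H.Qrad)) (hQ1 : smi2U A0 (aeval (c1 : K0) H.Qrad))
    (hSM0 : cinstSMChart K0 A0 M H (c0 : K0) (c1 : K0))
    (hSM1 : cinstSMChart K0 A0 M H (c1 : K0) (c0 : K0))
    (hu0 : unrChart K0 A0 M H c0 c1) (hu1 : unrChart K0 A0 M H c1 c0)
    (t : ↥(laurentBaseChange K0 (modularFunctionFieldFull (M * q * q))))
    (ht : (t : LaurentSeries K0) = cinstU H K0 (c0 : K0) (c1 : K0))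
    (τ : A0) (hτ : Irreducible τ) :
    (∀ 𝔫 : Ideal ↥(chtO A0 {t}), 𝔫.IsMaximal → algebraMap A0 ↥(chtO A0 {t}) τ ∈ 𝔫 →
      (∀ x : ↥(chtO A0 {t}), (x : ↥(laurentBaseChange K0 (modularFunctionFieldFull (M * q * q)))) ∈ (va2V1 (M * q) q K0 A0).nonunits → x ∈ 𝔫) →
      (∀ x : ↥(chtO A0 {t}), (x : ↥(laurentBaseChange K0 (modularFunctionFieldFull (M * q * q)))) ∈ (s36v3Wb M q hM K0 A0).nonunits → x ∈ 𝔫) →
      ∀ x : ↥(chtO A0 {t}), (x : ↥(laurentBaseChange K0 (modularFunctionFieldFull (M * q * q)))) ∈ (s36v3Wc M q hM K0 A0).nonunits → x ∈ 𝔫) ∧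
    (∀ 𝔫 : Ideal ↥(chtO A0 {t⁻¹}), 𝔫.IsMaximal → algebraMap A0 ↥(chtO A0 {t⁻¹}) τ ∈ 𝔫 →
      (∀ x : ↥(chtO A0 {t⁻¹}), (x : ↥(laurentBaseChange K0 (modularFunctionFieldFull (M * q * q)))) ∈ (va2V1 (M * q) q K0 A0).nonunits → x ∈ 𝔫) →
      (∀ x : ↥(chtO A0 {t⁻¹}), (x : ↥(laurentBaseChange K0 (modularFunctionFieldFull (M * q * q)))) ∈ (s36v3Wb M q hM K0 A0).nonunits → x ∈ 𝔫) →
      ∀ x : ↥(chtO A0 {t⁻¹}), (x : ↥(laurentBaseChange K0 (modularFunctionFieldFull (M * q * q)))) ∈ (s36v3Wc M q hM K0 A0).nonunits → x ∈ 𝔫) := by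
  have ht' : ((t⁻¹ : ↥(laurentBaseChange K0 (modularFunctionFieldFull (M * q * q)))) :
      LaurentSeries K0) = cinstU H K0 (c1 : K0) (c0 : K0) := by
    rw [IntermediateField.coe_inv, ht, cinstU_inv]
  refine ⟨fun 𝔫 h𝔫 _ h1 h2 => ?_, fun 𝔫 h𝔫 _ h1 h2 => ?_⟩
  · exact (s36py_chart A0 M q hM H ha2 hA0 c0 c1 hc hQ0 hSM0 hSM1 hu0 hu1 t ht τ hτ 𝔫 h𝔫 h2).1 h1
  · exact (s36py_chart A0 M q hM H ha2 hA0 c1 c0 (fun h => hc h.symm) hQ1 hSM1 hSM0 hu1 hu0 t⁻¹ ht' τ hτ 𝔫 h𝔫 h2).1 h1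

include ha2 in
/-- **Binder `hbc` of `s36k3_point` at the carrier** (both charts): a closed point on `W_b` and
`W_c` lies on `W_a`. -/
theorem s36py_hbc
    [Algebra A0 ↥(laurentBaseChange K0 (modularFunctionFieldFull (M * q * q)))]
    [IsScalarTower A0 K0 ↥(laurentBaseChange K0 (modularFunctionFieldFull (M * q * q)))]
    (hA0 : A0.LiesOverPrime q) (c0 c1 : A0)
    (hc : IsLocalRing.residue A0 c0 ≠ IsLocalRing.residue A0 c1)
    (hQ0 : smi2U A0 (aeval (c0 : K0) H.Qrad)) (hQ1 : smi2U A0 (aeval (c1 : K0) H.Qrad))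
    (hSM0 : cinstSMChart K0 A0 M H (c0 : K0) (c1 : K0))
    (hSM1 : cinstSMChart K0 A0 M H (c1 : K0) (c0 : K0))
    (hu0 : unrChart K0 A0 M H c0 c1) (hu1 : unrChart K0 A0 M H c1 c0)
    (t : ↥(laurentBaseChange K0 (modularFunctionFieldFull (M * q * q))))
    (ht : (t : LaurentSeries K0) = cinstU H K0 (c0 : K0) (c1 : K0))
    (τ : A0) (hτ : Irreducible τ) :
    (∀ 𝔫 : Ideal ↥(chtO A0 {t}), 𝔫.IsMaximal → algebraMap A0 ↥(chtO A0 {t}) τ ∈ 𝔫 →
      (∀ x : ↥(chtO A0 {t}), (x : ↥(laurentBaseChange K0 (modularFunctionFieldFull (M * q * q)))) ∈ (s36v3Wb M q hM K0 A0).nonunits → x ∈ 𝔫) →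
      (∀ x : ↥(chtO A0 {t}), (x : ↥(laurentBaseChange K0 (modularFunctionFieldFull (M * q * q)))) ∈ (s36v3Wc M q hM K0 A0).nonunits → x ∈ 𝔫) →
      ∀ x : ↥(chtO A0 {t}), (x : ↥(laurentBaseChange K0 (modularFunctionFieldFull (M * q * q)))) ∈ (va2V1 (M * q) q K0 A0).nonunits → x ∈ 𝔫) ∧
    (∀ 𝔫 : Ideal ↥(chtO A0 {t⁻¹}), 𝔫.IsMaximal → algebraMap A0 ↥(chtO A0 {t⁻¹}) τ ∈ 𝔫 →
      (∀ x : ↥(chtO A0 {t⁻¹}), (x : ↥(laurentBaseChange K0 (modularFunctionFieldFull (M * q * q)))) ∈ (s36v3Wb M q hM K0 A0).nonunits → x ∈ 𝔫) →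
      (∀ x : ↥(chtO A0 {t⁻¹}), (x : ↥(laurentBaseChange K0 (modularFunctionFieldFull (M * q * q)))) ∈ (s36v3Wc M q hM K0 A0).nonunits → x ∈ 𝔫) →
      ∀ x : ↥(chtO A0 {t⁻¹}), (x : ↥(laurentBaseChange K0 (modularFunctionFieldFull (M * q * q)))) ∈ (va2V1 (M * q) q K0 A0).nonunits → x ∈ 𝔫) := by
  have ht' : ((t⁻¹ : ↥(laurentBaseChange K0 (modularFunctionFieldFull (M * q * q)))) :
      LaurentSeries K0) = cinstU H K0 (c1 : K0) (c0 : K0) := by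
    rw [IntermediateField.coe_inv, ht, cinstU_inv]
  refine ⟨fun 𝔫 h𝔫 _ h1 h2 => ?_, fun 𝔫 h𝔫 _ h1 h2 => ?_⟩
  · exact (s36py_chart A0 M q hM H ha2 hA0 c0 c1 hc hQ0 hSM0 hSM1 hu0 hu1 t ht τ hτ 𝔫 h𝔫 h1).2 h2
  · exact (s36py_chart A0 M q hM H ha2 hA0 c1 c0 (fun h => hc h.symm) hQ1 hSM1 hSM0 hu1 hu0 t⁻¹ ht' τ hτ 𝔫 h𝔫 h1).2 h2

end Carrier

end Fermat.Agent.S36
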