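import Mathlib
import Fermat.Agent.S18.Charts
import Fermat.Agent.S34.DomAbs
import Fermat.Agent.S34.DomInst
import Fermat.Agent.S36.Deg3

/-!
# S36 [CHART-MAP]: charts of level `M q` and charts of level `M q²`

`F₁ = K0(X₀(M q))`, `F₂ = K0(X₀(M q²))`, `α₁, β₁ : F₁ → F₂` the two degeneracy maps; the charts
are the integral closures `chtO A0 {t}` of `A0[t]` for a chart coordinate `t = (h - c₁)/(h - c₀)`.

Abstract part (`A`-fields `F1`, `F2`, a homomorphism `φ : F1 → F2` over `A`):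

* `s36cm_map_mem`, `s36cm_integral`, `s36cm_lying_over`: `φ` maps `chtO A {t'}` into
  `chtO A {φ t'}`, the latter is integral over the image, and every maximal ideal of the former
  is the contraction of a maximal ideal of the latter;
* `s36cmIdeal`: the contraction of `n O_n` to a chart `O'` mapped into the local ring `O_n`;
  it is prime (`s36cm_ideal_isPrime`), `φ (O'_{n'}) ⊆ O_n` (`s36cm_ideal_loc`),
  `φ (n' O'_{n'}) ⊆ n O_n` (`s36cm_ideal_max`), and a valuation ring through `n` contracts to a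
  valuation ring through `n'` (`s36cm_ideal_through`);
* `s36cm_res_isIntegral`, `s36cm_loc_monic`: the residue field at a closed point of the special
  fibre of a chart is integral over `A`;
* `s36cm_abs`: the contraction is a MAXIMAL ideal containing `τ`, with the four clauses.

Carrier:

* `s36cm_al`: along `α₁` (`α₁ t' = t`, chart into chart);
* `s36cm_be_dom`, `s36cm_be_dom_both`: at every prime `n ∋ τ` of a chart of level `M q²`,
  `β₁ t'` or `β₁ t'⁻¹` lies in `O_n` (`dma_main` for `(h₀, h₁, j₀, j₁)`);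
* `S36cmBe`, `s36cm_be`, `s36cm_be_both`: along `β₁`, one of the two charts of level `M q` maps
  into `O_n`, with a maximal contraction.
-/

set_option autoImplicit false
set_option linter.unusedSectionVars false
set_option linter.style.haveILetI false

open AlgebraicCurve ModularCurve Polynomial
open Fermat.Agent.S18 Fermat.Agent.S37 Fermat.Agent.S24 Fermat.Agent.S28 Fermat.Agent.S34

namespace Fermat.Agent.S36

local notation "Qb" => AlgebraicClosure ℚ

/-! ### Abstract part -/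

section Abs

variable {A F1 F2 : Type*} [CommRing A] [Field F1] [Field F2] [Algebra A F1] [Algebra A F2]

/-- `(y : F) ∈ n O_n ↔ y ∈ n` for `y ∈ O` -/
theorem s36cm_max_iff (O : Subalgebra A F2) (n : Ideal ↥O) [n.IsPrime] (y : ↥O) :
    (y : F2) ∈ dmaMax O n ↔ y ∈ n := by
  constructor
  · rintro ⟨a, s, ha, hs, h⟩
    have h1 : y * s = a := Subtype.ext (by push_cast; exact h)
    have h2 : y * s ∈ n := h1 ▸ ha
    exact (Ideal.IsPrime.mem_or_mem ‹n.IsPrime› h2).resolve_right hs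
  · exact fun h => dma_max_of_mem O n y h

/-- a root of a monic polynomial with coefficients in a subring is integral over it -/
theorem s36cm_isIntegral_of_coeffs (S : Subring F2) (x : F2) (p : F2[X]) (hp : p.Monic)
    (hc : ∀ i, p.coeff i ∈ S) (hx : p.eval x = 0) : IsIntegral S x := by
  have hl : p ∈ lifts (algebraMap S F2) := by
    rw [lifts_iff_coeff_lifts]
    intro i
    exact ⟨⟨p.coeff i, hc i⟩, rfl⟩
  obtain ⟨q, hq, -, hqm⟩ := lifts_and_natDegree_eq_and_monic hl hp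
  refine ⟨q, hqm, ?_⟩
  rw [← eval_map, hq]
  exact hx

/-- `φ` maps `A[t']` into every subring containing the constants and `φ t'` -/
theorem s36cm_map_adjoin (φ : F1 →+* F2)
    (hφA : ∀ a : A, φ (algebraMap A F1 a) = algebraMap A F2 a) (t' : F1) (S : Subring F2)
    (hS : ∀ a : A, algebraMap A F2 a ∈ S) (ht : φ t' ∈ S) {c : F1}
    (hc : c ∈ Algebra.adjoin A {t'}) : φ c ∈ S := by
  refine Algebra.adjoin_induction (p := fun c _ => φ c ∈ S) ?_ ?_ ?_ ?_ hc
  · intro x hx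
    rw [Set.mem_singleton_iff.mp hx]
    exact ht
  · intro a
    rw [hφA]
    exact hS a
  · intro x y _ _ hx hy
    rw [map_add]
    exact S.add_mem hx hy
  · intro x y _ _ hx hy
    rw [map_mul]
    exact S.mul_mem hx hy

/-- a ring homomorphism compatible with the `A`-structures maps `chtO A {t'}` into
`chtO A {φ t'}` -/
theorem s36cm_map_mem (φ : F1 →+* F2) (hφA : ∀ a : A, φ (algebraMap A F1 a) = algebraMap A F2 a)
    (t' : F1) {x : F1} (hx : x ∈ chtO A {t'}) : φ x ∈ chtO A {φ t'} := by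
  rw [cht_mem_iff_poly] at hx ⊢
  obtain ⟨p, hp, hc, hpx⟩ := hx
  refine ⟨p.map φ, hp.map φ, fun i => ?_, ?_⟩
  · rw [coeff_map]
    exact s36cm_map_adjoin φ hφA t' (Algebra.adjoin A {φ t'}).toSubring
      (fun a => (Algebra.adjoin A {φ t'}).algebraMap_mem a)
      (Algebra.subset_adjoin (Set.mem_singleton _)) (hc i)
  · rw [eval_map, eval₂_at_apply, hpx, map_zero]

/-- `chtO A {φ t'}` is integral over the image of `chtO A {t'}` -/
theorem s36cm_integral (φ : F1 →+* F2) (hφA : ∀ a : A, φ (algebraMap A F1 a) = algebraMap A F2 a)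
    (t' : F1) {y : F2} (hy : y ∈ chtO A {φ t'}) :
    ∃ p : F2[X], p.Monic ∧ (∀ i, ∃ c ∈ chtO A {t'}, p.coeff i = φ c) ∧ p.eval y = 0 := by
  rw [cht_mem_iff_poly] at hy
  obtain ⟨p, hp, hc, hpy⟩ := hy
  refine ⟨p, hp, fun i => ?_, hpy⟩
  have key : ∀ c2 ∈ Algebra.adjoin A {φ t'}, ∃ c ∈ Algebra.adjoin A {t'}, c2 = φ c := by
    intro c2 hc2
    refine Algebra.adjoin_induction
      (p := fun c2 _ => ∃ c ∈ Algebra.adjoin A {t'}, c2 = φ c) ?_ ?_ ?_ ?_ hc2
    · intro x hx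
      exact ⟨t', Algebra.subset_adjoin (Set.mem_singleton _), Set.mem_singleton_iff.mp hx⟩
    · intro a
      exact ⟨algebraMap A F1 a, Subalgebra.algebraMap_mem _ a, (hφA a).symm⟩
    · rintro x y _ _ ⟨c, hc, rfl⟩ ⟨d, hd, rfl⟩
      exact ⟨c + d, Subalgebra.add_mem _ hc hd, (map_add φ c d).symm⟩
    · rintro x y _ _ ⟨c, hc, rfl⟩ ⟨d, hd, rfl⟩
      exact ⟨c * d, Subalgebra.mul_mem _ hc hd, (map_mul φ c d).symm⟩
  obtain ⟨c, hc1, hc2⟩ := key _ (hc i)
  exact ⟨c, cht_adjoin_le {t'} hc1, hc2⟩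

/-- `φ` maps the chart `chtO A {t''}` into the local ring `O_n` as soon as `φ t'' ∈ O_n` -/
theorem s36cm_map_loc (φ : F1 →+* F2) (hφA : ∀ a : A, φ (algebraMap A F1 a) = algebraMap A F2 a)
    (O : Subalgebra A F2) (n : Ideal ↥O) [n.IsPrime]
    (hint : ∀ x : F2, IsIntegral ↥O x → x ∈ O) (t'' : F1) (hdom : φ t'' ∈ dmaLoc O n)
    {x : F1} (hx : x ∈ chtO A {t''}) : φ x ∈ dmaLoc O n := by
  rw [cht_mem_iff_poly] at hx
  obtain ⟨p, hp, hc, hpx⟩ := hx
  refine dma_ic O n hint (s36cm_isIntegral_of_coeffs (dmaLoc O n) (φ x) (p.map φ) (hp.map φ)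
    (fun i => ?_) ?_)
  · rw [coeff_map]
    exact s36cm_map_adjoin φ hφA t'' (dmaLoc O n)
      (fun a => dma_of_mem O n (O.algebraMap_mem a)) hdom (hc i)
  · rw [eval_map, eval₂_at_apply, hpx, map_zero]

/-- the contraction of `n O_n` along `φ`, as an ideal of `O'` -/
def s36cmIdeal (φ : F1 →+* F2) (O' : Subalgebra A F1) (O : Subalgebra A F2) (n : Ideal ↥O)
    [n.IsPrime] (hφ : ∀ x ∈ O', φ x ∈ dmaLoc O n) : Ideal ↥O' where
  carrier := {x | φ (x : F1) ∈ dmaMax O n}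
  add_mem' := fun {x y} hx hy => by
    show φ ((x + y : ↥O') : F1) ∈ dmaMax O n
    rw [Subalgebra.coe_add, map_add]
    exact (dmaMax O n).add_mem hx hy
  zero_mem' := by
    show φ ((0 : ↥O') : F1) ∈ dmaMax O n
    rw [Subalgebra.coe_zero, map_zero]
    exact (dmaMax O n).zero_mem
  smul_mem' := fun c {x} hx => by
    show φ ((c • x : ↥O') : F1) ∈ dmaMax O n
    rw [smul_eq_mul, Subalgebra.coe_mul, map_mul]
    exact dma_max_mul O n (hφ c c.2) hx

variable (φ : F1 →+* F2) (O' : Subalgebra A F1) (O : Subalgebra A F2) (n : Ideal ↥O)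
  [n.IsPrime] (hφ : ∀ x ∈ O', φ x ∈ dmaLoc O n)

theorem s36cm_ideal_mem (x : ↥O') :
    x ∈ s36cmIdeal φ O' O n hφ ↔ φ (x : F1) ∈ dmaMax O n := Iff.rfl

theorem s36cm_ideal_isPrime : (s36cmIdeal φ O' O n hφ).IsPrime := by
  refine ⟨?_, ?_⟩
  · intro h
    have h1 : (1 : ↥O') ∈ s36cmIdeal φ O' O n hφ := h ▸ Submodule.mem_top
    have h2 : φ ((1 : ↥O') : F1) ∈ dmaMax O n := h1
    rw [Subalgebra.coe_one, map_one] at h2
    exact dma_one_notMem_max O n h2
  · intro x y hxy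
    have h1 : φ (x : F1) * φ (y : F1) ∈ dmaMax O n := by
      have : φ ((x * y : ↥O') : F1) ∈ dmaMax O n := hxy
      rwa [Subalgebra.coe_mul, map_mul] at this
    by_cases hx : φ (x : F1) ∈ dmaMax O n
    · exact Or.inl hx
    · right
      have hinv := dma_inv_mem O n (hφ x x.2) hx
      have h2 := dma_max_mul O n hinv h1
      rwa [← mul_assoc, inv_mul_cancel₀ (dma_ne_zero O n hx), one_mul] at h2

theorem s36cm_ideal_loc {x : F1}
    (hx : ∃ a s : ↥O', s ∉ s36cmIdeal φ O' O n hφ ∧ x * (s : F1) = a) : φ x ∈ dmaLoc O n := by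
  obtain ⟨a, s, hs, h⟩ := hx
  have hs' : φ (s : F1) ∉ dmaMax O n := hs
  have hinv := dma_inv_mem O n (hφ s s.2) hs'
  have hs0 := dma_ne_zero O n hs'
  have e : φ x = φ (a : F1) * (φ (s : F1))⁻¹ := by
    rw [← h, map_mul, mul_assoc, mul_inv_cancel₀ hs0, mul_one]
  rw [e]
  exact (dmaLoc O n).mul_mem (hφ a a.2) hinv

theorem s36cm_ideal_max {x : F1}
    (hx : ∃ a s : ↥O', a ∈ s36cmIdeal φ O' O n hφ ∧ s ∉ s36cmIdeal φ O' O n hφ ∧
      x * (s : F1) = a) : φ x ∈ dmaMax O n := by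
  obtain ⟨a, s, ha, hs, h⟩ := hx
  have hs' : φ (s : F1) ∉ dmaMax O n := hs
  have ha' : φ (a : F1) ∈ dmaMax O n := ha
  have hinv := dma_inv_mem O n (hφ s s.2) hs'
  have hs0 := dma_ne_zero O n hs'
  have e : φ x = (φ (s : F1))⁻¹ * φ (a : F1) := by
    rw [← h, map_mul, mul_comm, mul_assoc, mul_inv_cancel₀ hs0, mul_one]
  rw [e]
  exact dma_max_mul O n hinv ha'

theorem s36cm_ideal_through (W : ValuationSubring F2) (hOW : ∀ x ∈ O, x ∈ W)
    (hW : ∀ x : ↥O, (x : F2) ∈ W.nonunits → x ∈ n) (x : ↥O')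
    (hx : φ (x : F1) ∈ W.nonunits) : x ∈ s36cmIdeal φ O' O n hφ := by
  obtain ⟨a, s, hs, h⟩ := hφ x x.2
  have ha : (a : F2) ∈ W.nonunits := by
    rw [← h]
    exact cht_nonunits_mul W hx (hOW s s.2)
  exact ⟨a, s, hW a ha, hs, h⟩

/-! ### Residue fields: integrality over `A` -/

/-- a root of a polynomial with a coefficient outside `(τ)` is integral, when `τ` acts as zero
and `A / τ` is a field -/
theorem s36cm_integral_of_prim {A κ : Type*} [CommRing A] [CommRing κ] [Algebra A κ] (τ : A)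
    (hτA : ∀ a : A, a ∉ Ideal.span {τ} → IsUnit a) (hτ0 : algebraMap A κ τ = 0) (x : κ) :
    ∀ (d : ℕ) (g : A[X]), g.natDegree ≤ d → (∃ i, g.coeff i ∉ Ideal.span {τ}) →
      aeval x g = 0 → IsIntegral A x := by
  intro d
  induction d with
  | zero =>
    rintro g hd ⟨i, hi⟩ hg
    have hg' : g = C (g.coeff 0) := eq_C_of_natDegree_le_zero hd
    have hi0 : i = 0 := by
      by_contra hne
      apply hi
      rw [hg', coeff_C, if_neg hne]
      exact Ideal.zero_mem _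
    subst hi0
    obtain ⟨u, hu⟩ := hτA _ hi
    rw [hg', aeval_C] at hg
    have h1 : (1 : κ) = 0 := by
      have h2 : algebraMap A κ (↑u⁻¹ * g.coeff 0) = 0 := by rw [map_mul, hg, mul_zero]
      rwa [← hu, Units.inv_mul, map_one] at h2
    have h3 : x = 0 := by rw [← mul_one x, h1, mul_zero]
    rw [h3]
    exact isIntegral_zero
  | succ d ih =>
    rintro g hd ⟨i, hi⟩ hg
    by_cases hdeg : g.natDegree ≤ d
    · exact ih g hdeg ⟨i, hi⟩ hg
    by_cases hl : g.leadingCoeff ∈ Ideal.span {τ}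
    · obtain ⟨c, hc⟩ := Ideal.mem_span_singleton'.mp hl
      have h1 : aeval x g.eraseLead = 0 := by
        have h2 := g.eraseLead_add_C_mul_X_pow
        have h3 : aeval x g
            = aeval x g.eraseLead + algebraMap A κ g.leadingCoeff * x ^ g.natDegree := by
          conv_lhs => rw [← h2]
          rw [map_add, map_mul, aeval_C, map_pow, aeval_X]
        rw [hg, ← hc, map_mul, hτ0, mul_zero, zero_mul, add_zero] at h3
        exact h3.symm
      refine ih g.eraseLead ?_ ⟨i, ?_⟩ h1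
      · have := g.eraseLead_natDegree_le
        omega
      · have hne : i ≠ g.natDegree := by
          rintro rfl
          exact hi hl
        rwa [eraseLead_coeff_of_ne _ hne]
    · obtain ⟨u, hu⟩ := hτA _ hl
      refine ⟨C (↑u⁻¹ : A) * g, ?_, ?_⟩
      · exact monic_C_mul_of_mul_leadingCoeff_eq_one (by rw [← hu]; exact Units.inv_mul u)
      · rw [← aeval_def, map_mul, hg, mul_zero]

/-- the quotient of a chart by an ideal is integral over the image of `A[t]` -/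
theorem s36cm_quot_adjoin (t : F2) (P : Ideal ↥(chtO A {t})) (x : ↥(chtO A {t})) :
    IsIntegral
      ↥(Algebra.adjoin A
        {Ideal.Quotient.mk P (⟨t, (cht_h1 (A0 := A) t).1⟩ : ↥(chtO A {t}))})
      (Ideal.Quotient.mk P x) := by
  set tO : ↥(chtO A {t}) := ⟨t, (cht_h1 (A0 := A) t).1⟩ with htO
  set π : ↥(chtO A {t}) →ₐ[A] ↥(chtO A {t}) ⧸ P := Ideal.Quotient.mkₐ A P with hπ
  obtain ⟨g, hg, hgx⟩ := (cht_mem_iff.mp x.2 : IsIntegral (Algebra.adjoin A {t}) (x : F2))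
  let ι : ↥(Algebra.adjoin A {t}) →ₐ[A] ↥(chtO A {t}) :=
    Subalgebra.inclusion (cht_adjoin_le {t})
  have hmem : ∀ c : ↥(Algebra.adjoin A {t}), (π.comp ι) c ∈ Algebra.adjoin A {π tO} := by
    intro c
    have hc : (c : F2) ∈ (aeval t : A[X] →ₐ[A] F2).range := by
      rw [← Algebra.adjoin_singleton_eq_range_aeval]
      exact c.2
    obtain ⟨f, hf⟩ := hc
    have h1 : ι c = aeval tO f := by
      apply Subtype.ext
      have h2 : ((aeval tO f : ↥(chtO A {t})) : F2) = aeval t f :=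
        (aeval_algHom_apply (chtO A {t}).val tO f).symm
      rw [h2]
      exact hf.symm
    have h3 : (π.comp ι) c = aeval (π tO) f := by
      show π (ι c) = _
      rw [h1, aeval_algHom_apply]
    rw [h3]
    exact aeval_mem_adjoin_singleton A (π tO)
  let ψ : ↥(Algebra.adjoin A {t}) →ₐ[A] ↥(Algebra.adjoin A {π tO}) :=
    (π.comp ι).codRestrict _ hmem
  refine ⟨g.map ψ.toRingHom, hg.map _, ?_⟩
  rw [eval₂_map]
  have hx0 : eval₂ ι.toRingHom x g = 0 := by
    apply Subtype.ext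
    have h4 := hom_eval₂ g ι.toRingHom (chtO A {t}).val.toRingHom x
    have h5 : ((eval₂ ι.toRingHom x g : ↥(chtO A {t})) : F2)
        = (chtO A {t}).val.toRingHom (eval₂ ι.toRingHom x g) := rfl
    rw [h5, h4]
    exact hgx
  have h6 := hom_eval₂ g ι.toRingHom π.toRingHom x
  rw [hx0, map_zero] at h6
  exact h6.symm

/-- the quotient of a chart by an ideal modulo which `t` is integral over `A` is integral over
`A` -/
theorem s36cm_quot_isIntegral (t : F2) (P : Ideal ↥(chtO A {t}))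
    (ht : IsIntegral A (Ideal.Quotient.mk P (⟨t, (cht_h1 (A0 := A) t).1⟩ : ↥(chtO A {t})))) :
    Algebra.IsIntegral A (↥(chtO A {t}) ⧸ P) := by
  refine ⟨fun y => ?_⟩
  obtain ⟨x, rfl⟩ := Ideal.Quotient.mk_surjective y
  have h1 := s36cm_quot_adjoin t P x
  haveI : Algebra.IsIntegral A
      ↥(Algebra.adjoin A
        {Ideal.Quotient.mk P (⟨t, (cht_h1 (A0 := A) t).1⟩ : ↥(chtO A {t}))}) :=
    Algebra.IsIntegral.adjoin (by
      intro z hz
      rw [Set.mem_singleton_iff.mp hz]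
      exact ht)
  exact isIntegral_trans _ h1

/-- the residue field at a closed point of the special fibre of a chart is integral over `A` -/
theorem s36cm_res_isIntegral (τ : A) (hτA : ∀ a : A, a ∉ Ideal.span {τ} → IsUnit a) (t : F2)
    (n : Ideal ↥(chtO A {t})) (hn : n.IsMaximal) (hτn : algebraMap A ↥(chtO A {t}) τ ∈ n) :
    Algebra.IsIntegral A (↥(chtO A {t}) ⧸ n) := by
  apply s36cm_quot_isIntegral
  set tb : ↥(chtO A {t}) ⧸ n :=
    Ideal.Quotient.mk n (⟨t, (cht_h1 (A0 := A) t).1⟩ : ↥(chtO A {t})) with htb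
  haveI : Algebra.IsIntegral ↥(Algebra.adjoin A {tb}) (↥(chtO A {t}) ⧸ n) := ⟨fun y => by
    obtain ⟨x, rfl⟩ := Ideal.Quotient.mk_surjective y
    exact s36cm_quot_adjoin t n x⟩
  have hκ : IsField (↥(chtO A {t}) ⧸ n) :=
    (Ideal.Quotient.maximal_ideal_iff_isField_quotient n).mp hn
  have hB : IsField ↥(Algebra.adjoin A {tb}) :=
    isField_of_isIntegral_of_isField (S := ↥(chtO A {t}) ⧸ n) Subtype.val_injective hκ
  by_cases h0 : tb = 0
  · rw [h0]
    exact isIntegral_zero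
  · have htB : (⟨tb, Algebra.subset_adjoin (Set.mem_singleton _)⟩ : ↥(Algebra.adjoin A {tb})) ≠ 0 :=
      fun h => h0 (congrArg Subtype.val h)
    obtain ⟨b, hb⟩ := hB.mul_inv_cancel htB
    have hb' : (b : ↥(chtO A {t}) ⧸ n) ∈ (aeval tb : A[X] →ₐ[A] _).range := by
      rw [← Algebra.adjoin_singleton_eq_range_aeval]
      exact b.2
    obtain ⟨f, hf⟩ := hb'
    have hf' : aeval tb f = (b : ↥(chtO A {t}) ⧸ n) := hf
    have h1 : tb * aeval tb f = 1 := by
      rw [hf']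
      exact congrArg Subtype.val hb
    have hτ0 : algebraMap A (↥(chtO A {t}) ⧸ n) τ = 0 :=
      Ideal.Quotient.eq_zero_iff_mem.mpr hτn
    have hτ1 : (1 : A) ∉ Ideal.span {τ} := by
      intro h
      obtain ⟨c, hc⟩ := Ideal.mem_span_singleton'.mp h
      apply hn.ne_top
      rw [Ideal.eq_top_iff_one]
      have h2 : (1 : ↥(chtO A {t})) = algebraMap A _ c * algebraMap A _ τ := by
        rw [← map_mul, hc, map_one]
      rw [h2]
      exact n.mul_mem_left _ hτn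
    refine s36cm_integral_of_prim τ hτA hτ0 tb (X * f - 1).natDegree (X * f - 1) le_rfl
      ⟨0, ?_⟩ ?_
    · have h3 : (X * f - 1 : A[X]).coeff 0 = -1 := by simp
      rw [h3]
      intro h
      exact hτ1 (by simpa using (Ideal.span {τ}).neg_mem h)
    · rw [map_sub, map_mul, aeval_X, map_one, h1, sub_self]

/-- every element of the local ring at a closed point of the special fibre is integral over `A`
modulo the maximal ideal -/
theorem s36cm_loc_monic (τ : A) (hτA : ∀ a : A, a ∉ Ideal.span {τ} → IsUnit a) (t : F2)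
    (n : Ideal ↥(chtO A {t})) (hn : n.IsMaximal) (hτn : algebraMap A ↥(chtO A {t}) τ ∈ n)
    {x : F2} (hx : ∃ a s : ↥(chtO A {t}), s ∉ n ∧ x * (s : F2) = a) :
    ∃ P : A[X], P.Monic ∧
      ∃ a s : ↥(chtO A {t}), a ∈ n ∧ s ∉ n ∧ aeval x P * (s : F2) = a := by
  haveI := s36cm_res_isIntegral τ hτA t n hn hτn
  haveI := hn
  letI := Ideal.Quotient.field n
  obtain ⟨a, s, hs, h⟩ := hx
  have hs0 : Ideal.Quotient.mk n s ≠ 0 := fun h0 => hs (Ideal.Quotient.eq_zero_iff_mem.mp h0)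
  obtain ⟨P, hP, hPx⟩ := Algebra.IsIntegral.isIntegral (R := A)
    (Ideal.Quotient.mk n a * (Ideal.Quotient.mk n s)⁻¹)
  refine ⟨P, hP, ?_⟩
  set PO : (↥(chtO A {t}))[X] := P.map (algebraMap A ↥(chtO A {t})) with hPO
  have hdeg : PO.natDegree = P.natDegree := hP.natDegree_map _
  refine ⟨(PO.scaleRoots s).eval a, s ^ P.natDegree, ?_, ?_, ?_⟩
  · rw [← Ideal.Quotient.eq_zero_iff_mem]
    have h1 : Ideal.Quotient.mk n ((PO.scaleRoots s).eval a)
        = (PO.scaleRoots s).eval₂ (Ideal.Quotient.mk n) (Ideal.Quotient.mk n a) := by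
      rw [eval, hom_eval₂, RingHom.comp_id]
    have h2 : Ideal.Quotient.mk n a
        = Ideal.Quotient.mk n s * (Ideal.Quotient.mk n a * (Ideal.Quotient.mk n s)⁻¹) := by
      field_simp
    rw [h1, h2, scaleRoots_eval₂_mul]
    have h3 : PO.eval₂ (Ideal.Quotient.mk n)
        (Ideal.Quotient.mk n a * (Ideal.Quotient.mk n s)⁻¹) = 0 := by
      rw [hPO, eval₂_map]
      exact hPx
    rw [h3, mul_zero]
  · exact fun h => hs (Ideal.IsPrime.mem_of_pow_mem hn.isPrime _ h)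
  · have h4 := scaleRoots_eval₂_mul (p := PO) (algebraMap ↥(chtO A {t}) F2) x s
    have h5 : algebraMap ↥(chtO A {t}) F2 s * x = (a : F2) := by
      rw [mul_comm]
      exact h
    have h6 : eval₂ (algebraMap ↥(chtO A {t}) F2) x PO = aeval x P := by
      rw [hPO, eval₂_map, aeval_def]
      rfl
    have h7 : eval₂ (algebraMap ↥(chtO A {t}) F2) (a : F2) (PO.scaleRoots s)
        = (((PO.scaleRoots s).eval a : ↥(chtO A {t})) : F2) := by
      have := hom_eval₂ (PO.scaleRoots s) (RingHom.id _) (algebraMap ↥(chtO A {t}) F2) a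
      rw [RingHom.comp_id] at this
      exact this.symm
    rw [h5, h6, h7, hdeg] at h4
    rw [h4, mul_comm]
    rfl

/-- **CHART-MAP, abstract form.**  `φ : F1 → F2` a homomorphism of `A`-fields, `O = chtO A {t}` a
chart of `F2`, `n` a maximal ideal of `O` containing `τ` (`A/τ` a field), `t''` a coordinate of
`F1` with `φ t'' ∈ O_n`.  Then `φ` maps the chart `O'' = chtO A {t''}` into `O_n`, and the
contraction `n''` of `n O_n` is a maximal ideal of `O''` containing `τ`, with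
`φ (O''_{n''}) ⊆ O_n`, `φ (n'' O''_{n''}) ⊆ n O_n`. -/
theorem s36cm_abs (τ : A) (hτA : ∀ a : A, a ∉ Ideal.span {τ} → IsUnit a)
    (φ : F1 →+* F2) (hφA : ∀ a : A, φ (algebraMap A F1 a) = algebraMap A F2 a)
    (t : F2) (n : Ideal ↥(chtO A {t})) (hn : n.IsMaximal)
    (hτn : algebraMap A ↥(chtO A {t}) τ ∈ n)
    (t'' : F1) (hdom : ∃ a s : ↥(chtO A {t}), s ∉ n ∧ φ t'' * (s : F2) = a) :
    ∃ n'' : Ideal ↥(chtO A {t''}), n''.IsMaximal ∧ algebraMap A ↥(chtO A {t''}) τ ∈ n'' ∧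
      (∀ x : ↥(chtO A {t''}), x ∈ n'' ↔
        ∃ a s : ↥(chtO A {t}), a ∈ n ∧ s ∉ n ∧ φ (x : F1) * (s : F2) = a) ∧
      (∀ x : F1, (∃ a s : ↥(chtO A {t''}), s ∉ n'' ∧ x * (s : F1) = a) →
        ∃ a s : ↥(chtO A {t}), s ∉ n ∧ φ x * (s : F2) = a) ∧
      (∀ x : F1, (∃ a s : ↥(chtO A {t''}), a ∈ n'' ∧ s ∉ n'' ∧ x * (s : F1) = a) →
        ∃ a s : ↥(chtO A {t}), a ∈ n ∧ s ∉ n ∧ φ x * (s : F2) = a) ∧
      (∀ W : ValuationSubring F2, (∀ x ∈ chtO A {t}, x ∈ W) →
        (∀ x : ↥(chtO A {t}), (x : F2) ∈ W.nonunits → x ∈ n) →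
        ∀ x : ↥(chtO A {t''}), φ (x : F1) ∈ W.nonunits → x ∈ n'') := by
  haveI hprime : n.IsPrime := hn.isPrime
  have hint : ∀ x : F2, IsIntegral ↥(chtO A {t}) x → x ∈ chtO A {t} :=
    fun x hx => cht_integral_closed {t} hx
  have hφO : ∀ x ∈ chtO A {t''}, φ x ∈ dmaLoc (chtO A {t}) n :=
    fun x hx => s36cm_map_loc φ hφA (chtO A {t}) n hint t'' hdom hx
  have hp'' : (s36cmIdeal φ (chtO A {t''}) (chtO A {t}) n hφO).IsPrime :=
    s36cm_ideal_isPrime φ (chtO A {t''}) (chtO A {t}) n hφO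
  have hτ'' : algebraMap A ↥(chtO A {t''}) τ ∈ s36cmIdeal φ (chtO A {t''}) (chtO A {t}) n hφO := by
    have h1 : φ ((algebraMap A ↥(chtO A {t''}) τ : ↥(chtO A {t''})) : F1)
        = ((algebraMap A ↥(chtO A {t}) τ : ↥(chtO A {t})) : F2) := by
      rw [Subalgebra.coe_algebraMap, Subalgebra.coe_algebraMap, hφA]
    show φ ((algebraMap A ↥(chtO A {t''}) τ : ↥(chtO A {t''})) : F1) ∈ dmaMax (chtO A {t}) n
    rw [h1]
    exact dma_max_of_mem (chtO A {t}) n _ hτn
  refine ⟨s36cmIdeal φ (chtO A {t''}) (chtO A {t}) n hφO, ?_, hτ'', fun x => Iff.rfl,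
    fun x hx => s36cm_ideal_loc φ (chtO A {t''}) (chtO A {t}) n hφO hx,
    fun x hx => s36cm_ideal_max φ (chtO A {t''}) (chtO A {t}) n hφO hx,
    fun W hOW hW x hx => s36cm_ideal_through φ (chtO A {t''}) (chtO A {t}) n hφO W hOW hW x hx⟩
  -- maximality
  obtain ⟨P, hP, hPx⟩ := s36cm_loc_monic τ hτA t n hn hτn hdom
  have hPmem : aeval (⟨t'', (cht_h1 (A0 := A) t'').1⟩ : ↥(chtO A {t''})) P
      ∈ s36cmIdeal φ (chtO A {t''}) (chtO A {t}) n hφO := by
    show φ ((aeval (⟨t'', (cht_h1 (A0 := A) t'').1⟩ : ↥(chtO A {t''})) P : ↥(chtO A {t''})) : F1)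
      ∈ dmaMax (chtO A {t}) n
    have h2 : ((aeval (⟨t'', (cht_h1 (A0 := A) t'').1⟩ : ↥(chtO A {t''})) P : ↥(chtO A {t''})) : F1)
        = aeval t'' P :=
      (aeval_algHom_apply (chtO A {t''}).val
        (⟨t'', (cht_h1 (A0 := A) t'').1⟩ : ↥(chtO A {t''})) P).symm
    have h3 : φ (aeval t'' P) = aeval (φ t'') P := by
      rw [aeval_def, aeval_def, hom_eval₂]
      congr 1
      exact RingHom.ext hφA
    rw [h2, h3]
    exact hPx
  have ht'' : IsIntegral A (Ideal.Quotient.mk (s36cmIdeal φ (chtO A {t''}) (chtO A {t}) n hφO)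
      (⟨t'', (cht_h1 (A0 := A) t'').1⟩ : ↥(chtO A {t''}))) := by
    refine ⟨P, hP, ?_⟩
    have h4 := aeval_algHom_apply
      (Ideal.Quotient.mkₐ A (s36cmIdeal φ (chtO A {t''}) (chtO A {t}) n hφO))
      (⟨t'', (cht_h1 (A0 := A) t'').1⟩ : ↥(chtO A {t''})) P
    rw [← aeval_def]
    refine h4.trans ?_
    exact Ideal.Quotient.eq_zero_iff_mem.mpr hPmem
  haveI := s36cm_quot_isIntegral t'' (s36cmIdeal φ (chtO A {t''}) (chtO A {t}) n hφO) ht''
  haveI := hp''
  -- the kernel of `A → O''/n''` is maximal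
  have hker : ((⊥ : Ideal (↥(chtO A {t''}) ⧸ s36cmIdeal φ (chtO A {t''}) (chtO A {t}) n hφO)).comap
      (algebraMap A (↥(chtO A {t''}) ⧸ s36cmIdeal φ (chtO A {t''}) (chtO A {t}) n hφO))).IsMaximal := by
    rw [Ideal.isMaximal_iff]
    refine ⟨?_, fun J x hJ hx hxJ => ?_⟩
    · rw [Ideal.mem_comap, map_one, Ideal.mem_bot]
      exact one_ne_zero
    · have hx' : x ∉ Ideal.span {τ} := by
        intro h
        apply hx
        obtain ⟨c, hc⟩ := Ideal.mem_span_singleton'.mp h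
        rw [Ideal.mem_comap, Ideal.mem_bot, ← hc, map_mul]
        have h5 : algebraMap A (↥(chtO A {t''}) ⧸ s36cmIdeal φ (chtO A {t''}) (chtO A {t}) n hφO) τ
            = 0 := Ideal.Quotient.eq_zero_iff_mem.mpr hτ''
        rw [h5, mul_zero]
      obtain ⟨u, hu⟩ := hτA x hx'
      have h6 : (↑u⁻¹ : A) * x ∈ J := J.mul_mem_left _ hxJ
      rwa [← hu, Units.inv_mul] at h6
  have hbot : (⊥ : Ideal (↥(chtO A {t''}) ⧸ s36cmIdeal φ (chtO A {t''}) (chtO A {t}) n hφO)).IsMaximal :=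
    Ideal.isMaximal_of_isIntegral_of_isMaximal_comap (R := A) _ hker
  have hcomap := Ideal.comap_isMaximal_of_surjective
    (Ideal.Quotient.mk (s36cmIdeal φ (chtO A {t''}) (chtO A {t}) n hφO))
    Ideal.Quotient.mk_surjective (K := ⊥)
  rwa [← RingHom.ker_eq_comap_bot, Ideal.mk_ker] at hcomap

/-- lying over: every maximal ideal of `chtO A {t'}` is the contraction of a maximal ideal of
`chtO A {φ t'}` -/
theorem s36cm_lying_over (φ : F1 →+* F2)
    (hφA : ∀ a : A, φ (algebraMap A F1 a) = algebraMap A F2 a) (t' : F1)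
    (n' : Ideal ↥(chtO A {t'})) (hn' : n'.IsMaximal) :
    ∃ n : Ideal ↥(chtO A {φ t'}), n.IsMaximal ∧
      ∀ x : ↥(chtO A {t'}), x ∈ n' ↔
        (⟨φ (x : F1), s36cm_map_mem φ hφA t' x.2⟩ : ↥(chtO A {φ t'})) ∈ n := by
  let f : ↥(chtO A {t'}) →+* ↥(chtO A {φ t'}) :=
    (φ.comp (chtO A {t'}).val.toRingHom).codRestrict (chtO A {φ t'})
      (fun x => s36cm_map_mem φ hφA t' x.2)
  have hf : f.IsIntegral := by
    intro y
    obtain ⟨p, hp, hc, hpy⟩ := s36cm_integral φ hφA t' y.2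
    have hl : p ∈ lifts (φ.comp (chtO A {t'}).val.toRingHom) := by
      rw [lifts_iff_coeff_lifts]
      intro i
      obtain ⟨c, hc1, hc2⟩ := hc i
      exact ⟨⟨c, hc1⟩, hc2.symm⟩
    obtain ⟨q, hq, -, hqm⟩ := lifts_and_natDegree_eq_and_monic hl hp
    refine ⟨q, hqm, ?_⟩
    apply Subtype.ext
    have h1 := hom_eval₂ q f (chtO A {φ t'}).val.toRingHom y
    have h2 : ((eval₂ f y q : ↥(chtO A {φ t'})) : F2)
        = (chtO A {φ t'}).val.toRingHom (eval₂ f y q) := rfl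
    rw [h2, h1]
    have h3 : (chtO A {φ t'}).val.toRingHom.comp f = φ.comp (chtO A {t'}).val.toRingHom := rfl
    rw [h3, ← eval_map, hq]
    exact hpy
  letI := f.toAlgebra
  haveI : Algebra.IsIntegral ↥(chtO A {t'}) ↥(chtO A {φ t'}) := ⟨hf⟩
  haveI := hn'
  obtain ⟨Q, hQ, hQc⟩ := Ideal.exists_ideal_over_maximal_of_isIntegral
    (S := ↥(chtO A {φ t'})) n' (by
      intro x hx
      have h0 : f x = 0 := hx
      have h1 : φ (x : F1) = 0 := congrArg Subtype.val h0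
      have h2 : (x : F1) = 0 := (map_eq_zero φ).mp h1
      have h3 : x = 0 := Subtype.ext h2
      rw [h3]
      exact n'.zero_mem)
  refine ⟨Q, hQ, fun x => ?_⟩
  rw [← hQc, Ideal.mem_comap]
  rfl

end Abs

/-! ### The carrier -/

/-- ring homomorphisms commute with polynomial relations over `ℤ[a]` -/
theorem s36cm_map_rel {F F' : Type*} [CommRing F] [CommRing F'] (φ : F →+* F') (a z : F)
    (Φ : Polynomial (Polynomial ℤ)) :
    φ (Φ.eval₂ ((Polynomial.aeval a : Polynomial ℤ →ₐ[ℤ] F).toRingHom) z)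
      = Φ.eval₂ ((Polynomial.aeval (φ a) : Polynomial ℤ →ₐ[ℤ] F').toRingHom) (φ z) := by
  rw [hom_eval₂]
  congr 1
  refine Polynomial.ringHom_ext (fun c => ?_) ?_
  · simp
  · simp

section Carrier

variable {K0 : Type*} [Field K0] [Algebra ℚ K0] [Algebra K0 Qb] (A0 : ValuationSubring K0)
  [IsDiscreteValuationRing ↥A0] (M q : ℕ) [NeZero M] [hq : Fact q.Prime] (hM : ¬ q ∣ M)
  {a2 : ℕ} (H : HauptRec a2 q) (ha2 : a2 ∣ M)

omit [Algebra K0 Qb] in
/-- `α₁ t' = t` for the chart coordinates -/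
theorem s36cm_al_t (c0 c1 : K0)
    (t' : ↥(laurentBaseChange K0 (modularFunctionFieldFull (M * q))))
    (ht' : (t' : LaurentSeries K0) = cinstU H K0 c0 c1)
    (t : ↥(laurentBaseChange K0 (modularFunctionFieldFull (M * q * q))))
    (ht : (t : LaurentSeries K0) = cinstU H K0 c0 c1) :
    heckeAlphaBar K0 (M * q) q t' = t := by
  apply Subtype.ext
  rw [coe_heckeAlphaBar, ht', ht]

omit [Algebra K0 Qb] [IsDiscreteValuationRing ↥A0] in
/-- a `K0`-algebra homomorphism between the function fields is compatible with the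
`A0`-structures -/
theorem s36cm_const
    [Algebra A0 ↥(laurentBaseChange K0 (modularFunctionFieldFull (M * q)))]
    [IsScalarTower A0 K0 ↥(laurentBaseChange K0 (modularFunctionFieldFull (M * q)))]
    [Algebra A0 ↥(laurentBaseChange K0 (modularFunctionFieldFull (M * q * q)))]
    [IsScalarTower A0 K0 ↥(laurentBaseChange K0 (modularFunctionFieldFull (M * q * q)))]
    (φ : ↥(laurentBaseChange K0 (modularFunctionFieldFull (M * q))) →ₐ[K0]
      ↥(laurentBaseChange K0 (modularFunctionFieldFull (M * q * q)))) (a : A0) :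
    φ.toRingHom (algebraMap A0 ↥(laurentBaseChange K0 (modularFunctionFieldFull (M * q))) a)
      = algebraMap A0 ↥(laurentBaseChange K0 (modularFunctionFieldFull (M * q * q))) a := by
  rw [IsScalarTower.algebraMap_apply A0 K0
      ↥(laurentBaseChange K0 (modularFunctionFieldFull (M * q))),
    IsScalarTower.algebraMap_apply A0 K0
      ↥(laurentBaseChange K0 (modularFunctionFieldFull (M * q * q)))]
  exact φ.commutes _

omit [Algebra K0 Qb] in
/-- `A0 / τ` is a field -/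
theorem s36cm_unit_of_notMem (τ : A0) (hτ : Irreducible τ) (a : A0)
    (ha : a ∉ Ideal.span {τ}) : IsUnit a := by
  rw [← hτ.maximalIdeal_eq] at ha
  exact IsLocalRing.notMem_maximalIdeal.mp ha

omit [Algebra K0 Qb] in
/-- **CHART-MAP along `α₁`**: the chart `O' = chtO A0 {t'}` of level `M q` maps into the chart
`O = chtO A0 {t}` of level `M q²`; the contraction of a maximal ideal `n ∋ τ` is a maximal ideal
`n' ∋ τ`, and `α₁ (O'_{n'}) ⊆ O_n`, `α₁ (n' O'_{n'}) ⊆ n O_n`. -/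
theorem s36cm_al
    [Algebra A0 ↥(laurentBaseChange K0 (modularFunctionFieldFull (M * q)))]
    [IsScalarTower A0 K0 ↥(laurentBaseChange K0 (modularFunctionFieldFull (M * q)))]
    [Algebra A0 ↥(laurentBaseChange K0 (modularFunctionFieldFull (M * q * q)))]
    [IsScalarTower A0 K0 ↥(laurentBaseChange K0 (modularFunctionFieldFull (M * q * q)))]
    (c0 c1 : K0)
    (t' : ↥(laurentBaseChange K0 (modularFunctionFieldFull (M * q))))
    (ht' : (t' : LaurentSeries K0) = cinstU H K0 c0 c1)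
    (t : ↥(laurentBaseChange K0 (modularFunctionFieldFull (M * q * q))))
    (ht : (t : LaurentSeries K0) = cinstU H K0 c0 c1)
    (τ : A0) (hτ : Irreducible τ)
    (n : Ideal ↥(chtO A0 {t})) (hn : n.IsMaximal)
    (hτn : algebraMap A0 ↥(chtO A0 {t}) τ ∈ n) :
    (∀ x ∈ chtO A0 {t'}, heckeAlphaBar K0 (M * q) q x ∈ chtO A0 {t}) ∧
    ∃ n' : Ideal ↥(chtO A0 {t'}), n'.IsMaximal ∧ algebraMap A0 ↥(chtO A0 {t'}) τ ∈ n' ∧
      (∀ (x : ↥(chtO A0 {t'})) (hx : heckeAlphaBar K0 (M * q) q (x : _) ∈ chtO A0 {t}),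
        x ∈ n' ↔ (⟨heckeAlphaBar K0 (M * q) q (x : _), hx⟩ : ↥(chtO A0 {t})) ∈ n) ∧
      (∀ x : ↥(chtO A0 {t'}), x ∈ n' ↔
        ∃ a s : ↥(chtO A0 {t}), a ∈ n ∧ s ∉ n ∧
          heckeAlphaBar K0 (M * q) q (x : _) *
            (s : ↥(laurentBaseChange K0 (modularFunctionFieldFull (M * q * q)))) = a) ∧
      (∀ x : ↥(laurentBaseChange K0 (modularFunctionFieldFull (M * q))),
        (∃ a s : ↥(chtO A0 {t'}), s ∉ n' ∧
          x * (s : ↥(laurentBaseChange K0 (modularFunctionFieldFull (M * q)))) = a) →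
        ∃ a s : ↥(chtO A0 {t}), s ∉ n ∧ heckeAlphaBar K0 (M * q) q x *
          (s : ↥(laurentBaseChange K0 (modularFunctionFieldFull (M * q * q)))) = a) ∧
      (∀ x : ↥(laurentBaseChange K0 (modularFunctionFieldFull (M * q))),
        (∃ a s : ↥(chtO A0 {t'}), a ∈ n' ∧ s ∉ n' ∧
          x * (s : ↥(laurentBaseChange K0 (modularFunctionFieldFull (M * q)))) = a) →
        ∃ a s : ↥(chtO A0 {t}), a ∈ n ∧ s ∉ n ∧ heckeAlphaBar K0 (M * q) q x *
          (s : ↥(laurentBaseChange K0 (modularFunctionFieldFull (M * q * q)))) = a) ∧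
      (∀ W : ValuationSubring ↥(laurentBaseChange K0 (modularFunctionFieldFull (M * q * q))),
        (∀ x ∈ chtO A0 {t}, x ∈ W) →
        (∀ x : ↥(chtO A0 {t}),
          (x : ↥(laurentBaseChange K0 (modularFunctionFieldFull (M * q * q)))) ∈ W.nonunits →
            x ∈ n) →
        ∀ x : ↥(chtO A0 {t'}), heckeAlphaBar K0 (M * q) q (x : _) ∈ W.nonunits → x ∈ n') := by
  haveI hprime : n.IsPrime := hn.isPrime
  have halt := s36cm_al_t M q H c0 c1 t' ht' t ht
  have hmem : ∀ x ∈ chtO A0 {t'}, heckeAlphaBar K0 (M * q) q x ∈ chtO A0 {t} := by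
    intro x hx
    have h1 := s36cm_map_mem (heckeAlphaBar K0 (M * q) q).toRingHom
      (s36cm_const A0 M q (heckeAlphaBar K0 (M * q) q)) t' hx
    have h2 : (heckeAlphaBar K0 (M * q) q).toRingHom t' = t := halt
    rw [h2] at h1
    exact h1
  refine ⟨hmem, ?_⟩
  obtain ⟨n', hmax, hτ', hiff, hloc, hmx, hthr⟩ := s36cm_abs τ (s36cm_unit_of_notMem A0 τ hτ)
    (heckeAlphaBar K0 (M * q) q).toRingHom (s36cm_const A0 M q (heckeAlphaBar K0 (M * q) q))
    t n hn hτn t'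
    ⟨⟨t, (cht_h1 (A0 := A0) t).1⟩, 1, dma_one_notMem (chtO A0 {t}) n, by
      have h2 : (heckeAlphaBar K0 (M * q) q).toRingHom t' = t := halt
      rw [h2]
      simp⟩
  refine ⟨n', hmax, hτ', fun x hx => ?_, hiff, hloc, hmx, hthr⟩
  rw [hiff x]
  exact s36cm_max_iff (chtO A0 {t}) n ⟨_, hx⟩

include ha2 hM in
/-- **Domination along `β₁`**: at every prime `𝔫 ∋ τ` of the chart `chtO A0 {t}` of level
`M q²`, `β₁ t'` or `β₁ t'⁻¹` lies in the local ring at `𝔫`. -/
theorem s36cm_be_dom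
    [Algebra A0 ↥(laurentBaseChange K0 (modularFunctionFieldFull (M * q)))]
    [IsScalarTower A0 K0 ↥(laurentBaseChange K0 (modularFunctionFieldFull (M * q)))]
    [Algebra A0 ↥(laurentBaseChange K0 (modularFunctionFieldFull (M * q * q)))]
    [IsScalarTower A0 K0 ↥(laurentBaseChange K0 (modularFunctionFieldFull (M * q * q)))]
    (hqA : (q : K0) ∈ A0.nonunits)
    (c0 c1 : A0) (hc : ((c0 : K0) - (c1 : K0))⁻¹ ∈ A0) (hc' : (c0 : K0) ≠ (c1 : K0))
    (hQ0 : (aeval (c0 : K0) H.Q)⁻¹ ∈ A0) (hQ0n : aeval (c0 : K0) H.Q ≠ 0)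
    (t' : ↥(laurentBaseChange K0 (modularFunctionFieldFull (M * q))))
    (ht' : (t' : LaurentSeries K0) = cinstU H K0 (c0 : K0) (c1 : K0))
    (t : ↥(laurentBaseChange K0 (modularFunctionFieldFull (M * q * q))))
    (ht : (t : LaurentSeries K0) = cinstU H K0 (c0 : K0) (c1 : K0))
    (τ : A0) (hτ : Irreducible τ)
    (𝔫 : Ideal ↥(chtO A0 {t})) (h𝔫 : 𝔫.IsPrime)
    (hτ𝔫 : algebraMap A0 ↥(chtO A0 {t}) τ ∈ 𝔫) :
    (∃ a s : ↥(chtO A0 {t}), s ∉ 𝔫 ∧ heckeBetaBar K0 (M * q) q t' *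
      (s : ↥(laurentBaseChange K0 (modularFunctionFieldFull (M * q * q)))) = a) ∨
    (∃ a s : ↥(chtO A0 {t}), s ∉ 𝔫 ∧ heckeBetaBar K0 (M * q) q t'⁻¹ *
      (s : ↥(laurentBaseChange K0 (modularFunctionFieldFull (M * q * q)))) = a) := by
  classical
  obtain ⟨U, V, W, hUV⟩ := dmi_bezout H.P H.Q H.coprime_mod
  obtain ⟨Φ, hΦ, hΦ1, hΦ2⟩ := mqk_exists_poly M q hq.out hM K0
  -- `q ∈ 𝔫`
  have hq𝔫 : ((q : ℕ) : ↥(chtO A0 {t})) ∈ 𝔫 := by
    have h1 : ((q : A0) : K0) ∈ A0.nonunits := by simpa using hqA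
    rw [ValuationSubring.coe_mem_nonunits_iff, hτ.maximalIdeal_eq,
      Ideal.mem_span_singleton] at h1
    obtain ⟨a, ha⟩ := h1
    have h2 : ((q : ℕ) : ↥(chtO A0 {t})) = algebraMap A0 ↥(chtO A0 {t}) τ *
        algebraMap A0 ↥(chtO A0 {t}) a := by
      rw [← map_mul, ← ha, map_natCast]
    rw [h2]
    exact 𝔫.mul_mem_right _ hτ𝔫
  have ha2' : a2 ∣ M * q := ha2.mul_right q
  have ha2'' : a2 ∣ M * q * q := ha2'.mul_right q
  set hF := dmiH K0 (M * q * q) H ha2'' with hhF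
  set hF' := dmiH K0 (M * q) H ha2' with hhF'
  set hFq := heckeBetaBar K0 (M * q) q hF' with hhFq
  -- the generators
  have hjq : heckeBetaBar K0 (M * q) q (va2Jd K0 (M * q) 1 (one_dvd _))
      = va2Jd K0 (M * q * q) q (dvd_mul_left q (M * q)) := by
    rw [s36d_beta_jd K0 (M * q) q 1 (one_dvd _)
      (by rw [mul_one]; exact dvd_mul_left q (M * q))]
    exact mqk_va2Jd_congr K0 (M * q * q) (mul_one q) _ _
  have hal1 : heckeAlphaBar K0 (M * q) q (va2Jd K0 (M * q) 1 (one_dvd _))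
      = va2Jd K0 (M * q * q) 1 (one_dvd _) :=
    s36d_alpha_jd K0 (M * q) q 1 (one_dvd _) (one_dvd _)
  have halq : heckeAlphaBar K0 (M * q) q (va2Jd K0 (M * q) q (dvd_mul_left q M))
      = va2Jd K0 (M * q * q) q (dvd_mul_left q (M * q)) :=
    s36d_alpha_jd K0 (M * q) q q (dvd_mul_left q M) (dvd_mul_left q (M * q))
  -- `j(t^q) Q(h₁) = P(h₁)`
  have hrelq : va2Jd K0 (M * q * q) q (dvd_mul_left q (M * q)) * aeval hFq H.Q
      = aeval hFq H.P := by
    have h := congrArg (heckeBetaBar K0 (M * q) q) (dmi_rel K0 (M * q) H ha2')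
    have e1 : heckeBetaBar K0 (M * q) q (aeval hF' H.Q) = aeval hFq H.Q :=
      dmi_map_aeval (heckeBetaBar K0 (M * q) q).toRingHom hF' H.Q
    have e2 : heckeBetaBar K0 (M * q) q (aeval hF' H.P) = aeval hFq H.P :=
      dmi_map_aeval (heckeBetaBar K0 (M * q) q).toRingHom hF' H.P
    rw [map_mul, hjq, e1, e2] at h
    exact h
  -- the two modular relations at level `M q²`
  have hΦ1' : Φ.eval₂ ((Polynomial.aeval (va2Jd K0 (M * q * q) 1 (one_dvd _)) :
      Polynomial ℤ →ₐ[ℤ] ↥(laurentBaseChange K0 (modularFunctionFieldFull (M * q * q)))).toRingHom)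
      (va2Jd K0 (M * q * q) q (dvd_mul_left q (M * q))) = 0 := by
    have h := s36cm_map_rel (heckeAlphaBar K0 (M * q) q).toRingHom
      (va2Jd K0 (M * q) 1 (one_dvd _)) (va2Jd K0 (M * q) q (dvd_mul_left q M)) Φ
    rw [hΦ1, map_zero] at h
    have e1 : (heckeAlphaBar K0 (M * q) q).toRingHom (va2Jd K0 (M * q) 1 (one_dvd _))
        = va2Jd K0 (M * q * q) 1 (one_dvd _) := hal1
    have e2 : (heckeAlphaBar K0 (M * q) q).toRingHom (va2Jd K0 (M * q) q (dvd_mul_left q M))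
        = va2Jd K0 (M * q * q) q (dvd_mul_left q (M * q)) := halq
    rw [e1, e2] at h
    exact h.symm
  have hΦ2' : Φ.eval₂ ((Polynomial.aeval (va2Jd K0 (M * q * q) q (dvd_mul_left q (M * q))) :
      Polynomial ℤ →ₐ[ℤ] ↥(laurentBaseChange K0 (modularFunctionFieldFull (M * q * q)))).toRingHom)
      (va2Jd K0 (M * q * q) 1 (one_dvd _)) = 0 := by
    have h := s36cm_map_rel (heckeAlphaBar K0 (M * q) q).toRingHom
      (va2Jd K0 (M * q) q (dvd_mul_left q M)) (va2Jd K0 (M * q) 1 (one_dvd _)) Φ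
    rw [hΦ2, map_zero] at h
    have e1 : (heckeAlphaBar K0 (M * q) q).toRingHom (va2Jd K0 (M * q) 1 (one_dvd _))
        = va2Jd K0 (M * q * q) 1 (one_dvd _) := hal1
    have e2 : (heckeAlphaBar K0 (M * q) q).toRingHom (va2Jd K0 (M * q) q (dvd_mul_left q M))
        = va2Jd K0 (M * q * q) q (dvd_mul_left q (M * q)) := halq
    rw [e1, e2] at h
    exact h.symm
  have hbinj : Function.Injective (heckeBetaBar K0 (M * q) q) :=
    (heckeBetaBar K0 (M * q) q).toRingHom.injective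
  have hne : ∀ c : K0, hFq ≠
      algebraMap K0 ↥(laurentBaseChange K0 (modularFunctionFieldFull (M * q * q))) c := by
    intro c h0
    rw [← (heckeBetaBar K0 (M * q) q).commutes c] at h0
    exact dmiH_sub_ne K0 (M * q) H ha2' c (hbinj h0)
  have hc01 : (algebraMap K0 ↥(laurentBaseChange K0 (modularFunctionFieldFull (M * q * q)))
      (c0 : K0) - algebraMap K0 _ (c1 : K0))⁻¹ ∈ chtO A0 {t} := by
    rw [← map_sub, ← map_inv₀]
    exact dmi_const_mem A0 _ hc
  have hQ0' : (aeval (algebraMap K0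
      ↥(laurentBaseChange K0 (modularFunctionFieldFull (M * q * q))) (c0 : K0)) H.Q)⁻¹
      ∈ chtO A0 {t} := by
    rw [← dmi_map_aeval, ← map_inv₀]
    exact dmi_const_mem A0 _ hQ0
  have htO : (hF - algebraMap K0 _ (c1 : K0)) / (hF - algebraMap K0 _ (c0 : K0)) ∈
      chtO A0 {t} := by
    rw [← dmi_t_eq K0 (M * q * q) H ha2'' (c0 : K0) (c1 : K0) t ht]
    exact (cht_h1 t).1
  have hcF : algebraMap K0 ↥(laurentBaseChange K0 (modularFunctionFieldFull (M * q * q)))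
      (c0 : K0) ≠ algebraMap K0 _ (c1 : K0) := (algebraMap K0 _).injective.ne hc'
  have hQ0n' : aeval (algebraMap K0
      ↥(laurentBaseChange K0 (modularFunctionFieldFull (M * q * q))) (c0 : K0)) H.Q ≠ 0 := by
    rw [← dmi_map_aeval]
    exact (_root_.map_ne_zero _).mpr hQ0n
  have key := dma_main (chtO A0 {t}) 𝔫 (fun x hx => cht_integral_closed {t} hx) q hq𝔫
    H.P H.Q U V W H.P_monic (by rw [H.natDegree_P]; exact H.natDegree_Q) hUV
    hF hFq (va2Jd K0 (M * q * q) 1 (one_dvd _))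
    (va2Jd K0 (M * q * q) q (dvd_mul_left q (M * q)))
    (algebraMap K0 _ (c0 : K0)) (algebraMap K0 _ (c1 : K0))
    (dmi_jd_ne_zero K0 (M * q * q) 1 _) (dmi_jd_ne_zero K0 (M * q * q) q _)
    (dmi_rel K0 (M * q * q) H ha2'') hrelq
    Φ Φ hΦ hΦ1' hΦ hΦ2'
    (dmi_const_mem A0 _ c0.2) (dmi_const_mem A0 _ c1.2) hc01 hcF hQ0' hQ0n'
    (dmiH_sub_ne K0 (M * q * q) H ha2'' _) (hne _) htO
  have hbt : heckeBetaBar K0 (M * q) q t'
      = (hFq - algebraMap K0 _ (c1 : K0)) / (hFq - algebraMap K0 _ (c0 : K0)) := by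
    rw [dmi_t_eq K0 (M * q) H ha2' (c0 : K0) (c1 : K0) t' ht', map_div₀, map_sub, map_sub,
      AlgHom.commutes, AlgHom.commutes]
  rw [← hbt] at key
  rw [map_inv₀]
  exact key

include ha2 hM in
/-- **Domination along `β₁`, both charts** (hypotheses in the shape of `dmi_dom`). -/
theorem s36cm_be_dom_both
    [Algebra A0 ↥(laurentBaseChange K0 (modularFunctionFieldFull (M * q)))]
    [IsScalarTower A0 K0 ↥(laurentBaseChange K0 (modularFunctionFieldFull (M * q)))]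
    [Algebra A0 ↥(laurentBaseChange K0 (modularFunctionFieldFull (M * q * q)))]
    [IsScalarTower A0 K0 ↥(laurentBaseChange K0 (modularFunctionFieldFull (M * q * q)))]
    (hqA : (q : K0) ∈ A0.nonunits)
    (c0 c1 : A0) (hc : IsLocalRing.residue A0 c0 ≠ IsLocalRing.residue A0 c1)
    (hQ0 : smi2U A0 (aeval (c0 : K0) H.Qrad)) (hQ1 : smi2U A0 (aeval (c1 : K0) H.Qrad))
    (t' : ↥(laurentBaseChange K0 (modularFunctionFieldFull (M * q))))
    (ht' : (t' : LaurentSeries K0) = cinstU H K0 (c0 : K0) (c1 : K0))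
    (t : ↥(laurentBaseChange K0 (modularFunctionFieldFull (M * q * q))))
    (ht : (t : LaurentSeries K0) = cinstU H K0 (c0 : K0) (c1 : K0))
    (τ : A0) (hτ : Irreducible τ) :
    (∀ 𝔫 : Ideal ↥(chtO A0 {t}), 𝔫.IsPrime → algebraMap A0 ↥(chtO A0 {t}) τ ∈ 𝔫 →
      (∃ a s : ↥(chtO A0 {t}), s ∉ 𝔫 ∧ heckeBetaBar K0 (M * q) q t' *
        (s : ↥(laurentBaseChange K0 (modularFunctionFieldFull (M * q * q)))) = a) ∨
      (∃ a s : ↥(chtO A0 {t}), s ∉ 𝔫 ∧ heckeBetaBar K0 (M * q) q t'⁻¹ *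
        (s : ↥(laurentBaseChange K0 (modularFunctionFieldFull (M * q * q)))) = a)) ∧
    (∀ 𝔫 : Ideal ↥(chtO A0 {t⁻¹}), 𝔫.IsPrime → algebraMap A0 ↥(chtO A0 {t⁻¹}) τ ∈ 𝔫 →
      (∃ a s : ↥(chtO A0 {t⁻¹}), s ∉ 𝔫 ∧ heckeBetaBar K0 (M * q) q t' *
        (s : ↥(laurentBaseChange K0 (modularFunctionFieldFull (M * q * q)))) = a) ∨
      (∃ a s : ↥(chtO A0 {t⁻¹}), s ∉ 𝔫 ∧ heckeBetaBar K0 (M * q) q t'⁻¹ *
        (s : ↥(laurentBaseChange K0 (modularFunctionFieldFull (M * q * q)))) = a)) := by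
  have hc : smi2U A0 ((c0 : K0) - (c1 : K0)) := by
    have h : IsLocalRing.residue A0 (c0 - c1) ≠ 0 := by
      rw [map_sub, sub_ne_zero]
      exact hc
    exact smi2U_of_residue_ne_zero h
  refine ⟨fun 𝔫 h𝔫 hτ𝔫 => ?_, fun 𝔫 h𝔫 hτ𝔫 => ?_⟩
  · exact s36cm_be_dom A0 M q hM H ha2 hqA c0 c1 hc.2.2 (sub_ne_zero.mp hc.2.1)
      (smi2_Q_unit H A0 c0.2 hQ0).2.2 (smi2_Q_unit H A0 c0.2 hQ0).2.1 t' ht' t ht τ hτ 𝔫 h𝔫 hτ𝔫
  · have ht1 : ((t⁻¹ : ↥(laurentBaseChange K0 (modularFunctionFieldFull (M * q * q)))) :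
        LaurentSeries K0) = cinstU H K0 (c1 : K0) (c0 : K0) := by
      rw [IntermediateField.coe_inv, ht, cinstU_inv]
    have ht1' : ((t'⁻¹ : ↥(laurentBaseChange K0 (modularFunctionFieldFull (M * q)))) :
        LaurentSeries K0) = cinstU H K0 (c1 : K0) (c0 : K0) := by
      rw [IntermediateField.coe_inv, ht', cinstU_inv]
    have hc' : ((c1 : K0) - (c0 : K0))⁻¹ ∈ A0 := by
      have h1 : ((c1 : K0) - (c0 : K0))⁻¹ = -((c0 : K0) - (c1 : K0))⁻¹ := by
        rw [← neg_sub, neg_inv]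
      rw [h1]
      exact neg_mem hc.2.2
    have key := s36cm_be_dom A0 M q hM H ha2 hqA c1 c0 hc' (sub_ne_zero.mp hc.2.1).symm
      (smi2_Q_unit H A0 c1.2 hQ1).2.2 (smi2_Q_unit H A0 c1.2 hQ1).2.1 t'⁻¹ ht1' t⁻¹ ht1 τ hτ
      𝔫 h𝔫 hτ𝔫
    rw [inv_inv] at key
    exact key.symm

/-- the conclusion of CHART-MAP along `β₁` for one chart `O''` of level `M q` -/
def S36cmBe (A0 : ValuationSubring K0) (M q : ℕ) [NeZero M] [hq : Fact q.Prime]
    [Algebra A0 ↥(laurentBaseChange K0 (modularFunctionFieldFull (M * q)))]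
    [Algebra A0 ↥(laurentBaseChange K0 (modularFunctionFieldFull (M * q * q)))]
    (τ : A0) (O : Subalgebra A0 ↥(laurentBaseChange K0 (modularFunctionFieldFull (M * q * q))))
    (n : Ideal ↥O)
    (O'' : Subalgebra A0 ↥(laurentBaseChange K0 (modularFunctionFieldFull (M * q)))) : Prop :=
  ∃ n'' : Ideal ↥O'', n''.IsMaximal ∧ algebraMap A0 ↥O'' τ ∈ n'' ∧
    (∀ x : ↥O'', x ∈ n'' ↔
      ∃ a s : ↥O, a ∈ n ∧ s ∉ n ∧ heckeBetaBar K0 (M * q) q (x : _) *
        (s : ↥(laurentBaseChange K0 (modularFunctionFieldFull (M * q * q)))) = a) ∧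
    (∀ x : ↥(laurentBaseChange K0 (modularFunctionFieldFull (M * q))),
      (∃ a s : ↥O'', s ∉ n'' ∧
        x * (s : ↥(laurentBaseChange K0 (modularFunctionFieldFull (M * q)))) = a) →
      ∃ a s : ↥O, s ∉ n ∧ heckeBetaBar K0 (M * q) q x *
        (s : ↥(laurentBaseChange K0 (modularFunctionFieldFull (M * q * q)))) = a) ∧
    (∀ x : ↥(laurentBaseChange K0 (modularFunctionFieldFull (M * q))),
      (∃ a s : ↥O'', a ∈ n'' ∧ s ∉ n'' ∧
        x * (s : ↥(laurentBaseChange K0 (modularFunctionFieldFull (M * q)))) = a) →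
      ∃ a s : ↥O, a ∈ n ∧ s ∉ n ∧ heckeBetaBar K0 (M * q) q x *
        (s : ↥(laurentBaseChange K0 (modularFunctionFieldFull (M * q * q)))) = a) ∧
    (∀ W : ValuationSubring ↥(laurentBaseChange K0 (modularFunctionFieldFull (M * q * q))),
      (∀ x ∈ O, x ∈ W) →
      (∀ x : ↥O,
        (x : ↥(laurentBaseChange K0 (modularFunctionFieldFull (M * q * q)))) ∈ W.nonunits →
          x ∈ n) →
      ∀ x : ↥O'', heckeBetaBar K0 (M * q) q (x : _) ∈ W.nonunits → x ∈ n'')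

omit [Algebra K0 Qb] in
/-- CHART-MAP along `β₁` from the domination of one coordinate `t''` of level `M q` -/
theorem s36cm_be_of_dom
    [Algebra A0 ↥(laurentBaseChange K0 (modularFunctionFieldFull (M * q)))]
    [IsScalarTower A0 K0 ↥(laurentBaseChange K0 (modularFunctionFieldFull (M * q)))]
    [Algebra A0 ↥(laurentBaseChange K0 (modularFunctionFieldFull (M * q * q)))]
    [IsScalarTower A0 K0 ↥(laurentBaseChange K0 (modularFunctionFieldFull (M * q * q)))]
    (t'' : ↥(laurentBaseChange K0 (modularFunctionFieldFull (M * q))))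
    (t : ↥(laurentBaseChange K0 (modularFunctionFieldFull (M * q * q))))
    (τ : A0) (hτ : Irreducible τ)
    (n : Ideal ↥(chtO A0 {t})) (hn : n.IsMaximal)
    (hτn : algebraMap A0 ↥(chtO A0 {t}) τ ∈ n)
    (hdom : ∃ a s : ↥(chtO A0 {t}), s ∉ n ∧ heckeBetaBar K0 (M * q) q t'' *
      (s : ↥(laurentBaseChange K0 (modularFunctionFieldFull (M * q * q)))) = a) :
    S36cmBe A0 M q τ (chtO A0 {t}) n (chtO A0 {t''}) :=
  s36cm_abs τ (s36cm_unit_of_notMem A0 τ hτ)
    (heckeBetaBar K0 (M * q) q).toRingHom (s36cm_const A0 M q (heckeBetaBar K0 (M * q) q))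
    t n hn hτn t'' hdom

include ha2 hM in
/-- **CHART-MAP along `β₁`, one chart of level `M q²`**: at every maximal ideal `n ∋ τ` of the
chart `O = chtO A0 {t}`, `β₁ t'` or `β₁ t'⁻¹` lies in `O_n`; accordingly one of the two charts
`chtO A0 {t'}`, `chtO A0 {t'⁻¹}` of level `M q` maps into `O_n` under `β₁`, with a maximal
contraction `n'' ∋ τ`. -/
theorem s36cm_be
    [Algebra A0 ↥(laurentBaseChange K0 (modularFunctionFieldFull (M * q)))]
    [IsScalarTower A0 K0 ↥(laurentBaseChange K0 (modularFunctionFieldFull (M * q)))]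
    [Algebra A0 ↥(laurentBaseChange K0 (modularFunctionFieldFull (M * q * q)))]
    [IsScalarTower A0 K0 ↥(laurentBaseChange K0 (modularFunctionFieldFull (M * q * q)))]
    (hqA : (q : K0) ∈ A0.nonunits)
    (c0 c1 : A0) (hc : ((c0 : K0) - (c1 : K0))⁻¹ ∈ A0) (hc' : (c0 : K0) ≠ (c1 : K0))
    (hQ0 : (aeval (c0 : K0) H.Q)⁻¹ ∈ A0) (hQ0n : aeval (c0 : K0) H.Q ≠ 0)
    (t' : ↥(laurentBaseChange K0 (modularFunctionFieldFull (M * q))))
    (ht' : (t' : LaurentSeries K0) = cinstU H K0 (c0 : K0) (c1 : K0))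
    (t : ↥(laurentBaseChange K0 (modularFunctionFieldFull (M * q * q))))
    (ht : (t : LaurentSeries K0) = cinstU H K0 (c0 : K0) (c1 : K0))
    (τ : A0) (hτ : Irreducible τ)
    (n : Ideal ↥(chtO A0 {t})) (hn : n.IsMaximal)
    (hτn : algebraMap A0 ↥(chtO A0 {t}) τ ∈ n) :
    S36cmBe A0 M q τ (chtO A0 {t}) n (chtO A0 {t'}) ∨
      S36cmBe A0 M q τ (chtO A0 {t}) n (chtO A0 {t'⁻¹}) := by
  rcases s36cm_be_dom A0 M q hM H ha2 hqA c0 c1 hc hc' hQ0 hQ0n t' ht' t ht τ hτ n hn.isPrime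
    hτn with h | h
  · exact Or.inl (s36cm_be_of_dom A0 M q t' t τ hτ n hn hτn h)
  · exact Or.inr (s36cm_be_of_dom A0 M q t'⁻¹ t τ hτ n hn hτn h)

include ha2 hM in
/-- **CHART-MAP along `β₁`, both charts of level `M q²`** (hypotheses in the shape of
`dmi_dom`). -/
theorem s36cm_be_both
    [Algebra A0 ↥(laurentBaseChange K0 (modularFunctionFieldFull (M * q)))]
    [IsScalarTower A0 K0 ↥(laurentBaseChange K0 (modularFunctionFieldFull (M * q)))]
    [Algebra A0 ↥(laurentBaseChange K0 (modularFunctionFieldFull (M * q * q)))]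
    [IsScalarTower A0 K0 ↥(laurentBaseChange K0 (modularFunctionFieldFull (M * q * q)))]
    (hqA : (q : K0) ∈ A0.nonunits)
    (c0 c1 : A0) (hc : IsLocalRing.residue A0 c0 ≠ IsLocalRing.residue A0 c1)
    (hQ0 : smi2U A0 (aeval (c0 : K0) H.Qrad)) (hQ1 : smi2U A0 (aeval (c1 : K0) H.Qrad))
    (t' : ↥(laurentBaseChange K0 (modularFunctionFieldFull (M * q))))
    (ht' : (t' : LaurentSeries K0) = cinstU H K0 (c0 : K0) (c1 : K0))
    (t : ↥(laurentBaseChange K0 (modularFunctionFieldFull (M * q * q))))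
    (ht : (t : LaurentSeries K0) = cinstU H K0 (c0 : K0) (c1 : K0))
    (τ : A0) (hτ : Irreducible τ) :
    (∀ n : Ideal ↥(chtO A0 {t}), n.IsMaximal → algebraMap A0 ↥(chtO A0 {t}) τ ∈ n →
      S36cmBe A0 M q τ (chtO A0 {t}) n (chtO A0 {t'}) ∨
        S36cmBe A0 M q τ (chtO A0 {t}) n (chtO A0 {t'⁻¹})) ∧
    (∀ n : Ideal ↥(chtO A0 {t⁻¹}), n.IsMaximal → algebraMap A0 ↥(chtO A0 {t⁻¹}) τ ∈ n →
      S36cmBe A0 M q τ (chtO A0 {t⁻¹}) n (chtO A0 {t'}) ∨
        S36cmBe A0 M q τ (chtO A0 {t⁻¹}) n (chtO A0 {t'⁻¹})) := by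
  obtain ⟨h0, h1⟩ := s36cm_be_dom_both A0 M q hM H ha2 hqA c0 c1 hc hQ0 hQ1 t' ht' t ht τ hτ
  refine ⟨fun n hn hτn => ?_, fun n hn hτn => ?_⟩
  · rcases h0 n hn.isPrime hτn with h | h
    · exact Or.inl (s36cm_be_of_dom A0 M q t' t τ hτ n hn hτn h)
    · exact Or.inr (s36cm_be_of_dom A0 M q t'⁻¹ t τ hτ n hn hτn h)
  · rcases h1 n hn.isPrime hτn with h | h
    · exact Or.inl (s36cm_be_of_dom A0 M q t' t⁻¹ τ hτ n hn hτn h)
    · exact Or.inr (s36cm_be_of_dom A0 M q t'⁻¹ t⁻¹ τ hτ n hn hτn h)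

end Carrier

end Fermat.Agent.S36
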