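import Mathlib
import Fermat.Agent.S34.DomInst
import Fermat.Agent.S36.Val3Swap

/-!
# S36, [SWAP-DOM]: swap domination for the Hauptmodul charts of level `M q²`

`K0` a field with `[Algebra ℚ K0] [Algebra K0 ℚ̄]`, `A0` a discrete valuation subring of `K0` over
the prime `q ∤ M`, `F₂` the level-`M q²` function field over `K0`, `H` a Hauptmodul record of
level `a2 ∣ M`, `t = (h - c1) / (h - c0)` the chart coordinate (`c0, c1 ∈ A0` with distinct
residues, `Qrad(c0)`, `Qrad(c1)` units of `A0`), `w₂ = s36v3Swap M q hM K0` the swap of level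
`M q²` (`j(t) ↔ j(t^{q²})`, `j(t^q)` fixed).

* `s36sw_abs`: the abstract form of DOM (`S34.dma_main`) for a chain `j → j₁ → j_q` of two
  modular correspondences;
* `s36sw_map_rel`: transport of a relation `Φ(a, b) = 0` along a ring homomorphism;
* `s36sw_swap_J`, `s36sw_rel01`, `s36sw_rel12`, `s36sw_relq`, `s36sw_swap_t`: the elements;
* `s36sw_dom_aux`: at every prime `𝔫` of the chart `chtO A0 {t}` containing `τ`, `w₂ t` or
  `(w₂ t)⁻¹` lies in the local ring at `𝔫`;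
* `s36sw_dom`: both charts (the shape of `S34.dmi_dom`, one level up);
* `s36sw_dom_loc`, `s36sw_dom_loc_inv`: `w₂` maps one of the two charts into the local ring at
  `𝔫` (`dmaLoc`).
-/

set_option autoImplicit false
set_option linter.unusedSectionVars false

noncomputable section

open AlgebraicCurve ModularCurve Polynomial
open Fermat.Agent.S18 Fermat.Agent.S37 Fermat.Agent.S24 Fermat.Agent.S28 Fermat.Agent.S34

namespace Fermat.Agent.S36

local notation "Qb" => AlgebraicClosure ℚ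

/-! ### The abstract two-step form -/

section Abs

variable {A F : Type*} [CommRing A] [Field F] [Algebra A F]
  (O : Subalgebra A F) (n : Ideal O) [n.IsPrime]

/-- **DOM, abstract form, for a chain of two correspondences** `j → j₁ → j_q`.  At every prime
`n` of an integrally closed chart `O` containing the residue characteristic `ℓ`, the swapped
chart coordinate `T = (h_q - c₁)/(h_q - c₀)` or its inverse lies in the local ring `O_n`. -/
theorem s36sw_abs (hint : ∀ x : F, IsIntegral O x → x ∈ O) (ℓ : ℕ) (hℓ : (ℓ : O) ∈ n)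
    (P Q U V W : ℤ[X]) (hP : P.Monic) (hdeg : Q.natDegree < P.natDegree)
    (hUV : U * P + V * Q = 1 + C (ℓ : ℤ) * W)
    (h hq j j1 jq c0 c1 : F) (hj0 : j ≠ 0) (hj10 : j1 ≠ 0) (hjq0 : jq ≠ 0)
    (hrel : j * aeval h Q = aeval h P) (hrelq : jq * aeval hq Q = aeval hq P)
    (Φ1 Φ1' Φ2 Φ2' : ℤ[X][X]) (hΦ1 : Φ1.Monic)
    (hΦ10 : Φ1.eval₂ ((aeval j : ℤ[X] →ₐ[ℤ] F).toRingHom) j1 = 0) (hΦ1' : Φ1'.Monic)
    (hΦ1'0 : Φ1'.eval₂ ((aeval j1 : ℤ[X] →ₐ[ℤ] F).toRingHom) j = 0) (hΦ2 : Φ2.Monic)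
    (hΦ20 : Φ2.eval₂ ((aeval j1 : ℤ[X] →ₐ[ℤ] F).toRingHom) jq = 0) (hΦ2' : Φ2'.Monic)
    (hΦ2'0 : Φ2'.eval₂ ((aeval jq : ℤ[X] →ₐ[ℤ] F).toRingHom) j1 = 0)
    (hc0 : c0 ∈ O) (hc1 : c1 ∈ O) (hc01 : (c0 - c1)⁻¹ ∈ O) (hc : c0 ≠ c1)
    (hQ0 : (aeval c0 Q)⁻¹ ∈ O) (hQ0' : aeval c0 Q ≠ 0)
    (hh : h ≠ c0) (hhq0 : hq ≠ c0) (ht : (h - c1) / (h - c0) ∈ O) :
    (∃ a s : O, s ∉ n ∧ (hq - c1) / (hq - c0) * (s : F) = a) ∨
      (∃ a s : O, s ∉ n ∧ ((hq - c1) / (hq - c0))⁻¹ * (s : F) = a) := by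
  have hc0S := dma_of_mem O n hc0
  have hc1S := dma_of_mem O n hc1
  have hc' : c0 - c1 ≠ 0 := sub_ne_zero.mpr hc
  have hd0 : hq - c0 ≠ 0 := sub_ne_zero.mpr hhq0
  rcases dma_j_dichotomy O n ℓ hℓ P Q U V W hP hdeg hUV hj0 hrel hc0 hc1 hc01 hc hh ht
    with hj | hj
  · -- `j ∈ O_n`
    have hj1 : j1 ∈ dmaLoc O n := dma_mem_of_rel O n hint hj Φ1 hΦ1 hΦ10
    have hhq : hq ∈ dmaLoc O n := dma_hq_mem O n hint P Q hP hdeg hrelq Φ2 hΦ2 hΦ20 hj1
    have h0S : hq - c0 ∈ dmaLoc O n := (dmaLoc O n).sub_mem hhq hc0S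
    have h1S : hq - c1 ∈ dmaLoc O n := (dmaLoc O n).sub_mem hhq hc1S
    by_cases h0 : hq - c0 ∈ dmaMax O n
    · right
      have h1 : hq - c1 ∉ dmaMax O n := by
        intro h1
        have h2 : c0 - c1 ∈ dmaMax O n := by
          have := (dmaMax O n).sub_mem h1 h0
          rwa [show hq - c1 - (hq - c0) = c0 - c1 by ring] at this
        have h3 := dma_max_mul O n (dma_of_mem O n hc01) h2
        rw [inv_mul_cancel₀ hc'] at h3
        exact dma_one_notMem_max O n h3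
      have hinv := dma_inv_mem O n h1S h1
      have hmem : ((hq - c1) / (hq - c0))⁻¹ ∈ dmaLoc O n := by
        rw [inv_div, div_eq_mul_inv]
        exact (dmaLoc O n).mul_mem h0S hinv
      exact hmem
    · left
      have hinv := dma_inv_mem O n h0S h0
      have hmem : (hq - c1) / (hq - c0) ∈ dmaLoc O n := by
        rw [div_eq_mul_inv]
        exact (dmaLoc O n).mul_mem h1S hinv
      exact hmem
  · -- `1/j ∈ n O_n`
    left
    have hv1 : j1⁻¹ ∈ dmaMax O n := dma_cusp_swap O n hint hj0 hj10 hj Φ1' hΦ1' hΦ1'0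
    have hv : jq⁻¹ ∈ dmaMax O n := dma_cusp_swap O n hint hj10 hjq0 hv1 Φ2' hΦ2' hΦ2'0
    let v' : dmaLoc O n := ⟨jq⁻¹, dma_max_le O n hv⟩
    let c0' : dmaLoc O n := ⟨c0, hc0S⟩
    let G : (dmaLoc O n)[X] := (C v' * P.map (Int.castRingHom (dmaLoc O n))
      - Q.map (Int.castRingHom (dmaLoc O n))).comp (X + C c0')
    have hev : ∀ y : F, eval₂ (dmaLoc O n).subtype y G
        = jq⁻¹ * aeval (y + c0) P - aeval (y + c0) Q := by
      intro y
      show eval₂ (dmaLoc O n).subtype y ((C v' * P.map (Int.castRingHom (dmaLoc O n))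
        - Q.map (Int.castRingHom (dmaLoc O n))).comp (X + C c0')) = _
      rw [eval₂_comp, eval₂_add, eval₂_X, eval₂_C, eval₂_sub, eval₂_mul, eval₂_C,
        dma_eval₂_map, dma_eval₂_map]
      rfl
    have hG : eval₂ (dmaLoc O n).subtype (hq - c0) G = 0 := by
      rw [hev, sub_add_cancel, ← hrelq]
      field_simp
      ring
    have hu : eval₂ (dmaLoc O n).subtype 0 G ∉ dmaMax O n := by
      rw [hev, zero_add]
      intro hmem
      have h1 : jq⁻¹ * aeval c0 P ∈ dmaMax O n := by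
        rw [mul_comm]
        exact dma_max_mul O n (dma_aeval_mem O n hc0S P) hv
      have h2 : aeval c0 Q ∈ dmaMax O n := by
        have := (dmaMax O n).sub_mem h1 hmem
        rwa [sub_sub_cancel] at this
      have h3 := dma_max_mul O n (dma_of_mem O n hQ0) h2
      rw [inv_mul_cancel₀ hQ0'] at h3
      exact dma_one_notMem_max O n h3
    have hz : (hq - c0)⁻¹ ∈ dmaLoc O n := dma_inv_root O n hint G hd0 hG hu
    have hmem : (hq - c1) / (hq - c0) ∈ dmaLoc O n := by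
      have h1 : (hq - c1) / (hq - c0) = 1 + (c0 - c1) * (hq - c0)⁻¹ := by
        field_simp
        ring
      rw [h1]
      exact (dmaLoc O n).add_mem (dmaLoc O n).one_mem
        ((dmaLoc O n).mul_mem ((dmaLoc O n).sub_mem hc0S hc1S) hz)
    exact hmem

end Abs

/-- transport of a relation `Φ(a, b) = 0`, `Φ ∈ ℤ[X][Y]`, along a ring homomorphism -/
theorem s36sw_map_rel {R S : Type*} [CommRing R] [CommRing S] (φ : R →+* S)
    (Φ : ℤ[X][X]) (a b : R)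
    (h0 : Φ.eval₂ ((aeval a : ℤ[X] →ₐ[ℤ] R).toRingHom) b = 0) :
    Φ.eval₂ ((aeval (φ a) : ℤ[X] →ₐ[ℤ] S).toRingHom) (φ b) = 0 := by
  have h1 := congrArg φ h0
  rw [map_zero, Polynomial.hom_eval₂] at h1
  have e : φ.comp ((aeval a : ℤ[X] →ₐ[ℤ] R).toRingHom)
      = (aeval (φ a) : ℤ[X] →ₐ[ℤ] S).toRingHom := by
    refine Polynomial.ringHom_ext (fun c => ?_) ?_
    · simp
    · simp
  rwa [e] at h1

/-- a ring endomorphism `w` of `F` fixing `A` maps the chart `chtO A {u}` into the local ring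
`O_n` of an integrally closed chart `O` as soon as `w u ∈ O_n` -/
theorem s36sw_loc_abs {A F : Type*} [CommRing A] [Field F] [Algebra A F]
    (O : Subalgebra A F) (n : Ideal O) [n.IsPrime]
    (hint : ∀ x : F, IsIntegral O x → x ∈ O) (w : F →+* F)
    (hw : ∀ a : A, w (algebraMap A F a) = algebraMap A F a) (u : F)
    (hu : w u ∈ dmaLoc O n) (x : F) (hx : x ∈ chtO A {u}) : w x ∈ dmaLoc O n := by
  have hadj : ∀ c ∈ Algebra.adjoin A {u}, w c ∈ dmaLoc O n := by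
    intro c hc
    induction hc using Algebra.adjoin_induction with
    | mem y hy =>
      rw [Set.mem_singleton_iff.mp hy]
      exact hu
    | algebraMap a =>
      rw [hw]
      exact dma_of_mem O n (O.algebraMap_mem a)
    | add y z _ _ hy hz =>
      rw [map_add]
      exact (dmaLoc O n).add_mem hy hz
    | mul y z _ _ hy hz =>
      rw [map_mul]
      exact (dmaLoc O n).mul_mem hy hz
  let ψ : ↥(Algebra.adjoin A {u}) →+* ↥(dmaLoc O n) :=
    (w.comp (Algebra.adjoin A {u}).val.toRingHom).codRestrict (dmaLoc O n)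
      (fun c => hadj c c.2)
  obtain ⟨p, hp, hpx⟩ := cht_mem_iff.mp hx
  refine dma_ic O n hint ⟨p.map ψ, hp.map ψ, ?_⟩
  rw [eval₂_map]
  have e : (algebraMap ↥(dmaLoc O n) F).comp ψ
      = w.comp (algebraMap ↥(Algebra.adjoin A {u}) F) := by
    ext c
    rfl
  rw [e, ← Polynomial.hom_eval₂, hpx, map_zero]

/-! ### The elements of level `M q²` -/

section Main

variable (M q : ℕ) [NeZero M] [hq : Fact q.Prime] (hM : ¬ q ∣ M)
  (K0 : Type*) [Field K0] [Algebra ℚ K0] [Algebra K0 Qb]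
  (A0 : ValuationSubring K0) [IsDiscreteValuationRing ↥A0]
  {a2 : ℕ} (H : HauptRec a2 q)

/-- the swap `w₂` exchanges `j(t)` and `j(t^{q²})` -/
theorem s36sw_swap_J :
    s36v3Swap M q hM K0 (va2Jd K0 (M * q * q) 1 (one_dvd _))
      = va2Jd K0 (M * q * q) (q * q) (by rw [mul_assoc]; exact dvd_mul_left _ _) := by
  have e1 : va2Jd K0 (M * q * q) 1 (one_dvd _)
      = heckeAlphaBar K0 (M * q) q (va2Jd K0 (M * q) 1 (one_dvd _)) :=
    (s36d_alpha_jd (K0 := K0) (M * q) q 1 (one_dvd _) (one_dvd _)).symm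
  rw [e1, s36v3Swap_al, dmi_swap_J M q hq.out hM]
  exact s36d_beta_jd (K0 := K0) (M * q) q q (dvd_mul_left q M) _

include hM in
/-- the modular equation between `j(t)` and `j(t^q)` at level `M q²`, both directions -/
theorem s36sw_rel01 :
    ∃ Φ : ℤ[X][X], Φ.Monic ∧
      Φ.eval₂ ((aeval (va2Jd K0 (M * q * q) 1 (one_dvd _)) : ℤ[X] →ₐ[ℤ] ↥(laurentBaseChange K0 (modularFunctionFieldFull (M * q * q)))).toRingHom)
        (va2Jd K0 (M * q * q) q (dvd_mul_left q (M * q))) = 0 ∧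
      Φ.eval₂ ((aeval (va2Jd K0 (M * q * q) q (dvd_mul_left q (M * q))) :
          ℤ[X] →ₐ[ℤ] ↥(laurentBaseChange K0 (modularFunctionFieldFull (M * q * q)))).toRingHom)
        (va2Jd K0 (M * q * q) 1 (one_dvd _)) = 0 := by
  obtain ⟨Φ, hΦ, hΦ1, hΦ2⟩ := mqk_exists_poly M q hq.out hM K0
  have e1 : heckeAlphaBar K0 (M * q) q (va2Jd K0 (M * q) 1 (one_dvd _))
      = va2Jd K0 (M * q * q) 1 (one_dvd _) :=
    s36d_alpha_jd (K0 := K0) (M * q) q 1 (one_dvd _) (one_dvd _)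
  have e2 : heckeAlphaBar K0 (M * q) q (va2Jd K0 (M * q) q (dvd_mul_left q M))
      = va2Jd K0 (M * q * q) q (dvd_mul_left q (M * q)) :=
    s36d_alpha_jd (K0 := K0) (M * q) q q (dvd_mul_left q M) _
  refine ⟨Φ, hΦ, ?_, ?_⟩
  · have h := s36sw_map_rel (heckeAlphaBar K0 (M * q) q : _ →+* ↥(laurentBaseChange K0 (modularFunctionFieldFull (M * q * q)))) Φ _ _ hΦ1
    rw [RingHom.coe_coe, e1, e2] at h
    exact h
  · have h := s36sw_map_rel (heckeAlphaBar K0 (M * q) q : _ →+* ↥(laurentBaseChange K0 (modularFunctionFieldFull (M * q * q)))) Φ _ _ hΦ2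
    rw [RingHom.coe_coe, e1, e2] at h
    exact h

include hM in
/-- the modular equation between `j(t^q)` and `j(t^{q²})` at level `M q²`, both directions -/
theorem s36sw_rel12 :
    ∃ Φ : ℤ[X][X], Φ.Monic ∧
      Φ.eval₂ ((aeval (va2Jd K0 (M * q * q) q (dvd_mul_left q (M * q))) :
          ℤ[X] →ₐ[ℤ] ↥(laurentBaseChange K0 (modularFunctionFieldFull (M * q * q)))).toRingHom)
        (va2Jd K0 (M * q * q) (q * q) (by rw [mul_assoc]; exact dvd_mul_left _ _)) = 0 ∧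
      Φ.eval₂ ((aeval (va2Jd K0 (M * q * q) (q * q)
          (by rw [mul_assoc]; exact dvd_mul_left _ _)) : ℤ[X] →ₐ[ℤ] ↥(laurentBaseChange K0 (modularFunctionFieldFull (M * q * q)))).toRingHom)
        (va2Jd K0 (M * q * q) q (dvd_mul_left q (M * q))) = 0 := by
  obtain ⟨Φ, hΦ, hΦ1, hΦ2⟩ := mqk_exists_poly M q hq.out hM K0
  have e1 : heckeBetaBar K0 (M * q) q (va2Jd K0 (M * q) 1 (one_dvd _))
      = va2Jd K0 (M * q * q) q (dvd_mul_left q (M * q)) := by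
    rw [s36d_beta_jd (K0 := K0) (M * q) q 1 (one_dvd _)
      (by rw [mul_one]; exact dvd_mul_left q (M * q))]
    exact mqk_va2Jd_congr K0 (M * q * q) (mul_one q) _ _
  have e2 : heckeBetaBar K0 (M * q) q (va2Jd K0 (M * q) q (dvd_mul_left q M))
      = va2Jd K0 (M * q * q) (q * q) (by rw [mul_assoc]; exact dvd_mul_left _ _) :=
    s36d_beta_jd (K0 := K0) (M * q) q q (dvd_mul_left q M) _
  refine ⟨Φ, hΦ, ?_, ?_⟩
  · have h := s36sw_map_rel (heckeBetaBar K0 (M * q) q : _ →+* ↥(laurentBaseChange K0 (modularFunctionFieldFull (M * q * q)))) Φ _ _ hΦ1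
    rw [RingHom.coe_coe, e1, e2] at h
    exact h
  · have h := s36sw_map_rel (heckeBetaBar K0 (M * q) q : _ →+* ↥(laurentBaseChange K0 (modularFunctionFieldFull (M * q * q)))) Φ _ _ hΦ2
    rw [RingHom.coe_coe, e1, e2] at h
    exact h

/-- `j(t^{q²}) · Q(w₂ h) = P(w₂ h)` -/
theorem s36sw_relq (ha2 : a2 ∣ M) :
    va2Jd K0 (M * q * q) (q * q) (by rw [mul_assoc]; exact dvd_mul_left _ _) *
        aeval (s36v3Swap M q hM K0
          (dmiH K0 (M * q * q) H ((ha2.mul_right q).mul_right q))) H.Q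
      = aeval (s36v3Swap M q hM K0
          (dmiH K0 (M * q * q) H ((ha2.mul_right q).mul_right q))) H.P := by
  have h := congrArg (s36v3Swap M q hM K0)
    (dmi_rel K0 (M * q * q) H ((ha2.mul_right q).mul_right q))
  rwa [map_mul, s36sw_swap_J, dmi_map_aeval, dmi_map_aeval] at h

/-- the swap of the chart coordinate -/
theorem s36sw_swap_t (ha2 : a2 ∣ M) (c0 c1 : K0) (t : ↥(laurentBaseChange K0 (modularFunctionFieldFull (M * q * q))))
    (ht : (t : LaurentSeries K0) = cinstU H K0 c0 c1) :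
    s36v3Swap M q hM K0 t =
      (s36v3Swap M q hM K0 (dmiH K0 (M * q * q) H ((ha2.mul_right q).mul_right q))
          - algebraMap K0 _ c1) /
        (s36v3Swap M q hM K0 (dmiH K0 (M * q * q) H ((ha2.mul_right q).mul_right q))
          - algebraMap K0 _ c0) := by
  rw [dmi_t_eq K0 (M * q * q) H ((ha2.mul_right q).mul_right q) c0 c1 t ht, map_div₀, map_sub,
    map_sub, s36v3Swap_const, s36v3Swap_const]

/-- **Swap domination, one chart.** At every prime `𝔫` of the chart `chtO A0 {t}` of level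
`M q²`, `t = (h - c1) / (h - c0)`, lying over the residue characteristic `q`, the swapped
coordinate `w₂ t` or its inverse is regular. -/
theorem s36sw_dom_aux (ha2 : a2 ∣ M) (hA0 : A0.LiesOverPrime q)
    [Algebra A0 ↥(laurentBaseChange K0 (modularFunctionFieldFull (M * q * q)))] [IsScalarTower A0 K0 ↥(laurentBaseChange K0 (modularFunctionFieldFull (M * q * q)))]
    (c0 c1 : A0) (hc : ((c0 : K0) - (c1 : K0))⁻¹ ∈ A0) (hc' : (c0 : K0) ≠ (c1 : K0))
    (hQ0 : (aeval (c0 : K0) H.Q)⁻¹ ∈ A0) (hQ0n : aeval (c0 : K0) H.Q ≠ 0)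
    (t : ↥(laurentBaseChange K0 (modularFunctionFieldFull (M * q * q)))) (ht : (t : LaurentSeries K0) = cinstU H K0 (c0 : K0) (c1 : K0))
    (τ : A0) (hτ : Irreducible τ)
    (𝔫 : Ideal ↥(chtO A0 {t})) [𝔫.IsPrime]
    (hτ𝔫 : algebraMap A0 ↥(chtO A0 {t}) τ ∈ 𝔫) :
    (∃ a s : ↥(chtO A0 {t}), s ∉ 𝔫 ∧ s36v3Swap M q hM K0 t * (s : ↥(laurentBaseChange K0 (modularFunctionFieldFull (M * q * q)))) = a) ∨
    (∃ a s : ↥(chtO A0 {t}), s ∉ 𝔫 ∧ (s36v3Swap M q hM K0 t)⁻¹ * (s : ↥(laurentBaseChange K0 (modularFunctionFieldFull (M * q * q)))) = a) := by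
  classical
  obtain ⟨U, V, W, hUV⟩ := dmi_bezout H.P H.Q H.coprime_mod
  obtain ⟨Φ1, hΦ1, hΦ11, hΦ12⟩ := s36sw_rel01 M q hM K0
  obtain ⟨Φ2, hΦ2, hΦ21, hΦ22⟩ := s36sw_rel12 M q hM K0
  -- `q ∈ 𝔫`
  have hq𝔫 : ((q : ℕ) : ↥(chtO A0 {t})) ∈ 𝔫 := by
    have h1 : ((q : A0) : K0) ∈ A0.nonunits := by
      have h0 : ((q : ℕ) : K0) ∈ A0.nonunits := hA0
      simpa using h0
    rw [ValuationSubring.coe_mem_nonunits_iff, hτ.maximalIdeal_eq,
      Ideal.mem_span_singleton] at h1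
    obtain ⟨a, ha⟩ := h1
    have h2 : ((q : ℕ) : ↥(chtO A0 {t})) = algebraMap A0 ↥(chtO A0 {t}) τ *
        algebraMap A0 ↥(chtO A0 {t}) a := by
      rw [← map_mul, ← ha, map_natCast]
    rw [h2]
    exact 𝔫.mul_mem_right _ hτ𝔫
  set hF := dmiH K0 (M * q * q) H ((ha2.mul_right q).mul_right q) with hhF
  have hwinj : Function.Injective (s36v3Swap M q hM K0) := (s36v3Swap M q hM K0).injective
  have hne : ∀ c : K0, s36v3Swap M q hM K0 hF ≠ algebraMap K0 ↥(laurentBaseChange K0 (modularFunctionFieldFull (M * q * q))) c := by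
    intro c h0
    rw [← s36v3Swap_const M q hM K0 c] at h0
    exact dmiH_sub_ne K0 (M * q * q) H ((ha2.mul_right q).mul_right q) c (hwinj h0)
  have hc01 : (algebraMap K0 ↥(laurentBaseChange K0 (modularFunctionFieldFull (M * q * q))) (c0 : K0) - algebraMap K0 _ (c1 : K0))⁻¹ ∈ chtO A0 {t} := by
    rw [← map_sub, ← map_inv₀]
    exact dmi_const_mem A0 _ hc
  have hQ0' : (aeval (algebraMap K0 ↥(laurentBaseChange K0 (modularFunctionFieldFull (M * q * q))) (c0 : K0)) H.Q)⁻¹ ∈ chtO A0 {t} := by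
    rw [← dmi_map_aeval, ← map_inv₀]
    exact dmi_const_mem A0 _ hQ0
  have htO : (hF - algebraMap K0 _ (c1 : K0)) / (hF - algebraMap K0 _ (c0 : K0)) ∈
      chtO A0 {t} := by
    rw [← dmi_t_eq K0 (M * q * q) H ((ha2.mul_right q).mul_right q) (c0 : K0) (c1 : K0) t ht]
    exact (cht_h1 t).1
  have hcF : algebraMap K0 ↥(laurentBaseChange K0 (modularFunctionFieldFull (M * q * q))) (c0 : K0) ≠ algebraMap K0 _ (c1 : K0) :=
    (algebraMap K0 _).injective.ne hc'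
  have hQ0n' : aeval (algebraMap K0 ↥(laurentBaseChange K0 (modularFunctionFieldFull (M * q * q))) (c0 : K0)) H.Q ≠ 0 := by
    rw [← dmi_map_aeval]
    exact (_root_.map_ne_zero _).mpr hQ0n
  have key := s36sw_abs (chtO A0 {t}) 𝔫 (fun x hx => cht_integral_closed {t} hx) q hq𝔫
    H.P H.Q U V W H.P_monic (by rw [H.natDegree_P]; exact H.natDegree_Q) hUV
    hF (s36v3Swap M q hM K0 hF) (va2Jd K0 (M * q * q) 1 (one_dvd _))
    (va2Jd K0 (M * q * q) q (dvd_mul_left q (M * q)))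
    (va2Jd K0 (M * q * q) (q * q) (by rw [mul_assoc]; exact dvd_mul_left _ _))
    (algebraMap K0 _ (c0 : K0)) (algebraMap K0 _ (c1 : K0))
    (dmi_jd_ne_zero K0 (M * q * q) 1 _) (dmi_jd_ne_zero K0 (M * q * q) q _)
    (dmi_jd_ne_zero K0 (M * q * q) (q * q) _)
    (dmi_rel K0 (M * q * q) H ((ha2.mul_right q).mul_right q)) (s36sw_relq M q hM K0 H ha2)
    Φ1 Φ1 Φ2 Φ2 hΦ1 hΦ11 hΦ1 hΦ12 hΦ2 hΦ21 hΦ2 hΦ22
    (dmi_const_mem A0 _ c0.2) (dmi_const_mem A0 _ c1.2) hc01 hcF hQ0' hQ0n'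
    (dmiH_sub_ne K0 (M * q * q) H ((ha2.mul_right q).mul_right q) _) (hne _) htO
  rw [← s36sw_swap_t M q hM K0 H ha2 (c0 : K0) (c1 : K0) t ht] at key
  exact key

/-- **Swap domination (SWAP-DOM) for the two Hauptmodul charts of level `M q²`**: at every prime
of either chart containing `τ`, `w₂ t` or `(w₂ t)⁻¹` lies in the local ring (fraction form). -/
theorem s36sw_dom (ha2 : a2 ∣ M) (hA0 : A0.LiesOverPrime q)
    [Algebra A0 ↥(laurentBaseChange K0 (modularFunctionFieldFull (M * q * q)))] [IsScalarTower A0 K0 ↥(laurentBaseChange K0 (modularFunctionFieldFull (M * q * q)))]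
    (c0 c1 : A0) (hc : IsLocalRing.residue A0 c0 ≠ IsLocalRing.residue A0 c1)
    (hQ0 : smi2U A0 (aeval (c0 : K0) H.Qrad)) (hQ1 : smi2U A0 (aeval (c1 : K0) H.Qrad))
    (t : ↥(laurentBaseChange K0 (modularFunctionFieldFull (M * q * q)))) (ht : (t : LaurentSeries K0) = cinstU H K0 (c0 : K0) (c1 : K0))
    (τ : A0) (hτ : Irreducible τ) :
    (∀ 𝔫 : Ideal ↥(chtO A0 {t}), 𝔫.IsPrime →
      algebraMap A0 ↥(chtO A0 {t}) τ ∈ 𝔫 →
      (∃ a s : ↥(chtO A0 {t}), s ∉ 𝔫 ∧ s36v3Swap M q hM K0 t * (s : ↥(laurentBaseChange K0 (modularFunctionFieldFull (M * q * q)))) = a) ∨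
      (∃ a s : ↥(chtO A0 {t}), s ∉ 𝔫 ∧ (s36v3Swap M q hM K0 t)⁻¹ * (s : ↥(laurentBaseChange K0 (modularFunctionFieldFull (M * q * q)))) = a)) ∧
    (∀ 𝔫 : Ideal ↥(chtO A0 {t⁻¹}), 𝔫.IsPrime →
      algebraMap A0 ↥(chtO A0 {t⁻¹}) τ ∈ 𝔫 →
      (∃ a s : ↥(chtO A0 {t⁻¹}), s ∉ 𝔫 ∧ s36v3Swap M q hM K0 t * (s : ↥(laurentBaseChange K0 (modularFunctionFieldFull (M * q * q)))) = a) ∨
      (∃ a s : ↥(chtO A0 {t⁻¹}), s ∉ 𝔫 ∧ (s36v3Swap M q hM K0 t)⁻¹ * (s : ↥(laurentBaseChange K0 (modularFunctionFieldFull (M * q * q)))) = a)) := by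
  have hc : smi2U A0 ((c0 : K0) - (c1 : K0)) := by
    have h : IsLocalRing.residue A0 (c0 - c1) ≠ 0 := by
      rw [map_sub, sub_ne_zero]
      exact hc
    exact smi2U_of_residue_ne_zero h
  refine ⟨fun 𝔫 h𝔫 hτ𝔫 => ?_, fun 𝔫 h𝔫 hτ𝔫 => ?_⟩
  · exact s36sw_dom_aux M q hM K0 A0 H ha2 hA0 c0 c1 hc.2.2 (sub_ne_zero.mp hc.2.1)
      (smi2_Q_unit H A0 c0.2 hQ0).2.2 (smi2_Q_unit H A0 c0.2 hQ0).2.1 t ht τ hτ 𝔫 hτ𝔫
  · have ht' : ((t⁻¹ : ↥(laurentBaseChange K0 (modularFunctionFieldFull (M * q * q)))) : LaurentSeries K0) = cinstU H K0 (c1 : K0) (c0 : K0) := by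
      rw [IntermediateField.coe_inv, ht, cinstU_inv]
    have hc' : ((c1 : K0) - (c0 : K0))⁻¹ ∈ A0 := by
      have h1 : ((c1 : K0) - (c0 : K0))⁻¹ = -((c0 : K0) - (c1 : K0))⁻¹ := by
        rw [← neg_sub, neg_inv]
      rw [h1]
      exact neg_mem hc.2.2
    have key := s36sw_dom_aux M q hM K0 A0 H ha2 hA0 c1 c0 hc' (sub_ne_zero.mp hc.2.1).symm
      (smi2_Q_unit H A0 c1.2 hQ1).2.2 (smi2_Q_unit H A0 c1.2 hQ1).2.1 t⁻¹ ht' τ hτ 𝔫 hτ𝔫
    rw [map_inv₀, inv_inv] at key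
    exact key.symm

/-- **Swap domination, local-ring form**: at every prime `𝔫 ∋ τ` of either chart `O` of level
`M q²`, the swap `w₂` maps one of the two charts into the local ring `O_𝔫`. -/
theorem s36sw_dom_loc (ha2 : a2 ∣ M) (hA0 : A0.LiesOverPrime q)
    [Algebra A0 ↥(laurentBaseChange K0 (modularFunctionFieldFull (M * q * q)))] [IsScalarTower A0 K0 ↥(laurentBaseChange K0 (modularFunctionFieldFull (M * q * q)))]
    (c0 c1 : A0) (hc : IsLocalRing.residue A0 c0 ≠ IsLocalRing.residue A0 c1)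
    (hQ0 : smi2U A0 (aeval (c0 : K0) H.Qrad)) (hQ1 : smi2U A0 (aeval (c1 : K0) H.Qrad))
    (t : ↥(laurentBaseChange K0 (modularFunctionFieldFull (M * q * q)))) (ht : (t : LaurentSeries K0) = cinstU H K0 (c0 : K0) (c1 : K0))
    (τ : A0) (hτ : Irreducible τ) :
    (∀ (𝔫 : Ideal ↥(chtO A0 {t})) [𝔫.IsPrime], algebraMap A0 ↥(chtO A0 {t}) τ ∈ 𝔫 →
      (∀ x ∈ chtO A0 {t}, s36v3Swap M q hM K0 x ∈ dmaLoc (chtO A0 {t}) 𝔫) ∨
      (∀ x ∈ chtO A0 {t⁻¹}, s36v3Swap M q hM K0 x ∈ dmaLoc (chtO A0 {t}) 𝔫)) ∧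
    (∀ (𝔫 : Ideal ↥(chtO A0 {t⁻¹})) [𝔫.IsPrime], algebraMap A0 ↥(chtO A0 {t⁻¹}) τ ∈ 𝔫 →
      (∀ x ∈ chtO A0 {t}, s36v3Swap M q hM K0 x ∈ dmaLoc (chtO A0 {t⁻¹}) 𝔫) ∨
      (∀ x ∈ chtO A0 {t⁻¹}, s36v3Swap M q hM K0 x ∈ dmaLoc (chtO A0 {t⁻¹}) 𝔫)) := by
  have hw : ∀ a : A0, s36v3Swap M q hM K0 (algebraMap A0 ↥(laurentBaseChange K0 (modularFunctionFieldFull (M * q * q))) a) = algebraMap A0 ↥(laurentBaseChange K0 (modularFunctionFieldFull (M * q * q))) a := by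
    intro a
    rw [IsScalarTower.algebraMap_apply A0 K0 ↥(laurentBaseChange K0 (modularFunctionFieldFull (M * q * q))), s36v3Swap_const]
  obtain ⟨h0, h1⟩ := s36sw_dom M q hM K0 A0 H ha2 hA0 c0 c1 hc hQ0 hQ1 t ht τ hτ
  refine ⟨fun 𝔫 _ hτ𝔫 => ?_, fun 𝔫 _ hτ𝔫 => ?_⟩
  · rcases h0 𝔫 inferInstance hτ𝔫 with h | h
    · exact Or.inl fun x hx => s36sw_loc_abs (chtO A0 {t}) 𝔫
        (fun x hx => cht_integral_closed {t} hx) (s36v3Swap M q hM K0) hw t h x hx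
    · refine Or.inr fun x hx => s36sw_loc_abs (chtO A0 {t}) 𝔫
        (fun x hx => cht_integral_closed {t} hx) (s36v3Swap M q hM K0) hw t⁻¹ ?_ x hx
      rw [map_inv₀]
      exact h
  · rcases h1 𝔫 inferInstance hτ𝔫 with h | h
    · exact Or.inl fun x hx => s36sw_loc_abs (chtO A0 {t⁻¹}) 𝔫
        (fun x hx => cht_integral_closed {t⁻¹} hx) (s36v3Swap M q hM K0) hw t h x hx
    · refine Or.inr fun x hx => s36sw_loc_abs (chtO A0 {t⁻¹}) 𝔫
        (fun x hx => cht_integral_closed {t⁻¹} hx) (s36v3Swap M q hM K0) hw t⁻¹ ?_ x hx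
      rw [map_inv₀]
      exact h

end Main

end Fermat.Agent.S36
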