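import Fermat.Agent.S36.Val3Fin

/-!
# S36, package VAL3: the swap `w₂` on the three valuation rings

Carrier as in `Val3Def`/`Val3Fin`: `W_a = s36v3Wa`, `W_b = s36v3Wb = W_a.comap w₂`,
`W_c = s36v3Wc`, `w₂ = s36v3Swap`.

* `s36vw_Wc_ne_Wa`, `s36vw_Wc_ne_Wb`: `W_c` is neither `W_a` nor `W_b` (the element `z_j` is a
  non-unit of `W_c` and a unit of `W_a`, `W_b`);
* `s36vw_Wc_swap`: **`W_c.comap w₂ = W_c`** (exhaustion over `V₁` via `al` + the table);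
* `s36vw_Wb_swap`: `W_b.comap w₂ = W_a`; `s36vw_Wa_swap`: `W_a.comap w₂ = W_b`;
* element forms: `s36vw_mem_Wc`, `s36vw_nu_Wc` (`w₂ x ∈ W_c ↔ x ∈ W_c`, same for non-units),
  `s36vw_mem_Wa`, `s36vw_nu_Wa` (`w₂ x ∈ W_a ↔ x ∈ W_b`), `s36vw_mem_Wb`, `s36vw_nu_Wb`
  (`w₂ x ∈ W_b ↔ x ∈ W_a`).
-/

set_option autoImplicit false
set_option linter.style.haveILetI false
set_option linter.unusedSectionVars false

open AlgebraicCurve ModularCurve Fermat.Agent.S18 Fermat.Agent.S34 Fermat.Agent.S35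
  Fermat.Agent.S37

namespace Fermat.Agent.S36

local notation "Qb" => AlgebraicClosure ℚ

/-- an element with inverse in `V` is not a non-unit of `V` -/
theorem s36vw_not_nu {F : Type*} [Field F] (V : ValuationSubring F) {x : F} (hx0 : x ≠ 0)
    (hx' : x⁻¹ ∈ V) : x ∉ V.nonunits := by
  intro h
  rw [ValuationSubring.mem_nonunits_iff] at h
  have h1 : V.valuation x⁻¹ ≤ 1 := (V.valuation_le_one_iff _).mpr hx'
  have h2 : V.valuation x * V.valuation x⁻¹ = 1 := by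
    rw [← map_mul, mul_inv_cancel₀ hx0, map_one]
  have h3 : V.valuation x * V.valuation x⁻¹ < 1 := by
    calc V.valuation x * V.valuation x⁻¹ ≤ V.valuation x * 1 := by gcongr
      _ = V.valuation x := mul_one _
      _ < 1 := h
  exact absurd h2 h3.ne

section Carrier

variable (M q : ℕ) [NeZero M] [hq : Fact q.Prime] (hM : ¬ q ∣ M)
  (K0 : Type*) [Field K0] [Algebra ℚ K0] [Algebra K0 Qb]
  (A0 : ValuationSubring K0) [IsDiscreteValuationRing ↥A0]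

/-- `W_c ≠ W_a` -/
theorem s36vw_Wc_ne_Wa (hA0 : A0.LiesOverPrime q) :
    s36v3Wc M q hM K0 A0 ≠ s36v3Wa M q K0 A0 := by
  intro h
  have hf := s36v3_j_coe M K0
  obtain ⟨hzc, -, -⟩ := s36v3_z_Wc M q hM K0 A0 hA0 (grJ K0 M) (jqModC ℤ) hf s36v3_jlead
  obtain ⟨-, hza'⟩ := s36v3_z_Wa M q K0 A0 (grJ K0 M) (jqModC ℤ) hf s36v3_jlead
  rw [h] at hzc
  exact s36vw_not_nu _ (s36v3_z_ne_zero M q K0 _ _ hf s36v3_jlead) hza' hzc

/-- `W_c ≠ W_b` -/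
theorem s36vw_Wc_ne_Wb (hA0 : A0.LiesOverPrime q) :
    s36v3Wc M q hM K0 A0 ≠ s36v3Wb M q hM K0 A0 := by
  intro h
  have hf := s36v3_j_coe M K0
  obtain ⟨hzc, -, -⟩ := s36v3_z_Wc M q hM K0 A0 hA0 (grJ K0 M) (jqModC ℤ) hf s36v3_jlead
  obtain ⟨-, hzb'⟩ := s36v3_z_Wb M q hM K0 A0 (grJ K0 M) (jqModC ℤ) hf s36v3_jlead
  rw [h] at hzc
  exact s36vw_not_nu _ (s36v3_z_ne_zero M q K0 _ _ hf s36v3_jlead) hzb' hzc

/-- `W_a.comap w₂ = W_b` (definition) -/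
theorem s36vw_Wa_swap :
    (s36v3Wa M q K0 A0).comap (s36v3Swap M q hM K0) = s36v3Wb M q hM K0 A0 := rfl

/-- `W_b.comap w₂ = W_a` -/
theorem s36vw_Wb_swap :
    (s36v3Wb M q hM K0 A0).comap (s36v3Swap M q hM K0) = s36v3Wa M q K0 A0 := by
  ext x
  rw [ValuationSubring.mem_comap]
  exact s36v3_mem_Wa_swap M q hM K0 A0 x

/-- **the swap fixes `W_c`**: `W_c.comap w₂ = W_c` -/
theorem s36vw_Wc_swap (hA0 : A0.LiesOverPrime q)
    (hunr : ∀ x ∈ A0.nonunits, x * ((q : ℕ) : K0)⁻¹ ∈ A0) :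
    (s36v3Wc M q hM K0 A0).comap (s36v3Swap M q hM K0) = s36v3Wc M q hM K0 A0 := by
  have hW : ∀ x : ↥(laurentBaseChange K0 (modularFunctionFieldFull (M * q))),
      heckeAlphaBar K0 (M * q) q x ∈ (s36v3Wc M q hM K0 A0).comap (s36v3Swap M q hM K0) ↔
        x ∈ va2V1 M q K0 A0 := by
    intro x
    rw [ValuationSubring.mem_comap, s36v3Swap_al, s36v3_be_Wc M q hM K0 A0 hA0, mem_va2V2,
      va2Swap_swap]
  rcases s36v3_exh_al1 M q hM K0 A0 hA0 hunr _ hW with h | h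
  · exfalso
    apply s36vw_Wc_ne_Wb M q hM K0 A0 hA0
    ext x
    have h1 : s36v3Swap M q hM K0 x ∈
        (s36v3Wc M q hM K0 A0).comap (s36v3Swap M q hM K0) ↔
        s36v3Swap M q hM K0 x ∈ s36v3Wa M q K0 A0 := by rw [h]
    rw [ValuationSubring.mem_comap, s36v3Swap_swap] at h1
    rw [s36v3_mem_Wb]
    exact h1
  · exact h

/-- `w₂ x ∈ W_c ↔ x ∈ W_c` -/
theorem s36vw_mem_Wc (hA0 : A0.LiesOverPrime q)
    (hunr : ∀ x ∈ A0.nonunits, x * ((q : ℕ) : K0)⁻¹ ∈ A0)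
    (x : ↥(laurentBaseChange K0 (modularFunctionFieldFull (M * q * q)))) :
    s36v3Swap M q hM K0 x ∈ s36v3Wc M q hM K0 A0 ↔ x ∈ s36v3Wc M q hM K0 A0 := by
  conv_rhs => rw [← s36vw_Wc_swap M q hM K0 A0 hA0 hunr]
  rw [ValuationSubring.mem_comap]

/-- `w₂ x ∈ 𝔪_{W_c} ↔ x ∈ 𝔪_{W_c}` -/
theorem s36vw_nu_Wc (hA0 : A0.LiesOverPrime q)
    (hunr : ∀ x ∈ A0.nonunits, x * ((q : ℕ) : K0)⁻¹ ∈ A0)
    (x : ↥(laurentBaseChange K0 (modularFunctionFieldFull (M * q * q)))) :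
    s36v3Swap M q hM K0 x ∈ (s36v3Wc M q hM K0 A0).nonunits ↔
      x ∈ (s36v3Wc M q hM K0 A0).nonunits := by
  conv_rhs => rw [← s36vw_Wc_swap M q hM K0 A0 hA0 hunr]
  rw [va2x_comap_nonunits]

/-- `w₂ x ∈ W_a ↔ x ∈ W_b` -/
theorem s36vw_mem_Wa (x : ↥(laurentBaseChange K0 (modularFunctionFieldFull (M * q * q)))) :
    s36v3Swap M q hM K0 x ∈ s36v3Wa M q K0 A0 ↔ x ∈ s36v3Wb M q hM K0 A0 :=
  (s36v3_mem_Wb M q hM K0 A0 x).symm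

/-- `w₂ x ∈ 𝔪_{W_a} ↔ x ∈ 𝔪_{W_b}` -/
theorem s36vw_nu_Wa (x : ↥(laurentBaseChange K0 (modularFunctionFieldFull (M * q * q)))) :
    s36v3Swap M q hM K0 x ∈ (s36v3Wa M q K0 A0).nonunits ↔
      x ∈ (s36v3Wb M q hM K0 A0).nonunits := by
  rw [← s36vw_Wa_swap M q hM K0 A0, va2x_comap_nonunits]

/-- `w₂ x ∈ W_b ↔ x ∈ W_a` -/
theorem s36vw_mem_Wb (x : ↥(laurentBaseChange K0 (modularFunctionFieldFull (M * q * q)))) :
    s36v3Swap M q hM K0 x ∈ s36v3Wb M q hM K0 A0 ↔ x ∈ s36v3Wa M q K0 A0 :=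
  s36v3_mem_Wa_swap M q hM K0 A0 x

/-- `w₂ x ∈ 𝔪_{W_b} ↔ x ∈ 𝔪_{W_a}` -/
theorem s36vw_nu_Wb (x : ↥(laurentBaseChange K0 (modularFunctionFieldFull (M * q * q)))) :
    s36v3Swap M q hM K0 x ∈ (s36v3Wb M q hM K0 A0).nonunits ↔
      x ∈ (s36v3Wa M q K0 A0).nonunits := by
  rw [← s36vw_Wb_swap M q hM K0 A0, va2x_comap_nonunits]

end Carrier

end Fermat.Agent.S36
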