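import Mathlib
import Fermat.Agent.S36.ChartMap
import Fermat.Agent.S36.Val3Sw
import Fermat.Agent.S36.SwapDom
import Fermat.Agent.S36.Charts3

/-!
# S36 [PT-INST-SW]: the point-type clause `hac` of COMP3 by the swap

Charts `chtO A {t}`, `chtO A {t⁻¹}` of an `A`-field `F`, `w : F → F` an involution over `A`
(the swap `w₂` of level `M q²`) with one-sided domination at every closed point of the special
fibre (`w t ∈ O_n` or `(w t)⁻¹ ∈ O_n`: SWAP-DOM), three valuation rings with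
`w⁻¹ W_a = W_b`, `w⁻¹ W_b = W_a`, `w⁻¹ W_c = W_c`.

* `s36pn_coord_mem`: if the local ring of a chart `chtO A {v}` (`v ∈ {u, u⁻¹}`) at a prime is
  contained, with its maximal ideal, in the local ring of `chtO A {u}` at `n`, then `u` lies in
  the former local ring;
* `s36pn_swap_two`: **two-sided swap domination**: with `n''` the centre of `n` on the chart
  `chtO A {v}` (`w v ∈ O_n`, `s36cm_abs`), `w` maps the chart `chtO A {u}` into the local ring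
  at `n''`;
* `s36pn_hac_abs`: `thr W_a, thr W_c ⇒ thr W_b` at every closed point of both charts, from
  `thr W_b, thr W_c ⇒ thr W_a` (`hbc`) at every closed point of both charts;
* `s36pn_hac`: the carrier form at level `M q²`: binder `hac` of `s36k3_point` for both charts
  `chtO A0 {t}`, `chtO A0 {t⁻¹}`, `W_a = va2V1 (M q) q K0 A0`, `W_b = s36v3Wb`, `W_c = s36v3Wc`,
  `w = s36v3Swap`.
-/

set_option autoImplicit false
set_option linter.unusedSectionVars false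
set_option linter.style.haveILetI false

open AlgebraicCurve ModularCurve Polynomial
open Fermat.Agent.S18 Fermat.Agent.S37 Fermat.Agent.S24 Fermat.Agent.S28 Fermat.Agent.S34

namespace Fermat.Agent.S36

local notation "Qb" => AlgebraicClosure ℚ

/-! ### Abstract part -/

section Abs

variable {A F : Type*} [CommRing A] [Field F] [Algebra A F]

/-- a non-unit times an element of a valuation subring is a non-unit -/
theorem s36pn_nu_mul (V : ValuationSubring F) {x y : F} (hx : x ∈ V.nonunits) (hy : y ∈ V) :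
    x * y ∈ V.nonunits := by
  obtain ⟨hxV, hxm⟩ := ValuationSubring.mem_nonunits_iff_exists_mem_maximalIdeal.mp hx
  exact ValuationSubring.mem_nonunits_iff_exists_mem_maximalIdeal.mpr
    ⟨V.mul_mem _ _ hxV hy, Ideal.mul_mem_right (⟨y, hy⟩ : V) _ hxm⟩

/-- If the maximal ideal of the local ring of `chtO A {v}` at `n3` (`v = u` or `v = u⁻¹`) lies in
the maximal ideal of the local ring of `chtO A {u}` at `n`, then `u` lies in the local ring at
`n3`. -/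
theorem s36pn_coord_mem (u v : F) (huv : v = u ∨ v = u⁻¹)
    (n : Ideal ↥(chtO A {u})) [n.IsPrime] (n3 : Ideal ↥(chtO A {v})) [n3.IsPrime]
    (hmax : ∀ x : ↥(chtO A {v}), x ∈ n3 → (x : F) ∈ dmaMax (chtO A {u}) n) :
    u ∈ dmaLoc (chtO A {v}) n3 := by
  rcases huv with rfl | rfl
  · exact dma_of_mem _ _ (cht_h1 (A0 := A) v).1
  · by_cases hu0 : u = 0
    · have h0 : (0 : F) ∈ dmaLoc (chtO A {u⁻¹}) n3 := (dmaLoc (chtO A {u⁻¹}) n3).zero_mem
      convert h0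
    · have hmem : u⁻¹ ∈ chtO A {u⁻¹} := (cht_h1 (A0 := A) u).2
      refine ⟨1, ⟨u⁻¹, hmem⟩, fun h3 => ?_, ?_⟩
      · obtain ⟨a, s, ha, hs, h⟩ := hmax _ h3
        apply hs
        have hsa : s = (⟨u, (cht_h1 (A0 := A) u).1⟩ : ↥(chtO A {u})) * a := by
          apply Subtype.ext
          push_cast
          rw [← h]
          field_simp
        rw [hsa]
        exact n.mul_mem_left _ ha
      · push_cast
        exact mul_inv_cancel₀ hu0

/-- **Two-sided swap domination.**  `w` an involution of `F` over `A`, `t` a coordinate with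
one-sided domination at every closed point of the special fibre of both charts; `n` a closed
point of the chart `chtO A {u}`, `v` a coordinate with `w v ∈ O_n`.  Then there is a closed point
`n''` of `chtO A {v}` with all the clauses of `s36cm_abs` and, in addition, `w (chtO A {u})`
contained in the local ring at `n''`. -/
theorem s36pn_swap_two (τ : A) (hτA : ∀ a : A, a ∉ Ideal.span {τ} → IsUnit a)
    (w : F →+* F) (hww : ∀ x, w (w x) = x)
    (hwA : ∀ a : A, w (algebraMap A F a) = algebraMap A F a) (t : F)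
    (hdom : ∀ u : F, u = t ∨ u = t⁻¹ → ∀ n : Ideal ↥(chtO A {u}), n.IsMaximal →
      algebraMap A ↥(chtO A {u}) τ ∈ n →
      (∃ a s : ↥(chtO A {u}), s ∉ n ∧ w t * (s : F) = a) ∨
      (∃ a s : ↥(chtO A {u}), s ∉ n ∧ (w t)⁻¹ * (s : F) = a))
    (u : F) (hu : u = t ∨ u = t⁻¹) (n : Ideal ↥(chtO A {u})) (hn : n.IsMaximal)
    (hτn : algebraMap A ↥(chtO A {u}) τ ∈ n) :
    ∃ v : F, (v = t ∨ v = t⁻¹) ∧ ∃ n'' : Ideal ↥(chtO A {v}), n''.IsMaximal ∧
      algebraMap A ↥(chtO A {v}) τ ∈ n'' ∧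
      (∀ x : ↥(chtO A {v}), x ∈ n'' ↔
        ∃ a s : ↥(chtO A {u}), a ∈ n ∧ s ∉ n ∧ w (x : F) * (s : F) = a) ∧
      (∀ x : F, (∃ a s : ↥(chtO A {v}), s ∉ n'' ∧ x * (s : F) = a) →
        ∃ a s : ↥(chtO A {u}), s ∉ n ∧ w x * (s : F) = a) ∧
      (∀ W : ValuationSubring F, (∀ x ∈ chtO A {u}, x ∈ W) →
        (∀ x : ↥(chtO A {u}), (x : F) ∈ W.nonunits → x ∈ n) →
        ∀ x : ↥(chtO A {v}), w (x : F) ∈ W.nonunits → x ∈ n'') ∧
      (∀ y ∈ chtO A {u}, ∃ a s : ↥(chtO A {v}), s ∉ n'' ∧ w y * (s : F) = a) := by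
  haveI : n.IsPrime := hn.isPrime
  -- the coordinate `v` with `w v ∈ O_n`
  have hcoord : ∀ u' : F, u' = t ∨ u' = t⁻¹ → ∀ n' : Ideal ↥(chtO A {u'}), n'.IsMaximal →
      algebraMap A ↥(chtO A {u'}) τ ∈ n' →
      ∃ v : F, (v = t ∨ v = t⁻¹) ∧ ∃ a s : ↥(chtO A {u'}), s ∉ n' ∧ w v * (s : F) = a := by
    intro u' hu' n' hn' hτn'
    rcases hdom u' hu' n' hn' hτn' with h | h
    · exact ⟨t, Or.inl rfl, h⟩
    · refine ⟨t⁻¹, Or.inr rfl, ?_⟩
      rw [map_inv₀]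
      exact h
  obtain ⟨v, hv, hdv⟩ := hcoord u hu n hn hτn
  obtain ⟨n2, hn2, hτn2, hn2iff, hn2loc, hn2max, hn2thr⟩ :=
    s36cm_abs τ hτA w hwA u n hn hτn v hdv
  haveI : n2.IsPrime := hn2.isPrime
  refine ⟨v, hv, n2, hn2, hτn2, hn2iff, hn2loc, hn2thr, ?_⟩
  -- the second swap
  obtain ⟨v3, hv3, hdv3⟩ := hcoord v hv n2 hn2 hτn2
  obtain ⟨n3, hn3, -, hn3iff, hn3loc, -, -⟩ := s36cm_abs τ hτA w hwA v n2 hn2 hτn2 v3 hdv3
  haveI : n3.IsPrime := hn3.isPrime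
  have h31 : ∀ x : ↥(chtO A {v3}), x ∈ n3 → (x : F) ∈ dmaMax (chtO A {u}) n := by
    intro x hx
    have h2 := hn2max (w (x : F)) ((hn3iff x).mp hx)
    rw [hww] at h2
    exact h2
  have huv3 : v3 = u ∨ v3 = u⁻¹ := by
    rcases hu with rfl | rfl <;> rcases hv3 with rfl | rfl
    · exact Or.inl rfl
    · exact Or.inr rfl
    · exact Or.inr (inv_inv _).symm
    · exact Or.inl rfl
  have hu3 : u ∈ dmaLoc (chtO A {v3}) n3 := s36pn_coord_mem u v3 huv3 n n3 h31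
  intro y hy
  have hy3 : (RingHom.id F) y ∈ dmaLoc (chtO A {v3}) n3 :=
    s36cm_map_loc (A := A) (RingHom.id F) (fun a => rfl) (chtO A {v3}) n3
      (fun x hx => cht_integral_closed {v3} hx) u hu3 hy
  exact hn3loc y hy3

/-- **PT-INST-SW, abstract form**: `thr W_a, thr W_c ⇒ thr W_b` at every closed point of the
special fibre of both charts, from `thr W_b, thr W_c ⇒ thr W_a` at every such point. -/
theorem s36pn_hac_abs (τ : A) (hτA : ∀ a : A, a ∉ Ideal.span {τ} → IsUnit a)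
    (w : F →+* F) (hww : ∀ x, w (w x) = x)
    (hwA : ∀ a : A, w (algebraMap A F a) = algebraMap A F a) (t : F)
    (hdom : ∀ u : F, u = t ∨ u = t⁻¹ → ∀ n : Ideal ↥(chtO A {u}), n.IsMaximal →
      algebraMap A ↥(chtO A {u}) τ ∈ n →
      (∃ a s : ↥(chtO A {u}), s ∉ n ∧ w t * (s : F) = a) ∨
      (∃ a s : ↥(chtO A {u}), s ∉ n ∧ (w t)⁻¹ * (s : F) = a))
    (Wa Wb Wc : ValuationSubring F)
    (hOa : ∀ u : F, u = t ∨ u = t⁻¹ → ∀ x ∈ chtO A {u}, x ∈ Wa)
    (hOc : ∀ u : F, u = t ∨ u = t⁻¹ → ∀ x ∈ chtO A {u}, x ∈ Wc)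
    (hwa : ∀ x, w x ∈ Wa.nonunits ↔ x ∈ Wb.nonunits)
    (hwc : ∀ x, w x ∈ Wc.nonunits ↔ x ∈ Wc.nonunits)
    (hbc : ∀ u : F, u = t ∨ u = t⁻¹ → ∀ n : Ideal ↥(chtO A {u}), n.IsMaximal →
      algebraMap A ↥(chtO A {u}) τ ∈ n →
      (∀ x : ↥(chtO A {u}), (x : F) ∈ Wb.nonunits → x ∈ n) →
      (∀ x : ↥(chtO A {u}), (x : F) ∈ Wc.nonunits → x ∈ n) →
      ∀ x : ↥(chtO A {u}), (x : F) ∈ Wa.nonunits → x ∈ n)
    (u : F) (hu : u = t ∨ u = t⁻¹) (n : Ideal ↥(chtO A {u})) (hn : n.IsMaximal)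
    (hτn : algebraMap A ↥(chtO A {u}) τ ∈ n)
    (ha : ∀ x : ↥(chtO A {u}), (x : F) ∈ Wa.nonunits → x ∈ n)
    (hc : ∀ x : ↥(chtO A {u}), (x : F) ∈ Wc.nonunits → x ∈ n) :
    ∀ x : ↥(chtO A {u}), (x : F) ∈ Wb.nonunits → x ∈ n := by
  haveI hnp : n.IsPrime := hn.isPrime
  obtain ⟨v, hv, n2, hn2, hτn2, hn2iff, hn2loc, hn2thr, hwO⟩ :=
    s36pn_swap_two τ hτA w hww hwA t hdom u hu n hn hτn
  haveI : n2.IsPrime := hn2.isPrime
  -- `W_b`, `W_c` pass through the swapped point, hence so does `W_a`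
  have hb2 : ∀ x : ↥(chtO A {v}), (x : F) ∈ Wb.nonunits → x ∈ n2 := fun x hx =>
    hn2thr Wa (hOa u hu) ha x ((hwa _).mpr hx)
  have hc2 : ∀ x : ↥(chtO A {v}), (x : F) ∈ Wc.nonunits → x ∈ n2 := fun x hx =>
    hn2thr Wc (hOc u hu) hc x ((hwc _).mpr hx)
  have ha2 := hbc v hv n2 hn2 hτn2 hb2 hc2
  -- transport back
  intro y hy
  obtain ⟨a, s, hs, has⟩ := hwO (y : F) y.2
  have haWa : (a : F) ∈ Wa.nonunits := by
    rw [← has]
    exact s36pn_nu_mul Wa ((hwa _).mpr hy) (hOa v hv _ s.2)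
  obtain ⟨a', s', ha', hs', h'⟩ := (hn2iff a).mp (ha2 a haWa)
  obtain ⟨a1, s1, hs1, h1⟩ := hn2loc (s : F) ⟨s, 1, dma_one_notMem (chtO A {v}) n2, by simp⟩
  have ha1 : a1 ∉ n := fun h => hs ((hn2iff s).mpr ⟨a1, s1, h, hs1, h1⟩)
  have hwa' : w (a : F) = (y : F) * w (s : F) := by rw [← has, map_mul, hww]
  have key : y * a1 * s' = a' * s1 := by
    apply Subtype.ext
    push_cast
    rw [← h1, ← h', hwa']
    ring
  have hmem : y * a1 * s' ∈ n := by
    rw [key]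
    exact n.mul_mem_right _ ha'
  rcases hnp.mem_or_mem hmem with h | h
  · rcases hnp.mem_or_mem h with h | h
    · exact h
    · exact absurd h ha1
  · exact absurd h hs'

end Abs

/-! ### The carrier -/

section Carrier

variable (M q : ℕ) [NeZero M] [hq : Fact q.Prime] (hM : ¬ q ∣ M)
  (K0 : Type*) [Field K0] [Algebra ℚ K0] [Algebra K0 Qb]
  (A0 : ValuationSubring K0) [IsDiscreteValuationRing ↥A0]
  {a2 : ℕ} (H : HauptRec a2 q)

/-- **PT-INST-SW at the carrier, hypothesis form**: binder `hac` of `s36k3_point` for the two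
charts `chtO A0 {t}`, `chtO A0 {t⁻¹}` of level `M q²` (`W_a = va2V1 (M q) q K0 A0`,
`W_b = W_a.comap w₂`, `W_c = s36v3Wc`), from the binder `hbc` for the two charts, swap domination
(`s36sw_dom`) and the chart inclusions (`s36c3_chart`). -/
theorem s36pn_hac
    [Algebra ↥A0 ↥(laurentBaseChange K0 (modularFunctionFieldFull (M * q * q)))]
    [IsScalarTower ↥A0 K0 ↥(laurentBaseChange K0 (modularFunctionFieldFull (M * q * q)))]
    (hA0 : A0.LiesOverPrime q) (hunr : ∀ x ∈ A0.nonunits, x * ((q : ℕ) : K0)⁻¹ ∈ A0)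
    (τ : A0) (hτ : Irreducible τ)
    (t : ↥(laurentBaseChange K0 (modularFunctionFieldFull (M * q * q))))
    (hO0 : ∀ x ∈ chtO A0 {t}, x ∈ va2V1 (M * q) q K0 A0 ∧
      x ∈ (va2V1 (M * q) q K0 A0).comap (s36v3Swap M q hM K0) ∧ x ∈ s36v3Wc M q hM K0 A0)
    (hO1 : ∀ x ∈ chtO A0 {t⁻¹}, x ∈ va2V1 (M * q) q K0 A0 ∧
      x ∈ (va2V1 (M * q) q K0 A0).comap (s36v3Swap M q hM K0) ∧ x ∈ s36v3Wc M q hM K0 A0)
    (hdom : (∀ 𝔫 : Ideal ↥(chtO A0 {t}), 𝔫.IsPrime →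
        algebraMap A0 ↥(chtO A0 {t}) τ ∈ 𝔫 →
        (∃ a s : ↥(chtO A0 {t}), s ∉ 𝔫 ∧ s36v3Swap M q hM K0 t *
          (s : ↥(laurentBaseChange K0 (modularFunctionFieldFull (M * q * q)))) = a) ∨
        (∃ a s : ↥(chtO A0 {t}), s ∉ 𝔫 ∧ (s36v3Swap M q hM K0 t)⁻¹ *
          (s : ↥(laurentBaseChange K0 (modularFunctionFieldFull (M * q * q)))) = a)) ∧
      (∀ 𝔫 : Ideal ↥(chtO A0 {t⁻¹}), 𝔫.IsPrime →
        algebraMap A0 ↥(chtO A0 {t⁻¹}) τ ∈ 𝔫 →
        (∃ a s : ↥(chtO A0 {t⁻¹}), s ∉ 𝔫 ∧ s36v3Swap M q hM K0 t *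
          (s : ↥(laurentBaseChange K0 (modularFunctionFieldFull (M * q * q)))) = a) ∨
        (∃ a s : ↥(chtO A0 {t⁻¹}), s ∉ 𝔫 ∧ (s36v3Swap M q hM K0 t)⁻¹ *
          (s : ↥(laurentBaseChange K0 (modularFunctionFieldFull (M * q * q)))) = a)))
    (hbc : (∀ 𝔫 : Ideal ↥(chtO A0 {t}), 𝔫.IsMaximal → algebraMap A0 ↥(chtO A0 {t}) τ ∈ 𝔫 →
        (∀ x : ↥(chtO A0 {t}),
          (x : ↥(laurentBaseChange K0 (modularFunctionFieldFull (M * q * q)))) ∈
            ((va2V1 (M * q) q K0 A0).comap (s36v3Swap M q hM K0)).nonunits → x ∈ 𝔫) →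
        (∀ x : ↥(chtO A0 {t}),
          (x : ↥(laurentBaseChange K0 (modularFunctionFieldFull (M * q * q)))) ∈
            (s36v3Wc M q hM K0 A0).nonunits → x ∈ 𝔫) →
        ∀ x : ↥(chtO A0 {t}),
          (x : ↥(laurentBaseChange K0 (modularFunctionFieldFull (M * q * q)))) ∈
            (va2V1 (M * q) q K0 A0).nonunits → x ∈ 𝔫) ∧
      (∀ 𝔫 : Ideal ↥(chtO A0 {t⁻¹}), 𝔫.IsMaximal → algebraMap A0 ↥(chtO A0 {t⁻¹}) τ ∈ 𝔫 →
        (∀ x : ↥(chtO A0 {t⁻¹}),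
          (x : ↥(laurentBaseChange K0 (modularFunctionFieldFull (M * q * q)))) ∈
            ((va2V1 (M * q) q K0 A0).comap (s36v3Swap M q hM K0)).nonunits → x ∈ 𝔫) →
        (∀ x : ↥(chtO A0 {t⁻¹}),
          (x : ↥(laurentBaseChange K0 (modularFunctionFieldFull (M * q * q)))) ∈
            (s36v3Wc M q hM K0 A0).nonunits → x ∈ 𝔫) →
        ∀ x : ↥(chtO A0 {t⁻¹}),
          (x : ↥(laurentBaseChange K0 (modularFunctionFieldFull (M * q * q)))) ∈
            (va2V1 (M * q) q K0 A0).nonunits → x ∈ 𝔫)) :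
    (∀ 𝔫 : Ideal ↥(chtO A0 {t}), 𝔫.IsMaximal → algebraMap A0 ↥(chtO A0 {t}) τ ∈ 𝔫 →
        (∀ x : ↥(chtO A0 {t}),
          (x : ↥(laurentBaseChange K0 (modularFunctionFieldFull (M * q * q)))) ∈
            (va2V1 (M * q) q K0 A0).nonunits → x ∈ 𝔫) →
        (∀ x : ↥(chtO A0 {t}),
          (x : ↥(laurentBaseChange K0 (modularFunctionFieldFull (M * q * q)))) ∈
            (s36v3Wc M q hM K0 A0).nonunits → x ∈ 𝔫) →
        ∀ x : ↥(chtO A0 {t}),
          (x : ↥(laurentBaseChange K0 (modularFunctionFieldFull (M * q * q)))) ∈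
            ((va2V1 (M * q) q K0 A0).comap (s36v3Swap M q hM K0)).nonunits → x ∈ 𝔫) ∧
    (∀ 𝔫 : Ideal ↥(chtO A0 {t⁻¹}), 𝔫.IsMaximal → algebraMap A0 ↥(chtO A0 {t⁻¹}) τ ∈ 𝔫 →
        (∀ x : ↥(chtO A0 {t⁻¹}),
          (x : ↥(laurentBaseChange K0 (modularFunctionFieldFull (M * q * q)))) ∈
            (va2V1 (M * q) q K0 A0).nonunits → x ∈ 𝔫) →
        (∀ x : ↥(chtO A0 {t⁻¹}),
          (x : ↥(laurentBaseChange K0 (modularFunctionFieldFull (M * q * q)))) ∈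
            (s36v3Wc M q hM K0 A0).nonunits → x ∈ 𝔫) →
        ∀ x : ↥(chtO A0 {t⁻¹}),
          (x : ↥(laurentBaseChange K0 (modularFunctionFieldFull (M * q * q)))) ∈
            ((va2V1 (M * q) q K0 A0).comap (s36v3Swap M q hM K0)).nonunits → x ∈ 𝔫) := by
  have hwA : ∀ a : ↥A0, s36v3Swap M q hM K0
      (algebraMap ↥A0 ↥(laurentBaseChange K0 (modularFunctionFieldFull (M * q * q))) a) =
      algebraMap ↥A0 ↥(laurentBaseChange K0 (modularFunctionFieldFull (M * q * q))) a := by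
    intro a
    rw [IsScalarTower.algebraMap_apply ↥A0 K0
      ↥(laurentBaseChange K0 (modularFunctionFieldFull (M * q * q))), s36v3Swap_const]
  have key := s36pn_hac_abs (A := ↥A0) τ (s36cm_unit_of_notMem A0 τ hτ)
    (s36v3Swap M q hM K0) (s36v3Swap_swap M q hM K0) hwA t
    (fun u hu => by
      rcases hu with rfl | rfl
      · exact fun n hn hτn => hdom.1 n hn.isPrime hτn
      · exact fun n hn hτn => hdom.2 n hn.isPrime hτn)
    (va2V1 (M * q) q K0 A0) ((va2V1 (M * q) q K0 A0).comap (s36v3Swap M q hM K0))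
    (s36v3Wc M q hM K0 A0)
    (fun u hu => by
      rcases hu with rfl | rfl
      · exact fun x hx => (hO0 x hx).1
      · exact fun x hx => (hO1 x hx).1)
    (fun u hu => by
      rcases hu with rfl | rfl
      · exact fun x hx => (hO0 x hx).2.2
      · exact fun x hx => (hO1 x hx).2.2)
    (fun x => s36vw_nu_Wa M q hM K0 A0 x)
    (fun x => s36vw_nu_Wc M q hM K0 A0 hA0 hunr x)
    (fun u hu => by
      rcases hu with rfl | rfl
      · exact hbc.1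
      · exact hbc.2)
  exact ⟨key t (Or.inl rfl), key t⁻¹ (Or.inr rfl)⟩

/-- **PT-INST-SW at the carrier**: binder `hac` of `s36k3_point` for the two Hauptmodul charts
of level `M q²`, from the binder `hbc` for the two charts alone (swap domination `s36sw_dom` and
the chart bundle `s36c3_chart` discharged). -/
theorem s36pn_hac_car (ha2 : a2 ∣ M)
    [Algebra ↥A0 ↥(laurentBaseChange K0 (modularFunctionFieldFull (M * q * q)))]
    [IsScalarTower ↥A0 K0 ↥(laurentBaseChange K0 (modularFunctionFieldFull (M * q * q)))]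
    (hA0 : A0.LiesOverPrime q) (hunr : ∀ x ∈ A0.nonunits, x * ((q : ℕ) : K0)⁻¹ ∈ A0)
    (c0 c1 : A0) (hc : IsLocalRing.residue A0 c0 ≠ IsLocalRing.residue A0 c1)
    (hQ0 : smi2U A0 (aeval (c0 : K0) H.Qrad)) (hQ1 : smi2U A0 (aeval (c1 : K0) H.Qrad))
    (t : ↥(laurentBaseChange K0 (modularFunctionFieldFull (M * q * q))))
    (ht : (t : LaurentSeries K0) = cinstU H K0 (c0 : K0) (c1 : K0))
    (τ : A0) (hτ : Irreducible τ)
    (hbc : (∀ 𝔫 : Ideal ↥(chtO A0 {t}), 𝔫.IsMaximal → algebraMap A0 ↥(chtO A0 {t}) τ ∈ 𝔫 →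
        (∀ x : ↥(chtO A0 {t}),
          (x : ↥(laurentBaseChange K0 (modularFunctionFieldFull (M * q * q)))) ∈
            ((va2V1 (M * q) q K0 A0).comap (s36v3Swap M q hM K0)).nonunits → x ∈ 𝔫) →
        (∀ x : ↥(chtO A0 {t}),
          (x : ↥(laurentBaseChange K0 (modularFunctionFieldFull (M * q * q)))) ∈
            (s36v3Wc M q hM K0 A0).nonunits → x ∈ 𝔫) →
        ∀ x : ↥(chtO A0 {t}),
          (x : ↥(laurentBaseChange K0 (modularFunctionFieldFull (M * q * q)))) ∈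
            (va2V1 (M * q) q K0 A0).nonunits → x ∈ 𝔫) ∧
      (∀ 𝔫 : Ideal ↥(chtO A0 {t⁻¹}), 𝔫.IsMaximal → algebraMap A0 ↥(chtO A0 {t⁻¹}) τ ∈ 𝔫 →
        (∀ x : ↥(chtO A0 {t⁻¹}),
          (x : ↥(laurentBaseChange K0 (modularFunctionFieldFull (M * q * q)))) ∈
            ((va2V1 (M * q) q K0 A0).comap (s36v3Swap M q hM K0)).nonunits → x ∈ 𝔫) →
        (∀ x : ↥(chtO A0 {t⁻¹}),
          (x : ↥(laurentBaseChange K0 (modularFunctionFieldFull (M * q * q)))) ∈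
            (s36v3Wc M q hM K0 A0).nonunits → x ∈ 𝔫) →
        ∀ x : ↥(chtO A0 {t⁻¹}),
          (x : ↥(laurentBaseChange K0 (modularFunctionFieldFull (M * q * q)))) ∈
            (va2V1 (M * q) q K0 A0).nonunits → x ∈ 𝔫)) :
    (∀ 𝔫 : Ideal ↥(chtO A0 {t}), 𝔫.IsMaximal → algebraMap A0 ↥(chtO A0 {t}) τ ∈ 𝔫 →
        (∀ x : ↥(chtO A0 {t}),
          (x : ↥(laurentBaseChange K0 (modularFunctionFieldFull (M * q * q)))) ∈
            (va2V1 (M * q) q K0 A0).nonunits → x ∈ 𝔫) →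
        (∀ x : ↥(chtO A0 {t}),
          (x : ↥(laurentBaseChange K0 (modularFunctionFieldFull (M * q * q)))) ∈
            (s36v3Wc M q hM K0 A0).nonunits → x ∈ 𝔫) →
        ∀ x : ↥(chtO A0 {t}),
          (x : ↥(laurentBaseChange K0 (modularFunctionFieldFull (M * q * q)))) ∈
            ((va2V1 (M * q) q K0 A0).comap (s36v3Swap M q hM K0)).nonunits → x ∈ 𝔫) ∧
    (∀ 𝔫 : Ideal ↥(chtO A0 {t⁻¹}), 𝔫.IsMaximal → algebraMap A0 ↥(chtO A0 {t⁻¹}) τ ∈ 𝔫 →
        (∀ x : ↥(chtO A0 {t⁻¹}),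
          (x : ↥(laurentBaseChange K0 (modularFunctionFieldFull (M * q * q)))) ∈
            (va2V1 (M * q) q K0 A0).nonunits → x ∈ 𝔫) →
        (∀ x : ↥(chtO A0 {t⁻¹}),
          (x : ↥(laurentBaseChange K0 (modularFunctionFieldFull (M * q * q)))) ∈
            (s36v3Wc M q hM K0 A0).nonunits → x ∈ 𝔫) →
        ∀ x : ↥(chtO A0 {t⁻¹}),
          (x : ↥(laurentBaseChange K0 (modularFunctionFieldFull (M * q * q)))) ∈
            ((va2V1 (M * q) q K0 A0).comap (s36v3Swap M q hM K0)).nonunits → x ∈ 𝔫) := by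
  obtain ⟨-, -, -, -, -, -, -, -, -, -, -, -, -, hV0, hV1, -⟩ :=
    s36c3_chart A0 M q hM H ha2 hA0 ((va2V1 (M * q) q K0 A0).comap (s36v3Swap M q hM K0))
      (s36v3Wc M q hM K0 A0) (s36v3_al_Wb M q hM K0 A0) (s36v3_al_Wc M q hM K0 A0)
      (s36v3_exh_al1 M q hM K0 A0 hA0 hunr) (s36v3_exh_al2 M q hM K0 A0 hA0) c0 c1 hc t ht τ hτ
      1 one_pos
  exact s36pn_hac M q hM K0 A0 hA0 hunr τ hτ t hV0 hV1
    (s36sw_dom M q hM K0 A0 H ha2 hA0 c0 c1 hc hQ0 hQ1 t ht τ hτ) hbc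

end Carrier

end Fermat.Agent.S36
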