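/-
S36, leaf [TRI-INST], abstract part (prefix `s36tj_`).
Mathlib + S34/LocRing + S34/DomAbs + S36/Toric3Def + S36/TriAbs.

`s36tj_main`: the local data `S36Tri` (finding 236) at EVERY triple point of the two charts
`O₀ ∋ t`, `O₁ ∋ t⁻¹` of the level `L q²` model, for the local rings `ndrLoc O 𝔫`, from

* (Hα) the ALPHA-side data `S36tjAl` at every triple point of both charts (the node ring `R1`
  below along `α`: `α(R1) ⊆ R`, norms land in `R1`, the decomposition `R = α(R1) + (R ∩ 𝔪_Wa)`,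
  the node statement), i.e. the binders `hαR`, `hNα`, `h8`, `hnode` of `s36ti_main`;
* the swap involution `w` of `F` (`w ∘ α = β ∘ w1`, `w1 ∘ Nα = Nβ ∘ w`, `w` exchanges `W_a`, `W_b`
  and fixes `W_c`);
* (D) swap domination at every triple point: `w(O₀) ⊆ O_𝔫` or `w(O₁) ⊆ O_𝔫`;
* (Max) the centre on a chart of the local ring of a triple point is a maximal ideal.

No chart along `β`, no node ring `R2`: the BETA side at a triple point is the ALPHA side at the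
swapped triple point (`s36tj_swap`: the swap maps the local ring of a triple point onto the local
ring of a triple point of one of the two charts, by (D) twice and separatedness of the charts).
-/
import Mathlib
import Fermat.Agent.S34.LocRing
import Fermat.Agent.S34.DomAbs
import Fermat.Agent.S36.Toric3Def
import Fermat.Agent.S36.TriAbs

set_option autoImplicit false

namespace Fermat.Agent.S36

open Fermat.Agent.S34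

section Abs

variable {A E F : Type*} [CommRing A] [Field E] [Field F] [Algebra A F]

/-- a triple point of the chart `O`: the centres of the three vertical valuations lie in `𝔫` -/
def S36tjPt (Wa Wb Wc : ValuationSubring F) (O : Subalgebra A F) (𝔫 : Ideal ↥O) : Prop :=
  (∀ x : ↥O, (x : F) ∈ Wa.nonunits → x ∈ 𝔫) ∧ (∀ x : ↥O, (x : F) ∈ Wb.nonunits → x ∈ 𝔫) ∧
    (∀ x : ↥O, (x : F) ∈ Wc.nonunits → x ∈ 𝔫)

/-- the ALPHA-side data at a local ring `R` of a triple point: the binders `hαR`, `hNα`, `h8`,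
`hnode` of `s36ti_main` for some subring `R1` of `E` (the local ring of the node below) -/
def S36tjAl (α : E →+* F) (Nα : F →* E) (Wa Wb : ValuationSubring F) (R : Subring F) : Prop :=
  ∃ R1 : Subring E, (∀ r ∈ R1, α r ∈ R) ∧ (∀ u ∈ R, Nα u ∈ R1) ∧
    (∀ a ∈ R, ∃ a1 ∈ R1, a - α a1 ∈ Wa.nonunits) ∧
    (∀ a ∈ R1, (a = 0 ∨ a⁻¹ ∉ R1) → ∃ v ∈ R1, ∃ w ∈ R1,
      α v ∈ Wa.nonunits ∧ α w ∈ Wb.nonunits ∧ a = v + w)

/-- an element of the chart lying in the maximal ideal of the local ring lies in `𝔫` -/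
theorem s36tj_max_coe (O : Subalgebra A F) (𝔫 : Ideal ↥O) [h𝔫 : 𝔫.IsPrime] (x : ↥O)
    (hx : (x : F) ∈ dmaMax O 𝔫) : x ∈ 𝔫 := by
  obtain ⟨a, s, ha, hs, h⟩ := hx
  have h1 : x * s = a := Subtype.ext h
  have h2 : x * s ∈ 𝔫 := h1 ▸ ha
  exact (h𝔫.mem_or_mem h2).resolve_right hs

/-- an element of the maximal ideal is not a unit of the local ring -/
theorem s36tj_max_not_unit (O : Subalgebra A F) (𝔫 : Ideal ↥O) [h𝔫 : 𝔫.IsPrime] {x : F}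
    (hx : x ∈ dmaMax O 𝔫) (hx0 : x ≠ 0) : x⁻¹ ∉ dmaLoc O 𝔫 := by
  intro h
  have h2 := dma_max_mul O 𝔫 h hx
  rw [inv_mul_cancel₀ hx0] at h2
  exact dma_one_notMem_max O 𝔫 h2

/-- at a point through which the valuation `W` passes, the local ring lies in `W` and its
maximal ideal contains the trace of `𝔪_W` -/
theorem s36tj_loc_W (O : Subalgebra A F) (𝔫 : Ideal ↥O) [h𝔫 : 𝔫.IsPrime]
    (W : ValuationSubring F) (hOW : ∀ x ∈ O, x ∈ W)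
    (hc : ∀ x : ↥O, (x : F) ∈ W.nonunits → x ∈ 𝔫) :
    (∀ x ∈ dmaLoc O 𝔫, x ∈ W) ∧ (∀ x ∈ dmaLoc O 𝔫, x ∈ W.nonunits → x ∈ dmaMax O 𝔫) := by
  have hunit : ∀ s : ↥O, s ∉ 𝔫 → (s : F) ≠ 0 ∧ (s : F)⁻¹ ∈ W := by
    intro s hs
    have h1 : (s : F) ∉ W.nonunits := fun h => hs (hc s h)
    rw [ValuationSubring.mem_nonunits_iff_or, not_or, not_not] at h1
    exact h1
  refine ⟨?_, ?_⟩
  · rintro x ⟨a, s, hs, h⟩
    obtain ⟨hs0, hsi⟩ := hunit s hs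
    have e : x = (a : F) * (s : F)⁻¹ := by rw [← h, mul_assoc, mul_inv_cancel₀ hs0, mul_one]
    rw [e]
    exact W.mul_mem _ _ (hOW _ a.2) hsi
  · rintro x ⟨a, s, hs, h⟩ hx
    refine ⟨a, s, hc a ?_, hs, h⟩
    rw [← h]
    rw [ValuationSubring.mem_nonunits_iff] at hx ⊢
    rw [map_mul]
    exact mul_lt_one_of_lt_of_le hx ((W.valuation_le_one_iff _).mpr (hOW _ s.2))

/-- **separatedness data**: every element of the local ring `O_𝔫` is a fraction of elements of a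
second chart `O'` contained in `O_𝔫`, the denominator being a unit of `O_𝔫` -/
theorem s36tj_sep (O O' : Subalgebra A F) (u : F) (hu : u ∈ O') (hu' : u⁻¹ ∈ O) (hu0 : u ≠ 0)
    (h : ∀ x ∈ O, ∃ n : ℕ, x * u ^ n ∈ O') (𝔫 : Ideal ↥O) [h𝔫 : 𝔫.IsPrime]
    (x : F) (hx : x ∈ dmaLoc O 𝔫) :
    ∃ a ∈ O', ∃ s ∈ O', s ∉ dmaMax O 𝔫 ∧ x * s = a := by
  obtain ⟨a, s, hs, hxs⟩ := hx
  obtain ⟨n, hn⟩ := h a a.2
  obtain ⟨k, hk⟩ := h s s.2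
  refine ⟨(a : F) * u ^ n * u ^ k, O'.mul_mem hn (O'.pow_mem hu k),
    (s : F) * u ^ k * u ^ n, O'.mul_mem hk (O'.pow_mem hu n), ?_, ?_⟩
  · intro hmax
    have h1 : (u⁻¹ ^ k * u⁻¹ ^ n) * ((s : F) * u ^ k * u ^ n) ∈ dmaMax O 𝔫 :=
      dma_max_mul O 𝔫 ((dmaLoc O 𝔫).mul_mem ((dmaLoc O 𝔫).pow_mem (dma_of_mem O 𝔫 hu') k)
        ((dmaLoc O 𝔫).pow_mem (dma_of_mem O 𝔫 hu') n)) hmax
    have h2 : (u⁻¹ ^ k * u⁻¹ ^ n) * ((s : F) * u ^ k * u ^ n) = (s : F) := by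
      rw [inv_pow, inv_pow]
      field_simp
    rw [h2] at h1
    exact hs (s36tj_max_coe O 𝔫 s h1)
  · rw [← hxs]; ring

/-- the centre on a chart `O'` of the local ring `O_𝔫` along a ring endomorphism `w` mapping
`O'` into `O_𝔫` -/
theorem s36tj_centre (O O' : Subalgebra A F) (𝔫 : Ideal ↥O) [h𝔫 : 𝔫.IsPrime] (w : F →+* F)
    (hsub : ∀ x ∈ O', w x ∈ dmaLoc O 𝔫) :
    ∃ 𝔭 : Ideal ↥O', 𝔭.IsPrime ∧ ∀ x : ↥O', x ∈ 𝔭 ↔ w (x : F) ∈ dmaMax O 𝔫 := by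
  let 𝔭 : Ideal ↥O' :=
    { carrier := {x | w (x : F) ∈ dmaMax O 𝔫}
      add_mem' := by
        intro x y hx hy
        show w ((x : F) + (y : F)) ∈ dmaMax O 𝔫
        rw [map_add]
        exact (dmaMax O 𝔫).add_mem hx hy
      zero_mem' := by
        show w ((0 : ↥O') : F) ∈ dmaMax O 𝔫
        rw [Subalgebra.coe_zero, map_zero]
        exact (dmaMax O 𝔫).zero_mem
      smul_mem' := by
        intro c x hx
        show w ((c : F) * (x : F)) ∈ dmaMax O 𝔫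
        rw [map_mul]
        exact dma_max_mul O 𝔫 (hsub _ c.2) hx }
  have hmem : ∀ x : ↥O', x ∈ 𝔭 ↔ w (x : F) ∈ dmaMax O 𝔫 := fun x => Iff.rfl
  refine ⟨𝔭, ⟨?_, ?_⟩, hmem⟩
  · intro htop
    have h1 : (1 : ↥O') ∈ 𝔭 := by rw [htop]; trivial
    rw [hmem, Subalgebra.coe_one, map_one] at h1
    exact dma_one_notMem_max O 𝔫 h1
  · intro x y hxy
    rw [hmem, Subalgebra.coe_mul, map_mul] at hxy
    by_cases hx : w (x : F) ∈ dmaMax O 𝔫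
    · exact Or.inl ((hmem x).2 hx)
    · right
      rw [hmem]
      have h1 := dma_inv_mem O 𝔫 (hsub _ x.2) hx
      have h2 := dma_max_mul O 𝔫 h1 hxy
      rwa [← mul_assoc, inv_mul_cancel₀ (dma_ne_zero O 𝔫 hx), one_mul] at h2

/-- **the swap maps local rings onto local rings**: if `w(O') ⊆ O_𝔫`, `𝔭` is the centre on `O'`
and `w(Ob) ⊆ O'_𝔭` for a chart `Ob` separated from `O`, then `w` exchanges `O_𝔫` and `O'_𝔭`. -/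
theorem s36tj_swap_loc (O O' Ob : Subalgebra A F) (u : F) (hu : u ∈ Ob) (hu' : u⁻¹ ∈ O)
    (hu0 : u ≠ 0) (h : ∀ x ∈ O, ∃ n : ℕ, x * u ^ n ∈ Ob)
    (w : F →+* F) (hww : ∀ x, w (w x) = x)
    (𝔫 : Ideal ↥O) [h𝔫 : 𝔫.IsPrime] (𝔭 : Ideal ↥O') [h𝔭 : 𝔭.IsPrime]
    (h1 : ∀ x ∈ O', w x ∈ dmaLoc O 𝔫)
    (hc : ∀ x : ↥O', x ∈ 𝔭 ↔ w (x : F) ∈ dmaMax O 𝔫)
    (h2 : ∀ x ∈ Ob, w x ∈ dmaLoc O' 𝔭) :
    (∀ x ∈ dmaLoc O' 𝔭, w x ∈ dmaLoc O 𝔫) ∧ (∀ x ∈ dmaLoc O 𝔫, w x ∈ dmaLoc O' 𝔭) := by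
  have ha : ∀ x ∈ dmaLoc O' 𝔭, w x ∈ dmaLoc O 𝔫 := by
    rintro x ⟨a, s, hs, hxs⟩
    have hws : w (s : F) ∉ dmaMax O 𝔫 := fun hh => hs ((hc s).2 hh)
    have hinv := dma_inv_mem O 𝔫 (h1 _ s.2) hws
    have e : w x = w (a : F) * (w (s : F))⁻¹ := by
      rw [← hxs, map_mul, mul_assoc, mul_inv_cancel₀ (dma_ne_zero O 𝔫 hws), mul_one]
    rw [e]
    exact (dmaLoc O 𝔫).mul_mem (h1 _ a.2) hinv
  have hb : ∀ x ∈ dmaMax O' 𝔭, w x ∈ dmaMax O 𝔫 := by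
    rintro x ⟨a, s, ha', hs, hxs⟩
    have hws : w (s : F) ∉ dmaMax O 𝔫 := fun hh => hs ((hc s).2 hh)
    have hinv := dma_inv_mem O 𝔫 (h1 _ s.2) hws
    have e : w x = (w (s : F))⁻¹ * w (a : F) := by
      rw [← hxs, map_mul, mul_comm (w x), ← mul_assoc, inv_mul_cancel₀ (dma_ne_zero O 𝔫 hws),
        one_mul]
    rw [e]
    exact dma_max_mul O 𝔫 hinv ((hc a).1 ha')
  refine ⟨ha, ?_⟩
  intro x hx
  obtain ⟨a, haO, s, hsO, hs, hxs⟩ := s36tj_sep O Ob u hu hu' hu0 h 𝔫 x hx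
  have hws : w s ∉ dmaMax O' 𝔭 := by
    intro hh
    have := hb _ hh
    rw [hww] at this
    exact hs this
  have hinv := dma_inv_mem O' 𝔭 (h2 s hsO) hws
  have e : w x = w a * (w s)⁻¹ := by
    rw [← hxs, map_mul, mul_assoc, mul_inv_cancel₀ (dma_ne_zero O' 𝔭 hws), mul_one]
  rw [e]
  exact (dmaLoc O' 𝔭).mul_mem (h2 a haO) hinv

/-- separatedness data for any two of the two charts `O₀ ∋ t`, `O₁ ∋ t⁻¹` -/
theorem s36tj_sepdata (t : F) (ht : t ≠ 0) (O₀ O₁ : Subalgebra A F) (ht₀ : t ∈ O₀)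
    (ht₁ : t⁻¹ ∈ O₁) (h01 : ∀ x ∈ O₀, ∃ n : ℕ, x * t⁻¹ ^ n ∈ O₁)
    (h10 : ∀ x ∈ O₁, ∃ n : ℕ, x * t ^ n ∈ O₀) (O Ob : Subalgebra A F)
    (hO : O = O₀ ∨ O = O₁) (hOb : Ob = O₀ ∨ Ob = O₁) :
    ∃ u : F, u ∈ Ob ∧ u⁻¹ ∈ O ∧ u ≠ 0 ∧ ∀ x ∈ O, ∃ n : ℕ, x * u ^ n ∈ Ob := by
  rcases hO with rfl | rfl <;> rcases hOb with rfl | rfl
  · exact ⟨1, Subalgebra.one_mem _, by rw [inv_one]; exact Subalgebra.one_mem _, one_ne_zero,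
      fun x hx => ⟨0, by rwa [pow_zero, mul_one]⟩⟩
  · exact ⟨t⁻¹, ht₁, by rwa [inv_inv], inv_ne_zero ht, h01⟩
  · exact ⟨t, ht₀, ht₁, ht, h10⟩
  · exact ⟨1, Subalgebra.one_mem _, by rw [inv_one]; exact Subalgebra.one_mem _, one_ne_zero,
      fun x hx => ⟨0, by rwa [pow_zero, mul_one]⟩⟩

/-- **[TRI-INST], abstract form.**  `S36Tri` at every triple point of the two charts from the
ALPHA-side data at every triple point, swap domination and maximality of centres. -/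
theorem s36tj_main (α β : E →+* F) (Nα Nβ : F →* E) (Wa Wb Wc : ValuationSubring F) (m : ℕ)
    (hm : 0 < m)
    -- the swap
    (w : F →+* F) (hww : ∀ x, w (w x) = x)
    (w1 : E →+* E) (hwα : ∀ x : E, w (α x) = β (w1 x)) (hNw : ∀ z : F, w1 (Nα z) = Nβ (w z))
    (hwab : ∀ x ∈ Wa.nonunits, w x ∈ Wb.nonunits) (hwba : ∀ x ∈ Wb.nonunits, w x ∈ Wa.nonunits)
    (hwcc : ∀ x ∈ Wc.nonunits, w x ∈ Wc.nonunits)
    -- the two charts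
    (t : F) (ht : t ≠ 0) (O₀ O₁ : Subalgebra A F) (ht₀ : t ∈ O₀) (ht₁ : t⁻¹ ∈ O₁)
    (h01 : ∀ x ∈ O₀, ∃ n : ℕ, x * t⁻¹ ^ n ∈ O₁) (h10 : ∀ x ∈ O₁, ∃ n : ℕ, x * t ^ n ∈ O₀)
    (hV : ∀ O : Subalgebra A F, O = O₀ ∨ O = O₁ → ∀ x ∈ O, x ∈ Wa ∧ x ∈ Wb ∧ x ∈ Wc)
    (hroot : ∀ O : Subalgebra A F, O = O₀ ∨ O = O₁ → ∀ x : F, x ^ m ∈ O → x ∈ O)
    -- (D) swap domination at the triple points
    (hdom : ∀ O : Subalgebra A F, O = O₀ ∨ O = O₁ → ∀ (𝔫 : Ideal ↥O) (h𝔫 : 𝔫.IsMaximal),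
      S36tjPt Wa Wb Wc O 𝔫 →
      (∀ x ∈ O₀, w x ∈ @ndrLoc A F _ _ _ O 𝔫 h𝔫.isPrime) ∨
        (∀ x ∈ O₁, w x ∈ @ndrLoc A F _ _ _ O 𝔫 h𝔫.isPrime))
    -- (Max) the centre on a chart of the local ring of a triple point is maximal
    (hmaxc : ∀ O O' : Subalgebra A F, O = O₀ ∨ O = O₁ → O' = O₀ ∨ O' = O₁ →
      ∀ (𝔫 : Ideal ↥O) (h𝔫 : 𝔫.IsMaximal), S36tjPt Wa Wb Wc O 𝔫 →
      (∀ x ∈ O', w x ∈ @ndrLoc A F _ _ _ O 𝔫 h𝔫.isPrime) →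
      ∀ 𝔭 : Ideal ↥O', 𝔭.IsPrime →
        (∀ x : ↥O', x ∈ 𝔭 ↔ ∃ a s : ↥O, a ∈ 𝔫 ∧ s ∉ 𝔫 ∧ w (x : F) * (s : F) = (a : F)) →
        𝔭.IsMaximal)
    -- (Hα) the alpha-side data at the triple points
    (hal : ∀ O : Subalgebra A F, O = O₀ ∨ O = O₁ → ∀ (𝔫 : Ideal ↥O) (h𝔫 : 𝔫.IsMaximal),
      S36tjPt Wa Wb Wc O 𝔫 →
      S36tjAl α Nα Wa Wb (@ndrLoc A F _ _ _ O 𝔫 h𝔫.isPrime).toSubring) :
    ∀ O : Subalgebra A F, O = O₀ ∨ O = O₁ → ∀ (𝔫 : Ideal ↥O) (h𝔫 : 𝔫.IsMaximal),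
      S36tjPt Wa Wb Wc O 𝔫 →
      S36Tri (A := A) α β Nα Nβ Wa Wb Wc m (@ndrLoc A F _ _ _ O 𝔫 h𝔫.isPrime).toSubring := by
  intro O hO 𝔫 h𝔫 hpt
  have h𝔫p : 𝔫.IsPrime := h𝔫.isPrime
  obtain ⟨hca, hcb, hcc⟩ := hpt
  -- the local ring lies in the three valuation rings
  obtain ⟨hRa, hRa'⟩ := s36tj_loc_W O 𝔫 Wa (fun x hx => (hV O hO x hx).1) hca
  obtain ⟨hRb, hRb'⟩ := s36tj_loc_W O 𝔫 Wb (fun x hx => (hV O hO x hx).2.1) hcb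
  obtain ⟨hRc, hRc'⟩ := s36tj_loc_W O 𝔫 Wc (fun x hx => (hV O hO x hx).2.2) hcc
  -- the swapped triple point
  obtain ⟨O', hO', hsub⟩ : ∃ O' : Subalgebra A F, (O' = O₀ ∨ O' = O₁) ∧
      ∀ x ∈ O', w x ∈ dmaLoc O 𝔫 := by
    rcases hdom O hO 𝔫 h𝔫 ⟨hca, hcb, hcc⟩ with h | h
    · exact ⟨O₀, Or.inl rfl, h⟩
    · exact ⟨O₁, Or.inr rfl, h⟩
  obtain ⟨𝔭, h𝔭p, hc⟩ := s36tj_centre O O' 𝔫 w hsub
  have h𝔭 : 𝔭.IsMaximal := hmaxc O O' hO hO' 𝔫 h𝔫 ⟨hca, hcb, hcc⟩ hsub 𝔭 h𝔭p hc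
  have hpt' : S36tjPt Wa Wb Wc O' 𝔭 := by
    refine ⟨fun x hx => ?_, fun x hx => ?_, fun x hx => ?_⟩
    · exact (hc x).2 (hRb' _ (hsub _ x.2) (hwab _ hx))
    · exact (hc x).2 (hRa' _ (hsub _ x.2) (hwba _ hx))
    · exact (hc x).2 (hRc' _ (hsub _ x.2) (hwcc _ hx))
  obtain ⟨Ob, hOb, hsub'⟩ : ∃ Ob : Subalgebra A F, (Ob = O₀ ∨ Ob = O₁) ∧
      ∀ x ∈ Ob, w x ∈ dmaLoc O' 𝔭 := by
    rcases hdom O' hO' 𝔭 h𝔭 hpt' with h | h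
    · exact ⟨O₀, Or.inl rfl, h⟩
    · exact ⟨O₁, Or.inr rfl, h⟩
  obtain ⟨u, hu, hu', hu0, hsep⟩ := s36tj_sepdata t ht O₀ O₁ ht₀ ht₁ h01 h10 O Ob hO hOb
  obtain ⟨hsw1, hsw2⟩ := s36tj_swap_loc O O' Ob u hu hu' hu0 hsep w hww 𝔫 𝔭 hsub hc hsub'
  -- the alpha-side data at the point and at the swapped point
  obtain ⟨R1, hαR, hNα, h8, hnode⟩ := hal O hO 𝔫 h𝔫 ⟨hca, hcb, hcc⟩
  obtain ⟨R1', hαR', hNα', h8', -⟩ := hal O' hO' 𝔭 h𝔭 hpt'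
  -- the beta side
  have hβw : ∀ x ∈ R1', w (α x) ∈ dmaLoc O 𝔫 := fun x hx => hsw1 _ (hαR' x hx)
  have hNβ : ∀ u ∈ (@ndrLoc A F _ _ _ O 𝔫 h𝔫.isPrime).toSubring,
      Nβ u ∈ (@ndrLoc A F _ _ _ O 𝔫 h𝔫.isPrime).toSubring.comap β := by
    intro u hu
    rw [Subring.mem_comap]
    have e : β (Nβ u) = w (α (Nα (w u))) := by
      rw [hwα, hNw, hww]
    rw [e]
    exact hβw _ (hNα' _ (hsw2 u hu))
  have h9 : ∀ a ∈ (@ndrLoc A F _ _ _ O 𝔫 h𝔫.isPrime).toSubring,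
      ∃ b1 ∈ (@ndrLoc A F _ _ _ O 𝔫 h𝔫.isPrime).toSubring.comap β,
        a - β b1 ∈ Wb.nonunits := by
    intro a ha
    obtain ⟨a1, ha1, h⟩ := h8' (w a) (hsw2 a ha)
    refine ⟨w1 a1, ?_, ?_⟩
    · rw [Subring.mem_comap, ← hwα]
      exact hβw a1 ha1
    · have h' := hwab _ h
      rwa [map_sub, hww, hwα] at h'
  -- the generic facts
  have : IsLocalRing ↥(@ndrLoc A F _ _ _ O 𝔫 h𝔫.isPrime).toSubring :=
    inferInstanceAs (IsLocalRing ↥(ndrLoc O 𝔫))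
  have hroot' : ∀ x : F, x ^ m ∈ (@ndrLoc A F _ _ _ O 𝔫 h𝔫.isPrime).toSubring →
      x ∈ (@ndrLoc A F _ _ _ O 𝔫 h𝔫.isPrime).toSubring := by
    rintro x ⟨a, s, hs, hxs⟩
    have h1 : (x * (s : F)) ^ m ∈ O := by
      obtain ⟨k, rfl⟩ : ∃ k, m = k + 1 := ⟨m - 1, by omega⟩
      have e : (x * (s : F)) ^ (k + 1) = (a : F) * (s : F) ^ k := by
        rw [← hxs]; ring
      rw [e]
      exact O.mul_mem a.2 (O.pow_mem s.2 k)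
    exact ⟨⟨x * (s : F), hroot O hO _ h1⟩, s, hs, rfl⟩
  exact s36ti_main α β Nα Nβ Wa Wb Wc m (@ndrLoc A F _ _ _ O 𝔫 h𝔫.isPrime).toSubring R1
    ((@ndrLoc A F _ _ _ O 𝔫 h𝔫.isPrime).toSubring.comap β) hRa hRb hRc
    (fun a => (ndrLoc O 𝔫).algebraMap_mem a)
    (s36ti_local _) hroot' hαR (fun r hr => hr) hNα hNβ h8 h9 hnode

end Abs

end Fermat.Agent.S36
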