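/-
S36, family D (NORMRES-TORIC) / TRI-INST, leaf [TRI-INST-B] (helper24's split, msg 1702 (1)):
the `α`-side inputs `hαR`, `h8`, `hnode` of `s36ti_main` AT THE CARRIER.
Prefix `s36tb_`.

Carrier: `F1 = K0(X₀(M q))`, `F2 = K0(X₀(M q²))`, `al = heckeAlphaBar K0 (M q) q`,
`W_a = va2V1 (M q) q K0 A0`, `W_b = W_a.comap (s36v3Swap M q hM K0)`; charts `O = chtO A0 {t}`
(level `M q²`) and `O' = chtO A0 {t'}` (level `M q`) for the SAME series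
`cinstU H K0 c0 c1` (so `al t' = t`); `𝔫` a prime of `O` through which `W_a` and `W_b` pass,
`𝔫1` a maximal ideal of `O'` with `𝔫1 = al⁻¹(𝔫)` (clause of `s36cm_al`).  Then, with
`R = ndrLoc O 𝔫`, `R1 = ndrLoc O' 𝔫1`:

* `al(R1) ⊆ R`;
* `R = al(R1) + (R ∩ 𝔪_{W_a})`;
* every non-unit of `R1` is `v + w` with `v, w ∈ R1`, `al v ∈ 𝔪_{W_a}`, `al w ∈ 𝔪_{W_b}`.

The inverse charts `chtO A0 {t⁻¹}`, `chtO A0 {t'⁻¹}` are the instance `(c1, c0)`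
(`s36tb_al_inv`).
-/
import Mathlib
import Fermat.Agent.S34.CompInst
import Fermat.Agent.S35.NodeData
import Fermat.Agent.S35.GaussSep
import Fermat.Agent.S35.LocICPt
import Fermat.Agent.S36.Val3Def
import Fermat.Agent.S36.Toric3Cg
import Fermat.Agent.S36.TriBranch

set_option autoImplicit false
set_option linter.unusedSectionVars false

noncomputable section

open ModularCurve AlgebraicCurve Polynomial
open Fermat.Agent.S18 Fermat.Agent.S37 Fermat.Agent.S34 Fermat.Agent.S35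

namespace Fermat.Agent.S36

local notation "Qb" => AlgebraicClosure ℚ

section Carrier

variable (M q : ℕ) [NeZero M] [hq : Fact q.Prime] (hM : ¬ q ∣ M)
  (K0 : Type*) [Field K0] [Algebra ℚ K0] [Algebra K0 Qb]
  (A0 : ValuationSubring K0) [IsDiscreteValuationRing ↥A0]
  {a2 : ℕ} (H : HauptRec a2 q)

/-- **[TRI-INST-B]** the `α`-side inputs of `s36ti_main` at a point of the level-`M q²` chart
`chtO A0 {t}` lying on `W_a` and `W_b`. -/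
theorem s36tb_al (ha2 : a2 ∣ M) (hA0 : A0.LiesOverPrime q) (c0 c1 : A0)
    (hc : IsLocalRing.residue ↥A0 c0 ≠ IsLocalRing.residue ↥A0 c1)
    (hQ0 : smi2U A0 (aeval (c0 : K0) H.Qrad))
    (hSM0 : cinstSMChart K0 A0 M H (c0 : K0) (c1 : K0))
    (hSM1 : cinstSMChart K0 A0 M H (c1 : K0) (c0 : K0))
    (hu0 : unrChart K0 A0 M H c0 c1) (hu1 : unrChart K0 A0 M H c1 c0)
    [Algebra ↥A0 ↥(laurentBaseChange K0 (modularFunctionFieldFull (M * q)))]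
    [IsScalarTower ↥A0 K0 ↥(laurentBaseChange K0 (modularFunctionFieldFull (M * q)))]
    [Algebra ↥A0 ↥(laurentBaseChange K0 (modularFunctionFieldFull (M * q * q)))]
    [IsScalarTower ↥A0 K0 ↥(laurentBaseChange K0 (modularFunctionFieldFull (M * q * q)))]
    (t' : ↥(laurentBaseChange K0 (modularFunctionFieldFull (M * q))))
    (ht' : (t' : LaurentSeries K0) = cinstU H K0 (c0 : K0) (c1 : K0))
    (t : ↥(laurentBaseChange K0 (modularFunctionFieldFull (M * q * q))))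
    (ht : (t : LaurentSeries K0) = cinstU H K0 (c0 : K0) (c1 : K0))
    (τ : A0) (hτ : Irreducible τ)
    (𝔫 : Ideal ↥(chtO A0 {t})) [h𝔫 : 𝔫.IsPrime]
    (hta : ∀ x : ↥(chtO A0 {t}),
      (x : ↥(laurentBaseChange K0 (modularFunctionFieldFull (M * q * q)))) ∈
        (va2V1 (M * q) q K0 A0).nonunits → x ∈ 𝔫)
    (htb : ∀ x : ↥(chtO A0 {t}),
      (x : ↥(laurentBaseChange K0 (modularFunctionFieldFull (M * q * q)))) ∈
        ((va2V1 (M * q) q K0 A0).comap (s36v3Swap M q hM K0)).nonunits → x ∈ 𝔫)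
    (𝔫1 : Ideal ↥(chtO A0 {t'})) (h𝔫1 : 𝔫1.IsMaximal)
    (hcon : ∀ (x : ↥(chtO A0 {t'}))
      (hx : heckeAlphaBar K0 (M * q) q
        (x : ↥(laurentBaseChange K0 (modularFunctionFieldFull (M * q)))) ∈ chtO A0 {t}),
      x ∈ 𝔫1 ↔ (⟨heckeAlphaBar K0 (M * q) q
        (x : ↥(laurentBaseChange K0 (modularFunctionFieldFull (M * q)))), hx⟩ :
          ↥(chtO A0 {t})) ∈ 𝔫) :
    haveI := h𝔫1.isPrime
    (∀ r ∈ (ndrLoc (chtO A0 {t'}) 𝔫1).toSubring,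
      (heckeAlphaBar K0 (M * q) q).toRingHom r ∈ (ndrLoc (chtO A0 {t}) 𝔫).toSubring) ∧
    (∀ a ∈ (ndrLoc (chtO A0 {t}) 𝔫).toSubring, ∃ a1 ∈ (ndrLoc (chtO A0 {t'}) 𝔫1).toSubring,
      a - (heckeAlphaBar K0 (M * q) q).toRingHom a1 ∈ (va2V1 (M * q) q K0 A0).nonunits) ∧
    (∀ a ∈ (ndrLoc (chtO A0 {t'}) 𝔫1).toSubring,
      (a = 0 ∨ a⁻¹ ∉ (ndrLoc (chtO A0 {t'}) 𝔫1).toSubring) →
      ∃ v ∈ (ndrLoc (chtO A0 {t'}) 𝔫1).toSubring, ∃ w ∈ (ndrLoc (chtO A0 {t'}) 𝔫1).toSubring,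
        (heckeAlphaBar K0 (M * q) q).toRingHom v ∈ (va2V1 (M * q) q K0 A0).nonunits ∧
        (heckeAlphaBar K0 (M * q) q).toRingHom w ∈
          ((va2V1 (M * q) q K0 A0).comap (s36v3Swap M q hM K0)).nonunits ∧ a = v + w) := by
  classical
  have := h𝔫1.isPrime
  -- `al` maps the level-`M q` chart into the level-`M q²` chart
  let α : ↥(laurentBaseChange K0 (modularFunctionFieldFull (M * q))) →ₐ[A0]
      ↥(laurentBaseChange K0 (modularFunctionFieldFull (M * q * q))) :=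
    (heckeAlphaBar K0 (M * q) q).restrictScalars A0
  have hαt : α t' = t := Subtype.ext ((coe_heckeAlphaBar (M * q) q t').trans (ht'.trans ht.symm))
  have hmap : ∀ x ∈ chtO A0 {t'}, heckeAlphaBar K0 (M * q) q x ∈ chtO A0 {t} := by
    intro x hx
    have h := cmi_map_mem α t' hx
    rw [hαt] at h
    exact h
  -- the table
  have hαV1 : ∀ x : ↥(laurentBaseChange K0 (modularFunctionFieldFull (M * q))),
      (heckeAlphaBar K0 (M * q) q).toRingHom x ∈ (va2V1 (M * q) q K0 A0).nonunits ↔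
        x ∈ (va2V1 M q K0 A0).nonunits :=
    s36tc_nu_map (heckeAlphaBar K0 (M * q) q).toRingHom (va2V1 M q K0 A0)
      (va2V1 (M * q) q K0 A0) (s36v3_al_Wa M q K0 A0)
  have hαV2 : ∀ x : ↥(laurentBaseChange K0 (modularFunctionFieldFull (M * q))),
      (heckeAlphaBar K0 (M * q) q).toRingHom x ∈
        ((va2V1 (M * q) q K0 A0).comap (s36v3Swap M q hM K0)).nonunits ↔
        x ∈ (va2V2 M q hM K0 A0).nonunits :=
    s36tc_nu_map (heckeAlphaBar K0 (M * q) q).toRingHom (va2V2 M q hM K0 A0)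
      ((va2V1 (M * q) q K0 A0).comap (s36v3Swap M q hM K0)) (s36v3_al_Wb M q hM K0 A0)
  -- the point below is a crossing point
  have hc₁ : ∀ x : ↥(chtO A0 {t'}),
      (x : ↥(laurentBaseChange K0 (modularFunctionFieldFull (M * q)))) ∈
        (va2V1 M q K0 A0).nonunits → x ∈ 𝔫1 := by
    intro x hx
    rw [hcon x (hmap x x.2)]
    exact hta _ ((hαV1 x).mpr hx)
  have hc₂ : ∀ x : ↥(chtO A0 {t'}),
      (x : ↥(laurentBaseChange K0 (modularFunctionFieldFull (M * q)))) ∈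
        (va2V2 M q hM K0 A0).nonunits → x ∈ 𝔫1 := by
    intro x hx
    rw [hcon x (hmap x x.2)]
    exact htb _ ((hαV2 x).mpr hx)
  -- the level-`M q` chart
  obtain ⟨-, hτV₁, hτgen₁, -, -, -, -, -, -⟩ :=
    c2i_hyps A0 (M * q) H (va2V1 M q K0 A0) (fun _ => Iff.rfl) c0 c1 hc t' ht' τ hτ
  obtain ⟨-, htO', -, ⟨b0, hb0, hspan0⟩, -, -, -, hfrac, -, -, -, hV0, -, -, -, hVτ, -⟩ :=
    c2i_chart A0 (M * q) H (va2V1 M q K0 A0) (va2V2 M q hM K0 A0) (fun _ => Iff.rfl) c0 c1 hc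
      t' ht' τ hτ (va2_hA2 A0 M q hM) (va2_htaugen2 A0 M q hM τ hτ)
      (va2_htV2 A0 M q hM H ha2 c0 c1 t' ht') (va2_htV2' A0 M q hM H ha2 c0 c1 t' ht')
      (va2_hex A0 M q hM H ha2 hA0 c0 c1 hc t' ht') 1 Nat.one_pos
  have hnoeth : IsNoetherianRing ↥(chtO A0 {t'}) :=
    cz_noeth t' (chtO A0 {t'}) htO' b0 hb0 hspan0
  have hOV₁ : ∀ x ∈ chtO A0 {t'}, x ∈ va2V1 M q K0 A0 := fun x hx => (hV0 x hx).1
  have hOV₂ : ∀ x ∈ chtO A0 {t'}, x ∈ va2V2 M q hM K0 A0 := fun x hx => (hV0 x hx).2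
  have hdec₁ := gsp_hdec₁ M q K0 A0 τ hτ
  have hτ0 : algebraMap A0 ↥(laurentBaseChange K0 (modularFunctionFieldFull (M * q))) τ ≠ 0 := by
    intro h0
    rw [IsScalarTower.algebraMap_apply A0 K0
      ↥(laurentBaseChange K0 (modularFunctionFieldFull (M * q)))] at h0
    have h1 : algebraMap A0 K0 τ = 0 := (map_eq_zero _).mp h0
    exact hτ.ne_zero (Subtype.ext h1)
  -- the node data
  obtain ⟨hB₁, -, -, -, -, hyΛ⟩ := s35nd_node M q hM K0 A0 H ha2 hA0 c0 c1 hc hQ0 hSM0 hSM1 hu0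
    hu1 t' ht' τ hτ 𝔫1 h𝔫1 hc₁ hc₂
  have hy₂ := gsp_y_mem₂ M q hM K0 A0 H ha2 hA0
  obtain ⟨-, hy₁', hy0⟩ := gsp_y_unit₁ M q K0 A0 H ha2
  have hyΛ' : ∃ a s : ↥(chtO A0 {t'}), s ∉ 𝔫1 ∧
      (heckeAlphaBar K0 M q (nunH K0 M H ha2) - heckeBetaBar K0 M q (nunH K0 M H ha2) ^ q) *
        (s : ↥(laurentBaseChange K0 (modularFunctionFieldFull (M * q)))) =
        (a : ↥(laurentBaseChange K0 (modularFunctionFieldFull (M * q)))) := by
    obtain ⟨a, s, -, hs, h⟩ := hyΛ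
    exact ⟨a, s, hs, h⟩
  have hFRAC := s35ip_frac_node τ hτ0 (chtO A0 {t'}) 𝔫1 (va2V1 M q K0 A0) (va2V2 M q hM K0 A0)
    hOV₁ hOV₂ hfrac hτV₁ hτgen₁ hdec₁ hVτ hc₁ _ hy₂ hy₁' hy0 hyΛ'
  have hbr := s36tk_br_principal (chtO A0 {t'}) 𝔫1 (va2V1 M q K0 A0) hOV₁ hc₁ hFRAC _ hyΛ hB₁
  -- the level-`M q²` chart lies in `W_a` and `W_b`
  obtain ⟨hAa, -, -, -, htWa, -, -, -, -⟩ :=
    c2i_hyps A0 (M * q * q) H (va2V1 (M * q) q K0 A0) (fun _ => Iff.rfl) c0 c1 hc t ht τ hτ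
  have hOa : ∀ x ∈ chtO A0 {t}, x ∈ va2V1 (M * q) q K0 A0 := fun x hx =>
    cht_le_valuationSubring (va2V1 (M * q) q K0 A0) hAa (s := {t})
      (by rintro y rfl; exact htWa) hx
  have hAb : ∀ a : A0,
      algebraMap A0 ↥(laurentBaseChange K0 (modularFunctionFieldFull (M * q * q))) a ∈
        (va2V1 (M * q) q K0 A0).comap (s36v3Swap M q hM K0) := by
    intro a
    rw [IsScalarTower.algebraMap_apply A0 K0
      ↥(laurentBaseChange K0 (modularFunctionFieldFull (M * q * q)))]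
    exact (s36v3_const_Wb M q hM K0 A0 (a : K0)).mpr a.2
  have htWb : t ∈ (va2V1 (M * q) q K0 A0).comap (s36v3Swap M q hM K0) := by
    have h1 : heckeAlphaBar K0 (M * q) q t' = t := hαt
    rw [← h1]
    exact (s36v3_al_Wb M q hM K0 A0 t').mpr (hOV₂ t' htO')
  have hOb : ∀ x ∈ chtO A0 {t}, x ∈ (va2V1 (M * q) q K0 A0).comap (s36v3Swap M q hM K0) :=
    fun x hx => cht_le_valuationSubring _ hAb (s := {t}) (by rintro y rfl; exact htWb) hx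
  have hRa := s36tk_le (chtO A0 {t}) 𝔫 (va2V1 (M * q) q K0 A0) hOa hta
  have hRb := s36tk_le (chtO A0 {t}) 𝔫 ((va2V1 (M * q) q K0 A0).comap (s36v3Swap M q hM K0))
    hOb htb
  have hlocal : ∀ x ∈ (ndrLoc (chtO A0 {t}) 𝔫).toSubring, x ≠ 0 →
      x⁻¹ ∈ (ndrLoc (chtO A0 {t}) 𝔫).toSubring →
      ∀ y ∈ (ndrLoc (chtO A0 {t}) 𝔫).toSubring,
        (y = 0 ∨ y⁻¹ ∉ (ndrLoc (chtO A0 {t}) 𝔫).toSubring) →
      x + y ≠ 0 ∧ (x + y)⁻¹ ∈ (ndrLoc (chtO A0 {t}) 𝔫).toSubring :=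
    haveI : IsLocalRing ↥(ndrLoc (chtO A0 {t}) 𝔫).toSubring :=
      inferInstanceAs (IsLocalRing ↥(ndrLoc (chtO A0 {t}) 𝔫))
    s36ti_local _
  -- the local homomorphism `O'_𝔫1 → O_𝔫`
  have hαO : ∀ x : ↥(chtO A0 {t'}), (heckeAlphaBar K0 (M * q) q).toRingHom
      (x : ↥(laurentBaseChange K0 (modularFunctionFieldFull (M * q)))) ∈
        (ndrLoc (chtO A0 {t}) 𝔫).toSubring :=
    fun x => ndr_le (chtO A0 {t}) 𝔫 (hmap x x.2)
  have hαu : ∀ x : ↥(chtO A0 {t'}), x ∉ 𝔫1 → ((heckeAlphaBar K0 (M * q) q).toRingHom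
      (x : ↥(laurentBaseChange K0 (modularFunctionFieldFull (M * q)))))⁻¹ ∈
        (ndrLoc (chtO A0 {t}) 𝔫).toSubring := by
    intro x hx
    exact ndr_inv_mem (chtO A0 {t}) 𝔫 ⟨_, hmap x x.2⟩ (fun h => hx ((hcon x (hmap x x.2)).mpr h))
  have hαn : ∀ x : ↥(chtO A0 {t'}), x ∈ 𝔫1 → (heckeAlphaBar K0 (M * q) q).toRingHom
      (x : ↥(laurentBaseChange K0 (modularFunctionFieldFull (M * q)))) = 0 ∨
      ((heckeAlphaBar K0 (M * q) q).toRingHom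
        (x : ↥(laurentBaseChange K0 (modularFunctionFieldFull (M * q)))))⁻¹ ∉
          (ndrLoc (chtO A0 {t}) 𝔫).toSubring := by
    intro x hx
    refine s36tk_nonunit (chtO A0 {t}) 𝔫 ⟨⟨_, hmap x x.2⟩, 1, (hcon x (hmap x x.2)).mp hx,
      (Ideal.ne_top_iff_one 𝔫).mp h𝔫.ne_top, ?_⟩
    rw [Subalgebra.coe_one, mul_one]
    rfl
  have hres : ∀ x ∈ va2V1 (M * q) q K0 A0, ∃ s ∈ va2V1 M q K0 A0,
      x - (heckeAlphaBar K0 (M * q) q).toRingHom s ∈ (va2V1 (M * q) q K0 A0).nonunits :=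
    fun x hx => s36v3_res_al_Wa M q hM K0 A0 hA0 x hx
  refine ⟨s36tk_map_loc (heckeAlphaBar K0 (M * q) q).toRingHom
      (ndrLoc (chtO A0 {t}) 𝔫).toSubring (chtO A0 {t'}) 𝔫1 hαO hαu,
    s36tk_dec (heckeAlphaBar K0 (M * q) q).toRingHom (va2V1 (M * q) q K0 A0) (va2V1 M q K0 A0)
      (ndrLoc (chtO A0 {t}) 𝔫).toSubring (chtO A0 {t'}) 𝔫1 hRa hlocal hαO hαu hαn
      (fun x hx => (hαV1 x).mpr hx) hres hbr,
    s36tk_node (heckeAlphaBar K0 (M * q) q).toRingHom (va2V1 (M * q) q K0 A0)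
      ((va2V1 (M * q) q K0 A0).comap (s36v3Swap M q hM K0)) (va2V1 M q K0 A0)
      (ndrLoc (chtO A0 {t}) 𝔫).toSubring (chtO A0 {t'}) 𝔫1 hRa hRb hαO hαu
      (fun x hx => (hαV1 x).mpr hx) _ hyΛ' ((hαV2 _).mpr hy₂) hB₁⟩

/-- **[TRI-INST-B]**, inverse charts: the same for `chtO A0 {t⁻¹}` (level `M q²`) and
`chtO A0 {t'⁻¹}` (level `M q`) — the instance `(c1, c0)` of `s36tb_al`. -/
theorem s36tb_al_inv (ha2 : a2 ∣ M) (hA0 : A0.LiesOverPrime q) (c0 c1 : A0)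
    (hc : IsLocalRing.residue ↥A0 c0 ≠ IsLocalRing.residue ↥A0 c1)
    (hQ1 : smi2U A0 (aeval (c1 : K0) H.Qrad))
    (hSM0 : cinstSMChart K0 A0 M H (c0 : K0) (c1 : K0))
    (hSM1 : cinstSMChart K0 A0 M H (c1 : K0) (c0 : K0))
    (hu0 : unrChart K0 A0 M H c0 c1) (hu1 : unrChart K0 A0 M H c1 c0)
    [Algebra ↥A0 ↥(laurentBaseChange K0 (modularFunctionFieldFull (M * q)))]
    [IsScalarTower ↥A0 K0 ↥(laurentBaseChange K0 (modularFunctionFieldFull (M * q)))]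
    [Algebra ↥A0 ↥(laurentBaseChange K0 (modularFunctionFieldFull (M * q * q)))]
    [IsScalarTower ↥A0 K0 ↥(laurentBaseChange K0 (modularFunctionFieldFull (M * q * q)))]
    (t' : ↥(laurentBaseChange K0 (modularFunctionFieldFull (M * q))))
    (ht' : (t' : LaurentSeries K0) = cinstU H K0 (c0 : K0) (c1 : K0))
    (t : ↥(laurentBaseChange K0 (modularFunctionFieldFull (M * q * q))))
    (ht : (t : LaurentSeries K0) = cinstU H K0 (c0 : K0) (c1 : K0))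
    (τ : A0) (hτ : Irreducible τ)
    (𝔫 : Ideal ↥(chtO A0 {t⁻¹})) [h𝔫 : 𝔫.IsPrime]
    (hta : ∀ x : ↥(chtO A0 {t⁻¹}),
      (x : ↥(laurentBaseChange K0 (modularFunctionFieldFull (M * q * q)))) ∈
        (va2V1 (M * q) q K0 A0).nonunits → x ∈ 𝔫)
    (htb : ∀ x : ↥(chtO A0 {t⁻¹}),
      (x : ↥(laurentBaseChange K0 (modularFunctionFieldFull (M * q * q)))) ∈
        ((va2V1 (M * q) q K0 A0).comap (s36v3Swap M q hM K0)).nonunits → x ∈ 𝔫)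
    (𝔫1 : Ideal ↥(chtO A0 {t'⁻¹})) (h𝔫1 : 𝔫1.IsMaximal)
    (hcon : ∀ (x : ↥(chtO A0 {t'⁻¹}))
      (hx : heckeAlphaBar K0 (M * q) q
        (x : ↥(laurentBaseChange K0 (modularFunctionFieldFull (M * q)))) ∈ chtO A0 {t⁻¹}),
      x ∈ 𝔫1 ↔ (⟨heckeAlphaBar K0 (M * q) q
        (x : ↥(laurentBaseChange K0 (modularFunctionFieldFull (M * q)))), hx⟩ :
          ↥(chtO A0 {t⁻¹})) ∈ 𝔫) :
    haveI := h𝔫1.isPrime
    (∀ r ∈ (ndrLoc (chtO A0 {t'⁻¹}) 𝔫1).toSubring,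
      (heckeAlphaBar K0 (M * q) q).toRingHom r ∈ (ndrLoc (chtO A0 {t⁻¹}) 𝔫).toSubring) ∧
    (∀ a ∈ (ndrLoc (chtO A0 {t⁻¹}) 𝔫).toSubring, ∃ a1 ∈ (ndrLoc (chtO A0 {t'⁻¹}) 𝔫1).toSubring,
      a - (heckeAlphaBar K0 (M * q) q).toRingHom a1 ∈ (va2V1 (M * q) q K0 A0).nonunits) ∧
    (∀ a ∈ (ndrLoc (chtO A0 {t'⁻¹}) 𝔫1).toSubring,
      (a = 0 ∨ a⁻¹ ∉ (ndrLoc (chtO A0 {t'⁻¹}) 𝔫1).toSubring) →
      ∃ v ∈ (ndrLoc (chtO A0 {t'⁻¹}) 𝔫1).toSubring,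
        ∃ w ∈ (ndrLoc (chtO A0 {t'⁻¹}) 𝔫1).toSubring,
        (heckeAlphaBar K0 (M * q) q).toRingHom v ∈ (va2V1 (M * q) q K0 A0).nonunits ∧
        (heckeAlphaBar K0 (M * q) q).toRingHom w ∈
          ((va2V1 (M * q) q K0 A0).comap (s36v3Swap M q hM K0)).nonunits ∧ a = v + w) :=
  s36tb_al M q hM K0 A0 H ha2 hA0 c1 c0 hc.symm hQ1 hSM1 hSM0 hu1 hu0 t'⁻¹
    (by rw [IntermediateField.coe_inv, ht', cinstU_inv]) t⁻¹
    (by rw [IntermediateField.coe_inv, ht, cinstU_inv]) τ hτ 𝔫 hta htb 𝔫1 h𝔫1 hcon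

end Carrier

end Fermat.Agent.S36
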