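/-
S36, family D (NORMRES-TORIC) / TRI-INST, leaf [TRI-HAL-CAR] (prefix `s36th_`; includes the norm input [TRI-NORM-CAR]):
the NORM input `hNα` of `s36ti_main` at the carrier, and with it the complete ALPHA-side datum
`S36tjAl` (binder `hal` of `s36tj_main`, `S36/TriInst.lean`) at every triple point of the two
charts of level `M q²`.

Abstract part:
* `s36th_unit` : if `𝔫` is the only prime over `𝔫'` along an integral ring homomorphism `f`,
  every `s ∉ 𝔫` divides `f c` for some `c ∉ 𝔫'`;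
* `s36th_int` : then every element of the local ring `O_𝔫` is integral over (the image of) the
  local ring `O'_𝔫'`;
* `s36th_norm` : then norms of elements of `O_𝔫` lie in `O'_𝔫'` (`O'` integrally closed).

Carrier: the contraction `𝔫1` along `al` of a triple point `𝔫` is a node of the level-`M q`
chart; `𝔫` is the only prime over it (every prime over `𝔫1` lies on `W_b` by going down and
exhaustion `s36v3_exh_al2`; two primes on `W_b` with the same contraction are equal because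
`W_b / V₂` is radicial along `al` and the branch `V₂` of the node is a valuation ring:
`s36pt_br_unique` with (BR) from `s36tk_br_principal`).
-/
import Mathlib
import Fermat.Agent.S36.TriInstB
import Fermat.Agent.S36.TriInst
import Fermat.Agent.S36.PtTypesLoc
import Fermat.Agent.S36.ChartMap
import Fermat.Agent.S35.HCoreDef

set_option autoImplicit false
set_option linter.unusedSectionVars false

noncomputable section

open ModularCurve AlgebraicCurve Polynomial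
open Fermat.Agent.S18 Fermat.Agent.S37 Fermat.Agent.S34 Fermat.Agent.S35

namespace Fermat.Agent.S36

local notation "Qb" => AlgebraicClosure ℚ

section Ring

variable {R S : Type*} [CommRing R] [CommRing S]

/-- if `𝔫` is the only prime of `S` over the prime `𝔫'` of `R` along the integral ring
homomorphism `f`, every `s ∉ 𝔫` divides the image of an element outside `𝔫'` -/
theorem s36th_unit (f : R →+* S) (hint : f.IsIntegral) (𝔫' : Ideal R) [𝔫'.IsPrime]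
    (𝔫 : Ideal S) (huniq : ∀ Q : Ideal S, Q.IsPrime → Q.comap f = 𝔫' → Q = 𝔫)
    (s : S) (hs : s ∉ 𝔫) : ∃ (b : S) (c : R), c ∉ 𝔫' ∧ s * b = f c := by
  by_contra hcon
  have hdisj : Disjoint ((Ideal.span {s} : Ideal S) : Set S)
      ((𝔫'.primeCompl.map f : Submonoid S) : Set S) := by
    rw [Set.disjoint_left]
    rintro x hx ⟨c, hc, rfl⟩
    obtain ⟨b, hb⟩ := Ideal.mem_span_singleton'.mp hx
    exact hcon ⟨b, c, hc, by rw [mul_comm]; exact hb⟩
  obtain ⟨P, hP, hsP, hPd⟩ := Ideal.exists_le_prime_disjoint _ _ hdisj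
  have hle : P.comap f ≤ 𝔫' := by
    intro x hx
    by_contra hx'
    exact Set.disjoint_left.mp hPd (Ideal.mem_comap.mp hx) ⟨x, hx', rfl⟩
  obtain ⟨Q, hPQ, hQ, hQc⟩ := s36pt_going_up f hint P 𝔫' hle
  have hQ𝔫 := huniq Q hQ hQc
  exact hs (hQ𝔫 ▸ hPQ (hsP (Ideal.mem_span_singleton_self s)))

end Ring

section Field

variable {A E F : Type*} [CommRing A] [Field E] [Field F] [Algebra A E] [Algebra A F]

/-- every element of `O_𝔫` is integral over the image of `O'_𝔫'`, when `O` is integral over the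
image of `O'` and `𝔫` is the only prime of `O` over `𝔫'` -/
theorem s36th_int (φ : E →ₐ[A] F) (O' : Subalgebra A E) (O : Subalgebra A F)
    (hφO : ∀ x ∈ O', φ x ∈ O) (hint : ∀ y ∈ O, IsIntegral ↥(O'.map φ) y)
    (𝔫 : Ideal ↥O) [𝔫.IsPrime] (𝔫' : Ideal ↥O') [𝔫'.IsPrime]
    (huniq : ∀ Q : Ideal ↥O, Q.IsPrime →
      (∀ x : ↥O', x ∈ 𝔫' ↔ s36ptRes φ O' O hφO x ∈ Q) → Q = 𝔫)
    (u : F) (hu : u ∈ ndrLoc O 𝔫) :
    ∃ p : Polynomial E, p.Monic ∧ (∀ i, p.coeff i ∈ (ndrLoc O' 𝔫').toSubring) ∧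
      Polynomial.eval₂ (φ : E →+* F) u p = 0 := by
  obtain ⟨a, s, hs, hus⟩ := hu
  obtain ⟨b, c, hc, hsb⟩ := s36th_unit (s36ptRes φ O' O hφO)
    (s36ptRes_isIntegral φ O' O hφO hint) 𝔫' 𝔫
    (fun Q hQ hQc => huniq Q hQ (fun x => by rw [← hQc]; exact Iff.rfl)) s hs
  have hc0 : (c : E) ≠ 0 := by
    intro h
    apply hc
    have h0 : c = 0 := Subtype.ext h
    rw [h0]
    exact 𝔫'.zero_mem
  have hφc0 : φ (c : E) ≠ 0 := (map_ne_zero (φ : E →+* F)).mpr hc0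
  have h1 : (s : F) * (b : F) = φ (c : E) := congrArg Subtype.val hsb
  have e : u = ((a * b : ↥O) : F) * φ ((c : E)⁻¹) := by
    rw [map_inv₀, Subalgebra.coe_mul, ← hus, eq_mul_inv_iff_mul_eq₀ hφc0, ← h1]
    ring
  -- the ring homomorphism `O'_𝔫' → F`
  let g : ↥(ndrLoc O' 𝔫').toSubring →+* F := (φ : E →+* F).comp (ndrLoc O' 𝔫').toSubring.subtype
  let ι : ↥O' →+* ↥(ndrLoc O' 𝔫').toSubring :=
    (O'.val : ↥O' →+* E).codRestrict (ndrLoc O' 𝔫').toSubring (fun x => ndr_le O' 𝔫' x.2)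
  have hg1 : g.IsIntegralElem ((a * b : ↥O) : F) := by
    obtain ⟨P, hP, hPy⟩ := s36pt_int_elem φ O' ((a * b : ↥O) : F) (hint _ (a * b).2)
    refine ⟨P.map ι, hP.map _, ?_⟩
    rw [Polynomial.eval₂_map]
    exact hPy
  have hg2 : g.IsIntegralElem (φ ((c : E)⁻¹)) := by
    have h2 : φ ((c : E)⁻¹) = g ⟨(c : E)⁻¹, ndr_inv_mem O' 𝔫' c hc⟩ := rfl
    rw [h2]
    exact g.isIntegralElem_map
  have hg3 : g.IsIntegralElem u := by
    rw [e]
    exact RingHom.IsIntegralElem.mul g hg1 hg2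
  obtain ⟨P, hP, hPu⟩ := hg3
  refine ⟨P.map (ndrLoc O' 𝔫').toSubring.subtype, hP.map _, fun i => ?_, ?_⟩
  · rw [Polynomial.coeff_map]
    exact (P.coeff i).2
  · rw [Polynomial.eval₂_map]
    exact hPu

/-- norms of elements of `O_𝔫` lie in `O'_𝔫'`, when `O'` is integrally closed in `E`, `O` is
integral over the image of `O'` and `𝔫` is the only prime of `O` over `𝔫'` -/
theorem s36th_norm (φ : E →ₐ[A] F) (O' : Subalgebra A E) (O : Subalgebra A F)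
    (hφO : ∀ x ∈ O', φ x ∈ O) (hint : ∀ y ∈ O, IsIntegral ↥(O'.map φ) y)
    (hic : ∀ x : E, IsIntegral ↥O' x → x ∈ O')
    (𝔫 : Ideal ↥O) [𝔫.IsPrime] (𝔫' : Ideal ↥O') [𝔫'.IsPrime]
    (huniq : ∀ Q : Ideal ↥O, Q.IsPrime →
      (∀ x : ↥O', x ∈ 𝔫' ↔ s36ptRes φ O' O hφO x ∈ Q) → Q = 𝔫)
    (u : F) (hu : u ∈ ndrLoc O 𝔫) :
    (letI := (φ : E →+* F).toAlgebra; Algebra.norm E u) ∈ (ndrLoc O' 𝔫').toSubring :=
  s36ti_norm_mem (φ : E →+* F) (ndrLoc O' 𝔫').toSubring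
    (fun _ hx => dma_ic O' 𝔫' hic hx) u (s36th_int φ O' O hφO hint 𝔫 𝔫' huniq u hu)

end Field

section Carrier

variable (M q : ℕ) [NeZero M] [hq : Fact q.Prime] (hM : ¬ q ∣ M)
  (K0 : Type*) [Field K0] [Algebra ℚ K0] [Algebra K0 Qb]
  (A0 : ValuationSubring K0) [IsDiscreteValuationRing ↥A0]
  {a2 : ℕ} (H : HauptRec a2 q)

/-- **[TRI-HAL-CAR]** the norm input `hNα` of `s36ti_main` at a point of the level-`M q²` chart
`chtO A0 {t}` lying on `W_a` and `W_b`: norms along `al` of elements of `O_𝔫` lie in the local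
ring of the node `𝔫1 = al⁻¹(𝔫)` of the level-`M q` chart. -/
theorem s36th_hN (ha2 : a2 ∣ M) (hA0 : A0.LiesOverPrime q) (c0 c1 : A0)
    (hc : IsLocalRing.residue ↥A0 c0 ≠ IsLocalRing.residue ↥A0 c1)
    (hQ0 : smi2U A0 (aeval (c0 : K0) H.Qrad))
    (hSM0 : cinstSMChart K0 A0 M H (c0 : K0) (c1 : K0))
    (hSM1 : cinstSMChart K0 A0 M H (c1 : K0) (c0 : K0))
    (hu0 : unrChart K0 A0 M H c0 c1) (hu1 : unrChart K0 A0 M H c1 c0)
    [Algebra ↥A0 ↥(laurentBaseChange K0 (modularFunctionFieldFull (M * q)))]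
    [IsScalarTower ↥A0 K0 ↥(laurentBaseChange K0 (modularFunctionFieldFull (M * q)))]
    [Algebra ↥A0 ↥(laurentBaseChange K0 (modularFunctionFieldFull (M * q * q)))]
    [IsScalarTower ↥A0 K0 ↥(laurentBaseChange K0 (modularFunctionFieldFull (M * q * q)))]
    (t' : ↥(laurentBaseChange K0 (modularFunctionFieldFull (M * q))))
    (ht' : (t' : LaurentSeries K0) = cinstU H K0 (c0 : K0) (c1 : K0))
    (t : ↥(laurentBaseChange K0 (modularFunctionFieldFull (M * q * q))))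
    (ht : (t : LaurentSeries K0) = cinstU H K0 (c0 : K0) (c1 : K0))
    (τ : A0) (hτ : Irreducible τ)
    (𝔫 : Ideal ↥(chtO A0 {t})) [h𝔫 : 𝔫.IsPrime]
    (hta : ∀ x : ↥(chtO A0 {t}),
      (x : ↥(laurentBaseChange K0 (modularFunctionFieldFull (M * q * q)))) ∈
        (va2V1 (M * q) q K0 A0).nonunits → x ∈ 𝔫)
    (htb : ∀ x : ↥(chtO A0 {t}),
      (x : ↥(laurentBaseChange K0 (modularFunctionFieldFull (M * q * q)))) ∈
        ((va2V1 (M * q) q K0 A0).comap (s36v3Swap M q hM K0)).nonunits → x ∈ 𝔫)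
    (𝔫1 : Ideal ↥(chtO A0 {t'})) (h𝔫1 : 𝔫1.IsMaximal)
    (hcon : ∀ (x : ↥(chtO A0 {t'}))
      (hx : heckeAlphaBar K0 (M * q) q
        (x : ↥(laurentBaseChange K0 (modularFunctionFieldFull (M * q)))) ∈ chtO A0 {t}),
      x ∈ 𝔫1 ↔ (⟨heckeAlphaBar K0 (M * q) q
        (x : ↥(laurentBaseChange K0 (modularFunctionFieldFull (M * q)))), hx⟩ :
          ↥(chtO A0 {t})) ∈ 𝔫) :
    haveI := h𝔫1.isPrime
    ∀ u ∈ (ndrLoc (chtO A0 {t}) 𝔫).toSubring,
      s35NormA K0 (M * q) q u ∈ (ndrLoc (chtO A0 {t'}) 𝔫1).toSubring := by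
  classical
  have := h𝔫1.isPrime
  -- `al` maps the level-`M q` chart into the level-`M q²` chart
  let α : ↥(laurentBaseChange K0 (modularFunctionFieldFull (M * q))) →ₐ[A0]
      ↥(laurentBaseChange K0 (modularFunctionFieldFull (M * q * q))) :=
    (heckeAlphaBar K0 (M * q) q).restrictScalars A0
  have hαt : α t' = t := Subtype.ext ((coe_heckeAlphaBar (M * q) q t').trans (ht'.trans ht.symm))
  have hmap : ∀ x ∈ chtO A0 {t'}, α x ∈ chtO A0 {t} := by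
    intro x hx
    have h := cmi_map_mem α t' hx
    rw [hαt] at h
    exact h
  -- the table
  have hαV1 : ∀ x : ↥(laurentBaseChange K0 (modularFunctionFieldFull (M * q))),
      (heckeAlphaBar K0 (M * q) q).toRingHom x ∈ (va2V1 (M * q) q K0 A0).nonunits ↔
        x ∈ (va2V1 M q K0 A0).nonunits :=
    s36tc_nu_map (heckeAlphaBar K0 (M * q) q).toRingHom (va2V1 M q K0 A0)
      (va2V1 (M * q) q K0 A0) (s36v3_al_Wa M q K0 A0)
  have hαV2 : ∀ x : ↥(laurentBaseChange K0 (modularFunctionFieldFull (M * q))),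
      (heckeAlphaBar K0 (M * q) q).toRingHom x ∈
        ((va2V1 (M * q) q K0 A0).comap (s36v3Swap M q hM K0)).nonunits ↔
        x ∈ (va2V2 M q hM K0 A0).nonunits :=
    s36tc_nu_map (heckeAlphaBar K0 (M * q) q).toRingHom (va2V2 M q hM K0 A0)
      ((va2V1 (M * q) q K0 A0).comap (s36v3Swap M q hM K0)) (s36v3_al_Wb M q hM K0 A0)
  -- the point below is a crossing point
  have hc₁ : ∀ x : ↥(chtO A0 {t'}),
      (x : ↥(laurentBaseChange K0 (modularFunctionFieldFull (M * q)))) ∈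
        (va2V1 M q K0 A0).nonunits → x ∈ 𝔫1 := by
    intro x hx
    rw [hcon x (hmap x x.2)]
    exact hta _ ((hαV1 x).mpr hx)
  have hc₂ : ∀ x : ↥(chtO A0 {t'}),
      (x : ↥(laurentBaseChange K0 (modularFunctionFieldFull (M * q)))) ∈
        (va2V2 M q hM K0 A0).nonunits → x ∈ 𝔫1 := by
    intro x hx
    rw [hcon x (hmap x x.2)]
    exact htb _ ((hαV2 x).mpr hx)
  -- the level-`M q` chart
  obtain ⟨-, hτV₁, -, -, -, -, -, -, -⟩ :=
    c2i_hyps A0 (M * q) H (va2V1 M q K0 A0) (fun _ => Iff.rfl) c0 c1 hc t' ht' τ hτ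
  obtain ⟨-, htO', -, ⟨b0, hb0, hspan0⟩, -, -, -, hfrac, -, -, -, hV0, -, -, -, hVτ, -⟩ :=
    c2i_chart A0 (M * q) H (va2V1 M q K0 A0) (va2V2 M q hM K0 A0) (fun _ => Iff.rfl) c0 c1 hc
      t' ht' τ hτ (va2_hA2 A0 M q hM) (va2_htaugen2 A0 M q hM τ hτ)
      (va2_htV2 A0 M q hM H ha2 c0 c1 t' ht') (va2_htV2' A0 M q hM H ha2 c0 c1 t' ht')
      (va2_hex A0 M q hM H ha2 hA0 c0 c1 hc t' ht') 1 Nat.one_pos
  have hnoeth : IsNoetherianRing ↥(chtO A0 {t'}) :=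
    cz_noeth t' (chtO A0 {t'}) htO' b0 hb0 hspan0
  have hic' : ∀ x : ↥(laurentBaseChange K0 (modularFunctionFieldFull (M * q))),
      IsIntegral ↥(chtO A0 {t'}) x → x ∈ chtO A0 {t'} := fun x hx => cht_integral_closed {t'} hx
  have hicl : IsIntegrallyClosed ↥(chtO A0 {t'}) :=
    kri_sub_isIntegrallyClosed (chtO A0 {t'}) hfrac hic'
  have hOV₁ : ∀ x ∈ chtO A0 {t'}, x ∈ va2V1 M q K0 A0 := fun x hx => (hV0 x hx).1
  have hOV₂ : ∀ x ∈ chtO A0 {t'}, x ∈ va2V2 M q hM K0 A0 := fun x hx => (hV0 x hx).2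
  have hdec₂ := gsp_hdec₂ M q hM K0 A0 τ hτ
  have hτ0 : algebraMap A0 ↥(laurentBaseChange K0 (modularFunctionFieldFull (M * q))) τ ≠ 0 := by
    intro h0
    rw [IsScalarTower.algebraMap_apply A0 K0
      ↥(laurentBaseChange K0 (modularFunctionFieldFull (M * q)))] at h0
    have h1 : algebraMap A0 K0 τ = 0 := (map_eq_zero _).mp h0
    exact hτ.ne_zero (Subtype.ext h1)
  have hτV₂ : algebraMap A0 ↥(laurentBaseChange K0 (modularFunctionFieldFull (M * q))) τ ∈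
      (va2V2 M q hM K0 A0).nonunits := by
    rw [va2_mem_nonunits_V2, IsScalarTower.algebraMap_apply A0 K0
      ↥(laurentBaseChange K0 (modularFunctionFieldFull (M * q))), va2Swap_const,
      ← IsScalarTower.algebraMap_apply A0 K0
      ↥(laurentBaseChange K0 (modularFunctionFieldFull (M * q)))]
    exact hτV₁
  -- the node data: the branch `V₂`
  obtain ⟨-, hB₂, -, -, hxΛ, -⟩ := s35nd_node M q hM K0 A0 H ha2 hA0 c0 c1 hc hQ0 hSM0 hSM1 hu0
    hu1 t' ht' τ hτ 𝔫1 h𝔫1 hc₁ hc₂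
  have hx₁ := gsp_x_mem₁ M q hM K0 A0 H ha2 hA0
  obtain ⟨-, hx₂', hx0⟩ := gsp_x_unit₂ M q hM K0 A0 H ha2
  have hxΛ' : ∃ a s : ↥(chtO A0 {t'}), s ∉ 𝔫1 ∧
      (heckeAlphaBar K0 M q (nunH K0 M H ha2) ^ q - heckeBetaBar K0 M q (nunH K0 M H ha2)) *
        (s : ↥(laurentBaseChange K0 (modularFunctionFieldFull (M * q)))) =
        (a : ↥(laurentBaseChange K0 (modularFunctionFieldFull (M * q)))) := by
    obtain ⟨a, s, -, hs, h⟩ := hxΛ
    exact ⟨a, s, hs, h⟩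
  have hFRAC₂ := s35ip_frac_node τ hτ0 (chtO A0 {t'}) 𝔫1 (va2V2 M q hM K0 A0) (va2V1 M q K0 A0)
    hOV₂ hOV₁ hfrac hτV₂ (va2_htaugen2 A0 M q hM τ hτ) hdec₂
    (fun x hx h2 h1 => hVτ x hx h1 h2) hc₂ _ hx₁ hx₂' hx0 hxΛ'
  have hbr₂ := s36tk_br_principal (chtO A0 {t'}) 𝔫1 (va2V2 M q hM K0 A0) hOV₂ hc₂ hFRAC₂ _ hxΛ
    hB₂
  -- the level-`M q²` chart lies in `W_b`
  have hAb : ∀ a : A0,
      algebraMap A0 ↥(laurentBaseChange K0 (modularFunctionFieldFull (M * q * q))) a ∈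
        (va2V1 (M * q) q K0 A0).comap (s36v3Swap M q hM K0) := by
    intro a
    rw [IsScalarTower.algebraMap_apply A0 K0
      ↥(laurentBaseChange K0 (modularFunctionFieldFull (M * q * q)))]
    exact (s36v3_const_Wb M q hM K0 A0 (a : K0)).mpr a.2
  have htWb : t ∈ (va2V1 (M * q) q K0 A0).comap (s36v3Swap M q hM K0) := by
    have h1 : heckeAlphaBar K0 (M * q) q t' = t := hαt
    rw [← h1]
    exact (s36v3_al_Wb M q hM K0 A0 t').mpr (hOV₂ t' htO')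
  have hOb : ∀ x ∈ chtO A0 {t}, x ∈ (va2V1 (M * q) q K0 A0).comap (s36v3Swap M q hM K0) :=
    fun x hx => cht_le_valuationSubring _ hAb (s := {t}) (by rintro y rfl; exact htWb) hx
  -- integrality of the upper chart over the image of the lower chart
  have hint : ∀ y ∈ chtO A0 {t}, IsIntegral ↥((chtO A0 {t'}).map α) y := by
    intro y hy
    have hy' : y ∈ chtO A0 {(α : ↥(laurentBaseChange K0 (modularFunctionFieldFull (M * q))) →+*
        ↥(laurentBaseChange K0 (modularFunctionFieldFull (M * q * q)))) t'} := by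
      have h1 : (α : ↥(laurentBaseChange K0 (modularFunctionFieldFull (M * q))) →+*
        ↥(laurentBaseChange K0 (modularFunctionFieldFull (M * q * q)))) t' = t := hαt
      rw [h1]
      exact hy
    obtain ⟨p, hp, hcoef, hpy⟩ := s36cm_integral
      (α : ↥(laurentBaseChange K0 (modularFunctionFieldFull (M * q))) →+*
        ↥(laurentBaseChange K0 (modularFunctionFieldFull (M * q * q)))) (fun a => α.commutes a) t' hy'
    refine (cht_isIntegral_iff ((chtO A0 {t'}).map α) y).mpr ⟨p, hp, fun i => ?_, hpy⟩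
    obtain ⟨c, hc, h⟩ := hcoef i
    rw [h]
    exact ⟨c, hc, rfl⟩
  -- `𝔫` is the only prime over `𝔫1`
  have huniq : ∀ Q : Ideal ↥(chtO A0 {t}), Q.IsPrime →
      (∀ x : ↥(chtO A0 {t'}), x ∈ 𝔫1 ↔ s36ptRes α (chtO A0 {t'}) (chtO A0 {t}) hmap x ∈ Q) →
      Q = 𝔫 := by
    intro Q hQ hQc
    have hQb : ∀ y : ↥(chtO A0 {t}),
        (y : ↥(laurentBaseChange K0 (modularFunctionFieldFull (M * q * q)))) ∈
          ((va2V1 (M * q) q K0 A0).comap (s36v3Swap M q hM K0)).nonunits → y ∈ Q :=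
      s36pt_through α (chtO A0 {t'}) (chtO A0 {t}) hmap hint (va2V2 M q hM K0 A0)
        ((va2V1 (M * q) q K0 A0).comap (s36v3Swap M q hM K0)) hOV₂ hOb hFRAC₂
        (fun W hW => s36v3_exh_al2 M q hM K0 A0 hA0 W hW) Q
        (fun x hx => (hQc x).mp (hc₂ x hx))
    exact s36pt_br_unique α (chtO A0 {t'}) (chtO A0 {t}) hmap (va2V2 M q hM K0 A0)
      ((va2V1 (M * q) q K0 A0).comap (s36v3Swap M q hM K0)) hOb
      (fun x => s36v3_al_Wb M q hM K0 A0 x) q hq.out.pos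
      (fun y hy => s36v3_insep_al_Wb M q hM K0 A0 hA0 y hy) Q 𝔫 hQb htb 𝔫1 hQc
      (fun x => hcon x (hmap x x.2)) hbr₂
  intro u hu
  exact s36th_norm α (chtO A0 {t'}) (chtO A0 {t}) hmap hint hic' 𝔫 𝔫1 huniq u hu

/-- **[TRI-HAL-CAR], (Hα) at the carrier.**  The binder `hal` of `s36tj_main` (`S36/TriInst.lean`)
for the two charts `chtO A0 {t}`, `chtO A0 {t⁻¹}` of level `M q²`: at every maximal ideal `𝔫`
through which `W_a`, `W_b` (and `W_c`) pass, the ALPHA-side datum `S36tjAl` holds for the local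
ring `O_𝔫`, with `R1` the local ring of the node `al⁻¹(𝔫)` of the level-`M q` chart. -/
theorem s36th_hal (ha2 : a2 ∣ M) (hA0 : A0.LiesOverPrime q) (c0 c1 : A0)
    (hc : IsLocalRing.residue ↥A0 c0 ≠ IsLocalRing.residue ↥A0 c1)
    (hQ0 : smi2U A0 (aeval (c0 : K0) H.Qrad)) (hQ1 : smi2U A0 (aeval (c1 : K0) H.Qrad))
    (hSM0 : cinstSMChart K0 A0 M H (c0 : K0) (c1 : K0))
    (hSM1 : cinstSMChart K0 A0 M H (c1 : K0) (c0 : K0))
    (hu0 : unrChart K0 A0 M H c0 c1) (hu1 : unrChart K0 A0 M H c1 c0)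
    [Algebra ↥A0 ↥(laurentBaseChange K0 (modularFunctionFieldFull (M * q)))]
    [IsScalarTower ↥A0 K0 ↥(laurentBaseChange K0 (modularFunctionFieldFull (M * q)))]
    [Algebra ↥A0 ↥(laurentBaseChange K0 (modularFunctionFieldFull (M * q * q)))]
    [IsScalarTower ↥A0 K0 ↥(laurentBaseChange K0 (modularFunctionFieldFull (M * q * q)))]
    (Wc : ValuationSubring ↥(laurentBaseChange K0 (modularFunctionFieldFull (M * q * q))))
    (t : ↥(laurentBaseChange K0 (modularFunctionFieldFull (M * q * q))))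
    (ht : (t : LaurentSeries K0) = cinstU H K0 (c0 : K0) (c1 : K0))
    (τ : A0) (hτ : Irreducible τ) :
    ∀ O : Subalgebra ↥A0 ↥(laurentBaseChange K0 (modularFunctionFieldFull (M * q * q))),
      O = chtO A0 {t} ∨ O = chtO A0 {t⁻¹} → ∀ (𝔫 : Ideal ↥O) (h𝔫 : 𝔫.IsMaximal),
      S36tjPt (va2V1 (M * q) q K0 A0)
        ((va2V1 (M * q) q K0 A0).comap (s36v3Swap M q hM K0)) Wc O 𝔫 →
      S36tjAl (heckeAlphaBar K0 (M * q) q).toRingHom (s35NormA K0 (M * q) q)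
        (va2V1 (M * q) q K0 A0) ((va2V1 (M * q) q K0 A0).comap (s36v3Swap M q hM K0))
        (@ndrLoc ↥A0 ↥(laurentBaseChange K0 (modularFunctionFieldFull (M * q * q))) _ _ _ O 𝔫
          h𝔫.isPrime).toSubring := by
  intro O hO 𝔫 h𝔫 hpt
  have h𝔫p := h𝔫.isPrime
  obtain ⟨hta, htb, -⟩ := hpt
  rcases hO with rfl | rfl
  · let t' : ↥(laurentBaseChange K0 (modularFunctionFieldFull (M * q))) :=
      ⟨cinstU H K0 (c0 : K0) (c1 : K0), cinstU_mem H K0 (Dvd.dvd.mul_right ha2 q) _ _⟩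
    have ht' : (t' : LaurentSeries K0) = cinstU H K0 (c0 : K0) (c1 : K0) := rfl
    obtain ⟨-, hτWa, -, -, -, -, -, -, -⟩ :=
      c2i_hyps A0 (M * q * q) H (va2V1 (M * q) q K0 A0) (fun _ => Iff.rfl) c0 c1 hc t ht τ hτ
    have hτ𝔫 : algebraMap A0 ↥(chtO A0 {t}) τ ∈ 𝔫 := hta _ hτWa
    obtain ⟨-, 𝔫1, h𝔫1, -, hcon, -⟩ :=
      s36cm_al A0 M q H (c0 : K0) (c1 : K0) t' ht' t ht τ hτ 𝔫 h𝔫 hτ𝔫
    have := h𝔫1.isPrime
    obtain ⟨hαR, h8, hnode⟩ := s36tb_al M q hM K0 A0 H ha2 hA0 c0 c1 hc hQ0 hSM0 hSM1 hu0 hu1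
      t' ht' t ht τ hτ 𝔫 hta htb 𝔫1 h𝔫1 hcon
    have hN := s36th_hN M q hM K0 A0 H ha2 hA0 c0 c1 hc hQ0 hSM0 hSM1 hu0 hu1
      t' ht' t ht τ hτ 𝔫 hta htb 𝔫1 h𝔫1 hcon
    exact ⟨(ndrLoc (chtO A0 {t'}) 𝔫1).toSubring, hαR, hN, h8, hnode⟩
  · let t' : ↥(laurentBaseChange K0 (modularFunctionFieldFull (M * q))) :=
      ⟨cinstU H K0 (c1 : K0) (c0 : K0), cinstU_mem H K0 (Dvd.dvd.mul_right ha2 q) _ _⟩
    have ht' : (t' : LaurentSeries K0) = cinstU H K0 (c1 : K0) (c0 : K0) := rfl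
    have hti : ((t⁻¹ : ↥(laurentBaseChange K0 (modularFunctionFieldFull (M * q * q)))) :
        LaurentSeries K0) = cinstU H K0 (c1 : K0) (c0 : K0) := by
      rw [IntermediateField.coe_inv, ht, cinstU_inv]
    obtain ⟨-, hτWa, -, -, -, -, -, -, -⟩ :=
      c2i_hyps A0 (M * q * q) H (va2V1 (M * q) q K0 A0) (fun _ => Iff.rfl) c1 c0 hc.symm
        t⁻¹ hti τ hτ
    have hτ𝔫 : algebraMap A0 ↥(chtO A0 {t⁻¹}) τ ∈ 𝔫 := hta _ hτWa
    obtain ⟨-, 𝔫1, h𝔫1, -, hcon, -⟩ :=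
      s36cm_al A0 M q H (c1 : K0) (c0 : K0) t' ht' t⁻¹ hti τ hτ 𝔫 h𝔫 hτ𝔫
    have := h𝔫1.isPrime
    obtain ⟨hαR, h8, hnode⟩ := s36tb_al M q hM K0 A0 H ha2 hA0 c1 c0 hc.symm hQ1 hSM1 hSM0 hu1
      hu0 t' ht' t⁻¹ hti τ hτ 𝔫 hta htb 𝔫1 h𝔫1 hcon
    have hN := s36th_hN M q hM K0 A0 H ha2 hA0 c1 c0 hc.symm hQ1 hSM1 hSM0 hu1 hu0
      t' ht' t⁻¹ hti τ hτ 𝔫 hta htb 𝔫1 h𝔫1 hcon
    exact ⟨(ndrLoc (chtO A0 {t'}) 𝔫1).toSubring, hαR, hN, h8, hnode⟩

end Carrier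

end Fermat.Agent.S36
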