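import Mathlib
import Fermat.Agent.S36.TriInst
import Fermat.Agent.S36.SwapDom
import Fermat.Agent.S36.ChartMap
import Fermat.Agent.S36.Val3Sw
import Fermat.Agent.S36.Charts3
import Fermat.Agent.S35.HCoreDef

/-!
# S36, leaf [TRI-INST], carrier wiring (prefix `s36tx_`)

`s36tj_main` (S36/TriInst.lean) at the carrier: level `M q²` over `K0`, charts
`O₀ = chtO A0 {t}`, `O₁ = chtO A0 {t⁻¹}` (`t = (h - c1) / (h - c0)`),
`α, β = heckeAlphaBar / heckeBetaBar K0 (M q) q`, `N_α, N_β = s35NormA / s35NormB K0 (M q) q`,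
`W_a = va2V1 (M q) q K0 A0`, `W_b = W_a.comap (s36v3Swap M q hM K0)`, `W_c = s36v3Wc M q hM K0 A0`.

Everything but the ALPHA-side data `(Hα)` is discharged:

* the swap `w = s36v3Swap`, `w1 = va2Swap`: involution, `w ∘ α = β ∘ w1`, the norm identity
  `w1 ∘ N_α = N_β ∘ w` (`s36tx_norm_swap`), `w` exchanges `W_a`, `W_b` and fixes `W_c` (Val3Sw);
* the chart block (`s36c3_chart`);
* (D) swap domination (`s36sw_dom_loc`);
* (Max) maximality of centres (`s36cm_abs`, `s36tx_maxc`).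

`s36tx_main`: `S36Tri` at every triple point of both charts from `(Hα)` at every triple point
of both charts.
-/

set_option autoImplicit false
set_option linter.unusedSectionVars false

noncomputable section

open ModularCurve AlgebraicCurve Polynomial
open Fermat.Agent.S18 Fermat.Agent.S34 Fermat.Agent.S35

namespace Fermat.Agent.S36

local notation "Qb" => AlgebraicClosure ℚ

section Carrier

variable (M q : ℕ) [NeZero M] [hq : Fact q.Prime]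
  (K0 : Type*) [Field K0] [Algebra ℚ K0] [Algebra K0 Qb]
  (A0 : ValuationSubring K0) [IsDiscreteValuationRing ↥A0]
  {a2 : ℕ} (H : HauptRec a2 q)

set_option quotPrecheck false in
local notation "F₁" => ↥(laurentBaseChange K0 (modularFunctionFieldFull (M * q)))
set_option quotPrecheck false in
local notation "F₂" => ↥(laurentBaseChange K0 (modularFunctionFieldFull (M * q * q)))

/-- **the norm identity**: the norm along `α` is the norm along `β` after the swaps -/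
theorem s36tx_norm_swap (hM : ¬ q ∣ M) (z : F₂) :
    va2Swap M q hq.out hM K0 (s35NormA K0 (M * q) q z)
      = s35NormB K0 (M * q) q (s36v3Swap M q hM K0 z) := by
  have h := @Algebra.norm_eq_of_equiv_equiv
    ↥(laurentBaseChange K0 (modularFunctionFieldFull (M * q)))
    ↥(laurentBaseChange K0 (modularFunctionFieldFull (M * q * q)))
    ↥(laurentBaseChange K0 (modularFunctionFieldFull (M * q)))
    ↥(laurentBaseChange K0 (modularFunctionFieldFull (M * q * q))) _ _ _ _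
    (algebraAlong (heckeAlphaBar K0 (M * q) q)) (algebraAlong (heckeBetaBar K0 (M * q) q))
    (va2SwapEquiv M q hq.out hM K0)
    (RingEquiv.ofRingHom (s36v3Swap M q hM K0) (s36v3Swap M q hM K0)
      (RingHom.ext (s36v3Swap_swap M q hM K0)) (RingHom.ext (s36v3Swap_swap M q hM K0)))
    (RingHom.ext fun x => (s36v3Swap_al M q hM K0 x).symm) z
  have h' : s35NormA K0 (M * q) q z
      = (va2SwapEquiv M q hq.out hM K0).symm
        (s35NormB K0 (M * q) q (s36v3Swap M q hM K0 z)) := h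
  rw [h']
  exact (va2SwapEquiv M q hq.out hM K0).apply_symm_apply _

/-- the swap fixes the constants of `A0` -/
theorem s36tx_swap_const (hM : ¬ q ∣ M) [Algebra A0 F₂] [IsScalarTower A0 K0 F₂] (a : A0) :
    s36v3Swap M q hM K0 (algebraMap A0 F₂ a) = algebraMap A0 F₂ a := by
  rw [IsScalarTower.algebraMap_apply A0 K0 F₂, s36v3Swap_const]

/-- **(Max)**: the centre on a chart of the local ring of a closed point over `τ` (via the swap)
is a maximal ideal -/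
theorem s36tx_maxc (hM : ¬ q ∣ M) [Algebra A0 F₂] [IsScalarTower A0 K0 F₂]
    (τ : A0) (hτ : Irreducible τ) (u u' : F₂)
    (𝔫 : Ideal ↥(chtO A0 {u})) (h𝔫 : 𝔫.IsMaximal)
    (hτ𝔫 : algebraMap A0 ↥(chtO A0 {u}) τ ∈ 𝔫)
    (hsub : ∀ x ∈ chtO A0 {u'},
      s36v3Swap M q hM K0 x ∈ @ndrLoc A0 F₂ _ _ _ (chtO A0 {u}) 𝔫 h𝔫.isPrime)
    (𝔭 : Ideal ↥(chtO A0 {u'}))
    (hc : ∀ x : ↥(chtO A0 {u'}), x ∈ 𝔭 ↔
      ∃ a s : ↥(chtO A0 {u}), a ∈ 𝔫 ∧ s ∉ 𝔫 ∧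
        s36v3Swap M q hM K0 (x : F₂) * (s : F₂) = (a : F₂)) :
    𝔭.IsMaximal := by
  obtain ⟨n'', hmax, -, hmem, -, -, -⟩ := s36cm_abs τ (s36cm_unit_of_notMem A0 τ hτ)
    (s36v3Swap M q hM K0) (s36tx_swap_const M q K0 A0 hM) u 𝔫 h𝔫 hτ𝔫 u'
    (hsub u' (cht_h1 u').1)
  have e : 𝔭 = n'' := Ideal.ext fun x => (hc x).trans (hmem x).symm
  rw [e]
  exact hmax

/-- **[TRI-INST] at the carrier.**  `S36Tri` at every triple point of the two Hauptmodul charts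
of level `M q²` from the alpha-side data `S36tjAl` at every triple point of the two charts. -/
theorem s36tx_main (hM : ¬ q ∣ M) (ha2 : a2 ∣ M) [Algebra A0 F₂] [IsScalarTower A0 K0 F₂]
    (hA0 : A0.LiesOverPrime q)
    (hunr : ∀ x ∈ A0.nonunits, x * ((q : ℕ) : K0)⁻¹ ∈ A0)
    (c0 c1 : A0) (hc : IsLocalRing.residue A0 c0 ≠ IsLocalRing.residue A0 c1)
    (hQ0 : smi2U A0 (aeval (c0 : K0) H.Qrad)) (hQ1 : smi2U A0 (aeval (c1 : K0) H.Qrad))
    (t : F₂) (ht : (t : LaurentSeries K0) = cinstU H K0 (c0 : K0) (c1 : K0))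
    (τ : A0) (hτ : Irreducible τ) (m : ℕ) (hm : 0 < m)
    (hal : ∀ O : Subalgebra A0 F₂, O = chtO A0 {t} ∨ O = chtO A0 {t⁻¹} →
      ∀ (𝔫 : Ideal ↥O) (h𝔫 : 𝔫.IsMaximal),
      S36tjPt (va2V1 (M * q) q K0 A0)
        ((va2V1 (M * q) q K0 A0).comap (s36v3Swap M q hM K0)) (s36v3Wc M q hM K0 A0) O 𝔫 →
      S36tjAl (heckeAlphaBar K0 (M * q) q).toRingHom (s35NormA K0 (M * q) q)
        (va2V1 (M * q) q K0 A0) ((va2V1 (M * q) q K0 A0).comap (s36v3Swap M q hM K0))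
        (@ndrLoc A0 F₂ _ _ _ O 𝔫 h𝔫.isPrime).toSubring) :
    ∀ O : Subalgebra A0 F₂, O = chtO A0 {t} ∨ O = chtO A0 {t⁻¹} →
      ∀ (𝔫 : Ideal ↥O) (h𝔫 : 𝔫.IsMaximal),
      S36tjPt (va2V1 (M * q) q K0 A0)
        ((va2V1 (M * q) q K0 A0).comap (s36v3Swap M q hM K0)) (s36v3Wc M q hM K0 A0) O 𝔫 →
      S36Tri (A := A0) (heckeAlphaBar K0 (M * q) q).toRingHom
        (heckeBetaBar K0 (M * q) q).toRingHom (s35NormA K0 (M * q) q) (s35NormB K0 (M * q) q)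
        (va2V1 (M * q) q K0 A0) ((va2V1 (M * q) q K0 A0).comap (s36v3Swap M q hM K0))
        (s36v3Wc M q hM K0 A0) m (@ndrLoc A0 F₂ _ _ _ O 𝔫 h𝔫.isPrime).toSubring := by
  obtain ⟨⟨-, -, -, hτa, -, -, -⟩, htt, ht₀, ht₁, -, -, h01, h10, -, -, hroot0, hroot1, -,
      hV0, hV1, -, -, -, -, -, -⟩ :=
    s36c3_chart A0 M q hM H ha2 hA0 ((va2V1 (M * q) q K0 A0).comap (s36v3Swap M q hM K0))
      (s36v3Wc M q hM K0 A0) (s36v3_al_Wb M q hM K0 A0) (s36v3_al_Wc M q hM K0 A0)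
      (s36v3_exh_al1 M q hM K0 A0 hA0 hunr) (s36v3_exh_al2 M q hM K0 A0 hA0) c0 c1 hc t ht τ hτ
      m hm
  have ht0 : t ≠ 0 := by
    rintro rfl
    rw [zero_mul] at htt
    exact zero_ne_one htt
  obtain ⟨hd0, hd1⟩ := s36sw_dom_loc M q hM K0 A0 H ha2 hA0 c0 c1 hc hQ0 hQ1 t ht τ hτ
  -- `τ` lies in every triple point
  have hτpt : ∀ (u : F₂) (𝔫 : Ideal ↥(chtO A0 {u})),
      S36tjPt (va2V1 (M * q) q K0 A0)
        ((va2V1 (M * q) q K0 A0).comap (s36v3Swap M q hM K0)) (s36v3Wc M q hM K0 A0)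
        (chtO A0 {u}) 𝔫 → algebraMap A0 ↥(chtO A0 {u}) τ ∈ 𝔫 :=
    fun u 𝔫 hpt => hpt.1 _ hτa
  refine s36tj_main (A := A0) (heckeAlphaBar K0 (M * q) q).toRingHom
    (heckeBetaBar K0 (M * q) q).toRingHom (s35NormA K0 (M * q) q) (s35NormB K0 (M * q) q)
    (va2V1 (M * q) q K0 A0) ((va2V1 (M * q) q K0 A0).comap (s36v3Swap M q hM K0))
    (s36v3Wc M q hM K0 A0) m hm
    (s36v3Swap M q hM K0) (s36v3Swap_swap M q hM K0) (va2Swap M q hq.out hM K0)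
    (fun x => s36v3Swap_al M q hM K0 x) (fun z => s36tx_norm_swap M q K0 hM z)
    (fun x hx => (s36vw_nu_Wb M q hM K0 A0 x).mpr hx)
    (fun x hx => (s36vw_nu_Wa M q hM K0 A0 x).mpr hx)
    (fun x hx => (s36vw_nu_Wc M q hM K0 A0 hA0 hunr x).mpr hx)
    t ht0 (chtO A0 {t}) (chtO A0 {t⁻¹}) ht₀ ht₁ h01 h10 ?_ ?_ ?_ ?_ hal
  · -- hV
    rintro O (rfl | rfl) x hx
    · exact hV0 x hx
    · exact hV1 x hx
  · -- hroot
    rintro O (rfl | rfl) x hx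
    · exact hroot0 x hx
    · exact hroot1 x hx
  · -- (D)
    rintro O (rfl | rfl) 𝔫 h𝔫 hpt
    · exact @hd0 𝔫 h𝔫.isPrime (hτpt t 𝔫 hpt)
    · exact @hd1 𝔫 h𝔫.isPrime (hτpt t⁻¹ 𝔫 hpt)
  · -- (Max)
    rintro O O' (rfl | rfl) (rfl | rfl) 𝔫 h𝔫 hpt hsub 𝔭 - hc
    · exact s36tx_maxc M q K0 A0 hM τ hτ t t 𝔫 h𝔫 (hτpt t 𝔫 hpt) hsub 𝔭 hc
    · exact s36tx_maxc M q K0 A0 hM τ hτ t t⁻¹ 𝔫 h𝔫 (hτpt t 𝔫 hpt) hsub 𝔭 hc
    · exact s36tx_maxc M q K0 A0 hM τ hτ t⁻¹ t 𝔫 h𝔫 (hτpt t⁻¹ 𝔫 hpt) hsub 𝔭 hc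
    · exact s36tx_maxc M q K0 A0 hM τ hτ t⁻¹ t⁻¹ 𝔫 h𝔫 (hτpt t⁻¹ 𝔫 hpt) hsub 𝔭 hc

end Carrier

end Fermat.Agent.S36
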