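import Mathlib
import Fermat.Agent.S36.TriInstCar
import Fermat.Agent.S36.Inst36Abs

/-!
# S36, the clause of the triple points at the carrier (prefix `s36ht_`)

`s36ht_of`: the binder `hT` of `s36kc_comp3` (S36/Comp3Car.lean) -- `S36inPtTri` at every closed
point over `τ` through the three components `W_a`, `W_b`, `W_c`, on both Hauptmodul charts of
level `M q²` -- from

* `(Hal)`: the alpha-side data `S36tjAl` at every triple point of both charts (the `S36Tri` half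
  is then `s36tx_main`, S36/TriInstCar.lean);
* `(Unit)`: the `S35Unit` clause at every triple point of both charts (the second conjunct of
  `S36inPtTri`).

`s36ht_pt`: the same for one `τ` and one `t`.
-/

set_option autoImplicit false
set_option linter.unusedSectionVars false
set_option linter.unusedVariables false

noncomputable section

open ModularCurve AlgebraicCurve Polynomial
open Fermat.Agent.S18 Fermat.Agent.S34 Fermat.Agent.S35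

namespace Fermat.Agent.S36

local notation "Qb" => AlgebraicClosure ℚ

section Carrier

variable (M q : ℕ) [NeZero M] [hq : Fact q.Prime]
  (K0 : Type*) [Field K0] [Algebra ℚ K0] [Algebra K0 Qb]
  (A0 : ValuationSubring K0) [IsDiscreteValuationRing ↥A0]
  {a2 : ℕ} (H : HauptRec a2 q)

set_option quotPrecheck false in
local notation "F₂" => ↥(laurentBaseChange K0 (modularFunctionFieldFull (M * q * q)))

/-- the unramifiedness of `A0` at `q` in the form used by the valuation package -/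
theorem s36ht_unr (hunif : ∀ x ∈ A0.nonunits, ∃ a ∈ A0, x = (q : K0) * a) :
    ∀ x ∈ A0.nonunits, x * ((q : ℕ) : K0)⁻¹ ∈ A0 := by
  have : CharZero K0 := algebraRat.charZero K0
  have hq0 : ((q : ℕ) : K0) ≠ 0 := Nat.cast_ne_zero.mpr hq.out.ne_zero
  intro x hx
  obtain ⟨a, ha, rfl⟩ := hunif x hx
  rw [mul_comm ((q : ℕ) : K0) a, mul_assoc, mul_inv_cancel₀ hq0, mul_one]
  exact ha

/-- **the clause of the triple points, one `τ` and one `t`**: `S36inPtTri` at every triple point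
of both charts from `(Hal)` and `(Unit)`. -/
theorem s36ht_pt (hM : ¬ q ∣ M) (ha2 : a2 ∣ M) [Algebra A0 F₂] [IsScalarTower A0 K0 F₂]
    (hA0 : A0.LiesOverPrime q)
    (hunif : ∀ x ∈ A0.nonunits, ∃ a ∈ A0, x = (q : K0) * a)
    (c0 c1 : A0) (hc : IsLocalRing.residue A0 c0 ≠ IsLocalRing.residue A0 c1)
    (hQ0 : smi2U A0 (aeval (c0 : K0) H.Qrad)) (hQ1 : smi2U A0 (aeval (c1 : K0) H.Qrad))
    (m : ℕ) (hm : 0 < m)
    (τ : A0) (hτ : Irreducible τ)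
    (t : F₂) (ht : (t : LaurentSeries K0) = cinstU H K0 (c0 : K0) (c1 : K0))
    (hal : ∀ O : Subalgebra A0 F₂, O = chtO A0 {t} ∨ O = chtO A0 {t⁻¹} →
      ∀ (𝔫 : Ideal ↥O) (h𝔫 : 𝔫.IsMaximal),
      S36tjPt (va2V1 (M * q) q K0 A0)
        ((va2V1 (M * q) q K0 A0).comap (s36v3Swap M q hM K0)) (s36v3Wc M q hM K0 A0) O 𝔫 →
      S36tjAl (heckeAlphaBar K0 (M * q) q).toRingHom (s35NormA K0 (M * q) q)
        (va2V1 (M * q) q K0 A0) ((va2V1 (M * q) q K0 A0).comap (s36v3Swap M q hM K0))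
        (@ndrLoc A0 F₂ _ _ _ O 𝔫 h𝔫.isPrime).toSubring)
    (hun : (∀ 𝔫 : Ideal ↥(chtO A0 {t}), ∀ h𝔫 : 𝔫.IsMaximal,
        algebraMap ↥A0 ↥(chtO A0 {t}) τ ∈ 𝔫 →
        (∀ x : ↥(chtO A0 {t}), (x : F₂) ∈ (va2V1 (M * q) q K0 A0).nonunits → x ∈ 𝔫) →
        (∀ x : ↥(chtO A0 {t}),
          (x : F₂) ∈ ((va2V1 (M * q) q K0 A0).comap (s36v3Swap M q hM K0)).nonunits → x ∈ 𝔫) →
        (∀ x : ↥(chtO A0 {t}), (x : F₂) ∈ (s36v3Wc M q hM K0 A0).nonunits → x ∈ 𝔫) →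
        ∀ f : F₂, f ≠ 0 → S36inOrd τ m f →
          f ∈ va2V1 (M * q) q K0 A0 → f⁻¹ ∈ va2V1 (M * q) q K0 A0 →
          f ∈ (va2V1 (M * q) q K0 A0).comap (s36v3Swap M q hM K0) →
          f⁻¹ ∈ (va2V1 (M * q) q K0 A0).comap (s36v3Swap M q hM K0) →
          f ∈ s36v3Wc M q hM K0 A0 → f⁻¹ ∈ s36v3Wc M q hM K0 A0 →
          S35Unit m (chtO A0 {t}) 𝔫 f) ∧
      (∀ 𝔫 : Ideal ↥(chtO A0 {t⁻¹}), ∀ h𝔫 : 𝔫.IsMaximal,
        algebraMap ↥A0 ↥(chtO A0 {t⁻¹}) τ ∈ 𝔫 →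
        (∀ x : ↥(chtO A0 {t⁻¹}), (x : F₂) ∈ (va2V1 (M * q) q K0 A0).nonunits → x ∈ 𝔫) →
        (∀ x : ↥(chtO A0 {t⁻¹}),
          (x : F₂) ∈ ((va2V1 (M * q) q K0 A0).comap (s36v3Swap M q hM K0)).nonunits → x ∈ 𝔫) →
        (∀ x : ↥(chtO A0 {t⁻¹}), (x : F₂) ∈ (s36v3Wc M q hM K0 A0).nonunits → x ∈ 𝔫) →
        ∀ f : F₂, f ≠ 0 → S36inOrd τ m f →
          f ∈ va2V1 (M * q) q K0 A0 → f⁻¹ ∈ va2V1 (M * q) q K0 A0 →
          f ∈ (va2V1 (M * q) q K0 A0).comap (s36v3Swap M q hM K0) →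
          f⁻¹ ∈ (va2V1 (M * q) q K0 A0).comap (s36v3Swap M q hM K0) →
          f ∈ s36v3Wc M q hM K0 A0 → f⁻¹ ∈ s36v3Wc M q hM K0 A0 →
          S35Unit m (chtO A0 {t⁻¹}) 𝔫 f)) :
    (∀ 𝔫 : Ideal ↥(chtO A0 {t}), ∀ h𝔫 : 𝔫.IsMaximal, algebraMap ↥A0 ↥(chtO A0 {t}) τ ∈ 𝔫 →
        (∀ x : ↥(chtO A0 {t}),
          (x : ↥(laurentBaseChange K0 (modularFunctionFieldFull (M * q * q)))) ∈
            (va2V1 (M * q) q K0 A0).nonunits → x ∈ 𝔫) →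
        (∀ x : ↥(chtO A0 {t}),
          (x : ↥(laurentBaseChange K0 (modularFunctionFieldFull (M * q * q)))) ∈
            ((va2V1 (M * q) q K0 A0).comap (s36v3Swap M q hM K0)).nonunits → x ∈ 𝔫) →
        (∀ x : ↥(chtO A0 {t}),
          (x : ↥(laurentBaseChange K0 (modularFunctionFieldFull (M * q * q)))) ∈
            (s36v3Wc M q hM K0 A0).nonunits → x ∈ 𝔫) →
        S36inPtTri τ m (heckeAlphaBar K0 (M * q) q).toRingHom
          (heckeBetaBar K0 (M * q) q).toRingHom (s35NormA K0 (M * q) q) (s35NormB K0 (M * q) q)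
          (va2V1 (M * q) q K0 A0) ((va2V1 (M * q) q K0 A0).comap (s36v3Swap M q hM K0))
          (s36v3Wc M q hM K0 A0) (chtO A0 {t}) 𝔫 h𝔫.isPrime) ∧
      (∀ 𝔫 : Ideal ↥(chtO A0 {t⁻¹}), ∀ h𝔫 : 𝔫.IsMaximal,
        algebraMap ↥A0 ↥(chtO A0 {t⁻¹}) τ ∈ 𝔫 →
        (∀ x : ↥(chtO A0 {t⁻¹}),
          (x : ↥(laurentBaseChange K0 (modularFunctionFieldFull (M * q * q)))) ∈
            (va2V1 (M * q) q K0 A0).nonunits → x ∈ 𝔫) →
        (∀ x : ↥(chtO A0 {t⁻¹}),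
          (x : ↥(laurentBaseChange K0 (modularFunctionFieldFull (M * q * q)))) ∈
            ((va2V1 (M * q) q K0 A0).comap (s36v3Swap M q hM K0)).nonunits → x ∈ 𝔫) →
        (∀ x : ↥(chtO A0 {t⁻¹}),
          (x : ↥(laurentBaseChange K0 (modularFunctionFieldFull (M * q * q)))) ∈
            (s36v3Wc M q hM K0 A0).nonunits → x ∈ 𝔫) →
        S36inPtTri τ m (heckeAlphaBar K0 (M * q) q).toRingHom
          (heckeBetaBar K0 (M * q) q).toRingHom (s35NormA K0 (M * q) q) (s35NormB K0 (M * q) q)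
          (va2V1 (M * q) q K0 A0) ((va2V1 (M * q) q K0 A0).comap (s36v3Swap M q hM K0))
          (s36v3Wc M q hM K0 A0) (chtO A0 {t⁻¹}) 𝔫 h𝔫.isPrime) := by
  have hunr := s36ht_unr q K0 A0 hunif
  have htri := s36tx_main M q K0 A0 H hM ha2 hA0 hunr c0 c1 hc hQ0 hQ1 t ht τ hτ m hm hal
  refine ⟨fun 𝔫 h𝔫 hτ𝔫 h1 h2 h3 => ⟨?_, ?_⟩, fun 𝔫 h𝔫 hτ𝔫 h1 h2 h3 => ⟨?_, ?_⟩⟩
  · exact htri (chtO A0 {t}) (Or.inl rfl) 𝔫 h𝔫 ⟨h1, h2, h3⟩
  · exact hun.1 𝔫 h𝔫 hτ𝔫 h1 h2 h3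
  · exact htri (chtO A0 {t⁻¹}) (Or.inr rfl) 𝔫 h𝔫 ⟨h1, h2, h3⟩
  · exact hun.2 𝔫 h𝔫 hτ𝔫 h1 h2 h3

/-- **the binder `hT` of `s36kc_comp3`** from `(Hal)` and `(Unit)` at every uniformiser `τ` and
every coordinate `t`. -/
theorem s36ht_of (hM : ¬ q ∣ M) (ha2 : a2 ∣ M) [Algebra A0 F₂] [IsScalarTower A0 K0 F₂]
    (hA0 : A0.LiesOverPrime q)
    (hunif : ∀ x ∈ A0.nonunits, ∃ a ∈ A0, x = (q : K0) * a)
    (c0 c1 : A0) (hc : IsLocalRing.residue A0 c0 ≠ IsLocalRing.residue A0 c1)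
    (hQ0 : smi2U A0 (aeval (c0 : K0) H.Qrad)) (hQ1 : smi2U A0 (aeval (c1 : K0) H.Qrad))
    (m : ℕ) (hm : 0 < m)
    (hal : ∀ τ : A0, Irreducible τ → ∀ t : F₂,
      (t : LaurentSeries K0) = cinstU H K0 (c0 : K0) (c1 : K0) →
      ∀ O : Subalgebra A0 F₂, O = chtO A0 {t} ∨ O = chtO A0 {t⁻¹} →
      ∀ (𝔫 : Ideal ↥O) (h𝔫 : 𝔫.IsMaximal),
      S36tjPt (va2V1 (M * q) q K0 A0)
        ((va2V1 (M * q) q K0 A0).comap (s36v3Swap M q hM K0)) (s36v3Wc M q hM K0 A0) O 𝔫 →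
      S36tjAl (heckeAlphaBar K0 (M * q) q).toRingHom (s35NormA K0 (M * q) q)
        (va2V1 (M * q) q K0 A0) ((va2V1 (M * q) q K0 A0).comap (s36v3Swap M q hM K0))
        (@ndrLoc A0 F₂ _ _ _ O 𝔫 h𝔫.isPrime).toSubring)
    (hun : ∀ τ : A0, Irreducible τ → ∀ t : F₂,
      (t : LaurentSeries K0) = cinstU H K0 (c0 : K0) (c1 : K0) →
      (∀ 𝔫 : Ideal ↥(chtO A0 {t}), ∀ h𝔫 : 𝔫.IsMaximal,
        algebraMap ↥A0 ↥(chtO A0 {t}) τ ∈ 𝔫 →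
        (∀ x : ↥(chtO A0 {t}), (x : F₂) ∈ (va2V1 (M * q) q K0 A0).nonunits → x ∈ 𝔫) →
        (∀ x : ↥(chtO A0 {t}),
          (x : F₂) ∈ ((va2V1 (M * q) q K0 A0).comap (s36v3Swap M q hM K0)).nonunits → x ∈ 𝔫) →
        (∀ x : ↥(chtO A0 {t}), (x : F₂) ∈ (s36v3Wc M q hM K0 A0).nonunits → x ∈ 𝔫) →
        ∀ f : F₂, f ≠ 0 → S36inOrd τ m f →
          f ∈ va2V1 (M * q) q K0 A0 → f⁻¹ ∈ va2V1 (M * q) q K0 A0 →
          f ∈ (va2V1 (M * q) q K0 A0).comap (s36v3Swap M q hM K0) →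
          f⁻¹ ∈ (va2V1 (M * q) q K0 A0).comap (s36v3Swap M q hM K0) →
          f ∈ s36v3Wc M q hM K0 A0 → f⁻¹ ∈ s36v3Wc M q hM K0 A0 →
          S35Unit m (chtO A0 {t}) 𝔫 f) ∧
      (∀ 𝔫 : Ideal ↥(chtO A0 {t⁻¹}), ∀ h𝔫 : 𝔫.IsMaximal,
        algebraMap ↥A0 ↥(chtO A0 {t⁻¹}) τ ∈ 𝔫 →
        (∀ x : ↥(chtO A0 {t⁻¹}), (x : F₂) ∈ (va2V1 (M * q) q K0 A0).nonunits → x ∈ 𝔫) →
        (∀ x : ↥(chtO A0 {t⁻¹}),
          (x : F₂) ∈ ((va2V1 (M * q) q K0 A0).comap (s36v3Swap M q hM K0)).nonunits → x ∈ 𝔫) →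
        (∀ x : ↥(chtO A0 {t⁻¹}), (x : F₂) ∈ (s36v3Wc M q hM K0 A0).nonunits → x ∈ 𝔫) →
        ∀ f : F₂, f ≠ 0 → S36inOrd τ m f →
          f ∈ va2V1 (M * q) q K0 A0 → f⁻¹ ∈ va2V1 (M * q) q K0 A0 →
          f ∈ (va2V1 (M * q) q K0 A0).comap (s36v3Swap M q hM K0) →
          f⁻¹ ∈ (va2V1 (M * q) q K0 A0).comap (s36v3Swap M q hM K0) →
          f ∈ s36v3Wc M q hM K0 A0 → f⁻¹ ∈ s36v3Wc M q hM K0 A0 →
          S35Unit m (chtO A0 {t⁻¹}) 𝔫 f)) :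
    ∀ τ : A0, Irreducible τ →
      ∀ t : ↥(laurentBaseChange K0 (modularFunctionFieldFull (M * q * q))),
      (t : LaurentSeries K0) = cinstU H K0 (c0 : K0) (c1 : K0) →
      (∀ 𝔫 : Ideal ↥(chtO A0 {t}), ∀ h𝔫 : 𝔫.IsMaximal, algebraMap ↥A0 ↥(chtO A0 {t}) τ ∈ 𝔫 →
        (∀ x : ↥(chtO A0 {t}),
          (x : ↥(laurentBaseChange K0 (modularFunctionFieldFull (M * q * q)))) ∈
            (va2V1 (M * q) q K0 A0).nonunits → x ∈ 𝔫) →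
        (∀ x : ↥(chtO A0 {t}),
          (x : ↥(laurentBaseChange K0 (modularFunctionFieldFull (M * q * q)))) ∈
            ((va2V1 (M * q) q K0 A0).comap (s36v3Swap M q hM K0)).nonunits → x ∈ 𝔫) →
        (∀ x : ↥(chtO A0 {t}),
          (x : ↥(laurentBaseChange K0 (modularFunctionFieldFull (M * q * q)))) ∈
            (s36v3Wc M q hM K0 A0).nonunits → x ∈ 𝔫) →
        S36inPtTri τ m (heckeAlphaBar K0 (M * q) q).toRingHom
          (heckeBetaBar K0 (M * q) q).toRingHom (s35NormA K0 (M * q) q) (s35NormB K0 (M * q) q)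
          (va2V1 (M * q) q K0 A0) ((va2V1 (M * q) q K0 A0).comap (s36v3Swap M q hM K0))
          (s36v3Wc M q hM K0 A0) (chtO A0 {t}) 𝔫 h𝔫.isPrime) ∧
      (∀ 𝔫 : Ideal ↥(chtO A0 {t⁻¹}), ∀ h𝔫 : 𝔫.IsMaximal,
        algebraMap ↥A0 ↥(chtO A0 {t⁻¹}) τ ∈ 𝔫 →
        (∀ x : ↥(chtO A0 {t⁻¹}),
          (x : ↥(laurentBaseChange K0 (modularFunctionFieldFull (M * q * q)))) ∈
            (va2V1 (M * q) q K0 A0).nonunits → x ∈ 𝔫) →
        (∀ x : ↥(chtO A0 {t⁻¹}),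
          (x : ↥(laurentBaseChange K0 (modularFunctionFieldFull (M * q * q)))) ∈
            ((va2V1 (M * q) q K0 A0).comap (s36v3Swap M q hM K0)).nonunits → x ∈ 𝔫) →
        (∀ x : ↥(chtO A0 {t⁻¹}),
          (x : ↥(laurentBaseChange K0 (modularFunctionFieldFull (M * q * q)))) ∈
            (s36v3Wc M q hM K0 A0).nonunits → x ∈ 𝔫) →
        S36inPtTri τ m (heckeAlphaBar K0 (M * q) q).toRingHom
          (heckeBetaBar K0 (M * q) q).toRingHom (s35NormA K0 (M * q) q) (s35NormB K0 (M * q) q)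
          (va2V1 (M * q) q K0 A0) ((va2V1 (M * q) q K0 A0).comap (s36v3Swap M q hM K0))
          (s36v3Wc M q hM K0 A0) (chtO A0 {t⁻¹}) 𝔫 h𝔫.isPrime) :=
  fun τ hτ t ht => s36ht_pt M q K0 A0 H hM ha2 hA0 hunif c0 c1 hc hQ0 hQ1 m hm τ hτ t ht
    (hal τ hτ t ht) (hun τ hτ t ht)

end Carrier

end Fermat.Agent.S36
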