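import Mathlib
import Fermat.Agent.S34.InstFinal
import Fermat.Agent.S34.CuspNode
import Fermat.Agent.S35.NodeData
import Fermat.Agent.S35.LocAll
import Fermat.Agent.S36.LocReg

/-!
# S36, leaf NODE-REG: the crossing points of the level-`M q` model are regular (thickness one)

Carrier of `S35.s35nd_node`: `F = K0(X₀(M q))`, `q ∤ M`, `A0` a discrete valuation subring of
`K0` over `q`, `V₁ = va2V1`, `V₂ = va2V2`, chart `O = chtO A0 {t}`, `h = α (nunH)`,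
`θ = β (nunH)`, `x = h ^ q - θ`, `y = h - θ ^ q`, `𝔫` a crossing point.

Input (leaf PSI-UNIT): `x * y * b = q * a` with `a, b ∉ 𝔫`, i.e. `x * y = q * (unit of O_𝔫)`;
over an unramified base (`q = τ * unit`) this is `hΨ : x * y * s = τ * a`.

* `s36nr_psi_tau`: from `x * y * b = c * a` to `x * y * s = τ * a'` when `c = τ * ε`, `ε` a unit.
* `s36nr_prin`: both components are principal at `𝔫`: `𝔪_{V₁} ∩ O_𝔫 = x O_𝔫` and
  `𝔪_{V₂} ∩ O_𝔫 = y O_𝔫` (fraction forms).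
* `s36nr_node`: (LOC) at the crossing point `𝔫` for EVERY function with `hord`.
* `s36nr_field`: (LOC) at every closed point of the special fibres of the two Hauptmodul
  charts, for every function with `hord` (no rationality hypothesis on the divisor), given `hΨ`
  at the crossing points of the two charts.
-/

set_option autoImplicit false
set_option linter.unusedSectionVars false
set_option linter.unusedVariables false

noncomputable section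

open ModularCurve AlgebraicCurve Polynomial
open Fermat.Agent.S18 Fermat.Agent.S37 Fermat.Agent.S34 Fermat.Agent.S35

namespace Fermat.Agent.S36

local notation "Qb" => AlgebraicClosure ℚ

section Abs

variable {A F : Type*} [CommRing A] [Field F] [Algebra A F]

/-- From `x * y * b = c * a` (`a, b ∉ 𝔫`) to `x * y * s = τ * a'` (`a', s ∉ 𝔫`) when
`c = τ * ε` with `ε` a unit of the base ring. -/
theorem s36nr_psi_tau (τ ε : A) (hε : IsUnit ε) (c : F)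
    (hcτ : c = algebraMap A F τ * algebraMap A F ε)
    (O : Subalgebra A F) (𝔫 : Ideal ↥O) (h𝔫 : 𝔫.IsPrime) (x y : F)
    (hΨ : ∃ a b : ↥O, a ∉ 𝔫 ∧ b ∉ 𝔫 ∧ x * y * (b : F) = c * (a : F)) :
    ∃ a s : ↥O, a ∉ 𝔫 ∧ s ∉ 𝔫 ∧ x * y * (s : F) = algebraMap A F τ * (a : F) := by
  obtain ⟨a, b, ha, hb, h⟩ := hΨ
  have hεO : IsUnit (algebraMap A ↥O ε) := hε.map (algebraMap A ↥O)
  refine ⟨algebraMap A ↥O ε * a, b, fun hmem => ?_, hb, ?_⟩
  · rcases h𝔫.mem_or_mem hmem with h1 | h1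
    · exact h𝔫.ne_top (Ideal.eq_top_of_isUnit_mem _ h1 hεO)
    · exact ha h1
  · have e : ((algebraMap A ↥O ε * a : ↥O) : F) = algebraMap A F ε * (a : F) := rfl
    rw [h, hcτ, e]; ring

end Abs

section Carrier

variable (M q : ℕ) [NeZero M] [hq : Fact q.Prime] (hM : ¬ q ∣ M)
  (K0 : Type*) [Field K0] [Algebra ℚ K0] [Algebra K0 Qb]
  (A0 : ValuationSubring K0) [IsDiscreteValuationRing ↥A0]
  {a2 : ℕ} (H : HauptRec a2 q)

/-- **Thickness one: both components are principal at a crossing point.**  At a crossing point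
`𝔫` of the chart `chtO A0 {t}` with `x * y = τ * (unit of O_𝔫)`: every element of the chart
vanishing on the first component is a multiple of `x = h ^ q - θ` in `O_𝔫`, and every element
vanishing on the second component is a multiple of `y = h - θ ^ q` in `O_𝔫`. -/
theorem s36nr_prin (ha2 : a2 ∣ M) (hA0 : A0.LiesOverPrime q) (c0 c1 : A0)
    (hc : IsLocalRing.residue ↥A0 c0 ≠ IsLocalRing.residue ↥A0 c1)
    (t : ↥(laurentBaseChange K0 (modularFunctionFieldFull (M * q))))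
    (ht : (t : LaurentSeries K0) = cinstU H K0 (c0 : K0) (c1 : K0))
    [Algebra ↥A0 ↥(laurentBaseChange K0 (modularFunctionFieldFull (M * q)))]
    [IsScalarTower ↥A0 K0 ↥(laurentBaseChange K0 (modularFunctionFieldFull (M * q)))]
    (τ : A0) (hτ : Irreducible τ)
    (𝔫 : Ideal ↥(chtO A0 {t})) [𝔫.IsPrime]
    (hc₁ : ∀ x : ↥(chtO A0 {t}),
      (x : ↥(laurentBaseChange K0 (modularFunctionFieldFull (M * q)))) ∈
        (va2V1 M q K0 A0).nonunits → x ∈ 𝔫)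
    (hc₂ : ∀ x : ↥(chtO A0 {t}),
      (x : ↥(laurentBaseChange K0 (modularFunctionFieldFull (M * q)))) ∈
        (va2V2 M q hM K0 A0).nonunits → x ∈ 𝔫)
    (hΨ : ∃ a s : ↥(chtO A0 {t}), a ∉ 𝔫 ∧ s ∉ 𝔫 ∧
      (heckeAlphaBar K0 M q (nunH K0 M H ha2) ^ q - heckeBetaBar K0 M q (nunH K0 M H ha2)) *
        (heckeAlphaBar K0 M q (nunH K0 M H ha2) - heckeBetaBar K0 M q (nunH K0 M H ha2) ^ q) *
          (s : ↥(laurentBaseChange K0 (modularFunctionFieldFull (M * q)))) =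
        algebraMap A0 ↥(laurentBaseChange K0 (modularFunctionFieldFull (M * q))) τ *
          (a : ↥(laurentBaseChange K0 (modularFunctionFieldFull (M * q))))) :
    (heckeAlphaBar K0 M q (nunH K0 M H ha2) ^ q - heckeBetaBar K0 M q (nunH K0 M H ha2) ≠ 0) ∧
    (heckeAlphaBar K0 M q (nunH K0 M H ha2) - heckeBetaBar K0 M q (nunH K0 M H ha2) ^ q ≠ 0) ∧
    (∀ z : ↥(chtO A0 {t}),
      (z : ↥(laurentBaseChange K0 (modularFunctionFieldFull (M * q)))) ∈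
        (va2V1 M q K0 A0).nonunits → ∃ b c : ↥(chtO A0 {t}), c ∉ 𝔫 ∧
      (z : ↥(laurentBaseChange K0 (modularFunctionFieldFull (M * q)))) *
          (c : ↥(laurentBaseChange K0 (modularFunctionFieldFull (M * q)))) =
        (heckeAlphaBar K0 M q (nunH K0 M H ha2) ^ q - heckeBetaBar K0 M q (nunH K0 M H ha2)) *
          (b : ↥(laurentBaseChange K0 (modularFunctionFieldFull (M * q))))) ∧
    (∀ z : ↥(chtO A0 {t}),
      (z : ↥(laurentBaseChange K0 (modularFunctionFieldFull (M * q)))) ∈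
        (va2V2 M q hM K0 A0).nonunits → ∃ b c : ↥(chtO A0 {t}), c ∉ 𝔫 ∧
      (z : ↥(laurentBaseChange K0 (modularFunctionFieldFull (M * q)))) *
          (c : ↥(laurentBaseChange K0 (modularFunctionFieldFull (M * q)))) =
        (heckeAlphaBar K0 M q (nunH K0 M H ha2) - heckeBetaBar K0 M q (nunH K0 M H ha2) ^ q) *
          (b : ↥(laurentBaseChange K0 (modularFunctionFieldFull (M * q))))) := by
  have h𝔫 : 𝔫.IsPrime := inferInstance
  obtain ⟨hOV, -, hVτ⟩ := ndi_hVtau M q hM K0 A0 H ha2 hA0 c0 c1 hc t ht τ hτ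
  have hτ0 : algebraMap A0 ↥(laurentBaseChange K0 (modularFunctionFieldFull (M * q))) τ ≠ 0 := by
    rw [IsScalarTower.algebraMap_apply A0 K0
      ↥(laurentBaseChange K0 (modularFunctionFieldFull (M * q))), Ne, map_eq_zero,
      map_eq_zero_iff _ (IsFractionRing.injective A0 K0)]
    exact hτ.ne_zero
  obtain ⟨ax, sx, -, hsx, hx⟩ := s35nd_x M q hM K0 A0 H ha2 hA0 c0 c1 hc t ht 𝔫 hc₁ hc₂
  obtain ⟨ay, sy, -, hsy, hy⟩ := s35nd_y M q hM K0 A0 H ha2 hA0 c0 c1 hc t ht 𝔫 hc₁ hc₂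
  have hk1 := cnd_hk1 M q hM K0 A0 H ha2 hA0
  have hk2 := cnd_hk2 M q hM K0 A0 H ha2 hA0
  -- `x ≠ 0`, `y ≠ 0`
  have hxy0 : (heckeAlphaBar K0 M q (nunH K0 M H ha2) ^ q -
      heckeBetaBar K0 M q (nunH K0 M H ha2)) *
      (heckeAlphaBar K0 M q (nunH K0 M H ha2) -
        heckeBetaBar K0 M q (nunH K0 M H ha2) ^ q) ≠ 0 := by
    obtain ⟨a, s, ha, hs, h⟩ := hΨ
    intro h0
    rw [h0, zero_mul] at h
    have ha0 : (a : ↥(laurentBaseChange K0 (modularFunctionFieldFull (M * q)))) = 0 := by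
      rcases mul_eq_zero.mp h.symm with h1 | h1
      · exact absurd h1 hτ0
      · exact h1
    exact ha (by
      have : a = 0 := Subtype.ext ha0
      rw [this]; exact 𝔫.zero_mem)
  have hx0 := left_ne_zero_of_mul hxy0
  have hy0 := right_ne_zero_of_mul hxy0
  refine ⟨hx0, hy0, ?_, ?_⟩
  · exact s36lr_prin_of_unit τ (chtO A0 {t}) (va2V1 M q K0 A0) (va2V2 M q hM K0 A0) hOV hVτ 𝔫
      h𝔫 _ _ hy0 hk2 ⟨ay, sy, hsy, hy⟩ hΨ
  · refine s36lr_prin_of_unit τ (chtO A0 {t}) (va2V2 M q hM K0 A0) (va2V1 M q K0 A0)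
      (fun z hz => ⟨(hOV z hz).2, (hOV z hz).1⟩) (fun z hz h2 h1 => hVτ z hz h1 h2) 𝔫
      h𝔫 _ _ hx0 hk1 ⟨ax, sx, hsx, hx⟩ ?_
    obtain ⟨a, s, ha, hs, h⟩ := hΨ
    exact ⟨a, s, ha, hs, by rw [← h]; ring⟩

include hM in
/-- **(LOC) at a crossing point of thickness one, for every function with `hord`.** -/
theorem s36nr_node (ha2 : a2 ∣ M) (hA0 : A0.LiesOverPrime q) (c0 c1 : A0)
    (hc : IsLocalRing.residue ↥A0 c0 ≠ IsLocalRing.residue ↥A0 c1)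
    (hSM0 : cinstSMChart K0 A0 M H (c0 : K0) (c1 : K0))
    (t : ↥(laurentBaseChange K0 (modularFunctionFieldFull (M * q))))
    (ht : (t : LaurentSeries K0) = cinstU H K0 (c0 : K0) (c1 : K0))
    [Algebra ↥A0 ↥(laurentBaseChange K0 (modularFunctionFieldFull (M * q)))]
    [IsScalarTower ↥A0 K0 ↥(laurentBaseChange K0 (modularFunctionFieldFull (M * q)))]
    (τ : A0) (hτ : Irreducible τ) (m : ℕ) (hm : 0 < m)
    (𝔫 : Ideal ↥(chtO A0 {t})) (h𝔫 : 𝔫.IsMaximal)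
    (hc₁ : ∀ x : ↥(chtO A0 {t}),
      (x : ↥(laurentBaseChange K0 (modularFunctionFieldFull (M * q)))) ∈
        (va2V1 M q K0 A0).nonunits → x ∈ 𝔫)
    (hc₂ : ∀ x : ↥(chtO A0 {t}),
      (x : ↥(laurentBaseChange K0 (modularFunctionFieldFull (M * q)))) ∈
        (va2V2 M q hM K0 A0).nonunits → x ∈ 𝔫)
    (hΨ : ∃ a s : ↥(chtO A0 {t}), a ∉ 𝔫 ∧ s ∉ 𝔫 ∧
      (heckeAlphaBar K0 M q (nunH K0 M H ha2) ^ q - heckeBetaBar K0 M q (nunH K0 M H ha2)) *
        (heckeAlphaBar K0 M q (nunH K0 M H ha2) - heckeBetaBar K0 M q (nunH K0 M H ha2) ^ q) *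
          (s : ↥(laurentBaseChange K0 (modularFunctionFieldFull (M * q)))) =
        algebraMap A0 ↥(laurentBaseChange K0 (modularFunctionFieldFull (M * q))) τ *
          (a : ↥(laurentBaseChange K0 (modularFunctionFieldFull (M * q)))))
    (f : ↥(laurentBaseChange K0 (modularFunctionFieldFull (M * q)))) (hf : f ≠ 0)
    (hord : ∀ V : ValuationSubring ↥(laurentBaseChange K0 (modularFunctionFieldFull (M * q))),
      (∀ a : A0,
        algebraMap A0 ↥(laurentBaseChange K0 (modularFunctionFieldFull (M * q))) a ∈ V) →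
      (algebraMap A0 ↥(laurentBaseChange K0 (modularFunctionFieldFull (M * q))) τ)⁻¹ ∈ V →
      IsPrincipalIdealRing V →
      ∃ u : ↥(laurentBaseChange K0 (modularFunctionFieldFull (M * q))),
        u ≠ 0 ∧ f * u ^ m ∈ V ∧ (f * u ^ m)⁻¹ ∈ V) :
    S34Loc τ m (chtO A0 {t}) f 𝔫 := by
  classical
  have := h𝔫.isPrime
  have : CharZero K0 := algebraRat.charZero K0
  have hVG : ∀ x : ↥(laurentBaseChange K0 (modularFunctionFieldFull (M * q))),
      x ∈ va2V1 M q K0 A0 ↔ (x : LaurentSeries K0) ∈ grV A0 := fun x => Iff.rfl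
  obtain ⟨hOV, -, hVτ⟩ := ndi_hVtau M q hM K0 A0 H ha2 hA0 c0 c1 hc t ht τ hτ
  have hτ0 : algebraMap A0 ↥(laurentBaseChange K0 (modularFunctionFieldFull (M * q))) τ ≠ 0 := by
    rw [IsScalarTower.algebraMap_apply A0 K0
      ↥(laurentBaseChange K0 (modularFunctionFieldFull (M * q))), Ne, map_eq_zero,
      map_eq_zero_iff _ (IsFractionRing.injective A0 K0)]
    exact hτ.ne_zero
  have hVal := s34if_val M q hM K0 A0 H ha2 hA0 c0 c1 hc
  have hN : IsNoetherianRing ↥(chtO A0 {t}) :=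
    s34im_noeth M q hM K0 A0 H c0 c1 hc t ht τ hτ hVal
  obtain ⟨hA₂, -, hτgen₂⟩ := s34im_V2_basic M q hM K0 A0 τ hτ
  obtain ⟨htV₂, htV₂', hex⟩ := hVal t ht
  obtain ⟨-, -, -, -, -, -, -, hfrac, -⟩ :=
    c2i_chart A0 (M * q) H (va2V1 M q K0 A0) (va2V2 M q hM K0 A0) hVG c0 c1 hc t ht τ hτ hA₂
      hτgen₂ htV₂ htV₂' hex 1 one_pos
  obtain ⟨ax, sx, -, hsx, hx⟩ := s35nd_x M q hM K0 A0 H ha2 hA0 c0 c1 hc t ht 𝔫 hc₁ hc₂
  obtain ⟨ay, sy, -, hsy, hy⟩ := s35nd_y M q hM K0 A0 H ha2 hA0 c0 c1 hc t ht 𝔫 hc₁ hc₂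
  obtain ⟨hx0, hy0, -, -⟩ :=
    s36nr_prin M q hM K0 A0 H ha2 hA0 c0 c1 hc t ht τ hτ 𝔫 hc₁ hc₂ hΨ
  exact s36lr_loc_node τ hτ0 (chtO A0 {t}) hfrac (va2V1 M q K0 A0) (va2V2 M q hM K0 A0) hOV hVτ
    (fun 𝔭 h𝔭 => cmi_hD M q hM K0 A0 H ha2 hA0 c0 c1 hc hSM0 t ht τ hτ 𝔭 h𝔭) m hm 𝔫 h𝔫 hc₁
    _ _ hx0 (cnd_hk1 M q hM K0 A0 H ha2 hA0) hy0 (cnd_hk2 M q hM K0 A0 H ha2 hA0)
    ⟨ax, sx, hsx, hx⟩ ⟨ay, sy, hsy, hy⟩ hΨ f hf hord

include hM in
/-- **(LOC) at every closed point of the special fibres of the two Hauptmodul charts, for every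
function with `hord`**, when the crossing points of both charts have thickness one (`hΨ₀`,
`hΨ₁`).  Compared with `S35.s35la_field` there is no rationality hypothesis on the divisor of
`f`. -/
theorem s36nr_field (ha2 : a2 ∣ M) [Finite (IsLocalRing.ResidueField ↥A0)]
    (hA0 : A0.LiesOverPrime q) (c0 c1 : A0)
    (hc : IsLocalRing.residue ↥A0 c0 ≠ IsLocalRing.residue ↥A0 c1)
    (hQ0 : smi2U A0 (aeval (c0 : K0) H.Qrad)) (hQ1 : smi2U A0 (aeval (c1 : K0) H.Qrad))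
    (hSM0 : cinstSMChart K0 A0 M H (c0 : K0) (c1 : K0))
    (hSM1 : cinstSMChart K0 A0 M H (c1 : K0) (c0 : K0))
    [Algebra A0 ↥(laurentBaseChange K0 (modularFunctionFieldFull (M * q)))]
    [IsScalarTower A0 K0 ↥(laurentBaseChange K0 (modularFunctionFieldFull (M * q)))]
    (t : ↥(laurentBaseChange K0 (modularFunctionFieldFull (M * q))))
    (ht : (t : LaurentSeries K0) = cinstU H K0 (c0 : K0) (c1 : K0))
    (τ : A0) (hτ : Irreducible τ) (m : ℕ) (hm : 0 < m)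
    (hΨ₀ : ∀ 𝔫 : Ideal ↥(chtO A0 {t}), 𝔫.IsMaximal →
      (∀ x : ↥(chtO A0 {t}),
        (x : ↥(laurentBaseChange K0 (modularFunctionFieldFull (M * q)))) ∈
          (va2V1 M q K0 A0).nonunits → x ∈ 𝔫) →
      (∀ x : ↥(chtO A0 {t}),
        (x : ↥(laurentBaseChange K0 (modularFunctionFieldFull (M * q)))) ∈
          (va2V2 M q hM K0 A0).nonunits → x ∈ 𝔫) →
      ∃ a s : ↥(chtO A0 {t}), a ∉ 𝔫 ∧ s ∉ 𝔫 ∧
        (heckeAlphaBar K0 M q (nunH K0 M H ha2) ^ q - heckeBetaBar K0 M q (nunH K0 M H ha2)) *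
          (heckeAlphaBar K0 M q (nunH K0 M H ha2) -
            heckeBetaBar K0 M q (nunH K0 M H ha2) ^ q) *
            (s : ↥(laurentBaseChange K0 (modularFunctionFieldFull (M * q)))) =
          algebraMap A0 ↥(laurentBaseChange K0 (modularFunctionFieldFull (M * q))) τ *
            (a : ↥(laurentBaseChange K0 (modularFunctionFieldFull (M * q)))))
    (hΨ₁ : ∀ 𝔫 : Ideal ↥(chtO A0 {t⁻¹}), 𝔫.IsMaximal →
      (∀ x : ↥(chtO A0 {t⁻¹}),
        (x : ↥(laurentBaseChange K0 (modularFunctionFieldFull (M * q)))) ∈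
          (va2V1 M q K0 A0).nonunits → x ∈ 𝔫) →
      (∀ x : ↥(chtO A0 {t⁻¹}),
        (x : ↥(laurentBaseChange K0 (modularFunctionFieldFull (M * q)))) ∈
          (va2V2 M q hM K0 A0).nonunits → x ∈ 𝔫) →
      ∃ a s : ↥(chtO A0 {t⁻¹}), a ∉ 𝔫 ∧ s ∉ 𝔫 ∧
        (heckeAlphaBar K0 M q (nunH K0 M H ha2) ^ q - heckeBetaBar K0 M q (nunH K0 M H ha2)) *
          (heckeAlphaBar K0 M q (nunH K0 M H ha2) -
            heckeBetaBar K0 M q (nunH K0 M H ha2) ^ q) *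
            (s : ↥(laurentBaseChange K0 (modularFunctionFieldFull (M * q)))) =
          algebraMap A0 ↥(laurentBaseChange K0 (modularFunctionFieldFull (M * q))) τ *
            (a : ↥(laurentBaseChange K0 (modularFunctionFieldFull (M * q)))))
    (f : ↥(laurentBaseChange K0 (modularFunctionFieldFull (M * q)))) (hf : f ≠ 0)
    (hord : ∀ V : ValuationSubring ↥(laurentBaseChange K0 (modularFunctionFieldFull (M * q))),
      (∀ a : A0,
        algebraMap A0 ↥(laurentBaseChange K0 (modularFunctionFieldFull (M * q))) a ∈ V) →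
      (algebraMap A0 ↥(laurentBaseChange K0 (modularFunctionFieldFull (M * q))) τ)⁻¹ ∈ V →
      IsPrincipalIdealRing V →
      ∃ u : ↥(laurentBaseChange K0 (modularFunctionFieldFull (M * q))),
        u ≠ 0 ∧ f * u ^ m ∈ V ∧ (f * u ^ m)⁻¹ ∈ V) :
    (∀ 𝔫 : Ideal ↥(chtO A0 {t}), 𝔫.IsMaximal → algebraMap A0 ↥(chtO A0 {t}) τ ∈ 𝔫 →
      S34Loc τ m (chtO A0 {t}) f 𝔫) ∧
    (∀ 𝔫 : Ideal ↥(chtO A0 {t⁻¹}), 𝔫.IsMaximal → algebraMap A0 ↥(chtO A0 {t⁻¹}) τ ∈ 𝔫 →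
      S34Loc τ m (chtO A0 {t⁻¹}) f 𝔫) := by
  classical
  have : CharZero K0 := algebraRat.charZero K0
  have hVG : ∀ x : ↥(laurentBaseChange K0 (modularFunctionFieldFull (M * q))),
      x ∈ va2V1 M q K0 A0 ↔ (x : LaurentSeries K0) ∈ grV A0 := fun x => Iff.rfl
  obtain ⟨hA, hτV, hτgen, htt, htV, htV', hG, hfin, hconst⟩ :=
    c2i_hyps A0 (M * q) H (va2V1 M q K0 A0) hVG c0 c1 hc t ht τ hτ
  obtain ⟨hA₂, -, hτgen₂⟩ := s34im_V2_basic M q hM K0 A0 τ hτ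
  have hVal₀ := s34if_val M q hM K0 A0 H ha2 hA0 c0 c1 hc
  obtain ⟨htV₂, htV₂', hex⟩ := hVal₀ t ht
  have htinv : ((t⁻¹ : ↥(laurentBaseChange K0 (modularFunctionFieldFull (M * q)))) :
      LaurentSeries K0) = cinstU H K0 (c1 : K0) (c0 : K0) := by
    rw [IntermediateField.coe_inv, ht, cinstU_inv]
  -- the swapped function
  have hfw : (va2SwapEquiv M q hq.out hM K0).symm f ≠ 0 := (_root_.map_ne_zero _).mpr hf
  have hordw := lni_hord_comap τ m f (va2SwapEquiv M q hq.out hM K0).symm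
    (s35la_swap_symm_const M q hM K0 A0) hord
  exact s35la_abs (K0 := K0) (va2V1 M q K0 A0) (va2V2 M q hM K0 A0) hA hA₂ hτ hτV hτgen hτgen₂
    t htt htV htV' htV₂ htV₂' hG hfin hex hconst m hm (va2SwapEquiv M q hq.out hM K0)
    (s35la_swap_const M q hM K0 A0) (s34im_swap_nonunits M q hM K0 A0)
    (fun 𝔭 h𝔭 => cmi_hD M q hM K0 A0 H ha2 hA0 c0 c1 hc hSM0 t ht τ hτ 𝔭 h𝔭)
    (fun 𝔭 h𝔭 => cmi_hD M q hM K0 A0 H ha2 hA0 c1 c0 hc.symm hSM1 t⁻¹ htinv τ hτ 𝔭 h𝔭)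
    ((s34if_dom M q hM K0 A0 H ha2 hA0 c0 c1 hc hQ0 hQ1) t ht τ hτ)
    (fun 𝔫 h1 h2 h3 => by
      have h := (s34if_dom M q hM K0 A0 H ha2 hA0 c1 c0 hc.symm hQ1 hQ0) t⁻¹ htinv τ hτ 𝔫
        h1 h2 h3
      rw [inv_inv] at h
      exact h.symm)
    f hf hord
    (fun g hg 𝔫 h𝔫 hc₁ hc₂ => by
      rcases hg with rfl | rfl
      · exact s36nr_node M q hM K0 A0 H ha2 hA0 c0 c1 hc hSM0 t ht τ hτ m hm 𝔫 h𝔫 hc₁ hc₂
          (hΨ₀ 𝔫 h𝔫 hc₁ hc₂) _ hf hord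
      · exact s36nr_node M q hM K0 A0 H ha2 hA0 c0 c1 hc hSM0 t ht τ hτ m hm 𝔫 h𝔫 hc₁ hc₂
          (hΨ₀ 𝔫 h𝔫 hc₁ hc₂) _ hfw hordw)
    (fun g hg 𝔫 h𝔫 hc₁ hc₂ => by
      rcases hg with rfl | rfl
      · exact s36nr_node M q hM K0 A0 H ha2 hA0 c1 c0 hc.symm hSM1 t⁻¹ htinv τ hτ m hm 𝔫 h𝔫
          hc₁ hc₂ (hΨ₁ 𝔫 h𝔫 hc₁ hc₂) _ hf hord
      · exact s36nr_node M q hM K0 A0 H ha2 hA0 c1 c0 hc.symm hSM1 t⁻¹ htinv τ hτ m hm 𝔫 h𝔫
          hc₁ hc₂ (hΨ₁ 𝔫 h𝔫 hc₁ hc₂) _ hfw hordw)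

end Carrier

end Fermat.Agent.S36
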