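import Mathlib
import Fermat.Agent.S24.Differential
import Fermat.Agent.S24.SumFormula
import Fermat.Agent.S34.NodeUnif
import Fermat.Agent.S34.ThetaDelta
import Fermat.Agent.S34.Val2Swap
import Fermat.Agent.S36.NuDef

/-!
# S36, PSI-UNIT, step 3 (PSI-NUPLACE): the modular unit `ν` has no horizontal zero or pole

`F = K0(X₀(M q))`, `h = α(nunH)` the Hauptmodul of level `a2 ∣ M`, `h_q = β(nunH)` its swap,
`θ = t d/dt`.  Let `ν ∈ F` have `t`-expansion `θ(h) / φ(θ h)` (`φ : t ↦ t^q`), i.e.
`ν * qExpand q (θ h) = θ h`.  Then at every place `P` of `F / K0` at which `h` and `h_q` are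
finite with non-cuspidal values (`Qrad(h)`, `Qrad(h_q)` units at `P`), `ν` is a unit:
`P.ord ν = 0`.

* `s36np_abs`   : abstract form over an algebraically closed field (orders of differentials);
* `s36np_bar`   : the statement over `ℚ̄`;
* `s36np_main`  : the statement over a field of definition `K0`;
* `s36np_mem`   : the same in membership form (`ν` and `ν⁻¹` lie in the valuation ring).
-/

set_option autoImplicit false
set_option linter.unusedSectionVars false

open AlgebraicCurve ModularCurve KaehlerDifferential Polynomial IntermediateField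
open Fermat.Agent.S18 Fermat.Agent.S24 Fermat.Agent.S34 Fermat.Agent.S37

namespace Fermat.Agent.S36

local notation "Qb" => AlgebraicClosure ℚ

section Abs

variable {K F : Type*} [Field K] [Field F] [Algebra K F]

/-- **Abstract form.** If `h - c` and `h_q - c'` have simple zeros at the place `P` and
`d h = g • d h_q`, then `g` is a unit at `P`. -/
theorem s36np_abs [IsAlgClosed K] [CharZero K] (h hq : F) [Algebra.IsAlgebraic K⟮h⟯ F]
    [Algebra.IsAlgebraic K⟮hq⟯ F] (g : F) (hg : D K F h = g • D K F hq)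
    (P : Place K F) (c c' : K) (hc : P.ord (h - algebraMap K F c) = 1)
    (hc' : P.ord (hq - algebraMap K F c') = 1) : P.ord g = 0 := by
  have h1 := place_ordDifferential_D_sub h P c (by omega)
  have h2 := place_ordDifferential_D_sub hq P c' (by omega)
  have hDq : D K F hq ≠ 0 := D_ne_zero_of_place hq P
  have hg0 : g ≠ 0 := by
    rintro rfl
    rw [zero_smul] at hg
    exact D_ne_zero_of_place h P hg
  have h3 := place_ordDifferential_smul hq P hg0 hDq
  rw [← hg] at h3
  omega

/-- A non-constant element of the valuation ring of a place over an algebraically closed field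
takes a value `c` there: `x - c` has positive order. -/
theorem s36np_exists_value [IsAlgClosed K] (y : F) [Algebra.IsAlgebraic K⟮y⟯ F] (P : Place K F)
    (x : F) (hx : x ∈ P.toValuationSubring) (hx0 : ∀ c : K, x ≠ algebraMap K F c) :
    ∃ c : K, 0 < P.ord (x - algebraMap K F c) := by
  have hbij := place_residue_bijective P y
  obtain ⟨c, hc⟩ := hbij.2 (IsLocalRing.residue P.toValuationSubring ⟨x, hx⟩)
  refine ⟨c, ?_⟩
  have hmem : (⟨x, hx⟩ - algebraMap K P.toValuationSubring c : P.toValuationSubring) ∈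
      IsLocalRing.maximalIdeal P.toValuationSubring := by
    rw [← IsLocalRing.residue_eq_zero_iff, map_sub, sub_eq_zero]
    exact hc.symm
  rcases (sf_mem_maximalIdeal_iff_ord P _).mp hmem with h0 | hpos
  · exfalso
    apply hx0 c
    have := congrArg Subtype.val h0
    simpa [sub_eq_zero] using this
  · simpa using hpos

end Abs

section Bar

variable (M q : ℕ) [NeZero M] [hq : Fact q.Prime] (hM : ¬ q ∣ M) {a2 : ℕ} (H : HauptRec a2 q)
  (ha2 : a2 ∣ M)

/-- `α(h)` at level `M q` is the Hauptmodul of level `M q`. -/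
theorem s36np_alpha_eq :
    heckeAlphaBar Qb M q (c0rH M H ha2) = c0rH (M * q) H (ha2.mul_right q) := by
  apply Subtype.ext
  rw [coe_heckeAlphaBar, c0rH_coe, c0rH_coe]

end Bar

section Abs2

variable {K F : Type*} [Field K] [Field F] [Algebra K F]

/-- polynomials in an element of the valuation ring of a place lie in the valuation ring -/
theorem s36np_aeval_mem (P : Place K F) (x : F) (hx : x ∈ P.toValuationSubring) (R : K[X]) :
    aeval x R ∈ P.toValuationSubring := by
  rw [Polynomial.aeval_eq_sum_range]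
  refine sum_mem fun i _ => ?_
  rw [Algebra.smul_def]
  exact mul_mem (P.algebraMap_mem' _) (pow_mem hx i)

/-- If `x - c` has positive order at `P` and `Q(x)` is a unit at `P`, then `Q(c) ≠ 0`. -/
theorem s36np_eval_ne_zero (P : Place K F) (x : F) (c : K)
    (hpos : 0 < P.ord (x - algebraMap K F c)) (Q : K[X]) (hQ0 : aeval x Q ≠ 0)
    (hQ : (aeval x Q)⁻¹ ∈ P.toValuationSubring) : Q.eval c ≠ 0 := by
  intro h0
  have hxc : x - algebraMap K F c ∈ P.toValuationSubring :=
    (sf_ord_nonneg_iff P _).mp hpos.le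
  have hx : x ∈ P.toValuationSubring := by
    have := add_mem hxc (P.algebraMap_mem' c)
    rwa [sub_add_cancel] at this
  have hfac : (X - C c) * (Q /ₘ (X - C c)) = Q := Polynomial.mul_divByMonic_eq_iff_isRoot.mpr h0
  have hval : aeval x Q = (x - algebraMap K F c) * aeval x (Q /ₘ (X - C c)) := by
    conv_lhs => rw [← hfac]
    rw [map_mul, map_sub, aeval_X, aeval_C]
  have hR := s36np_aeval_mem P x hx (Q /ₘ (X - C c))
  have h1 : x - algebraMap K F c ≠ 0 := by
    intro h; rw [h, zero_mul] at hval; exact hQ0 hval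
  have h2 : aeval x (Q /ₘ (X - C c)) ≠ 0 := by
    intro h; rw [h, mul_zero] at hval; exact hQ0 hval
  have hord : 0 < P.ord (aeval x Q) := by
    rw [hval, P.ord_mul h1 h2]
    have := (sf_ord_nonneg_iff P _).mpr hR
    omega
  exact (sf_ord_pos_iff P _).mp hord hQ

/-- A derivation-like map `d : F → L` (additive, Leibniz, zero on constants) into an
`F`-algebra respects linear relations between differentials: `d a = g • d b` in `Ω[F⁄K]`
implies `d a = g * d b`. -/
theorem s36np_lift {L : Type*} [CommRing L] [Algebra F L] (d : F → L)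
    (hadd : ∀ x y, d (x + y) = d x + d y)
    (hmul : ∀ x y, d (x * y) = algebraMap F L x * d y + algebraMap F L y * d x)
    (hconst : ∀ c : K, d (algebraMap K F c) = 0) (a b g : F)
    (hg : D K F a = g • D K F b) : d a = algebraMap F L g * d b := by
  let _ : Algebra K L := ((algebraMap F L).comp (algebraMap K F)).toAlgebra
  have : IsScalarTower K F L := IsScalarTower.of_algebraMap_eq (fun _ => rfl)
  let D' : Derivation K F L :=
    { toFun := d
      map_add' := hadd
      map_smul' := fun c x => by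
        simp only [RingHom.id_apply]
        rw [Algebra.smul_def, hmul, hconst, mul_zero, add_zero, Algebra.smul_def]
        rfl
      map_one_eq_zero' := by
        show d 1 = 0
        have := hconst 1
        rwa [map_one] at this
      leibniz' := fun x y => by
        show d (x * y) = x • d y + y • d x
        rw [hmul, Algebra.smul_def, Algebra.smul_def] }
  have hL := congrArg D'.liftKaehlerDifferential hg
  rw [map_smul, Derivation.liftKaehlerDifferential_comp_D,
    Derivation.liftKaehlerDifferential_comp_D, Algebra.smul_def] at hL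
  exact hL

end Abs2

/-- `θ h ≠ 0`. -/
theorem s36np_theta_ne_zero {a2 ℓ : ℕ} (H : HauptRec a2 ℓ) (K : Type*) [Field K] [CharZero K] :
    thdTheta K (H.h K) ≠ 0 := by
  intro h0
  have h1 := congrArg (fun f : LaurentSeries K => f.coeff (-1)) h0
  simp only [thdTheta_coeff, H.h_coeff_neg_one, HahnSeries.coeff_zero, mul_one] at h1
  norm_num at h1

section Bar2

variable (M q : ℕ) [NeZero M] [hq : Fact q.Prime] (hM : ¬ q ∣ M) {a2 : ℕ} (H : HauptRec a2 q)
  (ha2 : a2 ∣ M)

include hM in
/-- **The statement over `ℚ̄`.** -/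
theorem s36np_bar (ν : ↥(modularFunctionFieldBar (M * q)))
    (hν : (ν : LaurentSeries Qb) * qExpand Qb q (thdTheta Qb (H.h Qb)) = thdTheta Qb (H.h Qb))
    (P : Place Qb ↥(modularFunctionFieldBar (M * q)))
    (hh : heckeAlphaBar Qb M q (c0rH M H ha2) ∈ P.toValuationSubring)
    (hQ : (aeval (heckeAlphaBar Qb M q (c0rH M H ha2)) H.Qrad)⁻¹ ∈ P.toValuationSubring)
    (hhq : heckeBetaBar Qb M q (c0rH M H ha2) ∈ P.toValuationSubring)
    (hQq : (aeval (heckeBetaBar Qb M q (c0rH M H ha2)) H.Qrad)⁻¹ ∈ P.toValuationSubring) :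
    P.ord ν = 0 := by
  have hαeq : heckeAlphaBar Qb M q (c0rH M H ha2) = c0rH (M * q) H (ha2.mul_right q) :=
    s36np_alpha_eq M q H ha2
  set hα := heckeAlphaBar Qb M q (c0rH M H ha2) with hαdef
  set hβ := heckeBetaBar Qb M q (c0rH M H ha2) with hβdef
  -- transcendence and algebraicity
  have htrα : Transcendental Qb hα := by
    rw [hαeq]; exact c0r_transcendental (M * q) H (ha2.mul_right q)
  have htrβ : Transcendental Qb hβ := fun halg =>
    c0r_transcendental M H ha2
      ((isAlgebraic_algHom_iff (heckeBetaBar Qb M q) (RingHom.injective _)).mp halg)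
  have _i := finiteDimensional_jBar' (M * q)
  have hfd1 : FiniteDimensional Qb⟮hα⟯ ↥(modularFunctionFieldBar (M * q)) :=
    sf_finiteDimensional_of_transcendental (jBar (M * q)) htrα
  have hfd2 : FiniteDimensional Qb⟮hβ⟯ ↥(modularFunctionFieldBar (M * q)) :=
    sf_finiteDimensional_of_transcendental (jBar (M * q)) htrβ
  have _a1 : Algebra.IsAlgebraic Qb⟮hα⟯ ↥(modularFunctionFieldBar (M * q)) :=
    Algebra.IsAlgebraic.of_finite _ _
  have _a2 : Algebra.IsAlgebraic Qb⟮hβ⟯ ↥(modularFunctionFieldBar (M * q)) :=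
    Algebra.IsAlgebraic.of_finite _ _
  -- the values
  obtain ⟨c, hc⟩ := s36np_exists_value hα P hα hh
    (fun c h => htrα (h ▸ isAlgebraic_algebraMap c))
  obtain ⟨c', hc'⟩ := s36np_exists_value hβ P hβ hhq
    (fun c h => htrβ (h ▸ isAlgebraic_algebraMap c))
  -- non-cuspidal values
  have hQk0 : H.Qrad.map (Int.castRingHom Qb) ≠ 0 := (H.Qrad_monic.map _).ne_zero
  have hQk : ∀ x : ↥(modularFunctionFieldBar (M * q)),
      aeval x (H.Qrad.map (Int.castRingHom Qb)) = aeval x H.Qrad := fun x => by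
    rw [← algebraMap_int_eq, Polynomial.aeval_map_algebraMap]
  have hne : ∀ x : ↥(modularFunctionFieldBar (M * q)), Transcendental Qb x →
      aeval x (H.Qrad.map (Int.castRingHom Qb)) ≠ 0 := fun x hx h0 => hx ⟨_, hQk0, h0⟩
  have hev : ∀ c : Qb, (H.Qrad.map (Int.castRingHom Qb)).eval c = aeval c H.Qrad := fun c => by
    rw [Polynomial.eval_map, Polynomial.aeval_def]
    congr 1
  have hcQ : aeval c H.Qrad ≠ 0 := by
    rw [← hev]
    exact s36np_eval_ne_zero P hα c hc _ (hne hα htrα) (by rw [hQk]; exact hQ)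
  have hcQ' : aeval c' H.Qrad ≠ 0 := by
    rw [← hev]
    exact s36np_eval_ne_zero P hβ c' hc' _ (hne hβ htrβ) (by rw [hQk]; exact hQq)
  -- simple zeros
  have e1 : P.ord (hα - algebraMap Qb ↥(modularFunctionFieldBar (M * q)) c) = 1 := by
    rw [hαeq] at hc ⊢
    exact c0r_ord_eq_one (M * q) H (ha2.mul_right q) c hcQ P hc
  have hσ : swpEquiv M q hq.out hM hα = hβ := swp_alpha M q hq.out hM (c0rH M H ha2)
  have hP₂ : swpEquiv M q hq.out hM • ((swpEquiv M q hq.out hM)⁻¹ • P) = P := by
    rw [smul_smul, mul_inv_cancel, one_smul]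
  have hord₂ : ∀ f : ↥(modularFunctionFieldBar (M * q)),
      P.ord (swpEquiv M q hq.out hM f) = ((swpEquiv M q hq.out hM)⁻¹ • P).ord f := fun f => by
    have := Place.ord_smul (swpEquiv M q hq.out hM) ((swpEquiv M q hq.out hM)⁻¹ • P) f
    rwa [hP₂] at this
  have e2 : P.ord (hβ - algebraMap Qb ↥(modularFunctionFieldBar (M * q)) c') = 1 := by
    have h1 : hβ - algebraMap Qb ↥(modularFunctionFieldBar (M * q)) c' =
        swpEquiv M q hq.out hM (hα - algebraMap Qb ↥(modularFunctionFieldBar (M * q)) c') := by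
      rw [map_sub, hσ, AlgEquiv.commutes]
    rw [h1, hord₂] at hc' ⊢
    rw [hαeq] at hc' ⊢
    exact c0r_ord_eq_one (M * q) H (ha2.mul_right q) c' hcQ' _ hc'
  -- the differential relation
  obtain ⟨g, hg0, hg, -⟩ := exists_eq_smul_D hβ (D Qb ↥(modularFunctionFieldBar (M * q)) hα)
    (D_ne_zero_of_place hα P)
  have hordg := s36np_abs hα hβ g hg P c c' e1 e2
  -- identification of `g` through the derivation `θ`
  have hL := s36np_lift (K := Qb) (F := ↥(modularFunctionFieldBar (M * q)))
    (L := LaurentSeries Qb) (fun x => thdTheta Qb (x : LaurentSeries Qb))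
    (fun x y => by
      show thdTheta Qb ((x : LaurentSeries Qb) + (y : LaurentSeries Qb)) = _
      rw [map_add])
    (fun x y => by
      show thdTheta Qb ((x : LaurentSeries Qb) * (y : LaurentSeries Qb)) =
        (x : LaurentSeries Qb) * _ + (y : LaurentSeries Qb) * _
      rw [thdTheta_mul])
    (fun c => by
      show thdTheta Qb (algebraMap Qb (LaurentSeries Qb) c) = 0
      exact Derivation.map_algebraMap _ c)
    hα hβ g hg
  have hαc : (hα : LaurentSeries Qb) = H.h Qb := by
    rw [coe_heckeAlphaBar, c0rH_coe]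
  have hβc : (hβ : LaurentSeries Qb) = qExpand Qb q (H.h Qb) := by
    rw [coe_heckeBetaBar, c0rH_coe]
  rw [hαc, hβc, thdTheta_qExpand] at hL
  have hne' : qExpand Qb q (thdTheta Qb (H.h Qb)) ≠ 0 := fun h0 =>
    s36np_theta_ne_zero H Qb (qExpand_injective q (h0.trans (map_zero _).symm))
  have hνg : (ν : LaurentSeries Qb) = (g : LaurentSeries Qb) * (q : LaurentSeries Qb) := by
    apply mul_right_cancel₀ hne'
    calc (ν : LaurentSeries Qb) * qExpand Qb q (thdTheta Qb (H.h Qb))
        = thdTheta Qb (H.h Qb) := hν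
      _ = (g : LaurentSeries Qb) * ((q : LaurentSeries Qb) *
            qExpand Qb q (thdTheta Qb (H.h Qb))) := hL
      _ = (g : LaurentSeries Qb) * (q : LaurentSeries Qb) *
            qExpand Qb q (thdTheta Qb (H.h Qb)) := by ring
  have hq0 : (q : Qb) ≠ 0 := Nat.cast_ne_zero.mpr hq.out.ne_zero
  have hνg' : ν = g * algebraMap Qb ↥(modularFunctionFieldBar (M * q)) (q : Qb) := by
    apply Subtype.ext
    rw [hνg]
    push_cast
    rfl
  have hq1 : algebraMap Qb ↥(modularFunctionFieldBar (M * q)) (q : Qb) ≠ 0 := by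
    rw [Ne, map_eq_zero]
    exact hq0
  rw [hνg', P.ord_mul hg0 hq1, hordg, sf_ord_algebraMap, add_zero]

end Bar2

section Main

variable (M q : ℕ) [NeZero M] [hq : Fact q.Prime] (hM : ¬ q ∣ M) {a2 : ℕ} (H : HauptRec a2 q)
  (ha2 : a2 ∣ M) (K0 : Type*) [Field K0] [Algebra ℚ K0] [Algebra K0 Qb]

/-- base change of `α(h)` -/
theorem s36np_bcf_alpha :
    bcfHom K0 Qb (modularFunctionFieldFull (M * q)) (heckeAlphaBar K0 M q (nunH K0 M H ha2)) =
      heckeAlphaBar Qb M q (c0rH M H ha2) := by
  apply Subtype.ext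
  rw [bcfHom_coe, coe_heckeAlphaBar, coe_heckeAlphaBar, nunH_coe, c0rH_coe, H.coeffMap_h]

/-- base change of `β(h)` -/
theorem s36np_bcf_beta :
    bcfHom K0 Qb (modularFunctionFieldFull (M * q)) (heckeBetaBar K0 M q (nunH K0 M H ha2)) =
      heckeBetaBar Qb M q (c0rH M H ha2) := by
  apply Subtype.ext
  rw [bcfHom_coe, coe_heckeBetaBar, coe_heckeBetaBar, nunH_coe, c0rH_coe, coeffMap_qExpand,
    H.coeffMap_h]

include hM in
/-- **PSI-NUPLACE.** Let `ν ∈ F = K0(X₀(M q))` have `t`-expansion `θ(h) / φ(θ h)`.  At every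
place `P` of `F / K0` at which `h = α(nunH)` and `h_q = β(nunH)` are finite with non-cuspidal
values, `ν` has order `0`. -/
theorem s36np_main (ν : ↥(laurentBaseChange K0 (modularFunctionFieldFull (M * q))))
    (hν : (ν : LaurentSeries K0) * qExpand K0 q (thdTheta K0 (H.h K0)) = thdTheta K0 (H.h K0))
    (P : Place K0 ↥(laurentBaseChange K0 (modularFunctionFieldFull (M * q))))
    (hh : heckeAlphaBar K0 M q (nunH K0 M H ha2) ∈ P.toValuationSubring)
    (hQ : (aeval (heckeAlphaBar K0 M q (nunH K0 M H ha2)) H.Qrad)⁻¹ ∈ P.toValuationSubring)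
    (hhq : heckeBetaBar K0 M q (nunH K0 M H ha2) ∈ P.toValuationSubring)
    (hQq : (aeval (heckeBetaBar K0 M q (nunH K0 M H ha2)) H.Qrad)⁻¹ ∈ P.toValuationSubring) :
    P.ord ν = 0 := by
  have _algQ : Algebra.IsAlgebraic ℚ Qb := AlgebraicClosure.isAlgebraic ℚ
  have _algK : Algebra.IsAlgebraic K0 Qb := bcf_isAlgebraic K0 Qb
  obtain ⟨P', hP'⟩ := bcf_exists_place K0 Qb (modularFunctionFieldFull (M * q)) P
  have hmem : ∀ y : ↥(laurentBaseChange K0 (modularFunctionFieldFull (M * q))),
      y ∈ P.toValuationSubring →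
      bcfHom K0 Qb (modularFunctionFieldFull (M * q)) y ∈ P'.toValuationSubring := fun y hy => by
    rw [← sf_ord_nonneg_iff, hP', sf_ord_nonneg_iff]
    exact hy
  have haev : ∀ y : ↥(laurentBaseChange K0 (modularFunctionFieldFull (M * q))),
      aeval (bcfHom K0 Qb (modularFunctionFieldFull (M * q)) y) H.Qrad =
        bcfHom K0 Qb (modularFunctionFieldFull (M * q)) (aeval y H.Qrad) := fun y =>
    Polynomial.aeval_algHom_apply
      (bcfHom K0 Qb (modularFunctionFieldFull (M * q))).toIntAlgHom y H.Qrad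
  rw [← hP' ν]
  refine s36np_bar M q hM H ha2 _ ?_ P' ?_ ?_ ?_ ?_
  · rw [bcfHom_coe]
    have h1 := congrArg (coeffMap (algebraMap K0 Qb)) hν
    rwa [map_mul, coeffMap_qExpand, thdTheta_coeffMap, H.coeffMap_h] at h1
  · rw [← s36np_bcf_alpha M q H ha2 K0]
    exact hmem _ hh
  · rw [← s36np_bcf_alpha M q H ha2 K0, haev, ← map_inv₀]
    exact hmem _ hQ
  · rw [← s36np_bcf_beta M q H ha2 K0]
    exact hmem _ hhq
  · rw [← s36np_bcf_beta M q H ha2 K0, haev, ← map_inv₀]
    exact hmem _ hQq

include hM in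
/-- Membership form of `s36np_main`: `ν` and `ν⁻¹` lie in the valuation ring of `P`. -/
theorem s36np_mem (ν : ↥(laurentBaseChange K0 (modularFunctionFieldFull (M * q))))
    (hν : (ν : LaurentSeries K0) * qExpand K0 q (thdTheta K0 (H.h K0)) = thdTheta K0 (H.h K0))
    (P : Place K0 ↥(laurentBaseChange K0 (modularFunctionFieldFull (M * q))))
    (hh : heckeAlphaBar K0 M q (nunH K0 M H ha2) ∈ P.toValuationSubring)
    (hQ : (aeval (heckeAlphaBar K0 M q (nunH K0 M H ha2)) H.Qrad)⁻¹ ∈ P.toValuationSubring)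
    (hhq : heckeBetaBar K0 M q (nunH K0 M H ha2) ∈ P.toValuationSubring)
    (hQq : (aeval (heckeBetaBar K0 M q (nunH K0 M H ha2)) H.Qrad)⁻¹ ∈ P.toValuationSubring) :
    ν ∈ P.toValuationSubring ∧ ν⁻¹ ∈ P.toValuationSubring := by
  have h0 := s36np_main M q hM H ha2 K0 ν hν P hh hQ hhq hQq
  exact ⟨(sf_ord_nonneg_iff P ν).mp h0.ge, (sf_ord_nonpos_iff P ν).mp h0.le⟩

include hM in
/-- **PSI-NUPLACE, differential form.**  If `d(α h) = ν' • d(β h)` in `Ω[F⁄K0]`, then `ν'` and
`ν'⁻¹` lie in the valuation ring of every place `P` of `F / K0` at which `α h` and `β h` are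
finite with non-cuspidal values. -/
theorem s36np_D_mem (ν' : ↥(laurentBaseChange K0 (modularFunctionFieldFull (M * q))))
    (hrel : D K0 ↥(laurentBaseChange K0 (modularFunctionFieldFull (M * q)))
        (heckeAlphaBar K0 M q (nunH K0 M H ha2)) =
      ν' • D K0 ↥(laurentBaseChange K0 (modularFunctionFieldFull (M * q)))
        (heckeBetaBar K0 M q (nunH K0 M H ha2)))
    (P : Place K0 ↥(laurentBaseChange K0 (modularFunctionFieldFull (M * q))))
    (hh : heckeAlphaBar K0 M q (nunH K0 M H ha2) ∈ P.toValuationSubring)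
    (hQ : (aeval (heckeAlphaBar K0 M q (nunH K0 M H ha2)) H.Qrad)⁻¹ ∈ P.toValuationSubring)
    (hhq : heckeBetaBar K0 M q (nunH K0 M H ha2) ∈ P.toValuationSubring)
    (hQq : (aeval (heckeBetaBar K0 M q (nunH K0 M H ha2)) H.Qrad)⁻¹ ∈ P.toValuationSubring) :
    ν' ∈ P.toValuationSubring ∧ ν'⁻¹ ∈ P.toValuationSubring := by
  have hL := s36nd_lift_D (laurentBaseChange K0 (modularFunctionFieldFull (M * q))).val
    (heckeAlphaBar K0 M q (nunH K0 M H ha2)) (heckeBetaBar K0 M q (nunH K0 M H ha2)) ν' hrel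
  have hαc : (laurentBaseChange K0 (modularFunctionFieldFull (M * q))).val
      (heckeAlphaBar K0 M q (nunH K0 M H ha2)) = H.h K0 := by
    show ((heckeAlphaBar K0 M q (nunH K0 M H ha2) :
      ↥(laurentBaseChange K0 (modularFunctionFieldFull (M * q)))) : LaurentSeries K0) = _
    rw [coe_heckeAlphaBar, nunH_coe]
  have hβc : (laurentBaseChange K0 (modularFunctionFieldFull (M * q))).val
      (heckeBetaBar K0 M q (nunH K0 M H ha2)) = qExpand K0 q (H.h K0) := by
    show ((heckeBetaBar K0 M q (nunH K0 M H ha2) :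
      ↥(laurentBaseChange K0 (modularFunctionFieldFull (M * q)))) : LaurentSeries K0) = _
    rw [coe_heckeBetaBar, nunH_coe]
  rw [hαc, hβc, thdTheta_qExpand] at hL
  have hν : ((((q : ℕ) : ↥(laurentBaseChange K0 (modularFunctionFieldFull (M * q)))) * ν' :
      ↥(laurentBaseChange K0 (modularFunctionFieldFull (M * q)))) : LaurentSeries K0) *
        qExpand K0 q (thdTheta K0 (H.h K0)) = thdTheta K0 (H.h K0) := by
    have hcoe : ((((q : ℕ) : ↥(laurentBaseChange K0 (modularFunctionFieldFull (M * q)))) * ν' :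
        ↥(laurentBaseChange K0 (modularFunctionFieldFull (M * q)))) : LaurentSeries K0) =
        (q : LaurentSeries K0) * (ν' : LaurentSeries K0) := by
      push_cast
      rfl
    have hval : (laurentBaseChange K0 (modularFunctionFieldFull (M * q))).val ν' =
        (ν' : LaurentSeries K0) := rfl
    rw [hval] at hL
    rw [hcoe]
    calc (q : LaurentSeries K0) * (ν' : LaurentSeries K0) *
          qExpand K0 q (thdTheta K0 (H.h K0))
        = (ν' : LaurentSeries K0) *
            ((q : LaurentSeries K0) * qExpand K0 q (thdTheta K0 (H.h K0))) := by ring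
      _ = thdTheta K0 (H.h K0) := hL.symm
  obtain ⟨h1, h2⟩ := s36np_mem M q hM H ha2 K0 _ hν P hh hQ hhq hQq
  have hq0 : (q : K0) ≠ 0 := by
    have : CharZero K0 := algebraRat.charZero K0
    exact Nat.cast_ne_zero.mpr hq.out.ne_zero
  have hqF : ((q : ℕ) : ↥(laurentBaseChange K0 (modularFunctionFieldFull (M * q)))) =
      algebraMap K0 ↥(laurentBaseChange K0 (modularFunctionFieldFull (M * q))) (q : K0) := by
    rw [map_natCast]
  have hqF0 : ((q : ℕ) : ↥(laurentBaseChange K0 (modularFunctionFieldFull (M * q)))) ≠ 0 := by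
    rw [hqF, Ne, map_eq_zero]
    exact hq0
  have hqm : ((q : ℕ) : ↥(laurentBaseChange K0 (modularFunctionFieldFull (M * q)))) ∈
      P.toValuationSubring := by
    rw [hqF]
    exact P.algebraMap_mem' _
  have hqim : (((q : ℕ) : ↥(laurentBaseChange K0 (modularFunctionFieldFull (M * q)))))⁻¹ ∈
      P.toValuationSubring := by
    rw [hqF, ← map_inv₀]
    exact P.algebraMap_mem' _
  constructor
  · have : ν' = (((q : ℕ) : ↥(laurentBaseChange K0 (modularFunctionFieldFull (M * q)))))⁻¹ *
        (((q : ℕ) : ↥(laurentBaseChange K0 (modularFunctionFieldFull (M * q)))) * ν') := by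
      rw [← mul_assoc, inv_mul_cancel₀ hqF0, one_mul]
    rw [this]
    exact P.toValuationSubring.mul_mem _ _ hqim h1
  · have : ν'⁻¹ = ((q : ℕ) : ↥(laurentBaseChange K0 (modularFunctionFieldFull (M * q)))) *
        (((q : ℕ) : ↥(laurentBaseChange K0 (modularFunctionFieldFull (M * q)))) * ν')⁻¹ := by
      rw [mul_inv, ← mul_assoc, mul_inv_cancel₀ hqF0, one_mul]
    rw [this]
    exact P.toValuationSubring.mul_mem _ _ hqm h2

include hM in
/-- **PSI-NUPLACE, differential form, order.**  `P.ord ν' = 0`. -/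
theorem s36np_D_ord (ν' : ↥(laurentBaseChange K0 (modularFunctionFieldFull (M * q))))
    (hrel : D K0 ↥(laurentBaseChange K0 (modularFunctionFieldFull (M * q)))
        (heckeAlphaBar K0 M q (nunH K0 M H ha2)) =
      ν' • D K0 ↥(laurentBaseChange K0 (modularFunctionFieldFull (M * q)))
        (heckeBetaBar K0 M q (nunH K0 M H ha2)))
    (P : Place K0 ↥(laurentBaseChange K0 (modularFunctionFieldFull (M * q))))
    (hh : heckeAlphaBar K0 M q (nunH K0 M H ha2) ∈ P.toValuationSubring)
    (hQ : (aeval (heckeAlphaBar K0 M q (nunH K0 M H ha2)) H.Qrad)⁻¹ ∈ P.toValuationSubring)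
    (hhq : heckeBetaBar K0 M q (nunH K0 M H ha2) ∈ P.toValuationSubring)
    (hQq : (aeval (heckeBetaBar K0 M q (nunH K0 M H ha2)) H.Qrad)⁻¹ ∈ P.toValuationSubring) :
    P.ord ν' = 0 := by
  obtain ⟨h1, h2⟩ := s36np_D_mem M q hM H ha2 K0 ν' hrel P hh hQ hhq hQq
  exact le_antisymm ((sf_ord_nonpos_iff P ν').mpr h2) ((sf_ord_nonneg_iff P ν').mpr h1)

include hM in
/-- **PSI-NUPLACE, valuation-subring form** (the shape consumed by `s36pi_unit`).  Let `V` be a
principal valuation subring of `F = K0(X₀(M q))`, `V ≠ ⊤`, containing the constants `K0`, at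
which `α h` and `β h` are finite with non-cuspidal values.  If `d(α h) = ν' • d(β h)`, then
`ν'` is a unit of `V`. -/
theorem s36np_val (ν' : ↥(laurentBaseChange K0 (modularFunctionFieldFull (M * q))))
    (hrel : D K0 ↥(laurentBaseChange K0 (modularFunctionFieldFull (M * q)))
        (heckeAlphaBar K0 M q (nunH K0 M H ha2)) =
      ν' • D K0 ↥(laurentBaseChange K0 (modularFunctionFieldFull (M * q)))
        (heckeBetaBar K0 M q (nunH K0 M H ha2)))
    (V : ValuationSubring ↥(laurentBaseChange K0 (modularFunctionFieldFull (M * q))))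
    (hpir : IsPrincipalIdealRing V) (htop : V ≠ ⊤)
    (hK : ∀ c : K0,
      algebraMap K0 ↥(laurentBaseChange K0 (modularFunctionFieldFull (M * q))) c ∈ V)
    (hh : heckeAlphaBar K0 M q (nunH K0 M H ha2) ∈ V)
    (hQ : (aeval (heckeAlphaBar K0 M q (nunH K0 M H ha2)) H.Qrad)⁻¹ ∈ V)
    (hhq : heckeBetaBar K0 M q (nunH K0 M H ha2) ∈ V)
    (hQq : (aeval (heckeBetaBar K0 M q (nunH K0 M H ha2)) H.Qrad)⁻¹ ∈ V) :
    ν' ∈ V ∧ ν'⁻¹ ∈ V :=
  s36np_D_mem M q hM H ha2 K0 ν' hrel ⟨V, hK, htop, hpir⟩ hh hQ hhq hQq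

/-- The same for `ν = q ν'`: it is a unit of `V` as well. -/
theorem s36np_val_q (ν' : ↥(laurentBaseChange K0 (modularFunctionFieldFull (M * q))))
    (V : ValuationSubring ↥(laurentBaseChange K0 (modularFunctionFieldFull (M * q))))
    (hK : ∀ c : K0,
      algebraMap K0 ↥(laurentBaseChange K0 (modularFunctionFieldFull (M * q))) c ∈ V)
    (hν : ν' ∈ V ∧ ν'⁻¹ ∈ V) :
    ((q : ℕ) : ↥(laurentBaseChange K0 (modularFunctionFieldFull (M * q)))) * ν' ∈ V ∧
      (((q : ℕ) : ↥(laurentBaseChange K0 (modularFunctionFieldFull (M * q)))) * ν')⁻¹ ∈ V := by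
  have hqF : ((q : ℕ) : ↥(laurentBaseChange K0 (modularFunctionFieldFull (M * q)))) =
      algebraMap K0 ↥(laurentBaseChange K0 (modularFunctionFieldFull (M * q))) (q : K0) := by
    rw [map_natCast]
  constructor
  · rw [hqF]
    exact V.mul_mem _ _ (hK _) hν.1
  · rw [mul_inv, hqF, ← map_inv₀]
    exact V.mul_mem _ _ (hK _) hν.2

end Main

end Fermat.Agent.S36
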