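import Mathlib
import Fermat.Agent.S34.KrullSub
import Fermat.Agent.S34.NodeChart
import Fermat.Agent.S34.Val2Exh

/-!
# S36, PSI-UNIT, [PU-INT]: integrality at a point of the Hauptmodul chart of level `M q`

`Val2Def` carrier (the one of `s35nd_node`): `F = K0(X₀(M q))`, `q ∤ M`, `A0` a discrete valuation
subring of `K0` over `q`, `V₁ = va2V1`, `V₂ = va2V2`, chart `O = chtO A0 {t}` with
`t = cinstU H K0 c0 c1`, `𝔫` a prime of `O`.

* `s36pi_const_mem`: a valuation subring of `F` containing the chart and `τ⁻¹` contains `K0`;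
* `s36pi_tau2`: `τ ∈ 𝔪_{V₂}`;
* `s36pi_main`: **[PU-INT]** if `z ∈ V₁ ∩ V₂` has no pole along any horizontal principal
  valuation ring through `𝔫` (a place of `F / K0` containing the chart in which every element
  of the chart outside `𝔫` is invertible), then `z ∈ O_𝔫` (fraction form);
* `s36pi_unit`: the unit form (`z` and `z⁻¹`).

Proof: `kri_sub_two_val` (S34/KrullSub) with the chart facts `nch_top` (S34/NodeChart).
-/

set_option autoImplicit false
set_option linter.unusedSectionVars false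

noncomputable section

open ModularCurve AlgebraicCurve Polynomial
open Fermat.Agent.S18 Fermat.Agent.S37 Fermat.Agent.S34

namespace Fermat.Agent.S36

local notation "Qb" => AlgebraicClosure ℚ

/-- a valuation subring of `F` containing the image of `A0` and the inverse of a uniformizer
contains the constants `K0` -/
theorem s36pi_const_mem {K0 F : Type*} [Field K0] [Field F] [Algebra K0 F]
    (A0 : ValuationSubring K0) [IsDiscreteValuationRing ↥A0]
    [Algebra ↥A0 F] [IsScalarTower ↥A0 K0 F]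
    (τ : A0) (hτ : Irreducible τ) (V : ValuationSubring F)
    (hA : ∀ a : A0, algebraMap A0 F a ∈ V) (hτV : (algebraMap A0 F τ)⁻¹ ∈ V) (c : K0) :
    algebraMap K0 F c ∈ V := by
  by_cases hcA : c ∈ A0
  · have := hA ⟨c, hcA⟩
    rwa [IsScalarTower.algebraMap_apply A0 K0 F] at this
  · have hc0 : c ≠ 0 := by
      rintro rfl
      exact hcA A0.zero_mem
    have hinv : c⁻¹ ∈ A0 := (A0.mem_or_inv_mem c).resolve_left hcA
    have hne : (⟨c⁻¹, hinv⟩ : A0) ≠ 0 := by
      intro h0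
      exact inv_ne_zero hc0 (congrArg Subtype.val h0)
    obtain ⟨k, u, hu⟩ := IsDiscreteValuationRing.eq_unit_mul_pow_irreducible hne hτ
    -- `c⁻¹ = u * τ ^ k`, so `c = u⁻¹ * (τ⁻¹) ^ k`
    have h1 : algebraMap K0 F c⁻¹ = algebraMap A0 F (u : A0) * algebraMap A0 F τ ^ k := by
      have := congrArg (algebraMap A0 F) hu
      rw [map_mul, map_pow] at this
      rw [← this, IsScalarTower.algebraMap_apply A0 K0 F]
      rfl
    have hu1 : algebraMap A0 F (u : A0) * algebraMap A0 F ((u⁻¹ : A0ˣ) : A0) = 1 := by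
      rw [← map_mul, Units.mul_inv, map_one]
    have hc1 : algebraMap K0 F c * algebraMap K0 F c⁻¹ = 1 := by
      rw [← map_mul, mul_inv_cancel₀ hc0, map_one]
    have hτ0 : algebraMap A0 F τ ≠ 0 := by
      rw [IsScalarTower.algebraMap_apply A0 K0 F, Ne, map_eq_zero]
      intro h0
      exact hτ.ne_zero (Subtype.ext h0)
    have h2 : algebraMap K0 F c =
        algebraMap A0 F ((u⁻¹ : A0ˣ) : A0) * ((algebraMap A0 F τ)⁻¹) ^ k := by
      have h3 : algebraMap K0 F c * (algebraMap A0 F (u : A0) * algebraMap A0 F τ ^ k) = 1 := by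
        rw [← h1]
        exact hc1
      have h4 : algebraMap A0 F τ ^ k * ((algebraMap A0 F τ)⁻¹) ^ k = 1 := by
        rw [← mul_pow, mul_inv_cancel₀ hτ0, one_pow]
      calc algebraMap K0 F c
          = algebraMap K0 F c * ((algebraMap A0 F (u : A0) * algebraMap A0 F ((u⁻¹ : A0ˣ) : A0)) *
              (algebraMap A0 F τ ^ k * ((algebraMap A0 F τ)⁻¹) ^ k)) := by
            rw [hu1, h4, mul_one, mul_one]
        _ = (algebraMap K0 F c * (algebraMap A0 F (u : A0) * algebraMap A0 F τ ^ k)) *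
              (algebraMap A0 F ((u⁻¹ : A0ˣ) : A0) * ((algebraMap A0 F τ)⁻¹) ^ k) := by ring
        _ = algebraMap A0 F ((u⁻¹ : A0ˣ) : A0) * ((algebraMap A0 F τ)⁻¹) ^ k := by
            rw [h3, one_mul]
    rw [h2]
    exact V.mul_mem _ _ (hA _) (V.pow_mem hτV k)

section Carrier

variable (M q : ℕ) [NeZero M] [hq : Fact q.Prime] (hM : ¬ q ∣ M)
  (K0 : Type*) [Field K0] [Algebra ℚ K0] [Algebra K0 Qb]
  (A0 : ValuationSubring K0) [IsDiscreteValuationRing ↥A0]
  {a2 : ℕ} (H : HauptRec a2 q)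

/-- `τ ∈ 𝔪_{V₂}` -/
theorem s36pi_tau2 (c0 c1 : A0)
    (hc : IsLocalRing.residue ↥A0 c0 ≠ IsLocalRing.residue ↥A0 c1)
    (t : ↥(laurentBaseChange K0 (modularFunctionFieldFull (M * q))))
    (ht : (t : LaurentSeries K0) = cinstU H K0 (c0 : K0) (c1 : K0))
    [Algebra ↥A0 ↥(laurentBaseChange K0 (modularFunctionFieldFull (M * q)))]
    [IsScalarTower ↥A0 K0 ↥(laurentBaseChange K0 (modularFunctionFieldFull (M * q)))]
    (τ : A0) (hτ : Irreducible τ) :
    algebraMap A0 ↥(laurentBaseChange K0 (modularFunctionFieldFull (M * q))) τ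
      ∈ (va2V2 M q hM K0 A0).nonunits := by
  have h1 := nch_tau1 M q K0 A0 H c0 c1 hc t ht τ hτ
  show _ ∈ ((va2V1 M q K0 A0).comap (va2Swap M q hq.out hM K0)).nonunits
  rw [va2x_comap_nonunits,
    IsScalarTower.algebraMap_apply A0 K0 ↥(laurentBaseChange K0 (modularFunctionFieldFull (M * q))),
    va2Swap_const,
    ← IsScalarTower.algebraMap_apply A0 K0 ↥(laurentBaseChange K0 (modularFunctionFieldFull (M * q)))]
  exact h1

/-- **[PU-INT]** At a prime `𝔫` of the Hauptmodul chart of level `M q`: an element of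
`V₁ ∩ V₂` without pole along any horizontal principal valuation ring through `𝔫` lies in
`O_𝔫`. -/
theorem s36pi_main (ha2 : a2 ∣ M) (hA0 : A0.LiesOverPrime q) (c0 c1 : A0)
    (hc : IsLocalRing.residue ↥A0 c0 ≠ IsLocalRing.residue ↥A0 c1)
    (t : ↥(laurentBaseChange K0 (modularFunctionFieldFull (M * q))))
    (ht : (t : LaurentSeries K0) = cinstU H K0 (c0 : K0) (c1 : K0))
    [Algebra ↥A0 ↥(laurentBaseChange K0 (modularFunctionFieldFull (M * q)))]
    [IsScalarTower ↥A0 K0 ↥(laurentBaseChange K0 (modularFunctionFieldFull (M * q)))]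
    (τ : A0) (hτ : Irreducible τ)
    (𝔫 : Ideal ↥(chtO A0 {t})) [𝔫.IsPrime]
    (z : ↥(laurentBaseChange K0 (modularFunctionFieldFull (M * q))))
    (hz₁ : z ∈ va2V1 M q K0 A0) (hz₂ : z ∈ va2V2 M q hM K0 A0)
    (hhor : ∀ V : ValuationSubring ↥(laurentBaseChange K0 (modularFunctionFieldFull (M * q))),
      IsPrincipalIdealRing V → V ≠ ⊤ →
      (∀ c : K0, algebraMap K0 ↥(laurentBaseChange K0 (modularFunctionFieldFull (M * q))) c ∈ V) →
      (∀ x ∈ chtO A0 {t}, x ∈ V) →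
      (∀ s : ↥(chtO A0 {t}), s ∉ 𝔫 →
        ((s : ↥(laurentBaseChange K0 (modularFunctionFieldFull (M * q)))))⁻¹ ∈ V) → z ∈ V) :
    ∃ a s : ↥(chtO A0 {t}), s ∉ 𝔫 ∧
      z * (s : ↥(laurentBaseChange K0 (modularFunctionFieldFull (M * q)))) =
        (a : ↥(laurentBaseChange K0 (modularFunctionFieldFull (M * q)))) := by
  obtain ⟨hnoeth, hic, hfrac, hO₁, hO₂, hτV₁, -⟩ :=
    nch_top M q hM K0 A0 H ha2 hA0 c0 c1 hc t ht τ hτ
  have hVτ := (ndi_hVtau M q hM K0 A0 H ha2 hA0 c0 c1 hc t ht τ hτ).2.2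
  have hτV₂ := s36pi_tau2 M q hM K0 A0 H c0 c1 hc t ht τ hτ
  have hτ0 : algebraMap A0 ↥(laurentBaseChange K0 (modularFunctionFieldFull (M * q))) τ ≠ 0 := by
    rw [IsScalarTower.algebraMap_apply A0 K0
      ↥(laurentBaseChange K0 (modularFunctionFieldFull (M * q))), Ne, map_eq_zero]
    intro h0
    exact hτ.ne_zero (Subtype.ext h0)
  refine kri_sub_two_val τ hτ0 (chtO A0 {t}) hfrac hic (va2V1 M q K0 A0) (va2V2 M q hM K0 A0)
    hO₁ hO₂ hτV₁ hτV₂ hVτ 𝔫 z hz₁ hz₂ ?_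
  intro V hOV hinv hpir htop hτV
  refine hhor V hpir htop ?_ hOV hinv
  exact s36pi_const_mem A0 τ hτ V (fun a => hOV _ ((chtO A0 {t}).algebraMap_mem a)) hτV

/-- **[PU-INT], unit form.** If `z ≠ 0` is a unit of `V₁` and of `V₂` and has neither zero nor
pole along any horizontal principal valuation ring through `𝔫`, then `z` is a unit of `O_𝔫`. -/
theorem s36pi_unit (ha2 : a2 ∣ M) (hA0 : A0.LiesOverPrime q) (c0 c1 : A0)
    (hc : IsLocalRing.residue ↥A0 c0 ≠ IsLocalRing.residue ↥A0 c1)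
    (t : ↥(laurentBaseChange K0 (modularFunctionFieldFull (M * q))))
    (ht : (t : LaurentSeries K0) = cinstU H K0 (c0 : K0) (c1 : K0))
    [Algebra ↥A0 ↥(laurentBaseChange K0 (modularFunctionFieldFull (M * q)))]
    [IsScalarTower ↥A0 K0 ↥(laurentBaseChange K0 (modularFunctionFieldFull (M * q)))]
    (τ : A0) (hτ : Irreducible τ)
    (𝔫 : Ideal ↥(chtO A0 {t})) [𝔫.IsPrime]
    (z : ↥(laurentBaseChange K0 (modularFunctionFieldFull (M * q)))) (hz0 : z ≠ 0)
    (hz₁ : z ∈ va2V1 M q K0 A0) (hz₁' : z⁻¹ ∈ va2V1 M q K0 A0)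
    (hz₂ : z ∈ va2V2 M q hM K0 A0) (hz₂' : z⁻¹ ∈ va2V2 M q hM K0 A0)
    (hhor : ∀ V : ValuationSubring ↥(laurentBaseChange K0 (modularFunctionFieldFull (M * q))),
      IsPrincipalIdealRing V → V ≠ ⊤ →
      (∀ c : K0, algebraMap K0 ↥(laurentBaseChange K0 (modularFunctionFieldFull (M * q))) c ∈ V) →
      (∀ x ∈ chtO A0 {t}, x ∈ V) →
      (∀ s : ↥(chtO A0 {t}), s ∉ 𝔫 →
        ((s : ↥(laurentBaseChange K0 (modularFunctionFieldFull (M * q)))))⁻¹ ∈ V) →
      z ∈ V ∧ z⁻¹ ∈ V) :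
    ∃ a b : ↥(chtO A0 {t}), a ∉ 𝔫 ∧ b ∉ 𝔫 ∧
      z * (b : ↥(laurentBaseChange K0 (modularFunctionFieldFull (M * q)))) =
        (a : ↥(laurentBaseChange K0 (modularFunctionFieldFull (M * q)))) := by
  obtain ⟨hnoeth, hic, hfrac, hO₁, hO₂, hτV₁, -⟩ :=
    nch_top M q hM K0 A0 H ha2 hA0 c0 c1 hc t ht τ hτ
  have hVτ := (ndi_hVtau M q hM K0 A0 H ha2 hA0 c0 c1 hc t ht τ hτ).2.2
  have hτV₂ := s36pi_tau2 M q hM K0 A0 H c0 c1 hc t ht τ hτ
  have hτ0 : algebraMap A0 ↥(laurentBaseChange K0 (modularFunctionFieldFull (M * q))) τ ≠ 0 := by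
    rw [IsScalarTower.algebraMap_apply A0 K0
      ↥(laurentBaseChange K0 (modularFunctionFieldFull (M * q))), Ne, map_eq_zero]
    intro h0
    exact hτ.ne_zero (Subtype.ext h0)
  refine kri_sub_two_val_unit τ hτ0 (chtO A0 {t}) hfrac hic (va2V1 M q K0 A0)
    (va2V2 M q hM K0 A0) hO₁ hO₂ hτV₁ hτV₂ hVτ 𝔫 z hz0 hz₁ hz₁' hz₂ hz₂' ?_
  intro V hOV hinv hpir htop hτV
  refine hhor V hpir htop ?_ hOV hinv
  exact s36pi_const_mem A0 τ hτ V (fun a => hOV _ ((chtO A0 {t}).algebraMap_mem a)) hτV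

end Carrier

end Fermat.Agent.S36
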