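import Mathlib

/-!
# S36, PSI-UNIT, [PSI-ABS]: the abstract thickness-one lemma (fraction form)

`O ⊆ F` a subalgebra, `𝔫` a prime of `O`, `V₁` a valuation ring of `F` containing `O` whose
centre on `O` lies in `𝔫`.  `y` a unit of `V₁` lying in `𝔫 O_𝔫` and generating `𝔫 O_𝔫` modulo
`m_{V₁}` (`hB₁`).  If `ν ∈ 𝔫 O_𝔫`, `δ ∈ V₁`, and `Pt, Dt, Nt ∈ O_𝔫` satisfy
`δ Dt ≡ Pt`, `ν Nt ≡ Dt²` mod `m_{V₁}` with `Pt, Dt` comaximal in `O_𝔫`, then `δ y ∉ 𝔫 O_𝔫`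
(`s36pu_abs`); if moreover `δ y ∈ O_𝔫` then it is a unit of `O_𝔫` (`s36pu_abs_unit`).

`O_𝔫` and `𝔫 O_𝔫` are the predicates `s36puL` (`∃ a s : O, s ∉ 𝔫 ∧ z * s = a`) and `s36puM`
(`∃ a s : O, a ∈ 𝔫 ∧ s ∉ 𝔫 ∧ z * s = a`), the shapes of `s35nd_node` and `kri_sub_two_val`.
-/

set_option autoImplicit false

namespace Fermat.Agent.S36

variable {A F : Type*} [CommRing A] [Field F] [Algebra A F]

/-- `z ∈ O_𝔫` (fraction form) -/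
def s36puL (O : Subalgebra A F) (𝔫 : Ideal ↥O) (z : F) : Prop :=
  ∃ a s : ↥O, s ∉ 𝔫 ∧ z * (s : F) = (a : F)

/-- `z ∈ 𝔫 O_𝔫` (fraction form) -/
def s36puM (O : Subalgebra A F) (𝔫 : Ideal ↥O) (z : F) : Prop :=
  ∃ a s : ↥O, a ∈ 𝔫 ∧ s ∉ 𝔫 ∧ z * (s : F) = (a : F)

variable (O : Subalgebra A F) (𝔫 : Ideal ↥O)

theorem s36puM_L {z : F} (h : s36puM O 𝔫 z) : s36puL O 𝔫 z := by
  obtain ⟨a, s, -, hs, h⟩ := h
  exact ⟨a, s, hs, h⟩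

variable [𝔫.IsPrime]

omit [𝔫.IsPrime] in
theorem s36pu_ne_zero {s : ↥O} (hs : s ∉ 𝔫) : (s : F) ≠ 0 := by
  intro h0
  apply hs
  have : s = 0 := Subtype.ext h0
  rw [this]
  exact 𝔫.zero_mem

theorem s36puL_add {z w : F} (hz : s36puL O 𝔫 z) (hw : s36puL O 𝔫 w) : s36puL O 𝔫 (z + w) := by
  obtain ⟨a, s, hs, h1⟩ := hz
  obtain ⟨b, u, hu, h2⟩ := hw
  refine ⟨a * u + b * s, s * u, fun h => ?_, ?_⟩
  · rcases Ideal.IsPrime.mem_or_mem ‹_› h with h | h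
    · exact hs h
    · exact hu h
  · push_cast
    linear_combination (u : F) * h1 + (s : F) * h2

theorem s36puL_mul {z w : F} (hz : s36puL O 𝔫 z) (hw : s36puL O 𝔫 w) : s36puL O 𝔫 (z * w) := by
  obtain ⟨a, s, hs, h1⟩ := hz
  obtain ⟨b, u, hu, h2⟩ := hw
  refine ⟨a * b, s * u, fun h => ?_, ?_⟩
  · rcases Ideal.IsPrime.mem_or_mem ‹_› h with h | h
    · exact hs h
    · exact hu h
  · push_cast
    linear_combination (w * (u : F)) * h1 + (a : F) * h2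

omit [𝔫.IsPrime] in
theorem s36puL_neg {z : F} (hz : s36puL O 𝔫 z) : s36puL O 𝔫 (-z) := by
  obtain ⟨a, s, hs, h1⟩ := hz
  refine ⟨-a, s, hs, ?_⟩
  push_cast
  linear_combination -h1

theorem s36puL_sub {z w : F} (hz : s36puL O 𝔫 z) (hw : s36puL O 𝔫 w) : s36puL O 𝔫 (z - w) := by
  rw [sub_eq_add_neg]
  exact s36puL_add O 𝔫 hz (s36puL_neg O 𝔫 hw)

theorem s36puL_one : s36puL O 𝔫 1 :=
  ⟨1, 1, fun h => (Ideal.IsPrime.ne_top ‹_›) ((Ideal.eq_top_iff_one _).mpr h), by simp⟩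

theorem s36puM_add {z w : F} (hz : s36puM O 𝔫 z) (hw : s36puM O 𝔫 w) : s36puM O 𝔫 (z + w) := by
  obtain ⟨a, s, ha, hs, h1⟩ := hz
  obtain ⟨b, u, hb, hu, h2⟩ := hw
  refine ⟨a * u + b * s, s * u, 𝔫.add_mem (𝔫.mul_mem_right _ ha) (𝔫.mul_mem_right _ hb),
    fun h => ?_, ?_⟩
  · rcases Ideal.IsPrime.mem_or_mem ‹_› h with h | h
    · exact hs h
    · exact hu h
  · push_cast
    linear_combination (u : F) * h1 + (s : F) * h2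

theorem s36puM_mul {z w : F} (hz : s36puM O 𝔫 z) (hw : s36puL O 𝔫 w) : s36puM O 𝔫 (z * w) := by
  obtain ⟨a, s, ha, hs, h1⟩ := hz
  obtain ⟨b, u, hu, h2⟩ := hw
  refine ⟨a * b, s * u, 𝔫.mul_mem_right _ ha, fun h => ?_, ?_⟩
  · rcases Ideal.IsPrime.mem_or_mem ‹_› h with h | h
    · exact hs h
    · exact hu h
  · push_cast
    linear_combination (w * (u : F)) * h1 + (a : F) * h2

omit [𝔫.IsPrime] in
theorem s36puM_neg {z : F} (hz : s36puM O 𝔫 z) : s36puM O 𝔫 (-z) := by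
  obtain ⟨a, s, ha, hs, h1⟩ := hz
  refine ⟨-a, s, 𝔫.neg_mem ha, hs, ?_⟩
  push_cast
  linear_combination -h1

theorem s36puM_sub {z w : F} (hz : s36puM O 𝔫 z) (hw : s36puM O 𝔫 w) : s36puM O 𝔫 (z - w) := by
  rw [sub_eq_add_neg]
  exact s36puM_add O 𝔫 hz (s36puM_neg O 𝔫 hw)

omit [𝔫.IsPrime] in
/-- `1 ∉ 𝔫 O_𝔫` -/
theorem s36puM_one : ¬ s36puM O 𝔫 (1 : F) := by
  rintro ⟨a, s, ha, hs, h⟩
  rw [one_mul] at h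
  have : s = a := Subtype.ext h
  exact hs (this ▸ ha)

/-- primality of `𝔫 O_𝔫` -/
theorem s36puM_prime {z w : F} (hz : s36puL O 𝔫 z) (hw : s36puL O 𝔫 w)
    (h : s36puM O 𝔫 (z * w)) : s36puM O 𝔫 z ∨ s36puM O 𝔫 w := by
  obtain ⟨a, s, hs, h1⟩ := hz
  obtain ⟨b, u, hu, h2⟩ := hw
  obtain ⟨c, v, hc, hv, h3⟩ := h
  -- a * b * v = c * s * u
  have hF : ((a * b * v : ↥O) : F) = ((c * s * u : ↥O) : F) := by
    push_cast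
    linear_combination (-(w * (u : F) * (v : F))) * h1 - ((a : F) * (v : F)) * h2
      + ((s : F) * (u : F)) * h3
  have hO : a * b * v = c * s * u := Subtype.ext hF
  have hmem : a * b * v ∈ 𝔫 := by
    rw [hO]
    exact 𝔫.mul_mem_right _ (𝔫.mul_mem_right _ hc)
  rcases Ideal.IsPrime.mem_or_mem ‹_› hmem with h | h
  · rcases Ideal.IsPrime.mem_or_mem ‹_› h with h | h
    · exact Or.inl ⟨a, s, h, hs, h1⟩
    · exact Or.inr ⟨b, u, h, hu, h2⟩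
  · exact absurd h hv

omit [Algebra A F] in
/-- `m_V · V ⊆ m_V` -/
theorem s36pu_nu_mul (V : ValuationSubring F) {z w : F} (hz : z ∈ V.nonunits) (hw : w ∈ V) :
    z * w ∈ V.nonunits := by
  rw [V.mem_nonunits_iff] at hz ⊢
  rw [map_mul]
  have h1 : V.valuation w ≤ 1 := (V.valuation_le_one_iff w).mpr hw
  calc V.valuation z * V.valuation w ≤ V.valuation z * 1 := mul_le_mul_right h1 _
    _ = V.valuation z := mul_one _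
    _ < 1 := hz

section Val

variable (V₁ : ValuationSubring F) (hO₁ : ∀ y ∈ O, y ∈ V₁)
  (hc₁ : ∀ x : ↥O, (x : F) ∈ V₁.nonunits → x ∈ 𝔫)

include hO₁ hc₁

omit [𝔫.IsPrime] hO₁ in
/-- elements of `O` outside `𝔫` are units of `V₁` -/
theorem s36pu_inv_mem {s : ↥O} (hs : s ∉ 𝔫) : ((s : F))⁻¹ ∈ V₁ := by
  by_contra hinv
  exact hs (hc₁ s (V₁.mem_nonunits_iff_or.mpr (Or.inr hinv)))

omit [𝔫.IsPrime] in
/-- `O_𝔫 ⊆ V₁` -/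
theorem s36puL_mem {z : F} (hz : s36puL O 𝔫 z) : z ∈ V₁ := by
  obtain ⟨a, s, hs, h⟩ := hz
  have h0 := s36pu_ne_zero O 𝔫 hs
  have : z = (a : F) * ((s : F))⁻¹ := by
    field_simp
    exact h
  rw [this]
  exact V₁.mul_mem _ _ (hO₁ _ a.2) (s36pu_inv_mem O 𝔫 V₁ hc₁ hs)

omit [𝔫.IsPrime] in
/-- `O_𝔫 ∩ m_{V₁} ⊆ 𝔫 O_𝔫` -/
theorem s36puL_nonunits {z : F} (hz : s36puL O 𝔫 z) (hz' : z ∈ V₁.nonunits) :
    s36puM O 𝔫 z := by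
  obtain ⟨a, s, hs, h⟩ := hz
  refine ⟨a, s, hc₁ a ?_, hs, h⟩
  rw [← h]
  exact s36pu_nu_mul V₁ hz' (hO₁ _ s.2)

omit hO₁ in
/-- the branch statement `hB₁` in element form: every element of `𝔫 O_𝔫` is `≡ y b` mod
`m_{V₁}` with `b ∈ O_𝔫` -/
theorem s36pu_branch (y : F)
    (hB₁ : ∀ a : ↥O, a ∈ 𝔫 → ∃ b c : ↥O, c ∉ 𝔫 ∧
      (a : F) * (c : F) - y * (b : F) ∈ V₁.nonunits)
    {z : F} (hz : s36puM O 𝔫 z) :
    ∃ b : F, s36puL O 𝔫 b ∧ z - y * b ∈ V₁.nonunits := by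
  obtain ⟨a, s, ha, hs, h⟩ := hz
  obtain ⟨b0, c, hc, hb⟩ := hB₁ a ha
  have hs0 := s36pu_ne_zero O 𝔫 hs
  have hc0 := s36pu_ne_zero O 𝔫 hc
  refine ⟨(b0 : F) * ((s : F))⁻¹ * ((c : F))⁻¹, ⟨b0, s * c, fun h => ?_, ?_⟩, ?_⟩
  · rcases Ideal.IsPrime.mem_or_mem ‹_› h with h | h
    · exact hs h
    · exact hc h
  · push_cast
    field_simp
  · have h1 : z - y * ((b0 : F) * ((s : F))⁻¹ * ((c : F))⁻¹) =
        ((a : F) * (c : F) - y * (b0 : F)) * (((s : F))⁻¹ * ((c : F))⁻¹) := by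
      rw [← h]
      field_simp
    rw [h1]
    exact s36pu_nu_mul V₁ hb (V₁.mul_mem _ _ (s36pu_inv_mem O 𝔫 V₁ hc₁ hs)
      (s36pu_inv_mem O 𝔫 V₁ hc₁ hc))

/-- **Abstract PSI-UNIT.**  `δ y ∉ 𝔫 O_𝔫`. -/
theorem s36pu_abs (y δ ν Pt Dt Nt : F)
    (hy0 : y ≠ 0) (hyU : y⁻¹ ∈ V₁) (hyM : s36puM O 𝔫 y)
    (hB₁ : ∀ a : ↥O, a ∈ 𝔫 → ∃ b c : ↥O, c ∉ 𝔫 ∧
      (a : F) * (c : F) - y * (b : F) ∈ V₁.nonunits)
    (hν : s36puM O 𝔫 ν)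
    (hP : s36puL O 𝔫 Pt) (hD : s36puL O 𝔫 Dt) (hN : s36puL O 𝔫 Nt)
    (hPD : δ * Dt - Pt ∈ V₁.nonunits)
    (hνN : ν * Nt - Dt ^ 2 ∈ V₁.nonunits)
    (hcop : ∃ a b : F, s36puL O 𝔫 a ∧ s36puL O 𝔫 b ∧ s36puM O 𝔫 (a * Pt + b * Dt - 1)) :
    ¬ s36puM O 𝔫 (δ * y) := by
  have hmemL : ∀ {z : F}, s36puL O 𝔫 z → z ∈ V₁ := fun hz => s36puL_mem O 𝔫 V₁ hO₁ hc₁ hz
  have hLnu : ∀ {z : F}, s36puL O 𝔫 z → z ∈ V₁.nonunits → s36puM O 𝔫 z :=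
    fun hz hz' => s36puL_nonunits O 𝔫 V₁ hO₁ hc₁ hz hz'
  -- 1. `Dt ∈ 𝔫 O_𝔫`
  have hνNM : s36puM O 𝔫 (ν * Nt) := s36puM_mul O 𝔫 hν hN
  have hD2L : s36puL O 𝔫 (Dt ^ 2) := by
    rw [pow_two]
    exact s36puL_mul O 𝔫 hD hD
  have h1 : s36puM O 𝔫 (ν * Nt - Dt ^ 2) :=
    hLnu (s36puL_sub O 𝔫 (s36puM_L O 𝔫 hνNM) hD2L) hνN
  have hD2M : s36puM O 𝔫 (Dt * Dt) := by
    have := s36puM_sub O 𝔫 hνNM h1
    have e : ν * Nt - (ν * Nt - Dt ^ 2) = Dt * Dt := by ring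
    rwa [e] at this
  have hDM : s36puM O 𝔫 Dt := by
    rcases s36puM_prime O 𝔫 hD hD hD2M with h | h <;> exact h
  -- 2. `Pt ∉ 𝔫 O_𝔫`
  have hPU : ¬ s36puM O 𝔫 Pt := by
    intro hPM
    obtain ⟨a, b, ha, hb, hab⟩ := hcop
    have h2 : s36puM O 𝔫 (a * Pt + b * Dt) := by
      have e1 : a * Pt = Pt * a := mul_comm _ _
      have e2 : b * Dt = Dt * b := mul_comm _ _
      rw [e1, e2]
      exact s36puM_add O 𝔫 (s36puM_mul O 𝔫 hPM ha) (s36puM_mul O 𝔫 hDM hb)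
    have h3 := s36puM_sub O 𝔫 h2 hab
    have e : a * Pt + b * Dt - (a * Pt + b * Dt - 1) = 1 := by ring
    rw [e] at h3
    exact s36puM_one O 𝔫 h3
  -- 3. the contradiction
  intro hΨM
  obtain ⟨b1, hb1, hb1'⟩ := s36pu_branch O 𝔫 V₁ hc₁ y hB₁ hΨM
  obtain ⟨b2, hb2, hb2'⟩ := s36pu_branch O 𝔫 V₁ hc₁ y hB₁ hDM
  have hy : y ∈ V₁ := hmemL (s36puM_L O 𝔫 hyM)
  have hδy : δ * y ∈ V₁ := hmemL (s36puM_L O 𝔫 hΨM)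
  have key : y * (Pt - y * (b1 * b2)) =
      (δ * y) * (Dt - y * b2) + (y * b2) * (δ * y - y * b1) - y * (δ * Dt - Pt) := by ring
  have hk : y * (Pt - y * (b1 * b2)) ∈ V₁.nonunits := by
    rw [key]
    refine V₁.nonunits.sub_mem (V₁.nonunits.add_mem ?_ ?_) ?_
    · rw [mul_comm]
      exact s36pu_nu_mul V₁ hb2' hδy
    · rw [mul_comm]
      exact s36pu_nu_mul V₁ hb1' (V₁.mul_mem _ _ hy (hmemL hb2))
    · rw [mul_comm]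
      exact s36pu_nu_mul V₁ hPD hy
  have hk' : Pt - y * (b1 * b2) ∈ V₁.nonunits := by
    have e : Pt - y * (b1 * b2) = (y * (Pt - y * (b1 * b2))) * y⁻¹ := by
      field_simp
    rw [e]
    exact s36pu_nu_mul V₁ hk hyU
  have hyb : s36puM O 𝔫 (y * (b1 * b2)) := s36puM_mul O 𝔫 hyM (s36puL_mul O 𝔫 hb1 hb2)
  have h5 : s36puM O 𝔫 (Pt - y * (b1 * b2)) :=
    hLnu (s36puL_sub O 𝔫 hP (s36puM_L O 𝔫 hyb)) hk'
  have h6 := s36puM_add O 𝔫 h5 hyb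
  rw [sub_add_cancel] at h6
  exact hPU h6

/-- **Abstract PSI-UNIT, unit form.**  If moreover `δ y ∈ O_𝔫`, then `δ y` is a unit of
`O_𝔫`: `δ y * s = a` with `a, s ∉ 𝔫`. -/
theorem s36pu_abs_unit (y δ ν Pt Dt Nt : F)
    (hy0 : y ≠ 0) (hyU : y⁻¹ ∈ V₁) (hyM : s36puM O 𝔫 y)
    (hB₁ : ∀ a : ↥O, a ∈ 𝔫 → ∃ b c : ↥O, c ∉ 𝔫 ∧
      (a : F) * (c : F) - y * (b : F) ∈ V₁.nonunits)
    (hν : s36puM O 𝔫 ν)
    (hP : s36puL O 𝔫 Pt) (hD : s36puL O 𝔫 Dt) (hN : s36puL O 𝔫 Nt)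
    (hPD : δ * Dt - Pt ∈ V₁.nonunits)
    (hνN : ν * Nt - Dt ^ 2 ∈ V₁.nonunits)
    (hcop : ∃ a b : F, s36puL O 𝔫 a ∧ s36puL O 𝔫 b ∧ s36puM O 𝔫 (a * Pt + b * Dt - 1))
    (hΨ : s36puL O 𝔫 (δ * y)) :
    ∃ a s : ↥O, a ∉ 𝔫 ∧ s ∉ 𝔫 ∧ δ * y * (s : F) = (a : F) := by
  obtain ⟨a, s, hs, h⟩ := hΨ
  refine ⟨a, s, fun ha => ?_, hs, h⟩
  exact s36pu_abs O 𝔫 V₁ hO₁ hc₁ y δ ν Pt Dt Nt hy0 hyU hyM hB₁ hν hP hD hN hPD hνN hcop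
    ⟨a, s, ha, hs, h⟩

end Val

end Fermat.Agent.S36
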