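import Mathlib
import Fermat.Agent.S35.NodeData
import Fermat.Agent.S35.GaussSep
import Fermat.Agent.S36.PsiUnitAbs
import Fermat.Agent.S36.PsiInt

/-!
# S36, PSI-UNIT, [PU-CARR]: carrier inputs of `s36pl_main` / `s36pu_abs_unit`

Carrier of `s35nd_node`: `F = K0(X₀(M q))`, `V₁ = va2V1`, `V₂ = va2V2`, `h = α (nunH)`,
`θ = β (nunH)`, `x = h ^ q - θ`, `y = h - θ ^ q`, chart `O = chtO A0 {t}`, `𝔫` a crossing point.

* `s36pc_rho_const`: the Gauss residue map `va2xRho1` on constants is the residue map of `A0`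
  (hypothesis `hρA` of `s36pl_main`);
* `s36pc_y_unit`: `y ≠ 0`, `y⁻¹ ∈ V₁` (`= gsp_y_unit₁`; hypotheses `hy0`, `hyU`);
* `s36pc_swap_dy`: for `δ` with `q δ = x`: the swap fixes `δ y`;
* `s36pc_dy_mem`: for `δ ∈ V₁` with `q δ = x`: `δ y ∈ V₁` and `δ y ∈ V₂`;
* `s36pc_h_loc`, `s36pc_th_loc`, `s36pc_y_locM`: `h, θ ∈ O_𝔫`, `y ∈ 𝔫 O_𝔫` in the predicates
  `s36puL` / `s36puM`;
* `s36pc_dy_loc`: for `δ ∈ V₁` with `q δ = x`: `δ y ∈ O_𝔫` (hypothesis `hΨ`), from `s36pi_main`.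
-/

set_option autoImplicit false
set_option linter.unusedSectionVars false

noncomputable section

open ModularCurve AlgebraicCurve Polynomial
open Fermat.Agent.S18 Fermat.Agent.S37 Fermat.Agent.S34 Fermat.Agent.S35

namespace Fermat.Agent.S36

local notation "Qb" => AlgebraicClosure ℚ

section Carr

variable (M q : ℕ) [NeZero M] [hq : Fact q.Prime] (hM : ¬ q ∣ M)
  (K0 : Type*) [Field K0] [Algebra ℚ K0] [Algebra K0 Qb]
  (A0 : ValuationSubring K0) [IsDiscreteValuationRing ↥A0]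
  {a2 : ℕ} (H : HauptRec a2 q)

/-- **`hρA` of `s36pl_main`**: the Gauss residue map on constants. -/
theorem s36pc_rho_const
    [Algebra ↥A0 ↥(laurentBaseChange K0 (modularFunctionFieldFull (M * q)))]
    [IsScalarTower ↥A0 K0 ↥(laurentBaseChange K0 (modularFunctionFieldFull (M * q)))]
    (a : A0)
    (ha : algebraMap A0 ↥(laurentBaseChange K0 (modularFunctionFieldFull (M * q))) a
      ∈ va2V1 M q K0 A0) :
    va2xRho1 M q K0 A0
        ⟨algebraMap A0 ↥(laurentBaseChange K0 (modularFunctionFieldFull (M * q))) a, ha⟩ =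
      algebraMap (IsLocalRing.ResidueField A0) (LaurentSeries (IsLocalRing.ResidueField A0))
        (IsLocalRing.residue A0 a) := by
  have e : algebraMap A0 ↥(laurentBaseChange K0 (modularFunctionFieldFull (M * q))) a =
      algebraMap K0 ↥(laurentBaseChange K0 (modularFunctionFieldFull (M * q))) (a : K0) :=
    IsScalarTower.algebraMap_apply A0 K0 _ a
  have ha' : algebraMap K0 ↥(laurentBaseChange K0 (modularFunctionFieldFull (M * q))) (a : K0)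
      ∈ va2V1 M q K0 A0 := e ▸ ha
  have e2 : (⟨algebraMap A0 ↥(laurentBaseChange K0 (modularFunctionFieldFull (M * q))) a, ha⟩ :
      (va2V1 M q K0 A0).toSubring) = ⟨_, ha'⟩ := Subtype.ext e
  rw [e2, va2xRho1_apply]
  exact grRho_algebraMap A0 a

/-- **`hy0`, `hyU`**: `y = h - θ ^ q` is a unit of `V₁`. -/
theorem s36pc_y_unit (ha2 : a2 ∣ M) :
    heckeAlphaBar K0 M q (nunH K0 M H ha2) - heckeBetaBar K0 M q (nunH K0 M H ha2) ^ q ≠ 0 ∧
    (heckeAlphaBar K0 M q (nunH K0 M H ha2) - heckeBetaBar K0 M q (nunH K0 M H ha2) ^ q)⁻¹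
      ∈ va2V1 M q K0 A0 ∧
    heckeAlphaBar K0 M q (nunH K0 M H ha2) - heckeBetaBar K0 M q (nunH K0 M H ha2) ^ q
      ∈ va2V1 M q K0 A0 := by
  obtain ⟨h1, h2, h3⟩ := gsp_y_unit₁ M q K0 A0 H ha2
  exact ⟨h3, h2, h1⟩

/-- the swap fixes `δ y` when `q δ = x` -/
theorem s36pc_swap_dy (ha2 : a2 ∣ M)
    (δ : ↥(laurentBaseChange K0 (modularFunctionFieldFull (M * q))))
    (hδ : ((q : ℕ) : ↥(laurentBaseChange K0 (modularFunctionFieldFull (M * q)))) * δ =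
      heckeAlphaBar K0 M q (nunH K0 M H ha2) ^ q - heckeBetaBar K0 M q (nunH K0 M H ha2)) :
    va2Swap M q hq.out hM K0
      (δ * (heckeAlphaBar K0 M q (nunH K0 M H ha2) -
        heckeBetaBar K0 M q (nunH K0 M H ha2) ^ q)) =
      δ * (heckeAlphaBar K0 M q (nunH K0 M H ha2) -
        heckeBetaBar K0 M q (nunH K0 M H ha2) ^ q) := by
  have : CharZero K0 := algebraRat.charZero K0
  have : CharZero ↥(laurentBaseChange K0 (modularFunctionFieldFull (M * q))) :=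
    charZero_of_injective_algebraMap
      (algebraMap K0 ↥(laurentBaseChange K0 (modularFunctionFieldFull (M * q)))).injective
  have hq0 : ((q : ℕ) : ↥(laurentBaseChange K0 (modularFunctionFieldFull (M * q)))) ≠ 0 :=
    Nat.cast_ne_zero.mpr hq.out.ne_zero
  have h1 := congrArg (va2Swap M q hq.out hM K0) hδ
  rw [map_mul, map_natCast, map_sub, map_pow, va2Swap_alpha, va2Swap_beta] at h1
  apply mul_left_cancel₀ hq0
  rw [map_mul, map_sub, map_pow, va2Swap_alpha, va2Swap_beta]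
  linear_combination
    (heckeBetaBar K0 M q (nunH K0 M H ha2) -
      heckeAlphaBar K0 M q (nunH K0 M H ha2) ^ q) * h1 -
    (heckeAlphaBar K0 M q (nunH K0 M H ha2) -
      heckeBetaBar K0 M q (nunH K0 M H ha2) ^ q) * hδ

/-- `δ y ∈ V₁ ∩ V₂` for `δ ∈ V₁` with `q δ = x` -/
theorem s36pc_dy_mem (ha2 : a2 ∣ M)
    (δ : ↥(laurentBaseChange K0 (modularFunctionFieldFull (M * q))))
    (hδ : ((q : ℕ) : ↥(laurentBaseChange K0 (modularFunctionFieldFull (M * q)))) * δ =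
      heckeAlphaBar K0 M q (nunH K0 M H ha2) ^ q - heckeBetaBar K0 M q (nunH K0 M H ha2))
    (hδV : δ ∈ va2V1 M q K0 A0) :
    δ * (heckeAlphaBar K0 M q (nunH K0 M H ha2) -
        heckeBetaBar K0 M q (nunH K0 M H ha2) ^ q) ∈ va2V1 M q K0 A0 ∧
    δ * (heckeAlphaBar K0 M q (nunH K0 M H ha2) -
        heckeBetaBar K0 M q (nunH K0 M H ha2) ^ q) ∈ va2V2 M q hM K0 A0 := by
  have h1 : δ * (heckeAlphaBar K0 M q (nunH K0 M H ha2) -
        heckeBetaBar K0 M q (nunH K0 M H ha2) ^ q) ∈ va2V1 M q K0 A0 :=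
    (va2V1 M q K0 A0).mul_mem _ _ hδV (gsp_y_unit₁ M q K0 A0 H ha2).1
  refine ⟨h1, ?_⟩
  rw [mem_va2V2, s36pc_swap_dy M q hM K0 H ha2 δ hδ]
  exact h1

/-- `h ∈ O_𝔫` -/
theorem s36pc_h_loc (ha2 : a2 ∣ M) (hA0 : A0.LiesOverPrime q) (c0 c1 : A0)
    (hc : IsLocalRing.residue ↥A0 c0 ≠ IsLocalRing.residue ↥A0 c1)
    (t : ↥(laurentBaseChange K0 (modularFunctionFieldFull (M * q))))
    (ht : (t : LaurentSeries K0) = cinstU H K0 (c0 : K0) (c1 : K0))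
    [Algebra ↥A0 ↥(laurentBaseChange K0 (modularFunctionFieldFull (M * q)))]
    [IsScalarTower ↥A0 K0 ↥(laurentBaseChange K0 (modularFunctionFieldFull (M * q)))]
    (𝔫 : Ideal ↥(chtO A0 {t})) [𝔫.IsPrime]
    (hc₁ : ∀ x : ↥(chtO A0 {t}),
      (x : ↥(laurentBaseChange K0 (modularFunctionFieldFull (M * q)))) ∈
        (va2V1 M q K0 A0).nonunits → x ∈ 𝔫)
    (hc₂ : ∀ x : ↥(chtO A0 {t}),
      (x : ↥(laurentBaseChange K0 (modularFunctionFieldFull (M * q)))) ∈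
        (va2V2 M q hM K0 A0).nonunits → x ∈ 𝔫) :
    s36puL (chtO A0 {t}) 𝔫 (heckeAlphaBar K0 M q (nunH K0 M H ha2)) :=
  (s35nd_mem M q hM K0 A0 H ha2 hA0 c0 c1 hc t ht 𝔫 hc₁ hc₂).1

/-- `θ ∈ O_𝔫` -/
theorem s36pc_th_loc (ha2 : a2 ∣ M) (hA0 : A0.LiesOverPrime q) (c0 c1 : A0)
    (hc : IsLocalRing.residue ↥A0 c0 ≠ IsLocalRing.residue ↥A0 c1)
    (t : ↥(laurentBaseChange K0 (modularFunctionFieldFull (M * q))))
    (ht : (t : LaurentSeries K0) = cinstU H K0 (c0 : K0) (c1 : K0))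
    [Algebra ↥A0 ↥(laurentBaseChange K0 (modularFunctionFieldFull (M * q)))]
    [IsScalarTower ↥A0 K0 ↥(laurentBaseChange K0 (modularFunctionFieldFull (M * q)))]
    (𝔫 : Ideal ↥(chtO A0 {t})) [𝔫.IsPrime]
    (hc₁ : ∀ x : ↥(chtO A0 {t}),
      (x : ↥(laurentBaseChange K0 (modularFunctionFieldFull (M * q)))) ∈
        (va2V1 M q K0 A0).nonunits → x ∈ 𝔫)
    (hc₂ : ∀ x : ↥(chtO A0 {t}),
      (x : ↥(laurentBaseChange K0 (modularFunctionFieldFull (M * q)))) ∈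
        (va2V2 M q hM K0 A0).nonunits → x ∈ 𝔫) :
    s36puL (chtO A0 {t}) 𝔫 (heckeBetaBar K0 M q (nunH K0 M H ha2)) :=
  (s35nd_mem M q hM K0 A0 H ha2 hA0 c0 c1 hc t ht 𝔫 hc₁ hc₂).2

/-- **`hyM`**: `y ∈ 𝔫 O_𝔫` -/
theorem s36pc_y_locM (ha2 : a2 ∣ M) (hA0 : A0.LiesOverPrime q) (c0 c1 : A0)
    (hc : IsLocalRing.residue ↥A0 c0 ≠ IsLocalRing.residue ↥A0 c1)
    (t : ↥(laurentBaseChange K0 (modularFunctionFieldFull (M * q))))
    (ht : (t : LaurentSeries K0) = cinstU H K0 (c0 : K0) (c1 : K0))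
    [Algebra ↥A0 ↥(laurentBaseChange K0 (modularFunctionFieldFull (M * q)))]
    [IsScalarTower ↥A0 K0 ↥(laurentBaseChange K0 (modularFunctionFieldFull (M * q)))]
    (𝔫 : Ideal ↥(chtO A0 {t})) [𝔫.IsPrime]
    (hc₁ : ∀ x : ↥(chtO A0 {t}),
      (x : ↥(laurentBaseChange K0 (modularFunctionFieldFull (M * q)))) ∈
        (va2V1 M q K0 A0).nonunits → x ∈ 𝔫)
    (hc₂ : ∀ x : ↥(chtO A0 {t}),
      (x : ↥(laurentBaseChange K0 (modularFunctionFieldFull (M * q)))) ∈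
        (va2V2 M q hM K0 A0).nonunits → x ∈ 𝔫) :
    s36puM (chtO A0 {t}) 𝔫 (heckeAlphaBar K0 M q (nunH K0 M H ha2) -
      heckeBetaBar K0 M q (nunH K0 M H ha2) ^ q) :=
  s35nd_y M q hM K0 A0 H ha2 hA0 c0 c1 hc t ht 𝔫 hc₁ hc₂

/-- **`hΨ`**: `δ y ∈ O_𝔫` at a crossing point, for `δ ∈ V₁` with `q δ = x`. -/
theorem s36pc_dy_loc (ha2 : a2 ∣ M) (hA0 : A0.LiesOverPrime q) (c0 c1 : A0)
    (hc : IsLocalRing.residue ↥A0 c0 ≠ IsLocalRing.residue ↥A0 c1)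
    (t : ↥(laurentBaseChange K0 (modularFunctionFieldFull (M * q))))
    (ht : (t : LaurentSeries K0) = cinstU H K0 (c0 : K0) (c1 : K0))
    [Algebra ↥A0 ↥(laurentBaseChange K0 (modularFunctionFieldFull (M * q)))]
    [IsScalarTower ↥A0 K0 ↥(laurentBaseChange K0 (modularFunctionFieldFull (M * q)))]
    (τ : A0) (hτ : Irreducible τ)
    (𝔫 : Ideal ↥(chtO A0 {t})) [𝔫.IsPrime]
    (hc₁ : ∀ x : ↥(chtO A0 {t}),
      (x : ↥(laurentBaseChange K0 (modularFunctionFieldFull (M * q)))) ∈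
        (va2V1 M q K0 A0).nonunits → x ∈ 𝔫)
    (hc₂ : ∀ x : ↥(chtO A0 {t}),
      (x : ↥(laurentBaseChange K0 (modularFunctionFieldFull (M * q)))) ∈
        (va2V2 M q hM K0 A0).nonunits → x ∈ 𝔫)
    (δ : ↥(laurentBaseChange K0 (modularFunctionFieldFull (M * q))))
    (hδ : ((q : ℕ) : ↥(laurentBaseChange K0 (modularFunctionFieldFull (M * q)))) * δ =
      heckeAlphaBar K0 M q (nunH K0 M H ha2) ^ q - heckeBetaBar K0 M q (nunH K0 M H ha2))
    (hδV : δ ∈ va2V1 M q K0 A0) :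
    s36puL (chtO A0 {t}) 𝔫 (δ * (heckeAlphaBar K0 M q (nunH K0 M H ha2) -
      heckeBetaBar K0 M q (nunH K0 M H ha2) ^ q)) := by
  obtain ⟨hz₁, hz₂⟩ := s36pc_dy_mem M q hM K0 A0 H ha2 δ hδ hδV
  refine s36pi_main M q hM K0 A0 H ha2 hA0 c0 c1 hc t ht τ hτ 𝔫 _ hz₁ hz₂ ?_
  intro V _ _ hK hOV hinv
  have : CharZero K0 := algebraRat.charZero K0
  -- elements of `O_𝔫` lie in `V`
  have hloc : ∀ z : ↥(laurentBaseChange K0 (modularFunctionFieldFull (M * q))),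
      s36puL (chtO A0 {t}) 𝔫 z → z ∈ V := by
    rintro z ⟨a, s, hs, hzs⟩
    have hs0 : (s : ↥(laurentBaseChange K0 (modularFunctionFieldFull (M * q)))) ≠ 0 :=
      s36pu_ne_zero (chtO A0 {t}) 𝔫 hs
    have e : z = (a : ↥(laurentBaseChange K0 (modularFunctionFieldFull (M * q)))) *
        ((s : ↥(laurentBaseChange K0 (modularFunctionFieldFull (M * q)))))⁻¹ := by
      rw [← hzs, mul_assoc, mul_inv_cancel₀ hs0, mul_one]
    rw [e]
    exact V.mul_mem _ _ (hOV _ a.2) (hinv s hs)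
  have hh := hloc _ (s36pc_h_loc M q hM K0 A0 H ha2 hA0 c0 c1 hc t ht 𝔫 hc₁ hc₂)
  have hth := hloc _ (s36pc_th_loc M q hM K0 A0 H ha2 hA0 c0 c1 hc t ht 𝔫 hc₁ hc₂)
  have hx : heckeAlphaBar K0 M q (nunH K0 M H ha2) ^ q - heckeBetaBar K0 M q (nunH K0 M H ha2)
      ∈ V := sub_mem (V.pow_mem hh q) hth
  have hy : heckeAlphaBar K0 M q (nunH K0 M H ha2) - heckeBetaBar K0 M q (nunH K0 M H ha2) ^ q
      ∈ V := sub_mem hh (V.pow_mem hth q)
  have hq0 : ((q : ℕ) : K0) ≠ 0 := Nat.cast_ne_zero.mpr hq.out.ne_zero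
  have hqinv : algebraMap K0 ↥(laurentBaseChange K0 (modularFunctionFieldFull (M * q)))
      (((q : ℕ) : K0))⁻¹ ∈ V := hK _
  have hδe : δ = algebraMap K0 ↥(laurentBaseChange K0 (modularFunctionFieldFull (M * q)))
      (((q : ℕ) : K0))⁻¹ *
      (heckeAlphaBar K0 M q (nunH K0 M H ha2) ^ q - heckeBetaBar K0 M q (nunH K0 M H ha2)) := by
    rw [← hδ, ← mul_assoc, ← map_natCast (algebraMap K0
      ↥(laurentBaseChange K0 (modularFunctionFieldFull (M * q)))) q, ← map_mul,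
      inv_mul_cancel₀ hq0, map_one, one_mul]
  have hδV' : δ ∈ V := by
    rw [hδe]
    exact V.mul_mem _ _ hqinv hx
  exact V.mul_mem _ _ hδV' hy

end Carr

end Fermat.Agent.S36
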