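import Mathlib
import Fermat.Agent.S36.PsiUnitAbs

/-!
# S36, PSI-UNIT, [PU-LIFT]: from residue identities to the abstract thickness-one lemma

`O ⊆ F` a subalgebra over `A`, `𝔫` a prime of `O`, `V₁` a valuation ring of `F` containing `O`
with centre in `𝔫`, `ρ : V₁ → Lk` a residue map into a field `Lk` (an algebra over the residue
field `k` of `A`), `res : A → k` surjective with kernel `τ A`, `τ ∈ 𝔫`.  For `h ∈ O_𝔫` with
residue `Hb := ρ h`: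

* `s36pl_aeval`: `p(h) ∈ O_𝔫` for `p ∈ A[X]`;
* `s36pl_aeval_M`: `p(h) ∈ 𝔫 O_𝔫` if all coefficients of `p` are multiples of `τ`;
* `s36pl_rho_aeval`: `ρ (p(h)) = (p mod τ)(Hb)`;
* `s36pl_ker`: the kernel of `ρ` consists of non-units of `V₁`;
* `s36pl_main`: **[PU-LIFT]** if `P, D, N ∈ k[X]`, `P, D` coprime, `ρ δ * D(Hb) = P(Hb)` and
  `ρ ν * N(Hb) = D(Hb)^2` (the conclusion of `thd_unit`), then, with the other hypotheses of
  `s36pu_abs_unit`, `δ y` is a unit of `O_𝔫`.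
-/

set_option autoImplicit false

open Polynomial

namespace Fermat.Agent.S36

variable {A F : Type*} [CommRing A] [Field F] [Algebra A F]
  (O : Subalgebra A F) (𝔫 : Ideal ↥O) [𝔫.IsPrime]

/-- constants lie in `O_𝔫` -/
theorem s36pl_algebraMap (a : A) : s36puL O 𝔫 (algebraMap A F a) :=
  ⟨⟨algebraMap A F a, O.algebraMap_mem a⟩, 1,
    fun h => (Ideal.IsPrime.ne_top ‹_›) ((Ideal.eq_top_iff_one _).mpr h), by simp⟩

theorem s36pl_pow {z : F} (hz : s36puL O 𝔫 z) (n : ℕ) : s36puL O 𝔫 (z ^ n) := by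
  induction n with
  | zero =>
    rw [pow_zero]
    exact s36puL_one O 𝔫
  | succ n ih =>
    rw [pow_succ]
    exact s36puL_mul O 𝔫 ih hz

/-- `p(z) ∈ O_𝔫` for `z ∈ O_𝔫`, `p ∈ A[X]` -/
theorem s36pl_aeval {z : F} (hz : s36puL O 𝔫 z) (p : A[X]) : s36puL O 𝔫 (aeval z p) := by
  rw [aeval_eq_sum_range]
  refine Finset.induction_on (Finset.range (p.natDegree + 1)) ?_ ?_
  · rw [Finset.sum_empty]
    have := s36pl_algebraMap O 𝔫 (0 : A)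
    rwa [map_zero] at this
  · intro i s his ih
    rw [Finset.sum_insert his, Algebra.smul_def]
    exact s36puL_add O 𝔫 (s36puL_mul O 𝔫 (s36pl_algebraMap O 𝔫 _) (s36pl_pow O 𝔫 hz i)) ih

/-- `p(z) ∈ 𝔫 O_𝔫` for `z ∈ O_𝔫` if all coefficients of `p` are multiples of `τ ∈ 𝔫` -/
theorem s36pl_aeval_M {z : F} (hz : s36puL O 𝔫 z) (τ : A) (hτ : algebraMap A ↥O τ ∈ 𝔫)
    (p : A[X]) (hp : ∀ i, ∃ b, p.coeff i = τ * b) : s36puM O 𝔫 (aeval z p) := by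
  have hτM : s36puM O 𝔫 (algebraMap A F τ) :=
    ⟨algebraMap A ↥O τ, 1, hτ,
      fun h => (Ideal.IsPrime.ne_top ‹_›) ((Ideal.eq_top_iff_one _).mpr h), by simp⟩
  rw [aeval_eq_sum_range]
  refine Finset.induction_on (Finset.range (p.natDegree + 1)) ?_ ?_
  · rw [Finset.sum_empty]
    exact ⟨0, 1, 𝔫.zero_mem,
      fun h => (Ideal.IsPrime.ne_top ‹_›) ((Ideal.eq_top_iff_one _).mpr h), by simp⟩
  · intro i s his ih
    rw [Finset.sum_insert his, Algebra.smul_def]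
    obtain ⟨b, hb⟩ := hp i
    rw [hb, map_mul, mul_assoc]
    exact s36puM_add O 𝔫
      (s36puM_mul O 𝔫 hτM (s36puL_mul O 𝔫 (s36pl_algebraMap O 𝔫 _) (s36pl_pow O 𝔫 hz i))) ih

section Rho

variable (V₁ : ValuationSubring F) {k Lk : Type*} [Field k] [Field Lk] [Algebra k Lk]
  (ρ : V₁.toSubring →+* Lk) (res : A →+* k)

omit [Algebra A F] in
/-- the kernel of a residue map consists of non-units -/
theorem s36pl_ker (x : F) (hx : x ∈ V₁) (h0 : ρ ⟨x, hx⟩ = 0) : x ∈ V₁.nonunits := by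
  by_contra hn
  rw [V₁.mem_nonunits_iff_or, not_or, not_not] at hn
  obtain ⟨hx0, hinv⟩ := hn
  have h1 : (⟨x, hx⟩ : V₁.toSubring) * ⟨x⁻¹, hinv⟩ = 1 := Subtype.ext (mul_inv_cancel₀ hx0)
  have h2 := congrArg ρ h1
  rw [map_mul, map_one, h0, zero_mul] at h2
  exact zero_ne_one h2

/-- `ρ (p(h)) = (p mod τ)(ρ h)` -/
theorem s36pl_rho_aeval (hA : ∀ a : A, algebraMap A F a ∈ V₁)
    (hρA : ∀ a : A, ρ ⟨algebraMap A F a, hA a⟩ = algebraMap k Lk (res a))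
    (h : F) (hh : h ∈ V₁) (p : A[X]) :
    ∃ hp : aeval h p ∈ V₁, ρ ⟨aeval h p, hp⟩ = aeval (ρ ⟨h, hh⟩) (p.map res) := by
  let ι : A →+* V₁.toSubring := (algebraMap A F).codRestrict V₁.toSubring hA
  have e : ((eval₂ ι (⟨h, hh⟩ : V₁.toSubring) p : V₁.toSubring) : F) = aeval h p := by
    have := Polynomial.hom_eval₂ p ι V₁.toSubring.subtype (⟨h, hh⟩ : V₁.toSubring)
    rw [aeval_def]
    exact this
  have hmem : aeval h p ∈ V₁ := by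
    rw [← e]
    exact (eval₂ ι (⟨h, hh⟩ : V₁.toSubring) p).2
  refine ⟨hmem, ?_⟩
  have e2 : (⟨aeval h p, hmem⟩ : V₁.toSubring) = eval₂ ι (⟨h, hh⟩ : V₁.toSubring) p :=
    Subtype.ext e.symm
  rw [e2, Polynomial.hom_eval₂, aeval_def, eval₂_map]
  congr 1
  ext a
  exact hρA a

end Rho

section Main

variable (V₁ : ValuationSubring F) (hO₁ : ∀ y ∈ O, y ∈ V₁)
  (hc₁ : ∀ x : ↥O, (x : F) ∈ V₁.nonunits → x ∈ 𝔫)
  {k Lk : Type*} [Field k] [Field Lk] [Algebra k Lk]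
  (ρ : V₁.toSubring →+* Lk) (res : A →+* k)

include hO₁ hc₁ in
/-- **[PU-LIFT].**  Residue identities `ρ δ * D(Hb) = P(Hb)`, `ρ ν * N(Hb) = D(Hb)^2` with
`P, D` coprime over the residue field, and `ν ∈ 𝔫 O_𝔫`, force `δ y` to be a unit of `O_𝔫`. -/
theorem s36pl_main (hres : Function.Surjective res)
    (hρA : ∀ (a : A) (ha : algebraMap A F a ∈ V₁), ρ ⟨algebraMap A F a, ha⟩ =
      algebraMap k Lk (res a))
    (τ : A) (hker : ∀ a : A, res a = 0 → ∃ b, a = τ * b) (hτ𝔫 : algebraMap A ↥O τ ∈ 𝔫)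
    (h : F) (hh : s36puL O 𝔫 h) (hhV : h ∈ V₁) (Hb : Lk) (hHb : ρ ⟨h, hhV⟩ = Hb)
    (y δ ν : F) (hy0 : y ≠ 0) (hyU : y⁻¹ ∈ V₁) (hyM : s36puM O 𝔫 y)
    (hB₁ : ∀ a : ↥O, a ∈ 𝔫 → ∃ b c : ↥O, c ∉ 𝔫 ∧
      (a : F) * (c : F) - y * (b : F) ∈ V₁.nonunits)
    (hν : s36puM O 𝔫 ν) (hδ : δ ∈ V₁) (hνV : ν ∈ V₁)
    (P D N : k[X]) (hcop : IsCoprime P D)
    (hPD : ρ ⟨δ, hδ⟩ * aeval Hb D = aeval Hb P)
    (hνN : ρ ⟨ν, hνV⟩ * aeval Hb N = aeval Hb D ^ 2)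
    (hΨ : s36puL O 𝔫 (δ * y)) :
    ∃ a s : ↥O, a ∉ 𝔫 ∧ s ∉ 𝔫 ∧ δ * y * (s : F) = (a : F) := by
  have hA : ∀ a : A, algebraMap A F a ∈ V₁ := fun a => hO₁ _ (O.algebraMap_mem a)
  have hρA' : ∀ a : A, ρ ⟨algebraMap A F a, hA a⟩ = algebraMap k Lk (res a) :=
    fun a => hρA a (hA a)
  obtain ⟨Pt, hPt⟩ := Polynomial.map_surjective res hres P
  obtain ⟨Dt, hDt⟩ := Polynomial.map_surjective res hres D
  obtain ⟨Nt, hNt⟩ := Polynomial.map_surjective res hres N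
  obtain ⟨a, b, hab⟩ := hcop
  obtain ⟨at', hat⟩ := Polynomial.map_surjective res hres a
  obtain ⟨bt, hbt⟩ := Polynomial.map_surjective res hres b
  obtain ⟨hP1, hP2⟩ := s36pl_rho_aeval V₁ ρ res hA hρA' h hhV Pt
  obtain ⟨hD1, hD2⟩ := s36pl_rho_aeval V₁ ρ res hA hρA' h hhV Dt
  obtain ⟨hN1, hN2⟩ := s36pl_rho_aeval V₁ ρ res hA hρA' h hhV Nt
  rw [hHb, hPt] at hP2
  rw [hHb, hDt] at hD2
  rw [hHb, hNt] at hN2
  -- the two congruences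
  have hPD' : δ * aeval h Dt - aeval h Pt ∈ V₁.nonunits := by
    have hm : δ * aeval h Dt - aeval h Pt ∈ V₁ := sub_mem (V₁.mul_mem _ _ hδ hD1) hP1
    refine s36pl_ker V₁ ρ _ hm ?_
    have e : (⟨δ * aeval h Dt - aeval h Pt, hm⟩ : V₁.toSubring) =
        ⟨δ, hδ⟩ * ⟨aeval h Dt, hD1⟩ - ⟨aeval h Pt, hP1⟩ := rfl
    rw [e, map_sub, map_mul, hD2, hP2, hPD, sub_self]
  have hνN' : ν * aeval h Nt - aeval h Dt ^ 2 ∈ V₁.nonunits := by
    have hm : ν * aeval h Nt - aeval h Dt ^ 2 ∈ V₁ :=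
      sub_mem (V₁.mul_mem _ _ hνV hN1) (V₁.pow_mem hD1 2)
    refine s36pl_ker V₁ ρ _ hm ?_
    have e : (⟨ν * aeval h Nt - aeval h Dt ^ 2, hm⟩ : V₁.toSubring) =
        ⟨ν, hνV⟩ * ⟨aeval h Nt, hN1⟩ - ⟨aeval h Dt, hD1⟩ ^ 2 := rfl
    rw [e, map_sub, map_mul, map_pow, hD2, hN2, hνN, sub_self]
  -- comaximality
  have hcop' : s36puM O 𝔫 (aeval h at' * aeval h Pt + aeval h bt * aeval h Dt - 1) := by
    have e : aeval h at' * aeval h Pt + aeval h bt * aeval h Dt - 1 =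
        aeval h (at' * Pt + bt * Dt - 1) := by
      simp only [map_sub, map_add, map_mul, map_one]
    rw [e]
    refine s36pl_aeval_M O 𝔫 hh τ hτ𝔫 _ (fun i => hker _ ?_)
    have h0 : (at' * Pt + bt * Dt - 1).map res = 0 := by
      rw [Polynomial.map_sub, Polynomial.map_add, Polynomial.map_mul, Polynomial.map_mul,
        Polynomial.map_one, hat, hPt, hbt, hDt, hab, sub_self]
    rw [← Polynomial.coeff_map, h0, Polynomial.coeff_zero]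
  exact s36pu_abs_unit O 𝔫 V₁ hO₁ hc₁ y δ ν (aeval h Pt) (aeval h Dt) (aeval h Nt) hy0 hyU hyM
    hB₁ hν (s36pl_aeval O 𝔫 hh Pt) (s36pl_aeval O 𝔫 hh Dt) (s36pl_aeval O 𝔫 hh Nt) hPD' hνN'
    ⟨aeval h at', aeval h bt, s36pl_aeval O 𝔫 hh at', s36pl_aeval O 𝔫 hh bt, hcop'⟩ hΨ

end Main

end Fermat.Agent.S36
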