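import Mathlib
import Fermat.Agent.S34.Val2Exh
import Fermat.Agent.S34.Val2Deg
import Fermat.Agent.S34.KronVal
import Fermat.Agent.S34.NodeUnif
import Fermat.Agent.S34.ThetaDelta
import Fermat.Agent.S18.HauptRec
import Fermat.Agent.S18.GaussBC3

/-!
# S36, PSI-UNIT leaf [PU-RAT]: the reduced Fermat quotient of the Hauptmodul is rational in `h̄`

For `H : HauptRec a2 q`, `δ_ℤ := (h^q - h(t^q))/q ∈ ℤ((t))` and a discrete valuation subring `A0`
of `K0` over `q` with residue field `k`:

* `s36pr_prim`: a nonzero polynomial over the fraction field of a valuation ring has a primitive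
  scalar multiple;
* `s36pr_coeffMap_aeval`: evaluation at a Laurent series commutes with change of coefficients;
* `s36pr_lowest`: lowest terms of a rational expression in a transcendental series;
* `s36pr_gauss`: the residue of a Gauss-integral rational function of an integral series is a
  rational function of the reduced series;
* `s36pr_level_a2`: the function field of level `a2` over `K0` is `K0(h)`
  (from `S18.HauptRec.relrank_eq_psi`);
* `s36pr_main`: `∃ P D : k[X]` coprime, `D ≠ 0`, `δ̄ * D(h̄) = P(h̄)`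
  (residue degree one of `V₁` over level `a2`: `va2x_res_one`).
-/

set_option autoImplicit false

noncomputable section

open ModularCurve AlgebraicCurve Polynomial
open Fermat.Agent.S18 Fermat.Agent.S37 Fermat.Agent.S34 Fermat.Agent.S28
open scoped IntermediateField

namespace Fermat.Agent.S36

local notation "Qb" => AlgebraicClosure ℚ

section Abstract

/-- a nonzero polynomial over the fraction field of a valuation ring has a primitive multiple -/
theorem s36pr_prim {K : Type*} [Field K] (A : ValuationSubring K) (p : K[X]) (hp : p ≠ 0) :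
    ∃ (c : K) (p' : (↥A)[X]), c ≠ 0 ∧ p'.map A.subtype = C c * p ∧
      p'.map (IsLocalRing.residue ↥A) ≠ 0 := by
  have hne : p.support.Nonempty := by
    rw [Finset.nonempty_iff_ne_empty, Ne, Polynomial.support_eq_empty]
    exact hp
  obtain ⟨i0, hi0, hmax⟩ := Finset.exists_max_image p.support
    (fun i => A.valuation (p.coeff i)) hne
  have hc0 : p.coeff i0 ≠ 0 := Polynomial.mem_support_iff.mp hi0
  have hmem : ∀ i, (p.coeff i0)⁻¹ * p.coeff i ∈ A := by
    intro i
    by_cases hi : i ∈ p.support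
    · rw [← ValuationSubring.valuation_le_one_iff, map_mul, map_inv₀]
      have h1 := hmax i hi
      have h2 : A.valuation (p.coeff i0) ≠ 0 := (Valuation.ne_zero_iff _).mpr hc0
      rw [inv_mul_le_iff₀ (zero_lt_iff.mpr h2), mul_one]
      exact h1
    · rw [Polynomial.notMem_support_iff.mp hi, mul_zero]
      exact A.zero_mem
  have hlift : C (p.coeff i0)⁻¹ * p ∈ Polynomial.lifts A.subtype := by
    rw [Polynomial.lifts_iff_coeff_lifts]
    intro n
    rw [Polynomial.coeff_C_mul]
    exact ⟨⟨_, hmem n⟩, rfl⟩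
  obtain ⟨p', hp'⟩ := (Polynomial.mem_lifts _).mp hlift
  refine ⟨(p.coeff i0)⁻¹, p', inv_ne_zero hc0, hp', ?_⟩
  intro h0
  have h1 := congrArg (fun r => r.coeff i0) h0
  simp only [Polynomial.coeff_map, Polynomial.coeff_zero] at h1
  have h2 := congrArg (fun r => r.coeff i0) hp'
  simp only [Polynomial.coeff_map, Polynomial.coeff_C_mul] at h2
  rw [inv_mul_cancel₀ hc0] at h2
  have h3 : p'.coeff i0 = 1 := Subtype.ext h2
  rw [h3, map_one] at h1
  exact one_ne_zero h1

/-- evaluation of polynomials at a Laurent series commutes with change of coefficients -/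
theorem s36pr_coeffMap_aeval {R S : Type*} [CommRing R] [CommRing S] (f : R →+* S)
    (x : LaurentSeries R) (p : R[X]) :
    coeffMap f (aeval x p) = aeval (coeffMap f x) (p.map f) := by
  rw [aeval_def, aeval_def, hom_eval₂, eval₂_map]
  congr 1
  ext r : 1
  rw [RingHom.comp_apply, RingHom.comp_apply, thd_algebraMap_eq_single, thd_algebraMap_eq_single,
    coeffMap_single]

/-- lowest terms, polynomial part -/
theorem s36pr_lowest_aux {k : Type*} [Field k] (P D : k[X]) (hD : D ≠ 0) :
    ∃ g P0 D0 : k[X], g ≠ 0 ∧ P = g * P0 ∧ D = g * D0 ∧ IsCoprime P0 D0 := by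
  obtain ⟨g, hg⟩ := (IsPrincipalIdealRing.principal (Ideal.span {P, D})).principal
  have hP : P ∈ Ideal.span {g} := by
    rw [Ideal.span, ← hg]
    exact Ideal.subset_span (by simp)
  have hDm : D ∈ Ideal.span {g} := by
    rw [Ideal.span, ← hg]
    exact Ideal.subset_span (by simp)
  have hgm : g ∈ Ideal.span {P, D} := by
    rw [hg]
    exact Submodule.mem_span_singleton_self g
  obtain ⟨P0, hP0⟩ := Ideal.mem_span_singleton'.mp hP
  obtain ⟨D0, hD0⟩ := Ideal.mem_span_singleton'.mp hDm
  obtain ⟨a, b, hab⟩ := Ideal.mem_span_pair.mp hgm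
  have hg0 : g ≠ 0 := by
    rintro rfl
    rw [mul_zero] at hD0
    exact hD hD0.symm
  refine ⟨g, P0, D0, hg0, by rw [← hP0, mul_comm], by rw [← hD0, mul_comm], a, b, ?_⟩
  apply mul_right_cancel₀ hg0
  rw [← hP0, ← hD0] at hab
  linear_combination hab

theorem s36pr_lowest {k : Type*} [Field k] (Hb s : LaurentSeries k) (htr : Transcendental k Hb)
    (P D : k[X]) (hD : D ≠ 0) (h : s * aeval Hb D = aeval Hb P) :
    ∃ P0 D0 : k[X], IsCoprime P0 D0 ∧ D0 ≠ 0 ∧ s * aeval Hb D0 = aeval Hb P0 := by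
  obtain ⟨g, P0, D0, hg0, hP, hDD, hcop⟩ := s36pr_lowest_aux P D hD
  refine ⟨P0, D0, hcop, ?_, ?_⟩
  · intro h0
    rw [h0, mul_zero] at hDD
    exact hD hDD
  · have hgH : aeval Hb g ≠ 0 := fun h0 => hg0 ((transcendental_iff.mp htr) g h0)
    apply mul_left_cancel₀ hgH
    rw [hDD, hP, map_mul, map_mul] at h
    linear_combination h

/-- **Gauss valuation of `K(h)`**: the residue of a Gauss-integral rational function of an integral
series `H` is a rational function of the reduction of `H`. -/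
theorem s36pr_gauss {K : Type*} [Field K] (A : ValuationSubring K) (Hz : LaurentSeries ℤ)
    (htr : Transcendental (IsLocalRing.ResidueField ↥A)
      (coeffMap (Int.castRingHom (IsLocalRing.ResidueField ↥A)) Hz))
    (s : grV A) (P1 D1 : K[X]) (hD1 : D1 ≠ 0)
    (hs : (s : LaurentSeries K) * aeval (coeffMap (Int.castRingHom K) Hz) D1 =
      aeval (coeffMap (Int.castRingHom K) Hz) P1) :
    ∃ P D : (IsLocalRing.ResidueField ↥A)[X], D ≠ 0 ∧
      grRho A s * aeval (coeffMap (Int.castRingHom (IsLocalRing.ResidueField ↥A)) Hz) D =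
        aeval (coeffMap (Int.castRingHom (IsLocalRing.ResidueField ↥A)) Hz) P := by
  set HK := coeffMap (Int.castRingHom K) Hz with hHK
  set Hk := coeffMap (Int.castRingHom (IsLocalRing.ResidueField ↥A)) Hz with hHk
  set HA := coeffMap (Int.castRingHom ↥A) Hz with hHA
  have eK : coeffMap A.subtype HA = HK := (krv_int_eq A Hz).symm
  have ek : coeffMap (IsLocalRing.residue ↥A) HA = Hk := by
    rw [hHA, hHk, coeffMap_coeffMap]
    congr 1
  -- the Gauss-integral element attached to an integral polynomial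
  have key : ∀ p' : (↥A)[X], ∃ E : grV A,
      (E : LaurentSeries K) = aeval HK (p'.map A.subtype) ∧
      grRho A E = aeval Hk (p'.map (IsLocalRing.residue ↥A)) := by
    intro p'
    refine ⟨⟨coeffMap A.subtype (aeval HA p'), gr_coeffMap_mem A _⟩, ?_, ?_⟩
    · show coeffMap A.subtype (aeval HA p') = _
      rw [s36pr_coeffMap_aeval, eK]
    · rw [grRho_coeffMap, s36pr_coeffMap_aeval, ek]
  obtain ⟨c, D', hc, hD', hD'r⟩ := s36pr_prim A D1 hD1
  obtain ⟨dE, hdE, hdEr⟩ := key D'
  rw [hD', map_mul, aeval_C] at hdE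
  have hdne : aeval Hk (D'.map (IsLocalRing.residue ↥A)) ≠ 0 :=
    fun h0 => hD'r ((transcendental_iff.mp htr) _ h0)
  by_cases hP1 : P1 = 0
  · refine ⟨0, D'.map (IsLocalRing.residue ↥A), hD'r, ?_⟩
    have h0 : s * dE = 0 := by
      apply Subtype.ext
      show (s : LaurentSeries K) * (dE : LaurentSeries K) = 0
      rw [hdE, mul_left_comm, hs, hP1, map_zero, mul_zero]
    have h1 := congrArg (grRho A) h0
    rw [map_mul, map_zero, hdEr] at h1
    rw [h1, map_zero]
  · obtain ⟨c', P', hc', hP', hP'r⟩ := s36pr_prim A P1 hP1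
    obtain ⟨pE, hpE, hpEr⟩ := key P'
    rw [hP', map_mul, aeval_C] at hpE
    have hpne : aeval Hk (P'.map (IsLocalRing.residue ↥A)) ≠ 0 :=
      fun h0 => hP'r ((transcendental_iff.mp htr) _ h0)
    have hpEne : grRho A pE ≠ 0 := by rw [hpEr]; exact hpne
    have hpE0 : (pE : LaurentSeries K) ≠ 0 := by
      intro h0
      apply hpEne
      have : pE = 0 := Subtype.ext h0
      rw [this, map_zero]
    have hX0 : aeval HK P1 ≠ 0 := by
      intro h0
      apply hpE0
      rw [hpE, h0, mul_zero]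
    have hc'0 : algebraMap K (LaurentSeries K) c' ≠ 0 := by
      intro h0
      apply hpE0
      rw [hpE, h0, zero_mul]
    have hinv : (pE : LaurentSeries K)⁻¹ ∈ grV A := gr_inv_mem A pE hpEne
    have heq : algebraMap K (LaurentSeries K) (c / c') =
        (s : LaurentSeries K) * (dE : LaurentSeries K) * (pE : LaurentSeries K)⁻¹ := by
      rw [hdE, hpE, mul_left_comm, hs, map_div₀]
      field_simp
    have heA : c / c' ∈ A := by
      rw [← gr_algebraMap_mem_iff A, heq]
      exact (grV A).mul_mem ((grV A).mul_mem s.2 dE.2) hinv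
    have h2 : s * dE = ⟨algebraMap K (LaurentSeries K) ((⟨c / c', heA⟩ : ↥A) : K),
        gr_algebraMap_mem A ⟨c / c', heA⟩⟩ * pE := by
      apply Subtype.ext
      show (s : LaurentSeries K) * (dE : LaurentSeries K) =
        algebraMap K (LaurentSeries K) (c / c') * (pE : LaurentSeries K)
      rw [heq]
      field_simp
    have h3 := congrArg (grRho A) h2
    rw [map_mul, map_mul, grRho_algebraMap, hdEr, hpEr] at h3
    refine ⟨C (IsLocalRing.residue ↥A ⟨c / c', heA⟩) * P'.map (IsLocalRing.residue ↥A),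
      D'.map (IsLocalRing.residue ↥A), hD'r, ?_⟩
    rw [h3, map_mul, aeval_C]

end Abstract

section Carrier

variable (q : ℕ) [hq : Fact q.Prime] (K0 : Type*) [Field K0] [Algebra ℚ K0]
  {a2 : ℕ} (H : HauptRec a2 q)

/-- **The function field of level `a2` is `K0(h)`.** -/
theorem s36pr_level_a2 [NeZero a2]
    (a : ↥(laurentBaseChange K0 (modularFunctionFieldFull a2))) :
    ∃ P1 D1 : K0[X], D1 ≠ 0 ∧ (a : LaurentSeries K0) * aeval (H.h K0) D1 = aeval (H.h K0) P1 := by
  have h1 := (H.relrank_eq_psi (M := a2) dvd_rfl H.pos H.not_dvd).1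
  rw [Nat.div_self H.psi_pos, Nat.cast_one, Subfield.relrank_eq_one_iff] at h1
  have hle : laurentBaseChange K0 (modularFunctionFieldFull a2) ≤ K0⟮H.h K0⟯ := by
    rw [laurentBaseChange, IntermediateField.adjoin_le_iff]
    rintro _ ⟨x, hx, rfl⟩
    have hx' : x ∈ (Ft a2).toSubfield := by
      rw [gbc_Ft_eq_full]
      exact hx
    have hx2 := h1 hx'
    have hmap : (Subfield.closure {H.h ℚ}).map (coeffEmb K0) ≤ (K0⟮H.h K0⟯).toSubfield := by
      rw [RingHom.map_field_closure, Subfield.closure_le]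
      rintro _ ⟨y, hy, rfl⟩
      rw [Set.mem_singleton_iff] at hy
      subst hy
      show coeffEmb K0 (H.h ℚ) ∈ K0⟮H.h K0⟯
      rw [coeffEmb, H.coeffMap_h]
      exact IntermediateField.mem_adjoin_simple_self K0 _
    exact hmap ⟨x, hx2, rfl⟩
  have ha := hle a.2
  obtain ⟨r, s, hrs⟩ := (IntermediateField.mem_adjoin_simple_iff K0 _).mp ha
  by_cases hs0 : aeval (H.h K0) s = 0
  · refine ⟨0, 1, one_ne_zero, ?_⟩
    rw [hrs, hs0, div_zero, zero_mul, map_zero]
  · refine ⟨r, s, fun h => hs0 (by rw [h, map_zero]), ?_⟩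
    rw [hrs, div_mul_cancel₀ _ hs0]

variable [Algebra K0 Qb] (A0 : ValuationSubring K0) [IsDiscreteValuationRing ↥A0]

/-- **[PU-RAT]** The reduction of the Fermat quotient `δ = (h^q - h(t^q))/q` of the Hauptmodul
is a rational function of the reduction of `h`, in lowest terms. -/
theorem s36pr_main (hA0 : A0.LiesOverPrime q) (δZ : LaurentSeries ℤ)
    (hδZ : (q : LaurentSeries ℤ) * δZ = H.hZ ^ q - qExpand ℤ q H.hZ) :
    ∃ P D : (IsLocalRing.ResidueField ↥A0)[X], IsCoprime P D ∧ D ≠ 0 ∧
      coeffMap (Int.castRingHom (IsLocalRing.ResidueField ↥A0)) δZ *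
          aeval (coeffMap (Int.castRingHom (IsLocalRing.ResidueField ↥A0)) H.hZ) D =
        aeval (coeffMap (Int.castRingHom (IsLocalRing.ResidueField ↥A0)) H.hZ) P := by
  have hqp : q.Prime := hq.out
  have : NeZero a2 := ⟨H.pos.ne'⟩
  have : CharZero K0 := algebraRat.charZero K0
  have htr : Transcendental (IsLocalRing.ResidueField ↥A0)
      (coeffMap (Int.castRingHom (IsLocalRing.ResidueField ↥A0)) H.hZ) :=
    H.transcendental (IsLocalRing.ResidueField ↥A0)
  -- the Fermat quotient at level `a2 * q`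
  set hα := heckeAlphaBar K0 a2 q (nunH K0 a2 H dvd_rfl) with hhα
  set hβ := heckeBetaBar K0 a2 q (nunH K0 a2 H dvd_rfl) with hhβ
  set δ : ↥(laurentBaseChange K0 (modularFunctionFieldFull (a2 * q))) :=
    (hα ^ q - hβ) * ((q : ℕ) : ↥(laurentBaseChange K0 (modularFunctionFieldFull (a2 * q))))⁻¹
    with hδ
  have hq0 : ((q : ℕ) : LaurentSeries K0) ≠ 0 := by
    have : ((q : ℕ) : LaurentSeries K0) = algebraMap K0 (LaurentSeries K0) (q : K0) := by
      rw [map_natCast]
    rw [this, Ne, map_eq_zero]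
    exact_mod_cast hqp.ne_zero
  have hcoe : ((δ : ↥(laurentBaseChange K0 (modularFunctionFieldFull (a2 * q)))) :
      LaurentSeries K0) = coeffMap (Int.castRingHom K0) δZ := by
    have h1 := congrArg (coeffMap (Int.castRingHom K0)) hδZ
    rw [map_mul, map_natCast, map_sub, map_pow, coeffMap_qExpand] at h1
    have h2 : ((δ : ↥(laurentBaseChange K0 (modularFunctionFieldFull (a2 * q)))) :
        LaurentSeries K0) = (H.h K0 ^ q - qExpand K0 q (H.h K0)) * ((q : ℕ) : LaurentSeries K0)⁻¹ := by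
      rw [hδ]
      push_cast
      rw [hhα, hhβ, coe_heckeAlphaBar, coe_heckeBetaBar, nunH_coe]
    rw [h2]
    show (coeffMap (Int.castRingHom K0) H.hZ ^ q - qExpand K0 q (coeffMap (Int.castRingHom K0) H.hZ))
      * ((q : ℕ) : LaurentSeries K0)⁻¹ = _
    rw [← h1]
    field_simp
  have hδ1 : δ ∈ va2V1 a2 q K0 A0 := by
    rw [mem_va2V1, hcoe]
    exact krv_int_mem A0 δZ
  obtain ⟨a, ha, hnon⟩ := va2x_res_one a2 q H.not_dvd K0 A0 hA0
    (va2d_finrank K0 a2 hqp H.not_dvd) δ hδ1
  -- residues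
  have hαa : heckeAlphaBar K0 a2 q a ∈ va2V1 a2 q K0 A0 := by
    rw [mem_va2V1, coe_heckeAlphaBar]
    exact ha
  have hres : grRho A0 ⟨coeffMap (Int.castRingHom K0) δZ, krv_int_mem A0 δZ⟩ =
      grRho A0 ⟨(a : LaurentSeries K0), ha⟩ := by
    have hsub : δ - heckeAlphaBar K0 a2 q a ∈ va2V1 a2 q K0 A0 :=
      (va2V1 a2 q K0 A0).sub_mem hδ1 hαa
    have hz : va2xRho1 a2 q K0 A0 ⟨δ - heckeAlphaBar K0 a2 q a, hsub⟩ = 0 := by
      by_contra hne
      have hinv := va2x_hinv a2 q K0 A0 ⟨_, hsub⟩ hne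
      rcases (ValuationSubring.mem_nonunits_iff_or (A := va2V1 a2 q K0 A0)).mp hnon with h | h
      · apply hne
        have : (⟨δ - heckeAlphaBar K0 a2 q a, hsub⟩ : (va2V1 a2 q K0 A0).toSubring) = 0 :=
          Subtype.ext h
        rw [this, map_zero]
      · exact h hinv
    have hz' : grRho A0 (⟨coeffMap (Int.castRingHom K0) δZ, krv_int_mem A0 δZ⟩ -
        ⟨(a : LaurentSeries K0), ha⟩) = 0 := by
      rw [← hz, va2xRho1_apply]
      congr 1
      apply Subtype.ext
      show coeffMap (Int.castRingHom K0) δZ - (a : LaurentSeries K0) = _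
      rw [← hcoe]
      push_cast
      rw [coe_heckeAlphaBar]
    rw [map_sub, sub_eq_zero] at hz'
    exact hz'
  obtain ⟨P1, D1, hD1, hPD1⟩ := s36pr_level_a2 q K0 H a
  obtain ⟨P, D, hD, hPD⟩ := s36pr_gauss A0 H.hZ htr ⟨(a : LaurentSeries K0), ha⟩ P1 D1 hD1 hPD1
  rw [← hres, krv_int_rho] at hPD
  exact s36pr_lowest _ _ htr P D hD hPD

end Carrier

end Fermat.Agent.S36
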