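import Mathlib
import Fermat.Agent.S18.Haupt4
import Fermat.Agent.S34.ThetaDelta

/-!
# S36, PSI-UNIT, [NU-EXP]: the Laurent-series half of the modular unit `ν = q dh/dh_q`

`h ∈ ℤ((t))` with `h = t⁻¹ (1 + ⋯)` (`Hp4Lead h (-1)`), `θ = t d/dt` (`thdTheta`),
`φ = qExpand q` (`t ↦ t^q`).

* `s36nx_theta_isUnit`: `θ h` is a unit of `ℤ((t))` (leading term `-t⁻¹`);
* `s36nxNu q h hh : (ℤ((t)))ˣ`: the unit `ν_ℤ := θh / φ(θh)`;
* `s36nx_nu_mul`: `ν_ℤ * φ(θh) = θh`;
* `s36nx_nu_theta`: `ν_ℤ * θ(φ h) = q * θh` (i.e. `ν = q dh/dh_q` on expansions);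
* `s36nx_nu_map_mul`, `s36nx_nu_map_theta`: the same after any change of coefficients;
* `s36nx_nu_map_inv`, `s36nx_nu_map_inv_eq`, `s36nx_nu_map_ne_zero`: the image of `ν_ℤ` is a
  unit whose inverse is the image of `ν_ℤ⁻¹` (both have integral coefficients);
* `s36nx_nu_unique`: over a domain `R` with `q ≠ 0`, an `n` with `n * θ(φ h_R) = q θ h_R` is
  the image of `ν_ℤ`;
* `s36nx_nu_bar`: over a field `k` of characteristic `q`: `ν̄ * (θ h̄)^q = θ h̄`
  (hypothesis `hν` of `thd_unit`), and `s36nx_theta_bar_ne_zero`: `θ h̄ ≠ 0`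
  (hypothesis `hH` of `thd_unit`).
-/

set_option autoImplicit false

open ModularCurve Polynomial

namespace Fermat.Agent.S36

open Fermat.Agent.S18 Fermat.Agent.S34

/-- a Laurent series over a domain whose lowest coefficient is a unit is a unit -/
theorem s36nx_isUnit_of_lead {R : Type*} [CommRing R] [IsDomain R] (x : LaurentSeries R) (m : ℤ)
    (hm : IsUnit (x.coeff m)) (hlt : ∀ n : ℤ, n < m → x.coeff n = 0) : IsUnit x := by
  have hx0 : x ≠ 0 := by
    rintro rfl
    rw [HahnSeries.coeff_zero] at hm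
    exact not_isUnit_zero hm
  have ho : x.order = m := by
    apply le_antisymm
    · exact HahnSeries.order_le_of_coeff_ne_zero hm.ne_zero
    · by_contra hlt'
      exact hx0 (HahnSeries.coeff_order_eq_zero.mp (hlt _ (not_le.mp hlt')))
  rw [HahnSeries.isUnit_iff, HahnSeries.leadingCoeff_eq, ho]
  exact hm

section NuZ

variable (q : ℕ) [NeZero q] (h : LaurentSeries ℤ) (hh : Hp4Lead h (-1))

include hh in
/-- `θ h` is a unit of `ℤ((t))` -/
theorem s36nx_theta_isUnit : IsUnit (thdTheta ℤ h) := by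
  refine s36nx_isUnit_of_lead _ (-1) ?_ ?_
  · rw [thdTheta_coeff, hh.coeff_self]
    exact ⟨-1, by simp⟩
  · intro n hn
    rw [thdTheta_coeff, hh.coeff_lt hn, mul_zero]

include hh in
/-- `φ (θ h)` is a unit of `ℤ((t))` -/
theorem s36nx_phi_theta_isUnit : IsUnit (qExpand ℤ q (thdTheta ℤ h)) :=
  (s36nx_theta_isUnit h hh).map (qExpand ℤ q)

/-- the unit `ν_ℤ = θ h / φ(θ h)` of `ℤ((t))` -/
noncomputable def s36nxNu : (LaurentSeries ℤ)ˣ :=
  (s36nx_theta_isUnit h hh).unit * ((s36nx_phi_theta_isUnit q h hh).unit)⁻¹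

/-- `ν_ℤ * φ(θ h) = θ h` -/
theorem s36nx_nu_mul :
    ((s36nxNu q h hh : (LaurentSeries ℤ)ˣ) : LaurentSeries ℤ) * qExpand ℤ q (thdTheta ℤ h)
      = thdTheta ℤ h := by
  have h2 : (((s36nx_theta_isUnit h hh).unit : (LaurentSeries ℤ)ˣ) : LaurentSeries ℤ) =
      thdTheta ℤ h := IsUnit.unit_spec _
  rw [s36nxNu, Units.val_mul, mul_assoc, IsUnit.val_inv_mul, mul_one, h2]

/-- `ν_ℤ * θ(φ h) = q θ h`: `ν = q dh / dh_q` on expansions -/
theorem s36nx_nu_theta :
    ((s36nxNu q h hh : (LaurentSeries ℤ)ˣ) : LaurentSeries ℤ) * thdTheta ℤ (qExpand ℤ q h)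
      = (q : LaurentSeries ℤ) * thdTheta ℤ h := by
  rw [thdTheta_qExpand]
  have := s36nx_nu_mul q h hh
  linear_combination (q : LaurentSeries ℤ) * this

section Map

variable {R : Type*} [CommRing R]

/-- after change of coefficients: `ν_R * φ(θ h_R) = θ h_R` -/
theorem s36nx_nu_map_mul :
    coeffMap (Int.castRingHom R) ((s36nxNu q h hh : (LaurentSeries ℤ)ˣ) : LaurentSeries ℤ) *
      qExpand R q (thdTheta R (coeffMap (Int.castRingHom R) h))
      = thdTheta R (coeffMap (Int.castRingHom R) h) := by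
  have := congrArg (coeffMap (Int.castRingHom R)) (s36nx_nu_mul q h hh)
  rwa [map_mul, coeffMap_qExpand, thdTheta_coeffMap] at this

/-- after change of coefficients: `ν_R * θ(φ h_R) = q θ h_R` -/
theorem s36nx_nu_map_theta :
    coeffMap (Int.castRingHom R) ((s36nxNu q h hh : (LaurentSeries ℤ)ˣ) : LaurentSeries ℤ) *
      thdTheta R (qExpand R q (coeffMap (Int.castRingHom R) h))
      = (q : LaurentSeries R) * thdTheta R (coeffMap (Int.castRingHom R) h) := by
  rw [thdTheta_qExpand]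
  have := s36nx_nu_map_mul q h hh (R := R)
  linear_combination (q : LaurentSeries R) * this

/-- the image of `ν_ℤ` is a unit of `R((t))`, with inverse the image of `ν_ℤ⁻¹` -/
theorem s36nx_nu_map_inv :
    coeffMap (Int.castRingHom R) ((s36nxNu q h hh : (LaurentSeries ℤ)ˣ) : LaurentSeries ℤ) *
      coeffMap (Int.castRingHom R)
        (((s36nxNu q h hh)⁻¹ : (LaurentSeries ℤ)ˣ) : LaurentSeries ℤ) = 1 := by
  rw [← map_mul, Units.mul_inv, map_one]

/-- the image of `ν_ℤ` is nonzero -/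
theorem s36nx_nu_map_ne_zero [Nontrivial R] :
    coeffMap (Int.castRingHom R) ((s36nxNu q h hh : (LaurentSeries ℤ)ˣ) : LaurentSeries ℤ) ≠ 0 := by
  intro h0
  have := s36nx_nu_map_inv q h hh (R := R)
  rw [h0, zero_mul] at this
  exact zero_ne_one this

include hh in
/-- `θ h_R` is a unit of `R((t))` -/
theorem s36nx_theta_map_isUnit : IsUnit (thdTheta R (coeffMap (Int.castRingHom R) h)) := by
  rw [← thdTheta_coeffMap]
  exact (s36nx_theta_isUnit h hh).map (coeffMap (Int.castRingHom R))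

include hh in
/-- uniqueness: over a domain with `q ≠ 0`, the relation `n * θ(φ h_R) = q θ h_R`
characterises the image of `ν_ℤ`. -/
theorem s36nx_nu_unique [IsDomain R] (hq : (q : R) ≠ 0) (n : LaurentSeries R)
    (hn : n * thdTheta R (qExpand R q (coeffMap (Int.castRingHom R) h))
      = (q : LaurentSeries R) * thdTheta R (coeffMap (Int.castRingHom R) h)) :
    n = coeffMap (Int.castRingHom R)
      ((s36nxNu q h hh : (LaurentSeries ℤ)ˣ) : LaurentSeries ℤ) := by
  have h1 := s36nx_nu_map_theta q h hh (R := R)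
  have hu : IsUnit (qExpand R q (thdTheta R (coeffMap (Int.castRingHom R) h))) :=
    (s36nx_theta_map_isUnit h hh).map (qExpand R q)
  have hq' : (q : LaurentSeries R) ≠ 0 := by
    intro h0
    have hcast : (q : LaurentSeries R) = HahnSeries.C (q : R) := by
      rw [map_natCast]
    rw [hcast, map_eq_zero_iff _ HahnSeries.C_injective] at h0
    exact hq h0
  rw [thdTheta_qExpand] at hn h1
  have h2 : (q : LaurentSeries R) * (n * qExpand R q (thdTheta R (coeffMap (Int.castRingHom R) h)))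
      = (q : LaurentSeries R) *
        (coeffMap (Int.castRingHom R) ((s36nxNu q h hh : (LaurentSeries ℤ)ˣ) : LaurentSeries ℤ) *
          qExpand R q (thdTheta R (coeffMap (Int.castRingHom R) h))) := by
    linear_combination hn - h1
  exact hu.mul_right_cancel (mul_left_cancel₀ hq' h2)

include hh in
/-- `θ (φ h_R) ≠ 0` over a domain with `q ≠ 0` (so `d h_q ≠ 0`) -/
theorem s36nx_theta_phi_ne_zero [IsDomain R] (hq : (q : R) ≠ 0) :
    thdTheta R (qExpand R q (coeffMap (Int.castRingHom R) h)) ≠ 0 := by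
  have hu : IsUnit (qExpand R q (thdTheta R (coeffMap (Int.castRingHom R) h))) :=
    (s36nx_theta_map_isUnit h hh).map (qExpand R q)
  have hq' : (q : LaurentSeries R) ≠ 0 := by
    intro h0
    have hcast : (q : LaurentSeries R) = HahnSeries.C (q : R) := by
      rw [map_natCast]
    rw [hcast, map_eq_zero_iff _ HahnSeries.C_injective] at h0
    exact hq h0
  rw [thdTheta_qExpand]
  exact mul_ne_zero hq' hu.ne_zero

end Map

/-- over a field, the inverse of the image of `ν_ℤ` is the image of `ν_ℤ⁻¹` -/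
theorem s36nx_nu_map_inv_eq {K : Type*} [Field K] :
    (coeffMap (Int.castRingHom K) ((s36nxNu q h hh : (LaurentSeries ℤ)ˣ) : LaurentSeries ℤ))⁻¹ =
      coeffMap (Int.castRingHom K)
        (((s36nxNu q h hh)⁻¹ : (LaurentSeries ℤ)ˣ) : LaurentSeries ℤ) :=
  inv_eq_of_mul_eq_one_right (s36nx_nu_map_inv q h hh)

end NuZ

section Bar

variable (q : ℕ) [Fact q.Prime] {k : Type*} [Field k] [CharP k q]
  (h : LaurentSeries ℤ) (hh : Hp4Lead h (-1))

/-- in characteristic `q`: `φ(θ h̄) = (θ h̄)^q` (the coefficients lie in the prime field) -/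
theorem s36nx_phi_theta_bar :
    qExpand k q (thdTheta k (coeffMap (Int.castRingHom k) h)) =
      thdTheta k (coeffMap (Int.castRingHom k) h) ^ q := by
  rw [Fermat.Agent.S37.tvf_pow_char q]
  congr 1
  ext n
  rw [coeffMap_coeff, thdTheta_coeff, coeffMap_coeff, frobenius_def, mul_pow]
  have e1 : ((n : k)) ^ q = (n : k) := thd_intCast_pow q n
  have e2 : ((Int.castRingHom k) (h.coeff n)) ^ q = (Int.castRingHom k) (h.coeff n) :=
    thd_intCast_pow q (h.coeff n)
  rw [e1]
  exact congrArg _ e2.symm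

/-- **hypothesis `hν` of `thd_unit`**: `ν̄ * (θ h̄)^q = θ h̄` -/
theorem s36nx_nu_bar :
    haveI : NeZero q := ⟨(Fact.out : q.Prime).ne_zero⟩
    coeffMap (Int.castRingHom k) ((s36nxNu q h hh : (LaurentSeries ℤ)ˣ) : LaurentSeries ℤ) *
      thdTheta k (coeffMap (Int.castRingHom k) h) ^ q
      = thdTheta k (coeffMap (Int.castRingHom k) h) := by
  have : NeZero q := ⟨(Fact.out : q.Prime).ne_zero⟩
  rw [← s36nx_phi_theta_bar q h]
  exact s36nx_nu_map_mul q h hh

include hh in
/-- **hypothesis `hH` of `thd_unit`**: `θ h̄ ≠ 0` -/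
theorem s36nx_theta_bar_ne_zero : thdTheta k (coeffMap (Int.castRingHom k) h) ≠ 0 :=
  (s36nx_theta_map_isUnit h hh).ne_zero

end Bar

end Fermat.Agent.S36
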