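import Mathlib
import Fermat.Agent.S34.CuspNode
import Fermat.Agent.S34.ThetaDelta
import Fermat.Agent.S34.Val2Exh
import Fermat.Agent.S34.Val2Deg
import Fermat.Agent.S24.SumFormulaA4
import Fermat.Agent.S36.NuDef
import Fermat.Agent.S36.NuExp
import Fermat.Agent.S36.NuSwap

/-!
# S36, PSI-UNIT, leaf PU-SER: the series package at the carrier

Carrier of `s35nd_node` (S35/NodeData.lean): `F = K0(X₀(M q))`, `q ∤ M`, `A0` a discrete valuation
subring of `K0` over `q`, `V₁ = va2V1` (Gauss), `V₂ = va2V2`, `h = α (nunH)` the Hauptmodul,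
`θ = β (nunH)` its swap, `k` the residue field of `A0`, `ρ₁ = va2xRho1` the Gauss residue map,
`H̄ = coeffMap (Int.castRingHom k) H.hZ`.

* `s36ps_isAlgebraic` : `F` is algebraic over `K0(x)` for every transcendental `x`;
* `s36ps_transc_h`, `s36ps_transc_th` : `h`, `θ` are transcendental over `K0`;
* `s36ps_h` : `h ∈ V₁`, `ρ₁ h = H̄`;
* `s36ps_delta` : the Fermat quotient `δ = (h^q - θ)/q` lies in `V₁`, its expansion is the image
  of an integral series `δZ` (`q δZ = hZ^q - hZ(t^q)`), and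
  `θ(ρ₁ δ) = θH̄ (H̄^(q-1) - (θH̄)^(q-1))`;
* `s36ps_nu` : `ν'` with `dh = ν' • dθ`; the expansion of `ν = q ν'` is the image of the unit
  `s36nxNu q H.hZ H.leadZ` of `ℤ((t))`;
* `s36ps_main` : the package consumed by the assembly of PSI-UNIT (`thd_unit`):
  `δ`, `ν'`, `δ ∈ V₁`, `ν` a unit of `V₁`, `ν ∈ 𝔪_{V₂}`, and the residue identities.
-/

set_option autoImplicit false
set_option linter.unusedSectionVars false

noncomputable section

open ModularCurve AlgebraicCurve Polynomial IntermediateField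
open Fermat.Agent.S18 Fermat.Agent.S28 Fermat.Agent.S34

namespace Fermat.Agent.S36

local notation "Qb" => AlgebraicClosure ℚ

section Alg

variable (K0 : Type*) [Field K0] [Algebra ℚ K0] (N : ℕ) [NeZero N]

/-- the function field of level `N` over `K0` is algebraic over `K0(x)` for every transcendental
`x` -/
theorem s36ps_isAlgebraic (x : ↥(laurentBaseChange K0 (modularFunctionFieldFull N)))
    (hx : Transcendental K0 x) :
    Algebra.IsAlgebraic ↥K0⟮x⟯ ↥(laurentBaseChange K0 (modularFunctionFieldFull N)) := by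
  have := (va2d_finrank_j K0 N).2
  have : Algebra.IsAlgebraic ↥K0⟮grJ K0 N⟯ ↥(laurentBaseChange K0 (modularFunctionFieldFull N)) :=
    Algebra.IsAlgebraic.of_finite _ _
  have hJ : Transcendental K0 (grJ K0 N) := by
    intro h
    exact Fermat.Agent.S24.dg_transcendental_jqModC K0
      ((isAlgebraic_algHom_iff (laurentBaseChange K0 (modularFunctionFieldFull N)).val
        Subtype.val_injective).mpr h)
  exact Fermat.Agent.S24.a4_isAlgebraic hJ hx

end Alg

section Main

variable (M q : ℕ) [NeZero M] [hq : Fact q.Prime] (hM : ¬ q ∣ M)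
  (K0 : Type*) [Field K0] [Algebra ℚ K0] [Algebra K0 Qb]
  (A0 : ValuationSubring K0) [IsDiscreteValuationRing ↥A0]
  {a2 : ℕ} (H : HauptRec a2 q)

/-- the expansion of the Hauptmodul `h = α (nunH)` -/
theorem s36ps_coe_h (ha2 : a2 ∣ M) :
    ((heckeAlphaBar K0 M q (nunH K0 M H ha2) :
      ↥(laurentBaseChange K0 (modularFunctionFieldFull (M * q)))) : LaurentSeries K0)
      = coeffMap (Int.castRingHom K0) H.hZ := rfl

/-- the expansion of `θ = β (nunH)` -/
theorem s36ps_coe_th (ha2 : a2 ∣ M) :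
    ((heckeBetaBar K0 M q (nunH K0 M H ha2) :
      ↥(laurentBaseChange K0 (modularFunctionFieldFull (M * q)))) : LaurentSeries K0)
      = qExpand K0 q (coeffMap (Int.castRingHom K0) H.hZ) := by
  rw [coe_heckeBetaBar]
  rfl

/-- the residue field of `A0` has characteristic `q` -/
theorem s36ps_charP (hA0 : A0.LiesOverPrime q) : CharP (IsLocalRing.ResidueField ↥A0) q :=
  (CharP.charP_iff_prime_eq_zero hq.out).mpr (krv_natCast_residue A0 q hA0)

/-- `h ∈ V₁` with residue `H̄` -/
theorem s36ps_h (ha2 : a2 ∣ M) :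
    ∃ hh : heckeAlphaBar K0 M q (nunH K0 M H ha2) ∈ va2V1 M q K0 A0,
      va2xRho1 M q K0 A0 ⟨_, hh⟩
        = coeffMap (Int.castRingHom (IsLocalRing.ResidueField ↥A0)) H.hZ := by
  have hh : heckeAlphaBar K0 M q (nunH K0 M H ha2) ∈ va2V1 M q K0 A0 := by
    rw [mem_va2V1, s36ps_coe_h]
    exact krv_int_mem A0 _
  refine ⟨hh, ?_⟩
  rw [va2xRho1_apply]
  exact krv_int_rho A0 H.hZ _

/-- **the Fermat quotient `δ = (h^q - θ)/q`**: it lies in `V₁`, its expansion is the reduction of
an integral series `δZ`, and its residue satisfies the `θ`-identity of `thd_main_mod`. -/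
theorem s36ps_delta (ha2 : a2 ∣ M) (hA0 : A0.LiesOverPrime q) :
    ∃ (δ : ↥(laurentBaseChange K0 (modularFunctionFieldFull (M * q))))
      (hδ : δ ∈ va2V1 M q K0 A0) (δZ : LaurentSeries ℤ),
      ((q : ℕ) : ↥(laurentBaseChange K0 (modularFunctionFieldFull (M * q)))) * δ =
        heckeAlphaBar K0 M q (nunH K0 M H ha2) ^ q - heckeBetaBar K0 M q (nunH K0 M H ha2) ∧
      ((q : ℕ) : LaurentSeries ℤ) * δZ = H.hZ ^ q - qExpand ℤ q H.hZ ∧
      (δ : LaurentSeries K0) = coeffMap (Int.castRingHom K0) δZ ∧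
      va2xRho1 M q K0 A0 ⟨δ, hδ⟩
        = coeffMap (Int.castRingHom (IsLocalRing.ResidueField ↥A0)) δZ ∧
      thdTheta (IsLocalRing.ResidueField ↥A0) (va2xRho1 M q K0 A0 ⟨δ, hδ⟩) =
        thdTheta (IsLocalRing.ResidueField ↥A0)
            (coeffMap (Int.castRingHom (IsLocalRing.ResidueField ↥A0)) H.hZ) *
          (coeffMap (Int.castRingHom (IsLocalRing.ResidueField ↥A0)) H.hZ ^ (q - 1) -
            thdTheta (IsLocalRing.ResidueField ↥A0)
              (coeffMap (Int.castRingHom (IsLocalRing.ResidueField ↥A0)) H.hZ) ^ (q - 1)) := by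
  have : CharZero K0 := algebraRat.charZero K0
  have := s36ps_charP q K0 A0 hA0
  obtain ⟨δZ, hδZ⟩ := thd_exists_delta q H.hZ
  have hq0 : ((q : ℕ) : ↥(laurentBaseChange K0 (modularFunctionFieldFull (M * q)))) ≠ 0 :=
    Nat.cast_ne_zero.mpr hq.out.ne_zero
  have hq0' : ((q : ℕ) : LaurentSeries K0) ≠ 0 := by
    have h := (_root_.map_ne_zero
      (laurentBaseChange K0 (modularFunctionFieldFull (M * q))).val.toRingHom).mpr hq0
    rwa [map_natCast] at h
  set δ : ↥(laurentBaseChange K0 (modularFunctionFieldFull (M * q))) :=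
    (heckeAlphaBar K0 M q (nunH K0 M H ha2) ^ q - heckeBetaBar K0 M q (nunH K0 M H ha2)) /
      ((q : ℕ) : ↥(laurentBaseChange K0 (modularFunctionFieldFull (M * q)))) with hδdef
  have hqδ : ((q : ℕ) : ↥(laurentBaseChange K0 (modularFunctionFieldFull (M * q)))) * δ =
      heckeAlphaBar K0 M q (nunH K0 M H ha2) ^ q - heckeBetaBar K0 M q (nunH K0 M H ha2) := by
    rw [hδdef, mul_div_cancel₀ _ hq0]
  have hcoe : (δ : LaurentSeries K0) = coeffMap (Int.castRingHom K0) δZ := by
    apply mul_left_cancel₀ hq0'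
    have h1 := congrArg (laurentBaseChange K0 (modularFunctionFieldFull (M * q))).val.toRingHom hqδ
    rw [map_mul, map_natCast, map_sub, map_pow] at h1
    have h1' : ((q : ℕ) : LaurentSeries K0) * (δ : LaurentSeries K0) =
        ((heckeAlphaBar K0 M q (nunH K0 M H ha2) :
          ↥(laurentBaseChange K0 (modularFunctionFieldFull (M * q)))) : LaurentSeries K0) ^ q -
        ((heckeBetaBar K0 M q (nunH K0 M H ha2) :
          ↥(laurentBaseChange K0 (modularFunctionFieldFull (M * q)))) : LaurentSeries K0) := h1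
    rw [h1', s36ps_coe_h, s36ps_coe_th]
    have h2 := congrArg (coeffMap (Int.castRingHom K0)) hδZ
    rw [map_mul, map_natCast, map_sub, map_pow, coeffMap_qExpand] at h2
    exact h2.symm
  have hδ : δ ∈ va2V1 M q K0 A0 := by
    rw [mem_va2V1, hcoe]
    exact krv_int_mem A0 _
  have hrho : va2xRho1 M q K0 A0 ⟨δ, hδ⟩
      = coeffMap (Int.castRingHom (IsLocalRing.ResidueField ↥A0)) δZ := by
    rw [va2xRho1_apply]
    have e : (⟨(δ : LaurentSeries K0), hδ⟩ : grV A0)
        = ⟨coeffMap (Int.castRingHom K0) δZ, krv_int_mem A0 _⟩ := Subtype.ext hcoe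
    rw [e]
    exact krv_int_rho A0 δZ _
  refine ⟨δ, hδ, δZ, hqδ, hδZ, hcoe, hrho, ?_⟩
  rw [hrho]
  exact thd_main_mod q H.hZ δZ hδZ

/-- `h` is transcendental over `K0` -/
theorem s36ps_transc_h (ha2 : a2 ∣ M) :
    Transcendental K0 (heckeAlphaBar K0 M q (nunH K0 M H ha2)) := by
  intro h
  exact H.transcendental K0
    ((isAlgebraic_algHom_iff (laurentBaseChange K0 (modularFunctionFieldFull (M * q))).val
      Subtype.val_injective).mpr h)

include hM in
/-- `θ = β (nunH)` is transcendental over `K0` -/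
theorem s36ps_transc_th (ha2 : a2 ∣ M) :
    Transcendental K0 (heckeBetaBar K0 M q (nunH K0 M H ha2)) := by
  intro h
  rw [← va2Swap_alpha M q hq.out hM K0, ← s36nsSwap_apply] at h
  exact s36ps_transc_h M q K0 H ha2
    ((isAlgebraic_algHom_iff (s36nsSwap M q hM K0).toAlgHom
      (s36nsSwap M q hM K0).injective).mp h)

include hM in
/-- **the modular unit `ν = q · dh/dθ`**: `ν'` with `dh = ν' • dθ`; the expansion of `ν = q ν'` is
the image of the unit `ν_ℤ = s36nxNu` of `ℤ((t))`. -/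
theorem s36ps_nu (ha2 : a2 ∣ M) :
    ∃ ν' : ↥(laurentBaseChange K0 (modularFunctionFieldFull (M * q))),
      KaehlerDifferential.D K0 ↥(laurentBaseChange K0 (modularFunctionFieldFull (M * q)))
          (heckeAlphaBar K0 M q (nunH K0 M H ha2)) =
        ν' • KaehlerDifferential.D K0 ↥(laurentBaseChange K0 (modularFunctionFieldFull (M * q)))
          (heckeBetaBar K0 M q (nunH K0 M H ha2)) ∧
      (((((q : ℕ) : ↥(laurentBaseChange K0 (modularFunctionFieldFull (M * q)))) * ν' :
          ↥(laurentBaseChange K0 (modularFunctionFieldFull (M * q)))) : LaurentSeries K0)) =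
        haveI : NeZero q := ⟨hq.out.ne_zero⟩
        coeffMap (Int.castRingHom K0)
          ((s36nxNu q H.hZ H.leadZ : (LaurentSeries ℤ)ˣ) : LaurentSeries ℤ) := by
  have : CharZero K0 := algebraRat.charZero K0
  have : NeZero q := ⟨hq.out.ne_zero⟩
  have := s36ps_isAlgebraic K0 (M * q) _ (s36ps_transc_th M q hM K0 H ha2)
  have hι : (laurentBaseChange K0 (modularFunctionFieldFull (M * q))).val
      (heckeBetaBar K0 M q (nunH K0 M H ha2)) =
      qExpand K0 q ((laurentBaseChange K0 (modularFunctionFieldFull (M * q))).val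
        (heckeAlphaBar K0 M q (nunH K0 M H ha2))) := s36ps_coe_th M q K0 H ha2
  obtain ⟨ν', hD, hν'⟩ := s36nd_nu_exists
    (laurentBaseChange K0 (modularFunctionFieldFull (M * q))).val q
    (heckeAlphaBar K0 M q (nunH K0 M H ha2)) (heckeBetaBar K0 M q (nunH K0 M H ha2)) hι
  refine ⟨ν', hD, ?_⟩
  have hν'' : thdTheta K0 (coeffMap (Int.castRingHom K0) H.hZ) =
      (ν' : LaurentSeries K0) * (((q : ℕ) : LaurentSeries K0) *
        qExpand K0 q (thdTheta K0 (coeffMap (Int.castRingHom K0) H.hZ))) := hν'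
  have hcoe : ((((q : ℕ) : ↥(laurentBaseChange K0 (modularFunctionFieldFull (M * q)))) * ν' :
      ↥(laurentBaseChange K0 (modularFunctionFieldFull (M * q)))) : LaurentSeries K0) =
      ((q : ℕ) : LaurentSeries K0) * (ν' : LaurentSeries K0) := by
    have h := map_mul (laurentBaseChange K0 (modularFunctionFieldFull (M * q))).val.toRingHom
      ((q : ℕ) : ↥(laurentBaseChange K0 (modularFunctionFieldFull (M * q)))) ν'
    rw [map_natCast] at h
    exact h
  rw [hcoe]
  apply s36nx_nu_unique q H.hZ H.leadZ (R := K0) (Nat.cast_ne_zero.mpr hq.out.ne_zero)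
  rw [thdTheta_qExpand]
  linear_combination (-((q : ℕ) : LaurentSeries K0)) * hν''

/-- **PU-SER.**  The series package of PSI-UNIT at the `s35nd_node` carrier: the Fermat quotient
`δ = (h^q - θ)/q` and the modular unit `ν = q ν'`, `dh = ν' • dθ`, with their `V₁`/`V₂`
memberships and the residue identities consumed by `thd_unit`. -/
theorem s36ps_main (ha2 : a2 ∣ M) (hA0 : A0.LiesOverPrime q) :
    ∃ (δ ν' : ↥(laurentBaseChange K0 (modularFunctionFieldFull (M * q))))
      (hh : heckeAlphaBar K0 M q (nunH K0 M H ha2) ∈ va2V1 M q K0 A0)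
      (hδ : δ ∈ va2V1 M q K0 A0)
      (hν : ((q : ℕ) : ↥(laurentBaseChange K0 (modularFunctionFieldFull (M * q)))) * ν' ∈
        va2V1 M q K0 A0),
      ((q : ℕ) : ↥(laurentBaseChange K0 (modularFunctionFieldFull (M * q)))) * δ =
        heckeAlphaBar K0 M q (nunH K0 M H ha2) ^ q - heckeBetaBar K0 M q (nunH K0 M H ha2) ∧
      KaehlerDifferential.D K0 ↥(laurentBaseChange K0 (modularFunctionFieldFull (M * q)))
          (heckeAlphaBar K0 M q (nunH K0 M H ha2)) =
        ν' • KaehlerDifferential.D K0 ↥(laurentBaseChange K0 (modularFunctionFieldFull (M * q)))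
          (heckeBetaBar K0 M q (nunH K0 M H ha2)) ∧
      (((q : ℕ) : ↥(laurentBaseChange K0 (modularFunctionFieldFull (M * q)))) * ν')⁻¹ ∈
        va2V1 M q K0 A0 ∧
      ((q : ℕ) : ↥(laurentBaseChange K0 (modularFunctionFieldFull (M * q)))) * ν' ∈
        (va2V2 M q hM K0 A0).nonunits ∧
      va2xRho1 M q K0 A0 ⟨_, hh⟩ =
        coeffMap (Int.castRingHom (IsLocalRing.ResidueField ↥A0)) H.hZ ∧
      thdTheta (IsLocalRing.ResidueField ↥A0)
        (coeffMap (Int.castRingHom (IsLocalRing.ResidueField ↥A0)) H.hZ) ≠ 0 ∧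
      thdTheta (IsLocalRing.ResidueField ↥A0) (va2xRho1 M q K0 A0 ⟨δ, hδ⟩) =
        thdTheta (IsLocalRing.ResidueField ↥A0)
            (coeffMap (Int.castRingHom (IsLocalRing.ResidueField ↥A0)) H.hZ) *
          (coeffMap (Int.castRingHom (IsLocalRing.ResidueField ↥A0)) H.hZ ^ (q - 1) -
            thdTheta (IsLocalRing.ResidueField ↥A0)
              (coeffMap (Int.castRingHom (IsLocalRing.ResidueField ↥A0)) H.hZ) ^ (q - 1)) ∧
      va2xRho1 M q K0 A0 ⟨_, hν⟩ *
          thdTheta (IsLocalRing.ResidueField ↥A0)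
            (coeffMap (Int.castRingHom (IsLocalRing.ResidueField ↥A0)) H.hZ) ^ q =
        thdTheta (IsLocalRing.ResidueField ↥A0)
          (coeffMap (Int.castRingHom (IsLocalRing.ResidueField ↥A0)) H.hZ) ∧
      ∃ δZ : LaurentSeries ℤ,
        ((q : ℕ) : LaurentSeries ℤ) * δZ = H.hZ ^ q - qExpand ℤ q H.hZ ∧
        va2xRho1 M q K0 A0 ⟨δ, hδ⟩ =
          coeffMap (Int.castRingHom (IsLocalRing.ResidueField ↥A0)) δZ := by
  have : CharZero K0 := algebraRat.charZero K0
  have : NeZero q := ⟨hq.out.ne_zero⟩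
  have := s36ps_charP q K0 A0 hA0
  obtain ⟨δ, hδ, δZ, hqδ, hδZ, -, hrhoδ, hθδ⟩ := s36ps_delta M q K0 A0 H ha2 hA0
  obtain ⟨ν', hD, hcoeν⟩ := s36ps_nu M q hM K0 H ha2
  obtain ⟨hh, hrhoh⟩ := s36ps_h M q K0 A0 H ha2
  have hν : ((q : ℕ) : ↥(laurentBaseChange K0 (modularFunctionFieldFull (M * q)))) * ν' ∈
      va2V1 M q K0 A0 := by
    rw [mem_va2V1, hcoeν]
    exact krv_int_mem A0 _
  have hνinv : (((q : ℕ) : ↥(laurentBaseChange K0 (modularFunctionFieldFull (M * q)))) * ν')⁻¹ ∈
      va2V1 M q K0 A0 := by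
    rw [mem_va2V1, IntermediateField.coe_inv, hcoeν]
    exact krv_int_inv_mem A0 _ (s36nx_nu_map_ne_zero q H.hZ H.leadZ)
  have hne : KaehlerDifferential.D K0 ↥(laurentBaseChange K0 (modularFunctionFieldFull (M * q)))
      (heckeBetaBar K0 M q (nunH K0 M H ha2)) ≠ 0 := by
    apply s36ns_D_ne_zero (laurentBaseChange K0 (modularFunctionFieldFull (M * q))).val
    have e : (laurentBaseChange K0 (modularFunctionFieldFull (M * q))).val
        (heckeBetaBar K0 M q (nunH K0 M H ha2)) =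
        qExpand K0 q (coeffMap (Int.castRingHom K0) H.hZ) := s36ps_coe_th M q K0 H ha2
    rw [e]
    exact s36nx_theta_phi_ne_zero q H.hZ H.leadZ (R := K0) (Nat.cast_ne_zero.mpr hq.out.ne_zero)
  have hV2 := s36ns_carrier M q hM K0 A0 H ha2 hA0 ν' hD hne hνinv
  have hrhoν : va2xRho1 M q K0 A0 ⟨_, hν⟩ =
      coeffMap (Int.castRingHom (IsLocalRing.ResidueField ↥A0))
        ((s36nxNu q H.hZ H.leadZ : (LaurentSeries ℤ)ˣ) : LaurentSeries ℤ) := by
    rw [va2xRho1_apply]
    have e : (⟨((((q : ℕ) : ↥(laurentBaseChange K0 (modularFunctionFieldFull (M * q)))) * ν' :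
          ↥(laurentBaseChange K0 (modularFunctionFieldFull (M * q)))) : LaurentSeries K0), hν⟩ :
        grV A0) = ⟨coeffMap (Int.castRingHom K0)
          ((s36nxNu q H.hZ H.leadZ : (LaurentSeries ℤ)ˣ) : LaurentSeries ℤ),
          krv_int_mem A0 _⟩ := Subtype.ext hcoeν
    rw [e]
    exact krv_int_rho A0 _ _
  refine ⟨δ, ν', hh, hδ, hν, hqδ, hD, hνinv, hV2, hrhoh,
    s36nx_theta_bar_ne_zero H.hZ H.leadZ, hθδ, ?_, δZ, hδZ, hrhoδ⟩
  rw [hrhoν]
  exact s36nx_nu_bar q H.hZ H.leadZ

end Main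

end Fermat.Agent.S36
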