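import Mathlib
import Fermat.Agent.S35.NodeData
import Fermat.Agent.S34.NonCusp2
import Fermat.Agent.S36.PsiSer
import Fermat.Agent.S36.PsiRat
import Fermat.Agent.S36.PsiInt
import Fermat.Agent.S36.PsiLift
import Fermat.Agent.S36.PsiCarr
import Fermat.Agent.S36.NuPlace

/-!
# S36, [PSI-UNIT]: thickness one at the crossing points of the level-`M q` Hauptmodul chart

Carrier of `s35nd_node` (S35/NodeData.lean): `F = K0(X₀(M q))`, `q ∤ M`, `A0` a discrete valuation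
subring of `K0` over `q`, `V₁ = va2V1`, `V₂ = va2V2`, chart `O = chtO A0 {t}`, `𝔫` a crossing
point, `h = α (nunH)` the Hauptmodul, `θ = β (nunH)`, `x = h ^ q - θ`, `y = h - θ ^ q`.

* `s36pa_nu`: the modular unit `ν = q · dh/dθ` lies in `𝔫 O_𝔫` (no horizontal pole: NU-PLACE;
  `ν ∈ V₁ ∩ V₂`: PU-SER; `[INT]`: PU-INT; `ν ∈ 𝔪_{V₂}`);
* `s36pa_main`: **`x * y = q * unit` in `O_𝔫`** (fraction form: `x * y * b = q * a` with
  `a, b ∈ O ∖ 𝔫`).  Inputs: PU-SER (`s36ps_main`), PU-RAT (`s36pr_main`), `thd_unit`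
  (S34/ThetaDelta), PU-CARR (`s36pc_*`), PU-LIFT (`s36pl_main`).
-/

set_option autoImplicit false
set_option linter.unusedSectionVars false
set_option synthInstance.maxHeartbeats 400000

noncomputable section

open ModularCurve AlgebraicCurve Polynomial
open Fermat.Agent.S18 Fermat.Agent.S37 Fermat.Agent.S34 Fermat.Agent.S35

namespace Fermat.Agent.S36

local notation "Qb" => AlgebraicClosure ℚ

section Abs

variable {A F : Type*} [CommRing A] [Field F] [Algebra A F]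
  (O : Subalgebra A F) (𝔫 : Ideal ↥O)

/-- `O_𝔫` is contained in every valuation ring through `𝔫` -/
theorem s36pa_loc_mem (V : ValuationSubring F) (hO : ∀ x ∈ O, x ∈ V)
    (hloc : ∀ s : ↥O, s ∉ 𝔫 → ((s : F))⁻¹ ∈ V) {z : F} (hz : s36puL O 𝔫 z) : z ∈ V := by
  obtain ⟨a, s, hs, h⟩ := hz
  have hs0 : (s : F) ≠ 0 := s36pu_ne_zero O 𝔫 hs
  have e : z = (a : F) * ((s : F))⁻¹ := by
    rw [← h, mul_assoc, mul_inv_cancel₀ hs0, mul_one]
  rw [e]
  exact V.mul_mem _ _ (hO _ a.2) (hloc s hs)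

end Abs

section Main

variable (M q : ℕ) [NeZero M] [hq : Fact q.Prime] (hM : ¬ q ∣ M)
  (K0 : Type*) [Field K0] [Algebra ℚ K0] [Algebra K0 Qb]
  (A0 : ValuationSubring K0) [IsDiscreteValuationRing ↥A0]
  {a2 : ℕ} (H : HauptRec a2 q)

/-- a natural number constant lies in every valuation ring containing `K0` -/
theorem s36pa_natCast_mem
    (V : ValuationSubring ↥(laurentBaseChange K0 (modularFunctionFieldFull (M * q))))
    (hK : ∀ c : K0, algebraMap K0 ↥(laurentBaseChange K0 (modularFunctionFieldFull (M * q))) c ∈ V)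
    (n : ℕ) : ((n : ℕ) : ↥(laurentBaseChange K0 (modularFunctionFieldFull (M * q)))) ∈ V := by
  have h := hK (n : K0)
  rwa [map_natCast] at h

/-- `ν = q ν'` lies in the maximal ideal of the local ring of a crossing point -/
theorem s36pa_nu (ha2 : a2 ∣ M) (hA0 : A0.LiesOverPrime q) (c0 c1 : A0)
    (hc : IsLocalRing.residue ↥A0 c0 ≠ IsLocalRing.residue ↥A0 c1)
    (t : ↥(laurentBaseChange K0 (modularFunctionFieldFull (M * q))))
    (ht : (t : LaurentSeries K0) = cinstU H K0 (c0 : K0) (c1 : K0))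
    [Algebra ↥A0 ↥(laurentBaseChange K0 (modularFunctionFieldFull (M * q)))]
    [IsScalarTower ↥A0 K0 ↥(laurentBaseChange K0 (modularFunctionFieldFull (M * q)))]
    (τ : A0) (hτ : Irreducible τ)
    (𝔫 : Ideal ↥(chtO A0 {t})) [𝔫.IsPrime]
    (hc₁ : ∀ x : ↥(chtO A0 {t}),
      (x : ↥(laurentBaseChange K0 (modularFunctionFieldFull (M * q)))) ∈
        (va2V1 M q K0 A0).nonunits → x ∈ 𝔫)
    (hc₂ : ∀ x : ↥(chtO A0 {t}),
      (x : ↥(laurentBaseChange K0 (modularFunctionFieldFull (M * q)))) ∈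
        (va2V2 M q hM K0 A0).nonunits → x ∈ 𝔫)
    (ν' : ↥(laurentBaseChange K0 (modularFunctionFieldFull (M * q))))
    (hD : KaehlerDifferential.D K0 ↥(laurentBaseChange K0 (modularFunctionFieldFull (M * q)))
          (heckeAlphaBar K0 M q (nunH K0 M H ha2)) =
        ν' • KaehlerDifferential.D K0 ↥(laurentBaseChange K0 (modularFunctionFieldFull (M * q)))
          (heckeBetaBar K0 M q (nunH K0 M H ha2)))
    (hν1 : ((q : ℕ) : ↥(laurentBaseChange K0 (modularFunctionFieldFull (M * q)))) * ν' ∈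
      va2V1 M q K0 A0)
    (hν2 : ((q : ℕ) : ↥(laurentBaseChange K0 (modularFunctionFieldFull (M * q)))) * ν' ∈
      (va2V2 M q hM K0 A0).nonunits) :
    s36puM (chtO A0 {t}) 𝔫
      (((q : ℕ) : ↥(laurentBaseChange K0 (modularFunctionFieldFull (M * q)))) * ν') := by
  have hhL := cnd_hh M q hM K0 A0 H ha2 hA0 c0 c1 hc t ht 𝔫 hc₁ hc₂
  have hθL := cnd_htheta M q hM K0 A0 H ha2 hA0 c0 c1 hc t ht 𝔫 hc₁ hc₂
  have hQa := (ncv_crossing_alpha M q hM K0 A0 H ha2 hA0 c0 c1 hc t ht 𝔫 hc₁ hc₂).2.2.1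
  have hQb := (ncv_crossing_beta M q hM K0 A0 H ha2 hA0 c0 c1 hc t ht 𝔫 hc₁ hc₂).2.2.1
  rw [← cni_alpha_h M q K0 H (ha2.mul_right q) ha2] at hQa
  rw [cni_swap_h M q hM K0 H (ha2.mul_right q) ha2] at hQb
  have hL : s36puL (chtO A0 {t}) 𝔫
      (((q : ℕ) : ↥(laurentBaseChange K0 (modularFunctionFieldFull (M * q)))) * ν') := by
    refine s36pi_main M q hM K0 A0 H ha2 hA0 c0 c1 hc t ht τ hτ 𝔫 _ hν1
      (tve_nonunits_le hν2) ?_
    intro V hpir htop hK hO hloc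
    have hmem : ∀ {z : ↥(laurentBaseChange K0 (modularFunctionFieldFull (M * q)))},
        s36puL (chtO A0 {t}) 𝔫 z → z ∈ V := fun hz => s36pa_loc_mem (chtO A0 {t}) 𝔫 V hO hloc hz
    obtain ⟨hν'V, -⟩ := s36np_val M q hM H ha2 K0 ν' hD V hpir htop hK (hmem hhL) (hmem hQa)
      (hmem hθL) (hmem hQb)
    exact V.mul_mem _ _ (s36pa_natCast_mem M q K0 V hK q) hν'V
  exact s36puL_nonunits (chtO A0 {t}) 𝔫 (va2V2 M q hM K0 A0)
    (fun x hx => nch_O2 M q hM K0 A0 H ha2 hA0 c0 c1 hc t ht x hx) hc₂ hL hν2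

/-- **[PSI-UNIT].**  At every crossing point `𝔫` of the level-`M q` Hauptmodul chart,
`x * y = q * unit` in `O_𝔫` (`x = h^q - θ`, `y = h - θ^q`): the crossing points have
thickness one. -/
theorem s36pa_main (ha2 : a2 ∣ M) (hA0 : A0.LiesOverPrime q) (c0 c1 : A0)
    (hc : IsLocalRing.residue ↥A0 c0 ≠ IsLocalRing.residue ↥A0 c1)
    (hQ0 : smi2U A0 (aeval (c0 : K0) H.Qrad))
    (hSM0 : cinstSMChart K0 A0 M H (c0 : K0) (c1 : K0))
    (hSM1 : cinstSMChart K0 A0 M H (c1 : K0) (c0 : K0))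
    (hu0 : unrChart K0 A0 M H c0 c1) (hu1 : unrChart K0 A0 M H c1 c0)
    (t : ↥(laurentBaseChange K0 (modularFunctionFieldFull (M * q))))
    (ht : (t : LaurentSeries K0) = cinstU H K0 (c0 : K0) (c1 : K0))
    [Algebra ↥A0 ↥(laurentBaseChange K0 (modularFunctionFieldFull (M * q)))]
    [IsScalarTower ↥A0 K0 ↥(laurentBaseChange K0 (modularFunctionFieldFull (M * q)))]
    (τ : A0) (hτ : Irreducible τ)
    (𝔫 : Ideal ↥(chtO A0 {t})) (h𝔫 : 𝔫.IsMaximal)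
    (hc₁ : ∀ x : ↥(chtO A0 {t}),
      (x : ↥(laurentBaseChange K0 (modularFunctionFieldFull (M * q)))) ∈
        (va2V1 M q K0 A0).nonunits → x ∈ 𝔫)
    (hc₂ : ∀ x : ↥(chtO A0 {t}),
      (x : ↥(laurentBaseChange K0 (modularFunctionFieldFull (M * q)))) ∈
        (va2V2 M q hM K0 A0).nonunits → x ∈ 𝔫) :
    ∃ a b : ↥(chtO A0 {t}), a ∉ 𝔫 ∧ b ∉ 𝔫 ∧
      (heckeAlphaBar K0 M q (nunH K0 M H ha2) ^ q - heckeBetaBar K0 M q (nunH K0 M H ha2)) *
        (heckeAlphaBar K0 M q (nunH K0 M H ha2) - heckeBetaBar K0 M q (nunH K0 M H ha2) ^ q) *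
        (b : ↥(laurentBaseChange K0 (modularFunctionFieldFull (M * q)))) =
      ((q : ℕ) : ↥(laurentBaseChange K0 (modularFunctionFieldFull (M * q)))) *
        (a : ↥(laurentBaseChange K0 (modularFunctionFieldFull (M * q)))) := by
  have := h𝔫.isPrime
  obtain ⟨hB₁, -, hhL, hθL, hxM, hyM⟩ := s35nd_node M q hM K0 A0 H ha2 hA0 c0 c1 hc hQ0 hSM0 hSM1
    hu0 hu1 t ht τ hτ 𝔫 h𝔫 hc₁ hc₂
  obtain ⟨δ, ν', hh, hδ, hν, hqδ, hD, hνinv, hV2, hrhoh, hθH, hθδ, hρν, δZ, hδZ, hrhoδ⟩ :=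
    s36ps_main M q hM K0 A0 H ha2 hA0
  obtain ⟨P, D, hcop, hD0, hPD⟩ := s36pr_main q K0 H A0 hA0 δZ hδZ
  rw [← hrhoδ] at hPD
  have hunit := thd_unit q hq.out.one_le _ _ _ hθH hθδ P D hPD hρν
  have hνM := s36pa_nu M q hM K0 A0 H ha2 hA0 c0 c1 hc t ht τ hτ 𝔫 hc₁ hc₂ ν' hD hν hV2
  obtain ⟨hy0, hyU, -⟩ := s36pc_y_unit M q K0 A0 H ha2
  have hO₁ : ∀ y ∈ chtO A0 {t}, y ∈ va2V1 M q K0 A0 :=
    fun x hx => nch_O1 M q K0 A0 H c0 c1 hc t ht x hx
  -- `δ * y ∈ O_𝔫`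
  have hΨL := s36pc_dy_loc M q hM K0 A0 H ha2 hA0 c0 c1 hc t ht τ hτ 𝔫 hc₁ hc₂ δ hqδ hδ
  have hτ𝔫 : algebraMap ↥A0 ↥(chtO A0 {t}) τ ∈ 𝔫 :=
    hc₁ _ (nch_tau1 M q K0 A0 H c0 c1 hc t ht τ hτ)
  have hker : ∀ a : ↥A0, IsLocalRing.residue ↥A0 a = 0 → ∃ b, a = τ * b := by
    intro a ha
    have h1 : a ∈ IsLocalRing.maximalIdeal ↥A0 := (IsLocalRing.residue_eq_zero_iff a).mp ha
    rw [hτ.maximalIdeal_eq, Ideal.mem_span_singleton] at h1
    exact h1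
  obtain ⟨a, s, ha, hs, h⟩ := s36pl_main (chtO A0 {t}) 𝔫 (va2V1 M q K0 A0) hO₁ hc₁
    (va2xRho1 M q K0 A0) (IsLocalRing.residue ↥A0) IsLocalRing.residue_surjective
    (fun a ha => s36pc_rho_const M q K0 A0 a ha) τ hker hτ𝔫
    (heckeAlphaBar K0 M q (nunH K0 M H ha2)) hhL hh _ hrhoh
    (heckeAlphaBar K0 M q (nunH K0 M H ha2) - heckeBetaBar K0 M q (nunH K0 M H ha2) ^ q)
    δ (((q : ℕ) : ↥(laurentBaseChange K0 (modularFunctionFieldFull (M * q)))) * ν')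
    hy0 hyU hyM hB₁ hνM hδ hν P D _ hcop hPD hunit hΨL
  refine ⟨a, s, ha, hs, ?_⟩
  rw [← hqδ]
  linear_combination ((q : ℕ) : ↥(laurentBaseChange K0 (modularFunctionFieldFull (M * q)))) * h

end Main

end Fermat.Agent.S36
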