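import Mathlib
import Fermat.Agent.S36.NodeReg
import Fermat.Agent.S36.PsiUnit

/-!
# S36, leaf NODE-REG-INST: the level-`M q` model over an UNRAMIFIED base is regular at its
crossing points

Carrier of `S35.s35nd_node`, with `A0` unramified over `q`: `q = τ * ε`, `ε` a unit of `A0`
(`hqτ`).  PSI-UNIT (`s36pa_main`: `x * y = q * unit` in `O_𝔫`) plugged into NODE-REG:

* `s36ni_psi`: `x * y * s = τ * a` with `a, s ∉ 𝔫` at every crossing point (the `hΨ` of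
  `NodeReg.lean`);
* `s36ni_prin`: both components are principal at every crossing point:
  `𝔪_{V₁} ∩ O_𝔫 = x O_𝔫`, `𝔪_{V₂} ∩ O_𝔫 = y O_𝔫` (fraction forms), `x, y ≠ 0`;
* `s36ni_tau`: `τ * c = x * b` with `c ∉ 𝔫` (the input of `s36wc_unit_pull`: `x` has no
  horizontal zero through the crossing point), and the same for `y`;
* `s36ni_field`: (LOC) `= S34Loc` at EVERY closed point of the special fibres of the two
  Hauptmodul charts for EVERY function with `hord`.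
-/

set_option autoImplicit false
set_option linter.unusedSectionVars false
set_option linter.unusedVariables false

noncomputable section

open ModularCurve AlgebraicCurve Polynomial
open Fermat.Agent.S18 Fermat.Agent.S37 Fermat.Agent.S34 Fermat.Agent.S35

namespace Fermat.Agent.S36

local notation "Qb" => AlgebraicClosure ℚ

section Carrier

variable (M q : ℕ) [NeZero M] [hq : Fact q.Prime] (hM : ¬ q ∣ M)
  (K0 : Type*) [Field K0] [Algebra ℚ K0] [Algebra K0 Qb]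
  (A0 : ValuationSubring K0) [IsDiscreteValuationRing ↥A0]
  {a2 : ℕ} (H : HauptRec a2 q)

/-- **Thickness one, `τ`-form**, at every crossing point of the chart `chtO A0 {t}` over an
unramified base. -/
theorem s36ni_psi (ha2 : a2 ∣ M) (hA0 : A0.LiesOverPrime q) (c0 c1 : A0)
    (hc : IsLocalRing.residue ↥A0 c0 ≠ IsLocalRing.residue ↥A0 c1)
    (hQ0 : smi2U A0 (aeval (c0 : K0) H.Qrad))
    (hSM0 : cinstSMChart K0 A0 M H (c0 : K0) (c1 : K0))
    (hSM1 : cinstSMChart K0 A0 M H (c1 : K0) (c0 : K0))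
    (hu0 : unrChart K0 A0 M H c0 c1) (hu1 : unrChart K0 A0 M H c1 c0)
    (t : ↥(laurentBaseChange K0 (modularFunctionFieldFull (M * q))))
    (ht : (t : LaurentSeries K0) = cinstU H K0 (c0 : K0) (c1 : K0))
    [Algebra ↥A0 ↥(laurentBaseChange K0 (modularFunctionFieldFull (M * q)))]
    [IsScalarTower ↥A0 K0 ↥(laurentBaseChange K0 (modularFunctionFieldFull (M * q)))]
    (τ : A0) (hτ : Irreducible τ) (ε : A0) (hε : IsUnit ε) (hqτ : ((q : ℕ) : ↥A0) = τ * ε)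
    (𝔫 : Ideal ↥(chtO A0 {t})) (h𝔫 : 𝔫.IsMaximal)
    (hc₁ : ∀ x : ↥(chtO A0 {t}),
      (x : ↥(laurentBaseChange K0 (modularFunctionFieldFull (M * q)))) ∈
        (va2V1 M q K0 A0).nonunits → x ∈ 𝔫)
    (hc₂ : ∀ x : ↥(chtO A0 {t}),
      (x : ↥(laurentBaseChange K0 (modularFunctionFieldFull (M * q)))) ∈
        (va2V2 M q hM K0 A0).nonunits → x ∈ 𝔫) :
    ∃ a s : ↥(chtO A0 {t}), a ∉ 𝔫 ∧ s ∉ 𝔫 ∧
      (heckeAlphaBar K0 M q (nunH K0 M H ha2) ^ q - heckeBetaBar K0 M q (nunH K0 M H ha2)) *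
        (heckeAlphaBar K0 M q (nunH K0 M H ha2) - heckeBetaBar K0 M q (nunH K0 M H ha2) ^ q) *
          (s : ↥(laurentBaseChange K0 (modularFunctionFieldFull (M * q)))) =
        algebraMap A0 ↥(laurentBaseChange K0 (modularFunctionFieldFull (M * q))) τ *
          (a : ↥(laurentBaseChange K0 (modularFunctionFieldFull (M * q)))) := by
  refine s36nr_psi_tau τ ε hε
    ((q : ℕ) : ↥(laurentBaseChange K0 (modularFunctionFieldFull (M * q)))) ?_ (chtO A0 {t}) 𝔫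
    h𝔫.isPrime _ _
    (s36pa_main M q hM K0 A0 H ha2 hA0 c0 c1 hc hQ0 hSM0 hSM1 hu0 hu1 t ht τ hτ 𝔫 h𝔫 hc₁ hc₂)
  rw [← map_mul, ← hqτ, map_natCast]

/-- **The crossing points are regular: both components are principal there.** -/
theorem s36ni_prin (ha2 : a2 ∣ M) (hA0 : A0.LiesOverPrime q) (c0 c1 : A0)
    (hc : IsLocalRing.residue ↥A0 c0 ≠ IsLocalRing.residue ↥A0 c1)
    (hQ0 : smi2U A0 (aeval (c0 : K0) H.Qrad))
    (hSM0 : cinstSMChart K0 A0 M H (c0 : K0) (c1 : K0))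
    (hSM1 : cinstSMChart K0 A0 M H (c1 : K0) (c0 : K0))
    (hu0 : unrChart K0 A0 M H c0 c1) (hu1 : unrChart K0 A0 M H c1 c0)
    (t : ↥(laurentBaseChange K0 (modularFunctionFieldFull (M * q))))
    (ht : (t : LaurentSeries K0) = cinstU H K0 (c0 : K0) (c1 : K0))
    [Algebra ↥A0 ↥(laurentBaseChange K0 (modularFunctionFieldFull (M * q)))]
    [IsScalarTower ↥A0 K0 ↥(laurentBaseChange K0 (modularFunctionFieldFull (M * q)))]
    (τ : A0) (hτ : Irreducible τ) (ε : A0) (hε : IsUnit ε) (hqτ : ((q : ℕ) : ↥A0) = τ * ε)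
    (𝔫 : Ideal ↥(chtO A0 {t})) (h𝔫 : 𝔫.IsMaximal)
    (hc₁ : ∀ x : ↥(chtO A0 {t}),
      (x : ↥(laurentBaseChange K0 (modularFunctionFieldFull (M * q)))) ∈
        (va2V1 M q K0 A0).nonunits → x ∈ 𝔫)
    (hc₂ : ∀ x : ↥(chtO A0 {t}),
      (x : ↥(laurentBaseChange K0 (modularFunctionFieldFull (M * q)))) ∈
        (va2V2 M q hM K0 A0).nonunits → x ∈ 𝔫) :
    (heckeAlphaBar K0 M q (nunH K0 M H ha2) ^ q - heckeBetaBar K0 M q (nunH K0 M H ha2) ≠ 0) ∧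
    (heckeAlphaBar K0 M q (nunH K0 M H ha2) - heckeBetaBar K0 M q (nunH K0 M H ha2) ^ q ≠ 0) ∧
    (∀ z : ↥(chtO A0 {t}),
      (z : ↥(laurentBaseChange K0 (modularFunctionFieldFull (M * q)))) ∈
        (va2V1 M q K0 A0).nonunits → ∃ b c : ↥(chtO A0 {t}), c ∉ 𝔫 ∧
      (z : ↥(laurentBaseChange K0 (modularFunctionFieldFull (M * q)))) *
          (c : ↥(laurentBaseChange K0 (modularFunctionFieldFull (M * q)))) =
        (heckeAlphaBar K0 M q (nunH K0 M H ha2) ^ q - heckeBetaBar K0 M q (nunH K0 M H ha2)) *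
          (b : ↥(laurentBaseChange K0 (modularFunctionFieldFull (M * q))))) ∧
    (∀ z : ↥(chtO A0 {t}),
      (z : ↥(laurentBaseChange K0 (modularFunctionFieldFull (M * q)))) ∈
        (va2V2 M q hM K0 A0).nonunits → ∃ b c : ↥(chtO A0 {t}), c ∉ 𝔫 ∧
      (z : ↥(laurentBaseChange K0 (modularFunctionFieldFull (M * q)))) *
          (c : ↥(laurentBaseChange K0 (modularFunctionFieldFull (M * q)))) =
        (heckeAlphaBar K0 M q (nunH K0 M H ha2) - heckeBetaBar K0 M q (nunH K0 M H ha2) ^ q) *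
          (b : ↥(laurentBaseChange K0 (modularFunctionFieldFull (M * q))))) := by
  have := h𝔫.isPrime
  exact s36nr_prin M q hM K0 A0 H ha2 hA0 c0 c1 hc t ht τ hτ 𝔫 hc₁ hc₂
    (s36ni_psi M q hM K0 A0 H ha2 hA0 c0 c1 hc hQ0 hSM0 hSM1 hu0 hu1 t ht τ hτ ε hε hqτ 𝔫 h𝔫
      hc₁ hc₂)

/-- **The local equations divide `τ` at a crossing point**: `τ * c = x * b` and `τ * c' = y * b'`
with `c, c' ∉ 𝔫` (so `x`, `y` have no zero along any valuation ring through `𝔫` in which `τ` is a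
unit: the input of `s36wc_unit_pull`). -/
theorem s36ni_tau (ha2 : a2 ∣ M) (hA0 : A0.LiesOverPrime q) (c0 c1 : A0)
    (hc : IsLocalRing.residue ↥A0 c0 ≠ IsLocalRing.residue ↥A0 c1)
    (hQ0 : smi2U A0 (aeval (c0 : K0) H.Qrad))
    (hSM0 : cinstSMChart K0 A0 M H (c0 : K0) (c1 : K0))
    (hSM1 : cinstSMChart K0 A0 M H (c1 : K0) (c0 : K0))
    (hu0 : unrChart K0 A0 M H c0 c1) (hu1 : unrChart K0 A0 M H c1 c0)
    (t : ↥(laurentBaseChange K0 (modularFunctionFieldFull (M * q))))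
    (ht : (t : LaurentSeries K0) = cinstU H K0 (c0 : K0) (c1 : K0))
    [Algebra ↥A0 ↥(laurentBaseChange K0 (modularFunctionFieldFull (M * q)))]
    [IsScalarTower ↥A0 K0 ↥(laurentBaseChange K0 (modularFunctionFieldFull (M * q)))]
    (τ : A0) (hτ : Irreducible τ) (ε : A0) (hε : IsUnit ε) (hqτ : ((q : ℕ) : ↥A0) = τ * ε)
    (𝔫 : Ideal ↥(chtO A0 {t})) (h𝔫 : 𝔫.IsMaximal)
    (hc₁ : ∀ x : ↥(chtO A0 {t}),
      (x : ↥(laurentBaseChange K0 (modularFunctionFieldFull (M * q)))) ∈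
        (va2V1 M q K0 A0).nonunits → x ∈ 𝔫)
    (hc₂ : ∀ x : ↥(chtO A0 {t}),
      (x : ↥(laurentBaseChange K0 (modularFunctionFieldFull (M * q)))) ∈
        (va2V2 M q hM K0 A0).nonunits → x ∈ 𝔫) :
    (∃ b c : ↥(chtO A0 {t}), c ∉ 𝔫 ∧
      algebraMap A0 ↥(laurentBaseChange K0 (modularFunctionFieldFull (M * q))) τ *
          (c : ↥(laurentBaseChange K0 (modularFunctionFieldFull (M * q)))) =
        (heckeAlphaBar K0 M q (nunH K0 M H ha2) ^ q - heckeBetaBar K0 M q (nunH K0 M H ha2)) *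
          (b : ↥(laurentBaseChange K0 (modularFunctionFieldFull (M * q))))) ∧
    (∃ b c : ↥(chtO A0 {t}), c ∉ 𝔫 ∧
      algebraMap A0 ↥(laurentBaseChange K0 (modularFunctionFieldFull (M * q))) τ *
          (c : ↥(laurentBaseChange K0 (modularFunctionFieldFull (M * q)))) =
        (heckeAlphaBar K0 M q (nunH K0 M H ha2) - heckeBetaBar K0 M q (nunH K0 M H ha2) ^ q) *
          (b : ↥(laurentBaseChange K0 (modularFunctionFieldFull (M * q))))) := by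
  obtain ⟨-, -, h1, h2⟩ := s36ni_prin M q hM K0 A0 H ha2 hA0 c0 c1 hc hQ0 hSM0 hSM1 hu0 hu1 t ht
    τ hτ ε hε hqτ 𝔫 h𝔫 hc₁ hc₂
  obtain ⟨-, hτV₁, -⟩ := ndi_hVtau M q hM K0 A0 H ha2 hA0 c0 c1 hc t ht τ hτ
  obtain ⟨-, hτV₂, -⟩ := s34im_V2_basic M q hM K0 A0 τ hτ
  exact ⟨h1 (algebraMap A0 ↥(chtO A0 {t}) τ) hτV₁, h2 (algebraMap A0 ↥(chtO A0 {t}) τ) hτV₂⟩

include hM in
/-- **(LOC) at every closed point of the level-`M q` model over an unramified base, for every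
function with `hord`** (no rationality hypothesis on the divisor). -/
theorem s36ni_field (ha2 : a2 ∣ M) [Finite (IsLocalRing.ResidueField ↥A0)]
    (hA0 : A0.LiesOverPrime q) (c0 c1 : A0)
    (hc : IsLocalRing.residue ↥A0 c0 ≠ IsLocalRing.residue ↥A0 c1)
    (hQ0 : smi2U A0 (aeval (c0 : K0) H.Qrad)) (hQ1 : smi2U A0 (aeval (c1 : K0) H.Qrad))
    (hSM0 : cinstSMChart K0 A0 M H (c0 : K0) (c1 : K0))
    (hSM1 : cinstSMChart K0 A0 M H (c1 : K0) (c0 : K0))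
    (hu0 : unrChart K0 A0 M H c0 c1) (hu1 : unrChart K0 A0 M H c1 c0)
    [Algebra A0 ↥(laurentBaseChange K0 (modularFunctionFieldFull (M * q)))]
    [IsScalarTower A0 K0 ↥(laurentBaseChange K0 (modularFunctionFieldFull (M * q)))]
    (t : ↥(laurentBaseChange K0 (modularFunctionFieldFull (M * q))))
    (ht : (t : LaurentSeries K0) = cinstU H K0 (c0 : K0) (c1 : K0))
    (τ : A0) (hτ : Irreducible τ) (ε : A0) (hε : IsUnit ε) (hqτ : ((q : ℕ) : ↥A0) = τ * ε)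
    (m : ℕ) (hm : 0 < m)
    (f : ↥(laurentBaseChange K0 (modularFunctionFieldFull (M * q)))) (hf : f ≠ 0)
    (hord : ∀ V : ValuationSubring ↥(laurentBaseChange K0 (modularFunctionFieldFull (M * q))),
      (∀ a : A0,
        algebraMap A0 ↥(laurentBaseChange K0 (modularFunctionFieldFull (M * q))) a ∈ V) →
      (algebraMap A0 ↥(laurentBaseChange K0 (modularFunctionFieldFull (M * q))) τ)⁻¹ ∈ V →
      IsPrincipalIdealRing V →
      ∃ u : ↥(laurentBaseChange K0 (modularFunctionFieldFull (M * q))),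
        u ≠ 0 ∧ f * u ^ m ∈ V ∧ (f * u ^ m)⁻¹ ∈ V) :
    (∀ 𝔫 : Ideal ↥(chtO A0 {t}), 𝔫.IsMaximal → algebraMap A0 ↥(chtO A0 {t}) τ ∈ 𝔫 →
      S34Loc τ m (chtO A0 {t}) f 𝔫) ∧
    (∀ 𝔫 : Ideal ↥(chtO A0 {t⁻¹}), 𝔫.IsMaximal → algebraMap A0 ↥(chtO A0 {t⁻¹}) τ ∈ 𝔫 →
      S34Loc τ m (chtO A0 {t⁻¹}) f 𝔫) := by
  have htinv : ((t⁻¹ : ↥(laurentBaseChange K0 (modularFunctionFieldFull (M * q)))) :
      LaurentSeries K0) = cinstU H K0 (c1 : K0) (c0 : K0) := by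
    rw [IntermediateField.coe_inv, ht, cinstU_inv]
  exact s36nr_field M q hM K0 A0 H ha2 hA0 c0 c1 hc hQ0 hQ1 hSM0 hSM1 t ht τ hτ m hm
    (fun 𝔫 h𝔫 hc₁ hc₂ => s36ni_psi M q hM K0 A0 H ha2 hA0 c0 c1 hc hQ0 hSM0 hSM1 hu0 hu1 t ht τ
      hτ ε hε hqτ 𝔫 h𝔫 hc₁ hc₂)
    (fun 𝔫 h𝔫 hc₁ hc₂ => s36ni_psi M q hM K0 A0 H ha2 hA0 c1 c0 hc.symm hQ1 hSM1 hSM0 hu1 hu0
      t⁻¹ htinv τ hτ ε hε hqτ 𝔫 h𝔫 hc₁ hc₂)
    f hf hord

end Carrier

end Fermat.Agent.S36
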