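import Mathlib
import Fermat.Agent.S36.WcPoint
import Fermat.Agent.S36.TriPrin

/-!
# S36, package TRI-UNIT: the unit form at a triple point from the node below

`F` is the function field of level `L q²`, `E` the one of level `L q`, `α β : E →+* F` the two
degeneracy maps, `Wa Wb Wc` the three vertical valuations of `F`, `V1 V2` the two of `E`, with
the table `β⁻¹ Wa = V1`, `β⁻¹ Wb = V2 = β⁻¹ Wc`, `α⁻¹ Wb = V2`, `α⁻¹ Wc = V1`.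

At a triple point `𝔫` of a chart `O` of level `L q²`, let `x'`, `y'` be the local equations of
`V1`, `V2` at the crossing point below (`x' ∈ 𝔪_{V1}`, a unit at `V2`; `y' ∈ 𝔪_{V2}`, a unit at
`V1`), with `τ * c = x' * b` (thickness one: `c` a unit at the point), and `β x'`, `β b`,
`α y' ∈ O_𝔫`, `β c ∈ O_𝔫ˣ`.  Then:

* `s36tu_nu_of_iff`: the table in non-unit form;
* `s36tu_prin`: the component `Wa` is principal at `𝔫`, generated by `β x'`;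
* `s36tu_main`: every `f` with `hord` which is a unit at `Wa`, `Wb`, `Wc` is a unit of `O_𝔫`
  times an `m`-th power (`S35Unit m O 𝔫 f`).
-/

set_option autoImplicit false
set_option linter.unusedSectionVars false
set_option linter.unusedVariables false

namespace Fermat.Agent.S36

open Fermat.Agent.S18 Fermat.Agent.S34 Fermat.Agent.S35

/-- The `iff` form of a row of the table gives its non-unit form. -/
theorem s36tu_nu_of_iff {E F : Type*} [Field E] [Field F] (φ : E →+* F)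
    (V : ValuationSubring E) (W : ValuationSubring F) (h : ∀ x, φ x ∈ W ↔ x ∈ V) (x : E) :
    φ x ∈ W.nonunits ↔ x ∈ V.nonunits := by
  rw [ValuationSubring.mem_nonunits_iff_or, ValuationSubring.mem_nonunits_iff_or,
    map_eq_zero, ← map_inv₀, h]

section Chart

variable {A E F : Type*} [CommRing A] [Field E] [Field F] [Algebra A E] [Algebra A F]

/-- a valuation ring with a nonzero non-unit is not the whole field -/
theorem s36tu_ne_top (W : ValuationSubring F) (x : F) (hx0 : x ≠ 0) (hx : x ∈ W.nonunits) :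
    W ≠ ⊤ := by
  rintro rfl
  rw [ValuationSubring.mem_nonunits_iff_or] at hx
  rcases hx with h | h
  · exact hx0 h
  · exact h (ValuationSubring.mem_top _)

/-- elements of `O_𝔫` (fraction form) lie in every valuation ring `V ⊇ O` in which the
functions of `O ∖ 𝔫` are units -/
theorem s36tu_loc_mem (O : Subalgebra A F) (𝔫 : Ideal ↥O) (V : ValuationSubring F)
    (hOV : ∀ y ∈ O, y ∈ V) (hinv : ∀ s : ↥O, s ∉ 𝔫 → (s : F)⁻¹ ∈ V)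
    (x : F) (hx : ∃ a s : ↥O, s ∉ 𝔫 ∧ x * (s : F) = (a : F)) : x ∈ V := by
  obtain ⟨a, s, hs, h⟩ := hx
  have hs0 : (s : F) ≠ 0 := s35u_coe_ne_zero O 𝔫 hs
  have e : x = (a : F) * (s : F)⁻¹ := by
    rw [← h]; field_simp
  rw [e]
  exact V.mul_mem _ _ (hOV _ a.2) (hinv s hs)

/-- units of `O_𝔫` (fraction form) have their inverse in every valuation ring `V ⊇ O` in which
the functions of `O ∖ 𝔫` are units -/
theorem s36tu_loc_inv_mem (O : Subalgebra A F) (𝔫 : Ideal ↥O) (V : ValuationSubring F)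
    (hOV : ∀ y ∈ O, y ∈ V) (hinv : ∀ s : ↥O, s ∉ 𝔫 → (s : F)⁻¹ ∈ V)
    (x : F) (hx : ∃ a s : ↥O, a ∉ 𝔫 ∧ s ∉ 𝔫 ∧ x * (s : F) = (a : F)) : x⁻¹ ∈ V := by
  obtain ⟨a, s, ha, hs, h⟩ := hx
  have hs0 : (s : F) ≠ 0 := s35u_coe_ne_zero O 𝔫 hs
  have ha0 : (a : F) ≠ 0 := s35u_coe_ne_zero O 𝔫 ha
  have e : x⁻¹ = (s : F) * (a : F)⁻¹ := by
    have hx0 : x ≠ 0 := by
      rintro rfl
      rw [zero_mul] at h
      exact ha0 h.symm
    rw [← h]; field_simp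
  rw [e]
  exact V.mul_mem _ _ (hOV _ s.2) (hinv a ha)

/-- **The component `Wa` is principal at a triple point**, generated by the image `β x'` of the
local equation of `V1` at the crossing point below. -/
theorem s36tu_prin (τ : A) (hτ0 : algebraMap A F τ ≠ 0) (O : Subalgebra A F)
    [IsNoetherianRing ↥O] (hfrac : ∀ x : F, ∃ a ∈ O, ∃ s ∈ O, s ≠ 0 ∧ x * s = a)
    (hic : ∀ x : F, IsIntegral ↥O x → x ∈ O)
    (Wa Wb Wc : ValuationSubring F)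
    (hOWa : ∀ x ∈ O, x ∈ Wa) (hOWb : ∀ x ∈ O, x ∈ Wb) (hOWc : ∀ x ∈ O, x ∈ Wc)
    (hred : ∀ x ∈ O, x ∈ Wa.nonunits → x ∈ Wb.nonunits → x ∈ Wc.nonunits →
      ∃ (N : ℕ), ∃ y ∈ O, x ^ N = algebraMap A F τ * y)
    (𝔫 : Ideal ↥O) (h𝔫 : 𝔫.IsPrime)
    (h1a : ∀ x : ↥O, (x : F) ∈ Wa.nonunits → x ∈ 𝔫)
    (hτa : algebraMap A F τ ∈ Wa.nonunits) (hτb : algebraMap A F τ ∈ Wb.nonunits)
    (hτc : algebraMap A F τ ∈ Wc.nonunits)
    (hτgen : ∀ y ∈ Wa.nonunits, y * (algebraMap A F τ)⁻¹ ∈ Wa)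
    (β : E →+* F) (hβA : ∀ a : A, β (algebraMap A E a) = algebraMap A F a)
    (V1 V2 : ValuationSubring E)
    (hβb : ∀ x : E, β x ∈ Wb ↔ x ∈ V2) (hβc : ∀ x : E, β x ∈ Wc ↔ x ∈ V2)
    (x' b c : E) (hx'2 : x'⁻¹ ∈ V2)
    (hrel : algebraMap A E τ * c = x' * b)
    (hbO : ∃ a s : ↥O, s ∉ 𝔫 ∧ β b * (s : F) = (a : F))
    (hcO : ∃ a s : ↥O, a ∉ 𝔫 ∧ s ∉ 𝔫 ∧ β c * (s : F) = (a : F)) :
    β x' ≠ 0 ∧ (β x')⁻¹ ∈ Wb ∧ (β x')⁻¹ ∈ Wc ∧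
    ∀ z : ↥O, (z : F) ∈ Wa.nonunits →
      ∃ b' c' : ↥O, c' ∉ 𝔫 ∧ (z : F) * (c' : F) = β x' * (b' : F) := by
  have hτE0 : algebraMap A E τ ≠ 0 := fun h0 => hτ0 (by rw [← hβA, h0, map_zero])
  have hc0 : c ≠ 0 := by
    rintro rfl
    obtain ⟨a, s, ha, hs, h⟩ := hcO
    rw [map_zero, zero_mul] at h
    exact s35pt_ne_zero O 𝔫 a ha h.symm
  have hxb : x' * b ≠ 0 := hrel ▸ mul_ne_zero hτE0 hc0
  have hx'0 : x' ≠ 0 := left_ne_zero_of_mul hxb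
  have hξ0 : β x' ≠ 0 := (map_ne_zero β).mpr hx'0
  have hξb : (β x')⁻¹ ∈ Wb := by
    rw [← map_inv₀]; exact (hβb _).mpr hx'2
  have hξc : (β x')⁻¹ ∈ Wc := by
    rw [← map_inv₀]; exact (hβc _).mpr hx'2
  have hrelF : algebraMap A F τ * β c = β x' * β b := by
    rw [← hβA, ← map_mul, hrel, map_mul]
  have hβc0 : β c ≠ 0 := (map_ne_zero β).mpr hc0
  have hinva : ∀ s : ↥O, s ∉ 𝔫 → (s : F)⁻¹ ∈ Wa := fun s hs =>
    s35pt_inv_mem Wa (fun h => hs (h1a s h))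
  refine ⟨hξ0, hξb, hξc, ?_⟩
  refine s36wc_prin3 τ O hfrac hic Wa Wb Wc hOWa hOWb hOWc
    (s36tu_ne_top Wa _ hτ0 hτa) (s36tu_ne_top Wb _ hτ0 hτb) (s36tu_ne_top Wc _ hτ0 hτc) hred 𝔫
    (β x') hξ0 ?_ (Or.inl hξb) (Or.inl hξc) ?_
  · -- `β x'` is a uniformiser of `Wa`
    intro y hy
    have e0 : (β x')⁻¹ = (algebraMap A F τ)⁻¹ * (β b * (β c)⁻¹) := by
      apply inv_eq_of_mul_eq_one_right
      have e1 : β x' * ((algebraMap A F τ)⁻¹ * (β b * (β c)⁻¹)) =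
          (β x' * β b) * ((algebraMap A F τ)⁻¹ * (β c)⁻¹) := by ring
      rw [e1, ← hrelF]
      field_simp
    have e : y * (β x')⁻¹ = y * (algebraMap A F τ)⁻¹ * (β b * (β c)⁻¹) := by
      rw [e0]; ring
    rw [e]
    exact Wa.mul_mem _ _ (hτgen y hy) (Wa.mul_mem _ _
      (s36tu_loc_mem O 𝔫 Wa hOWa hinva _ hbO) (s36tu_loc_inv_mem O 𝔫 Wa hOWa hinva _ hcO))
  · -- no horizontal zero through the point
    intro V hOV hinv _ _ hτV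
    exact s36wc_unit_pull β (algebraMap A E τ) x' b c hrel hτE0 hc0 V
      (s36tu_loc_mem O 𝔫 V hOV hinv _ hbO) (by rw [hβA]; exact hτV)
      (s36tu_loc_inv_mem O 𝔫 V hOV hinv _ hcO)

/-- **The unit form at a triple point, from the crossing point below.**  Chart `O` of level
`L q²` (noetherian, integrally closed, saturated along `Wa`, `Wb`, `Wc`, radical form `hred` of
the special fibre), `𝔫` a closed point on the three components, `hD` the Dedekind coordinate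
ring of `Wa`; `x'`, `y'` local equations of `V1`, `V2` below with `τ * c = x' * b`.  Then every
`f` with `hord` which is a unit at the three components is a unit of `O_𝔫` times an `m`-th
power. -/
theorem s36tu_main (τ : A) (hτ0 : algebraMap A F τ ≠ 0) (O : Subalgebra A F)
    [IsNoetherianRing ↥O] (hfrac : ∀ x : F, ∃ a ∈ O, ∃ s ∈ O, s ≠ 0 ∧ x * s = a)
    (hic : ∀ x : F, IsIntegral ↥O x → x ∈ O)
    (Wa Wb Wc : ValuationSubring F)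
    (hOWa : ∀ x ∈ O, x ∈ Wa) (hOWb : ∀ x ∈ O, x ∈ Wb) (hOWc : ∀ x ∈ O, x ∈ Wc)
    (hdiv : ∀ x ∈ O, x * (algebraMap A F τ)⁻¹ ∈ Wa → x * (algebraMap A F τ)⁻¹ ∈ Wb →
      x * (algebraMap A F τ)⁻¹ ∈ Wc → x * (algebraMap A F τ)⁻¹ ∈ O)
    (hred : ∀ x ∈ O, x ∈ Wa.nonunits → x ∈ Wb.nonunits → x ∈ Wc.nonunits →
      ∃ (N : ℕ), ∃ y ∈ O, x ^ N = algebraMap A F τ * y)
    (𝔫 : Ideal ↥O) (h𝔫 : 𝔫.IsMaximal)
    (h1a : ∀ x : ↥O, (x : F) ∈ Wa.nonunits → x ∈ 𝔫)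
    (h1b : ∀ x : ↥O, (x : F) ∈ Wb.nonunits → x ∈ 𝔫)
    (h1c : ∀ x : ↥O, (x : F) ∈ Wc.nonunits → x ∈ 𝔫)
    (hτa : algebraMap A F τ ∈ Wa.nonunits) (hτb : algebraMap A F τ ∈ Wb.nonunits)
    (hτc : algebraMap A F τ ∈ Wc.nonunits)
    (hτgen : ∀ y ∈ Wa.nonunits, y * (algebraMap A F τ)⁻¹ ∈ Wa)
    (hD : ∀ 𝔭 : Ideal ↥O, (∀ x : ↥O, x ∈ 𝔭 ↔ (x : F) ∈ Wa.nonunits) →
      IsDedekindDomain (↥O ⧸ 𝔭))
    (α β : E →+* F) (hβA : ∀ a : A, β (algebraMap A E a) = algebraMap A F a)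
    (V1 V2 : ValuationSubring E)
    (hβa : ∀ x : E, β x ∈ Wa ↔ x ∈ V1) (hβb : ∀ x : E, β x ∈ Wb ↔ x ∈ V2)
    (hβc : ∀ x : E, β x ∈ Wc ↔ x ∈ V2)
    (hαb : ∀ x : E, α x ∈ Wb ↔ x ∈ V2) (hαc : ∀ x : E, α x ∈ Wc ↔ x ∈ V1)
    (x' y' b c : E) (hy'0 : y' ≠ 0)
    (hx'1 : x' ∈ V1.nonunits) (hx'2 : x'⁻¹ ∈ V2)
    (hy'2 : y' ∈ V2.nonunits) (hy'1 : y'⁻¹ ∈ V1)
    (hrel : algebraMap A E τ * c = x' * b)
    (hbO : ∃ a s : ↥O, s ∉ 𝔫 ∧ β b * (s : F) = (a : F))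
    (hcO : ∃ a s : ↥O, a ∉ 𝔫 ∧ s ∉ 𝔫 ∧ β c * (s : F) = (a : F))
    (hxO : ∃ a s : ↥O, s ∉ 𝔫 ∧ β x' * (s : F) = (a : F))
    (hyO : ∃ a s : ↥O, s ∉ 𝔫 ∧ α y' * (s : F) = (a : F))
    (m : ℕ) (hm : 0 < m) (f : F) (hf0 : f ≠ 0)
    (hord : ∀ V : ValuationSubring F, (∀ a : A, algebraMap A F a ∈ V) →
        (algebraMap A F τ)⁻¹ ∈ V → IsPrincipalIdealRing V →
        ∃ u : F, u ≠ 0 ∧ f * u ^ m ∈ V ∧ (f * u ^ m)⁻¹ ∈ V)
    (hfa : f ∈ Wa ∧ f⁻¹ ∈ Wa) (hfb : f ∈ Wb ∧ f⁻¹ ∈ Wb) (hfc : f ∈ Wc ∧ f⁻¹ ∈ Wc) :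
    S35Unit m O 𝔫 f := by
  obtain ⟨hξ0, hξb, hξc, hprin⟩ := s36tu_prin τ hτ0 O hfrac hic Wa Wb Wc hOWa hOWb hOWc hred 𝔫
    h𝔫.isPrime h1a hτa hτb hτc hτgen β hβA V1 V2 hβb hβc x' b c hx'2 hrel hbO hcO
  refine s36tn_unit3 τ hτ0 O hfrac 𝔫 h𝔫 Wa Wb Wc hOWa hOWb hOWc hdiv h1a h1b h1c hτa hτb hτc hD
    (β x') hξ0 ((s36tu_nu_of_iff β V1 Wa hβa x').mpr hx'1) hxO hprin hξb hξc
    (α y') ((map_ne_zero α).mpr hy'0) hyO ((s36tu_nu_of_iff α V2 Wb hαb y').mpr hy'2) ?_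
    m hm f hf0 hord hfa hfb hfc
  rw [← map_inv₀]; exact (hαc _).mpr hy'1

end Chart

end Fermat.Agent.S36
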