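import Mathlib
import Fermat.Agent.S36.TriUnitNode
import Fermat.Agent.S36.ChartMap
import Fermat.Agent.S36.NodeRegInst
import Fermat.Agent.S36.Charts3
import Fermat.Agent.S36.CompDed3
import Fermat.Agent.S36.OneInst
import Fermat.Agent.S36.Inst36Abs
import Fermat.Agent.S34.Val2Mem

/-!
# S36, leaf TRI-UNIT-INST: the unit form at the triple points of the two charts of level `M q²`

`s36tu_main` (TRI-UNIT) at the carrier.

* `S36tvMap φ O 𝔫 O''`: the chart `O''` of the lower level maps into `O_𝔫` along `φ`, with a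
  maximal contraction `n''` (the clauses of CHART-MAP, `s36cm_abs`, that are used here);
* `S36tvNode τ V1 V2 x' y' O''`: the data of the two local equations `x'`, `y'` at every
  crossing point of the chart `O''` of the lower level;
* `s36tv_point` (abstract): `S35Unit m O 𝔫 f` at a triple point `𝔫` of a chart `O` of the upper
  level from the chart block, the table, the node data below and the two chart maps;
* `s36tv_node`: the node data at the carrier (level `M q`, unramified base);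
* `s36tv_carrier`: the second conjunct of `S36inPtTri` at every triple point of the two charts
  `chtO A0 {t}`, `chtO A0 {t⁻¹}` of level `M q²`.
-/

set_option autoImplicit false
set_option linter.unusedSectionVars false
set_option linter.unusedVariables false

open AlgebraicCurve ModularCurve Polynomial
open Fermat.Agent.S28 Fermat.Agent.S18 Fermat.Agent.S34 Fermat.Agent.S35 Fermat.Agent.S37

namespace Fermat.Agent.S36

local notation "Qb" => AlgebraicClosure ℚ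

section Abs

variable {A E F : Type*} [CommRing A] [Field E] [Field F] [Algebra A E] [Algebra A F]

/-- The chart `O''` of the lower level maps into the local ring `O_𝔫` along `φ`; the contraction
`n''` of `𝔫 O_𝔫` is a maximal ideal of `O''`, `φ (O''_{n''}) ⊆ O_𝔫`, and a valuation ring `W`
through `𝔫` pulls back to a valuation ring through `n''`. -/
def S36tvMap (φ : E →+* F) (O : Subalgebra A F) (𝔫 : Ideal ↥O) (O'' : Subalgebra A E) : Prop :=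
  ∃ n'' : Ideal ↥O'', n''.IsMaximal ∧
    (∀ x : ↥O'', x ∈ n'' ↔ ∃ a s : ↥O, a ∈ 𝔫 ∧ s ∉ 𝔫 ∧ φ (x : E) * (s : F) = (a : F)) ∧
    (∀ x : E, (∃ a s : ↥O'', s ∉ n'' ∧ x * (s : E) = (a : E)) →
      ∃ a s : ↥O, s ∉ 𝔫 ∧ φ x * (s : F) = (a : F)) ∧
    (∀ W : ValuationSubring F, (∀ x ∈ O, x ∈ W) →
      (∀ x : ↥O, (x : F) ∈ W.nonunits → x ∈ 𝔫) →
      ∀ x : ↥O'', φ (x : E) ∈ W.nonunits → x ∈ n'')

/-- The data of the local equations `x'` (of `V1`) and `y'` (of `V2`) at every crossing point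
of the chart `O''`: valuations of `x'`, `y'`, membership in the local ring, thickness one in the
form `τ * c = x' * b` with `c` a unit at the point. -/
def S36tvNode (τ : A) (V1 V2 : ValuationSubring E) (x' y' : E) (O'' : Subalgebra A E) : Prop :=
  ∀ n'' : Ideal ↥O'', n''.IsMaximal →
    (∀ x : ↥O'', (x : E) ∈ V1.nonunits → x ∈ n'') →
    (∀ x : ↥O'', (x : E) ∈ V2.nonunits → x ∈ n'') →
    y' ≠ 0 ∧ x' ∈ V1.nonunits ∧ x'⁻¹ ∈ V2 ∧ y' ∈ V2.nonunits ∧ y'⁻¹ ∈ V1 ∧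
    (∃ a s : ↥O'', s ∉ n'' ∧ x' * (s : E) = (a : E)) ∧
    (∃ a s : ↥O'', s ∉ n'' ∧ y' * (s : E) = (a : E)) ∧
    ∃ b c : ↥O'', c ∉ n'' ∧ algebraMap A E τ * (c : E) = x' * (b : E)

/-- a chart function off `n''` maps to a unit of `O_𝔫` -/
theorem s36tv_unit (φ : E →+* F) (O : Subalgebra A F) (𝔫 : Ideal ↥O) (O'' : Subalgebra A E)
    (n'' : Ideal ↥O'') (hn'' : n'' ≠ ⊤)
    (hiff : ∀ x : ↥O'', x ∈ n'' ↔
      ∃ a s : ↥O, a ∈ 𝔫 ∧ s ∉ 𝔫 ∧ φ (x : E) * (s : F) = (a : F))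
    (hloc : ∀ x : E, (∃ a s : ↥O'', s ∉ n'' ∧ x * (s : E) = (a : E)) →
      ∃ a s : ↥O, s ∉ 𝔫 ∧ φ x * (s : F) = (a : F))
    (c : ↥O'') (hc : c ∉ n'') :
    ∃ a s : ↥O, a ∉ 𝔫 ∧ s ∉ 𝔫 ∧ φ (c : E) * (s : F) = (a : F) := by
  have h1 : (1 : ↥O'') ∉ n'' := fun h => hn'' ((Ideal.eq_top_iff_one _).mpr h)
  obtain ⟨a, s, hs, h⟩ := hloc (c : E) ⟨c, 1, h1, by simp⟩
  exact ⟨a, s, fun ha => hc ((hiff c).mpr ⟨a, s, ha, hs, h⟩), hs, h⟩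

/-- the radical form of the special fibre from the uniformisers of the three components
(as inside `s36oi_ptone`) -/
theorem s36tv_hred (τ : A) (hτ0 : algebraMap A F τ ≠ 0) (O : Subalgebra A F)
    (Wa Wb Wc : ValuationSubring F)
    (hO : ∀ x ∈ O, x ∈ Wa ∧ x ∈ Wb ∧ x ∈ Wc)
    (hdiv : ∀ x ∈ O, x * (algebraMap A F τ)⁻¹ ∈ Wa → x * (algebraMap A F τ)⁻¹ ∈ Wb →
      x * (algebraMap A F τ)⁻¹ ∈ Wc → x * (algebraMap A F τ)⁻¹ ∈ O)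
    (hgena : ∀ x ∈ Wa.nonunits, x * (algebraMap A F τ)⁻¹ ∈ Wa)
    (hτb : algebraMap A F τ ∈ Wb.nonunits)
    (hdecb : ∀ z : F, z ≠ 0 → ∃ j : ℤ, z * algebraMap A F τ ^ j ∈ Wb ∧
      (z * algebraMap A F τ ^ j)⁻¹ ∈ Wb)
    (π : F) (hπ0 : π ≠ 0) (hπc : π ∈ Wc.nonunits)
    (hdecc : ∀ z : F, z ≠ 0 → ∃ j : ℤ, z * π ^ j ∈ Wc ∧ (z * π ^ j)⁻¹ ∈ Wc)
    (e : ℕ) (he : 0 < e) (hπτ : π ^ e * (algebraMap A F τ)⁻¹ ∈ Wc) :
    ∀ x ∈ O, x ∈ Wa.nonunits → x ∈ Wb.nonunits → x ∈ Wc.nonunits →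
      ∃ (N : ℕ), ∃ y ∈ O, x ^ N = algebraMap A F τ * y := by
  have hτWb : algebraMap A F τ ∈ Wb := ValuationSubring.nonunits_subset hτb
  have hπWc : π ∈ Wc := ValuationSubring.nonunits_subset hπc
  have hgenb := s36oi_gen_of_dec Wb _ hτWb hτ0 hdecb
  have hgenc := s36oi_gen_of_dec Wc π hπWc hπ0 hdecc
  have hE : ∀ x ∈ Wc.nonunits, x ^ e * (algebraMap A F τ)⁻¹ ∈ Wc := by
    intro x hx
    have e1 : x ^ e * (algebraMap A F τ)⁻¹ = (x * π⁻¹) ^ e * (π ^ e * (algebraMap A F τ)⁻¹) := by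
      rw [mul_pow, inv_pow]
      field_simp
    rw [e1]
    exact Wc.mul_mem _ _ (Wc.pow_mem (hgenc x hx) e) hπτ
  exact s36wc_hred3 τ O Wa Wb Wc (fun y hy => (hO y hy).1) (fun y hy => (hO y hy).2.1)
    hgena hgenb e he hE hτ0 hdiv

/-- **The unit form at a triple point, from the node data below and the two chart maps.**
`𝔫` a closed point of the chart `O` on the three components; `Oα`, `Oβ` charts of the lower level
mapping into `O_𝔫` along `α`, `β` (`S36tvMap`), with the node data of `x'`, `y'` at their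
crossing points (`S36tvNode`).  Then every `f` with `hord` which is a unit at `Wa`, `Wb`, `Wc`
is a unit of `O_𝔫` times an `m`-th power. -/
theorem s36tv_point (τ : A) (hτ0 : algebraMap A F τ ≠ 0) (O : Subalgebra A F)
    [IsNoetherianRing ↥O] (hfrac : ∀ x : F, ∃ a ∈ O, ∃ s ∈ O, s ≠ 0 ∧ x * s = a)
    (hic : ∀ x : F, IsIntegral ↥O x → x ∈ O)
    (Wa Wb Wc : ValuationSubring F)
    (hOWa : ∀ x ∈ O, x ∈ Wa) (hOWb : ∀ x ∈ O, x ∈ Wb) (hOWc : ∀ x ∈ O, x ∈ Wc)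
    (hdiv : ∀ x ∈ O, x * (algebraMap A F τ)⁻¹ ∈ Wa → x * (algebraMap A F τ)⁻¹ ∈ Wb →
      x * (algebraMap A F τ)⁻¹ ∈ Wc → x * (algebraMap A F τ)⁻¹ ∈ O)
    (hred : ∀ x ∈ O, x ∈ Wa.nonunits → x ∈ Wb.nonunits → x ∈ Wc.nonunits →
      ∃ (N : ℕ), ∃ y ∈ O, x ^ N = algebraMap A F τ * y)
    (𝔫 : Ideal ↥O) (h𝔫 : 𝔫.IsMaximal)
    (h1a : ∀ x : ↥O, (x : F) ∈ Wa.nonunits → x ∈ 𝔫)
    (h1b : ∀ x : ↥O, (x : F) ∈ Wb.nonunits → x ∈ 𝔫)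
    (h1c : ∀ x : ↥O, (x : F) ∈ Wc.nonunits → x ∈ 𝔫)
    (hτa : algebraMap A F τ ∈ Wa.nonunits) (hτb : algebraMap A F τ ∈ Wb.nonunits)
    (hτc : algebraMap A F τ ∈ Wc.nonunits)
    (hτgen : ∀ y ∈ Wa.nonunits, y * (algebraMap A F τ)⁻¹ ∈ Wa)
    (hD : ∀ 𝔭 : Ideal ↥O, (∀ x : ↥O, x ∈ 𝔭 ↔ (x : F) ∈ Wa.nonunits) →
      IsDedekindDomain (↥O ⧸ 𝔭))
    (α β : E →+* F) (hβA : ∀ a : A, β (algebraMap A E a) = algebraMap A F a)
    (V1 V2 : ValuationSubring E)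
    (hβa : ∀ x : E, β x ∈ Wa ↔ x ∈ V1) (hβb : ∀ x : E, β x ∈ Wb ↔ x ∈ V2)
    (hβc : ∀ x : E, β x ∈ Wc ↔ x ∈ V2)
    (hαb : ∀ x : E, α x ∈ Wb ↔ x ∈ V2) (hαc : ∀ x : E, α x ∈ Wc ↔ x ∈ V1)
    (x' y' : E) (Oα Oβ : Subalgebra A E)
    (hNα : S36tvNode τ V1 V2 x' y' Oα) (hNβ : S36tvNode τ V1 V2 x' y' Oβ)
    (hα : S36tvMap α O 𝔫 Oα) (hβ : S36tvMap β O 𝔫 Oβ)
    (m : ℕ) (hm : 0 < m) (f : F) (hf0 : f ≠ 0)
    (hord : ∀ V : ValuationSubring F, (∀ a : A, algebraMap A F a ∈ V) →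
        (algebraMap A F τ)⁻¹ ∈ V → IsPrincipalIdealRing V →
        ∃ u : F, u ≠ 0 ∧ f * u ^ m ∈ V ∧ (f * u ^ m)⁻¹ ∈ V)
    (hfa : f ∈ Wa ∧ f⁻¹ ∈ Wa) (hfb : f ∈ Wb ∧ f⁻¹ ∈ Wb) (hfc : f ∈ Wc ∧ f⁻¹ ∈ Wc) :
    S35Unit m O 𝔫 f := by
  obtain ⟨nα, hnα, hiffα, hlocα, hthrα⟩ := hα
  obtain ⟨nβ, hnβ, hiffβ, hlocβ, hthrβ⟩ := hβ
  -- the crossing point below along `α`: `V2 = α⁻¹ Wb`, `V1 = α⁻¹ Wc`
  obtain ⟨hy0, hx1, hx2, hy2, hy1, -, hyα, -⟩ := hNα nα hnα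
    (fun x hx => hthrα Wc hOWc h1c x ((s36tu_nu_of_iff α V1 Wc hαc _).mpr hx))
    (fun x hx => hthrα Wb hOWb h1b x ((s36tu_nu_of_iff α V2 Wb hαb _).mpr hx))
  -- the crossing point below along `β`: `V1 = β⁻¹ Wa`, `V2 = β⁻¹ Wb`
  obtain ⟨-, -, -, -, -, hxβ, -, b, c, hc, hrel⟩ := hNβ nβ hnβ
    (fun x hx => hthrβ Wa hOWa h1a x ((s36tu_nu_of_iff β V1 Wa hβa _).mpr hx))
    (fun x hx => hthrβ Wb hOWb h1b x ((s36tu_nu_of_iff β V2 Wb hβb _).mpr hx))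
  have h1β : (1 : ↥Oβ) ∉ nβ := fun h => hnβ.ne_top ((Ideal.eq_top_iff_one _).mpr h)
  exact s36tu_main τ hτ0 O hfrac hic Wa Wb Wc hOWa hOWb hOWc hdiv hred 𝔫 h𝔫 h1a h1b h1c
    hτa hτb hτc hτgen hD α β hβA V1 V2 hβa hβb hβc hαb hαc x' y' (b : E) (c : E) hy0 hx1 hx2
    hy2 hy1 hrel (hlocβ (b : E) ⟨b, 1, h1β, by simp⟩)
    (s36tv_unit β O 𝔫 Oβ nβ hnβ.ne_top hiffβ hlocβ c hc)
    (hlocβ x' hxβ) (hlocα y' hyα) m hm f hf0 hord hfa hfb hfc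

/-- `s36tv_point` with the chart below along `β` one of two charts. -/
theorem s36tv_point2 (τ : A) (hτ0 : algebraMap A F τ ≠ 0) (O : Subalgebra A F)
    [IsNoetherianRing ↥O] (hfrac : ∀ x : F, ∃ a ∈ O, ∃ s ∈ O, s ≠ 0 ∧ x * s = a)
    (hic : ∀ x : F, IsIntegral ↥O x → x ∈ O)
    (Wa Wb Wc : ValuationSubring F)
    (hO : ∀ x ∈ O, x ∈ Wa ∧ x ∈ Wb ∧ x ∈ Wc)
    (hdiv : ∀ x ∈ O, x * (algebraMap A F τ)⁻¹ ∈ Wa → x * (algebraMap A F τ)⁻¹ ∈ Wb →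
      x * (algebraMap A F τ)⁻¹ ∈ Wc → x * (algebraMap A F τ)⁻¹ ∈ O)
    (hred : ∀ x ∈ O, x ∈ Wa.nonunits → x ∈ Wb.nonunits → x ∈ Wc.nonunits →
      ∃ (N : ℕ), ∃ y ∈ O, x ^ N = algebraMap A F τ * y)
    (hτa : algebraMap A F τ ∈ Wa.nonunits) (hτb : algebraMap A F τ ∈ Wb.nonunits)
    (hτc : algebraMap A F τ ∈ Wc.nonunits)
    (hτgen : ∀ y ∈ Wa.nonunits, y * (algebraMap A F τ)⁻¹ ∈ Wa)
    (hD : ∀ 𝔭 : Ideal ↥O, (∀ x : ↥O, x ∈ 𝔭 ↔ (x : F) ∈ Wa.nonunits) →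
      IsDedekindDomain (↥O ⧸ 𝔭))
    (α β : E →+* F) (hβA : ∀ a : A, β (algebraMap A E a) = algebraMap A F a)
    (V1 V2 : ValuationSubring E)
    (hβa : ∀ x : E, β x ∈ Wa ↔ x ∈ V1) (hβb : ∀ x : E, β x ∈ Wb ↔ x ∈ V2)
    (hβc : ∀ x : E, β x ∈ Wc ↔ x ∈ V2)
    (hαb : ∀ x : E, α x ∈ Wb ↔ x ∈ V2) (hαc : ∀ x : E, α x ∈ Wc ↔ x ∈ V1)
    (x' y' : E) (Oα Oβ0 Oβ1 : Subalgebra A E)
    (hNα : S36tvNode τ V1 V2 x' y' Oα) (hNβ0 : S36tvNode τ V1 V2 x' y' Oβ0)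
    (hNβ1 : S36tvNode τ V1 V2 x' y' Oβ1)
    (m : ℕ) (hm : 0 < m)
    (𝔫 : Ideal ↥O) (h𝔫 : 𝔫.IsMaximal)
    (hα : S36tvMap α O 𝔫 Oα) (hβ : S36tvMap β O 𝔫 Oβ0 ∨ S36tvMap β O 𝔫 Oβ1)
    (h1a : ∀ x : ↥O, (x : F) ∈ Wa.nonunits → x ∈ 𝔫)
    (h1b : ∀ x : ↥O, (x : F) ∈ Wb.nonunits → x ∈ 𝔫)
    (h1c : ∀ x : ↥O, (x : F) ∈ Wc.nonunits → x ∈ 𝔫)
    (f : F) (hf0 : f ≠ 0)
    (hord : ∀ V : ValuationSubring F, (∀ a : A, algebraMap A F a ∈ V) →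
        (algebraMap A F τ)⁻¹ ∈ V → IsPrincipalIdealRing V →
        ∃ u : F, u ≠ 0 ∧ f * u ^ m ∈ V ∧ (f * u ^ m)⁻¹ ∈ V)
    (hfa : f ∈ Wa) (hfa' : f⁻¹ ∈ Wa) (hfb : f ∈ Wb) (hfb' : f⁻¹ ∈ Wb) (hfc : f ∈ Wc)
    (hfc' : f⁻¹ ∈ Wc) :
    S35Unit m O 𝔫 f := by
  rcases hβ with hβ | hβ
  · exact s36tv_point τ hτ0 O hfrac hic Wa Wb Wc (fun x hx => (hO x hx).1)
      (fun x hx => (hO x hx).2.1) (fun x hx => (hO x hx).2.2) hdiv hred 𝔫 h𝔫 h1a h1b h1c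
      hτa hτb hτc hτgen hD α β hβA V1 V2 hβa hβb hβc hαb hαc x' y' Oα Oβ0 hNα hNβ0 hα hβ
      m hm f hf0 hord ⟨hfa, hfa'⟩ ⟨hfb, hfb'⟩ ⟨hfc, hfc'⟩
  · exact s36tv_point τ hτ0 O hfrac hic Wa Wb Wc (fun x hx => (hO x hx).1)
      (fun x hx => (hO x hx).2.1) (fun x hx => (hO x hx).2.2) hdiv hred 𝔫 h𝔫 h1a h1b h1c
      hτa hτb hτc hτgen hD α β hβA V1 V2 hβa hβb hβc hαb hαc x' y' Oα Oβ1 hNα hNβ1 hα hβ
      m hm f hf0 hord ⟨hfa, hfa'⟩ ⟨hfb, hfb'⟩ ⟨hfc, hfc'⟩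

end Abs

section Carrier

variable {K0 : Type*} [Field K0] [Algebra ℚ K0] [Algebra K0 Qb] (A0 : ValuationSubring K0)
  [IsDiscreteValuationRing ↥A0]
  (M q : ℕ) [NeZero M] [hq : Fact q.Prime] (hM : ¬ q ∣ M)
  {a2 : ℕ} (H : HauptRec a2 q) (ha2 : a2 ∣ M)

/-- **The node data at the carrier** (level `M q`, unramified base `q = τ * ε`): at every
crossing point of the chart `chtO A0 {t'}`, for the local equations `x' = h ^ q - θ` of `V₁` and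
`y' = h - θ ^ q` of `V₂`. -/
theorem s36tv_node
    [Algebra A0 ↥(laurentBaseChange K0 (modularFunctionFieldFull (M * q)))]
    [IsScalarTower A0 K0 ↥(laurentBaseChange K0 (modularFunctionFieldFull (M * q)))]
    (hA0 : A0.LiesOverPrime q) (c0 c1 : A0)
    (hc : IsLocalRing.residue ↥A0 c0 ≠ IsLocalRing.residue ↥A0 c1)
    (hQ0 : smi2U A0 (aeval (c0 : K0) H.Qrad))
    (hSM0 : cinstSMChart K0 A0 M H (c0 : K0) (c1 : K0))
    (hSM1 : cinstSMChart K0 A0 M H (c1 : K0) (c0 : K0))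
    (hu0 : unrChart K0 A0 M H c0 c1) (hu1 : unrChart K0 A0 M H c1 c0)
    (t' : ↥(laurentBaseChange K0 (modularFunctionFieldFull (M * q))))
    (ht' : (t' : LaurentSeries K0) = cinstU H K0 (c0 : K0) (c1 : K0))
    (τ : A0) (hτ : Irreducible τ) (ε : A0) (hε : IsUnit ε) (hqτ : ((q : ℕ) : ↥A0) = τ * ε) :
    S36tvNode τ (va2V1 M q K0 A0) (va2V2 M q hM K0 A0)
      (heckeAlphaBar K0 M q (nunH K0 M H ha2) ^ q - heckeBetaBar K0 M q (nunH K0 M H ha2))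
      (heckeAlphaBar K0 M q (nunH K0 M H ha2) - heckeBetaBar K0 M q (nunH K0 M H ha2) ^ q)
      (chtO A0 {t'}) := by
  intro n'' hn'' hc₁ hc₂
  have hp : n''.IsPrime := hn''.isPrime
  obtain ⟨hx0, hy0, -, -⟩ := s36ni_prin M q hM K0 A0 H ha2 hA0 c0 c1 hc hQ0 hSM0 hSM1 hu0 hu1
    t' ht' τ hτ ε hε hqτ n'' hn'' hc₁ hc₂
  obtain ⟨a, s, ha, hs, hψ⟩ := s36ni_psi M q hM K0 A0 H ha2 hA0 c0 c1 hc hQ0 hSM0 hSM1 hu0 hu1
    t' ht' τ hτ ε hε hqτ n'' hn'' hc₁ hc₂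
  obtain ⟨hrelx, -⟩ := s36ni_tau M q hM K0 A0 H ha2 hA0 c0 c1 hc hQ0 hSM0 hSM1 hu0 hu1
    t' ht' τ hτ ε hε hqτ n'' hn'' hc₁ hc₂
  obtain ⟨ax, sx, -, hsx, hx⟩ := s35nd_x M q hM K0 A0 H ha2 hA0 c0 c1 hc t' ht' n'' hc₁ hc₂
  obtain ⟨ay, sy, -, hsy, hy⟩ := s35nd_y M q hM K0 A0 H ha2 hA0 c0 c1 hc t' ht' n'' hc₁ hc₂
  have hk1 := cnd_hk1 M q hM K0 A0 H ha2 hA0
  have hk2 := cnd_hk2 M q hM K0 A0 H ha2 hA0
  obtain ⟨hOV, hτV1, -⟩ := ndi_hVtau M q hM K0 A0 H ha2 hA0 c0 c1 hc t' ht' τ hτ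
  obtain ⟨-, hτV2, hgen2⟩ := s34im_V2_basic M q hM K0 A0 τ hτ
  have hgen1 : ∀ x ∈ (va2V1 M q K0 A0).nonunits,
      x * (algebraMap A0 ↥(laurentBaseChange K0 (modularFunctionFieldFull (M * q))) τ)⁻¹ ∈
        va2V1 M q K0 A0 :=
    (c2i_hyps A0 (M * q) H (va2V1 M q K0 A0) (fun _ => Iff.rfl) c0 c1 hc t' ht' τ hτ).2.2.1
  have hτ0 : algebraMap A0 ↥(laurentBaseChange K0 (modularFunctionFieldFull (M * q))) τ ≠ 0 := by
    rw [IsScalarTower.algebraMap_apply A0 K0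
      ↥(laurentBaseChange K0 (modularFunctionFieldFull (M * q))), Ne, map_eq_zero,
      map_eq_zero_iff _ (IsFractionRing.injective A0 K0)]
    exact hτ.ne_zero
  have ha0 : (a : ↥(laurentBaseChange K0 (modularFunctionFieldFull (M * q)))) ≠ 0 :=
    s35u_coe_ne_zero (chtO A0 {t'}) n'' ha
  -- `a`, `s` are units of `V₁` and of `V₂`
  have haV1 : (a : ↥(laurentBaseChange K0 (modularFunctionFieldFull (M * q))))⁻¹ ∈
      va2V1 M q K0 A0 := s35pt_inv_mem (va2V1 M q K0 A0) (fun h => ha (hc₁ a h))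
  have haV2 : (a : ↥(laurentBaseChange K0 (modularFunctionFieldFull (M * q))))⁻¹ ∈
      va2V2 M q hM K0 A0 := s35pt_inv_mem (va2V2 M q hM K0 A0) (fun h => ha (hc₂ a h))
  have hsV1 := (hOV _ s.2).1
  have hsV2 := (hOV _ s.2).2
  refine ⟨hy0, hk1, ?_, hk2, ?_, ⟨ax, sx, hsx, hx⟩, ⟨ay, sy, hsy, hy⟩, hrelx⟩
  · -- `x'⁻¹ = (y' / τ) * s * a⁻¹ ∈ V₂`
    have e : (heckeAlphaBar K0 M q (nunH K0 M H ha2) ^ q -
        heckeBetaBar K0 M q (nunH K0 M H ha2))⁻¹ =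
        ((heckeAlphaBar K0 M q (nunH K0 M H ha2) - heckeBetaBar K0 M q (nunH K0 M H ha2) ^ q) *
          (algebraMap A0 ↥(laurentBaseChange K0 (modularFunctionFieldFull (M * q))) τ)⁻¹) *
          ((s : ↥(laurentBaseChange K0 (modularFunctionFieldFull (M * q)))) *
            (a : ↥(laurentBaseChange K0 (modularFunctionFieldFull (M * q))))⁻¹) := by
      apply inv_eq_of_mul_eq_one_right
      field_simp
      linear_combination hψ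
    rw [e]
    exact (va2V2 M q hM K0 A0).mul_mem _ _ (hgen2 _ hk2)
      ((va2V2 M q hM K0 A0).mul_mem _ _ hsV2 haV2)
  · -- `y'⁻¹ = (x' / τ) * s * a⁻¹ ∈ V₁`
    have e : (heckeAlphaBar K0 M q (nunH K0 M H ha2) -
        heckeBetaBar K0 M q (nunH K0 M H ha2) ^ q)⁻¹ =
        ((heckeAlphaBar K0 M q (nunH K0 M H ha2) ^ q - heckeBetaBar K0 M q (nunH K0 M H ha2)) *
          (algebraMap A0 ↥(laurentBaseChange K0 (modularFunctionFieldFull (M * q))) τ)⁻¹) *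
          ((s : ↥(laurentBaseChange K0 (modularFunctionFieldFull (M * q)))) *
            (a : ↥(laurentBaseChange K0 (modularFunctionFieldFull (M * q))))⁻¹) := by
      apply inv_eq_of_mul_eq_one_right
      field_simp
      linear_combination hψ
    rw [e]
    exact (va2V1 M q K0 A0).mul_mem _ _ (hgen1 _ hk1)
      ((va2V1 M q K0 A0).mul_mem _ _ hsV1 haV1)

omit [Algebra K0 Qb] in
/-- the conclusion of CHART-MAP along `β₁` in the form `S36tvMap` -/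
theorem s36tv_map_of_be
    [Algebra A0 ↥(laurentBaseChange K0 (modularFunctionFieldFull (M * q)))]
    [Algebra A0 ↥(laurentBaseChange K0 (modularFunctionFieldFull (M * q * q)))]
    (τ : A0) (O : Subalgebra A0 ↥(laurentBaseChange K0 (modularFunctionFieldFull (M * q * q))))
    (𝔫 : Ideal ↥O)
    (O'' : Subalgebra A0 ↥(laurentBaseChange K0 (modularFunctionFieldFull (M * q))))
    (h : S36cmBe A0 M q τ O 𝔫 O'') :
    S36tvMap (heckeBetaBar K0 (M * q) q).toRingHom O 𝔫 O'' := by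
  obtain ⟨n'', hmax, -, hiff, hloc, -, hthr⟩ := h
  exact ⟨n'', hmax, hiff, hloc, hthr⟩

include ha2 in
/-- **TRI-UNIT-INST.**  At every triple point of the two Hauptmodul charts `chtO A0 {t}`,
`chtO A0 {t⁻¹}` of level `M q ^ 2` (`W_a = va2V1 (M * q) q K0 A0` the Gauss valuation ring,
`W_b`, `W_c` ANY two valuation subrings with the binders of `s36c3_chart` / `s36oi_carrier` and
the `be`-rows of the table), over an unramified base `q = τ * ε`: every `f` with the order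
condition which is a unit at the three components is a unit of the local ring times an `m`-th
power.  This is the second conjunct of `S36inPtTri`. -/
theorem s36tv_carrier
    [Algebra A0 ↥(laurentBaseChange K0 (modularFunctionFieldFull (M * q)))]
    [IsScalarTower A0 K0 ↥(laurentBaseChange K0 (modularFunctionFieldFull (M * q)))]
    [Algebra A0 ↥(laurentBaseChange K0 (modularFunctionFieldFull (M * q * q)))]
    [IsScalarTower A0 K0 ↥(laurentBaseChange K0 (modularFunctionFieldFull (M * q * q)))]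
    (hA0 : A0.LiesOverPrime q)
    (Wb Wc : ValuationSubring ↥(laurentBaseChange K0 (modularFunctionFieldFull (M * q * q))))
    (halb : ∀ x, heckeAlphaBar K0 (M * q) q x ∈ Wb ↔ x ∈ va2V2 M q hM K0 A0)
    (halc : ∀ x, heckeAlphaBar K0 (M * q) q x ∈ Wc ↔ x ∈ va2V1 M q K0 A0)
    (hexh1 : ∀ W : ValuationSubring ↥(laurentBaseChange K0 (modularFunctionFieldFull (M * q * q))),
      (∀ x, heckeAlphaBar K0 (M * q) q x ∈ W ↔ x ∈ va2V1 M q K0 A0) →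
      W = va2V1 (M * q) q K0 A0 ∨ W = Wc)
    (hexh2 : ∀ W : ValuationSubring ↥(laurentBaseChange K0 (modularFunctionFieldFull (M * q * q))),
      (∀ x, heckeAlphaBar K0 (M * q) q x ∈ W ↔ x ∈ va2V2 M q hM K0 A0) → W = Wb)
    (hbeb : ∀ x, heckeBetaBar K0 (M * q) q x ∈ Wb ↔ x ∈ va2V2 M q hM K0 A0)
    (hbec : ∀ x, heckeBetaBar K0 (M * q) q x ∈ Wc ↔ x ∈ va2V2 M q hM K0 A0)
    (c0 c1 : A0) (hc : IsLocalRing.residue A0 c0 ≠ IsLocalRing.residue A0 c1)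
    (hQ0 : smi2U A0 (aeval (c0 : K0) H.Qrad)) (hQ1 : smi2U A0 (aeval (c1 : K0) H.Qrad))
    (hSM : cinstSMChart K0 A0 M H (c0 : K0) (c1 : K0))
    (hSM' : cinstSMChart K0 A0 M H (c1 : K0) (c0 : K0))
    (hu0 : unrChart K0 A0 M H c0 c1) (hu1 : unrChart K0 A0 M H c1 c0)
    (t' : ↥(laurentBaseChange K0 (modularFunctionFieldFull (M * q))))
    (ht' : (t' : LaurentSeries K0) = cinstU H K0 (c0 : K0) (c1 : K0))
    (t : ↥(laurentBaseChange K0 (modularFunctionFieldFull (M * q * q))))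
    (ht : (t : LaurentSeries K0) = cinstU H K0 (c0 : K0) (c1 : K0))
    (τ : A0) (hτ : Irreducible τ) (ε : A0) (hε : IsUnit ε) (hqτ : ((q : ℕ) : ↥A0) = τ * ε)
    (hτb : algebraMap A0 ↥(laurentBaseChange K0 (modularFunctionFieldFull (M * q * q))) τ ∈
      Wb.nonunits)
    (hdecb : ∀ z : ↥(laurentBaseChange K0 (modularFunctionFieldFull (M * q * q))), z ≠ 0 →
      ∃ j : ℤ,
        z * algebraMap A0 ↥(laurentBaseChange K0 (modularFunctionFieldFull (M * q * q))) τ ^ j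
          ∈ Wb ∧
        (z * algebraMap A0 ↥(laurentBaseChange K0 (modularFunctionFieldFull (M * q * q))) τ ^ j)⁻¹
          ∈ Wb)
    (π : ↥(laurentBaseChange K0 (modularFunctionFieldFull (M * q * q)))) (hπ0 : π ≠ 0)
    (hπc : π ∈ Wc.nonunits)
    (hdecc : ∀ z : ↥(laurentBaseChange K0 (modularFunctionFieldFull (M * q * q))), z ≠ 0 →
      ∃ j : ℤ, z * π ^ j ∈ Wc ∧ (z * π ^ j)⁻¹ ∈ Wc)
    (e : ℕ) (he : 0 < e)
    (hπτ : π ^ e *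
      (algebraMap A0 ↥(laurentBaseChange K0 (modularFunctionFieldFull (M * q * q))) τ)⁻¹ ∈ Wc)
    (m : ℕ) (hm : 0 < m) :
    (∀ 𝔫 : Ideal ↥(chtO A0 {t}), ∀ h𝔫 : 𝔫.IsMaximal, algebraMap A0 ↥(chtO A0 {t}) τ ∈ 𝔫 →
      (∀ x : ↥(chtO A0 {t}),
        (x : ↥(laurentBaseChange K0 (modularFunctionFieldFull (M * q * q)))) ∈
          (va2V1 (M * q) q K0 A0).nonunits → x ∈ 𝔫) →
      (∀ x : ↥(chtO A0 {t}),
        (x : ↥(laurentBaseChange K0 (modularFunctionFieldFull (M * q * q)))) ∈ Wb.nonunits →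
          x ∈ 𝔫) →
      (∀ x : ↥(chtO A0 {t}),
        (x : ↥(laurentBaseChange K0 (modularFunctionFieldFull (M * q * q)))) ∈ Wc.nonunits →
          x ∈ 𝔫) →
      ∀ f : ↥(laurentBaseChange K0 (modularFunctionFieldFull (M * q * q))), f ≠ 0 →
        S36inOrd τ m f → f ∈ va2V1 (M * q) q K0 A0 → f⁻¹ ∈ va2V1 (M * q) q K0 A0 →
        f ∈ Wb → f⁻¹ ∈ Wb → f ∈ Wc → f⁻¹ ∈ Wc → S35Unit m (chtO A0 {t}) 𝔫 f) ∧
    (∀ 𝔫 : Ideal ↥(chtO A0 {t⁻¹}), ∀ h𝔫 : 𝔫.IsMaximal, algebraMap A0 ↥(chtO A0 {t⁻¹}) τ ∈ 𝔫 →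
      (∀ x : ↥(chtO A0 {t⁻¹}),
        (x : ↥(laurentBaseChange K0 (modularFunctionFieldFull (M * q * q)))) ∈
          (va2V1 (M * q) q K0 A0).nonunits → x ∈ 𝔫) →
      (∀ x : ↥(chtO A0 {t⁻¹}),
        (x : ↥(laurentBaseChange K0 (modularFunctionFieldFull (M * q * q)))) ∈ Wb.nonunits →
          x ∈ 𝔫) →
      (∀ x : ↥(chtO A0 {t⁻¹}),
        (x : ↥(laurentBaseChange K0 (modularFunctionFieldFull (M * q * q)))) ∈ Wc.nonunits →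
          x ∈ 𝔫) →
      ∀ f : ↥(laurentBaseChange K0 (modularFunctionFieldFull (M * q * q))), f ≠ 0 →
        S36inOrd τ m f → f ∈ va2V1 (M * q) q K0 A0 → f⁻¹ ∈ va2V1 (M * q) q K0 A0 →
        f ∈ Wb → f⁻¹ ∈ Wb → f ∈ Wc → f⁻¹ ∈ Wc → S35Unit m (chtO A0 {t⁻¹}) 𝔫 f) := by
  obtain ⟨⟨hAa, hAb, hAc, hτa, hgena, htt, hex⟩, h1, h2, h3, ⟨b0, hb0, hspan0⟩,
    ⟨b1, hb1, hspan1⟩, h01, h10, hfrac0, hfrac1, hroot0, hroot1, hcap, hV0, hV1, hdiv0, hdiv1,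
    hNoe0, hNoe1, hic0, hic1⟩ := s36c3_chart A0 M q hM H ha2 hA0 Wb Wc halb halc hexh1 hexh2
      c0 c1 hc t ht τ hτ m hm
  have hτ0 : algebraMap A0 ↥(laurentBaseChange K0 (modularFunctionFieldFull (M * q * q))) τ ≠ 0 := by
    rw [IsScalarTower.algebraMap_apply A0 K0
      ↥(laurentBaseChange K0 (modularFunctionFieldFull (M * q * q)))]
    refine (_root_.map_ne_zero _).mpr ?_
    intro h0
    exact hτ.ne_zero (Subtype.ext h0)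
  have ht'inv : ((t'⁻¹ : ↥(laurentBaseChange K0 (modularFunctionFieldFull (M * q)))) :
      LaurentSeries K0) = cinstU H K0 (c1 : K0) (c0 : K0) := by
    rw [IntermediateField.coe_inv, ht', cinstU_inv]
  have htinv : ((t⁻¹ : ↥(laurentBaseChange K0 (modularFunctionFieldFull (M * q * q)))) :
      LaurentSeries K0) = cinstU H K0 (c1 : K0) (c0 : K0) := by
    rw [IntermediateField.coe_inv, ht, cinstU_inv]
  have hN0 := s36tv_node A0 M q hM H ha2 hA0 c0 c1 hc hQ0 hSM hSM' hu0 hu1 t' ht' τ hτ ε hε hqτ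
  have hN1 := s36tv_node A0 M q hM H ha2 hA0 c1 c0 hc.symm hQ1 hSM' hSM hu1 hu0 t'⁻¹ ht'inv τ hτ
    ε hε hqτ
  obtain ⟨hbe0, hbe1⟩ := s36cm_be_both A0 M q hM H ha2 hA0 c0 c1 hc hQ0 hQ1 t' ht' t ht τ hτ
  obtain ⟨-, hτV1, -⟩ := ndi_hVtau M q hM K0 A0 H ha2 hA0 c0 c1 hc t' ht' τ hτ
  have hτc : algebraMap A0 ↥(laurentBaseChange K0 (modularFunctionFieldFull (M * q * q))) τ ∈
      Wc.nonunits := by
    rw [← s36cm_const A0 M q (heckeAlphaBar K0 (M * q) q) τ]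
    exact (s36tu_nu_of_iff (heckeAlphaBar K0 (M * q) q).toRingHom (va2V1 M q K0 A0) Wc halc
      _).mpr hτV1
  have hred0 := s36tv_hred τ hτ0 (chtO A0 {t}) (va2V1 (M * q) q K0 A0) Wb Wc hV0 hdiv0 hgena
    hτb hdecb π hπ0 hπc hdecc e he hπτ
  have hred1 := s36tv_hred τ hτ0 (chtO A0 {t⁻¹}) (va2V1 (M * q) q K0 A0) Wb Wc hV1 hdiv1 hgena
    hτb hdecb π hπ0 hπc hdecc e he hπτ
  have hbea : ∀ x, heckeBetaBar K0 (M * q) q x ∈ va2V1 (M * q) q K0 A0 ↔ x ∈ va2V1 M q K0 A0 :=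
    fun x => va2m_beta_mem1_iff (M * q) q K0 A0 (va2V1 M q K0 A0)
      (fun y => mem_va2V1 M q K0 A0 y) x
  refine ⟨?_, ?_⟩
  · intro 𝔫 h𝔫 hτ𝔫 h1a h1b h1c f hf0 hord hfa hfa' hfb hfb' hfc hfc'
    obtain ⟨-, n', hmax, -, -, hiff, hloc, -, hthr⟩ := s36cm_al A0 M q H (c0 : K0) (c1 : K0)
      t' ht' t ht τ hτ 𝔫 h𝔫 hτ𝔫
    exact s36tv_point2 τ hτ0 (chtO A0 {t}) hfrac0 hic0 (va2V1 (M * q) q K0 A0) Wb Wc hV0 hdiv0
      hred0 hτa hτb hτc hgena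
      (fun 𝔭 h𝔭 => s36cd_Wa_hD M q hM K0 A0 H ha2 hA0 c0 c1 hc hSM t ht τ hτ 𝔭 h𝔭)
      (heckeAlphaBar K0 (M * q) q).toRingHom (heckeBetaBar K0 (M * q) q).toRingHom
      (s36cm_const A0 M q (heckeBetaBar K0 (M * q) q))
      (va2V1 M q K0 A0) (va2V2 M q hM K0 A0) hbea hbeb hbec halb halc _ _
      (chtO A0 {t'}) (chtO A0 {t'}) (chtO A0 {t'⁻¹}) hN0 hN0 hN1 m hm 𝔫 h𝔫
      ⟨n', hmax, hiff, hloc, hthr⟩
      ((hbe0 𝔫 h𝔫 hτ𝔫).imp (s36tv_map_of_be A0 M q τ _ 𝔫 _) (s36tv_map_of_be A0 M q τ _ 𝔫 _))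
      h1a h1b h1c f hf0 hord hfa hfa' hfb hfb' hfc hfc'
  · intro 𝔫 h𝔫 hτ𝔫 h1a h1b h1c f hf0 hord hfa hfa' hfb hfb' hfc hfc'
    obtain ⟨-, n', hmax, -, -, hiff, hloc, -, hthr⟩ := s36cm_al A0 M q H (c1 : K0) (c0 : K0)
      t'⁻¹ ht'inv t⁻¹ htinv τ hτ 𝔫 h𝔫 hτ𝔫
    exact s36tv_point2 τ hτ0 (chtO A0 {t⁻¹}) hfrac1 hic1 (va2V1 (M * q) q K0 A0) Wb Wc hV1
      hdiv1 hred1 hτa hτb hτc hgena
      (fun 𝔭 h𝔭 => s36cd_Wa_hD_inv M q hM K0 A0 H ha2 hA0 c0 c1 hc hSM' t ht τ hτ 𝔭 h𝔭)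
      (heckeAlphaBar K0 (M * q) q).toRingHom (heckeBetaBar K0 (M * q) q).toRingHom
      (s36cm_const A0 M q (heckeBetaBar K0 (M * q) q))
      (va2V1 M q K0 A0) (va2V2 M q hM K0 A0) hbea hbeb hbec halb halc _ _
      (chtO A0 {t'⁻¹}) (chtO A0 {t'}) (chtO A0 {t'⁻¹}) hN1 hN0 hN1 m hm 𝔫 h𝔫
      ⟨n', hmax, hiff, hloc, hthr⟩
      ((hbe1 𝔫 h𝔫 hτ𝔫).imp (s36tv_map_of_be A0 M q τ _ 𝔫 _) (s36tv_map_of_be A0 M q τ _ 𝔫 _))
      h1a h1b h1c f hf0 hord hfa hfa' hfb hfb' hfc hfc'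

end Carrier

end Fermat.Agent.S36
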