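import Mathlib
import Fermat.Agent.S36.Comp3Car
import Fermat.Agent.S36.TriUnitInst

/-!
# S36, leaf TRI-UNIT-INST, closed form: the unit clause of the triple points for COMP3

`s36tv_comp3`: the second conjunct of `S36inPtTri` (the unit form `S35Unit`) at every triple
point of the two Hauptmodul charts of level `M q ^ 2`, at the three vertical valuations
`W_a = va2V1 (M * q) q K0 A0`, `W_b = W_a.comap (s36v3Swap M q hM K0)`, `W_c = s36v3Wc M q hM K0 A0`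
of the carrier, for EVERY uniformiser `τ` of `A0` and EVERY chart coordinate `t`: `s36tv_carrier`
(S36/TriUnitInst.lean) with the valuation binders discharged as inside `s36kc_comp3`
(S36/Comp3Car.lean), the coordinate of level `M q` and `q = τ * ε` (unramified base, `hunif`)
produced inside.

`s36tv_eps`: over an unramified base, `q = τ * ε` with `ε` a unit, for every uniformiser `τ`.
-/

set_option autoImplicit false
set_option linter.unusedSectionVars false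
set_option linter.unusedVariables false

noncomputable section

open ModularCurve AlgebraicCurve Polynomial
open Fermat.Agent.S18 Fermat.Agent.S34 Fermat.Agent.S35

namespace Fermat.Agent.S36

local notation "Qb" => AlgebraicClosure ℚ

/-- Over an unramified base (`𝔪_{A0} = q A0`), `q = τ * ε` with `ε` a unit, for every
uniformiser `τ` of `A0`. -/
theorem s36tv_eps {K0 : Type*} [Field K0] (A0 : ValuationSubring K0) (q : ℕ)
    (hA0 : A0.LiesOverPrime q)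
    (hunif : ∀ x ∈ A0.nonunits, ∃ a ∈ A0, x = (q : K0) * a)
    (τ : A0) (hτ : Irreducible τ) : ∃ ε : A0, IsUnit ε ∧ ((q : ℕ) : ↥A0) = τ * ε := by
  have hτnu : (τ : K0) ∈ A0.nonunits := by
    rw [ValuationSubring.mem_nonunits_iff_exists_mem_maximalIdeal]
    refine ⟨τ.2, ?_⟩
    rw [IsLocalRing.mem_maximalIdeal, mem_nonunits_iff]
    exact hτ.not_isUnit
  obtain ⟨a, ha, hτa⟩ := hunif _ hτnu
  have e : τ = ((q : ℕ) : ↥A0) * ⟨a, ha⟩ := by
    apply Subtype.ext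
    rw [hτa]
    simp
  have hq : ¬ IsUnit ((q : ℕ) : ↥A0) := by
    obtain ⟨hmem, h⟩ := (ValuationSubring.mem_nonunits_iff_exists_mem_maximalIdeal).mp hA0
    rw [IsLocalRing.mem_maximalIdeal, mem_nonunits_iff] at h
    intro hu
    apply h
    have e2 : (⟨(q : K0), hmem⟩ : ↥A0) = ((q : ℕ) : ↥A0) := by
      apply Subtype.ext
      simp
    rw [e2]
    exact hu
  rcases hτ.isUnit_or_isUnit e with h | h
  · exact absurd h hq
  · obtain ⟨u, hu⟩ := h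
    refine ⟨((u⁻¹ : (↥A0)ˣ) : ↥A0), Units.isUnit _, ?_⟩
    rw [e, ← hu, mul_assoc, Units.mul_inv, mul_one]

section Carrier

variable (M q : ℕ) [NeZero M] [hq : Fact q.Prime] (hM : ¬ q ∣ M)
  (K0 : Type) [Field K0] [Algebra ℚ K0] [Algebra K0 Qb]
  (A0 : ValuationSubring K0) [IsDiscreteValuationRing ↥A0]
  {a2 : ℕ} (H : HauptRec a2 q)

/-- **TRI-UNIT-INST, closed form** = the unit clause of the binder `hT` of `s36kc_comp3`. -/
theorem s36tv_comp3
    [Algebra ↥A0 ↥(laurentBaseChange K0 (modularFunctionFieldFull (M * q)))]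
    [IsScalarTower ↥A0 K0 ↥(laurentBaseChange K0 (modularFunctionFieldFull (M * q)))]
    [Algebra ↥A0 ↥(laurentBaseChange K0 (modularFunctionFieldFull (M * q * q)))]
    [IsScalarTower ↥A0 K0 ↥(laurentBaseChange K0 (modularFunctionFieldFull (M * q * q)))]
    (ha2 : a2 ∣ M) (hA0 : A0.LiesOverPrime q)
    (hunif : ∀ x ∈ A0.nonunits, ∃ a ∈ A0, x = (q : K0) * a)
    (c0 c1 : A0) (hc : IsLocalRing.residue ↥A0 c0 ≠ IsLocalRing.residue ↥A0 c1)
    (hQ0 : smi2U A0 (aeval (c0 : K0) H.Qrad)) (hQ1 : smi2U A0 (aeval (c1 : K0) H.Qrad))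
    (hSM : cinstSMChart K0 A0 M H (c0 : K0) (c1 : K0))
    (hSM' : cinstSMChart K0 A0 M H (c1 : K0) (c0 : K0))
    (hu0 : unrChart K0 A0 M H c0 c1) (hu1 : unrChart K0 A0 M H c1 c0)
    (m : ℕ) (hm : 0 < m) :
    ∀ τ : A0, Irreducible τ →
      ∀ t : ↥(laurentBaseChange K0 (modularFunctionFieldFull (M * q * q))),
      (t : LaurentSeries K0) = cinstU H K0 (c0 : K0) (c1 : K0) →
      (∀ 𝔫 : Ideal ↥(chtO A0 {t}), ∀ h𝔫 : 𝔫.IsMaximal,
        algebraMap ↥A0 ↥(chtO A0 {t}) τ ∈ 𝔫 →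
        (∀ x : ↥(chtO A0 {t}),
          (x : ↥(laurentBaseChange K0 (modularFunctionFieldFull (M * q * q)))) ∈
            (va2V1 (M * q) q K0 A0).nonunits → x ∈ 𝔫) →
        (∀ x : ↥(chtO A0 {t}),
          (x : ↥(laurentBaseChange K0 (modularFunctionFieldFull (M * q * q)))) ∈
            ((va2V1 (M * q) q K0 A0).comap (s36v3Swap M q hM K0)).nonunits → x ∈ 𝔫) →
        (∀ x : ↥(chtO A0 {t}),
          (x : ↥(laurentBaseChange K0 (modularFunctionFieldFull (M * q * q)))) ∈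
            (s36v3Wc M q hM K0 A0).nonunits → x ∈ 𝔫) →
        ∀ f : ↥(laurentBaseChange K0 (modularFunctionFieldFull (M * q * q))), f ≠ 0 →
          S36inOrd τ m f → f ∈ va2V1 (M * q) q K0 A0 → f⁻¹ ∈ va2V1 (M * q) q K0 A0 →
          f ∈ (va2V1 (M * q) q K0 A0).comap (s36v3Swap M q hM K0) →
          f⁻¹ ∈ (va2V1 (M * q) q K0 A0).comap (s36v3Swap M q hM K0) →
          f ∈ s36v3Wc M q hM K0 A0 → f⁻¹ ∈ s36v3Wc M q hM K0 A0 →
          S35Unit m (chtO A0 {t}) 𝔫 f) ∧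
      (∀ 𝔫 : Ideal ↥(chtO A0 {t⁻¹}), ∀ h𝔫 : 𝔫.IsMaximal,
        algebraMap ↥A0 ↥(chtO A0 {t⁻¹}) τ ∈ 𝔫 →
        (∀ x : ↥(chtO A0 {t⁻¹}),
          (x : ↥(laurentBaseChange K0 (modularFunctionFieldFull (M * q * q)))) ∈
            (va2V1 (M * q) q K0 A0).nonunits → x ∈ 𝔫) →
        (∀ x : ↥(chtO A0 {t⁻¹}),
          (x : ↥(laurentBaseChange K0 (modularFunctionFieldFull (M * q * q)))) ∈
            ((va2V1 (M * q) q K0 A0).comap (s36v3Swap M q hM K0)).nonunits → x ∈ 𝔫) →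
        (∀ x : ↥(chtO A0 {t⁻¹}),
          (x : ↥(laurentBaseChange K0 (modularFunctionFieldFull (M * q * q)))) ∈
            (s36v3Wc M q hM K0 A0).nonunits → x ∈ 𝔫) →
        ∀ f : ↥(laurentBaseChange K0 (modularFunctionFieldFull (M * q * q))), f ≠ 0 →
          S36inOrd τ m f → f ∈ va2V1 (M * q) q K0 A0 → f⁻¹ ∈ va2V1 (M * q) q K0 A0 →
          f ∈ (va2V1 (M * q) q K0 A0).comap (s36v3Swap M q hM K0) →
          f⁻¹ ∈ (va2V1 (M * q) q K0 A0).comap (s36v3Swap M q hM K0) →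
          f ∈ s36v3Wc M q hM K0 A0 → f⁻¹ ∈ s36v3Wc M q hM K0 A0 →
          S35Unit m (chtO A0 {t⁻¹}) 𝔫 f) := by
  classical
  intro τ hτ t ht
  have hqp : q.Prime := hq.out
  have : CharZero K0 := algebraRat.charZero K0
  have hq0 : ((q : ℕ) : K0) ≠ 0 := Nat.cast_ne_zero.mpr hqp.ne_zero
  have hunr : ∀ x ∈ A0.nonunits, x * ((q : ℕ) : K0)⁻¹ ∈ A0 := by
    intro x hx
    obtain ⟨a, ha, rfl⟩ := hunif x hx
    rw [mul_comm ((q : ℕ) : K0) a, mul_assoc, mul_inv_cancel₀ hq0, mul_one]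
    exact ha
  -- the uniformiser `z = h(t^(q^2)) - h(t)` of `W_c`
  obtain ⟨z, hzdef⟩ : ∃ z : ↥(laurentBaseChange K0 (modularFunctionFieldFull (M * q * q))),
      z = s36v3Z M q K0 (nunH K0 M H ha2) := ⟨_, rfl⟩
  have hz0 : z ≠ 0 := by
    rw [hzdef]
    exact s36ai_z_ne_zero M q K0 (nunH K0 M H ha2) H.hZ rfl H.leadZ
  obtain ⟨hza, hza'⟩ : z ∈ va2V1 (M * q) q K0 A0 ∧ z⁻¹ ∈ va2V1 (M * q) q K0 A0 := by
    rw [hzdef]
    exact s36za_Wa M q K0 A0 (nunH K0 M H ha2) H.hZ rfl H.leadZ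
  obtain ⟨hzc_nu, hzc, hzc'⟩ : z ∈ (s36v3Wc M q hM K0 A0).nonunits ∧
      z ^ (q - 1) * ((q : ℕ) :
        ↥(laurentBaseChange K0 (modularFunctionFieldFull (M * q * q))))⁻¹ ∈
        s36v3Wc M q hM K0 A0 ∧
      (z ^ (q - 1) * ((q : ℕ) :
        ↥(laurentBaseChange K0 (modularFunctionFieldFull (M * q * q))))⁻¹)⁻¹ ∈
        s36v3Wc M q hM K0 A0 := by
    rw [hzdef]
    exact s36v3_z_Wc M q hM K0 A0 hA0 (nunH K0 M H ha2) H.hZ rfl H.leadZ
  -- the table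
  have hαa : ∀ x : ↥(laurentBaseChange K0 (modularFunctionFieldFull (M * q))),
      heckeAlphaBar K0 (M * q) q x ∈ va2V1 (M * q) q K0 A0 ↔ x ∈ va2V1 M q K0 A0 :=
    fun x => s36vx_al_Wa M q K0 A0 x
  have hβa : ∀ x : ↥(laurentBaseChange K0 (modularFunctionFieldFull (M * q))),
      heckeBetaBar K0 (M * q) q x ∈ va2V1 (M * q) q K0 A0 ↔ x ∈ va2V1 M q K0 A0 :=
    fun x => s36v3_be_Wa M q K0 A0 x
  have hαb : ∀ x : ↥(laurentBaseChange K0 (modularFunctionFieldFull (M * q))),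
      heckeAlphaBar K0 (M * q) q x ∈ (va2V1 (M * q) q K0 A0).comap (s36v3Swap M q hM K0) ↔
        x ∈ va2V2 M q hM K0 A0 := by
    intro x
    rw [ValuationSubring.mem_comap, s36v3Swap_al, hβa, mem_va2V2]
  have hβb : ∀ x : ↥(laurentBaseChange K0 (modularFunctionFieldFull (M * q))),
      heckeBetaBar K0 (M * q) q x ∈ (va2V1 (M * q) q K0 A0).comap (s36v3Swap M q hM K0) ↔
        x ∈ va2V2 M q hM K0 A0 :=
    fun x => s36vx_be_Wb M q hM K0 A0 x
  have hαc : ∀ x : ↥(laurentBaseChange K0 (modularFunctionFieldFull (M * q))),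
      heckeAlphaBar K0 (M * q) q x ∈ s36v3Wc M q hM K0 A0 ↔ x ∈ va2V1 M q K0 A0 :=
    fun x => s36v3_al_Wc M q hM K0 A0 x
  have hβc : ∀ x : ↥(laurentBaseChange K0 (modularFunctionFieldFull (M * q))),
      heckeBetaBar K0 (M * q) q x ∈ s36v3Wc M q hM K0 A0 ↔ x ∈ va2V2 M q hM K0 A0 :=
    fun x => s36v3_be_Wc M q hM K0 A0 hA0 x
  have hgen : ∀ y ∈ (s36v3Wc M q hM K0 A0).nonunits, y * z⁻¹ ∈ s36v3Wc M q hM K0 A0 :=
    fun y hy => s36vx_unif_c M q K0 A0 hA0 hunr (s36v3Wc M q hM K0 A0) hαc z hz0 hzc hzc' hza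
      hza' y hy
  have hmapF : ∀ a : ↥A0,
      algebraMap ↥A0 ↥(laurentBaseChange K0 (modularFunctionFieldFull (M * q * q))) a =
        algebraMap K0 ↥(laurentBaseChange K0 (modularFunctionFieldFull (M * q * q))) (a : K0) :=
    fun a => IsScalarTower.algebraMap_apply ↥A0 K0 _ a
  have hexh1 : ∀ W : ValuationSubring
      ↥(laurentBaseChange K0 (modularFunctionFieldFull (M * q * q))),
      (∀ x, heckeAlphaBar K0 (M * q) q x ∈ W ↔ x ∈ va2V1 M q K0 A0) →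
      W = va2V1 (M * q) q K0 A0 ∨ W = s36v3Wc M q hM K0 A0 :=
    fun W hW => s36vx_exh_al1 M q K0 A0 hA0 hunr (s36v3Wc M q hM K0 A0) hαc z hz0 hzc hzc' hza
      hza' W hW
  have hexh2 : ∀ W : ValuationSubring
      ↥(laurentBaseChange K0 (modularFunctionFieldFull (M * q * q))),
      (∀ x, heckeAlphaBar K0 (M * q) q x ∈ W ↔ x ∈ va2V2 M q hM K0 A0) →
      W = (va2V1 (M * q) q K0 A0).comap (s36v3Swap M q hM K0) :=
    fun W hW => s36vi_exh_al_Wb M q hM K0 A0 (s36v3Swap M q hM K0) (s36v3Swap_swap M q hM K0)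
      (s36v3Swap_al M q hM K0) hA0 W hW
  have hRαc : ∀ x ∈ s36v3Wc M q hM K0 A0, ∃ r ∈ va2V1 M q K0 A0,
      x - heckeAlphaBar K0 (M * q) q r ∈ (s36v3Wc M q hM K0 A0).nonunits :=
    fun x hx => s36vx_res_al_Wc M q K0 A0 hA0 hunr (s36v3Wc M q hM K0 A0) hαc z hz0 hzc hzc'
      hza hza' x hx
  have hdeca : ∀ y : ↥(laurentBaseChange K0 (modularFunctionFieldFull (M * q * q))), y ≠ 0 →
      ∃ j : ℤ,
        y * algebraMap ↥A0 ↥(laurentBaseChange K0 (modularFunctionFieldFull (M * q * q))) τ ^ j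
          ∈ va2V1 (M * q) q K0 A0 ∧
        (y * algebraMap ↥A0 ↥(laurentBaseChange K0 (modularFunctionFieldFull (M * q * q))) τ ^ j)⁻¹
          ∈ va2V1 (M * q) q K0 A0 := by
    intro y hy
    rw [hmapF]
    exact s36ai_dec_a M q K0 A0 τ hτ y hy
  have hdecb : ∀ y : ↥(laurentBaseChange K0 (modularFunctionFieldFull (M * q * q))), y ≠ 0 →
      ∃ j : ℤ,
        y * algebraMap ↥A0 ↥(laurentBaseChange K0 (modularFunctionFieldFull (M * q * q))) τ ^ j
          ∈ (va2V1 (M * q) q K0 A0).comap (s36v3Swap M q hM K0) ∧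
        (y * algebraMap ↥A0 ↥(laurentBaseChange K0 (modularFunctionFieldFull (M * q * q))) τ ^ j)⁻¹
          ∈ (va2V1 (M * q) q K0 A0).comap (s36v3Swap M q hM K0) := by
    intro y hy
    rw [hmapF]
    exact s36ai_dec_b M q K0 A0 (s36v3Swap M q hM K0) (s36v3Swap_const M q hM K0)
      ((va2V1 (M * q) q K0 A0).comap (s36v3Swap M q hM K0)) (fun _ => Iff.rfl) τ hτ y hy
  have hdecc : ∀ y : ↥(laurentBaseChange K0 (modularFunctionFieldFull (M * q * q))), y ≠ 0 →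
      ∃ j : ℤ, y * z ^ j ∈ s36v3Wc M q hM K0 A0 ∧ (y * z ^ j)⁻¹ ∈ s36v3Wc M q hM K0 A0 :=
    s36ai_dec_Wc M q K0 A0 hA0 (s36v3Wc M q hM K0 A0) hαc z hz0 hgen hzc
  -- the uniformiser binders
  obtain ⟨-, -, -, -, -, -, -, -, hτF0, -, -, hτb, hτc, -, -, -, -, hπτ, -⟩ :=
    s36vc_binders M q hM K0 A0 H ha2 hA0 hunr τ hτ (va2V1 (M * q) q K0 A0)
      ((va2V1 (M * q) q K0 A0).comap (s36v3Swap M q hM K0)) (s36v3Wc M q hM K0 A0) hαa hβa hαb
      hβb hαc hβc hRαc z hz0 hzc hzc' hdeca 1 one_pos (Nat.coprime_one_left q)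
  have he : 0 < q - 1 := Nat.sub_pos_of_lt hqp.one_lt
  -- the coordinate of level `M q` and `q = τ * ε`
  obtain ⟨ε, hε, hqτ⟩ := s36tv_eps A0 q hA0 hunif τ hτ
  exact s36tv_carrier A0 M q hM H ha2 hA0
    ((va2V1 (M * q) q K0 A0).comap (s36v3Swap M q hM K0)) (s36v3Wc M q hM K0 A0) hαb hαc hexh1
    hexh2 hβb hβc c0 c1 hc hQ0 hQ1 hSM hSM' hu0 hu1
    ⟨cinstU H K0 (c0 : K0) (c1 : K0), cinstU_mem H K0 (Dvd.dvd.mul_right ha2 q) _ _⟩ rfl
    t ht τ hτ ε hε hqτ hτb hdecb z hz0 hzc_nu hdecc (q - 1) he hπτ.1 m hm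

end Carrier

end Fermat.Agent.S36
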