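import Mathlib
import Fermat.Agent.S34.CuspGlue

/-!
# S36, CHART3 (B-c) at cuspidal points, abstract half [CU-ABS]

`O` an integrally closed chart (a subalgebra of the function field `F`), `𝔫` a prime of `O`,
`Λ = O_𝔫 = dmaLoc O 𝔫`, `Wc ⊇ O` a valuation subring whose centre on `O` lies in `𝔫`
(`hc : O ∩ 𝔪_{Wc} ⊆ 𝔫`).  `j0, j1, j2 ∈ F` (in the application `j(t)`, `j(t^q)`, `j(t^(q^2))` at
level `M q^2`), with `j1 ≡ j0 ^ ℓ` and `j2 ≡ j0` modulo `𝔪_{Wc}`.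

* `s36cu_loc_le`  : `O_𝔫 ⊆ Wc`;
* `s36cu_mem_of_isIntegral` : an element integral over the subring generated by a subset of `O_𝔫`
  lies in `O_𝔫`;
* `s36cu_int` : **integrality at a cuspidal point** (`1/j0 ∈ 𝔫 O_𝔫`): `1/j1, 1/j2 ∈ 𝔫 O_𝔫`
  (`dma_cusp_swap` twice), `j0/j2 ∈ O_𝔫` and `π := j0/j2 - 1 ∈ 𝔫 O_𝔫 ∩ 𝔪_{Wc}`.  Inputs: the two
  monic modular relations (`j0` over `ℤ[j1]`, `j1` over `ℤ[j2]`) and ZINT for `j1/j0^ℓ` over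
  `ℤ[1/j0]` and for `j1/j2^ℓ` over `ℤ[1/j2]`;
* `s36cu_eps` : **the ε-criterion**: if `ε := π^e/τ ∈ O_𝔫` and `ε * om - cc ∈ 𝔪_{Wc}` with
  `om ∈ O_𝔫`, `cc` a unit of `O_𝔫`, then `π^e * s = τ * a` with `a, s ∈ O ∖ 𝔫`;
* `s36cu_cert` : the certificate `ε * om - (-1)^(e+1) * r1 ∈ 𝔪_{Wc}` for `π = j0/j2 - 1` from the
  congruence `(j2 - j0)^e / c + G ∈ 𝔪_{Wc}` and `G * om = j0^e * r1`.
-/

set_option autoImplicit false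

open Polynomial

namespace Fermat.Agent.S36

open Fermat.Agent.S34

section CuspAbs3

variable {A F : Type*} [CommRing A] [Field F] [Algebra A F]

/-- `O_𝔫 ⊆ Wc` when the centre of `Wc` on `O` lies in `𝔫` -/
theorem s36cu_loc_le (O : Subalgebra A F) (𝔫 : Ideal ↥O) [𝔫.IsPrime] (Wc : ValuationSubring F)
    (hO : ∀ x ∈ O, x ∈ Wc) (hc : ∀ x : ↥O, (x : F) ∈ Wc.nonunits → x ∈ 𝔫) {x : F}
    (hx : x ∈ dmaLoc O 𝔫) : x ∈ Wc := by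
  obtain ⟨a, s, hs, h⟩ := hx
  have hs0 : (s : F) ≠ 0 := by
    intro h0
    apply hs
    have : s = 0 := Subtype.ext h0
    rw [this]
    exact 𝔫.zero_mem
  have hsW : (s : F)⁻¹ ∈ Wc := by
    by_contra hcon
    exact hs (hc s (Wc.mem_nonunits_iff_or.mpr (Or.inr hcon)))
  have e : x = (a : F) * (s : F)⁻¹ := by
    rw [← h, mul_assoc, mul_inv_cancel₀ hs0, mul_one]
  rw [e]
  exact Wc.mul_mem _ _ (hO _ a.2) hsW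

/-- an element integral over the subring generated by a subset of `O_𝔫` lies in `O_𝔫` -/
theorem s36cu_mem_of_isIntegral (O : Subalgebra A F) (𝔫 : Ideal ↥O) [𝔫.IsPrime]
    (hint : ∀ x : F, IsIntegral ↥O x → x ∈ O) (S : Set F) (hS : ∀ r ∈ S, r ∈ dmaLoc O 𝔫)
    {z : F} (hz : IsIntegral ↥(Subring.closure S) z) : z ∈ dmaLoc O 𝔫 := by
  have hle : Subring.closure S ≤ dmaLoc O 𝔫 := (Subring.closure_le).mpr hS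
  obtain ⟨p, hp, hpz⟩ := hz
  refine dma_mem_of_monic O 𝔫 hint (p.map (Subring.inclusion hle)) (hp.map _) ?_
  rw [eval₂_map]
  exact hpz

/-- **Integrality at a cuspidal point of the `Wc`-component.** -/
theorem s36cu_int (O : Subalgebra A F) (𝔫 : Ideal ↥O) [𝔫.IsPrime]
    (hint : ∀ x : F, IsIntegral ↥O x → x ∈ O)
    (Wc : ValuationSubring F) (hO : ∀ x ∈ O, x ∈ Wc)
    (hc : ∀ x : ↥O, (x : F) ∈ Wc.nonunits → x ∈ 𝔫)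
    (ℓ : ℕ) (hℓ : 0 < ℓ) (j0 j1 j2 : F) (h0 : j0 ≠ 0) (h1 : j1 ≠ 0) (h2 : j2 ≠ 0)
    (hs0 : j0⁻¹ ∈ dmaMax O 𝔫)
    (hk1 : j1 - j0 ^ ℓ ∈ Wc.nonunits) (hk2 : j2 - j0 ∈ Wc.nonunits)
    (hZ1 : IsIntegral ↥(Subring.closure ({j0⁻¹} : Set F)) (j1 * j0⁻¹ ^ ℓ))
    (Φ₁ : ℤ[X][X]) (hΦ₁ : Φ₁.Monic)
    (hΦ₁0 : Φ₁.eval₂ ((aeval j1 : ℤ[X] →ₐ[ℤ] F).toRingHom) j0 = 0)
    (Φ₂ : ℤ[X][X]) (hΦ₂ : Φ₂.Monic)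
    (hΦ₂0 : Φ₂.eval₂ ((aeval j2 : ℤ[X] →ₐ[ℤ] F).toRingHom) j1 = 0)
    (hZ3 : IsIntegral ↥(Subring.closure ({j2⁻¹} : Set F)) (j1 * j2⁻¹ ^ ℓ)) :
    j1⁻¹ ∈ dmaMax O 𝔫 ∧ j2⁻¹ ∈ dmaMax O 𝔫 ∧ j0 * j2⁻¹ ∈ dmaLoc O 𝔫 ∧
      j0 * j2⁻¹ - 1 ∈ Wc.nonunits ∧ j0 * j2⁻¹ - 1 ∈ dmaMax O 𝔫 := by
  have hT1 : j1⁻¹ ∈ dmaMax O 𝔫 := dma_cusp_swap O 𝔫 hint h0 h1 hs0 Φ₁ hΦ₁ hΦ₁0
  have hT : j2⁻¹ ∈ dmaMax O 𝔫 := dma_cusp_swap O 𝔫 hint h1 h2 hT1 Φ₂ hΦ₂ hΦ₂0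
  have hs0L : j0⁻¹ ∈ dmaLoc O 𝔫 := dma_max_le O 𝔫 hs0
  have hTL : j2⁻¹ ∈ dmaLoc O 𝔫 := dma_max_le O 𝔫 hT
  have hW : ∀ {x : F}, x ∈ dmaLoc O 𝔫 → x ∈ Wc := fun hx => s36cu_loc_le O 𝔫 Wc hO hc hx
  -- `u = j1 / j0 ^ ℓ` is a unit of `O_𝔫`
  have hu : j1 * j0⁻¹ ^ ℓ ∈ dmaLoc O 𝔫 :=
    s36cu_mem_of_isIntegral O 𝔫 hint _ (by
      intro r hr
      rw [Set.mem_singleton_iff] at hr
      rw [hr]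
      exact hs0L) hZ1
  have hu1 : j1 * j0⁻¹ ^ ℓ - 1 ∈ dmaMax O 𝔫 := by
    refine cng_mem_max O 𝔫 Wc hO hc ((dmaLoc O 𝔫).sub_mem hu (dmaLoc O 𝔫).one_mem) ?_
    have e : j1 * j0⁻¹ ^ ℓ - 1 = (j1 - j0 ^ ℓ) * j0⁻¹ ^ ℓ := by
      have h3 : j0 ^ ℓ * j0⁻¹ ^ ℓ = 1 := by
        rw [← mul_pow, mul_inv_cancel₀ h0, one_pow]
      linear_combination h3
    rw [e]
    exact cpa_nonunits_mul Wc hk1 (Wc.pow_mem (hW hs0L) ℓ)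
  have hu' : j1 * j0⁻¹ ^ ℓ ∉ dmaMax O 𝔫 := by
    intro hmem
    have h3 := (dmaMax O 𝔫).sub_mem hmem hu1
    rw [sub_sub_cancel] at h3
    exact dma_one_notMem_max O 𝔫 h3
  have hui : (j1 * j0⁻¹ ^ ℓ)⁻¹ ∈ dmaLoc O 𝔫 := dma_inv_mem O 𝔫 hu hu'
  -- `w = j1 / j2 ^ ℓ ∈ O_𝔫`
  have hw : j1 * j2⁻¹ ^ ℓ ∈ dmaLoc O 𝔫 :=
    s36cu_mem_of_isIntegral O 𝔫 hint _ (by
      intro r hr
      rw [Set.mem_singleton_iff] at hr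
      rw [hr]
      exact hTL) hZ3
  -- `(j0 / j2) ^ ℓ = w / u`
  have hpow : (j0 * j2⁻¹) ^ ℓ = j1 * j2⁻¹ ^ ℓ * (j1 * j0⁻¹ ^ ℓ)⁻¹ := by
    have hA : (j1 * j0⁻¹ ^ ℓ)⁻¹ = j1⁻¹ * j0 ^ ℓ := by
      rw [mul_inv, inv_pow, inv_inv]
    have h11 : j1 * j1⁻¹ = 1 := mul_inv_cancel₀ h1
    rw [hA, mul_pow]
    linear_combination (-(j0 ^ ℓ * j2⁻¹ ^ ℓ)) * h11
  have hUl : (j0 * j2⁻¹) ^ ℓ ∈ dmaLoc O 𝔫 := by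
    rw [hpow]
    exact (dmaLoc O 𝔫).mul_mem hw hui
  have hU : j0 * j2⁻¹ ∈ dmaLoc O 𝔫 := by
    refine dma_mem_of_monic O 𝔫 hint (X ^ ℓ - C (⟨_, hUl⟩ : dmaLoc O 𝔫))
      (monic_X_pow_sub_C _ hℓ.ne') ?_
    rw [eval₂_sub, eval₂_pow, eval₂_X, eval₂_C]
    exact sub_self _
  have hπW : j0 * j2⁻¹ - 1 ∈ Wc.nonunits := by
    have e : j0 * j2⁻¹ - 1 = (j2 - j0) * (-j2⁻¹) := by
      have h3 : j2 * j2⁻¹ = 1 := mul_inv_cancel₀ h2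
      linear_combination h3
    rw [e]
    exact cpa_nonunits_mul Wc hk2 (Wc.neg_mem _ (hW hTL))
  exact ⟨hT1, hT, hU, hπW,
    cng_mem_max O 𝔫 Wc hO hc ((dmaLoc O 𝔫).sub_mem hU (dmaLoc O 𝔫).one_mem) hπW⟩

/-- **The ε-criterion.**  If `ε = π ^ e / τ ∈ O_𝔫` and `ε * om ≡ cc` modulo `𝔪_{Wc}` with
`om ∈ O_𝔫` and `cc` a unit of `O_𝔫`, then `ε` is a unit of `O_𝔫`: `π ^ e * s = τ * a` with
`a, s ∈ O ∖ 𝔫`. -/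
theorem s36cu_eps (O : Subalgebra A F) (𝔫 : Ideal ↥O) [𝔫.IsPrime]
    (Wc : ValuationSubring F) (hO : ∀ x ∈ O, x ∈ Wc)
    (hc : ∀ x : ↥O, (x : F) ∈ Wc.nonunits → x ∈ 𝔫)
    (π τ : F) (hτ0 : τ ≠ 0) (e : ℕ) (heps : π ^ e * τ⁻¹ ∈ dmaLoc O 𝔫)
    (om cc : F) (hom : om ∈ dmaLoc O 𝔫) (hcc : cc ∈ dmaLoc O 𝔫) (hcc' : cc ∉ dmaMax O 𝔫)
    (hcert : π ^ e * τ⁻¹ * om - cc ∈ Wc.nonunits) :
    ∃ a s : ↥O, a ∉ 𝔫 ∧ s ∉ 𝔫 ∧ π ^ e * (s : F) = τ * (a : F) := by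
  have hne : π ^ e * τ⁻¹ ∉ dmaMax O 𝔫 := by
    intro hmem
    have h1 : π ^ e * τ⁻¹ * om ∈ dmaMax O 𝔫 := by
      rw [mul_comm]
      exact dma_max_mul O 𝔫 hom hmem
    have h2 : π ^ e * τ⁻¹ * om - cc ∈ dmaMax O 𝔫 :=
      cng_mem_max O 𝔫 Wc hO hc
        ((dmaLoc O 𝔫).sub_mem ((dmaLoc O 𝔫).mul_mem heps hom) hcc) hcert
    have h3 := (dmaMax O 𝔫).sub_mem h1 h2
    rw [sub_sub_cancel] at h3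
    exact hcc' h3
  obtain ⟨a, s, hs, h⟩ := heps
  refine ⟨a, s, fun ha => hne ⟨a, s, ha, hs, h⟩, hs, ?_⟩
  rw [← h]
  field_simp

/-- **The certificate** for `π = j0 / j2 - 1`: from the congruence
`(j2 - j0) ^ e / c + G ∈ 𝔪_{Wc}` and `G * om = j0 ^ e * r1` one gets
`π ^ e / c * om - (-1) ^ (e + 1) * r1 ∈ 𝔪_{Wc}`. -/
theorem s36cu_cert (Wc : ValuationSubring F) (j0 j2 c G om r1 : F) (h2 : j2 ≠ 0) (e : ℕ)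
    (hT : j2⁻¹ ∈ Wc) (hom : om ∈ Wc) (hr1 : r1 ∈ Wc)
    (hπ : j0 * j2⁻¹ - 1 ∈ Wc.nonunits)
    (hcong : (j2 - j0) ^ e * c⁻¹ + G ∈ Wc.nonunits)
    (hG : G * om = j0 ^ e * r1) :
    (j0 * j2⁻¹ - 1) ^ e * c⁻¹ * om - (-1) ^ (e + 1) * r1 ∈ Wc.nonunits := by
  have hUW : j0 * j2⁻¹ ∈ Wc := by
    have := Wc.add_mem _ _ (Wc.nonunits_subset hπ) Wc.one_mem
    rwa [sub_add_cancel] at this
  -- `(j0/j2)^e - 1 ∈ 𝔪`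
  have hgeom : (j0 * j2⁻¹) ^ e - 1 ∈ Wc.nonunits := by
    have e1 : (j0 * j2⁻¹) ^ e - 1 =
        (j0 * j2⁻¹ - 1) * ∑ i ∈ Finset.range e, (j0 * j2⁻¹) ^ i := by
      rw [← geom_sum_mul]
      exact mul_comm _ _
    rw [e1]
    exact cpa_nonunits_mul Wc hπ (Wc.sum_mem fun i _ => Wc.pow_mem hUW i)
  have hπz : j0 * j2⁻¹ - 1 = -((j2 - j0) * j2⁻¹) := by
    have h3 : j2 * j2⁻¹ = 1 := mul_inv_cancel₀ h2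
    linear_combination h3
  have key : (j0 * j2⁻¹ - 1) ^ e * c⁻¹ * om - (-1) ^ (e + 1) * r1 =
      ((j2 - j0) ^ e * c⁻¹ + G) * ((-1) ^ e * j2⁻¹ ^ e * om) +
        ((j0 * j2⁻¹) ^ e - 1) * (-((-1) ^ e * r1)) := by
    rw [hπz, neg_pow, mul_pow ((j2 - j0)), mul_pow j0, pow_succ]
    linear_combination (-((-1) ^ e * j2⁻¹ ^ e)) * hG
  rw [key]
  have hsign : ((-1 : F)) ^ e ∈ Wc := Wc.pow_mem (Wc.neg_mem _ Wc.one_mem) e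
  have t1 := cpa_nonunits_mul Wc hcong
    (Wc.mul_mem _ _ (Wc.mul_mem _ _ hsign (Wc.pow_mem hT e)) hom)
  have t2 := cpa_nonunits_mul Wc hgeom (Wc.neg_mem _ (Wc.mul_mem _ _ hsign hr1))
  have hv : ∀ {x y : F}, x ∈ Wc.nonunits → y ∈ Wc.nonunits → x + y ∈ Wc.nonunits := by
    intro x y hx hy
    rw [ValuationSubring.mem_nonunits_iff] at hx hy ⊢
    exact lt_of_le_of_lt (Valuation.map_add _ _ _) (max_lt hx hy)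
  exact hv t1 t2

end CuspAbs3

end Fermat.Agent.S36
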