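import Mathlib
import Fermat.Agent.S36.NuExp
import Fermat.Agent.S34.KronVal

/-!
# S36, (B-c) at cuspidal points, part RAT (series level)

`k` a field of characteristic `q`, `Z = t⁻¹ (1 + ⋯)` an integral Laurent series (`Hp4Lead Z (-1)`),
`Z̄` its reduction, `θ = t d/dt`.  If the reduction of the Fermat quotient `δ = (Z^q - Z(t^q))/q`
is a rational function `P(Z̄)/D(Z̄)` of `Z̄`, then `(θ Z̄)^(q-1)` is a rational function of `Z̄`
which is a **unit at the pole of `Z̄`**:

`(θ Z̄)^(q-1) * R₂(Z̄⁻¹) = Z̄^(q-1) * R₁(Z̄⁻¹)`,  `R₁(0) ≠ 0`, `R₂(0) ≠ 0`.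

* `s36cr_val_of_lead`: the valuation of a Laurent series from its lowest coefficient;
* `s36cr_val_aeval`: a polynomial with nonzero constant coefficient in a series of positive
  valuation has valuation `0`;
* `s36cr_rev`: the reversal step;
* `s36cr_main`: the statement above.
-/

set_option autoImplicit false

open ModularCurve Polynomial

namespace Fermat.Agent.S36

open Fermat.Agent.S18 Fermat.Agent.S34

section Ser

variable {k : Type*} [Field k]

/-- the valuation of a Laurent series from its lowest coefficient -/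
theorem s36cr_val_of_lead (x : LaurentSeries k) (m : ℤ) (hm : x.coeff m ≠ 0)
    (hlt : ∀ n : ℤ, n < m → x.coeff n = 0) :
    HahnSeries.addVal ℤ k x = ((m : ℤ) : WithTop ℤ) := by
  have hx0 : x ≠ 0 := by
    rintro rfl
    exact hm HahnSeries.coeff_zero
  have ho : x.order = m := by
    apply le_antisymm
    · exact HahnSeries.order_le_of_coeff_ne_zero hm
    · by_contra hlt'
      exact hx0 (HahnSeries.coeff_order_eq_zero.mp (hlt _ (not_le.mp hlt')))
  rw [HahnSeries.addVal_apply_of_ne hx0, ho]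

/-- a polynomial in a series of nonnegative valuation has nonnegative valuation -/
theorem s36cr_val_aeval_nonneg (s : LaurentSeries k) (hs : 0 ≤ HahnSeries.addVal ℤ k s)
    (p : k[X]) : 0 ≤ HahnSeries.addVal ℤ k (aeval s p) := by
  rw [Polynomial.aeval_eq_sum_range]
  refine AddValuation.map_le_sum _ (fun i _ => ?_)
  rw [Algebra.smul_def, AddValuation.map_mul, AddValuation.map_pow]
  have h1 : 0 ≤ HahnSeries.addVal ℤ k (algebraMap k (LaurentSeries k) (p.coeff i)) := by
    by_cases hc : p.coeff i = 0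
    · rw [hc, map_zero, AddValuation.map_zero]
      exact le_top
    · rw [s36cr_val_of_lead _ 0 (by
        rw [thd_algebraMap_eq_single, HahnSeries.coeff_single_same]; exact hc) (fun n hn => by
        rw [thd_algebraMap_eq_single, HahnSeries.coeff_single_of_ne hn.ne])]
      exact le_rfl
  exact add_nonneg h1 (nsmul_nonneg hs i)

/-- a polynomial with nonzero constant coefficient in a series of positive valuation has
valuation zero -/
theorem s36cr_val_aeval (s : LaurentSeries k) (hs : 0 < HahnSeries.addVal ℤ k s)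
    (p : k[X]) (hp : p.coeff 0 ≠ 0) : HahnSeries.addVal ℤ k (aeval s p) = 0 := by
  have h1 : aeval s p = algebraMap k (LaurentSeries k) (p.coeff 0) + aeval s p.divX * s := by
    conv_lhs => rw [← Polynomial.divX_mul_X_add p]
    rw [map_add, map_mul, aeval_X, aeval_C]
    ring
  have h2 : HahnSeries.addVal ℤ k (algebraMap k (LaurentSeries k) (p.coeff 0)) = 0 := by
    rw [s36cr_val_of_lead _ 0 (by
      rw [thd_algebraMap_eq_single, HahnSeries.coeff_single_same]; exact hp) (fun n hn => by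
      rw [thd_algebraMap_eq_single, HahnSeries.coeff_single_of_ne hn.ne])]
    rfl
  have h3 : 0 < HahnSeries.addVal ℤ k (aeval s p.divX * s) := by
    rw [AddValuation.map_mul]
    exact lt_of_lt_of_le hs (le_add_of_nonneg_left (s36cr_val_aeval_nonneg s hs.le _))
  rw [h1, AddValuation.map_add_eq_of_lt_left _ (by rw [h2]; exact h3), h2]

/-- evaluation at a series with a simple pole: `p(J) = J^(deg p) * p.reverse(J⁻¹)` -/
theorem s36cr_aeval_reverse (J : LaurentSeries k) (hJ0 : J ≠ 0) (p : k[X]) :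
    aeval J p = J ^ p.natDegree * aeval J⁻¹ p.reverse := by
  let _ : Invertible J := invertibleOfNonzero hJ0
  have h := Polynomial.eval₂_reverse_mul_pow (algebraMap k (LaurentSeries k)) J p
  rw [invOf_eq_inv] at h
  rw [Polynomial.aeval_def, Polynomial.aeval_def, ← h, mul_comm]

/-- valuation of a nonzero polynomial in a series with a simple pole -/
theorem s36cr_val_pole (J : LaurentSeries k)
    (hJ : HahnSeries.addVal ℤ k J = (((-1 : ℤ)) : WithTop ℤ)) (p : k[X]) (hp : p ≠ 0) :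
    HahnSeries.addVal ℤ k (aeval J p) = (((-(p.natDegree : ℤ) : ℤ)) : WithTop ℤ) := by
  have hJ0 : J ≠ 0 := by
    rintro rfl
    rw [AddValuation.map_zero] at hJ
    exact WithTop.top_ne_coe hJ
  have hinv : HahnSeries.addVal ℤ k J⁻¹ = ((1 : ℤ) : WithTop ℤ) := by
    rw [AddValuation.map_inv, hJ]
    rfl
  have h0 : HahnSeries.addVal ℤ k (aeval J⁻¹ p.reverse) = 0 := by
    refine s36cr_val_aeval _ ?_ _ ?_
    · rw [hinv]
      exact_mod_cast zero_lt_one
    · rw [Polynomial.coeff_zero_reverse]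
      exact Polynomial.leadingCoeff_ne_zero.mpr hp
  rw [s36cr_aeval_reverse J hJ0, AddValuation.map_mul, AddValuation.map_pow, h0, add_zero, hJ]
  rw [← WithTop.coe_nsmul]
  congr 1
  simp

/-- **the reversal step**: a rational expression `Th^e = N(J)/E(J)` in a series `J` with a simple
pole, where `Th` has a simple pole too, is `J^e` times a unit at the pole -/
theorem s36cr_rev (J Th : LaurentSeries k)
    (hJ : HahnSeries.addVal ℤ k J = (((-1 : ℤ)) : WithTop ℤ))
    (hTh : HahnSeries.addVal ℤ k Th = (((-1 : ℤ)) : WithTop ℤ)) (e : ℕ) (N E : k[X])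
    (hE : E ≠ 0) (h : Th ^ e * aeval J E = aeval J N) :
    ∃ R1 R2 : k[X], R1.coeff 0 ≠ 0 ∧ R2.coeff 0 ≠ 0 ∧ aeval J⁻¹ R2 ≠ 0 ∧
      Th ^ e * aeval J⁻¹ R2 = J ^ e * aeval J⁻¹ R1 := by
  have hJ0 : J ≠ 0 := by
    rintro rfl
    rw [AddValuation.map_zero] at hJ
    exact WithTop.top_ne_coe hJ
  have hinv : HahnSeries.addVal ℤ k J⁻¹ = ((1 : ℤ) : WithTop ℤ) := by
    rw [AddValuation.map_inv, hJ]
    rfl
  have hvE := s36cr_val_pole J hJ E hE
  have hv := congrArg (HahnSeries.addVal ℤ k) h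
  rw [AddValuation.map_mul, AddValuation.map_pow, hvE, hTh, ← WithTop.coe_nsmul,
    ← WithTop.coe_add] at hv
  have hN : N ≠ 0 := by
    rintro rfl
    rw [map_zero, AddValuation.map_zero] at hv
    exact WithTop.coe_ne_top hv
  rw [s36cr_val_pole J hJ N hN, WithTop.coe_eq_coe] at hv
  have hdeg : N.natDegree = E.natDegree + e := by
    simp only [nsmul_eq_mul, mul_neg, mul_one] at hv
    omega
  have hR2 : E.reverse.coeff 0 ≠ 0 := by
    rw [Polynomial.coeff_zero_reverse]
    exact Polynomial.leadingCoeff_ne_zero.mpr hE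
  refine ⟨N.reverse, E.reverse, ?_, hR2, ?_, ?_⟩
  · rw [Polynomial.coeff_zero_reverse]
    exact Polynomial.leadingCoeff_ne_zero.mpr hN
  · intro h0
    have h1 := s36cr_val_aeval J⁻¹ (by rw [hinv]; exact_mod_cast zero_lt_one) E.reverse hR2
    rw [h0, AddValuation.map_zero] at h1
    exact WithTop.top_ne_zero h1
  · rw [s36cr_aeval_reverse J hJ0 E, s36cr_aeval_reverse J hJ0 N, hdeg, pow_add] at h
    have hJd : J ^ E.natDegree ≠ 0 := pow_ne_zero _ hJ0
    apply mul_left_cancel₀ hJd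
    linear_combination h

end Ser

section Main

variable (q : ℕ) [Fact q.Prime] {k : Type*} [Field k] [CharP k q]

/-- **[CU-RAT]** If the reduction of the Fermat quotient of `Z = t⁻¹(1 + ⋯)` is a rational
function of `Z̄`, then `(θ Z̄)^(q-1) = Z̄^(q-1) R₁(Z̄⁻¹) / R₂(Z̄⁻¹)` with `R₁(0), R₂(0) ≠ 0`. -/
theorem s36cr_main (Z : LaurentSeries ℤ) (hZ : Hp4Lead Z (-1)) (δZ : LaurentSeries ℤ)
    (hδZ : (q : LaurentSeries ℤ) * δZ = Z ^ q - qExpand ℤ q Z) (P D : k[X]) (hD : D ≠ 0)
    (hPD : coeffMap (Int.castRingHom k) δZ * aeval (coeffMap (Int.castRingHom k) Z) D =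
      aeval (coeffMap (Int.castRingHom k) Z) P) :
    ∃ R1 R2 : k[X], R1.coeff 0 ≠ 0 ∧ R2.coeff 0 ≠ 0 ∧
      aeval (coeffMap (Int.castRingHom k) Z)⁻¹ R2 ≠ 0 ∧
      thdTheta k (coeffMap (Int.castRingHom k) Z) ^ (q - 1) *
          aeval (coeffMap (Int.castRingHom k) Z)⁻¹ R2 =
        coeffMap (Int.castRingHom k) Z ^ (q - 1) *
          aeval (coeffMap (Int.castRingHom k) Z)⁻¹ R1 := by
  set Zb := coeffMap (Int.castRingHom k) Z with hZb
  have hJ : HahnSeries.addVal ℤ k Zb = (((-1 : ℤ)) : WithTop ℤ) := by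
    refine s36cr_val_of_lead Zb (-1) ?_ ?_
    · rw [hZb, coeffMap_coeff, hZ.coeff_self]
      simp
    · intro n hn
      rw [hZb, coeffMap_coeff, hZ.coeff_lt hn, map_zero]
  have hTh : HahnSeries.addVal ℤ k (thdTheta k Zb) = (((-1 : ℤ)) : WithTop ℤ) := by
    refine s36cr_val_of_lead _ (-1) ?_ ?_
    · rw [thdTheta_coeff, hZb, coeffMap_coeff, hZ.coeff_self]
      simp
    · intro n hn
      rw [thdTheta_coeff, hZb, coeffMap_coeff, hZ.coeff_lt hn, map_zero, mul_zero]
  have hH : thdTheta k Zb ≠ 0 := by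
    intro h0
    rw [h0, AddValuation.map_zero] at hTh
    exact WithTop.top_ne_coe hTh
  have hmain := thd_main_mod q (k := k) Z δZ hδZ
  have hrat := thd_rational (q := q) Zb (coeffMap (Int.castRingHom k) δZ) hH hmain P D hPD
  exact s36cr_rev Zb (thdTheta k Zb) hJ hTh (q - 1)
    (X ^ (q - 1) * D ^ 2 - derivative P * D + P * derivative D) (D ^ 2) (pow_ne_zero 2 hD)
    ((congrArg (fun y => thdTheta k Zb ^ (q - 1) * y) (map_pow (aeval Zb) D 2)).trans hrat)

end Main

/-! ### Lifting to the Gauss ring -/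

section Gauss

variable {K : Type*} [Field K] (A : ValuationSubring K)

/-- the constants of `A` as a ring homomorphism into the Gauss ring -/
noncomputable def s36crConst : ↥A →+* ↥(grV A) :=
  RingHom.codRestrict ((algebraMap K (LaurentSeries K)).comp A.subtype) (grV A)
    (fun c => gr_algebraMap_mem A c)

/-- a polynomial with coefficients in `A` in an element of the Gauss ring lies in the Gauss ring,
and its residue is the reduced polynomial in the residue -/
theorem s36cr_gauss (x : LaurentSeries K) (hx : x ∈ grV A) (p : (↥A)[X]) :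
    ∃ h : aeval x (p.map A.subtype) ∈ grV A,
      grRho A ⟨_, h⟩ = aeval (grRho A ⟨x, hx⟩) (p.map (IsLocalRing.residue ↥A)) := by
  have e1 : aeval x (p.map A.subtype) =
      ((Polynomial.eval₂ (s36crConst A) (⟨x, hx⟩ : grV A) p : grV A) : LaurentSeries K) := by
    rw [Polynomial.aeval_def, Polynomial.eval₂_map]
    exact (Polynomial.hom_eval₂ p (s36crConst A) (grV A).subtype ⟨x, hx⟩).symm
  have hmem : aeval x (p.map A.subtype) ∈ grV A := by
    rw [e1]
    exact Subtype.property _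
  refine ⟨hmem, ?_⟩
  have e2 : (⟨aeval x (p.map A.subtype), hmem⟩ : grV A) =
      Polynomial.eval₂ (s36crConst A) (⟨x, hx⟩ : grV A) p := Subtype.ext e1
  rw [e2, Polynomial.hom_eval₂, Polynomial.aeval_def, Polynomial.eval₂_map]
  congr 1
  exact RingHom.ext fun c => grRho_algebraMap A c

/-- **[CU-RAT], lifted.**  There are `R₁, R₂ ∈ A[X]` with unit constant coefficients such that
`g = F^(q-1) R₁(F⁻¹) / R₂(F⁻¹)` (`F` the image of `Z` over `K`) lies in the Gauss ring and has
residue `(θ Z̄)^(q-1)`. -/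
theorem s36cr_lift (q : ℕ) [Fact q.Prime] [CharP (IsLocalRing.ResidueField ↥A) q]
    (Z : LaurentSeries ℤ) (hZ : Hp4Lead Z (-1)) (δZ : LaurentSeries ℤ)
    (hδZ : (q : LaurentSeries ℤ) * δZ = Z ^ q - qExpand ℤ q Z)
    (P D : (IsLocalRing.ResidueField ↥A)[X]) (hD : D ≠ 0)
    (hPD : coeffMap (Int.castRingHom (IsLocalRing.ResidueField ↥A)) δZ *
        aeval (coeffMap (Int.castRingHom (IsLocalRing.ResidueField ↥A)) Z) D =
      aeval (coeffMap (Int.castRingHom (IsLocalRing.ResidueField ↥A)) Z) P) :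
    ∃ R1 R2 : (↥A)[X], IsUnit (R1.coeff 0) ∧ IsUnit (R2.coeff 0) ∧
      aeval (coeffMap (Int.castRingHom K) Z)⁻¹ (R2.map A.subtype) ≠ 0 ∧
      ∃ h : coeffMap (Int.castRingHom K) Z ^ (q - 1) *
          aeval (coeffMap (Int.castRingHom K) Z)⁻¹ (R1.map A.subtype) *
          (aeval (coeffMap (Int.castRingHom K) Z)⁻¹ (R2.map A.subtype))⁻¹ ∈ grV A,
        grRho A ⟨_, h⟩ = thdTheta (IsLocalRing.ResidueField ↥A)
          (coeffMap (Int.castRingHom (IsLocalRing.ResidueField ↥A)) Z) ^ (q - 1) := by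
  obtain ⟨R1b, R2b, h1, h2, hne, hid⟩ := s36cr_main q Z hZ δZ hδZ P D hD hPD
  obtain ⟨R1, rfl⟩ := Polynomial.map_surjective (IsLocalRing.residue ↥A)
    IsLocalRing.residue_surjective R1b
  obtain ⟨R2, rfl⟩ := Polynomial.map_surjective (IsLocalRing.residue ↥A)
    IsLocalRing.residue_surjective R2b
  have hunit : ∀ R : (↥A)[X], (R.map (IsLocalRing.residue ↥A)).coeff 0 ≠ 0 →
      IsUnit (R.coeff 0) := by
    intro R hR
    by_contra hnu
    apply hR
    rw [Polynomial.coeff_map]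
    exact (IsLocalRing.residue_eq_zero_iff _).mpr ((IsLocalRing.mem_maximalIdeal _).mpr hnu)
  set F := coeffMap (Int.castRingHom K) Z with hF
  set Zb := coeffMap (Int.castRingHom (IsLocalRing.ResidueField ↥A)) Z with hZb
  have hZb0 : Zb ≠ 0 := by
    intro h0
    have h3 := congrArg (fun s => HahnSeries.coeff s (-1)) h0
    simp only [hZb, coeffMap_coeff, HahnSeries.coeff_zero] at h3
    rw [hZ.coeff_self] at h3
    simp at h3
  have hFm : F ∈ grV A := krv_int_mem A Z
  have hFr : grRho A ⟨F, hFm⟩ = Zb := krv_int_rho A Z hFm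
  have hFi : F⁻¹ ∈ grV A := krv_int_inv_mem A Z hZb0
  have hFir : grRho A ⟨F⁻¹, hFi⟩ = Zb⁻¹ := by
    exact (grRho_inv A ⟨F, hFm⟩ (by rw [hFr]; exact hZb0)).trans (congrArg (fun y => y⁻¹) hFr)
  obtain ⟨hm1, hr1⟩ := s36cr_gauss A F⁻¹ hFi R1
  obtain ⟨hm2, hr2⟩ := s36cr_gauss A F⁻¹ hFi R2
  rw [hFir] at hr1 hr2
  have hne2 : grRho A ⟨_, hm2⟩ ≠ 0 := by
    rw [hr2]
    exact hne
  have hi2 := gr_inv_mem A ⟨_, hm2⟩ hne2
  have hri2 := grRho_inv A ⟨_, hm2⟩ hne2
  have hmem : F ^ (q - 1) * aeval F⁻¹ (R1.map A.subtype) *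
      (aeval F⁻¹ (R2.map A.subtype))⁻¹ ∈ grV A :=
    (grV A).mul_mem ((grV A).mul_mem ((grV A).pow_mem hFm _) hm1) hi2
  refine ⟨R1, R2, hunit R1 h1, hunit R2 h2, ?_, hmem, ?_⟩
  · intro h0
    apply hne2
    have : (⟨_, hm2⟩ : grV A) = 0 := Subtype.ext h0
    rw [this, map_zero]
  · have e : (⟨_, hmem⟩ : grV A) =
        ⟨F, hFm⟩ ^ (q - 1) * ⟨_, hm1⟩ * ⟨_, hi2⟩ := Subtype.ext rfl
    rw [e, map_mul, map_mul, map_pow, hFr, hr1, hri2, hr2, ← hid, mul_inv_cancel_right₀ hne]

end Gauss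

end Fermat.Agent.S36
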