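import Mathlib
import Fermat.Agent.S36.CuspAbs3
import Fermat.Agent.S36.CuspRat
import Fermat.Agent.S34.CuspInst
import Fermat.Agent.S34.Val2Exh

/-!
# S36, (B-c) at cuspidal points of the third component, carrier instance

Carrier: `F1`, `F2` the function fields of level `M q`, `M q²` over `K0`,
`al = heckeAlphaBar K0 (M q) q`, `be = heckeBetaBar K0 (M q) q : F1 → F2`,
`j0 = j(t)`, `j1 = j(t^q)`, `j2 = j(t^(q²))` in `F2`, `z = j2 - j0`.
`Wc` is ANY valuation subring of `F2` with `al x ∈ Wc ↔ x ∈ V₁`, `z ∈ 𝔪_{Wc}` and the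
`g`-form of the congruence (`s36cc_g` for `f = j`).  `O` is ANY integrally closed `A0`-subalgebra
of `F2` contained in `Wc`, `𝔫` a prime of `O` through which `Wc` passes, CUSPIDAL:
`1/j0 ∈ 𝔫 O_𝔫`.

* `s36ci_main`: `π = j0/j2 - 1 ∈ O_𝔫 ∩ 𝔪_{Wc}`, `om ∈ O_𝔫`, `c` a unit of `O_𝔫` and
  `π^(q-1) / τ * om - c ∈ 𝔪_{Wc}`: the inputs `hπO, hπc, homO, hcO, hcong` of `s36we_eps`.
-/

set_option autoImplicit false
set_option linter.unusedSectionVars false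

noncomputable section

open ModularCurve AlgebraicCurve Polynomial
open Fermat.Agent.S18 Fermat.Agent.S34

namespace Fermat.Agent.S36

local notation "Qb" => AlgebraicClosure ℚ

/-! ### Abstract transport lemmas -/

section Transport

/-- forward transport of a two-variable integer polynomial relation along a ring homomorphism -/
theorem s36ci_map_eval₂ {F F' : Type*} [CommRing F] [CommRing F'] (φ : F →+* F') (a z : F)
    (Φ : Polynomial (Polynomial ℤ))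
    (h0 : Φ.eval₂ ((Polynomial.aeval a : Polynomial ℤ →ₐ[ℤ] F).toRingHom) z = 0) :
    Φ.eval₂ ((Polynomial.aeval (φ a) : Polynomial ℤ →ₐ[ℤ] F').toRingHom) (φ z) = 0 := by
  have e : φ.comp (Polynomial.aeval a : Polynomial ℤ →ₐ[ℤ] F).toRingHom
      = (Polynomial.aeval (φ a) : Polynomial ℤ →ₐ[ℤ] F').toRingHom := by
    apply Polynomial.ringHom_ext
    · intro c
      simp
    · simp
  have h1 := congrArg φ h0
  rw [map_zero, Polynomial.hom_eval₂, e] at h1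
  exact h1

/-- transport of integrality over the subring generated by one element -/
theorem s36ci_map_integral {F F' : Type*} [CommRing F] [CommRing F'] (φ : F →+* F') (a z : F)
    (h : IsIntegral ↥(Subring.closure ({a} : Set F)) z) :
    IsIntegral ↥(Subring.closure ({φ a} : Set F')) (φ z) := by
  have hmem : ∀ x : ↥(Subring.closure ({a} : Set F)),
      φ (x : F) ∈ Subring.closure ({φ a} : Set F') := by
    intro x
    have h1 : φ (x : F) ∈ (Subring.closure ({a} : Set F)).map φ := ⟨x, x.2, rfl⟩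
    rw [RingHom.map_closure, Set.image_singleton] at h1
    exact h1
  let ψ : ↥(Subring.closure ({a} : Set F)) →+* ↥(Subring.closure ({φ a} : Set F')) :=
    (φ.comp (Subring.closure ({a} : Set F)).subtype).codRestrict _ hmem
  obtain ⟨p, hp, hpz⟩ := h
  refine ⟨p.map ψ, hp.map ψ, ?_⟩
  rw [Polynomial.eval₂_map]
  have h1 := congrArg φ hpz
  rw [map_zero, Polynomial.hom_eval₂] at h1
  exact h1

variable {A F : Type*} [CommRing A] [Field F] [Algebra A F]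

/-- polynomials over the base in an element of the local ring lie in the local ring -/
theorem s36ci_aeval_mem (O : Subalgebra A F) (𝔫 : Ideal ↥O) [𝔫.IsPrime] {x : F}
    (hx : x ∈ dmaLoc O 𝔫) (p : A[X]) : aeval x p ∈ dmaLoc O 𝔫 := by
  induction p using Polynomial.induction_on with
  | C a =>
    rw [aeval_C]
    exact dma_of_mem O 𝔫 (O.algebraMap_mem a)
  | add p r hp hr =>
    rw [map_add]
    exact (dmaLoc O 𝔫).add_mem hp hr
  | monomial n a ih =>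
    rw [pow_succ, ← mul_assoc, map_mul, aeval_X]
    exact (dmaLoc O 𝔫).mul_mem ih hx

/-- a polynomial with unit constant coefficient in an element of the maximal ideal of the local
ring is a unit of the local ring -/
theorem s36ci_aeval_unit (O : Subalgebra A F) (𝔫 : Ideal ↥O) [𝔫.IsPrime] {x : F}
    (hx : x ∈ dmaMax O 𝔫) (p : A[X]) (hp : IsUnit (p.coeff 0)) : aeval x p ∉ dmaMax O 𝔫 := by
  intro hmem
  have h1 : aeval x p = algebraMap A F (p.coeff 0) + aeval x p.divX * x := by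
    conv_lhs => rw [← Polynomial.divX_mul_X_add p]
    rw [map_add, map_mul, aeval_X, aeval_C]
    ring
  have h2 : aeval x p.divX * x ∈ dmaMax O 𝔫 :=
    dma_max_mul O 𝔫 (s36ci_aeval_mem O 𝔫 (dma_max_le O 𝔫 hx) _) hx
  have h3 : algebraMap A F (p.coeff 0) ∈ dmaMax O 𝔫 := by
    have := (dmaMax O 𝔫).sub_mem hmem h2
    rwa [h1, add_sub_cancel_right] at this
  obtain ⟨u, hu⟩ := hp.exists_right_inv
  have h4 : algebraMap A F u * algebraMap A F (p.coeff 0) ∈ dmaMax O 𝔫 :=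
    dma_max_mul O 𝔫 (dma_of_mem O 𝔫 (O.algebraMap_mem u)) h3
  rw [← map_mul, mul_comm, hu, map_one] at h4
  exact dma_one_notMem_max O 𝔫 h4

/-- the non-unit form of a membership table -/
theorem s36ci_nonunits_of_iff {E F' : Type*} [Field E] [Field F'] (φ : E →+* F')
    (V : ValuationSubring E) (W : ValuationSubring F') (h : ∀ x, φ x ∈ W ↔ x ∈ V) (x : E)
    (hx : x ∈ V.nonunits) : φ x ∈ W.nonunits := by
  rcases (ValuationSubring.mem_nonunits_iff_or (A := V)).mp hx with h0 | h0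
  · rw [h0, map_zero]
    exact (ValuationSubring.mem_nonunits_iff_or (A := W)).mpr (Or.inl rfl)
  · refine (ValuationSubring.mem_nonunits_iff_or (A := W)).mpr (Or.inr ?_)
    rw [← map_inv₀, h]
    exact h0

end Transport

/-! ### Carrier identities -/

section Gen

variable (K0 : Type*) [Field K0] [Algebra ℚ K0]

/-- an integral series with lowest coefficient `1` at `n` -/
theorem s36ci_lead_of_coeff (x : LaurentSeries ℤ) (n : ℤ) (h1 : x.coeff n = 1)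
    (h0 : ∀ m : ℤ, m < n → x.coeff m = 0) : Hp4Lead x n := by
  refine ⟨PowerSeries.mk (fun i => x.coeff (n + i)), by simp [h1], ?_⟩
  ext k
  have hk : k = (k - n) + n := by ring
  conv_rhs => rw [hk, HahnSeries.coeff_single_mul_add, one_mul]
  show x.coeff k = ((PowerSeries.mk fun i : ℕ => x.coeff (n + i) : PowerSeries ℤ) :
    LaurentSeries ℤ).coeff (k - n)
  rw [PowerSeries.coeff_coe]
  split_ifs with hneg
  · exact h0 _ (by omega)
  · rw [PowerSeries.coeff_mk]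
    congr 1
    omega

/-- `j = t⁻¹ (1 + ⋯)` -/
theorem s36ci_lead_j : Hp4Lead (jqModC ℤ) (-1) :=
  s36ci_lead_of_coeff _ _ (coeff_jqModC_neg_one ℤ) (fun _ hm => coeff_jqModC_of_lt ℤ hm)

/-- the generators are nonzero -/
theorem s36ci_Jd_ne_zero (N d : ℕ) [NeZero d] (hd : d ∣ N) : va2Jd K0 N d hd ≠ 0 := by
  intro h0
  have h1 : ((va2Jd K0 N d hd : ↥(laurentBaseChange K0 (modularFunctionFieldFull N))) :
      LaurentSeries K0) = 0 := by
    rw [h0]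
    rfl
  rw [krv_coe_Jd] at h1
  exact krv_red_Jd_ne K0 d h1

/-- `α` of a generator -/
theorem s36ci_al_Jd (N ℓ : ℕ) [NeZero N] [NeZero ℓ] (d : ℕ) [NeZero d] (hd : d ∣ N)
    (hd' : d ∣ N * ℓ) :
    heckeAlphaBar K0 N ℓ (va2Jd K0 N d hd) = va2Jd K0 (N * ℓ) d hd' :=
  Subtype.ext rfl

/-- `β` of a generator -/
theorem s36ci_be_Jd (N ℓ : ℕ) [NeZero N] [NeZero ℓ] (d : ℕ) [NeZero d] (hd : d ∣ N)
    (e : ℕ) [NeZero e] (he : e = ℓ * d) (hd' : e ∣ N * ℓ) :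
    heckeBetaBar K0 N ℓ (va2Jd K0 N d hd) = va2Jd K0 (N * ℓ) e hd' := by
  subst he
  apply Subtype.ext
  rw [coe_heckeBetaBar, krv_coe_Jd, krv_coe_Jd, ← qExpand_qExpand, coeffMap_qExpand,
    coeffMap_qExpand, coeffMap_qExpand]

end Gen

/-! ### The certificate at a cuspidal point -/

section Carrier

variable (M q : ℕ) [NeZero M] [hq : Fact q.Prime]
  (K0 : Type*) [Field K0] [Algebra ℚ K0] [Algebra K0 Qb]
  (A0 : ValuationSubring K0) [IsDiscreteValuationRing ↥A0]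

set_option quotPrecheck false in
local notation "F₁" => ↥(laurentBaseChange K0 (modularFunctionFieldFull (M * q)))
set_option quotPrecheck false in
local notation "F₂" => ↥(laurentBaseChange K0 (modularFunctionFieldFull (M * q * q)))

/-- **(B-c) at a cuspidal point of the third component: the certificate.** -/
theorem s36ci_main (hM : ¬ q ∣ M)
    [Algebra A0 F₂] [IsScalarTower A0 K0 F₂]
    (hA0 : A0.LiesOverPrime q)
    (τ ε : A0) (hε : IsUnit ε) (hqτ : ((q : ℕ) : ↥A0) = τ * ε)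
    (δZ : LaurentSeries ℤ)
    (hδZ : (q : LaurentSeries ℤ) * δZ = jqModC ℤ ^ q - qExpand ℤ q (jqModC ℤ))
    (P D : (IsLocalRing.ResidueField ↥A0)[X]) (hD : D ≠ 0)
    (hPD : coeffMap (Int.castRingHom (IsLocalRing.ResidueField ↥A0)) δZ *
        aeval (coeffMap (Int.castRingHom (IsLocalRing.ResidueField ↥A0)) (jqModC ℤ)) D =
      aeval (coeffMap (Int.castRingHom (IsLocalRing.ResidueField ↥A0)) (jqModC ℤ)) P)
    (Wc : ValuationSubring F₂)
    (hαc : ∀ x : F₁, heckeAlphaBar K0 (M * q) q x ∈ Wc ↔ x ∈ va2V1 M q K0 A0)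
    (hzc : heckeBetaBar K0 (M * q) q (heckeBetaBar K0 M q (va2Jd K0 M 1 (one_dvd M))) -
      heckeAlphaBar K0 (M * q) q (heckeAlphaBar K0 M q (va2Jd K0 M 1 (one_dvd M)))
        ∈ Wc.nonunits)
    (hcongG : ∀ (g : F₁) (hg : g ∈ va2V1 M q K0 A0),
      va2xRho1 M q K0 A0 ⟨g, hg⟩ =
        thdTheta (IsLocalRing.ResidueField ↥A0)
          (coeffMap (Int.castRingHom (IsLocalRing.ResidueField ↥A0)) (jqModC ℤ)) ^ (q - 1) →
      (heckeBetaBar K0 (M * q) q (heckeBetaBar K0 M q (va2Jd K0 M 1 (one_dvd M))) -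
        heckeAlphaBar K0 (M * q) q (heckeAlphaBar K0 M q (va2Jd K0 M 1 (one_dvd M)))) ^ (q - 1) *
          ((q : ℕ) : F₂)⁻¹ + heckeAlphaBar K0 (M * q) q g ∈ Wc.nonunits)
    (O : Subalgebra A0 F₂) (hint : ∀ x : F₂, IsIntegral ↥O x → x ∈ O)
    (hO : ∀ x ∈ O, x ∈ Wc)
    (𝔫 : Ideal ↥O) [𝔫.IsPrime] (h1 : ∀ x : ↥O, (x : F₂) ∈ Wc.nonunits → x ∈ 𝔫)
    (hcusp : (va2Jd K0 (M * q * q) 1 (one_dvd _))⁻¹ ∈ dmaMax O 𝔫) :
    ∃ π om c : F₂,
      π = va2Jd K0 (M * q * q) 1 (one_dvd _) *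
        (va2Jd K0 (M * q * q) (q * q) ⟨M, by ring⟩)⁻¹ - 1 ∧
      (∃ a s : ↥O, s ∉ 𝔫 ∧ π * (s : F₂) = (a : F₂)) ∧ π ∈ Wc.nonunits ∧
      (∃ a s : ↥O, s ∉ 𝔫 ∧ om * (s : F₂) = (a : F₂)) ∧
      (∃ a s : ↥O, a ∉ 𝔫 ∧ s ∉ 𝔫 ∧ c * (s : F₂) = (a : F₂)) ∧
      π ^ (q - 1) * (algebraMap A0 F₂ τ)⁻¹ * om - c ∈ Wc.nonunits := by
  classical
  have hq' : q.Prime := hq.out
  have hqA : ((q : ℕ) : K0) ∈ A0.nonunits := hA0
  have hdq : q ∣ M * q * q := dvd_mul_left q (M * q)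
  have hdqq : q * q ∣ M * q * q := ⟨M, by ring⟩
  -- the generators
  set J' := va2Jd K0 (M * q) 1 (one_dvd _) with hJ'
  set Jq' := va2Jd K0 (M * q) q (dvd_mul_left q M) with hJq'
  set j0 := va2Jd K0 (M * q * q) 1 (one_dvd _) with hj0
  set j1 := va2Jd K0 (M * q * q) q hdq with hj1
  set j2 := va2Jd K0 (M * q * q) (q * q) hdqq with hj2
  have e_al0 : heckeAlphaBar K0 (M * q) q J' = j0 := s36ci_al_Jd K0 (M * q) q 1 _ _
  have e_al1 : heckeAlphaBar K0 (M * q) q Jq' = j1 := s36ci_al_Jd K0 (M * q) q q _ _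
  have e_be1 : heckeBetaBar K0 (M * q) q J' = j1 :=
    s36ci_be_Jd K0 (M * q) q 1 _ q (mul_one q).symm _
  have e_be2 : heckeBetaBar K0 (M * q) q Jq' = j2 := s36ci_be_Jd K0 (M * q) q q _ (q * q) rfl _
  have e_f0 : heckeAlphaBar K0 (M * q) q (heckeAlphaBar K0 M q (va2Jd K0 M 1 (one_dvd M)))
      = j0 := by
    rw [s36ci_al_Jd K0 M q 1 _ (one_dvd _)]
    exact e_al0
  have e_f2 : heckeBetaBar K0 (M * q) q (heckeBetaBar K0 M q (va2Jd K0 M 1 (one_dvd M)))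
      = j2 := by
    rw [s36ci_be_Jd K0 M q 1 _ q (mul_one q).symm (dvd_mul_left q M)]
    exact e_be2
  have h0 : j0 ≠ 0 := s36ci_Jd_ne_zero K0 _ _ _
  have h1' : j1 ≠ 0 := s36ci_Jd_ne_zero K0 _ _ _
  have h2 : j2 ≠ 0 := s36ci_Jd_ne_zero K0 _ _ _
  -- Kronecker
  obtain ⟨-, -, -, -, hk1V⟩ := krv_V1 A0 q hq' hqA (va2V1 M q K0 A0) (fun _ => Iff.rfl)
    (one_dvd (M * q)) (dvd_mul_left q M)
  have hk1 : j1 - j0 ^ q ∈ Wc.nonunits := by
    have h3 := s36ci_nonunits_of_iff (heckeAlphaBar K0 (M * q) q).toRingHom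
      (va2V1 M q K0 A0) Wc hαc _ hk1V
    have h4 := krv_neg_nonunits Wc _ h3
    have e : -((heckeAlphaBar K0 (M * q) q).toRingHom (J' ^ q - Jq')) = j1 - j0 ^ q := by
      show -(heckeAlphaBar K0 (M * q) q (J' ^ q - Jq')) = j1 - j0 ^ q
      rw [map_sub, map_pow, e_al0, e_al1, neg_sub]
    rwa [e] at h4
  have hk2 : j2 - j0 ∈ Wc.nonunits := by
    rw [← e_f2, ← e_f0]
    exact hzc
  -- the modular equation and ZINT
  have hZ1 := mqd_main K0 (M * q * q) q hdq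
  obtain ⟨Φ, hΦ, -, hΦ2⟩ := mqk_exists_poly M q hq' hM K0
  have hΦ₁0 : Φ.eval₂ ((aeval j1 : ℤ[X] →ₐ[ℤ] F₂).toRingHom) j0 = 0 := by
    have h3 := s36ci_map_eval₂ (heckeAlphaBar K0 (M * q) q).toRingHom Jq' J' Φ hΦ2
    exact h3
  have hΦ₂0 : Φ.eval₂ ((aeval j2 : ℤ[X] →ₐ[ℤ] F₂).toRingHom) j1 = 0 := by
    have h3 := s36ci_map_eval₂ (heckeBetaBar K0 (M * q) q).toRingHom Jq' J' Φ hΦ2
    have e1 : (heckeBetaBar K0 (M * q) q).toRingHom Jq' = j2 := e_be2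
    have e2 : (heckeBetaBar K0 (M * q) q).toRingHom J' = j1 := e_be1
    rw [e1, e2] at h3
    exact h3
  have hZ3 : IsIntegral ↥(Subring.closure ({j2⁻¹} : Set F₂)) (j1 * j2⁻¹ ^ q) := by
    have hm := mqd_main K0 (M * q) q (dvd_mul_left q M)
    obtain ⟨hsw1, hsw2⟩ := krv_swap M q hq' hM K0
    have hm2 := s36ci_map_integral (va2Swap M q hq' hM K0) _ _ hm
    have hm3 := s36ci_map_integral (heckeBetaBar K0 (M * q) q).toRingHom _ _ hm2
    have e1 : (heckeBetaBar K0 (M * q) q).toRingHom (va2Swap M q hq' hM K0 J'⁻¹) = j2⁻¹ := by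
      show heckeBetaBar K0 (M * q) q (va2Swap M q hq' hM K0 J'⁻¹) = j2⁻¹
      rw [map_inv₀, hsw1, map_inv₀]
      exact congrArg (fun y => y⁻¹) e_be2
    have e2 : (heckeBetaBar K0 (M * q) q).toRingHom
        (va2Swap M q hq' hM K0 (Jq' * J'⁻¹ ^ q)) = j1 * j2⁻¹ ^ q := by
      show heckeBetaBar K0 (M * q) q (va2Swap M q hq' hM K0 (Jq' * J'⁻¹ ^ q)) = j1 * j2⁻¹ ^ q
      rw [map_mul, map_pow, map_inv₀, hsw1, hsw2, map_mul, map_pow, map_inv₀]
      have e3 : heckeBetaBar K0 (M * q) q (va2Jd K0 (M * q) q (Dvd.intro_left M rfl)) = j2 := e_be2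
      rw [e3, e_be1]
    rw [e1, e2] at hm3
    exact hm3
  obtain ⟨hT1, hT, hU, hπW, hπmax⟩ := s36cu_int O 𝔫 hint Wc hO h1 q hq'.pos j0 j1 j2 h0 h1' h2
    hcusp hk1 hk2 hZ1 Φ hΦ hΦ₁0 Φ hΦ hΦ₂0 hZ3
  have hW : ∀ {x : F₂}, x ∈ dmaLoc O 𝔫 → x ∈ Wc := fun hx => s36cu_loc_le O 𝔫 Wc hO h1 hx
  -- the rational certificate
  have hchar : CharP (IsLocalRing.ResidueField ↥A0) q :=
    (CharP.charP_iff_prime_eq_zero hq').mpr (krv_natCast_residue A0 q hA0)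
  obtain ⟨R1, R2, hu1, hu2, hne, hmemG, hresG⟩ :=
    s36cr_lift A0 q (jqModC ℤ) s36ci_lead_j δZ hδZ P D hD hPD
  set g : F₁ := J' ^ (q - 1) * aeval J'⁻¹ (R1.map A0.subtype) *
    (aeval J'⁻¹ (R2.map A0.subtype))⁻¹ with hg
  have hgcoe : (g : LaurentSeries K0) =
      coeffMap (Int.castRingHom K0) (jqModC ℤ) ^ (q - 1) *
        aeval (coeffMap (Int.castRingHom K0) (jqModC ℤ))⁻¹ (R1.map A0.subtype) *
        (aeval (coeffMap (Int.castRingHom K0) (jqModC ℤ))⁻¹ (R2.map A0.subtype))⁻¹ := by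
    rw [hg, IntermediateField.coe_mul, IntermediateField.coe_mul, IntermediateField.coe_pow,
      IntermediateField.coe_inv, ← IntermediateField.aeval_coe, ← IntermediateField.aeval_coe,
      IntermediateField.coe_inv, krv_coe_J]
  have hgV : g ∈ va2V1 M q K0 A0 := by
    rw [mem_va2V1, hgcoe]
    exact hmemG
  have hgres : va2xRho1 M q K0 A0 ⟨g, hgV⟩ =
      thdTheta (IsLocalRing.ResidueField ↥A0)
        (coeffMap (Int.castRingHom (IsLocalRing.ResidueField ↥A0)) (jqModC ℤ)) ^ (q - 1) := by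
    rw [va2xRho1_apply, ← hresG]
    congr 1
    exact Subtype.ext hgcoe
  have hcg := hcongG g hgV hgres
  rw [e_f2, e_f0] at hcg
  -- `al g` in terms of `A0`-polynomials in `1 / j0`
  have eR : ∀ R : (↥A0)[X], heckeAlphaBar K0 (M * q) q (aeval J'⁻¹ (R.map A0.subtype))
      = aeval j0⁻¹ R := by
    intro R
    rw [← Polynomial.aeval_algHom_apply, map_inv₀, e_al0]
    exact Polynomial.aeval_map_algebraMap K0 j0⁻¹ R
  have e_alg : heckeAlphaBar K0 (M * q) q g =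
      j0 ^ (q - 1) * aeval j0⁻¹ R1 * (aeval j0⁻¹ R2)⁻¹ := by
    rw [hg, map_mul, map_mul, map_pow, map_inv₀, e_al0, eR, eR]
  have hs0L : j0⁻¹ ∈ dmaLoc O 𝔫 := dma_max_le O 𝔫 hcusp
  have homL : aeval j0⁻¹ R2 ∈ dmaLoc O 𝔫 := s36ci_aeval_mem O 𝔫 hs0L R2
  have hr1L : aeval j0⁻¹ R1 ∈ dmaLoc O 𝔫 := s36ci_aeval_mem O 𝔫 hs0L R1
  have hr1U : aeval j0⁻¹ R1 ∉ dmaMax O 𝔫 := s36ci_aeval_unit O 𝔫 hcusp R1 hu1
  have hom0 : aeval j0⁻¹ R2 ≠ 0 := dma_ne_zero O 𝔫 (s36ci_aeval_unit O 𝔫 hcusp R2 hu2)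
  -- constants
  obtain ⟨ε', hε'⟩ := hε.exists_left_inv
  have hεε : algebraMap A0 F₂ ε' * algebraMap A0 F₂ ε = 1 := by
    rw [← map_mul, hε', map_one]
  have hεne : algebraMap A0 F₂ ε ≠ 0 := by
    intro h3
    rw [h3, mul_zero] at hεε
    exact zero_ne_one hεε
  have hqF : ((q : ℕ) : F₂) = algebraMap A0 F₂ τ * algebraMap A0 F₂ ε := by
    rw [← map_mul, ← hqτ, map_natCast]
  have hqne : ((q : ℕ) : F₂) ≠ 0 := by
    have : CharZero K0 := algebraRat.charZero K0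
    have : CharZero F₂ := charZero_of_injective_algebraMap (algebraMap K0 F₂).injective
    exact_mod_cast hq'.ne_zero
  have hτne : algebraMap A0 F₂ τ ≠ 0 := by
    intro h3
    rw [h3, zero_mul] at hqF
    exact hqne hqF
  have hεL : algebraMap A0 F₂ ε ∈ dmaLoc O 𝔫 := dma_of_mem O 𝔫 (O.algebraMap_mem ε)
  have hε'L : algebraMap A0 F₂ ε' ∈ dmaLoc O 𝔫 := dma_of_mem O 𝔫 (O.algebraMap_mem ε')
  have hcongτ : (j2 - j0) ^ (q - 1) * (algebraMap A0 F₂ τ)⁻¹ +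
      algebraMap A0 F₂ ε * heckeAlphaBar K0 (M * q) q g ∈ Wc.nonunits := by
    have e : (j2 - j0) ^ (q - 1) * (algebraMap A0 F₂ τ)⁻¹ +
        algebraMap A0 F₂ ε * heckeAlphaBar K0 (M * q) q g =
        ((j2 - j0) ^ (q - 1) * ((q : ℕ) : F₂)⁻¹ + heckeAlphaBar K0 (M * q) q g) *
          algebraMap A0 F₂ ε := by
      have hi : (algebraMap A0 F₂ ε)⁻¹ * algebraMap A0 F₂ ε = 1 := inv_mul_cancel₀ hεne
      rw [hqF, mul_inv]
      linear_combination (-((j2 - j0) ^ (q - 1) * (algebraMap A0 F₂ τ)⁻¹)) * hi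
    rw [e]
    exact cpa_nonunits_mul Wc hcg (hW hεL)
  have hG : algebraMap A0 F₂ ε * heckeAlphaBar K0 (M * q) q g * aeval j0⁻¹ R2 =
      j0 ^ (q - 1) * (algebraMap A0 F₂ ε * aeval j0⁻¹ R1) := by
    have hi2 : (aeval j0⁻¹ R2)⁻¹ * aeval j0⁻¹ R2 = 1 := inv_mul_cancel₀ hom0
    rw [e_alg]
    linear_combination (algebraMap A0 F₂ ε * j0 ^ (q - 1) * aeval j0⁻¹ R1) * hi2
  have hcert := s36cu_cert Wc j0 j2 (algebraMap A0 F₂ τ)
    (algebraMap A0 F₂ ε * heckeAlphaBar K0 (M * q) q g) (aeval j0⁻¹ R2)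
    (algebraMap A0 F₂ ε * aeval j0⁻¹ R1) h2 (q - 1) (hW (dma_max_le O 𝔫 hT)) (hW homL)
    (hW ((dmaLoc O 𝔫).mul_mem hεL hr1L)) hπW hcongτ hG
  have hsignL : ((-1 : F₂)) ^ (q - 1 + 1) ∈ dmaLoc O 𝔫 :=
    (dmaLoc O 𝔫).pow_mem ((dmaLoc O 𝔫).neg_mem (dmaLoc O 𝔫).one_mem) _
  have hcL : (-1 : F₂) ^ (q - 1 + 1) * (algebraMap A0 F₂ ε * aeval j0⁻¹ R1) ∈ dmaLoc O 𝔫 :=
    (dmaLoc O 𝔫).mul_mem hsignL ((dmaLoc O 𝔫).mul_mem hεL hr1L)
  have hcU : (-1 : F₂) ^ (q - 1 + 1) * (algebraMap A0 F₂ ε * aeval j0⁻¹ R1) ∉ dmaMax O 𝔫 := by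
    intro hmem
    have h3 := dma_max_mul O 𝔫 ((dmaLoc O 𝔫).mul_mem hsignL hε'L) hmem
    have e : (-1 : F₂) ^ (q - 1 + 1) * algebraMap A0 F₂ ε' *
        ((-1 : F₂) ^ (q - 1 + 1) * (algebraMap A0 F₂ ε * aeval j0⁻¹ R1)) = aeval j0⁻¹ R1 := by
      have hs : (-1 : F₂) ^ (q - 1 + 1) * (-1 : F₂) ^ (q - 1 + 1) = 1 := by
        rw [← mul_pow]
        simp
      linear_combination (algebraMap A0 F₂ ε' * algebraMap A0 F₂ ε * aeval j0⁻¹ R1) * hs +
        aeval j0⁻¹ R1 * hεε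
    rw [e] at h3
    exact hr1U h3
  refine ⟨j0 * j2⁻¹ - 1, aeval j0⁻¹ R2,
    (-1 : F₂) ^ (q - 1 + 1) * (algebraMap A0 F₂ ε * aeval j0⁻¹ R1), rfl, ?_, hπW, homL, ?_, hcert⟩
  · exact (dmaLoc O 𝔫).sub_mem hU (dmaLoc O 𝔫).one_mem
  · obtain ⟨a, s, hs, h⟩ := hcL
    exact ⟨a, s, fun ha => hcU ⟨a, s, ha, hs, h⟩, hs, h⟩

end Carrier

end Fermat.Agent.S36
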