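import Mathlib
import Fermat.Agent.S24.Degree
import Fermat.Agent.S36.PsiRat

/-!
# S36, [PU-RAT-J]: the reduced Fermat quotient of `j` is a rational function of `j̄`

The `j`-clone of `s36pr_main` (S36/PsiRat.lean) at level `1`: for
`δ_ℤ := (j^q - j(t^q))/q ∈ ℤ((t))` and a discrete valuation subring `A0` of `K0` over `q` with
residue field `k`:

* `s36pj_level_one`: the function field of level `1` over `K0` is `K0(j)`;
* `s36pj_main`: `∃ P D : k[X]`, `D ≠ 0`, `δ̄ * D(j̄) = P(j̄)`
  (residue degree one of `V₁` of level `q` over level `1`: `va2x_res_one` with `M = 1`).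
-/

set_option autoImplicit false

noncomputable section

open ModularCurve AlgebraicCurve Polynomial
open Fermat.Agent.S18 Fermat.Agent.S37 Fermat.Agent.S34 Fermat.Agent.S28
open scoped IntermediateField

namespace Fermat.Agent.S36

local notation "Qb" => AlgebraicClosure ℚ

section Carrier

variable (q : ℕ) [hq : Fact q.Prime] (K0 : Type*) [Field K0] [Algebra ℚ K0]

/-- **The function field of level `1` is `K0(j)`.** -/
theorem s36pj_level_one (a : ↥(laurentBaseChange K0 (modularFunctionFieldFull 1))) :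
    ∃ P1 D1 : K0[X], D1 ≠ 0 ∧
      (a : LaurentSeries K0) * aeval (jqModC K0) D1 = aeval (jqModC K0) P1 := by
  have h1 : (modularFunctionFieldFull 1).toSubfield ≤ Subfield.closure {jq} := by
    rw [modularFunctionFieldFull, IntermediateField.adjoin_toSubfield, Subfield.closure_le]
    rintro y (⟨c, rfl⟩ | ⟨d, _, hd, rfl⟩)
    · rw [eq_ratCast]
      exact SubfieldClass.ratCast_mem _ c
    · have hd1 : d = 1 := Nat.dvd_one.mp hd
      subst hd1
      rw [qExpand_one_apply]
      exact Subfield.subset_closure rfl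
  have hle : laurentBaseChange K0 (modularFunctionFieldFull 1) ≤ K0⟮jqModC K0⟯ := by
    rw [laurentBaseChange, IntermediateField.adjoin_le_iff]
    rintro _ ⟨x, hx, rfl⟩
    have hx2 := h1 hx
    have hmap : (Subfield.closure {jq}).map (coeffEmb K0) ≤ (K0⟮jqModC K0⟯).toSubfield := by
      rw [RingHom.map_field_closure, Subfield.closure_le]
      rintro _ ⟨y, hy, rfl⟩
      rw [Set.mem_singleton_iff] at hy
      subst hy
      show coeffEmb K0 jq ∈ K0⟮jqModC K0⟯
      rw [coeffEmb, ← jqModC_rat, coeffMap_jqModC]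
      exact IntermediateField.mem_adjoin_simple_self K0 _
    exact hmap ⟨x, hx2, rfl⟩
  have ha := hle a.2
  obtain ⟨r, s, hrs⟩ := (IntermediateField.mem_adjoin_simple_iff K0 _).mp ha
  by_cases hs0 : aeval (jqModC K0) s = 0
  · refine ⟨0, 1, one_ne_zero, ?_⟩
    rw [hrs, hs0, div_zero, zero_mul, map_zero]
  · refine ⟨r, s, fun h => hs0 (by rw [h, map_zero]), ?_⟩
    rw [hrs, div_mul_cancel₀ _ hs0]

variable [Algebra K0 Qb] (A0 : ValuationSubring K0) [IsDiscreteValuationRing ↥A0]

/-- **[PU-RAT-J]** The reduction of the Fermat quotient `δ = (j^q - j(t^q))/q` of `j` is a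
rational function of the reduction of `j`. -/
theorem s36pj_main (hA0 : A0.LiesOverPrime q) (δZ : LaurentSeries ℤ)
    (hδZ : (q : LaurentSeries ℤ) * δZ = jqModC ℤ ^ q - qExpand ℤ q (jqModC ℤ)) :
    ∃ P D : (IsLocalRing.ResidueField ↥A0)[X], D ≠ 0 ∧
      coeffMap (Int.castRingHom (IsLocalRing.ResidueField ↥A0)) δZ *
          aeval (coeffMap (Int.castRingHom (IsLocalRing.ResidueField ↥A0)) (jqModC ℤ)) D =
        aeval (coeffMap (Int.castRingHom (IsLocalRing.ResidueField ↥A0)) (jqModC ℤ)) P := by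
  have hqp : q.Prime := hq.out
  have : CharZero K0 := algebraRat.charZero K0
  have hM : ¬ q ∣ 1 := fun h => hqp.one_lt.ne' (Nat.dvd_one.mp h)
  have htr : Transcendental (IsLocalRing.ResidueField ↥A0)
      (coeffMap (Int.castRingHom (IsLocalRing.ResidueField ↥A0)) (jqModC ℤ)) := by
    rw [coeffMap_jqModC]
    exact Fermat.Agent.S24.dg_transcendental_jqModC _
  -- the Fermat quotient at level `1 * q`
  set J := va2Jd K0 (1 * q) 1 (one_dvd _) with hJ
  set Jq := va2Jd K0 (1 * q) q (dvd_mul_left q 1) with hJq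
  set δ : ↥(laurentBaseChange K0 (modularFunctionFieldFull (1 * q))) :=
    (J ^ q - Jq) * ((q : ℕ) : ↥(laurentBaseChange K0 (modularFunctionFieldFull (1 * q))))⁻¹
    with hδ
  have hq0 : ((q : ℕ) : LaurentSeries K0) ≠ 0 := by
    have : ((q : ℕ) : LaurentSeries K0) = algebraMap K0 (LaurentSeries K0) (q : K0) := by
      rw [map_natCast]
    rw [this, Ne, map_eq_zero]
    exact_mod_cast hqp.ne_zero
  have hcoe : ((δ : ↥(laurentBaseChange K0 (modularFunctionFieldFull (1 * q)))) :
      LaurentSeries K0) = coeffMap (Int.castRingHom K0) δZ := by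
    have h1 := congrArg (coeffMap (Int.castRingHom K0)) hδZ
    rw [map_mul, map_natCast, map_sub, map_pow, coeffMap_qExpand] at h1
    have h2 : ((δ : ↥(laurentBaseChange K0 (modularFunctionFieldFull (1 * q)))) :
        LaurentSeries K0) = (coeffMap (Int.castRingHom K0) (jqModC ℤ) ^ q -
          qExpand K0 q (coeffMap (Int.castRingHom K0) (jqModC ℤ))) *
          ((q : ℕ) : LaurentSeries K0)⁻¹ := by
      rw [hδ]
      push_cast
      rw [hJ, hJq, krv_coe_J, krv_coe_Jd, coeffMap_qExpand]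
    rw [h2, ← h1]
    field_simp
  have hδ1 : δ ∈ va2V1 1 q K0 A0 := by
    rw [mem_va2V1, hcoe]
    exact krv_int_mem A0 δZ
  obtain ⟨a, ha, hnon⟩ := va2x_res_one 1 q hM K0 A0 hA0
    (va2d_finrank K0 1 hqp hM) δ hδ1
  -- residues
  have hαa : heckeAlphaBar K0 1 q a ∈ va2V1 1 q K0 A0 := by
    rw [mem_va2V1, coe_heckeAlphaBar]
    exact ha
  have hres : grRho A0 ⟨coeffMap (Int.castRingHom K0) δZ, krv_int_mem A0 δZ⟩ =
      grRho A0 ⟨(a : LaurentSeries K0), ha⟩ := by
    have hsub : δ - heckeAlphaBar K0 1 q a ∈ va2V1 1 q K0 A0 :=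
      (va2V1 1 q K0 A0).sub_mem hδ1 hαa
    have hz : va2xRho1 1 q K0 A0 ⟨δ - heckeAlphaBar K0 1 q a, hsub⟩ = 0 := by
      by_contra hne
      have hinv := va2x_hinv 1 q K0 A0 ⟨_, hsub⟩ hne
      rcases (ValuationSubring.mem_nonunits_iff_or (A := va2V1 1 q K0 A0)).mp hnon with h | h
      · apply hne
        have : (⟨δ - heckeAlphaBar K0 1 q a, hsub⟩ : (va2V1 1 q K0 A0).toSubring) = 0 :=
          Subtype.ext h
        rw [this, map_zero]
      · exact h hinv
    have hz' : grRho A0 (⟨coeffMap (Int.castRingHom K0) δZ, krv_int_mem A0 δZ⟩ -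
        ⟨(a : LaurentSeries K0), ha⟩) = 0 := by
      rw [← hz, va2xRho1_apply]
      congr 1
      apply Subtype.ext
      show coeffMap (Int.castRingHom K0) δZ - (a : LaurentSeries K0) = _
      rw [← hcoe]
      push_cast
      rw [coe_heckeAlphaBar]
    rw [map_sub, sub_eq_zero] at hz'
    exact hz'
  obtain ⟨P1, D1, hD1, hPD1⟩ := s36pj_level_one K0 a
  rw [← coeffMap_jqModC (Int.castRingHom K0)] at hPD1
  obtain ⟨P, D, hD, hPD⟩ := s36pr_gauss A0 (jqModC ℤ) htr ⟨(a : LaurentSeries K0), ha⟩ P1 D1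
    hD1 hPD1
  rw [← hres, krv_int_rho] at hPD
  exact ⟨P, D, hD, hPD⟩

end Carrier

end Fermat.Agent.S36
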