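import Fermat.Agent.S36.CongSer
import Fermat.Agent.S34.Val2Exh
import Fermat.Agent.S18.BaseChangeField

/-!
# S36, package CONG, part CAR: the one congruence at the third valuation ring `W_c`

Carrier: `F0`, `F1`, `F2` the function fields of level `M`, `M q`, `M q²` over `K0`,
`al = heckeAlphaBar K0 (M q) q`, `be = heckeBetaBar K0 (M q) q : F1 → F2`.  The third valuation
ring `W_c` enters only through the *`Ec` package* (hypotheses, supplied by VAL3):

* `A'` a valuation subring of `ℚ̄` with `A' ∩ K0 = A0`, `ζ` a primitive `q`-th root of unity,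
* `Ec : F2 →+* ℚ̄((t))` with `Ec (al x) = ` base change of `x` and
  `Ec (be (be' f)) = (base change of f)(ζ t)` for `f` of level `M`,
* domination: `Ec x` in the Gauss ring of `A'` with residue `0` implies `x ∈ 𝔪_{W_c}`.

For `f` of level `M` with integral expansion `Z = t⁻¹ (1 + ⋯)` and
`z_f = be (be' f) - al (al' f)`:

* `s36cc_g`: if `g ∈ V₁` has residue `(θ Z̄)^(q-1)` then `z_f^(q-1) / q + al g ∈ 𝔪_{W_c}`;
* `s36cc_nu`: if `ν · (θ f)(t^q) = θ f` then `z_f^(q-1) / q · al ν + 1 ∈ 𝔪_{W_c}`.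
-/

set_option autoImplicit false

open AlgebraicCurve ModularCurve Fermat.Agent.S18 Fermat.Agent.S34

namespace Fermat.Agent.S36

local notation "Qb" => AlgebraicClosure ℚ

section Car

variable (M q : ℕ) [NeZero M] [hq : Fact q.Prime]
  (K0 : Type*) [Field K0] [Algebra ℚ K0] [Algebra K0 Qb]
  (A0 : ValuationSubring K0) [IsDiscreteValuationRing ↥A0]

omit hq [Algebra ℚ K0] [IsDiscreteValuationRing ↥A0] in
/-- `q` is a non-unit of `A'` -/
theorem s36cc_q_mem (A' : ValuationSubring Qb) (hA' : A'.comap (algebraMap K0 Qb) = A0)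
    (hA0 : A0.LiesOverPrime q) : ((q : ℕ) : Qb) ∈ A'.nonunits := by
  subst hA'
  have h1 : ((q : ℕ) : K0) ∈ (A'.comap (algebraMap K0 Qb)).nonunits := hA0
  rw [ValuationSubring.mem_nonunits_iff] at h1 ⊢
  have h2 : (A'.comap (algebraMap K0 Qb)).valuation ((q : ℕ) : K0) < 1 := h1
  by_contra hcon
  have hmem : ((q : ℕ) : Qb) ∈ A' := natCast_mem A' q
  have hv1 : A'.valuation ((q : ℕ) : Qb) = 1 :=
    le_antisymm ((A'.valuation_le_one_iff _).mpr hmem) (not_lt.mp hcon)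
  have hq0 : ((q : ℕ) : Qb) ≠ 0 := by
    intro h0
    rw [h0, map_zero] at hv1
    exact zero_ne_one hv1
  have hinv : (((q : ℕ) : Qb))⁻¹ ∈ A' := by
    rw [← A'.valuation_le_one_iff, map_inv₀, hv1, inv_one]
  have hinv0 : (((q : ℕ) : K0))⁻¹ ∈ A'.comap (algebraMap K0 Qb) := by
    rw [ValuationSubring.mem_comap, map_inv₀, map_natCast]
    exact hinv
  have hq0' : ((q : ℕ) : K0) ≠ 0 := by
    intro h0
    apply hq0
    have := congrArg (algebraMap K0 Qb) h0
    rwa [map_natCast, map_zero] at this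
  have h3 := (ValuationSubring.valuation_le_one_iff _ _).mpr hinv0
  rw [map_inv₀] at h3
  have hpos : 0 < (A'.comap (algebraMap K0 Qb)).valuation ((q : ℕ) : K0) :=
    zero_lt_iff.mpr ((map_ne_zero _).mpr hq0')
  have h4 := (inv_le_one₀ hpos).mp h3
  exact absurd h2 (not_lt.mpr h4)

variable (A' : ValuationSubring Qb) (hA' : A'.comap (algebraMap K0 Qb) = A0)
  (hA0 : A0.LiesOverPrime q) (ζ : Qb) (hζ : IsPrimitiveRoot ζ q) (hζ0 : ζ ≠ 0)
  (Wc : ValuationSubring ↥(laurentBaseChange K0 (modularFunctionFieldFull (M * q * q))))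
  (Ec : ↥(laurentBaseChange K0 (modularFunctionFieldFull (M * q * q))) →+* LaurentSeries Qb)
  (hEal : ∀ x : ↥(laurentBaseChange K0 (modularFunctionFieldFull (M * q))),
    Ec (heckeAlphaBar K0 (M * q) q x) = coeffMap (algebraMap K0 Qb) (x : LaurentSeries K0))
  (hEbe : ∀ f : ↥(laurentBaseChange K0 (modularFunctionFieldFull M)),
    Ec (heckeBetaBar K0 (M * q) q (heckeBetaBar K0 M q f)) =
      ccjTwist ζ hζ0 (coeffMap (algebraMap K0 Qb) (f : LaurentSeries K0)))
  (hdom : ∀ x : ↥(laurentBaseChange K0 (modularFunctionFieldFull (M * q * q))),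
    ∀ h : Ec x ∈ grV A', grRho A' ⟨Ec x, h⟩ = 0 → x ∈ Wc.nonunits)

include hEal hEbe in
omit [IsDiscreteValuationRing ↥A0] in
/-- the image of `z_f^(q-1) / q` under `Ec` -/
theorem s36cc_Ec_z (f : ↥(laurentBaseChange K0 (modularFunctionFieldFull M)))
    (Z : LaurentSeries ℤ) (hf : (f : LaurentSeries K0) = coeffMap (Int.castRingHom K0) Z) :
    Ec ((heckeBetaBar K0 (M * q) q (heckeBetaBar K0 M q f) -
        heckeAlphaBar K0 (M * q) q (heckeAlphaBar K0 M q f)) ^ (q - 1) *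
        ((q : ℕ) : ↥(laurentBaseChange K0 (modularFunctionFieldFull (M * q * q))))⁻¹) =
      (ccjTwist ζ hζ0 (coeffMap (Int.castRingHom Qb) Z) - coeffMap (Int.castRingHom Qb) Z)
        ^ (q - 1) * algebraMap Qb (LaurentSeries Qb) ((q : ℕ) : Qb)⁻¹ := by
  have hF : coeffMap (algebraMap K0 Qb) (f : LaurentSeries K0) = coeffMap (Int.castRingHom Qb) Z := by
    rw [hf, coeffMap_coeffMap]
    exact coeffMap_congr (RingHom.ext_int _ _) Z
  rw [map_mul, map_pow, map_sub, hEbe, hEal, coe_heckeAlphaBar, hF, map_inv₀, map_natCast,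
    map_inv₀, map_natCast]

include hA' hA0 hζ hEal hEbe hdom in
/-- **the congruence, `g`-form**: `z_f^(q-1) / q + al g ∈ 𝔪_{W_c}` for `g ∈ V₁` with residue
`(θ Z̄)^(q-1)` -/
theorem s36cc_g (f : ↥(laurentBaseChange K0 (modularFunctionFieldFull M)))
    (Z : LaurentSeries ℤ) (hf : (f : LaurentSeries K0) = coeffMap (Int.castRingHom K0) Z)
    (hZ : Hp4Lead Z (-1))
    (g : ↥(laurentBaseChange K0 (modularFunctionFieldFull (M * q))))
    (hg : g ∈ va2V1 M q K0 A0)
    (hres : va2xRho1 M q K0 A0 ⟨g, hg⟩ =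
      thdTheta (IsLocalRing.ResidueField A0)
        (coeffMap (Int.castRingHom (IsLocalRing.ResidueField A0)) Z) ^ (q - 1)) :
    (heckeBetaBar K0 (M * q) q (heckeBetaBar K0 M q f) -
        heckeAlphaBar K0 (M * q) q (heckeAlphaBar K0 M q f)) ^ (q - 1) *
        ((q : ℕ) : ↥(laurentBaseChange K0 (modularFunctionFieldFull (M * q * q))))⁻¹ +
      heckeAlphaBar K0 (M * q) q g ∈ Wc.nonunits := by
  have hqA' : ((q : ℕ) : Qb) ∈ A'.nonunits := s36cc_q_mem q K0 A0 A' hA' hA0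
  subst hA'
  obtain ⟨h1, hr1⟩ := s36cs_pow A' q hqA' ζ hζ hζ0 Z hZ
  have hgV : (g : LaurentSeries K0) ∈ grV (A'.comap (algebraMap K0 Qb)) := hg
  have h2 : coeffMap (algebraMap K0 Qb) (g : LaurentSeries K0) ∈ grV A' := bcf_grV_mem A' hgV
  have hr2 := bcf_grRho A' ⟨(g : LaurentSeries K0), hgV⟩
  have hres' : grRho (A'.comap (algebraMap K0 Qb)) ⟨(g : LaurentSeries K0), hgV⟩ =
      thdTheta (IsLocalRing.ResidueField (A'.comap (algebraMap K0 Qb)))
        (coeffMap (Int.castRingHom (IsLocalRing.ResidueField (A'.comap (algebraMap K0 Qb)))) Z)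
          ^ (q - 1) := hres
  rw [hres', map_pow, ← thdTheta_coeffMap, coeffMap_coeffMap] at hr2
  have hcomp : (bcfResMap A').comp
      (Int.castRingHom (IsLocalRing.ResidueField (A'.comap (algebraMap K0 Qb)))) =
      Int.castRingHom (IsLocalRing.ResidueField A') := RingHom.ext_int _ _
  rw [hcomp, thdTheta_coeffMap] at hr2
  have hE := s36cc_Ec_z M q K0 ζ hζ0 Ec hEal hEbe f Z hf
  have hsum : Ec ((heckeBetaBar K0 (M * q) q (heckeBetaBar K0 M q f) -
        heckeAlphaBar K0 (M * q) q (heckeAlphaBar K0 M q f)) ^ (q - 1) *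
        ((q : ℕ) : ↥(laurentBaseChange K0 (modularFunctionFieldFull (M * q * q))))⁻¹ +
      heckeAlphaBar K0 (M * q) q g) =
      (ccjTwist ζ hζ0 (coeffMap (Int.castRingHom Qb) Z) - coeffMap (Int.castRingHom Qb) Z)
        ^ (q - 1) * algebraMap Qb (LaurentSeries Qb) ((q : ℕ) : Qb)⁻¹ +
      coeffMap (algebraMap K0 Qb) (g : LaurentSeries K0) := by
    rw [map_add, hE, hEal]
  have hmem : Ec ((heckeBetaBar K0 (M * q) q (heckeBetaBar K0 M q f) -
        heckeAlphaBar K0 (M * q) q (heckeAlphaBar K0 M q f)) ^ (q - 1) *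
        ((q : ℕ) : ↥(laurentBaseChange K0 (modularFunctionFieldFull (M * q * q))))⁻¹ +
      heckeAlphaBar K0 (M * q) q g) ∈ grV A' := by
    rw [hsum]
    exact (grV A').add_mem h1 h2
  refine hdom _ hmem ?_
  have e : (⟨_, hmem⟩ : grV A') = ⟨_, h1⟩ + ⟨_, h2⟩ := Subtype.ext hsum
  rw [e, map_add, hr1, hr2]
  ring

include hA' hA0 hζ hEal hEbe hdom in
omit [IsDiscreteValuationRing ↥A0] in
/-- **the congruence, `ν`-form**: `z_f^(q-1) / q · al ν + 1 ∈ 𝔪_{W_c}` for `ν` with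
`ν · (θ f)(t^q) = θ f` -/
theorem s36cc_nu (f : ↥(laurentBaseChange K0 (modularFunctionFieldFull M)))
    (Z : LaurentSeries ℤ) (hf : (f : LaurentSeries K0) = coeffMap (Int.castRingHom K0) Z)
    (hZ : Hp4Lead Z (-1))
    (ν : ↥(laurentBaseChange K0 (modularFunctionFieldFull (M * q))))
    (hν : (ν : LaurentSeries K0) * qExpand K0 q (thdTheta K0 (f : LaurentSeries K0)) =
      thdTheta K0 (f : LaurentSeries K0)) :
    (heckeBetaBar K0 (M * q) q (heckeBetaBar K0 M q f) -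
        heckeAlphaBar K0 (M * q) q (heckeAlphaBar K0 M q f)) ^ (q - 1) *
        ((q : ℕ) : ↥(laurentBaseChange K0 (modularFunctionFieldFull (M * q * q))))⁻¹ *
      heckeAlphaBar K0 (M * q) q ν + 1 ∈ Wc.nonunits := by
  have hqA' : ((q : ℕ) : Qb) ∈ A'.nonunits := s36cc_q_mem q K0 A0 A' hA' hA0
  have hF : coeffMap (algebraMap K0 Qb) (f : LaurentSeries K0) = coeffMap (Int.castRingHom Qb) Z := by
    rw [hf, coeffMap_coeffMap]
    exact coeffMap_congr (RingHom.ext_int _ _) Z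
  have hN : coeffMap (algebraMap K0 Qb) (ν : LaurentSeries K0) *
      qExpand Qb q (thdTheta Qb (coeffMap (Int.castRingHom Qb) Z)) =
      thdTheta Qb (coeffMap (Int.castRingHom Qb) Z) := by
    have h1 := congrArg (coeffMap (algebraMap K0 Qb)) hν
    rwa [map_mul, coeffMap_qExpand, thdTheta_coeffMap, hF] at h1
  obtain ⟨hm, hr⟩ := s36cs_main A' q hqA' ζ hζ hζ0 Z hZ _ hN
  have hE := s36cc_Ec_z M q K0 ζ hζ0 Ec hEal hEbe f Z hf
  have hsum : Ec ((heckeBetaBar K0 (M * q) q (heckeBetaBar K0 M q f) -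
        heckeAlphaBar K0 (M * q) q (heckeAlphaBar K0 M q f)) ^ (q - 1) *
        ((q : ℕ) : ↥(laurentBaseChange K0 (modularFunctionFieldFull (M * q * q))))⁻¹ *
      heckeAlphaBar K0 (M * q) q ν + 1) =
      (ccjTwist ζ hζ0 (coeffMap (Int.castRingHom Qb) Z) - coeffMap (Int.castRingHom Qb) Z)
        ^ (q - 1) * algebraMap Qb (LaurentSeries Qb) ((q : ℕ) : Qb)⁻¹ *
      coeffMap (algebraMap K0 Qb) (ν : LaurentSeries K0) + 1 := by
    rw [map_add, map_mul, hE, hEal, map_one]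
  have hmem : Ec ((heckeBetaBar K0 (M * q) q (heckeBetaBar K0 M q f) -
        heckeAlphaBar K0 (M * q) q (heckeAlphaBar K0 M q f)) ^ (q - 1) *
        ((q : ℕ) : ↥(laurentBaseChange K0 (modularFunctionFieldFull (M * q * q))))⁻¹ *
      heckeAlphaBar K0 (M * q) q ν + 1) ∈ grV A' := by
    rw [hsum]
    exact hm
  refine hdom _ hmem ?_
  have e : (⟨_, hmem⟩ : grV A') = ⟨_, hm⟩ := Subtype.ext hsum
  rw [e, hr]

end Car

end Fermat.Agent.S36
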