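import Fermat.Agent.S36.Val3Wc
import Fermat.Agent.S36.CongCar

/-!
# S36, package VAL3, part CONG: the congruences at `W_c`, closed at the carrier

`s36cc_g` and `s36cc_nu` (`CongCar`) instantiated at `W_c = s36v3Wc M q hM K0 A0`
(`A' = s36v3Ap K0 A0`, `ζ = s36v3Zeta q`, `Ec = s36v3Ec M q hM K0`), for `f` of level `M` with an
integral expansion `Z` with leading term `t⁻¹`, `z = s36v3Z M q K0 f = f(t^(q²)) - f(t)`:

* `s36v3_cong_g`: `z^(q-1) / q + al g ∈ 𝔪_{W_c}` for `g ∈ V₁` with residue `(θ Z̄)^(q-1)`;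
* `s36v3_cong_nu`: `z^(q-1) / q · al ν + 1 ∈ 𝔪_{W_c}` for `ν` with `ν · (θ f)(t^q) = θ f`.
-/

set_option autoImplicit false
set_option linter.style.haveILetI false
set_option linter.unusedSectionVars false

open AlgebraicCurve ModularCurve Fermat.Agent.S18 Fermat.Agent.S34 Fermat.Agent.S35
  Fermat.Agent.S37

namespace Fermat.Agent.S36

local notation "Qb" => AlgebraicClosure ℚ

section Carrier

variable (M q : ℕ) [NeZero M] [hq : Fact q.Prime] (hM : ¬ q ∣ M)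
  (K0 : Type*) [Field K0] [Algebra ℚ K0] [Algebra K0 Qb]
  (A0 : ValuationSubring K0) [IsDiscreteValuationRing ↥A0]

/-- **the congruence at `W_c`, `g`-form** -/
theorem s36v3_cong_g (hA0 : A0.LiesOverPrime q)
    (f : ↥(laurentBaseChange K0 (modularFunctionFieldFull M)))
    (Z : LaurentSeries ℤ) (hf : (f : LaurentSeries K0) = coeffMap (Int.castRingHom K0) Z)
    (hZ : Hp4Lead Z (-1))
    (g : ↥(laurentBaseChange K0 (modularFunctionFieldFull (M * q))))
    (hg : g ∈ va2V1 M q K0 A0)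
    (hres : va2xRho1 M q K0 A0 ⟨g, hg⟩ =
      thdTheta (IsLocalRing.ResidueField A0)
        (coeffMap (Int.castRingHom (IsLocalRing.ResidueField A0)) Z) ^ (q - 1)) :
    s36v3Z M q K0 f ^ (q - 1) *
        ((q : ℕ) : ↥(laurentBaseChange K0 (modularFunctionFieldFull (M * q * q))))⁻¹ +
      heckeAlphaBar K0 (M * q) q g ∈ (s36v3Wc M q hM K0 A0).nonunits :=
  s36cc_g M q K0 A0 (s36v3Ap K0 A0) (s36v3Ap_comap K0 A0) hA0 (s36v3Zeta q) (s36v3Zeta_spec q)
    (s36v3Zeta_ne_zero q) (s36v3Wc M q hM K0 A0) (s36v3Ec M q hM K0) (s36v3Ec_al M q hM K0)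
    (s36ec_be_be M q hM K0 (s36v3Zeta q) (s36v3Zeta_ne_zero q) (s36v3Zeta_pow q)
      (s36v3Zeta_ne_one q))
    (s36v3_Wc_nonunits_of_series M q hM K0 A0) f Z hf hZ g hg hres

/-- **the congruence at `W_c`, `ν`-form** -/
theorem s36v3_cong_nu (hA0 : A0.LiesOverPrime q)
    (f : ↥(laurentBaseChange K0 (modularFunctionFieldFull M)))
    (Z : LaurentSeries ℤ) (hf : (f : LaurentSeries K0) = coeffMap (Int.castRingHom K0) Z)
    (hZ : Hp4Lead Z (-1))
    (ν : ↥(laurentBaseChange K0 (modularFunctionFieldFull (M * q))))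
    (hν : (ν : LaurentSeries K0) * qExpand K0 q (thdTheta K0 (f : LaurentSeries K0)) =
      thdTheta K0 (f : LaurentSeries K0)) :
    s36v3Z M q K0 f ^ (q - 1) *
        ((q : ℕ) : ↥(laurentBaseChange K0 (modularFunctionFieldFull (M * q * q))))⁻¹ *
      heckeAlphaBar K0 (M * q) q ν + 1 ∈ (s36v3Wc M q hM K0 A0).nonunits :=
  s36cc_nu M q K0 A0 (s36v3Ap K0 A0) (s36v3Ap_comap K0 A0) hA0 (s36v3Zeta q) (s36v3Zeta_spec q)
    (s36v3Zeta_ne_zero q) (s36v3Wc M q hM K0 A0) (s36v3Ec M q hM K0) (s36v3Ec_al M q hM K0)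
    (s36ec_be_be M q hM K0 (s36v3Zeta q) (s36v3Zeta_ne_zero q) (s36v3Zeta_pow q)
      (s36v3Zeta_ne_one q))
    (s36v3_Wc_nonunits_of_series M q hM K0 A0) f Z hf hZ ν hν

end Carrier

end Fermat.Agent.S36
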