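import Fermat.Agent.S36.Val3Wc

/-!
# S36 [VAL3-E]: constants at the three vertical valuation rings of level `M q²`; (E) for `W_c`

`F₂ = K0(X₀(M q²))`, `W_a = s36v3Wa` (Gauss), `W_b = W_a ∘ w₂` (`w₂ = s36v3Swap`),
`W_c = s36v3Wc`; `V₁ = va2V1`, `V₂ = va2V2` at level `M q`.

* `s36ve_const_V1`, `s36ve_const_V2`, `s36ve_const_Wa`, `s36ve_const_Wb`, `s36ve_const_Wc`:
  a constant `c ∈ K0` lies in the valuation ring iff `c ∈ A0`; `…_nu`: it is a non-unit there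
  iff `c ∈ 𝔪_{A0}`; `s36ve_q_Wa`, `s36ve_q_Wb`, `s36ve_q_Wc`: `q` is a non-unit of the three
  rings; `s36ve_cst_cb`, `s36ve_cst_ca`: a constant which is a non-unit of `W_c` is a non-unit
  of `W_b` and of `W_a`; `s36ve_Wa_ne_top`, `s36ve_Wb_ne_top`, `s36ve_Wc_ne_top`.
* `s36ve_E_abs`, `s36ve_E`, `s36ve_E_tau`: **(E)** for `W_c` with exponent `q - 1`: if
  `𝔪_{W_c} = z W_c` (clause 2 of `s36v3_z_unif`) then `y ^ (q - 1) / q ∈ W_c` for every
  `y ∈ 𝔪_{W_c}`, and `y ^ (q - 1) / τ ∈ W_c` for every constant `τ` with `q / τ ∈ A0`.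
* `s36ve_z_ne_zero`: `z_f ≠ 0`.
-/

set_option autoImplicit false
set_option linter.unusedSectionVars false

open AlgebraicCurve ModularCurve Fermat.Agent.S18 Fermat.Agent.S34 Fermat.Agent.S35

namespace Fermat.Agent.S36

local notation "Qb" => AlgebraicClosure ℚ

section Abs

variable {F : Type*} [Field F]

/-- (E), abstract: if `z` generates `𝔪_W` and `z ^ e / t ∈ W`, then `y ^ e / t ∈ W` for every
`y ∈ 𝔪_W`. -/
theorem s36ve_E_abs (W : ValuationSubring F) (z t : F) (e : ℕ) (hz0 : z ≠ 0)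
    (hgen : ∀ y ∈ W.nonunits, y * z⁻¹ ∈ W) (hzt : z ^ e * t⁻¹ ∈ W) :
    ∀ y ∈ W.nonunits, y ^ e * t⁻¹ ∈ W := by
  intro y hy
  have h1 : y ^ e * t⁻¹ = (y * z⁻¹) ^ e * (z ^ e * t⁻¹) := by
    rw [mul_pow, inv_pow, mul_assoc, ← mul_assoc ((z ^ e)⁻¹), inv_mul_cancel₀ (pow_ne_zero e hz0),
      one_mul]
  rw [h1]
  exact W.mul_mem _ _ (pow_mem (hgen y hy) e) hzt

theorem s36ve_mul_inv (a b c : F) (hb : b ≠ 0) : a * c⁻¹ = a * b⁻¹ * (b * c⁻¹) := by
  rw [mul_assoc, ← mul_assoc b⁻¹, inv_mul_cancel₀ hb, one_mul]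

/-- a valuation subring with a non-zero non-unit is not `⊤` -/
theorem s36ve_ne_top (W : ValuationSubring F) (x : F) (hx : x ∈ W.nonunits) (hx0 : x ≠ 0) :
    W ≠ ⊤ := by
  intro h
  rw [s36vc_nonunits_iff] at hx
  rcases hx with hx | hx
  · exact hx0 hx
  · exact hx (h ▸ ValuationSubring.mem_top _)

end Abs

section Carrier

variable (M q : ℕ) [NeZero M] [hq : Fact q.Prime] (hM : ¬ q ∣ M)
  (K0 : Type*) [Field K0] [Algebra ℚ K0] [Algebra K0 Qb]
  (A0 : ValuationSubring K0) [IsDiscreteValuationRing ↥A0]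

/-! ### Constants -/

/-- a constant lies in the Gauss valuation ring (every level) iff it lies in `A0` -/
theorem s36ve_const_V1 (c : K0) :
    algebraMap K0 ↥(laurentBaseChange K0 (modularFunctionFieldFull (M * q))) c
      ∈ va2V1 M q K0 A0 ↔ c ∈ A0 := by
  rw [mem_va2V1]
  exact gr_algebraMap_mem_iff A0 c

theorem s36ve_const_V2 (c : K0) :
    algebraMap K0 ↥(laurentBaseChange K0 (modularFunctionFieldFull (M * q))) c
      ∈ va2V2 M q hM K0 A0 ↔ c ∈ A0 := by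
  rw [mem_va2V2, va2Swap_const]
  exact s36ve_const_V1 M q K0 A0 c

theorem s36ve_const_Wa (c : K0) :
    algebraMap K0 ↥(laurentBaseChange K0 (modularFunctionFieldFull (M * q * q))) c
      ∈ s36v3Wa M q K0 A0 ↔ c ∈ A0 :=
  s36ve_const_V1 (M * q) q K0 A0 c

theorem s36ve_const_Wb (c : K0) :
    algebraMap K0 ↥(laurentBaseChange K0 (modularFunctionFieldFull (M * q * q))) c
      ∈ (s36v3Wa M q K0 A0).comap (s36v3Swap M q hM K0) ↔ c ∈ A0 := by
  rw [ValuationSubring.mem_comap, s36v3Swap_const]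
  exact s36ve_const_Wa M q K0 A0 c

theorem s36ve_const_Wc (c : K0) :
    algebraMap K0 ↥(laurentBaseChange K0 (modularFunctionFieldFull (M * q * q))) c
      ∈ s36v3Wc M q hM K0 A0 ↔ c ∈ A0 := by
  have h1 : algebraMap K0 ↥(laurentBaseChange K0 (modularFunctionFieldFull (M * q * q))) c
      = heckeAlphaBar K0 (M * q) q
          (algebraMap K0 ↥(laurentBaseChange K0 (modularFunctionFieldFull (M * q))) c) :=
    (AlgHom.commutes _ c).symm
  rw [h1, s36v3_al_Wc]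
  exact s36ve_const_V1 M q K0 A0 c

/-- a constant is a non-unit of `V₁` iff it is a non-unit of `A0` -/
theorem s36ve_const_V1_nu (c : K0) :
    algebraMap K0 ↥(laurentBaseChange K0 (modularFunctionFieldFull (M * q))) c
      ∈ (va2V1 M q K0 A0).nonunits ↔ c ∈ A0.nonunits :=
  s36v3_nonunits_of_iff (algebraMap K0 _) A0 _ (s36ve_const_V1 M q K0 A0) c

theorem s36ve_const_V2_nu (c : K0) :
    algebraMap K0 ↥(laurentBaseChange K0 (modularFunctionFieldFull (M * q))) c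
      ∈ (va2V2 M q hM K0 A0).nonunits ↔ c ∈ A0.nonunits :=
  s36v3_nonunits_of_iff (algebraMap K0 _) A0 _ (s36ve_const_V2 M q hM K0 A0) c

theorem s36ve_const_Wa_nu (c : K0) :
    algebraMap K0 ↥(laurentBaseChange K0 (modularFunctionFieldFull (M * q * q))) c
      ∈ (s36v3Wa M q K0 A0).nonunits ↔ c ∈ A0.nonunits :=
  s36v3_nonunits_of_iff (algebraMap K0 _) A0 _ (s36ve_const_Wa M q K0 A0) c

theorem s36ve_const_Wb_nu (c : K0) :
    algebraMap K0 ↥(laurentBaseChange K0 (modularFunctionFieldFull (M * q * q))) c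
      ∈ ((s36v3Wa M q K0 A0).comap (s36v3Swap M q hM K0)).nonunits ↔ c ∈ A0.nonunits :=
  s36v3_nonunits_of_iff (algebraMap K0 _) A0 _ (s36ve_const_Wb M q hM K0 A0) c

theorem s36ve_const_Wc_nu (c : K0) :
    algebraMap K0 ↥(laurentBaseChange K0 (modularFunctionFieldFull (M * q * q))) c
      ∈ (s36v3Wc M q hM K0 A0).nonunits ↔ c ∈ A0.nonunits :=
  s36v3_nonunits_of_iff (algebraMap K0 _) A0 _ (s36ve_const_Wc M q hM K0 A0) c

/-- the shape `hcst`: a constant which is a non-unit of `W_c` is a non-unit of `W_b` -/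
theorem s36ve_cst_cb (c : K0)
    (hc : algebraMap K0 ↥(laurentBaseChange K0 (modularFunctionFieldFull (M * q * q))) c
      ∈ (s36v3Wc M q hM K0 A0).nonunits) :
    algebraMap K0 ↥(laurentBaseChange K0 (modularFunctionFieldFull (M * q * q))) c
      ∈ ((s36v3Wa M q K0 A0).comap (s36v3Swap M q hM K0)).nonunits :=
  (s36ve_const_Wb_nu M q hM K0 A0 c).mpr ((s36ve_const_Wc_nu M q hM K0 A0 c).mp hc)

/-- a constant which is a non-unit of `W_c` is a non-unit of `W_a` -/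
theorem s36ve_cst_ca (c : K0)
    (hc : algebraMap K0 ↥(laurentBaseChange K0 (modularFunctionFieldFull (M * q * q))) c
      ∈ (s36v3Wc M q hM K0 A0).nonunits) :
    algebraMap K0 ↥(laurentBaseChange K0 (modularFunctionFieldFull (M * q * q))) c
      ∈ (s36v3Wa M q K0 A0).nonunits :=
  (s36ve_const_Wa_nu M q K0 A0 c).mpr ((s36ve_const_Wc_nu M q hM K0 A0 c).mp hc)

/-! ### The prime `q` -/

theorem s36ve_q_ne_zero :
    ((q : ℕ) : ↥(laurentBaseChange K0 (modularFunctionFieldFull (M * q * q)))) ≠ 0 := by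
  haveI : CharZero K0 := algebraRat.charZero K0
  rw [← map_natCast (algebraMap K0 ↥(laurentBaseChange K0 (modularFunctionFieldFull (M * q * q)))),
    Ne, map_eq_zero]
  exact Nat.cast_ne_zero.mpr hq.out.ne_zero

theorem s36ve_q_Wa (hA0 : A0.LiesOverPrime q) :
    ((q : ℕ) : ↥(laurentBaseChange K0 (modularFunctionFieldFull (M * q * q))))
      ∈ (s36v3Wa M q K0 A0).nonunits := by
  have h := (s36ve_const_Wa_nu M q K0 A0 ((q : ℕ) : K0)).mpr hA0
  rwa [map_natCast] at h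

theorem s36ve_q_Wb (hA0 : A0.LiesOverPrime q) :
    ((q : ℕ) : ↥(laurentBaseChange K0 (modularFunctionFieldFull (M * q * q))))
      ∈ ((s36v3Wa M q K0 A0).comap (s36v3Swap M q hM K0)).nonunits := by
  have h := (s36ve_const_Wb_nu M q hM K0 A0 ((q : ℕ) : K0)).mpr hA0
  rwa [map_natCast] at h

theorem s36ve_q_Wc (hA0 : A0.LiesOverPrime q) :
    ((q : ℕ) : ↥(laurentBaseChange K0 (modularFunctionFieldFull (M * q * q))))
      ∈ (s36v3Wc M q hM K0 A0).nonunits := by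
  have h := (s36ve_const_Wc_nu M q hM K0 A0 ((q : ℕ) : K0)).mpr hA0
  rwa [map_natCast] at h

theorem s36ve_Wa_ne_top (hA0 : A0.LiesOverPrime q) : s36v3Wa M q K0 A0 ≠ ⊤ :=
  s36ve_ne_top _ _ (s36ve_q_Wa M q K0 A0 hA0) (s36ve_q_ne_zero M q K0)

theorem s36ve_Wb_ne_top (hA0 : A0.LiesOverPrime q) :
    (s36v3Wa M q K0 A0).comap (s36v3Swap M q hM K0) ≠ ⊤ :=
  s36ve_ne_top _ _ (s36ve_q_Wb M q hM K0 A0 hA0) (s36ve_q_ne_zero M q K0)

theorem s36ve_Wc_ne_top (hA0 : A0.LiesOverPrime q) : s36v3Wc M q hM K0 A0 ≠ ⊤ :=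
  s36ve_ne_top _ _ (s36ve_q_Wc M q hM K0 A0 hA0) (s36ve_q_ne_zero M q K0)

/-! ### (E) for `W_c` -/

/-- `z_f ≠ 0` for `f` with an integral expansion with a simple pole -/
theorem s36ve_z_ne_zero (f : ↥(laurentBaseChange K0 (modularFunctionFieldFull M)))
    (Z : LaurentSeries ℤ) (hf : (f : LaurentSeries K0) = coeffMap (Int.castRingHom K0) Z)
    (hZ : Hp4Lead Z (-1)) : s36v3Z M q K0 f ≠ 0 := by
  intro h0
  have hc := s36v3_z_coe M q K0 f Z hf
  rw [h0] at hc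
  have hnd : ¬ ((q : ℤ) ∣ (-1 : ℤ)) := by
    intro h
    rw [dvd_neg] at h
    have h' : q ∣ 1 := by exact_mod_cast h
    exact hq.out.one_lt.ne' (Nat.dvd_one.mp h')
  have h2 : (qExpand ℤ q (qExpand ℤ q Z) - Z).coeff (-1) = -1 := by
    rw [HahnSeries.coeff_sub, qExpand_coeff_of_not_dvd q _ hnd, hZ.coeff_self, zero_sub]
  have h1 := congrArg (fun s : LaurentSeries K0 => HahnSeries.coeff s (-1)) hc
  simp only [coeffMap_coeff, h2, ZeroMemClass.coe_zero, HahnSeries.coeff_zero] at h1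
  simp at h1

/-- **(E) for `W_c`, exponent `q - 1`**: if `z_f` generates `𝔪_{W_c}` (clause 2 of
`s36v3_z_unif`), then `y ^ (q - 1) / q ∈ W_c` for every `y ∈ 𝔪_{W_c}`. -/
theorem s36ve_E (hA0 : A0.LiesOverPrime q)
    (f : ↥(laurentBaseChange K0 (modularFunctionFieldFull M)))
    (Z : LaurentSeries ℤ) (hf : (f : LaurentSeries K0) = coeffMap (Int.castRingHom K0) Z)
    (hZ : Hp4Lead Z (-1))
    (hgen : ∀ y ∈ (s36v3Wc M q hM K0 A0).nonunits,
      y * (s36v3Z M q K0 f)⁻¹ ∈ s36v3Wc M q hM K0 A0) :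
    ∀ y ∈ (s36v3Wc M q hM K0 A0).nonunits,
      y ^ (q - 1) * ((q : ℕ) :
        ↥(laurentBaseChange K0 (modularFunctionFieldFull (M * q * q))))⁻¹
        ∈ s36v3Wc M q hM K0 A0 :=
  s36ve_E_abs _ _ _ _ (s36ve_z_ne_zero M q K0 f Z hf hZ) hgen
    (s36v3_z_Wc M q hM K0 A0 hA0 f Z hf hZ).2.1

/-- **(E) for `W_c`, `τ`-form**: for every constant `τ` with `q / τ ∈ A0` (e.g. any
uniformiser of `A0`): `y ^ (q - 1) / τ ∈ W_c` for every `y ∈ 𝔪_{W_c}`. -/
theorem s36ve_E_tau (hA0 : A0.LiesOverPrime q)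
    (f : ↥(laurentBaseChange K0 (modularFunctionFieldFull M)))
    (Z : LaurentSeries ℤ) (hf : (f : LaurentSeries K0) = coeffMap (Int.castRingHom K0) Z)
    (hZ : Hp4Lead Z (-1))
    (hgen : ∀ y ∈ (s36v3Wc M q hM K0 A0).nonunits,
      y * (s36v3Z M q K0 f)⁻¹ ∈ s36v3Wc M q hM K0 A0)
    (τ : K0) (hτ : ((q : ℕ) : K0) * τ⁻¹ ∈ A0) :
    ∀ y ∈ (s36v3Wc M q hM K0 A0).nonunits,
      y ^ (q - 1) * (algebraMap K0
        ↥(laurentBaseChange K0 (modularFunctionFieldFull (M * q * q))) τ)⁻¹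
        ∈ s36v3Wc M q hM K0 A0 := by
  intro y hy
  have h1 := s36ve_E M q hM K0 A0 hA0 f Z hf hZ hgen y hy
  have h2 := (s36ve_const_Wc M q hM K0 A0 (((q : ℕ) : K0) * τ⁻¹)).mpr hτ
  rw [map_mul, map_natCast, map_inv₀] at h2
  have e := s36ve_mul_inv (y ^ (q - 1))
    ((q : ℕ) : ↥(laurentBaseChange K0 (modularFunctionFieldFull (M * q * q))))
    (algebraMap K0 ↥(laurentBaseChange K0 (modularFunctionFieldFull (M * q * q))) τ)
    (s36ve_q_ne_zero M q K0)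
  rw [e]
  exact (s36v3Wc M q hM K0 A0).mul_mem _ _ h1 h2

end Carrier

end Fermat.Agent.S36
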