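import Mathlib
import Fermat.Agent.S35.LocICPt
import Fermat.Agent.S36.WcEps
import Fermat.Agent.S36.LocUnit3
import Fermat.Agent.S36.DatOne
import Fermat.Agent.S36.TriPrin
import Fermat.Agent.S36.Inst36Abs

/-!
# S36, family CHART3, leaf WC-ONE: the one-component clause at a point of the non-reduced
component, from the `ε`-certificate

Setting of `WcEps.lean`: a noetherian integrally closed chart `O` with three vertical valuation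
rings, `𝔫` a closed point lying on `Wc` only, and a certificate `(π, om, c)` as in `s36we_eps`
(`π ∈ O_𝔫 ∩ 𝔪_{Wc}`, `om ∈ O_𝔫`, `c` a unit of `O_𝔫`, `π ^ e / τ * om - c ∈ 𝔪_{Wc}`).

* `s36w1_unit_iff`, `s36w1_dec_transfer`: valuation lemmas; the discreteness statement
  (`hdec` shape) passes from one uniformiser to another.
* `s36w1_frac`: (FRAC) `Wc` is the local ring of the chart at the generic point of its
  component, from a local generator `π` of the centre at ONE point `𝔫` which is a uniformiser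
  in the `hdec` shape (no reducedness of the fibre).
* `s36w1_hpi`: the local equation `π` in the shape of the binder `hπ` of `s36u3_main3`.
* `s36w1_one`: **the (one)-clause at a `Wc`-only point**: `S35IC m O 𝔫 Wc`, and `S35Unit m O 𝔫 f`
  for every `f ≠ 0` with `hord` which is a unit of `Wc`.
* `s36w1_dat`: the written-out datum (conclusion of `s36do_dat_one`) for `W ≡ 1` on `Wc`.
* `s36w1_pt`: the clause `S36inPtOne τ m Wa Wb Wc O 𝔫` of the abstract assembly `s36in_abs`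
  (plain witnesses that `Wa`, `Wb` miss `𝔫`; `τ` a uniformiser of `Wa`, `Wb` in `hdec` shape).
-/

set_option autoImplicit false
set_option linter.unusedSectionVars false
set_option linter.unusedVariables false

namespace Fermat.Agent.S36

open Fermat.Agent.S18 Fermat.Agent.S34 Fermat.Agent.S35

section Val

variable {F : Type*} [Field F]

/-- a nonzero element is a unit of the valuation ring iff its valuation is one -/
theorem s36w1_unit_iff (V : ValuationSubring F) (x : F) (hx0 : x ≠ 0) :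
    (x ∈ V ∧ x⁻¹ ∈ V) ↔ V.valuation x = 1 := by
  have hv0 : V.valuation x ≠ 0 := (Valuation.ne_zero_iff _).mpr hx0
  rw [← V.valuation_le_one_iff, ← V.valuation_le_one_iff, map_inv₀]
  constructor
  · rintro ⟨h1, h2⟩
    exact le_antisymm h1 ((inv_le_one₀ (zero_lt_iff.mpr hv0)).mp h2)
  · intro h
    rw [h, inv_one]
    exact ⟨le_refl _, le_refl _⟩

/-- Transfer of the discreteness statement from a uniformiser `ϖ` (in the `hdec` shape) to any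
generator `π` of the maximal ideal. -/
theorem s36w1_dec_transfer (V : ValuationSubring F) (ϖ π : F) (hϖ0 : ϖ ≠ 0)
    (hdec : ∀ z : F, z ≠ 0 → ∃ j : ℤ, z * ϖ ^ j ∈ V ∧ (z * ϖ ^ j)⁻¹ ∈ V)
    (hπ0 : π ≠ 0) (hπ : π ∈ V.nonunits) (hunif : ∀ y ∈ V.nonunits, y * π⁻¹ ∈ V) :
    ∀ z : F, z ≠ 0 → ∃ j : ℤ, z * π ^ j ∈ V ∧ (z * π ^ j)⁻¹ ∈ V := by
  have hg0 : V.valuation ϖ ≠ 0 := (Valuation.ne_zero_iff _).mpr hϖ0
  have hp0 : V.valuation π ≠ 0 := (Valuation.ne_zero_iff _).mpr hπ0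
  have hp1 : V.valuation π < 1 := (V.mem_nonunits_iff).mp hπ
  have hle : ∀ y : F, V.valuation y < 1 → V.valuation y ≤ V.valuation π := by
    intro y hy
    have h1 := hunif y ((V.mem_nonunits_iff).mpr hy)
    rw [← V.valuation_le_one_iff, map_mul, map_inv₀] at h1
    rwa [mul_inv_le_iff₀ (zero_lt_iff.mpr hp0), one_mul] at h1
  have hval : ∀ z : F, z ≠ 0 → ∃ j : ℤ, V.valuation z * V.valuation ϖ ^ j = 1 := by
    intro z hz
    obtain ⟨j, hj⟩ := hdec z hz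
    refine ⟨j, ?_⟩
    have := (s36w1_unit_iff V _ (mul_ne_zero hz (zpow_ne_zero j hϖ0))).mp hj
    rwa [map_mul, map_zpow₀] at this
  have hcases : V.valuation π = V.valuation ϖ ∨ V.valuation π = (V.valuation ϖ)⁻¹ := by
    obtain ⟨k, hk⟩ := hval π hπ0
    rcases Int.eq_nat_or_neg k with ⟨n, rfl | rfl⟩
    · right
      rw [zpow_natCast] at hk
      have hn : n ≠ 0 := by
        rintro rfl
        rw [pow_zero, mul_one] at hk
        exact (ne_of_lt hp1) hk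
      have hg1 : 1 < V.valuation ϖ := by
        by_contra hcon
        have h1 : V.valuation ϖ ^ n ≤ 1 := pow_le_one₀ zero_le (not_lt.mp hcon)
        have h2 : V.valuation π * V.valuation ϖ ^ n ≤ V.valuation π * 1 :=
          mul_le_mul_right h1 _
        rw [hk, mul_one] at h2
        exact (not_le.mpr hp1) h2
      have hginv : (V.valuation ϖ)⁻¹ < 1 := inv_lt_one_of_one_lt₀ hg1
      have h3 : (V.valuation ϖ)⁻¹ ≤ V.valuation π := by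
        have := hle ϖ⁻¹ (by rw [map_inv₀]; exact hginv)
        rwa [map_inv₀] at this
      have h4 : V.valuation π = ((V.valuation ϖ)⁻¹) ^ n := by
        rw [inv_pow]
        exact eq_inv_of_mul_eq_one_left hk
      refine le_antisymm ?_ h3
      rw [h4]
      exact pow_le_of_le_one zero_le hginv.le hn
    · left
      rw [zpow_neg, zpow_natCast] at hk
      have h4 : V.valuation π = V.valuation ϖ ^ n := by
        have hgn0 : V.valuation ϖ ^ n ≠ 0 := pow_ne_zero n hg0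
        field_simp at hk
        exact hk
      have hn : n ≠ 0 := by
        rintro rfl
        rw [pow_zero] at h4
        exact (ne_of_lt hp1) h4
      have hg1 : V.valuation ϖ < 1 := by
        by_contra hcon
        have h1 : 1 ≤ V.valuation ϖ ^ n := one_le_pow₀ (not_lt.mp hcon)
        rw [← h4] at h1
        exact (not_le.mpr hp1) h1
      refine le_antisymm ?_ (hle ϖ hg1)
      rw [h4]
      exact pow_le_of_le_one zero_le hg1.le hn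
  intro z hz
  obtain ⟨j, hj⟩ := hval z hz
  rcases hcases with h | h
  · refine ⟨j, (s36w1_unit_iff V _ (mul_ne_zero hz (zpow_ne_zero j hπ0))).mpr ?_⟩
    rw [map_mul, map_zpow₀, h]
    exact hj
  · refine ⟨-j, (s36w1_unit_iff V _ (mul_ne_zero hz (zpow_ne_zero _ hπ0))).mpr ?_⟩
    rw [map_mul, map_zpow₀, h, inv_zpow, zpow_neg, inv_inv]
    exact hj

/-- a valuation ring killed by a unit of itself is the whole field -/
theorem s36w1_nu_of_arch (V : ValuationSubring F) (hVtop : V ≠ ⊤) (X : F) (hX : X ∈ V)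
    (harch : ∀ z : F, ∃ N : ℕ, z * X ^ N ∈ V) : X ∈ V.nonunits := by
  by_contra hnu
  have hXinv : X⁻¹ ∈ V := s36we_inv_mem V hX hnu
  have hX0 : X ≠ 0 := fun h0 => hnu (by rw [h0]; exact V.nonunits.zero_mem)
  apply hVtop
  rw [eq_top_iff]
  intro z _
  obtain ⟨N, hN⟩ := harch z
  have e1 : z = z * X ^ N * X⁻¹ ^ N := by
    rw [mul_assoc, ← mul_pow, mul_inv_cancel₀ hX0, one_pow, mul_one]
  rw [e1]
  exact V.mul_mem _ _ hN (pow_mem hXinv N)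

end Val

section Chart

variable {A F : Type*} [CommRing A] [Field F] [Algebra A F]

/-- **(FRAC) from a local generator.**  If the centre of `V` on the chart is generated at the
point `𝔫` by `π` (fraction form `hprin`) and `π` is a uniformiser of `V` in the `hdec` shape,
then every `z ∈ V` is `a / s` with `a, s ∈ O` and `s` a unit of `V`. -/
theorem s36w1_frac (O : Subalgebra A F) (V : ValuationSubring F) (hOV : ∀ x ∈ O, x ∈ V)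
    (hfrac : ∀ x : F, ∃ a ∈ O, ∃ s ∈ O, s ≠ 0 ∧ x * s = a)
    (𝔫 : Ideal ↥O)
    (h1 : ∀ x : ↥O, (x : F) ∈ V.nonunits → x ∈ 𝔫)
    (π : F) (hπ0 : π ≠ 0) (hπV : π ∈ V.nonunits)
    (hprin : ∀ z : ↥O, (z : F) ∈ V.nonunits →
      ∃ b c : ↥O, c ∉ 𝔫 ∧ (z : F) * (c : F) = π * (b : F))
    (hdec : ∀ z : F, z ≠ 0 → ∃ j : ℤ, z * π ^ j ∈ V ∧ (z * π ^ j)⁻¹ ∈ V)
    (z : F) (hz : z ∈ V) :
    ∃ a s : ↥O, (s : F) ∉ V.nonunits ∧ z * (s : F) = (a : F) := by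
  have hunit : ∀ c : ↥O, c ∉ 𝔫 → (c : F) ≠ 0 ∧ (c : F)⁻¹ ∈ V := by
    intro c hc
    have hnu : (c : F) ∉ V.nonunits := fun h => hc (h1 c h)
    exact ⟨fun h0 => hnu (by rw [h0]; exact V.nonunits.zero_mem), s35i_inv_mem V hnu⟩
  have hπpow : ∀ n : ℕ, π ^ (n + 1) ∈ V.nonunits := by
    intro n
    rw [pow_succ']
    exact cpl_nu_mul V hπV (V.pow_mem (ValuationSubring.nonunits_subset hπV) n)
  have key : ∀ n : ℕ, ∀ a b : ↥O, z * (b : F) = (a : F) → (b : F) ≠ 0 →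
      (b : F) * (π ^ n)⁻¹ ∈ V → ((b : F) * (π ^ n)⁻¹)⁻¹ ∈ V →
      ∃ a s : ↥O, (s : F) ∉ V.nonunits ∧ z * (s : F) = (a : F) := by
    intro n
    induction n with
    | zero =>
      intro a b hzb hb0 _ hu'
      rw [pow_zero, inv_one, mul_one] at hu'
      exact ⟨a, b, s35i_not_nu_of_inv V hb0 hu', hzb⟩
    | succ n ih =>
      intro a b hzb hb0 hu hu'
      have hπn0 : π ^ (n + 1) ≠ 0 := pow_ne_zero _ hπ0
      have hπn0' : π ^ n ≠ 0 := pow_ne_zero _ hπ0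
      have hbnu : (b : F) ∈ V.nonunits := by
        have e1 : (b : F) = π ^ (n + 1) * ((b : F) * (π ^ (n + 1))⁻¹) := by field_simp
        rw [e1]
        exact cpl_nu_mul V (hπpow n) hu
      have hanu : (a : F) ∈ V.nonunits := by
        rw [← hzb, mul_comm]
        exact cpl_nu_mul V hbnu hz
      obtain ⟨a₁, c₁, hc₁, ha₁⟩ := hprin a hanu
      obtain ⟨b₁, c₂, hc₂, hb₁⟩ := hprin b hbnu
      obtain ⟨hc₁0, hc₁i⟩ := hunit c₁ hc₁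
      obtain ⟨hc₂0, hc₂i⟩ := hunit c₂ hc₂
      have hb₁0 : (b₁ : F) ≠ 0 := by
        intro h
        rw [h, mul_zero] at hb₁
        exact (mul_ne_zero hb0 hc₂0) hb₁
      have hb₁eq : (b₁ : F) = (b : F) * (c₂ : F) * π⁻¹ := by
        rw [hb₁]; field_simp
      have ha₁eq : (a₁ : F) = (a : F) * (c₁ : F) * π⁻¹ := by
        rw [ha₁]; field_simp
      refine ih (a₁ * c₂) (b₁ * c₁) ?_ ?_ ?_ ?_
      · push_cast
        rw [hb₁eq, ha₁eq, ← hzb]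
        ring
      · push_cast
        exact mul_ne_zero hb₁0 hc₁0
      · have e2 : ((b₁ * c₁ : ↥O) : F) * (π ^ n)⁻¹ =
            (b : F) * (π ^ (n + 1))⁻¹ * ((c₁ : F) * (c₂ : F)) := by
          push_cast
          rw [hb₁eq, pow_succ]
          field_simp
        rw [e2]
        exact V.mul_mem _ _ hu (V.mul_mem _ _ (hOV _ c₁.2) (hOV _ c₂.2))
      · have e2 : (((b₁ * c₁ : ↥O) : F) * (π ^ n)⁻¹)⁻¹ =
            ((b : F) * (π ^ (n + 1))⁻¹)⁻¹ * ((c₁ : F)⁻¹ * (c₂ : F)⁻¹) := by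
          push_cast
          rw [hb₁eq, pow_succ]
          field_simp
        rw [e2]
        exact V.mul_mem _ _ hu' (V.mul_mem _ _ hc₁i hc₂i)
  obtain ⟨a, ha, b, hb, hb0, hzb⟩ := hfrac z
  obtain ⟨j, hj, hj'⟩ := hdec b hb0
  have hjle : j ≤ 0 := by
    by_contra hcon
    have hcon' : 0 < j := not_le.mp hcon
    obtain ⟨k, hk⟩ : ∃ k : ℕ, j = (k : ℤ) + 1 := ⟨(j - 1).toNat, by omega⟩
    have h1' : b * π ^ j ∈ V.nonunits := by
      rw [hk, zpow_add_one₀ hπ0, zpow_natCast, ← pow_succ, mul_comm]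
      exact cpl_nu_mul V (hπpow k) (hOV _ hb)
    exact s35i_not_nu_of_inv V (mul_ne_zero hb0 (zpow_ne_zero _ hπ0)) hj' h1'
  obtain ⟨n, hn⟩ : ∃ n : ℕ, j = -(n : ℤ) := ⟨(-j).toNat, by omega⟩
  rw [hn, zpow_neg, zpow_natCast] at hj hj'
  exact key n ⟨a, ha⟩ ⟨b, hb⟩ hzb hb0 hj hj'

/-- The local equation `π` of `Wc` at `𝔫` divides `s * τ` (`s ∉ 𝔫`): from
`π ^ e * s = τ * a` (`a, s ∉ 𝔫`, `e ≥ 1`) and `π ∈ O_𝔫`. -/
theorem s36w1_dvd_tau (τ : A) (O : Subalgebra A F) (𝔫 : Ideal ↥O) [h𝔫 : 𝔫.IsPrime]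
    (e : ℕ) (he : 0 < e)
    (π : F) (hπO : ∃ a s : ↥O, s ∉ 𝔫 ∧ π * (s : F) = (a : F))
    (hπe : ∃ a s : ↥O, a ∉ 𝔫 ∧ s ∉ 𝔫 ∧ π ^ e * (s : F) = algebraMap A F τ * (a : F)) :
    ∃ (a s : ↥O) (k : ℕ), s ∉ 𝔫 ∧ π * (a : F) = (s : F) * algebraMap A F τ ^ k := by
  obtain ⟨a, s, ha, hs, h⟩ := hπe
  obtain ⟨aπ, sπ, hsπ, hπ⟩ := hπO
  obtain ⟨k, rfl⟩ : ∃ k, e = k + 1 := ⟨e - 1, by omega⟩
  refine ⟨aπ ^ k * s, a * sπ ^ k, 1, fun hmem => ?_, ?_⟩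
  · rcases h𝔫.mem_or_mem hmem with h' | h'
    · exact ha h'
    · exact hsπ (h𝔫.mem_of_pow_mem k h')
  · push_cast
    rw [← hπ, pow_one]
    linear_combination ((sπ : F) ^ k) * h

/-- **WC-ONE.**  The (one)-clause at a closed point `𝔫` lying on the non-reduced component `Wc`
only (`Wa`, `Wb` killed by functions of `O ∖ 𝔫`), from the `ε`-certificate `(π, om, c)` of
`s36we_eps`, the Dedekind coordinate ring `hD` of `Wc` and the saturation `hdiv` of the chart: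
the branch ring of `Wc` at `𝔫` is closed under `m`-th roots of units (`S35IC`), and every `f ≠ 0` with `hord` which is
a unit of `Wc` is a unit of `O_𝔫` times an `m`-th power (`S35Unit`). -/
theorem s36w1_one (τ : A) (hτ0 : algebraMap A F τ ≠ 0) (O : Subalgebra A F)
    [IsNoetherianRing ↥O] (hfrac : ∀ x : F, ∃ a ∈ O, ∃ s ∈ O, s ≠ 0 ∧ x * s = a)
    (hic : ∀ x : F, IsIntegral ↥O x → x ∈ O)
    (Wc Wa Wb : ValuationSubring F)
    (hOc : ∀ y ∈ O, y ∈ Wc) (hOa : ∀ y ∈ O, y ∈ Wa) (hOb : ∀ y ∈ O, y ∈ Wb)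
    (hWctop : Wc ≠ ⊤) (hWatop : Wa ≠ ⊤) (hWbtop : Wb ≠ ⊤)
    (hred : ∀ x ∈ O, x ∈ Wc.nonunits → x ∈ Wa.nonunits → x ∈ Wb.nonunits →
      ∃ (N : ℕ), ∃ y ∈ O, x ^ N = algebraMap A F τ * y)
    (hdiv : ∀ x ∈ O, x * (algebraMap A F τ)⁻¹ ∈ Wa → x * (algebraMap A F τ)⁻¹ ∈ Wb →
      x * (algebraMap A F τ)⁻¹ ∈ Wc → x * (algebraMap A F τ)⁻¹ ∈ O)
    (hD : ∀ 𝔭 : Ideal ↥O, (∀ x : ↥O, x ∈ 𝔭 ↔ (x : F) ∈ Wc.nonunits) →
      IsDedekindDomain (↥O ⧸ 𝔭))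
    (m : ℕ) (hm : 0 < m)
    (𝔫 : Ideal ↥O) (h𝔫 : 𝔫.IsMaximal)
    (h1 : ∀ x : ↥O, (x : F) ∈ Wc.nonunits → x ∈ 𝔫)
    (hoffa : ∃ X : ↥O, X ∉ 𝔫 ∧ ∀ z : F, ∃ N : ℕ, z * (X : F) ^ N ∈ Wa)
    (hoffb : ∃ X : ↥O, X ∉ 𝔫 ∧ ∀ z : F, ∃ N : ℕ, z * (X : F) ^ N ∈ Wb)
    (e : ℕ) (he : 0 < e) (hE : ∀ y ∈ Wc.nonunits, y ^ e * (algebraMap A F τ)⁻¹ ∈ Wc)
    (π : F) (hπO : ∃ a s : ↥O, s ∉ 𝔫 ∧ π * (s : F) = (a : F)) (hπc : π ∈ Wc.nonunits)
    (om c : F) (homO : ∃ a s : ↥O, s ∉ 𝔫 ∧ om * (s : F) = (a : F))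
    (hcO : ∃ a s : ↥O, a ∉ 𝔫 ∧ s ∉ 𝔫 ∧ c * (s : F) = (a : F))
    (hcong : π ^ e * (algebraMap A F τ)⁻¹ * om - c ∈ Wc.nonunits) :
    S35IC m O 𝔫 Wc ∧
    ∀ f : F, f ≠ 0 →
      (∀ V : ValuationSubring F, (∀ a : A, algebraMap A F a ∈ V) →
        (algebraMap A F τ)⁻¹ ∈ V → IsPrincipalIdealRing V →
        ∃ u : F, u ≠ 0 ∧ f * u ^ m ∈ V ∧ (f * u ^ m)⁻¹ ∈ V) →
      f ∈ Wc → f⁻¹ ∈ Wc → S35Unit m O 𝔫 f := by
  have h𝔫' : 𝔫.IsPrime := h𝔫.isPrime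
  -- the other two components miss `𝔫`
  have ha : ∃ r : ↥O, (r : F) ∈ Wa.nonunits ∧ r ∉ 𝔫 := by
    obtain ⟨X, hX, harch⟩ := hoffa
    exact ⟨X, s36w1_nu_of_arch Wa hWatop _ (hOa _ X.2) harch, hX⟩
  have hb : ∃ r : ↥O, (r : F) ∈ Wb.nonunits ∧ r ∉ 𝔫 := by
    obtain ⟨X, hX, harch⟩ := hoffb
    exact ⟨X, s36w1_nu_of_arch Wb hWbtop _ (hOb _ X.2) harch, hX⟩
  have hnota : ¬ ∀ x : ↥O, (x : F) ∈ Wa.nonunits → x ∈ 𝔫 := by
    intro h
    obtain ⟨r, hr, hrn⟩ := ha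
    exact hrn (h r hr)
  have hnotb : ¬ ∀ x : ↥O, (x : F) ∈ Wb.nonunits → x ∈ 𝔫 := by
    intro h
    obtain ⟨r, hr, hrn⟩ := hb
    exact hrn (h r hr)
  -- the certificate
  have hπe := s36we_eps τ hτ0 O hfrac hic Wc Wa Wb hOc hOa hOb hWctop hWatop hWbtop hred 𝔫 h1 ha
    hb e hE π hπO hπc om c homO hcO hcong
  obtain ⟨hπ0, hunif⟩ := s36we_unif τ hτ0 O Wc hOc 𝔫 h1 e he hE π hπe
  have hprin := s36we_prin τ hτ0 O hfrac hic Wc Wa Wb hOc hOa hOb hWctop hWatop hWbtop hred 𝔫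
    h1 ha hb e he hE π hπO hπc om c homO hcO hcong
  have hdecπ := s36tn_dec O hfrac 𝔫 h𝔫 Wc hOc h1 π hπ0 hπc hπO hprin
  refine ⟨?_, ?_⟩
  · -- `S35IC`
    obtain ⟨p, hpmem⟩ := s35ip_exists_p O Wc hOc
    have hded : IsDedekindDomain (↥O ⧸ p) := hD p hpmem
    have hp𝔫 : p ≤ 𝔫 := fun x hx => h1 x ((hpmem x).mp hx)
    exact s35i_ic_ded O 𝔫 Wc hOc p hpmem hp𝔫
      (fun z hz => s36w1_frac O Wc hOc hfrac 𝔫 h1 π hπ0 hπc hprin hdecπ z hz) m hm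
  · -- `S35Unit`
    intro f hf hord hfc hfc'
    have hloc : S34Loc τ m O f 𝔫 :=
      s36we_loc τ hτ0 O hfrac hic Wc Wa Wb hOc hOa hOb hWctop hWatop hWbtop hred hD m hm 𝔫 h𝔫
        h1 ha hb e he hE π hπO hπc om c homO hcO hcong f hf hord
    refine s36u3_main3 τ hτ0 O 𝔫 Wa Wb Wc hOa hOb hOc hdiv ?_ ?_ m f hf hloc ?_
    · intro V hV hnot
      simp only [Set.mem_insert_iff, Set.mem_singleton_iff] at hV
      rcases hV with hV | hV | hV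
      · rw [hV]; exact hoffa
      · rw [hV]; exact hoffb
      · rw [hV] at hnot; exact absurd h1 hnot
    · intro V hV hthr
      simp only [Set.mem_insert_iff, Set.mem_singleton_iff] at hV
      rcases hV with hV | hV | hV
      · rw [hV] at hthr; exact absurd hthr hnota
      · rw [hV] at hthr; exact absurd hthr hnotb
      · rw [hV]
        refine ⟨π, hπ0, hπO, s36w1_dvd_tau τ O 𝔫 e he π hπO hπe, hdecπ, ?_⟩
        intro V' hV' hne hthr'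
        simp only [Set.mem_insert_iff, Set.mem_singleton_iff] at hV'
        rcases hV' with hV' | hV' | hV'
        · rw [hV'] at hthr'; exact absurd hthr' hnota
        · rw [hV'] at hthr'; exact absurd hthr' hnotb
        · exact absurd hV' hne
    · intro V hV hthr
      simp only [Set.mem_insert_iff, Set.mem_singleton_iff] at hV
      rcases hV with hV | hV | hV
      · rw [hV] at hthr; exact absurd hthr hnota
      · rw [hV] at hthr; exact absurd hthr hnotb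
      · rw [hV]; exact ⟨hfc, hfc'⟩

/-- **WC-ONE, datum form.**  In the setting of `s36w1_one`, for every `W ≠ 0` with `hord` and
`W ≡ 1` on `Wc`: the written-out datum of `s36do_dat_one` at `𝔫` for the family
`{Wa, Wb, Wc}` (only `Wc` passes through `𝔫`). -/
theorem s36w1_dat (τ : A) (hτ0 : algebraMap A F τ ≠ 0) (O : Subalgebra A F)
    [IsNoetherianRing ↥O] (hfrac : ∀ x : F, ∃ a ∈ O, ∃ s ∈ O, s ≠ 0 ∧ x * s = a)
    (hic : ∀ x : F, IsIntegral ↥O x → x ∈ O)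
    (Wc Wa Wb : ValuationSubring F)
    (hOc : ∀ y ∈ O, y ∈ Wc) (hOa : ∀ y ∈ O, y ∈ Wa) (hOb : ∀ y ∈ O, y ∈ Wb)
    (hWctop : Wc ≠ ⊤) (hWatop : Wa ≠ ⊤) (hWbtop : Wb ≠ ⊤)
    (hred : ∀ x ∈ O, x ∈ Wc.nonunits → x ∈ Wa.nonunits → x ∈ Wb.nonunits →
      ∃ (N : ℕ), ∃ y ∈ O, x ^ N = algebraMap A F τ * y)
    (hdiv : ∀ x ∈ O, x * (algebraMap A F τ)⁻¹ ∈ Wa → x * (algebraMap A F τ)⁻¹ ∈ Wb →
      x * (algebraMap A F τ)⁻¹ ∈ Wc → x * (algebraMap A F τ)⁻¹ ∈ O)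
    (hD : ∀ 𝔭 : Ideal ↥O, (∀ x : ↥O, x ∈ 𝔭 ↔ (x : F) ∈ Wc.nonunits) →
      IsDedekindDomain (↥O ⧸ 𝔭))
    (m : ℕ) (hm : 0 < m)
    (𝔫 : Ideal ↥O) (h𝔫 : 𝔫.IsMaximal)
    (h1 : ∀ x : ↥O, (x : F) ∈ Wc.nonunits → x ∈ 𝔫)
    (hoffa : ∃ X : ↥O, X ∉ 𝔫 ∧ ∀ z : F, ∃ N : ℕ, z * (X : F) ^ N ∈ Wa)
    (hoffb : ∃ X : ↥O, X ∉ 𝔫 ∧ ∀ z : F, ∃ N : ℕ, z * (X : F) ^ N ∈ Wb)
    (e : ℕ) (he : 0 < e) (hE : ∀ y ∈ Wc.nonunits, y ^ e * (algebraMap A F τ)⁻¹ ∈ Wc)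
    (π : F) (hπO : ∃ a s : ↥O, s ∉ 𝔫 ∧ π * (s : F) = (a : F)) (hπc : π ∈ Wc.nonunits)
    (om c : F) (homO : ∃ a s : ↥O, s ∉ 𝔫 ∧ om * (s : F) = (a : F))
    (hcO : ∃ a s : ↥O, a ∉ 𝔫 ∧ s ∉ 𝔫 ∧ c * (s : F) = (a : F))
    (hcong : π ^ e * (algebraMap A F τ)⁻¹ * om - c ∈ Wc.nonunits)
    (q : ℕ) (W : F) (hW0 : W ≠ 0)
    (hord : ∀ V : ValuationSubring F, (∀ a : A, algebraMap A F a ∈ V) →
        (algebraMap A F τ)⁻¹ ∈ V → IsPrincipalIdealRing V →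
        ∃ u : F, u ≠ 0 ∧ W * u ^ m ∈ V ∧ (W * u ^ m)⁻¹ ∈ V)
    (hW1 : W - 1 ∈ Wc.nonunits) :
    ∃ (k : ℕ) (g : F) (a s r s₀ : ↥O), s ∉ 𝔫 ∧ r ∉ 𝔫 ∧ s₀ ∉ 𝔫 ∧
      W ^ (q ^ k) * (s : F) = (a : F) * g ^ m ∧
      ∀ V' ∈ ({Wa, Wb, Wc} : Set (ValuationSubring F)),
        (∀ x : ↥O, (x : F) ∈ V'.nonunits → x ∈ 𝔫) →
        g * (s₀ : F) - (r : F) ∈ V'.nonunits := by
  have h𝔫' : 𝔫.IsPrime := h𝔫.isPrime
  obtain ⟨hIC, hUnit⟩ := s36w1_one τ hτ0 O hfrac hic Wc Wa Wb hOc hOa hOb hWctop hWatop hWbtop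
    hred hdiv hD m hm 𝔫 h𝔫 h1 hoffa hoffb e he hE π hπO hπc om c homO hcO hcong
  have hWv : Wc.valuation W = 1 := by
    have e1 : W = 1 + (W - 1) := by ring
    rw [e1]
    exact Wc.valuation.map_one_add_of_lt ((Wc.mem_nonunits_iff).mp hW1)
  obtain ⟨hWc, hWc'⟩ := (s36w1_unit_iff Wc W hW0).mpr hWv
  have hWu : S35Unit m O 𝔫 W := hUnit W hW0 hord hWc hWc'
  refine s36do_dat_one O 𝔫 ({Wa, Wb, Wc} : Set (ValuationSubring F)) Wc hOc h1 ?_ m q hm hIC W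
    hWu hW1
  intro V' hV' hthr
  simp only [Set.mem_insert_iff, Set.mem_singleton_iff] at hV'
  rcases hV' with hV' | hV' | hV'
  · exfalso
    rw [hV'] at hthr
    obtain ⟨X, hX, harch⟩ := hoffa
    exact hX (hthr X (s36w1_nu_of_arch Wa hWatop _ (hOa _ X.2) harch))
  · exfalso
    rw [hV'] at hthr
    obtain ⟨X, hX, harch⟩ := hoffb
    exact hX (hthr X (s36w1_nu_of_arch Wb hWbtop _ (hOb _ X.2) harch))
  · exact hV'

/-- a valuation ring with a nonzero non-unit is not the whole field -/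
theorem s36w1_ne_top (V : ValuationSubring F) (x : F) (hx0 : x ≠ 0) (hx : x ∈ V.nonunits) :
    V ≠ ⊤ := by
  intro h
  have hinv : x⁻¹ ∈ V := by rw [h]; exact ValuationSubring.mem_top _
  have h1 := cz_nonunits_mul V hx hinv
  rw [mul_inv_cancel₀ hx0] at h1
  exact cz_one_not_mem_nonunits V h1

/-- **WC-ONE, point form.**  The clause `S36inPtOne` of the abstract assembly `s36in_abs` at a
closed point `𝔫` lying on the non-reduced component `Wc` only, from the `ε`-certificate.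
Binders: the chart block in the shape of `s36c3_all` / `s36in_abs` (`hO`, `hdiv`, `hfrac`,
`hic`, noetherian), `τ` a uniformiser of `Wa`, `Wb` (`hdeca`, `hdecb`), `τ ∈ 𝔪_{Wc}`,
`(E)`, the Dedekind coordinate ring `hD` of `Wc`, the point (`h1`, and plain witnesses `ha`,
`hb` that `Wa`, `Wb` miss `𝔫`) and the certificate `(π, om, c)`. -/
theorem s36w1_pt (τ : A) (hτ0 : algebraMap A F τ ≠ 0) (O : Subalgebra A F)
    [IsNoetherianRing ↥O] (hfrac : ∀ x : F, ∃ a ∈ O, ∃ s ∈ O, s ≠ 0 ∧ x * s = a)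
    (hic : ∀ x : F, IsIntegral ↥O x → x ∈ O)
    (Wa Wb Wc : ValuationSubring F)
    (hO : ∀ x ∈ O, x ∈ Wa ∧ x ∈ Wb ∧ x ∈ Wc)
    (hτa : algebraMap A F τ ∈ Wa.nonunits) (hτb : algebraMap A F τ ∈ Wb.nonunits)
    (hτc : algebraMap A F τ ∈ Wc.nonunits)
    (hdeca : ∀ z : F, z ≠ 0 → ∃ j : ℤ, z * algebraMap A F τ ^ j ∈ Wa ∧
      (z * algebraMap A F τ ^ j)⁻¹ ∈ Wa)
    (hdecb : ∀ z : F, z ≠ 0 → ∃ j : ℤ, z * algebraMap A F τ ^ j ∈ Wb ∧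
      (z * algebraMap A F τ ^ j)⁻¹ ∈ Wb)
    (hdiv : ∀ x ∈ O, x * (algebraMap A F τ)⁻¹ ∈ Wa → x * (algebraMap A F τ)⁻¹ ∈ Wb →
      x * (algebraMap A F τ)⁻¹ ∈ Wc → x * (algebraMap A F τ)⁻¹ ∈ O)
    (e : ℕ) (he : 0 < e) (hE : ∀ y ∈ Wc.nonunits, y ^ e * (algebraMap A F τ)⁻¹ ∈ Wc)
    (hD : ∀ 𝔭 : Ideal ↥O, (∀ x : ↥O, x ∈ 𝔭 ↔ (x : F) ∈ Wc.nonunits) →
      IsDedekindDomain (↥O ⧸ 𝔭))
    (m : ℕ) (hm : 0 < m)
    (𝔫 : Ideal ↥O) (h𝔫 : 𝔫.IsMaximal)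
    (h1 : ∀ x : ↥O, (x : F) ∈ Wc.nonunits → x ∈ 𝔫)
    (ha : ∃ r : ↥O, (r : F) ∈ Wa.nonunits ∧ r ∉ 𝔫)
    (hb : ∃ r : ↥O, (r : F) ∈ Wb.nonunits ∧ r ∉ 𝔫)
    (π : F) (hπO : ∃ a s : ↥O, s ∉ 𝔫 ∧ π * (s : F) = (a : F)) (hπc : π ∈ Wc.nonunits)
    (om c : F) (homO : ∃ a s : ↥O, s ∉ 𝔫 ∧ om * (s : F) = (a : F))
    (hcO : ∃ a s : ↥O, a ∉ 𝔫 ∧ s ∉ 𝔫 ∧ c * (s : F) = (a : F))
    (hcong : π ^ e * (algebraMap A F τ)⁻¹ * om - c ∈ Wc.nonunits) :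
    S36inPtOne τ m Wa Wb Wc O 𝔫 := by
  have hOa : ∀ y ∈ O, y ∈ Wa := fun y hy => (hO y hy).1
  have hOb : ∀ y ∈ O, y ∈ Wb := fun y hy => (hO y hy).2.1
  have hOc : ∀ y ∈ O, y ∈ Wc := fun y hy => (hO y hy).2.2
  have hWatop := s36w1_ne_top Wa _ hτ0 hτa
  have hWbtop := s36w1_ne_top Wb _ hτ0 hτb
  have hWctop := s36w1_ne_top Wc _ hτ0 hτc
  have hgena : ∀ x ∈ Wa.nonunits, x * (algebraMap A F τ)⁻¹ ∈ Wa :=
    fun x hx => s36in_gen Wa _ hτ0 hτa hdeca x hx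
  have hgenb : ∀ x ∈ Wb.nonunits, x * (algebraMap A F τ)⁻¹ ∈ Wb :=
    fun x hx => s36in_gen Wb _ hτ0 hτb hdecb x hx
  have hred : ∀ x ∈ O, x ∈ Wc.nonunits → x ∈ Wa.nonunits → x ∈ Wb.nonunits →
      ∃ (N : ℕ), ∃ y ∈ O, x ^ N = algebraMap A F τ * y := fun x hx hxc hxa hxb =>
    s36wc_hred3 τ O Wa Wb Wc hOa hOb hgena hgenb e he hE hτ0 hdiv x hx hxa hxb hxc
  have hoffa : ∃ X : ↥O, X ∉ 𝔫 ∧ ∀ z : F, ∃ N : ℕ, z * (X : F) ^ N ∈ Wa := by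
    obtain ⟨r, hr, hrn⟩ := ha
    refine ⟨r, hrn, fun z => ?_⟩
    exact s36u3_arch Wa _ (ValuationSubring.nonunits_subset hτa) hτ0 hdeca 1 (r : F)
      (by rw [pow_one]; exact hgena _ hr) z
  have hoffb : ∃ X : ↥O, X ∉ 𝔫 ∧ ∀ z : F, ∃ N : ℕ, z * (X : F) ^ N ∈ Wb := by
    obtain ⟨r, hr, hrn⟩ := hb
    refine ⟨r, hrn, fun z => ?_⟩
    exact s36u3_arch Wb _ (ValuationSubring.nonunits_subset hτb) hτ0 hdecb 1 (r : F)
      (by rw [pow_one]; exact hgenb _ hr) z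
  obtain ⟨hIC, hUnit⟩ := s36w1_one τ hτ0 O hfrac hic Wc Wa Wb hOc hOa hOb hWctop hWatop hWbtop
    hred hdiv hD m hm 𝔫 h𝔫 h1 hoffa hoffb e he hE π hπO hπc om c homO hcO hcong
  refine ⟨Wc, Or.inr (Or.inr rfl), h1, ?_, hIC, fun f hf hord hfc hfc' => hUnit f hf hord hfc hfc'⟩
  intro V' hV'
  rcases hV' with hV' | hV' | hV'
  · right
    rw [hV']
    obtain ⟨r, hr, hrn⟩ := ha
    exact ⟨r, hr, hrn⟩
  · right
    rw [hV']
    obtain ⟨r, hr, hrn⟩ := hb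
    exact ⟨r, hr, hrn⟩
  · exact Or.inl hV'

end Chart

end Fermat.Agent.S36
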