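import Mathlib
import Fermat.Agent.S34.DomInst
import Fermat.Agent.S34.ThetaDelta
import Fermat.Agent.S35.GaussSep
import Fermat.Agent.S36.Charts3
import Fermat.Agent.S36.CompDed3
import Fermat.Agent.S36.CuspInst3
import Fermat.Agent.S36.PsiRatJ
import Fermat.Agent.S36.Val3Fin
import Fermat.Agent.S36.Val3E
import Fermat.Agent.S36.Val3Cong
import Fermat.Agent.S36.App3Inst
import Fermat.Agent.S36.VertTorInst
import Fermat.Agent.S36.WcOne
import Fermat.Agent.S36.NcCar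

/-!
# S36, leaf WC-CAR: the closed points lying on the third component `W_c` only, at the carrier

Carrier: `F₂` the function field of level `M q ^ 2` over `K0`, `A0` a discrete valuation subring
of `K0` over `q ∤ M`, unramified (`hunr`), the three vertical valuation rings
`W_a = va2V1 (M * q) q K0 A0`, `W_b = s36v3Wb M q hM K0 A0`, `W_c = s36v3Wc M q hM K0 A0`, the two
Hauptmodul charts `chtO A0 {t}`, `chtO A0 {t⁻¹}`, `t = (h - c1) / (h - c0)`.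

* `s36wk_dich`: the dichotomy at every prime `𝔫 ∋ τ` of a Hauptmodul chart of ANY level `N`:
  `j ∈ O_𝔫` or `1/j ∈ 𝔫 O_𝔫` (`S34.dma_j_dichotomy` instantiated);
* `s36wk_j_coe`, `s36wk_zj`: `z_j = j(t^(q²)) - j(t) ∈ 𝔪_{W_c}`;
* `s36wk_eps_unit`: `q = τ ε` with `ε` a unit of `A0`;
* `s36wk_cusp`: the `ε`-certificate (`π, om, c` with `π ∈ O_𝔫 ∩ 𝔪_{W_c}`, `om ∈ O_𝔫`, `c` a unit
  of `O_𝔫`, `π^(q-1)/τ * om - c ∈ 𝔪_{W_c}`) at a CUSPIDAL point (`1/j ∈ 𝔫 O_𝔫`) of any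
  integrally closed `A0`-subalgebra through which `W_c` passes: `s36ci_main` with PU-RAT-J
  (`s36pj_main`), the Fermat quotient (`thd_exists_delta`), the table row `s36v3_al_Wc` and the
  congruence `s36v3_cong_g` plugged in;
* `s36wk_of_ptone`: the clause `hC` of `s36k3_point_branch` from `S36inPtOne` at a `W_c`-only
  point;
* `s36wk_chart`: at one chart: `S36inPtOne` at every `W_c`-only closed point over `τ`, from the
  chart block and the dichotomy (non-cuspidal points: `s36nk_cert` of NC-CAR; cuspidal points: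
  `s36wk_cusp`; then `s36w1_pt`);
* `s36wk_carrier`: both charts of the carrier, every binder discharged from main (CHT3
  `s36c3_chart`, VAL3 table / exhaustion / residue degree one, HD3 `s36cd_al_hD`);
  `s36wk_carrier_hC`: the same in the shape of clause `hC` of `s36k3_point_branch`.
-/

set_option autoImplicit false
set_option linter.unusedSectionVars false
set_option linter.unusedVariables false

open AlgebraicCurve ModularCurve Polynomial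
open Fermat.Agent.S28 Fermat.Agent.S18 Fermat.Agent.S34 Fermat.Agent.S35 Fermat.Agent.S37
  Fermat.Agent.S24

namespace Fermat.Agent.S36

local notation "Qb" => AlgebraicClosure ℚ

/-! ### The dichotomy -/

section Dich

variable {K0 : Type*} [Field K0] [Algebra ℚ K0] [Algebra K0 Qb] (A0 : ValuationSubring K0)
  [IsDiscreteValuationRing ↥A0] (N q : ℕ) [NeZero N] [hq : Fact q.Prime]
  {a2 : ℕ} (H : HauptRec a2 q) (ha2 : a2 ∣ N)

include ha2 in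
/-- **The dichotomy at the primes of a Hauptmodul chart over `q`**: `j` is regular or `1/j`
vanishes. -/
theorem s36wk_dich
    [Algebra A0 ↥(laurentBaseChange K0 (modularFunctionFieldFull N))]
    [IsScalarTower A0 K0 ↥(laurentBaseChange K0 (modularFunctionFieldFull N))]
    (hqA : ((q : ℕ) : K0) ∈ A0.nonunits)
    (c0 c1 : A0) (hc : IsLocalRing.residue A0 c0 ≠ IsLocalRing.residue A0 c1)
    (t : ↥(laurentBaseChange K0 (modularFunctionFieldFull N)))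
    (ht : (t : LaurentSeries K0) = cinstU H K0 (c0 : K0) (c1 : K0))
    (τ : A0) (hτ : Irreducible τ)
    (𝔫 : Ideal ↥(chtO A0 {t})) [h𝔫 : 𝔫.IsPrime]
    (hτ𝔫 : algebraMap A0 ↥(chtO A0 {t}) τ ∈ 𝔫) :
    va2Jd K0 N 1 (one_dvd _) ∈ dmaLoc (chtO A0 {t}) 𝔫 ∨
      (va2Jd K0 N 1 (one_dvd _))⁻¹ ∈ dmaMax (chtO A0 {t}) 𝔫 := by
  classical
  obtain ⟨U, V, W, hUV⟩ := dmi_bezout H.P H.Q H.coprime_mod
  have hcu : smi2U A0 ((c0 : K0) - (c1 : K0)) := by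
    have h : IsLocalRing.residue A0 (c0 - c1) ≠ 0 := by
      rw [map_sub, sub_ne_zero]
      exact hc
    exact smi2U_of_residue_ne_zero h
  have hq𝔫 : ((q : ℕ) : ↥(chtO A0 {t})) ∈ 𝔫 := by
    have h1 : ((q : A0) : K0) ∈ A0.nonunits := by simpa using hqA
    rw [ValuationSubring.coe_mem_nonunits_iff, hτ.maximalIdeal_eq,
      Ideal.mem_span_singleton] at h1
    obtain ⟨a, ha⟩ := h1
    have h2 : ((q : ℕ) : ↥(chtO A0 {t})) = algebraMap A0 ↥(chtO A0 {t}) τ *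
        algebraMap A0 ↥(chtO A0 {t}) a := by
      rw [← map_mul, ← ha, map_natCast]
    rw [h2]
    exact 𝔫.mul_mem_right _ hτ𝔫
  have hc01 : (algebraMap K0 ↥(laurentBaseChange K0 (modularFunctionFieldFull N)) (c0 : K0)
      - algebraMap K0 _ (c1 : K0))⁻¹ ∈ chtO A0 {t} := by
    rw [← map_sub, ← map_inv₀]
    exact dmi_const_mem A0 _ hcu.2.2
  have htO : (dmiH K0 N H ha2 - algebraMap K0 _ (c1 : K0)) /
      (dmiH K0 N H ha2 - algebraMap K0 _ (c0 : K0)) ∈ chtO A0 {t} := by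
    rw [← dmi_t_eq K0 N H ha2 (c0 : K0) (c1 : K0) t ht]
    exact (cht_h1 t).1
  have hcF : algebraMap K0 ↥(laurentBaseChange K0 (modularFunctionFieldFull N)) (c0 : K0) ≠
      algebraMap K0 _ (c1 : K0) := (algebraMap K0 _).injective.ne (sub_ne_zero.mp hcu.2.1)
  exact dma_j_dichotomy (chtO A0 {t}) 𝔫 q hq𝔫 H.P H.Q U V W H.P_monic
    (by rw [H.natDegree_P]; exact H.natDegree_Q) hUV
    (dmi_jd_ne_zero K0 N 1 _) (dmi_rel K0 N H ha2)
    (dmi_const_mem A0 _ c0.2) (dmi_const_mem A0 _ c1.2) hc01 hcF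
    (dmiH_sub_ne K0 N H ha2 _) htO

end Dich

/-! ### From `S36inPtOne` to the clause `hC` -/

section Abs

variable {A F : Type*} [CommRing A] [Field F] [Algebra A F]

/-- the clause `hC` of `s36k3_point_branch` from the point predicate at a `W_c`-only point -/
theorem s36wk_of_ptone (τ : A) (m : ℕ) (Wa Wb Wc : ValuationSubring F) (O : Subalgebra A F)
    (𝔫 : Ideal ↥O) (h : S36inPtOne τ m Wa Wb Wc O 𝔫)
    (ha : ∃ r : ↥O, (r : F) ∈ Wa.nonunits ∧ r ∉ 𝔫)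
    (hb : ∃ r : ↥O, (r : F) ∈ Wb.nonunits ∧ r ∉ 𝔫) :
    S35IC m O 𝔫 Wc ∧
      ∀ f : F, f ≠ 0 → S36inOrd τ m f → f ∈ Wc → f⁻¹ ∈ Wc → S35Unit m O 𝔫 f := by
  obtain ⟨V, hV, hthr, -, hIC, hU⟩ := h
  rcases hV with rfl | rfl | rfl
  · obtain ⟨r, hr, hrn⟩ := ha
    exact absurd (hthr r hr) hrn
  · obtain ⟨r, hr, hrn⟩ := hb
    exact absurd (hthr r hr) hrn
  · exact ⟨hIC, hU⟩

end Abs

/-! ### The carrier -/

section Carrier

variable (M q : ℕ) [NeZero M] [hq : Fact q.Prime] (hM : ¬ q ∣ M)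
  (K0 : Type*) [Field K0] [Algebra ℚ K0] [Algebra K0 Qb]
  (A0 : ValuationSubring K0) [IsDiscreteValuationRing ↥A0]

/-- the expansion of `j` (level `M`) is integral -/
theorem s36wk_j_coe :
    ((va2Jd K0 M 1 (one_dvd M) : ↥(laurentBaseChange K0 (modularFunctionFieldFull M))) :
      LaurentSeries K0) = coeffMap (Int.castRingHom K0) (jqModC ℤ) := by
  rw [mqk_va2Jd_coe, jd_one]
  exact (coeffMap_jqModC (Int.castRingHom K0)).symm

/-- `q = τ ε` with `ε` a unit of `A0` (unramified base) -/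
theorem s36wk_eps_unit (hA0 : A0.LiesOverPrime q)
    (hunr : ∀ x ∈ A0.nonunits, x * ((q : ℕ) : K0)⁻¹ ∈ A0) (τ : A0) (hτ : Irreducible τ) :
    ∃ ε : A0, IsUnit ε ∧ ((q : ℕ) : ↥A0) = τ * ε := by
  obtain ⟨h1, h2⟩ := s36vc_unit_q A0 q hA0 hunr τ hτ
  have hτ0 : (τ : K0) ≠ 0 := fun h => hτ.ne_zero (Subtype.ext h)
  have hq0 : ((q : ℕ) : K0) ≠ 0 := by
    have : CharZero K0 := algebraRat.charZero K0
    exact Nat.cast_ne_zero.mpr hq.out.ne_zero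
  refine ⟨⟨_, h1⟩, ?_, ?_⟩
  · refine IsUnit.of_mul_eq_one ⟨_, h2⟩ (Subtype.ext ?_)
    show ((q : ℕ) : K0) * (τ : K0)⁻¹ * ((τ : K0) * ((q : ℕ) : K0)⁻¹) = 1
    field_simp
  · apply Subtype.ext
    push_cast
    rw [mul_comm ((q : ℕ) : K0), ← mul_assoc, mul_inv_cancel₀ hτ0, one_mul]

/-- **The `ε`-certificate at the cuspidal points of `W_c`.** -/
theorem s36wk_cusp [Algebra A0 ↥(laurentBaseChange K0 (modularFunctionFieldFull (M * q * q)))] [IsScalarTower A0 K0 ↥(laurentBaseChange K0 (modularFunctionFieldFull (M * q * q)))]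
    (hA0 : A0.LiesOverPrime q)
    (τ ε : A0) (hε : IsUnit ε) (hqτ : ((q : ℕ) : ↥A0) = τ * ε)
    (O : Subalgebra A0 ↥(laurentBaseChange K0 (modularFunctionFieldFull (M * q * q)))) (hint : ∀ x : ↥(laurentBaseChange K0 (modularFunctionFieldFull (M * q * q))), IsIntegral ↥O x → x ∈ O)
    (hO : ∀ x ∈ O, x ∈ s36v3Wc M q hM K0 A0)
    (𝔫 : Ideal ↥O) [𝔫.IsPrime]
    (h1 : ∀ x : ↥O, (x : ↥(laurentBaseChange K0 (modularFunctionFieldFull (M * q * q)))) ∈ (s36v3Wc M q hM K0 A0).nonunits → x ∈ 𝔫)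
    (hcusp : (va2Jd K0 (M * q * q) 1 (one_dvd _))⁻¹ ∈ dmaMax O 𝔫) :
    ∃ π om c : ↥(laurentBaseChange K0 (modularFunctionFieldFull (M * q * q))),
      (∃ a s : ↥O, s ∉ 𝔫 ∧ π * (s : ↥(laurentBaseChange K0 (modularFunctionFieldFull (M * q * q)))) = (a : ↥(laurentBaseChange K0 (modularFunctionFieldFull (M * q * q))))) ∧
      π ∈ (s36v3Wc M q hM K0 A0).nonunits ∧
      (∃ a s : ↥O, s ∉ 𝔫 ∧ om * (s : ↥(laurentBaseChange K0 (modularFunctionFieldFull (M * q * q)))) = (a : ↥(laurentBaseChange K0 (modularFunctionFieldFull (M * q * q))))) ∧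
      (∃ a s : ↥O, a ∉ 𝔫 ∧ s ∉ 𝔫 ∧ c * (s : ↥(laurentBaseChange K0 (modularFunctionFieldFull (M * q * q)))) = (a : ↥(laurentBaseChange K0 (modularFunctionFieldFull (M * q * q))))) ∧
      π ^ (q - 1) * (algebraMap A0 ↥(laurentBaseChange K0 (modularFunctionFieldFull (M * q * q))) τ)⁻¹ * om - c ∈ (s36v3Wc M q hM K0 A0).nonunits := by
  obtain ⟨δZ, hδZ⟩ := thd_exists_delta q (jqModC ℤ)
  obtain ⟨P, D, hD, hPD⟩ := s36pj_main q K0 A0 hA0 δZ hδZ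
  have hzc := (s36v3_z_Wc M q hM K0 A0 hA0 (va2Jd K0 M 1 (one_dvd M)) (jqModC ℤ)
    (s36wk_j_coe M K0) s36v3_jlead).1
  obtain ⟨π, om, c, -, h⟩ := s36ci_main M q K0 A0 hM hA0 τ ε hε hqτ δZ hδZ P D hD hPD
    (s36v3Wc M q hM K0 A0) (s36v3_al_Wc M q hM K0 A0) hzc
    (fun g hg hres => s36v3_cong_g M q hM K0 A0 hA0 (va2Jd K0 M 1 (one_dvd M)) (jqModC ℤ)
      (s36wk_j_coe M K0) s36v3_jlead g hg hres)
    O hint hO 𝔫 h1 hcusp
  exact ⟨π, om, c, h⟩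

/-- **WC-CAR, one chart.**  At a closed point `𝔫 ∋ τ` of an integrally closed noetherian chart
`O` of the level-`M q²` curve lying on `W_c` only: the point predicate `S36inPtOne`, from the
chart block and the dichotomy `j ∈ O_𝔫 ∨ 1/j ∈ 𝔫 O_𝔫` (non-cuspidal points: `s36nk_cert`;
cuspidal points: `s36wk_cusp`). -/
theorem s36wk_chart {a2 : ℕ} (H : HauptRec a2 q) (ha2 : a2 ∣ M)
    [Algebra A0 ↥(laurentBaseChange K0 (modularFunctionFieldFull (M * q * q)))]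
    [IsScalarTower A0 K0 ↥(laurentBaseChange K0 (modularFunctionFieldFull (M * q * q)))]
    (hA0 : A0.LiesOverPrime q)
    (hunr : ∀ x ∈ A0.nonunits, x * ((q : ℕ) : K0)⁻¹ ∈ A0)
    (τ : A0) (hτ : Irreducible τ)
    (O : Subalgebra A0 ↥(laurentBaseChange K0 (modularFunctionFieldFull (M * q * q))))
    [IsNoetherianRing ↥O]
    (hfrac : ∀ x : ↥(laurentBaseChange K0 (modularFunctionFieldFull (M * q * q))),
      ∃ a ∈ O, ∃ s ∈ O, s ≠ 0 ∧ x * s = a)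
    (hic : ∀ x : ↥(laurentBaseChange K0 (modularFunctionFieldFull (M * q * q))),
      IsIntegral ↥O x → x ∈ O)
    (hO : ∀ x ∈ O, x ∈ va2V1 (M * q) q K0 A0 ∧ x ∈ s36v3Wb M q hM K0 A0 ∧
      x ∈ s36v3Wc M q hM K0 A0)
    (hdiv : ∀ x ∈ O,
      x * (algebraMap A0 ↥(laurentBaseChange K0 (modularFunctionFieldFull (M * q * q))) τ)⁻¹ ∈
        va2V1 (M * q) q K0 A0 →
      x * (algebraMap A0 ↥(laurentBaseChange K0 (modularFunctionFieldFull (M * q * q))) τ)⁻¹ ∈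
        s36v3Wb M q hM K0 A0 →
      x * (algebraMap A0 ↥(laurentBaseChange K0 (modularFunctionFieldFull (M * q * q))) τ)⁻¹ ∈
        s36v3Wc M q hM K0 A0 →
      x * (algebraMap A0 ↥(laurentBaseChange K0 (modularFunctionFieldFull (M * q * q))) τ)⁻¹ ∈
        O)
    (hD : ∀ 𝔭 : Ideal ↥O, (∀ x : ↥O, x ∈ 𝔭 ↔
      (x : ↥(laurentBaseChange K0 (modularFunctionFieldFull (M * q * q)))) ∈
        (s36v3Wc M q hM K0 A0).nonunits) → IsDedekindDomain (↥O ⧸ 𝔭))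
    (m : ℕ) (hm : 0 < m)
    (𝔫 : Ideal ↥O) (h𝔫 : 𝔫.IsMaximal) (hτ𝔫 : algebraMap A0 ↥O τ ∈ 𝔫)
    (h1 : ∀ x : ↥O, (x : ↥(laurentBaseChange K0 (modularFunctionFieldFull (M * q * q)))) ∈
      (s36v3Wc M q hM K0 A0).nonunits → x ∈ 𝔫)
    (ha : ∃ r : ↥O, (r : ↥(laurentBaseChange K0 (modularFunctionFieldFull (M * q * q)))) ∈
      (va2V1 (M * q) q K0 A0).nonunits ∧ r ∉ 𝔫)
    (hb : ∃ r : ↥O, (r : ↥(laurentBaseChange K0 (modularFunctionFieldFull (M * q * q)))) ∈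
      (s36v3Wb M q hM K0 A0).nonunits ∧ r ∉ 𝔫)
    (hdich : va2Jd K0 (M * q * q) 1 (one_dvd _) ∈ @dmaLoc _ _ _ _ _ O 𝔫 h𝔫.isPrime ∨
      (va2Jd K0 (M * q * q) 1 (one_dvd _))⁻¹ ∈ @dmaMax _ _ _ _ _ O 𝔫 h𝔫.isPrime) :
    S36inPtOne τ m (va2V1 (M * q) q K0 A0) (s36v3Wb M q hM K0 A0) (s36v3Wc M q hM K0 A0) O 𝔫 := by
  classical
  have h𝔫p : 𝔫.IsPrime := h𝔫.isPrime
  have hmapF : ∀ a : ↥A0,
      algebraMap ↥A0 ↥(laurentBaseChange K0 (modularFunctionFieldFull (M * q * q))) a =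
        algebraMap K0 ↥(laurentBaseChange K0 (modularFunctionFieldFull (M * q * q))) (a : K0) :=
    fun a => IsScalarTower.algebraMap_apply ↥A0 K0 _ a
  have hτK0 : (τ : K0) ≠ 0 := fun h => hτ.ne_zero (Subtype.ext h)
  have hτnu : (τ : K0) ∈ A0.nonunits := by
    rw [ValuationSubring.coe_mem_nonunits_iff, IsLocalRing.mem_maximalIdeal, mem_nonunits_iff]
    exact hτ.not_isUnit
  have hτ0 : algebraMap A0 ↥(laurentBaseChange K0 (modularFunctionFieldFull (M * q * q))) τ ≠ 0 := by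
    rw [hmapF]
    exact (_root_.map_ne_zero _).mpr hτK0
  have hτa : algebraMap A0 ↥(laurentBaseChange K0 (modularFunctionFieldFull (M * q * q))) τ ∈
      (va2V1 (M * q) q K0 A0).nonunits := by
    rw [hmapF]
    exact (s36ve_const_Wa_nu M q K0 A0 (τ : K0)).mpr hτnu
  have hτb : algebraMap A0 ↥(laurentBaseChange K0 (modularFunctionFieldFull (M * q * q))) τ ∈
      (s36v3Wb M q hM K0 A0).nonunits := by
    rw [hmapF]
    exact (s36ve_const_Wb_nu M q hM K0 A0 (τ : K0)).mpr hτnu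
  have hτc : algebraMap A0 ↥(laurentBaseChange K0 (modularFunctionFieldFull (M * q * q))) τ ∈
      (s36v3Wc M q hM K0 A0).nonunits := by
    rw [hmapF]
    exact (s36ve_const_Wc_nu M q hM K0 A0 (τ : K0)).mpr hτnu
  have hdeca := gsp_hdec₁ (M * q) q K0 A0 τ hτ
  have hdecb : ∀ z : ↥(laurentBaseChange K0 (modularFunctionFieldFull (M * q * q))), z ≠ 0 →
      ∃ j : ℤ,
        z * algebraMap ↥A0 ↥(laurentBaseChange K0 (modularFunctionFieldFull (M * q * q))) τ ^ j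
          ∈ s36v3Wb M q hM K0 A0 ∧
        (z * algebraMap ↥A0 ↥(laurentBaseChange K0 (modularFunctionFieldFull (M * q * q))) τ ^ j)⁻¹
          ∈ s36v3Wb M q hM K0 A0 := by
    intro z hz
    rw [hmapF]
    exact s36ai_dec_b M q K0 A0 (s36v3Swap M q hM K0) (s36v3Swap_const M q hM K0)
      (s36v3Wb M q hM K0 A0) (fun _ => Iff.rfl) τ hτ z hz
  have he : 0 < q - 1 := Nat.sub_pos_of_lt hq.out.one_lt
  have hgen := (s36v3_z_unif M q hM K0 A0 hA0 hunr (va2Jd K0 M 1 (one_dvd M)) (jqModC ℤ)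
    (s36wk_j_coe M K0) s36v3_jlead).2.1
  have hE : ∀ y ∈ (s36v3Wc M q hM K0 A0).nonunits,
      y ^ (q - 1) *
        (algebraMap A0 ↥(laurentBaseChange K0 (modularFunctionFieldFull (M * q * q))) τ)⁻¹ ∈
          s36v3Wc M q hM K0 A0 := by
    intro y hy
    rw [hmapF]
    exact s36ve_E_tau M q hM K0 A0 hA0 (va2Jd K0 M 1 (one_dvd M)) (jqModC ℤ)
      (s36wk_j_coe M K0) s36v3_jlead hgen (τ : K0) (s36vc_unit_q A0 q hA0 hunr τ hτ).1 y hy
  obtain ⟨ε, hε, hqτ⟩ := s36wk_eps_unit q K0 A0 hA0 hunr τ hτ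
  have hOa : ∀ y ∈ O, y ∈ va2V1 (M * q) q K0 A0 := fun y hy => (hO y hy).1
  have hOb : ∀ y ∈ O, y ∈ s36v3Wb M q hM K0 A0 := fun y hy => (hO y hy).2.1
  have hOc : ∀ y ∈ O, y ∈ s36v3Wc M q hM K0 A0 := fun y hy => (hO y hy).2.2
  rcases hdich with hj | hj
  · -- the non-cuspidal points
    have hgena : ∀ x ∈ (va2V1 (M * q) q K0 A0).nonunits,
        x * (algebraMap A0 ↥(laurentBaseChange K0 (modularFunctionFieldFull (M * q * q))) τ)⁻¹ ∈
          va2V1 (M * q) q K0 A0 :=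
      fun x hx => s36in_gen (va2V1 (M * q) q K0 A0) _ hτ0 hτa hdeca x hx
    have hgenb : ∀ x ∈ (s36v3Wb M q hM K0 A0).nonunits,
        x * (algebraMap A0 ↥(laurentBaseChange K0 (modularFunctionFieldFull (M * q * q))) τ)⁻¹ ∈
          s36v3Wb M q hM K0 A0 :=
      fun x hx => s36in_gen (s36v3Wb M q hM K0 A0) _ hτ0 hτb hdecb x hx
    have hred : ∀ x ∈ O, x ∈ (s36v3Wc M q hM K0 A0).nonunits →
        x ∈ (va2V1 (M * q) q K0 A0).nonunits → x ∈ (s36v3Wb M q hM K0 A0).nonunits →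
        ∃ (N : ℕ), ∃ y ∈ O, x ^ N =
          algebraMap ↥A0 ↥(laurentBaseChange K0 (modularFunctionFieldFull (M * q * q))) τ * y :=
      fun x hx hxc hxa hxb =>
        s36wc_hred3 τ O (va2V1 (M * q) q K0 A0) (s36v3Wb M q hM K0 A0) (s36v3Wc M q hM K0 A0)
          hOa hOb hgena hgenb (q - 1) he hE hτ0 hdiv x hx hxa hxb hxc
    obtain ⟨hπO, hπc, om, c, homO, hcO, hcong⟩ :=
      s36nk_cert M q hM K0 A0 H ha2 hA0 (s36v3Ap K0 A0) (s36v3Ap_comap K0 A0) (s36v3Zeta q)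
        (s36v3Zeta_spec q) (s36v3Zeta_ne_zero q) (s36v3Wc M q hM K0 A0) (s36v3Ec M q hM K0)
        (s36v3Ec_al M q hM K0)
        (s36ec_be_be M q hM K0 (s36v3Zeta q) (s36v3Zeta_ne_zero q) (s36v3Zeta_pow q)
          (s36v3Zeta_ne_one q))
        (s36v3_Wc_nonunits_of_series M q hM K0 A0) (s36v3_al_Wc M q hM K0 A0) τ hτ ε hε hqτ O
        hfrac hic (va2V1 (M * q) q K0 A0) (s36v3Wb M q hM K0 A0) hOc hOa hOb
        (s36w1_ne_top _ _ hτ0 hτc) (s36w1_ne_top _ _ hτ0 hτa) (s36w1_ne_top _ _ hτ0 hτb) hred 𝔫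
        hτ𝔫 ha hb hj
    exact s36w1_pt τ hτ0 O hfrac hic (va2V1 (M * q) q K0 A0) (s36v3Wb M q hM K0 A0)
      (s36v3Wc M q hM K0 A0) hO hτa hτb hτc hdeca hdecb hdiv (q - 1) he hE hD m hm 𝔫 h𝔫 h1 ha hb
      _ hπO hπc om c homO hcO hcong
  · -- the cuspidal points
    obtain ⟨π, om, c, hπO, hπc, homO, hcO, hcong⟩ := s36wk_cusp M q hM K0 A0 hA0 τ ε hε hqτ O hic
      hOc 𝔫 h1 hj
    exact s36w1_pt τ hτ0 O hfrac hic (va2V1 (M * q) q K0 A0) (s36v3Wb M q hM K0 A0)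
      (s36v3Wc M q hM K0 A0) hO hτa hτb hτc hdeca hdecb hdiv (q - 1) he hE hD m hm 𝔫 h𝔫 h1 ha hb
      π hπO hπc om c homO hcO hcong

/-- **WC-CAR at the carrier, point-predicate form.**  At every closed point of the two
Hauptmodul charts of level `M q²` over `τ` lying on `W_c = s36v3Wc` and missed by
`W_a = va2V1 (M * q) q K0 A0`, `W_b = s36v3Wb`: the point predicate `S36inPtOne` of the abstract
assembly. -/
theorem s36wk_carrier {a2 : ℕ} (H : HauptRec a2 q) (ha2 : a2 ∣ M)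
    [Algebra A0 ↥(laurentBaseChange K0 (modularFunctionFieldFull (M * q * q)))]
    [IsScalarTower A0 K0 ↥(laurentBaseChange K0 (modularFunctionFieldFull (M * q * q)))]
    (hA0 : A0.LiesOverPrime q)
    (hunr : ∀ x ∈ A0.nonunits, x * ((q : ℕ) : K0)⁻¹ ∈ A0)
    (c0 c1 : A0) (hc : IsLocalRing.residue A0 c0 ≠ IsLocalRing.residue A0 c1)
    (hSM : cinstSMChart K0 A0 M H (c0 : K0) (c1 : K0))
    (hSM' : cinstSMChart K0 A0 M H (c1 : K0) (c0 : K0))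
    (t : ↥(laurentBaseChange K0 (modularFunctionFieldFull (M * q * q))))
    (ht : (t : LaurentSeries K0) = cinstU H K0 (c0 : K0) (c1 : K0))
    (τ : A0) (hτ : Irreducible τ) (m : ℕ) (hm : 0 < m) :
    (∀ 𝔫 : Ideal ↥(chtO A0 {t}), 𝔫.IsMaximal → algebraMap A0 ↥(chtO A0 {t}) τ ∈ 𝔫 →
      (∀ x : ↥(chtO A0 {t}),
        (x : ↥(laurentBaseChange K0 (modularFunctionFieldFull (M * q * q)))) ∈
          (s36v3Wc M q hM K0 A0).nonunits → x ∈ 𝔫) →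
      (∃ r : ↥(chtO A0 {t}),
        (r : ↥(laurentBaseChange K0 (modularFunctionFieldFull (M * q * q)))) ∈
          (va2V1 (M * q) q K0 A0).nonunits ∧ r ∉ 𝔫) →
      (∃ r : ↥(chtO A0 {t}),
        (r : ↥(laurentBaseChange K0 (modularFunctionFieldFull (M * q * q)))) ∈
          (s36v3Wb M q hM K0 A0).nonunits ∧ r ∉ 𝔫) →
      S36inPtOne τ m (va2V1 (M * q) q K0 A0) (s36v3Wb M q hM K0 A0) (s36v3Wc M q hM K0 A0)
        (chtO A0 {t}) 𝔫) ∧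
    (∀ 𝔫 : Ideal ↥(chtO A0 {t⁻¹}), 𝔫.IsMaximal → algebraMap A0 ↥(chtO A0 {t⁻¹}) τ ∈ 𝔫 →
      (∀ x : ↥(chtO A0 {t⁻¹}),
        (x : ↥(laurentBaseChange K0 (modularFunctionFieldFull (M * q * q)))) ∈
          (s36v3Wc M q hM K0 A0).nonunits → x ∈ 𝔫) →
      (∃ r : ↥(chtO A0 {t⁻¹}),
        (r : ↥(laurentBaseChange K0 (modularFunctionFieldFull (M * q * q)))) ∈
          (va2V1 (M * q) q K0 A0).nonunits ∧ r ∉ 𝔫) →
      (∃ r : ↥(chtO A0 {t⁻¹}),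
        (r : ↥(laurentBaseChange K0 (modularFunctionFieldFull (M * q * q)))) ∈
          (s36v3Wb M q hM K0 A0).nonunits ∧ r ∉ 𝔫) →
      S36inPtOne τ m (va2V1 (M * q) q K0 A0) (s36v3Wb M q hM K0 A0) (s36v3Wc M q hM K0 A0)
        (chtO A0 {t⁻¹}) 𝔫) := by
  classical
  obtain ⟨-, h1, h2, h3, -, -, h01, h10, hfrac0, hfrac1, hroot0, hroot1, hcap, hV0, hV1, hdiv0,
    hdiv1, hNoe0, hNoe1, hic0, hic1⟩ := s36c3_chart A0 M q hM H ha2 hA0 (s36v3Wb M q hM K0 A0)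
      (s36v3Wc M q hM K0 A0) (s36v3_al_Wb M q hM K0 A0) (s36v3_al_Wc M q hM K0 A0)
      (s36v3_exh_al1 M q hM K0 A0 hA0 hunr) (s36v3_exh_al2 M q hM K0 A0 hA0)
      c0 c1 hc t ht τ hτ m hm
  have ha2' : a2 ∣ M * q * q := (ha2.mul_right q).mul_right q
  have ht' : ((t⁻¹ : ↥(laurentBaseChange K0 (modularFunctionFieldFull (M * q * q)))) :
      LaurentSeries K0) = cinstU H K0 (c1 : K0) (c0 : K0) := by
    rw [IntermediateField.coe_inv, ht, cinstU_inv]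
  refine ⟨?_, ?_⟩
  · intro 𝔫 h𝔫 hτ𝔫 hthr hXa hXb
    have := hNoe0
    have h𝔫p : 𝔫.IsPrime := h𝔫.isPrime
    exact s36wk_chart M q hM K0 A0 H ha2 hA0 hunr τ hτ (chtO A0 {t}) hfrac0 hic0 hV0 hdiv0
      (fun 𝔭 h𝔭 => s36cd_al_hD M q hM K0 A0 H ha2 hA0 c0 c1 hc hSM (s36v3Wc M q hM K0 A0)
        (s36v3_al_Wc M q hM K0 A0) (s36v3_res_al_Wc M q hM K0 A0 hA0 hunr) t ht τ hτ 𝔭 h𝔭)
      m hm 𝔫 h𝔫 hτ𝔫 hthr hXa hXb
      (s36wk_dich A0 (M * q * q) q H ha2' hA0 c0 c1 hc t ht τ hτ 𝔫 hτ𝔫)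
  · intro 𝔫 h𝔫 hτ𝔫 hthr hXa hXb
    have := hNoe1
    have h𝔫p : 𝔫.IsPrime := h𝔫.isPrime
    exact s36wk_chart M q hM K0 A0 H ha2 hA0 hunr τ hτ (chtO A0 {t⁻¹}) hfrac1 hic1 hV1 hdiv1
      (fun 𝔭 h𝔭 => s36cd_al_hD_inv M q hM K0 A0 H ha2 hA0 c0 c1 hc hSM' (s36v3Wc M q hM K0 A0)
        (s36v3_al_Wc M q hM K0 A0) (s36v3_res_al_Wc M q hM K0 A0 hA0 hunr) t ht τ hτ 𝔭 h𝔭)
      m hm 𝔫 h𝔫 hτ𝔫 hthr hXa hXb
      (s36wk_dich A0 (M * q * q) q H ha2' hA0 c1 c0 (fun h => hc h.symm) t⁻¹ ht' τ hτ 𝔫 hτ𝔫)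

/-- **WC-CAR at the carrier, clause form**: the binder `hC` of `s36k3_point` /
`s36k3_point_branch`, for both Hauptmodul charts of level `M q²`, at
`(W_a, W_b, W_c) = (va2V1 (M * q) q K0 A0, s36v3Wb M q hM K0 A0, s36v3Wc M q hM K0 A0)`. -/
theorem s36wk_carrier_hC {a2 : ℕ} (H : HauptRec a2 q) (ha2 : a2 ∣ M)
    [Algebra A0 ↥(laurentBaseChange K0 (modularFunctionFieldFull (M * q * q)))]
    [IsScalarTower A0 K0 ↥(laurentBaseChange K0 (modularFunctionFieldFull (M * q * q)))]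
    (hA0 : A0.LiesOverPrime q)
    (hunr : ∀ x ∈ A0.nonunits, x * ((q : ℕ) : K0)⁻¹ ∈ A0)
    (c0 c1 : A0) (hc : IsLocalRing.residue A0 c0 ≠ IsLocalRing.residue A0 c1)
    (hSM : cinstSMChart K0 A0 M H (c0 : K0) (c1 : K0))
    (hSM' : cinstSMChart K0 A0 M H (c1 : K0) (c0 : K0))
    (t : ↥(laurentBaseChange K0 (modularFunctionFieldFull (M * q * q))))
    (ht : (t : LaurentSeries K0) = cinstU H K0 (c0 : K0) (c1 : K0))
    (τ : A0) (hτ : Irreducible τ) (m : ℕ) (hm : 0 < m) :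
    (∀ 𝔫 : Ideal ↥(chtO A0 {t}), 𝔫.IsMaximal → algebraMap A0 ↥(chtO A0 {t}) τ ∈ 𝔫 →
      (∀ x : ↥(chtO A0 {t}),
        (x : ↥(laurentBaseChange K0 (modularFunctionFieldFull (M * q * q)))) ∈
          (s36v3Wc M q hM K0 A0).nonunits → x ∈ 𝔫) →
      (∃ r : ↥(chtO A0 {t}),
        (r : ↥(laurentBaseChange K0 (modularFunctionFieldFull (M * q * q)))) ∈
          (va2V1 (M * q) q K0 A0).nonunits ∧ r ∉ 𝔫) →
      (∃ r : ↥(chtO A0 {t}),
        (r : ↥(laurentBaseChange K0 (modularFunctionFieldFull (M * q * q)))) ∈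
          (s36v3Wb M q hM K0 A0).nonunits ∧ r ∉ 𝔫) →
      S35IC m (chtO A0 {t}) 𝔫 (s36v3Wc M q hM K0 A0) ∧
        ∀ f : ↥(laurentBaseChange K0 (modularFunctionFieldFull (M * q * q))), f ≠ 0 →
          S36inOrd τ m f → f ∈ s36v3Wc M q hM K0 A0 → f⁻¹ ∈ s36v3Wc M q hM K0 A0 →
          S35Unit m (chtO A0 {t}) 𝔫 f) ∧
    (∀ 𝔫 : Ideal ↥(chtO A0 {t⁻¹}), 𝔫.IsMaximal → algebraMap A0 ↥(chtO A0 {t⁻¹}) τ ∈ 𝔫 →
      (∀ x : ↥(chtO A0 {t⁻¹}),
        (x : ↥(laurentBaseChange K0 (modularFunctionFieldFull (M * q * q)))) ∈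
          (s36v3Wc M q hM K0 A0).nonunits → x ∈ 𝔫) →
      (∃ r : ↥(chtO A0 {t⁻¹}),
        (r : ↥(laurentBaseChange K0 (modularFunctionFieldFull (M * q * q)))) ∈
          (va2V1 (M * q) q K0 A0).nonunits ∧ r ∉ 𝔫) →
      (∃ r : ↥(chtO A0 {t⁻¹}),
        (r : ↥(laurentBaseChange K0 (modularFunctionFieldFull (M * q * q)))) ∈
          (s36v3Wb M q hM K0 A0).nonunits ∧ r ∉ 𝔫) →
      S35IC m (chtO A0 {t⁻¹}) 𝔫 (s36v3Wc M q hM K0 A0) ∧
        ∀ f : ↥(laurentBaseChange K0 (modularFunctionFieldFull (M * q * q))), f ≠ 0 →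
          S36inOrd τ m f → f ∈ s36v3Wc M q hM K0 A0 → f⁻¹ ∈ s36v3Wc M q hM K0 A0 →
          S35Unit m (chtO A0 {t⁻¹}) 𝔫 f) := by
  obtain ⟨h0, h1⟩ := s36wk_carrier M q hM K0 A0 H ha2 hA0 hunr c0 c1 hc hSM hSM' t ht τ hτ m hm
  exact ⟨fun 𝔫 h𝔫 hτ𝔫 hthr hXa hXb =>
      s36wk_of_ptone τ m _ _ _ _ 𝔫 (h0 𝔫 h𝔫 hτ𝔫 hthr hXa hXb) hXa hXb,
    fun 𝔫 h𝔫 hτ𝔫 hthr hXa hXb =>
      s36wk_of_ptone τ m _ _ _ _ 𝔫 (h1 𝔫 h𝔫 hτ𝔫 hthr hXa hXb) hXa hXb⟩

end Carrier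

end Fermat.Agent.S36
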