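import Mathlib
import Fermat.Agent.S36.InstReduce36
import Fermat.Agent.S36.Comp3CarD
import Fermat.Agent.S36.PtInstAl
import Fermat.Agent.S36.PtInstSw
import Fermat.Agent.S36.WcCar
import Fermat.Agent.S36.TriPtCar
import Fermat.Agent.S36.TriHalCar
import Fermat.Agent.S36.TriUnitComp

/-!
# S36, package INST36: the field-level core

`s36in_field`: the hypothesis `hfield` of `s36cf_core_of_field` (S36/CoreFinal.lean) /
`s36ir_reduce_of_base` (S36/InstReduce36.lean), for `B q = (q + 1) (q (q - 1) (q + 1)) q`: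

  `S36inField (M0 * q) q m ((q + 1) * (q * (q - 1) * (q + 1)) * q) K0`

over a field of definition `K0` with a discrete valuation subring `A0` in which `q` is a
uniformiser, given the two Hauptmodul charts of level `M0`.

The proof is the composition

* `s36in_field_of_comp3` (S36/Inst36FieldComp.lean): `S36inField` from the carrier form
  `S36inComp3` of COMP3;
* `s36kc_comp3_dat` (S36/Comp3CarB.lean): `S36inComp3` from the clauses of the point types;
* the clause of the `W_b`-only points: `s36kc_hB` (S36/Comp3CarD.lean);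
* "a closed point on two components is on the three": `s36py_hab`, `s36py_hbc`
  (S36/PtInstAl.lean), `s36pn_hac_car` (S36/PtInstSw.lean);
* the clause of the `W_c`-only points: `s36wk_carrier_hC` (S36/WcCar.lean) through
  `s36kc_hC_car`;
* the clause of the triple points: `s36ht_of` (S36/TriPtCar.lean) with `s36th_hal`
  (S36/TriHalCar.lean) and `s36tv_comp3` (S36/TriUnitComp.lean).
-/

set_option autoImplicit false
set_option linter.unusedSectionVars false
set_option linter.unusedVariables false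

noncomputable section

open ModularCurve AlgebraicCurve Polynomial
open Fermat.Agent.S18 Fermat.Agent.S34 Fermat.Agent.S35

namespace Fermat.Agent.S36

local notation "Qb" => AlgebraicClosure ℚ

/-- **INST36: the field-level core** (the hypothesis `hfield` of `s36cf_core_of_field`). -/
theorem s36in_field (M0 q : ℕ) [NeZero M0] [Fact q.Prime] (hqM : ¬ q ∣ M0) {a2 : ℕ}
    (H : HauptRec a2 q) (ha2 : a2 ∣ M0) (m : ℕ) (hmq : m.Coprime q)
    (K0 : Type) [Field K0] [Algebra ℚ K0] [Algebra K0 Qb] (A0 : ValuationSubring K0)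
    [IsDiscreteValuationRing ↥A0] [Finite (IsLocalRing.ResidueField ↥A0)]
    (hA0 : A0.LiesOverPrime q) (hunif : ∀ x ∈ A0.nonunits, ∃ a ∈ A0, x = (q : K0) * a)
    (c0 c1 : A0) (hc : IsLocalRing.residue ↥A0 c0 ≠ IsLocalRing.residue ↥A0 c1)
    (hQ0 : smi2U A0 (aeval (c0 : K0) H.Qrad)) (hQ1 : smi2U A0 (aeval (c1 : K0) H.Qrad))
    (hSM0 : cinstSMChart K0 A0 M0 H (c0 : K0) (c1 : K0))
    (hSM1 : cinstSMChart K0 A0 M0 H (c1 : K0) (c0 : K0))
    (hu0 : unrChart K0 A0 M0 H c0 c1) (hu1 : unrChart K0 A0 M0 H c1 c0) (hm2 : 2 ≤ m) :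
    S36inField (M0 * q) q m ((q + 1) * (q * (q - 1) * (q + 1)) * q) K0 := by
  have hm : 0 < m := by omega
  have : CharZero K0 := algebraRat.charZero K0
  have hq0 : ((q : ℕ) : K0) ≠ 0 := Nat.cast_ne_zero.mpr (Fact.out : q.Prime).ne_zero
  have hunr : ∀ x ∈ A0.nonunits, x * ((q : ℕ) : K0)⁻¹ ∈ A0 := by
    intro x hx
    obtain ⟨a, ha, rfl⟩ := hunif x hx
    rw [mul_comm ((q : ℕ) : K0) a, mul_assoc, mul_inv_cancel₀ hq0, mul_one]
    exact ha
  refine s36in_field_of_comp3 M0 q hqM K0 A0 H ha2 hA0 hunif c0 c1 hc m hm2 hmq ?_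
  intro _ _ _ _
  have hbc := fun (τ : A0) (hτ : Irreducible τ)
      (t : ↥(laurentBaseChange K0 (modularFunctionFieldFull (M0 * q * q))))
      (ht : (t : LaurentSeries K0) = cinstU H K0 (c0 : K0) (c1 : K0)) =>
    s36py_hbc A0 M0 q hqM H ha2 hA0 c0 c1 hc hQ0 hQ1 hSM0 hSM1 hu0 hu1 t ht τ hτ
  exact s36kc_comp3_dat M0 q hqM K0 A0 H ha2 hA0 hunif c0 c1 hc hSM0 hSM1 m hm
    -- the `W_b`-only points
    (s36kc_hB M0 q hqM K0 A0 H ha2 hA0 hunif c0 c1 hc hQ0 hQ1 hSM0 hSM1 m hm)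
    -- a closed point on two components is on the three
    (fun τ hτ t ht => s36py_hab A0 M0 q hqM H ha2 hA0 c0 c1 hc hQ0 hQ1 hSM0 hSM1 hu0 hu1 t ht τ hτ)
    (fun τ hτ t ht => s36pn_hac_car M0 q hqM K0 A0 H ha2 hA0 hunr c0 c1 hc hQ0 hQ1 t ht τ hτ
      (hbc τ hτ t ht))
    hbc
    -- the `W_c`-only points
    (s36kc_hC_car M0 q hqM K0 A0 H ha2 hA0 hunif c0 c1 hc m hm
      (fun τ hτ t ht => s36wk_carrier_hC M0 q hqM K0 A0 H ha2 hA0 hunr c0 c1 hc hSM0 hSM1 t ht τ hτ
        m hm))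
    -- the triple points
    (s36ht_of M0 q K0 A0 H hqM ha2 hA0 hunif c0 c1 hc hQ0 hQ1 m hm
      (fun τ hτ t ht => s36th_hal M0 q hqM K0 A0 H ha2 hA0 c0 c1 hc hQ0 hQ1 hSM0 hSM1 hu0 hu1
        (s36v3Wc M0 q hqM K0 A0) t ht τ hτ)
      (s36tv_comp3 M0 q hqM K0 A0 H ha2 hA0 hunif c0 c1 hc hQ0 hQ1 hSM0 hSM1 hu0 hu1 m hm))

end Fermat.Agent.S36
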