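import Mathlib
import Fermat.Prelude.Def_ModularCurve_LaurentCoeff
import Fermat.Prelude.Def_ModularCurve_ArithmeticGalois
import Fermat.Agent.S18.BaseChangeField

/-!
# S36, family BASE, leaf (L-B1): coefficient lemmas for `laurentBaseChange L F₀`

`L` a field of characteristic zero, `F₀ ⊆ ℚ((q))`, `FL = laurentBaseChange L F₀`.

* `s36bh_ext`: two elements of `FL` with the same coefficients are equal;
* `s36bh_coeff_const_mul`: coefficients of `c * x` for a constant `c ∈ L`;
* `s36bh_coeff_sum`: coefficients of a finite sum;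
* `s36bh_coeff_aut`: coefficients of `arithmeticRingAut F₀ σ x`;
* `s36bh_coeff_bcf`: coefficients of `bcfHom K L F₀ z`;
* also `s36bh_coeff_add`, `s36bh_coeff_mul_const`, `s36bh_coeff_const`, `s36bh_coeff_zero`.

Names are prefixed `s36bh`.
-/

set_option autoImplicit false

noncomputable section

open ModularCurve Fermat.Agent.S18

namespace Fermat.Agent.S36

section Coeff

variable {L : Type*} [Field L] [Algebra ℚ L]
variable (F₀ : IntermediateField ℚ (LaurentSeries ℚ))

/-- two elements with the same coefficients are equal -/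
theorem s36bh_ext (x y : ↥(laurentBaseChange L F₀))
    (h : ∀ k : ℤ, (x : LaurentSeries L).coeff k = (y : LaurentSeries L).coeff k) : x = y :=
  Subtype.ext (HahnSeries.ext (funext h))

/-- coefficients of `c * x`, `c` a constant -/
theorem s36bh_coeff_const_mul (c : L) (x : ↥(laurentBaseChange L F₀)) (k : ℤ) :
    ((algebraMap L ↥(laurentBaseChange L F₀) c * x : ↥(laurentBaseChange L F₀)) :
      LaurentSeries L).coeff k = c * (x : LaurentSeries L).coeff k := by
  have h : ((algebraMap L ↥(laurentBaseChange L F₀) c * x : ↥(laurentBaseChange L F₀)) :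
      LaurentSeries L) = c • (x : LaurentSeries L) := by
    show algebraMap L (LaurentSeries L) c * (x : LaurentSeries L) = _
    rw [algebraMap_laurentSeries_eq_single, HahnSeries.single_zero_mul_eq_smul]
  rw [h, HahnSeries.coeff_smul, smul_eq_mul]

/-- coefficients of `x * c`, `c` a constant -/
theorem s36bh_coeff_mul_const (c : L) (x : ↥(laurentBaseChange L F₀)) (k : ℤ) :
    ((x * algebraMap L ↥(laurentBaseChange L F₀) c : ↥(laurentBaseChange L F₀)) :
      LaurentSeries L).coeff k = (x : LaurentSeries L).coeff k * c := by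
  rw [mul_comm x, s36bh_coeff_const_mul, mul_comm]

/-- coefficients of a constant -/
theorem s36bh_coeff_const (c : L) (k : ℤ) :
    ((algebraMap L ↥(laurentBaseChange L F₀) c : ↥(laurentBaseChange L F₀)) :
      LaurentSeries L).coeff k = if k = 0 then c else 0 := by
  have h : ((algebraMap L ↥(laurentBaseChange L F₀) c : ↥(laurentBaseChange L F₀)) :
      LaurentSeries L) = HahnSeries.single 0 c := by
    show algebraMap L (LaurentSeries L) c = _
    rw [algebraMap_laurentSeries_eq_single]
  rw [h]
  split_ifs with hk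
  · rw [hk, HahnSeries.coeff_single_same]
  · rw [HahnSeries.coeff_single_of_ne hk]

/-- coefficients of zero -/
theorem s36bh_coeff_zero (k : ℤ) :
    ((0 : ↥(laurentBaseChange L F₀)) : LaurentSeries L).coeff k = 0 := rfl

/-- coefficients of a sum of two elements -/
theorem s36bh_coeff_add (x y : ↥(laurentBaseChange L F₀)) (k : ℤ) :
    ((x + y : ↥(laurentBaseChange L F₀)) : LaurentSeries L).coeff k =
      (x : LaurentSeries L).coeff k + (y : LaurentSeries L).coeff k := rfl

/-- coefficients of a finite sum -/
theorem s36bh_coeff_sum {ι : Type*} (s : Finset ι) (f : ι → ↥(laurentBaseChange L F₀)) (k : ℤ) :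
    ((∑ j ∈ s, f j : ↥(laurentBaseChange L F₀)) : LaurentSeries L).coeff k =
      ∑ j ∈ s, (f j : LaurentSeries L).coeff k := by
  have h : ((∑ j ∈ s, f j : ↥(laurentBaseChange L F₀)) : LaurentSeries L) =
      ∑ j ∈ s, (f j : LaurentSeries L) :=
    map_sum (algebraMap ↥(laurentBaseChange L F₀) (LaurentSeries L)) _ _
  rw [h, HahnSeries.coeff_sum]

/-- coefficients of the image under the arithmetic automorphism attached to `σ` -/
theorem s36bh_coeff_aut (σ : L ≃ₐ[ℚ] L) (x : ↥(laurentBaseChange L F₀)) (k : ℤ) :
    ((arithmeticRingAut F₀ σ x : ↥(laurentBaseChange L F₀)) : LaurentSeries L).coeff k =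
      σ ((x : LaurentSeries L).coeff k) := by
  rw [coe_arithmeticRingAut_apply, coeffMap_coeff]
  rfl

/-- coefficients of the base change -/
theorem s36bh_coeff_bcf {K : Type*} [Field K] [Algebra ℚ K] [Algebra K L]
    (z : ↥(laurentBaseChange K F₀)) (k : ℤ) :
    ((bcfHom K L F₀ z : ↥(laurentBaseChange L F₀)) : LaurentSeries L).coeff k =
      algebraMap K L ((z : LaurentSeries K).coeff k) := by
  rw [bcfHom_coe, coeffMap_coeff]

end Coeff

end Fermat.Agent.S36
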