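import Mathlib

/-!
# S36, BASE-DEC (abstract part): decomposition of an integral element along a totally
ramified constant extension

`F₂ ⊆ F₁` a finite extension of fields with an `F₂`-basis `b` of `F₁` (in the application
`b i = π ^ i`, `π` a uniformiser of the larger constant field) and a trace-dual family `d`.

* `s36bd_repr_eq_trace`: `b.repr x i = Tr (d i * x)`;
* `s36bd_trace_mem`: the trace of an element integral over `R` lies in every set containing the
  elements of `F₂` integral over `R`;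
* `s36bd_sat`: `τ`-saturation: `τ ^ N * z ∈ O`, `z ∈ V` imply `z ∈ O`;
* `s36bd_val`, `s36bd_val_ne_zero`: a sum of elements with pairwise distinct valuations which
  lies in the valuation ring has all its terms in the valuation ring; such a sum with a nonzero
  term is nonzero;
* constants (`K₂ ⊆ K₁`, `A₁` a valuation subring of `K₁`, `π ∈ 𝔪_{A₁}`, and
  `v(c) ≤ v(π) ^ n` for every non-unit `c ∈ K₂`): `s36bd_c_dist` (the valuations of `c π ^ i`,
  `i < n`, are pairwise distinct), `s36bd_c_mem` (`c π ^ i ∈ A₁` forces `c ∈ A₁`),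
  `s36bd_c_indep` (the `π ^ i` are linearly independent over `K₂`), `s36bd_c_coord`,
  `s36bd_c_int` (`A₁` is integral over `A₁ ∩ K₂`);
* `s36bd_trace_const`, `s36bd_dual`: traces of constants, trace-dual families;
* `s36bd_main`: the coordinates of an integral `x ∈ V₁` lie in the chart `O₂`;
* `s36bd_d1`: the constant term, `x = x₀ + π y`.

The carrier (level-`M` function fields over two number fields) is `S36/BaseDecInst.lean`.
-/

set_option autoImplicit false

namespace Fermat.Agent.S36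

section TraceCoord

variable {F2 F1 : Type*} [Field F2] [Field F1] [Algebra F2 F1]
variable {ι : Type*} [Fintype ι] [DecidableEq ι]

/-- coordinates with respect to a basis through a trace-dual family -/
theorem s36bd_repr_eq_trace (b : Module.Basis ι F2 F1) (d : ι → F1)
    (hd : ∀ i j, Algebra.trace F2 F1 (d i * b j) = if i = j then 1 else 0) (x : F1) (i : ι) :
    b.repr x i = Algebra.trace F2 F1 (d i * x) := by
  conv_rhs => rw [← b.sum_repr x]
  rw [Finset.mul_sum, map_sum]
  have h1 : ∀ j ∈ Finset.univ, Algebra.trace F2 F1 (d i * (b.repr x j • b j)) =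
      if i = j then b.repr x j else 0 := by
    intro j _
    rw [mul_smul_comm, map_smul, hd, smul_eq_mul, mul_ite, mul_one, mul_zero]
  rw [Finset.sum_congr rfl h1, Finset.sum_ite_eq]
  simp

/-- the trace of an integral element is integral -/
theorem s36bd_trace_mem {R : Type*} [CommRing R] [Algebra R F2] [Algebra R F1]
    [IsScalarTower R F2 F1] [FiniteDimensional F2 F1] (O2 : Set F2)
    (hcl : ∀ z : F2, IsIntegral R z → z ∈ O2) (y : F1) (hy : IsIntegral R y) :
    Algebra.trace F2 F1 y ∈ O2 :=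
  hcl _ (Algebra.isIntegral_trace hy)

end TraceCoord

section Sat

variable {F : Type*} [Field F]

/-- `τ`-saturation, iterated: if `O ∩ 𝔪_V = τ O` then `τ ^ N * z ∈ O`, `z ∈ V` imply `z ∈ O`. -/
theorem s36bd_sat (O : Set F) (V : ValuationSubring F) (τ : F) (hτ0 : τ ≠ 0)
    (hτV : τ ∈ V.nonunits)
    (hVτ : ∀ z ∈ O, z ∈ V.nonunits → ∃ y ∈ O, z = τ * y) (N : ℕ) (z : F) (hz : z ∈ V)
    (h : τ ^ N * z ∈ O) : z ∈ O := by
  induction N with
  | zero => simpa using h
  | succ N ih =>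
    apply ih
    have hmem : τ ^ N * z ∈ V :=
      V.mul_mem _ _ (V.pow_mem (V.nonunits_subset hτV) N) hz
    have hnu : τ ^ (N + 1) * z ∈ V.nonunits := by
      rw [pow_succ, mul_assoc, mul_comm τ z, ← mul_assoc, mul_comm]
      rw [ValuationSubring.mem_nonunits_iff, map_mul]
      exact mul_lt_one_of_lt_of_le ((V.mem_nonunits_iff).mp hτV)
        ((V.valuation_le_one_iff _).mpr hmem)
    obtain ⟨y, hy, hzy⟩ := hVτ _ h hnu
    have e : τ ^ N * z = y := by
      apply mul_left_cancel₀ hτ0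
      rw [← hzy, pow_succ]
      ring
    rw [e]
    exact hy

end Sat

section Val

variable {F : Type*} [Field F] {Γ₀ : Type*} [LinearOrderedCommGroupWithZero Γ₀]
variable {ι : Type*} [DecidableEq ι]

/-- If the nonzero terms of a finite sum have pairwise distinct valuations and the sum has
valuation `≤ 1`, then every term has valuation `≤ 1`. -/
theorem s36bd_val (v : Valuation F Γ₀) (w : ι → F) (s : Finset ι)
    (hdist : ∀ i ∈ s, ∀ j ∈ s, i ≠ j → w i ≠ 0 → w j ≠ 0 → v (w i) ≠ v (w j))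
    (h : v (∑ i ∈ s, w i) ≤ 1) : ∀ i ∈ s, v (w i) ≤ 1 := by
  by_contra hcon
  push Not at hcon
  obtain ⟨i1, hi1, hgt⟩ := hcon
  obtain ⟨i0, hi0, hmax⟩ := Finset.exists_max_image s (fun i => v (w i)) ⟨i1, hi1⟩
  have hgt0 : 1 < v (w i0) := lt_of_lt_of_le hgt (hmax i1 hi1)
  have hw0 : w i0 ≠ 0 := by
    intro h0
    rw [h0, map_zero] at hgt0
    exact absurd hgt0 (by simp)
  have hv0 : v (w i0) ≠ 0 := (Valuation.ne_zero_iff v).mpr hw0
  have hlt : ∀ j ∈ s.erase i0, v (w j) < v (w i0) := by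
    intro j hj
    obtain ⟨hji, hjs⟩ := Finset.mem_erase.mp hj
    by_cases hwj : w j = 0
    · rw [hwj, map_zero]
      exact zero_lt_iff.mpr hv0
    · exact lt_of_le_of_ne (hmax j hjs) (hdist j hjs i0 hi0 hji hwj hw0)
  have hrest : v (∑ j ∈ s.erase i0, w j) < v (w i0) := Valuation.map_sum_lt v hv0 hlt
  have hsum : ∑ i ∈ s, w i = w i0 + ∑ j ∈ s.erase i0, w j := by
    rw [Finset.add_sum_erase s w hi0]
  rw [hsum, Valuation.map_add_eq_of_lt_left v hrest] at h
  exact absurd h (not_le.mpr hgt0)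

end Val

section Val2

variable {F : Type*} [Field F] {Γ₀ : Type*} [LinearOrderedCommGroupWithZero Γ₀]
variable {ι : Type*} [DecidableEq ι]

/-- A finite sum whose nonzero terms have pairwise distinct valuations and which has a nonzero
term is nonzero. -/
theorem s36bd_val_ne_zero (v : Valuation F Γ₀) (w : ι → F) (s : Finset ι)
    (hdist : ∀ i ∈ s, ∀ j ∈ s, i ≠ j → w i ≠ 0 → w j ≠ 0 → v (w i) ≠ v (w j))
    (i1 : ι) (hi1 : i1 ∈ s) (hw1 : w i1 ≠ 0) : ∑ i ∈ s, w i ≠ 0 := by
  obtain ⟨i0, hi0, hmax⟩ := Finset.exists_max_image s (fun i => v (w i)) ⟨i1, hi1⟩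
  have hpos : 0 < v (w i0) :=
    lt_of_lt_of_le (zero_lt_iff.mpr ((Valuation.ne_zero_iff v).mpr hw1)) (hmax i1 hi1)
  have hv0 : v (w i0) ≠ 0 := ne_of_gt hpos
  have hw0 : w i0 ≠ 0 := (Valuation.ne_zero_iff v).mp hv0
  have hlt : ∀ j ∈ s.erase i0, v (w j) < v (w i0) := by
    intro j hj
    obtain ⟨hji, hjs⟩ := Finset.mem_erase.mp hj
    by_cases hwj : w j = 0
    · rw [hwj, map_zero]
      exact hpos
    · exact lt_of_le_of_ne (hmax j hjs) (hdist j hjs i0 hi0 hji hwj hw0)
  have hrest : v (∑ j ∈ s.erase i0, w j) < v (w i0) := Valuation.map_sum_lt v hv0 hlt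
  have hsum : ∑ i ∈ s, w i = w i0 + ∑ j ∈ s.erase i0, w j := by
    rw [Finset.add_sum_erase s w hi0]
  intro h0
  have h1 : v (∑ i ∈ s, w i) = v (w i0) := by
    rw [hsum, Valuation.map_add_eq_of_lt_left v hrest]
  rw [h0, map_zero] at h1
  exact hv0 h1.symm

end Val2

section Const

variable {K2 K1 : Type*} [Field K2] [Field K1] [Algebra K2 K1] (A1 : ValuationSubring K1)
  (π : K1) (hπ0 : π ≠ 0) (hπ : π ∈ A1.nonunits) (n : ℕ)
  (hcore : ∀ c : K2, algebraMap K2 K1 c ∈ A1.nonunits →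
    A1.valuation (algebraMap K2 K1 c) ≤ A1.valuation π ^ n)

include hπ0 hπ hcore

theorem s36bd_c_dist_lt (i j : ℕ) (hij : i < j) (hj : j < n) (c c' : K2) (hc' : c' ≠ 0) :
    A1.valuation (algebraMap K2 K1 c * π ^ i) ≠ A1.valuation (algebraMap K2 K1 c' * π ^ j) := by
  intro h
  have hvπ : A1.valuation π < 1 := (A1.mem_nonunits_iff).mp hπ
  have hvπ0 : 0 < A1.valuation π := zero_lt_iff.mpr ((Valuation.ne_zero_iff _).mpr hπ0)
  have hvc' : A1.valuation (algebraMap K2 K1 c') ≠ 0 :=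
    (Valuation.ne_zero_iff _).mpr (by rwa [Ne, map_eq_zero])
  have hvπi : A1.valuation π ^ i ≠ 0 := pow_ne_zero _ (ne_of_gt hvπ0)
  have hr : A1.valuation (algebraMap K2 K1 (c / c')) = A1.valuation π ^ (j - i) := by
    rw [map_div₀, map_div₀, div_eq_iff hvc']
    apply mul_right_cancel₀ hvπi
    have e : j = (j - i) + i := by omega
    rw [map_mul, map_mul, map_pow, map_pow] at h
    rw [h, mul_comm (A1.valuation π ^ (j - i)) (A1.valuation (algebraMap K2 K1 c')), mul_assoc,
      ← pow_add, ← e]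
  have hlt1 : A1.valuation π ^ (j - i) < 1 := pow_lt_one₀ hvπ0.le hvπ (by omega)
  have hnu : algebraMap K2 K1 (c / c') ∈ A1.nonunits := by
    rw [A1.mem_nonunits_iff, hr]
    exact hlt1
  have h1 := hcore _ hnu
  rw [hr] at h1
  have h2 : A1.valuation π ^ n < A1.valuation π ^ (j - i) :=
    pow_lt_pow_right_of_lt_one₀ hvπ0 hvπ (by omega)
  exact absurd h1 (not_le.mpr h2)

theorem s36bd_c_dist (i j : ℕ) (hi : i < n) (hj : j < n) (hij : i ≠ j) (c c' : K2) (hc : c ≠ 0)
    (hc' : c' ≠ 0) :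
    A1.valuation (algebraMap K2 K1 c * π ^ i) ≠ A1.valuation (algebraMap K2 K1 c' * π ^ j) := by
  rcases Nat.lt_or_gt_of_ne hij with h | h
  · exact s36bd_c_dist_lt A1 π hπ0 hπ n hcore i j h hj c c' hc'
  · exact (s36bd_c_dist_lt A1 π hπ0 hπ n hcore j i h hi c' c hc).symm

theorem s36bd_c_mem (i : ℕ) (hi : i < n) (c : K2) (h : algebraMap K2 K1 c * π ^ i ∈ A1) :
    algebraMap K2 K1 c ∈ A1 := by
  by_contra hc
  have hvπ : A1.valuation π < 1 := (A1.mem_nonunits_iff).mp hπ
  have hvπ0 : 0 < A1.valuation π := zero_lt_iff.mpr ((Valuation.ne_zero_iff _).mpr hπ0)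
  have hv : 1 < A1.valuation (algebraMap K2 K1 c) := by
    rw [← not_le, A1.valuation_le_one_iff]
    exact hc
  have hv0 : 0 < A1.valuation (algebraMap K2 K1 c) := lt_trans zero_lt_one hv
  have hnu : algebraMap K2 K1 c⁻¹ ∈ A1.nonunits := by
    rw [A1.mem_nonunits_iff, map_inv₀, map_inv₀]
    exact inv_lt_one_of_one_lt₀ hv
  have h1 := hcore _ hnu
  rw [map_inv₀, map_inv₀, inv_le_iff_one_le_mul₀ hv0] at h1
  have h2 : A1.valuation (algebraMap K2 K1 c) * A1.valuation π ^ i ≤ 1 := by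
    rw [← map_pow, ← map_mul]
    exact (A1.valuation_le_one_iff _).mpr h
  have h3 : A1.valuation π ^ n < A1.valuation π ^ i :=
    pow_lt_pow_right_of_lt_one₀ hvπ0 hvπ hi
  have h4 : A1.valuation π ^ n * A1.valuation (algebraMap K2 K1 c) <
      A1.valuation (algebraMap K2 K1 c) * A1.valuation π ^ i := by
    rw [mul_comm]
    exact mul_lt_mul_of_pos_left h3 hv0
  exact absurd (lt_of_lt_of_le h4 h2) (not_lt.mpr h1)

theorem s36bd_c_indep : LinearIndependent K2 (fun i : Fin n => π ^ (i : ℕ)) := by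
  classical
  rw [Fintype.linearIndependent_iff]
  intro g hg i
  by_contra hgi
  have hne := s36bd_val_ne_zero A1.valuation (fun j : Fin n => algebraMap K2 K1 (g j) * π ^ (j : ℕ))
    Finset.univ
    (by
      intro j _ k _ hjk hwj hwk
      refine s36bd_c_dist A1 π hπ0 hπ n hcore j k j.2 k.2 (fun h => hjk (Fin.ext h)) _ _ ?_ ?_
      · rintro h0
        exact hwj (by simp [h0])
      · rintro h0
        exact hwk (by simp [h0]))
    i (Finset.mem_univ i)
    (mul_ne_zero (by rwa [Ne, map_eq_zero]) (pow_ne_zero _ hπ0))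
  apply hne
  rw [← hg]
  refine Finset.sum_congr rfl fun j _ => ?_
  rw [Algebra.smul_def]

end Const


section ConstInt

variable {K2 K1 : Type*} [Field K2] [Field K1] [Algebra K2 K1] (A1 : ValuationSubring K1)
  (π : K1) (hπ0 : π ≠ 0) (hπ : π ∈ A1.nonunits) (n : ℕ)
  (hcore : ∀ c : K2, algebraMap K2 K1 c ∈ A1.nonunits →
    A1.valuation (algebraMap K2 K1 c) ≤ A1.valuation π ^ n)

include hπ0 hπ hcore in
/-- the coordinates of an element of `A₁` with respect to the basis `π ^ i` lie in `A₁ ∩ K₂` -/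
theorem s36bd_c_coord (b : Module.Basis (Fin n) K2 K1) (hb : ∀ i : Fin n, b i = π ^ (i : ℕ))
    (x : K1) (hx : x ∈ A1) (j : Fin n) : algebraMap K2 K1 (b.repr x j) ∈ A1 := by
  classical
  have hsum : x = ∑ j, algebraMap K2 K1 (b.repr x j) * π ^ (j : ℕ) := by
    conv_lhs => rw [← b.sum_repr x]
    refine Finset.sum_congr rfl fun j _ => ?_
    rw [hb, Algebra.smul_def]
  have hv : A1.valuation (∑ j, algebraMap K2 K1 (b.repr x j) * π ^ (j : ℕ)) ≤ 1 := by
    rw [← hsum]
    exact (A1.valuation_le_one_iff _).mpr hx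
  have hall := s36bd_val A1.valuation
    (fun j : Fin n => algebraMap K2 K1 (b.repr x j) * π ^ (j : ℕ)) Finset.univ
    (by
      intro j _ k _ hjk hwj hwk
      refine s36bd_c_dist A1 π hπ0 hπ n hcore j k j.2 k.2 (fun h => hjk (Fin.ext h)) _ _ ?_ ?_
      · rintro h0
        exact hwj (by simp [h0])
      · rintro h0
        exact hwk (by simp [h0]))
    hv j (Finset.mem_univ j)
  exact s36bd_c_mem A1 π hπ0 hπ n hcore j j.2 _ ((A1.valuation_le_one_iff _).mp hall)

include hπ0 hπ hcore in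
/-- `A₁` is integral over `A₁ ∩ K₂` (it is the module spanned by the `π ^ i`) -/
theorem s36bd_c_int (b : Module.Basis (Fin n) K2 K1) (hb : ∀ i : Fin n, b i = π ^ (i : ℕ))
    (a : K1) (ha : a ∈ A1) :
    ((algebraMap K2 K1).comp (A1.comap (algebraMap K2 K1)).subtype).IsIntegralElem a := by
  classical
  let _ : Algebra ↥(A1.comap (algebraMap K2 K1)) K1 :=
    ((algebraMap K2 K1).comp (A1.comap (algebraMap K2 K1)).subtype).toAlgebra
  show IsIntegral ↥(A1.comap (algebraMap K2 K1)) a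
  let S : Subalgebra ↥(A1.comap (algebraMap K2 K1)) K1 :=
    { A1.toSubring.toSubsemiring with algebraMap_mem' := fun c => c.2 }
  refine IsIntegral.of_mem_of_fg S ?_ a ha
  have hS : S.toSubmodule =
      Submodule.span ↥(A1.comap (algebraMap K2 K1)) (Set.range fun i : Fin n => π ^ (i : ℕ)) := by
    apply le_antisymm
    · intro x hx
      have hx' : x ∈ A1 := hx
      have hsum : x = ∑ j, algebraMap K2 K1 (b.repr x j) * π ^ (j : ℕ) := by
        conv_lhs => rw [← b.sum_repr x]
        refine Finset.sum_congr rfl fun j _ => ?_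
        rw [hb, Algebra.smul_def]
      rw [hsum]
      refine Submodule.sum_mem _ fun j _ => ?_
      have hmem : algebraMap K2 K1 (b.repr x j) ∈ A1 :=
        s36bd_c_coord A1 π hπ0 hπ n hcore b hb x hx' j
      have e : algebraMap K2 K1 (b.repr x j) * π ^ (j : ℕ) =
          (⟨b.repr x j, hmem⟩ : ↥(A1.comap (algebraMap K2 K1))) • π ^ (j : ℕ) := rfl
      rw [e]
      exact Submodule.smul_mem _ _ (Submodule.subset_span ⟨j, rfl⟩)
    · rw [Submodule.span_le]
      rintro _ ⟨i, rfl⟩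
      exact A1.pow_mem (A1.nonunits_subset hπ) _
  rw [hS]
  exact Submodule.fg_span (Set.finite_range _)

end ConstInt

section TraceConst

variable {K2 K1 F2 F1 : Type*} [Field K2] [Field K1] [Field F2] [Field F1]
  [Algebra K2 K1] [Algebra K2 F2] [Algebra F2 F1] [Algebra K1 F1] [Algebra K2 F1]
  [IsScalarTower K2 K1 F1] [IsScalarTower K2 F2 F1]
  {ι : Type*} [Fintype ι] [DecidableEq ι]

/-- the trace of a constant is computed in the constant fields, when a basis of `K₁ / K₂` stays a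
basis of `F₁ / F₂` -/
theorem s36bd_trace_const (b : Module.Basis ι K2 K1) (b' : Module.Basis ι F2 F1)
    (hb : ∀ i, b' i = algebraMap K1 F1 (b i)) (a : K1) :
    Algebra.trace F2 F1 (algebraMap K1 F1 a) = algebraMap K2 F2 (Algebra.trace K2 K1 a) := by
  rw [Algebra.trace_eq_matrix_trace b', Algebra.trace_eq_matrix_trace b, Matrix.trace,
    Matrix.trace, map_sum]
  refine Finset.sum_congr rfl fun i _ => ?_
  rw [Matrix.diag_apply, Matrix.diag_apply, Algebra.leftMulMatrix_eq_repr_mul,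
    Algebra.leftMulMatrix_eq_repr_mul]
  have h : algebraMap K1 F1 a * b' i = ∑ k, algebraMap K2 F2 (b.repr (a * b i) k) • b' k := by
    rw [hb, ← map_mul]
    conv_lhs => rw [← b.sum_repr (a * b i)]
    rw [map_sum]
    refine Finset.sum_congr rfl fun k _ => ?_
    rw [hb, Algebra.smul_def, map_mul, Algebra.smul_def,
      ← IsScalarTower.algebraMap_apply K2 F2 F1, IsScalarTower.algebraMap_apply K2 K1 F1]
  rw [h, b'.repr_sum_self]

/-- a trace-dual family of a basis of a finite separable extension -/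
theorem s36bd_dual [FiniteDimensional K2 K1] [Algebra.IsSeparable K2 K1]
    (b : Module.Basis ι K2 K1) :
    ∃ δ : ι → K1, ∀ i j, Algebra.trace K2 K1 (δ i * b j) = if i = j then 1 else 0 := by
  refine ⟨fun i => (Algebra.traceForm K2 K1).dualBasis (traceForm_nondegenerate K2 K1) b i,
    fun i j => ?_⟩
  rw [← Algebra.traceForm_apply, LinearMap.BilinForm.apply_dualBasis_left]
  by_cases h : i = j
  · rw [if_pos h, if_pos h.symm]
  · rw [if_neg h, if_neg (fun h' => h h'.symm)]

end TraceConst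

section Main

variable {F2 F1 : Type*} [Field F2] [Field F1] [Algebra F2 F1] [FiniteDimensional F2 F1]
variable {R : Type*} [CommRing R] [Algebra R F2] [Algebra R F1] [IsScalarTower R F2 F1]

/-- **Decomposition, abstract form.**  `b i = π ^ i` an `F₂`-basis of `F₁` with trace-dual family
`d`; `O₂ ⊇` the elements of `F₂` integral over `R`, `τ`-saturated in the valuation ring `V₂`;
`τ ^ N * d i` preserves integrality over `R`; the valuations (for `V₁`) of the elements
`z * π ^ i` (`z ∈ F₂ ∖ 0`, `i < e`) are pairwise distinct for distinct `i`, and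
`z * π ^ i ∈ V₁` forces `z ∈ V₂`.  Then the coordinates of every `x ∈ V₁` integral over `R` lie
in `O₂`. -/
theorem s36bd_main (O2 : Set F2) (hO2 : ∀ z : F2, IsIntegral R z → z ∈ O2)
    (V1 : ValuationSubring F1) (V2 : ValuationSubring F2)
    (e : ℕ) (π : F1) (b : Module.Basis (Fin e) F2 F1) (hb : ∀ i : Fin e, b i = π ^ (i : ℕ))
    (d : Fin e → F1)
    (hd : ∀ i j, Algebra.trace F2 F1 (d i * b j) = if i = j then 1 else 0)
    (τ : F2) (hτ0 : τ ≠ 0) (hτV : τ ∈ V2.nonunits)
    (hVτ : ∀ z ∈ O2, z ∈ V2.nonunits → ∃ y ∈ O2, z = τ * y)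
    (N : ℕ)
    (hN : ∀ (i : Fin e) (x : F1), IsIntegral R x →
      IsIntegral R (algebraMap F2 F1 (τ ^ N) * (d i * x)))
    (hdist : ∀ (i j : Fin e) (z z' : F2), i ≠ j → z ≠ 0 → z' ≠ 0 →
      V1.valuation (algebraMap F2 F1 z * π ^ (i : ℕ)) ≠
        V1.valuation (algebraMap F2 F1 z' * π ^ (j : ℕ)))
    (hR : ∀ (i : Fin e) (z : F2), algebraMap F2 F1 z * π ^ (i : ℕ) ∈ V1 → z ∈ V2)
    (x : F1) (hx : IsIntegral R x) (hxV : x ∈ V1) (i : Fin e) :
    b.repr x i ∈ O2 := by
  classical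
  -- (a) `τ ^ N * z_i ∈ O₂`
  have ha : τ ^ N * b.repr x i ∈ O2 := by
    rw [s36bd_repr_eq_trace b d hd x i, ← smul_eq_mul, ← map_smul, Algebra.smul_def]
    exact s36bd_trace_mem O2 hO2 _ (hN i x hx)
  -- (b) `z_i ∈ V₂`
  have hsum : x = ∑ j, algebraMap F2 F1 (b.repr x j) * π ^ (j : ℕ) := by
    conv_lhs => rw [← b.sum_repr x]
    refine Finset.sum_congr rfl fun j _ => ?_
    rw [hb, Algebra.smul_def]
  have hv : V1.valuation (∑ j, algebraMap F2 F1 (b.repr x j) * π ^ (j : ℕ)) ≤ 1 := by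
    rw [← hsum]
    exact (V1.valuation_le_one_iff _).mpr hxV
  have hall := s36bd_val V1.valuation
    (fun j : Fin e => algebraMap F2 F1 (b.repr x j) * π ^ (j : ℕ)) Finset.univ
    (by
      intro j _ k _ hjk hwj hwk
      refine hdist j k _ _ hjk ?_ ?_
      · rintro h0
        exact hwj (by simp [h0])
      · rintro h0
        exact hwk (by simp [h0]))
    hv i (Finset.mem_univ i)
  have hb2 : b.repr x i ∈ V2 := hR i _ ((V1.valuation_le_one_iff _).mp hall)
  -- (c) saturation
  exact s36bd_sat O2 V2 τ hτ0 hτV hVτ N _ hb2 ha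

omit [FiniteDimensional F2 F1] in
/-- **(D1), abstract form.**  If all coordinates of `x` with respect to the basis `π ^ i` lie in
`O₂`, then `x = x₀ + π * y` with `x₀ ∈ O₂` and `y ∈ O₁`. -/
theorem s36bd_d1 (O2 : Set F2) (O1 : Subring F1) (e : ℕ) (he : 0 < e) (π : F1)
    (b : Module.Basis (Fin e) F2 F1) (hb : ∀ i : Fin e, b i = π ^ (i : ℕ))
    (hπO : π ∈ O1) (hO21 : ∀ z ∈ O2, algebraMap F2 F1 z ∈ O1)
    (x : F1) (hx : ∀ i, b.repr x i ∈ O2) :
    ∃ x0 ∈ O2, ∃ y ∈ O1, x = algebraMap F2 F1 x0 + π * y := by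
  classical
  set i0 : Fin e := ⟨0, he⟩ with hi0
  refine ⟨b.repr x i0, hx i0,
    ∑ j ∈ Finset.univ.erase i0, algebraMap F2 F1 (b.repr x j) * π ^ ((j : ℕ) - 1), ?_, ?_⟩
  · refine O1.sum_mem fun j _ => O1.mul_mem (hO21 _ (hx j)) (O1.pow_mem hπO _)
  · conv_lhs => rw [← b.sum_repr x]
    rw [← Finset.add_sum_erase Finset.univ _ (Finset.mem_univ i0), Finset.mul_sum]
    congr 1
    · rw [hb, Algebra.smul_def, hi0]
      simp
    · refine Finset.sum_congr rfl fun j hj => ?_
      have hj0 : (j : ℕ) ≠ 0 := by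
        intro h0
        exact (Finset.mem_erase.mp hj).1 (Fin.ext (by rw [hi0]; exact h0))
      rw [hb, Algebra.smul_def]
      have : π ^ (j : ℕ) = π * π ^ ((j : ℕ) - 1) := by
        rw [← pow_succ', Nat.sub_add_cancel (Nat.one_le_iff_ne_zero.mpr hj0)]
      rw [this]
      ring

end Main

end Fermat.Agent.S36
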