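import Mathlib
import Fermat.Agent.S18.BaseChangeField
import Fermat.Agent.S18.SMInstKer
import Fermat.Agent.S18.SMInstBridge
import Fermat.Agent.S18.GaussChart
import Fermat.Agent.S36.BaseDec
import Fermat.Agent.S36.BaseSeam

/-!
# S36, BASE-DEC (carrier): integral elements of the level-`M` function field over `K₁` are
congruent to integral elements over `K₂` along a totally ramified extension `K₁ / K₂`

* `s36bd_ff_indep`, `s36bd_ff_span`, `s36bd_ff_basis`: a `K₀`-basis of `L` is a basis of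
  `F₀ · L` over `F₀ · K₀` (base change of the coefficient field);
* `s36bd_ff_unit`, `s36bd_ff_mem`, `s36bd_ff_dist`: the Gauss valuations of the terms
  `z_i π ^ i` (`z_i` in the function field over `K₀`) are pairwise distinct and Gauss integrality
  descends (from `gr_exists_unit`: every nonzero function is a constant times a Gauss unit);
* `s36bd_generic`: the decomposition for generic fields `K₂ ⊆ K₁`: every `x₁` integral over
  `A₁[t]` has an `x₂` over `K₂`, integral over `A₂[t]`, with `x₁ - x₂` in the Gauss maximal ideal;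
* `s36bd_dec`: the seam `s36bsDec` (S36/BaseSeam) for two subfields of the algebraic closure of
  `ℚ`, the hypothesis being total ramification in the form `c / π ^ [K₁ : K₂] ∈ A` for every
  `c ∈ K₂ ∩ 𝔪_A`.
-/

set_option autoImplicit false

noncomputable section

open ModularCurve Polynomial
open Fermat.Agent.S18

namespace Fermat.Agent.S36

section FF

variable (K₀ L : Type*) [Field K₀] [Field L] [Algebra ℚ K₀] [Algebra ℚ L] [Algebra K₀ L]
variable (F₀ : IntermediateField ℚ (LaurentSeries ℚ))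

/-- a `K₀`-basis of `L` stays linearly independent over `F₀ · K₀` inside `F₀ · L` -/
theorem s36bd_ff_indep {ι : Type*} [Fintype ι] (b : Module.Basis ι K₀ L) :
    letI := bcfAlgebra K₀ L F₀
    LinearIndependent ↥(laurentBaseChange K₀ F₀)
      (fun i => algebraMap L ↥(laurentBaseChange L F₀) (b i)) := by
  let _ := bcfAlgebra K₀ L F₀
  classical
  rw [Fintype.linearIndependent_iff]
  intro g hg i
  have h1 : ∑ j, coeffMap (algebraMap K₀ L) (g j : LaurentSeries K₀) *
      HahnSeries.single 0 (b j) = 0 := by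
    have h2 := congrArg (fun y : ↥(laurentBaseChange L F₀) => (y : LaurentSeries L)) hg
    simp only [AddSubmonoidClass.coe_finsetSum, ZeroMemClass.coe_zero] at h2
    rw [← h2]
    refine Finset.sum_congr rfl fun j _ => ?_
    rw [Algebra.smul_def (g j), ← algebraMap_laurentSeries_eq_single]
    rfl
  apply Subtype.ext
  ext m
  have hm := congrArg (fun y => HahnSeries.coeff y m) h1
  simp only [HahnSeries.coeff_sum, HahnSeries.coeff_mul_single_zero, coeffMap_coeff,
    HahnSeries.coeff_zero] at hm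
  have h3 : ∑ j, (g j : LaurentSeries K₀).coeff m • b j = 0 := by
    rw [← hm]
    refine Finset.sum_congr rfl fun j _ => ?_
    rw [Algebra.smul_def]
  exact Fintype.linearIndependent_iff.mp b.linearIndependent _ h3 i

/-- a `K₀`-basis of `L` spans `F₀ · L` over `F₀ · K₀` -/
theorem s36bd_ff_span [FiniteDimensional K₀ L] {ι : Type*} [Fintype ι]
    (b : Module.Basis ι K₀ L) (y : ↥(laurentBaseChange L F₀)) :
    letI := bcfAlgebra K₀ L F₀
    y ∈ Submodule.span ↥(laurentBaseChange K₀ F₀)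
      (Set.range fun i => algebraMap L ↥(laurentBaseChange L F₀) (b i)) := by
  let _ := bcfAlgebra K₀ L F₀
  let _ := bcfAlgebraConst K₀ L F₀
  have : IsScalarTower K₀ L ↥(laurentBaseChange L F₀) := bcf_isScalarTower_const K₀ L F₀
  have : IsScalarTower K₀ ↥(laurentBaseChange K₀ F₀) ↥(laurentBaseChange L F₀) :=
    bcf_isScalarTower K₀ L F₀
  classical
  have halg : ∀ x ∈ Set.range (algebraMap L ↥(laurentBaseChange L F₀)),
      IsAlgebraic ↥(laurentBaseChange K₀ F₀) x := by
    rintro _ ⟨a, rfl⟩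
    have h1 : IsAlgebraic K₀ a := Algebra.IsAlgebraic.isAlgebraic a
    have h2 : IsAlgebraic K₀ (algebraMap L ↥(laurentBaseChange L F₀) a) := h1.algebraMap
    exact h2.tower_top _
  have h1 : y ∈ (IntermediateField.adjoin ↥(laurentBaseChange K₀ F₀)
      (Set.range (algebraMap L ↥(laurentBaseChange L F₀)))).toSubalgebra := by
    rw [bcf_adjoin_eq_top K₀ L F₀]
    trivial
  rw [IntermediateField.adjoin_toSubalgebra_of_isAlgebraic halg] at h1
  have h2 : y ∈ Subalgebra.toSubmodule (Algebra.adjoin ↥(laurentBaseChange K₀ F₀)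
      (Set.range (algebraMap L ↥(laurentBaseChange L F₀)))) := h1
  have hcl : Submonoid.closure (Set.range (algebraMap L ↥(laurentBaseChange L F₀))) =
      MonoidHom.mrange (algebraMap L ↥(laurentBaseChange L F₀) : L →* _) := by
    rw [← MonoidHom.coe_mrange]
    exact Submonoid.closure_eq _
  rw [Algebra.adjoin_eq_span, hcl] at h2
  refine Submodule.span_le.mpr ?_ h2
  rintro _ ⟨a, rfl⟩
  have h3 : algebraMap L ↥(laurentBaseChange L F₀) a =
      ∑ k, algebraMap K₀ ↥(laurentBaseChange K₀ F₀) (b.repr a k) •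
        algebraMap L ↥(laurentBaseChange L F₀) (b k) := by
    conv_lhs => rw [← b.sum_repr a]
    rw [map_sum]
    refine Finset.sum_congr rfl fun k _ => ?_
    rw [Algebra.smul_def, map_mul, Algebra.smul_def,
      ← IsScalarTower.algebraMap_apply K₀ ↥(laurentBaseChange K₀ F₀) ↥(laurentBaseChange L F₀),
      IsScalarTower.algebraMap_apply K₀ L ↥(laurentBaseChange L F₀)]
  show algebraMap L ↥(laurentBaseChange L F₀) a ∈ _
  rw [h3]
  exact Submodule.sum_mem _ fun k _ => Submodule.smul_mem _ _ (Submodule.subset_span ⟨k, rfl⟩)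

/-- a `K₀`-basis of `L` is an `F₀ · K₀`-basis of `F₀ · L` -/
theorem s36bd_ff_basis [FiniteDimensional K₀ L] {ι : Type*} [Fintype ι]
    (b : Module.Basis ι K₀ L) :
    letI := bcfAlgebra K₀ L F₀
    ∃ b' : Module.Basis ι ↥(laurentBaseChange K₀ F₀) ↥(laurentBaseChange L F₀),
      ∀ i, b' i = algebraMap L ↥(laurentBaseChange L F₀) (b i) := by
  let _ := bcfAlgebra K₀ L F₀
  refine ⟨Module.Basis.mk (s36bd_ff_indep K₀ L F₀ b)
    (fun y _ => s36bd_ff_span K₀ L F₀ b y), fun i => ?_⟩
  rw [Module.Basis.mk_apply]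

end FF


section Small

/-- an element of a valuation ring whose inverse also lies in it has valuation one -/
theorem s36bd_val_unit {F : Type*} [Field F] (V : ValuationSubring F) (w : F) (hw : w ∈ V)
    (hw' : w⁻¹ ∈ V) (hw0 : w ≠ 0) : V.valuation w = 1 := by
  apply le_antisymm ((V.valuation_le_one_iff _).mpr hw)
  have h := (V.valuation_le_one_iff _).mpr hw'
  rw [map_inv₀] at h
  have hpos : 0 < V.valuation w := zero_lt_iff.mpr ((Valuation.ne_zero_iff _).mpr hw0)
  exact (inv_le_one₀ hpos).mp h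

/-- clearing denominators in a discrete valuation subring -/
theorem s36bd_dvr_clear {K : Type*} [Field K] (A : ValuationSubring K)
    [IsDiscreteValuationRing ↥A] (τ : ↥A) (hτ : Irreducible τ) (a : K) :
    ∃ N : ℕ, ∀ N', N ≤ N' → (τ : K) ^ N' * a ∈ A := by
  by_cases ha : a ∈ A
  · exact ⟨0, fun N' _ => A.mul_mem _ _ (A.pow_mem τ.2 N') ha⟩
  · have hinv : a⁻¹ ∈ A := (A.mem_or_inv_mem a).resolve_left ha
    have ha0 : a ≠ 0 := fun h => ha (h ▸ A.zero_mem)
    have hne : (⟨a⁻¹, hinv⟩ : ↥A) ≠ 0 := fun h => inv_ne_zero ha0 (congrArg Subtype.val h)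
    obtain ⟨N, u, hu⟩ := IsDiscreteValuationRing.eq_unit_mul_pow_irreducible hne hτ
    refine ⟨N, fun N' hN' => ?_⟩
    have hτ0 : (τ : K) ≠ 0 := fun h => hτ.ne_zero (Subtype.ext h)
    have h2 : a⁻¹ = ((u : ↥A) : K) * (τ : K) ^ N := congrArg Subtype.val hu
    have hu1 : ((u : ↥A) : K) * (((u⁻¹ : (↥A)ˣ) : ↥A) : K) = 1 :=
      congrArg Subtype.val (Units.mul_inv u)
    have hU0 : ((u : ↥A) : K) ≠ 0 := left_ne_zero_of_mul_eq_one hu1
    have h1 : (τ : K) ^ N * a = (((u⁻¹ : (↥A)ˣ) : ↥A) : K) := by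
      rw [eq_inv_of_mul_eq_one_right hu1, ← inv_inv a, h2, mul_inv, mul_comm _ ((τ : K) ^ N)⁻¹,
        ← mul_assoc, mul_inv_cancel₀ (pow_ne_zero _ hτ0), one_mul]
    obtain ⟨k, rfl⟩ := Nat.exists_eq_add_of_le hN'
    rw [pow_add, mul_comm ((τ : K) ^ N), mul_assoc, h1]
    exact A.mul_mem _ _ (A.pow_mem τ.2 k) (Subtype.coe_prop _)

/-- transitivity of integrality for a ring homomorphism with integral image -/
theorem s36bd_int_trans {R S B : Type*} [CommRing R] [CommRing S] [CommRing B] [Algebra R B]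
    (f : S →+* B) (hf : ∀ s, IsIntegral R (f s)) (x : B) (hx : f.IsIntegralElem x) :
    IsIntegral R x := by
  obtain ⟨p, hp, hpx⟩ := hx
  let g : S →+* ↥(integralClosure R B) := f.codRestrict (integralClosure R B) hf
  have h1 : IsIntegral ↥(integralClosure R B) x :=
    ⟨p.map g, hp.map g, by rw [Polynomial.eval₂_map]; exact hpx⟩
  exact isIntegral_trans x h1

/-- integral elements over a ring mapping into a valuation subring lie in it -/
theorem s36bd_int_mem {S F : Type*} [CommRing S] [Field F] (V : ValuationSubring F) (f : S →+* F)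
    (hf : ∀ s, f s ∈ V) (x : F) (hx : f.IsIntegralElem x) : x ∈ V := by
  let _ := f.toAlgebra
  exact valext_mem_of_isIntegral V hf x hx

/-- the total ramification inequality from a uniformiser equation `τ₂ = π ^ n * u` -/
theorem s36bd_hcore {K2 K1 : Type*} [Field K2] [Field K1] [Algebra K2 K1]
    (A1 : ValuationSubring K1) [IsDiscreteValuationRing ↥(A1.comap (algebraMap K2 K1))]
    (τ2 : ↥(A1.comap (algebraMap K2 K1))) (hτ2 : Irreducible τ2) (π : K1) (n : ℕ)
    (u : K1) (hu : u ∈ A1) (hτπ : algebraMap K2 K1 (τ2 : K2) = π ^ n * u) (c : K2)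
    (hc : algebraMap K2 K1 c ∈ A1.nonunits) :
    A1.valuation (algebraMap K2 K1 c) ≤ A1.valuation π ^ n := by
  have hc2 : c ∈ (A1.comap (algebraMap K2 K1)).nonunits := by
    rw [dvd_mem_nonunits_comap]
    exact hc
  rw [ValuationSubring.mem_nonunits_iff_exists_mem_maximalIdeal] at hc2
  obtain ⟨hcm, hcmax⟩ := hc2
  rw [hτ2.maximalIdeal_eq, Ideal.mem_span_singleton'] at hcmax
  obtain ⟨y, hy⟩ := hcmax
  have h1 : c = (y : K2) * (τ2 : K2) := (congrArg Subtype.val hy).symm
  rw [h1, map_mul, hτπ, map_mul, map_mul, map_pow]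
  have hy1 : A1.valuation (algebraMap K2 K1 (y : K2)) ≤ 1 := (A1.valuation_le_one_iff _).mpr y.2
  have hu1 : A1.valuation u ≤ 1 := (A1.valuation_le_one_iff _).mpr hu
  calc A1.valuation (algebraMap K2 K1 (y : K2)) * (A1.valuation π ^ n * A1.valuation u)
      ≤ 1 * (A1.valuation π ^ n * 1) := by gcongr
    _ = A1.valuation π ^ n := by rw [one_mul, mul_one]

end Small

section Gauss

variable {K₀ L : Type*} [Field K₀] [Field L] [Algebra ℚ K₀] [Algebra ℚ L] [Algebra K₀ L]
  (A : ValuationSubring L) {ℓ : ℕ} [Fact ℓ.Prime] (hA : A.LiesOverPrime ℓ)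
  (hA₀ : (A.comap (algebraMap K₀ L)).LiesOverPrime ℓ) (M : ℕ) [NeZero M] (hℓM : ¬ ℓ ∣ M)

/-- a nonzero element of the function field over `K₀` is a constant times a Gauss unit, and so is
its base change -/
theorem s36bd_ff_unit (z : ↥(laurentBaseChange K₀ (modularFunctionFieldFull M))) (hz : z ≠ 0) :
    ∃ (c : K₀) (w : ↥(laurentBaseChange L (modularFunctionFieldFull M))), c ≠ 0 ∧ w ≠ 0 ∧
      w ∈ grO A hA M hℓM ∧ w⁻¹ ∈ grO A hA M hℓM ∧
      bcfHom K₀ L (modularFunctionFieldFull M) z =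
        algebraMap L ↥(laurentBaseChange L (modularFunctionFieldFull M)) (algebraMap K₀ L c) * w ∧
      (algebraMap K₀ L c ∈ A → z ∈ grO (A.comap (algebraMap K₀ L)) hA₀ M hℓM) := by
  have hz' : (z : LaurentSeries K₀) ≠ 0 := fun h => hz (Subtype.ext h)
  obtain ⟨c, u, hc, hu, hzu⟩ := gr_exists_unit (A.comap (algebraMap K₀ L)) hA₀ M hℓM
    (z : LaurentSeries K₀) z.2 hz'
  have hu' : (u : LaurentSeries K₀)⁻¹ ∈ grV (A.comap (algebraMap K₀ L)) := gr_inv_mem _ u hu
  have hu0 : (u : LaurentSeries K₀) ≠ 0 := by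
    rintro h0
    apply hz'
    rw [hzu, h0, mul_zero]
  have hcL : algebraMap L ↥(laurentBaseChange L (modularFunctionFieldFull M))
      (algebraMap K₀ L c) ≠ 0 := by
    rw [Ne, map_eq_zero, map_eq_zero]
    exact hc
  have e2 : algebraMap L (LaurentSeries L) (algebraMap K₀ L c) ≠ 0 := by
    rw [Ne, map_eq_zero, map_eq_zero]
    exact hc
  have e1 : ((bcfHom K₀ L (modularFunctionFieldFull M) z :
      ↥(laurentBaseChange L (modularFunctionFieldFull M))) : LaurentSeries L) =
      algebraMap L (LaurentSeries L) (algebraMap K₀ L c) *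
        coeffMap (algebraMap K₀ L) (u : LaurentSeries K₀) := by
    rw [bcfHom_coe, hzu, map_mul, bcf_coeffMap_algebraMap]
  have key : (((algebraMap L ↥(laurentBaseChange L (modularFunctionFieldFull M))
      (algebraMap K₀ L c))⁻¹ * bcfHom K₀ L (modularFunctionFieldFull M) z :
      ↥(laurentBaseChange L (modularFunctionFieldFull M))) : LaurentSeries L) =
      coeffMap (algebraMap K₀ L) (u : LaurentSeries K₀) := by
    show (algebraMap L (LaurentSeries L) (algebraMap K₀ L c))⁻¹ *
      ((bcfHom K₀ L (modularFunctionFieldFull M) z :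
        ↥(laurentBaseChange L (modularFunctionFieldFull M))) : LaurentSeries L) = _
    rw [e1, inv_mul_cancel_left₀ e2]
  have hcu0 : coeffMap (algebraMap K₀ L) (u : LaurentSeries K₀) ≠ 0 := by
    rw [Ne, map_eq_zero]
    exact hu0
  refine ⟨c, (algebraMap L ↥(laurentBaseChange L (modularFunctionFieldFull M))
    (algebraMap K₀ L c))⁻¹ * bcfHom K₀ L (modularFunctionFieldFull M) z, hc, ?_, ?_, ?_, ?_, ?_⟩
  · intro h0
    apply hcu0
    rw [← key, h0]
    rfl
  · rw [mem_grO_iff, key]
    exact bcf_grV_mem A u.2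
  · rw [mem_grO_iff, IntermediateField.coe_inv, key, ← map_inv₀]
    exact bcf_grV_mem A hu'
  · rw [mul_inv_cancel_left₀ hcL]
  · intro hcA
    rw [mem_grO_iff, hzu]
    exact (grV _).mul_mem ((gr_algebraMap_mem_iff _ c).mpr hcA) u.2

variable (π : L) (hπ0 : π ≠ 0) (hπ : π ∈ A.nonunits) (n : ℕ)
  (hcore : ∀ c : K₀, algebraMap K₀ L c ∈ A.nonunits →
    A.valuation (algebraMap K₀ L c) ≤ A.valuation π ^ n)

include hπ0 hπ hcore in
/-- descent of Gauss integrality along the basis `π ^ i` -/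
theorem s36bd_ff_mem (i : ℕ) (hi : i < n)
    (z : ↥(laurentBaseChange K₀ (modularFunctionFieldFull M)))
    (h : bcfHom K₀ L (modularFunctionFieldFull M) z *
      algebraMap L ↥(laurentBaseChange L (modularFunctionFieldFull M)) π ^ i ∈ grO A hA M hℓM) :
    z ∈ grO (A.comap (algebraMap K₀ L)) hA₀ M hℓM := by
  by_cases hz : z = 0
  · rw [hz]
    exact zero_mem _
  obtain ⟨c, w, hc, hw0, hw, hw', hzw, hmem⟩ := s36bd_ff_unit A hA hA₀ M hℓM z hz
  apply hmem
  apply s36bd_c_mem A π hπ0 hπ n hcore i hi c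
  have h1 : algebraMap L ↥(laurentBaseChange L (modularFunctionFieldFull M))
      (algebraMap K₀ L c * π ^ i) ∈ grO A hA M hℓM := by
    have h2 := (grO A hA M hℓM).mul_mem _ _ h hw'
    have e : bcfHom K₀ L (modularFunctionFieldFull M) z *
        algebraMap L ↥(laurentBaseChange L (modularFunctionFieldFull M)) π ^ i * w⁻¹ =
        algebraMap L ↥(laurentBaseChange L (modularFunctionFieldFull M))
          (algebraMap K₀ L c * π ^ i) := by
      rw [hzw, map_mul, map_pow]
      field_simp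
    rwa [e] at h2
  exact (gr_algebraMap_mem_iff A _).mp h1

include hπ0 hπ hcore hA₀ in
/-- the Gauss valuations of the terms `z_i π ^ i` are pairwise distinct -/
theorem s36bd_ff_dist (i j : ℕ) (hi : i < n) (hj : j < n) (hij : i ≠ j)
    (z z' : ↥(laurentBaseChange K₀ (modularFunctionFieldFull M))) (hz : z ≠ 0) (hz' : z' ≠ 0) :
    (grO A hA M hℓM).valuation (bcfHom K₀ L (modularFunctionFieldFull M) z *
      algebraMap L ↥(laurentBaseChange L (modularFunctionFieldFull M)) π ^ i) ≠
    (grO A hA M hℓM).valuation (bcfHom K₀ L (modularFunctionFieldFull M) z' *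
      algebraMap L ↥(laurentBaseChange L (modularFunctionFieldFull M)) π ^ j) := by
  obtain ⟨c, w, hc, hw0, hw, hw', hzw, -⟩ := s36bd_ff_unit A hA hA₀ M hℓM z hz
  obtain ⟨c', w', hc', hw0', hw1, hw1', hzw', -⟩ := s36bd_ff_unit A hA hA₀ M hℓM z' hz'
  intro h
  have hvw := s36bd_val_unit (grO A hA M hℓM) w hw hw' hw0
  have hvw' := s36bd_val_unit (grO A hA M hℓM) w' hw1 hw1' hw0'
  have ha0 : algebraMap K₀ L c * π ^ i ≠ 0 :=
    mul_ne_zero (by rwa [Ne, map_eq_zero]) (pow_ne_zero _ hπ0)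
  have ha0' : algebraMap K₀ L c' * π ^ j ≠ 0 :=
    mul_ne_zero (by rwa [Ne, map_eq_zero]) (pow_ne_zero _ hπ0)
  have h1 : (grO A hA M hℓM).valuation
      (algebraMap L ↥(laurentBaseChange L (modularFunctionFieldFull M))
        (algebraMap K₀ L c * π ^ i)) =
      (grO A hA M hℓM).valuation
        (algebraMap L ↥(laurentBaseChange L (modularFunctionFieldFull M))
          (algebraMap K₀ L c' * π ^ j)) := by
    rw [hzw, hzw'] at h
    simp only [map_mul, map_pow, hvw, hvw', mul_one] at h ⊢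
    exact h
  have hne : (grO A hA M hℓM).valuation
      (algebraMap L ↥(laurentBaseChange L (modularFunctionFieldFull M))
        (algebraMap K₀ L c' * π ^ j)) ≠ 0 := by
    rw [Valuation.ne_zero_iff, Ne, map_eq_zero]
    exact ha0'
  have h2 : (algebraMap K₀ L c * π ^ i) / (algebraMap K₀ L c' * π ^ j) ∈ A := by
    have h3 : algebraMap L ↥(laurentBaseChange L (modularFunctionFieldFull M))
        ((algebraMap K₀ L c * π ^ i) / (algebraMap K₀ L c' * π ^ j)) ∈ grO A hA M hℓM := by
      rw [← ValuationSubring.valuation_le_one_iff, map_div₀, map_div₀, h1, div_self hne]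
    exact (gr_algebraMap_mem_iff A _).mp h3
  have h2' : (algebraMap K₀ L c' * π ^ j) / (algebraMap K₀ L c * π ^ i) ∈ A := by
    have h3 : algebraMap L ↥(laurentBaseChange L (modularFunctionFieldFull M))
        ((algebraMap K₀ L c' * π ^ j) / (algebraMap K₀ L c * π ^ i)) ∈ grO A hA M hℓM := by
      rw [← ValuationSubring.valuation_le_one_iff, map_div₀, map_div₀, h1, div_self hne]
    exact (gr_algebraMap_mem_iff A _).mp h3
  have hpos : 0 < A.valuation (algebraMap K₀ L c * π ^ i) :=
    zero_lt_iff.mpr ((Valuation.ne_zero_iff _).mpr ha0)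
  have hpos' : 0 < A.valuation (algebraMap K₀ L c' * π ^ j) :=
    zero_lt_iff.mpr ((Valuation.ne_zero_iff _).mpr ha0')
  have h4 : A.valuation (algebraMap K₀ L c * π ^ i) = A.valuation (algebraMap K₀ L c' * π ^ j) := by
    apply le_antisymm
    · have h5 := (A.valuation_le_one_iff _).mpr h2
      rw [map_div₀, div_le_one₀ hpos'] at h5
      exact h5
    · have h5 := (A.valuation_le_one_iff _).mpr h2'
      rw [map_div₀, div_le_one₀ hpos] at h5
      exact h5
  exact s36bd_c_dist A π hπ0 hπ n hcore i j hi hj hij c c' hc hc' h4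

end Gauss


section Generic

variable {K2 K1 : Type*} [Field K2] [Field K1] [Algebra ℚ K2] [Algebra ℚ K1] [Algebra K2 K1]
  [FiniteDimensional K2 K1]
  (A1 : ValuationSubring K1) {ℓ : ℕ} [Fact ℓ.Prime] (hA1 : A1.LiesOverPrime ℓ)
  (M : ℕ) [NeZero M] (hℓM : ¬ ℓ ∣ M) {a2 : ℕ} (H : HauptRec a2 ℓ)

/-- **BASE-DEC, generic fields.**  `K₁ / K₂` finite, `A₁` a valuation subring of `K₁` over
`ℓ ∤ M` whose trace `A₂` on `K₂` is a discrete valuation ring, `π ∈ 𝔪_{A₁}` nonzero with
`c / π ^ [K₁ : K₂] ∈ A₁` for every non-unit `c ∈ K₂` (total ramification), `t₂` the Hauptmodul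
chart coordinate over `K₂`.  Every element of the level-`M` function field over `K₁` integral over
`A₁[t]` is congruent modulo the Gauss maximal ideal to (the base change of) an element of the
function field over `K₂` integral over `A₂[t]`. -/
theorem s36bd_generic (A2 : ValuationSubring K2) (hA21 : A2 = A1.comap (algebraMap K2 K1))
    [IsDiscreteValuationRing ↥A2] (hA2 : A2.LiesOverPrime ℓ)
    (c0 c1 : ↥A2) (hc : IsLocalRing.residue ↥A2 c0 ≠ IsLocalRing.residue ↥A2 c1)
    (t2 : ↥(laurentBaseChange K2 (modularFunctionFieldFull M)))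
    (ht2 : (t2 : LaurentSeries K2) = cinstU H K2 (c0 : K2) (c1 : K2))
    (π : K1) (hπ0 : π ≠ 0) (hπ : π ∈ A1.nonunits)
    (hram : ∀ c : K2, algebraMap K2 K1 c ∈ A1.nonunits →
      algebraMap K2 K1 c / π ^ Module.finrank K2 K1 ∈ A1)
    (x1 : ↥(laurentBaseChange K1 (modularFunctionFieldFull M)))
    (hx1 : ((((aeval (bcfHom K2 K1 (modularFunctionFieldFull M) t2) :
        K1[X] →ₐ[K1] ↥(laurentBaseChange K1 (modularFunctionFieldFull M))) :
        K1[X] →+* _).comp (mapRingHom A1.subtype)).IsIntegralElem x1)) :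
    ∃ x2 : ↥(laurentBaseChange K2 (modularFunctionFieldFull M)),
      ((((aeval t2 : K2[X] →ₐ[K2] ↥(laurentBaseChange K2 (modularFunctionFieldFull M))) :
        K2[X] →+* _).comp (mapRingHom A2.subtype)).IsIntegralElem x2) ∧
      x1 - bcfHom K2 K1 (modularFunctionFieldFull M) x2 ∈ (grO A1 hA1 M hℓM).nonunits := by
  classical
  subst hA21
  have hcore : ∀ c : K2, algebraMap K2 K1 c ∈ A1.nonunits →
      A1.valuation (algebraMap K2 K1 c) ≤ A1.valuation π ^ Module.finrank K2 K1 := by
    intro c hc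
    have h := (A1.valuation_le_one_iff _).mpr (hram c hc)
    rw [map_div₀, map_pow,
      div_le_one₀ (pow_pos (zero_lt_iff.mpr ((Valuation.ne_zero_iff _).mpr hπ0)) _)] at h
    exact h
  -- the basis `π ^ i` of `K₁ / K₂`
  have hnpos : 0 < Module.finrank K2 K1 := Module.finrank_pos
  have : NeZero (Module.finrank K2 K1) := ⟨hnpos.ne'⟩
  have hli := s36bd_c_indep A1 π hπ0 hπ (Module.finrank K2 K1) hcore
  let b : Module.Basis (Fin (Module.finrank K2 K1)) K2 K1 :=
    basisOfLinearIndependentOfCardEqFinrank hli (by simp)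
  have hb : ∀ i : Fin (Module.finrank K2 K1), b i = π ^ (i : ℕ) := fun i => by
    simp [b]
  -- the algebra structures
  let _ : Algebra ↥(laurentBaseChange K2 (modularFunctionFieldFull M))
      ↥(laurentBaseChange K1 (modularFunctionFieldFull M)) :=
    bcfAlgebra K2 K1 (modularFunctionFieldFull M)
  let _ : Algebra K2 ↥(laurentBaseChange K1 (modularFunctionFieldFull M)) :=
    bcfAlgebraConst K2 K1 (modularFunctionFieldFull M)
  have : IsScalarTower K2 K1 ↥(laurentBaseChange K1 (modularFunctionFieldFull M)) :=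
    bcf_isScalarTower_const K2 K1 (modularFunctionFieldFull M)
  have : IsScalarTower K2 ↥(laurentBaseChange K2 (modularFunctionFieldFull M))
      ↥(laurentBaseChange K1 (modularFunctionFieldFull M)) :=
    bcf_isScalarTower K2 K1 (modularFunctionFieldFull M)
  obtain ⟨b', hb'⟩ := s36bd_ff_basis K2 K1 (modularFunctionFieldFull M) b
  have : FiniteDimensional ↥(laurentBaseChange K2 (modularFunctionFieldFull M))
      ↥(laurentBaseChange K1 (modularFunctionFieldFull M)) := Module.Finite.of_basis b'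
  have hb'π : ∀ i : Fin (Module.finrank K2 K1),
      b' i = (algebraMap K1 ↥(laurentBaseChange K1 (modularFunctionFieldFull M)) π) ^ (i : ℕ) :=
    fun i => by rw [hb', hb, map_pow]
  -- the trace-dual family
  have : CharZero K2 := algebraRat.charZero K2
  obtain ⟨δ, hδ⟩ := s36bd_dual b
  have hd : ∀ i j, Algebra.trace ↥(laurentBaseChange K2 (modularFunctionFieldFull M))
      ↥(laurentBaseChange K1 (modularFunctionFieldFull M))
      (algebraMap K1 ↥(laurentBaseChange K1 (modularFunctionFieldFull M)) (δ i) * b' j) =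
      if i = j then 1 else 0 := by
    intro i j
    rw [hb', ← map_mul, s36bd_trace_const b b' hb', hδ]
    split_ifs <;> simp
  -- a uniformiser of `A₂` and an exponent clearing the denominators of the dual family
  obtain ⟨τ2, hτ2⟩ := IsDiscreteValuationRing.exists_irreducible ↥(A1.comap (algebraMap K2 K1))
  have hτ0 : (τ2 : K2) ≠ 0 := fun h => hτ2.ne_zero (Subtype.ext h)
  have hclear := fun p : Fin (Module.finrank K2 K1) × Fin (Module.finrank K2 K1) =>
    s36bd_dvr_clear (A1.comap (algebraMap K2 K1)) τ2 hτ2 (b.repr (δ p.1) p.2)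
  choose Nf hNf using hclear
  have hN : ∀ i, algebraMap K2 K1 ((τ2 : K2) ^ (Finset.univ.sup Nf)) * δ i ∈ A1 := by
    intro i
    have hsum : δ i = ∑ j, algebraMap K2 K1 (b.repr (δ i) j) * π ^ (j : ℕ) := by
      conv_lhs => rw [← b.sum_repr (δ i)]
      refine Finset.sum_congr rfl fun j _ => ?_
      rw [hb, Algebra.smul_def]
    rw [hsum, Finset.mul_sum]
    refine sum_mem fun j _ => ?_
    have h1 : (τ2 : K2) ^ (Finset.univ.sup Nf) * b.repr (δ i) j ∈ A1.comap (algebraMap K2 K1) :=
      hNf (i, j) _ (Finset.le_sup (f := Nf) (Finset.mem_univ (i, j)))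
    have h2 : algebraMap K2 K1 ((τ2 : K2) ^ (Finset.univ.sup Nf) * b.repr (δ i) j) ∈ A1 := h1
    have e : algebraMap K2 K1 ((τ2 : K2) ^ (Finset.univ.sup Nf)) *
        (algebraMap K2 K1 (b.repr (δ i) j) * π ^ (j : ℕ)) =
        algebraMap K2 K1 ((τ2 : K2) ^ (Finset.univ.sup Nf) * b.repr (δ i) j) * π ^ (j : ℕ) := by
      rw [map_mul, mul_assoc]
    rw [e]
    exact A1.mul_mem _ _ h2 (A1.pow_mem (A1.nonunits_subset hπ) _)
  -- the polynomial ring `A₂[X]` acting through `X ↦ t₂`
  let f2 : (↥(A1.comap (algebraMap K2 K1)))[X] →+*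
      ↥(laurentBaseChange K2 (modularFunctionFieldFull M)) :=
    ((aeval t2 : K2[X] →ₐ[K2] ↥(laurentBaseChange K2 (modularFunctionFieldFull M))) :
      K2[X] →+* _).comp (mapRingHom (A1.comap (algebraMap K2 K1)).subtype)
  let _ : Algebra (↥(A1.comap (algebraMap K2 K1)))[X]
      ↥(laurentBaseChange K2 (modularFunctionFieldFull M)) := f2.toAlgebra
  let _ : Algebra (↥(A1.comap (algebraMap K2 K1)))[X]
      ↥(laurentBaseChange K1 (modularFunctionFieldFull M)) :=
    ((algebraMap ↥(laurentBaseChange K2 (modularFunctionFieldFull M))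
      ↥(laurentBaseChange K1 (modularFunctionFieldFull M))).comp f2).toAlgebra
  have : IsScalarTower (↥(A1.comap (algebraMap K2 K1)))[X]
      ↥(laurentBaseChange K2 (modularFunctionFieldFull M))
      ↥(laurentBaseChange K1 (modularFunctionFieldFull M)) :=
    IsScalarTower.of_algebraMap_eq (fun _ => rfl)
  -- constants of `A₁` are integral over `A₂[X]`
  have hI1 : ∀ a : K1, a ∈ A1 → IsIntegral (↥(A1.comap (algebraMap K2 K1)))[X]
      (algebraMap K1 ↥(laurentBaseChange K1 (modularFunctionFieldFull M)) a) := by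
    intro a ha
    obtain ⟨p, hp, hpa⟩ := s36bd_c_int A1 π hπ0 hπ (Module.finrank K2 K1) hcore b hb a ha
    refine ⟨p.map C, hp.map C, ?_⟩
    rw [eval₂_map]
    have hcomp : (algebraMap (↥(A1.comap (algebraMap K2 K1)))[X]
        ↥(laurentBaseChange K1 (modularFunctionFieldFull M))).comp C =
        (algebraMap K1 ↥(laurentBaseChange K1 (modularFunctionFieldFull M))).comp
          ((algebraMap K2 K1).comp (A1.comap (algebraMap K2 K1)).subtype) := by
      refine RingHom.ext fun c => ?_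
      show bcfHom K2 K1 (modularFunctionFieldFull M)
        (aeval t2 ((C c).map (A1.comap (algebraMap K2 K1)).subtype)) = _
      rw [map_C, aeval_C, bcfHom_algebraMap]
      rfl
    rw [hcomp, ← hom_eval₂, hpa, map_zero]
  -- elements integral over `A₁[t]` are integral over `A₂[X]`
  have hf1 : ∀ r : (↥A1)[X], IsIntegral (↥(A1.comap (algebraMap K2 K1)))[X]
      ((((aeval (bcfHom K2 K1 (modularFunctionFieldFull M) t2) :
        K1[X] →ₐ[K1] ↥(laurentBaseChange K1 (modularFunctionFieldFull M))) :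
        K1[X] →+* ↥(laurentBaseChange K1 (modularFunctionFieldFull M))).comp
          (mapRingHom A1.subtype)) r) := by
    intro r
    induction r using Polynomial.induction_on with
    | C a =>
      show IsIntegral _ (aeval (bcfHom K2 K1 (modularFunctionFieldFull M) t2)
        ((C a).map A1.subtype))
      rw [map_C, aeval_C]
      exact hI1 _ a.2
    | add p q hp hq =>
      rw [map_add]
      exact hp.add hq
    | monomial k a ih =>
      rw [pow_succ, ← mul_assoc, map_mul]
      refine ih.mul ?_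
      have hX : (((aeval (bcfHom K2 K1 (modularFunctionFieldFull M) t2) :
          K1[X] →ₐ[K1] ↥(laurentBaseChange K1 (modularFunctionFieldFull M))) :
          K1[X] →+* ↥(laurentBaseChange K1 (modularFunctionFieldFull M))).comp
            (mapRingHom A1.subtype)) X =
          algebraMap (↥(A1.comap (algebraMap K2 K1)))[X]
            ↥(laurentBaseChange K1 (modularFunctionFieldFull M)) X := by
        show aeval (bcfHom K2 K1 (modularFunctionFieldFull M) t2)
            ((X : (↥A1)[X]).map A1.subtype) =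
          bcfHom K2 K1 (modularFunctionFieldFull M)
            (aeval t2 ((X : (↥(A1.comap (algebraMap K2 K1)))[X]).map
              (A1.comap (algebraMap K2 K1)).subtype))
        rw [map_X, aeval_X, map_X, aeval_X]
      rw [hX]
      exact isIntegral_algebraMap
  have hx1R : IsIntegral (↥(A1.comap (algebraMap K2 K1)))[X] x1 := s36bd_int_trans _ hf1 x1 hx1
  -- the chart over `A₂` and the Gauss valuation rings
  let _ : Algebra ↥(A1.comap (algebraMap K2 K1))
      ↥(laurentBaseChange K2 (modularFunctionFieldFull M)) :=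
    ((algebraMap K2 ↥(laurentBaseChange K2 (modularFunctionFieldFull M))).comp
      (A1.comap (algebraMap K2 K1)).subtype).toAlgebra
  have : IsScalarTower ↥(A1.comap (algebraMap K2 K1)) K2
      ↥(laurentBaseChange K2 (modularFunctionFieldFull M)) :=
    IsScalarTower.of_algebraMap_eq (fun _ => rfl)
  have hO2iff : ∀ z : ↥(laurentBaseChange K2 (modularFunctionFieldFull M)),
      IsIntegral (↥(A1.comap (algebraMap K2 K1)))[X] z ↔
        z ∈ chtO ↥(A1.comap (algebraMap K2 K1)) {t2} := fun z =>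
    (smie_mem_chtO_iff_subtype (A1.comap (algebraMap K2 K1)) t2 z).symm
  have hVG2 : ∀ x : ↥(laurentBaseChange K2 (modularFunctionFieldFull M)),
      x ∈ grO (A1.comap (algebraMap K2 K1)) hA2 M hℓM ↔
        (x : LaurentSeries K2) ∈ grV (A1.comap (algebraMap K2 K1)) := fun x => Iff.rfl
  have hVG1 : ∀ x : ↥(laurentBaseChange K1 (modularFunctionFieldFull M)),
      x ∈ grO A1 hA1 M hℓM ↔ (x : LaurentSeries K1) ∈ grV A1 := fun x => Iff.rfl
  have ht2V : t2 ∈ grO (A1.comap (algebraMap K2 K1)) hA2 M hℓM :=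
    gch_mem (A1.comap (algebraMap K2 K1)) hA2 M hℓM H c0.2 c1.2 t2 ht2
  have hA2V : ∀ a : ↥(A1.comap (algebraMap K2 K1)),
      algebraMap ↥(A1.comap (algebraMap K2 K1))
        ↥(laurentBaseChange K2 (modularFunctionFieldFull M)) a ∈
        grO (A1.comap (algebraMap K2 K1)) hA2 M hℓM := fun a =>
    (cinst_algebraMap_mem_iff (grO (A1.comap (algebraMap K2 K1)) hA2 M hℓM) hVG2 _).mpr a.2
  have hO2V : ∀ z : ↥(laurentBaseChange K2 (modularFunctionFieldFull M)),
      IsIntegral (↥(A1.comap (algebraMap K2 K1)))[X] z →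
        z ∈ grO (A1.comap (algebraMap K2 K1)) hA2 M hℓM := fun z hz =>
    cht_le_valuationSubring (grO (A1.comap (algebraMap K2 K1)) hA2 M hℓM) hA2V (s := {t2})
      (by rintro y rfl; exact ht2V) ((hO2iff z).mp hz)
  have hbcV : ∀ z : ↥(laurentBaseChange K2 (modularFunctionFieldFull M)),
      z ∈ grO (A1.comap (algebraMap K2 K1)) hA2 M hℓM →
        bcfHom K2 K1 (modularFunctionFieldFull M) z ∈ grO A1 hA1 M hℓM := fun z hz =>
    bcf_grV_mem A1 hz
  have hRV : ∀ r : (↥(A1.comap (algebraMap K2 K1)))[X],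
      algebraMap (↥(A1.comap (algebraMap K2 K1)))[X]
        ↥(laurentBaseChange K1 (modularFunctionFieldFull M)) r ∈ grO A1 hA1 M hℓM := by
    intro r
    rw [IsScalarTower.algebraMap_apply (↥(A1.comap (algebraMap K2 K1)))[X]
      ↥(laurentBaseChange K2 (modularFunctionFieldFull M))
      ↥(laurentBaseChange K1 (modularFunctionFieldFull M)) r]
    exact hbcV _ (hO2V _ isIntegral_algebraMap)
  have hx1V : x1 ∈ grO A1 hA1 M hℓM :=
    valext_mem_of_isIntegral (grO A1 hA1 M hℓM) hRV x1 hx1R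
  have hτmax : τ2 ∈ IsLocalRing.maximalIdeal ↥(A1.comap (algebraMap K2 K1)) := by
    rw [IsLocalRing.mem_maximalIdeal, mem_nonunits_iff]
    exact hτ2.not_isUnit
  have hτF : algebraMap K2 ↥(laurentBaseChange K2 (modularFunctionFieldFull M)) (τ2 : K2) ≠ 0 := by
    rw [Ne, map_eq_zero]
    exact hτ0
  have hτV : algebraMap K2 ↥(laurentBaseChange K2 (modularFunctionFieldFull M)) (τ2 : K2) ∈
      (grO (A1.comap (algebraMap K2 K1)) hA2 M hℓM).nonunits :=
    cinst_algebraMap_mem_nonunits (grO (A1.comap (algebraMap K2 K1)) hA2 M hℓM) hVG2 τ2 hτmax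
  -- the coordinates lie in the chart over `A₂`
  have hcoord : ∀ i, b'.repr x1 i ∈
      {z : ↥(laurentBaseChange K2 (modularFunctionFieldFull M)) |
        IsIntegral (↥(A1.comap (algebraMap K2 K1)))[X] z} := fun i =>
    s36bd_main (R := (↥(A1.comap (algebraMap K2 K1)))[X])
      {z : ↥(laurentBaseChange K2 (modularFunctionFieldFull M)) |
        IsIntegral (↥(A1.comap (algebraMap K2 K1)))[X] z} (fun z hz => hz)
      (grO A1 hA1 M hℓM) (grO (A1.comap (algebraMap K2 K1)) hA2 M hℓM)
      (Module.finrank K2 K1)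
      (algebraMap K1 ↥(laurentBaseChange K1 (modularFunctionFieldFull M)) π) b' hb'π
      (fun i => algebraMap K1 ↥(laurentBaseChange K1 (modularFunctionFieldFull M)) (δ i)) hd
      (algebraMap K2 ↥(laurentBaseChange K2 (modularFunctionFieldFull M)) (τ2 : K2)) hτF hτV
      (by
        intro z hz hzV
        obtain ⟨y, hy, hzy⟩ := smik_hker (A1.comap (algebraMap K2 K1)) hA2 M hℓM H c0 c1 hc t2 ht2
          τ2 hτ2 z ((hO2iff z).mp hz) hzV
        exact ⟨y, (hO2iff y).mpr hy, hzy⟩)
      (Finset.univ.sup Nf)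
      (by
        intro i x hx
        have e : algebraMap ↥(laurentBaseChange K2 (modularFunctionFieldFull M))
            ↥(laurentBaseChange K1 (modularFunctionFieldFull M))
            (algebraMap K2 ↥(laurentBaseChange K2 (modularFunctionFieldFull M)) (τ2 : K2) ^
              (Finset.univ.sup Nf)) *
            (algebraMap K1 ↥(laurentBaseChange K1 (modularFunctionFieldFull M)) (δ i) * x) =
            algebraMap K1 ↥(laurentBaseChange K1 (modularFunctionFieldFull M))
              (algebraMap K2 K1 ((τ2 : K2) ^ (Finset.univ.sup Nf)) * δ i) * x := by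
          rw [← map_pow, ← IsScalarTower.algebraMap_apply K2
            ↥(laurentBaseChange K2 (modularFunctionFieldFull M))
            ↥(laurentBaseChange K1 (modularFunctionFieldFull M)),
            IsScalarTower.algebraMap_apply K2 K1
              ↥(laurentBaseChange K1 (modularFunctionFieldFull M)),
            map_mul (algebraMap K1 ↥(laurentBaseChange K1 (modularFunctionFieldFull M))),
            mul_assoc]
        rw [e]
        exact (hI1 _ (hN i)).mul hx)
      (fun i j z z' hij hz hz' => s36bd_ff_dist A1 hA1 hA2 M hℓM π hπ0 hπ (Module.finrank K2 K1)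
        hcore i j i.2 j.2 (fun h => hij (Fin.ext h)) z z' hz hz')
      (fun i z h => s36bd_ff_mem A1 hA1 hA2 M hℓM π hπ0 hπ (Module.finrank K2 K1) hcore i i.2 z h)
      x1 hx1R hx1V i
  -- the constant term
  obtain ⟨hπA, hπmax⟩ := (ValuationSubring.mem_nonunits_iff_exists_mem_maximalIdeal).mp hπ
  have hπnu : algebraMap K1 ↥(laurentBaseChange K1 (modularFunctionFieldFull M)) π ∈
      (grO A1 hA1 M hℓM).nonunits :=
    cinst_algebraMap_mem_nonunits (grO A1 hA1 M hℓM) hVG1 ⟨π, hπA⟩ hπmax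
  obtain ⟨x0, hx0, y, hy, hxy⟩ := s36bd_d1
    {z : ↥(laurentBaseChange K2 (modularFunctionFieldFull M)) |
      IsIntegral (↥(A1.comap (algebraMap K2 K1)))[X] z}
    (grO A1 hA1 M hℓM).toSubring (Module.finrank K2 K1) hnpos
    (algebraMap K1 ↥(laurentBaseChange K1 (modularFunctionFieldFull M)) π) b' hb'π
    ((grO A1 hA1 M hℓM).nonunits_subset hπnu) (fun z hz => hbcV z (hO2V z hz)) x1 hcoord
  refine ⟨x0, hx0, ?_⟩
  have e : x1 - bcfHom K2 K1 (modularFunctionFieldFull M) x0 =
      algebraMap K1 ↥(laurentBaseChange K1 (modularFunctionFieldFull M)) π * y := by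
    rw [hxy]
    exact add_sub_cancel_left _ _
  rw [e]
  exact cht_nonunits_mul _ hπnu hy

end Generic


section Carrier

local notation "Qb" => AlgebraicClosure ℚ

/-- base change maps the Gauss maximal ideal over `A ∩ K₀` into the Gauss maximal ideal over
`A` -/
theorem s36bd_bc_nonunits {K₀ L : Type*} [Field K₀] [Field L] [Algebra ℚ K₀] [Algebra ℚ L]
    [Algebra K₀ L] (A : ValuationSubring L) {ℓ : ℕ} [Fact ℓ.Prime] (hA : A.LiesOverPrime ℓ)
    (hA₀ : (A.comap (algebraMap K₀ L)).LiesOverPrime ℓ) (M : ℕ) [NeZero M] (hℓM : ¬ ℓ ∣ M)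
    (z : ↥(laurentBaseChange K₀ (modularFunctionFieldFull M)))
    (hz : z ∈ (grO (A.comap (algebraMap K₀ L)) hA₀ M hℓM).nonunits) :
    bcfHom K₀ L (modularFunctionFieldFull M) z ∈ (grO A hA M hℓM).nonunits := by
  rw [gr_mem_nonunits_iff] at hz ⊢
  obtain ⟨h, h0⟩ := hz
  exact ⟨bcf_grV_mem A h, (bcf_grRho_eq_zero_iff A ⟨_, h⟩).mpr h0⟩

/-- transitivity of the base-change embeddings -/
theorem s36bd_bc_comp (K2 K1 L : Type*) [Field K2] [Field K1] [Field L] [Algebra ℚ K2]
    [Algebra ℚ K1] [Algebra ℚ L] [Algebra K2 K1] [Algebra K1 L] [Algebra K2 L]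
    [IsScalarTower K2 K1 L] (F₀ : IntermediateField ℚ (LaurentSeries ℚ))
    (z : ↥(laurentBaseChange K2 F₀)) :
    bcfHom K1 L F₀ (bcfHom K2 K1 F₀ z) = bcfHom K2 L F₀ z := by
  apply Subtype.ext
  rw [bcfHom_coe, bcfHom_coe, bcfHom_coe, coeffMap_coeffMap,
    ← IsScalarTower.algebraMap_eq K2 K1 L]

/-- **BASE-DEC at the carrier**: the seam `s36bsDec` for two subfields `K2, K1` of `ℚ̄` with
`K1 / K2` finite and totally ramified at `A` (`π ∈ K1` a nonzero element of `𝔪_A` with
`c / π ^ [K1 : K2] ∈ A` for every `c ∈ K2 ∩ 𝔪_A`), `A ∩ K2` a discrete valuation ring. -/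
theorem s36bd_dec (M : ℕ) [NeZero M] {q : ℕ} [Fact q.Prime] (hqM : ¬ q ∣ M)
    (A : ValuationSubring Qb) (hA : A.LiesOverPrime q) {a2 : ℕ} (H : HauptRec a2 q)
    (K1 K2 : IntermediateField ℚ Qb) [Algebra ↥K2 ↥K1] [IsScalarTower ↥K2 ↥K1 Qb]
    [FiniteDimensional ↥K2 ↥K1]
    [IsDiscreteValuationRing ↥(A.comap (algebraMap ↥K2 Qb))]
    (c0 c1 : ↥K2) (hc0 : (c0 : Qb) ∈ A) (hc1 : (c1 : Qb) ∈ A)
    (h01 : smi2U A ((c0 : Qb) - (c1 : Qb)))
    (π : ↥K1) (hπ0 : π ≠ 0) (hπ : (π : Qb) ∈ A.nonunits)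
    (hram : ∀ c : ↥K2, (c : Qb) ∈ A.nonunits →
      (c : Qb) / (π : Qb) ^ Module.finrank ↥K2 ↥K1 ∈ A) :
    s36bsDec M hqM A hA H K1 K2 c0 c1 := by
  intro t1 t2 ht2 ht12 x1 hx1
  have hA21 : A.comap (algebraMap ↥K2 Qb) =
      (A.comap (algebraMap ↥K1 Qb)).comap (algebraMap ↥K2 ↥K1) := by
    ext c
    rw [ValuationSubring.mem_comap, ValuationSubring.mem_comap, ValuationSubring.mem_comap,
      ← IsScalarTower.algebraMap_apply]
  have hA1 : (A.comap (algebraMap ↥K1 Qb)).LiesOverPrime q := by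
    show ((q : ℕ) : ↥K1) ∈ (A.comap (algebraMap ↥K1 Qb)).nonunits
    rw [dvd_mem_nonunits_comap, map_natCast]
    exact hA
  have hA2 : (A.comap (algebraMap ↥K2 Qb)).LiesOverPrime q := by
    show ((q : ℕ) : ↥K2) ∈ (A.comap (algebraMap ↥K2 Qb)).nonunits
    rw [dvd_mem_nonunits_comap, map_natCast]
    exact hA
  have ht1 : t1 = bcfHom ↥K2 ↥K1 (modularFunctionFieldFull M) t2 :=
    bcfHom_injective ↥K1 Qb (modularFunctionFieldFull M)
      (by rw [ht12, s36bd_bc_comp ↥K2 ↥K1 Qb])
  subst ht1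
  have hc := Fermat.Agent.S34.s34if_residue_ne A K2 (c0 : Qb) (c1 : Qb) hc0 hc1 h01 c0.2 c1.2
  have hπ' : π ∈ (A.comap (algebraMap ↥K1 Qb)).nonunits :=
    (dvd_mem_nonunits_comap _ A π).mpr hπ
  have hram' : ∀ c : ↥K2, algebraMap ↥K2 ↥K1 c ∈ (A.comap (algebraMap ↥K1 Qb)).nonunits →
      algebraMap ↥K2 ↥K1 c / π ^ Module.finrank ↥K2 ↥K1 ∈ A.comap (algebraMap ↥K1 Qb) := by
    intro c hc
    rw [dvd_mem_nonunits_comap, ← IsScalarTower.algebraMap_apply] at hc
    have h := hram c hc
    rw [ValuationSubring.mem_comap, map_div₀, map_pow, ← IsScalarTower.algebraMap_apply]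
    exact h
  obtain ⟨x2, hx2, hx12⟩ := s36bd_generic (A.comap (algebraMap ↥K1 Qb)) hA1 M hqM H
    (A.comap (algebraMap ↥K2 Qb)) hA21 hA2
    ⟨c0, ValuationSubring.mem_comap.mpr hc0⟩ ⟨c1, ValuationSubring.mem_comap.mpr hc1⟩ hc t2 ht2
    π hπ0 hπ' hram' x1 hx1
  refine ⟨x2, hx2, ?_⟩
  have h := s36bd_bc_nonunits A hA hA1 M hqM _ hx12
  rw [map_sub, s36bd_bc_comp ↥K2 ↥K1 Qb] at h
  exact h

end Carrier

end Fermat.Agent.S36
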