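import Mathlib
import Fermat.Prelude.Def_FLTPrelim_Ramification
import Fermat.Agent.S36.BaseFrac

/-!
# S36 [BASE-U]: from ramification index one to `x / q ∈ A`

`s36be_of_e1`: if the centre `𝓟` of a valuation subring `A` of `ℚ̄` on the integers of a number
field `E` embedded in `ℚ̄` satisfies `q ∉ 𝓟 ^ 2`, then every nonunit of `A` lying in `E` is
divisible by `q` in `A`.  `s36be_of_e1_sub`: the same for an intermediate field of `ℚ̄`.
-/

set_option autoImplicit false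

open NumberField

namespace Fermat.Agent.S36

theorem s36be_of_e1 (q : ℕ) (A : ValuationSubring (AlgebraicClosure ℚ))
    (hA : A.LiesOverPrime q)
    (E : Type*) [Field E] [NumberField E] (ι : E →+* AlgebraicClosure ℚ)
    (𝓟 : Ideal (𝓞 E))
    (h𝓟 : ∀ a : 𝓞 E, a ∈ 𝓟 ↔ ι (algebraMap (𝓞 E) E a) ∈ A.nonunits)
    (he : (q : 𝓞 E) ∉ 𝓟 ^ 2)
    (x : E) (hx : ι x ∈ A.nonunits) :
    ι x / (q : AlgebraicClosure ℚ) ∈ A := by
  classical
  have hιinj : Function.Injective ι := ι.injective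
  have hqP : (q : 𝓞 E) ∈ 𝓟 := by
    rw [h𝓟]
    have h1 : ι (algebraMap (𝓞 E) E (q : 𝓞 E)) = (q : AlgebraicClosure ℚ) := by
      simp
    rw [h1]
    exact hA
  -- `𝓟` divides `(q)`
  have hle : Ideal.span {(q : 𝓞 E)} ≤ 𝓟 := by
    rw [Ideal.span_le, Set.singleton_subset_iff]
    exact hqP
  obtain ⟨J, hJ⟩ := Ideal.dvd_iff_le.mpr hle
  -- `J ⊄ 𝓟`
  have hJP : ¬ J ≤ 𝓟 := by
    intro h
    apply he
    have h1 : Ideal.span {(q : 𝓞 E)} ≤ 𝓟 ^ 2 := by
      rw [hJ, sq]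
      exact Ideal.mul_mono_right h
    exact h1 (Ideal.subset_span (Set.mem_singleton _))
  obtain ⟨j, hjJ, hjP⟩ := SetLike.not_le_iff_exists.mp hJP
  -- the image of `E` in `ℚ̄`
  let ιa : E →ₐ[ℚ] AlgebraicClosure ℚ := ι.toRatAlgHom
  let K0 : IntermediateField ℚ (AlgebraicClosure ℚ) := ιa.fieldRange
  have hK0fd : FiniteDimensional ℚ K0 := by
    have h1 : K0 = IntermediateField.map ιa ⊤ := by
      show ιa.fieldRange = _
      rw [AlgHom.fieldRange_eq_map]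
    have h2 : FiniteDimensional ℚ (⊤ : IntermediateField ℚ E) :=
      (IntermediateField.topEquiv (F := ℚ) (E := E)).symm.toLinearEquiv.finiteDimensional
    rw [h1]
    exact (IntermediateField.equivMap (⊤ : IntermediateField ℚ E) ιa).toLinearEquiv.finiteDimensional
  -- `x = b / s`
  obtain ⟨b, s, hbE, hsE, hb, hs, hsu, hs0, hxs⟩ :=
    s36bl_frac A K0 (ι x) ⟨x, rfl⟩ (ValuationSubring.nonunits_subset hx)
  obtain ⟨b0, rfl⟩ : ∃ b0 : E, ι b0 = b := hbE
  have hbint : IsIntegral ℤ b0 :=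
    (isIntegral_algHom_iff (ι.toIntAlgHom) hιinj).mp hb
  let b' : 𝓞 E := ⟨b0, hbint⟩
  have hb'coe : ι (algebraMap (𝓞 E) E b') = ι b0 := rfl
  have hsA : s ∈ A := s36bl_int_mem A s hs
  have hb'P : b' ∈ 𝓟 := by
    rw [h𝓟, hb'coe, ← hxs]
    exact s36bl_nonunits_mul A hx hsA
  have hmem : b' * j ∈ Ideal.span {(q : 𝓞 E)} := by
    rw [hJ]
    exact Ideal.mul_mem_mul hb'P hjJ
  obtain ⟨c, hc⟩ := Ideal.mem_span_singleton'.mp hmem
  -- push the identity `c * q = b' * j` to `ℚ̄`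
  let κ : 𝓞 E →+* AlgebraicClosure ℚ := ι.comp (algebraMap (𝓞 E) E)
  have hκint : ∀ y : 𝓞 E, IsIntegral ℤ (κ y) := fun y =>
    (RingOfIntegers.isIntegral_coe y).map (ι.toIntAlgHom)
  have hκb : κ b' = ι b0 := rfl
  have hκq : κ (q : 𝓞 E) = (q : AlgebraicClosure ℚ) := by simp [κ]
  have hcq : κ c * (q : AlgebraicClosure ℚ) = ι b0 * κ j := by
    have := congrArg κ hc
    rw [map_mul, map_mul, hκq, hκb] at this
    exact this
  have hjnon : κ j ∉ A.nonunits := fun h => hjP ((h𝓟 j).mpr h)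
  have hjinv : (κ j)⁻¹ ∈ A := by
    by_contra h3
    exact hjnon ((ValuationSubring.mem_nonunits_iff_or A).mpr (Or.inr h3))
  have hsinv : s⁻¹ ∈ A := by
    by_contra h3
    exact hsu ((ValuationSubring.mem_nonunits_iff_or A).mpr (Or.inr h3))
  have hj0 : κ j ≠ 0 := by
    intro h0
    apply hjnon
    rw [h0]
    exact A.nonunits.zero_mem
  have hq0 : (q : AlgebraicClosure ℚ) ≠ 0 := by
    intro h0
    have h1 : (q : 𝓞 E) = 0 := by
      have : κ (q : 𝓞 E) = κ 0 := by rw [hκq, h0, map_zero]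
      exact (hιinj.comp (FaithfulSMul.algebraMap_injective (𝓞 E) E)) this
    apply he
    rw [h1]
    exact Ideal.zero_mem _
  have hkey : ι x / (q : AlgebraicClosure ℚ) = κ c * ((κ j)⁻¹ * s⁻¹) := by
    have h1 : ι x = ι b0 / s := by rw [← hxs]; field_simp
    have h2 : ι b0 = κ c * (q : AlgebraicClosure ℚ) / κ j := by rw [hcq]; field_simp
    rw [h1, h2]
    field_simp
  rw [hkey]
  exact A.mul_mem _ _ (s36bl_int_mem A _ (hκint c)) (A.mul_mem _ _ hjinv hsinv)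

/-- the same for an intermediate field of `ℚ̄` -/
theorem s36be_of_e1_sub (q : ℕ) (A : ValuationSubring (AlgebraicClosure ℚ))
    (hA : A.LiesOverPrime q)
    (E : IntermediateField ℚ (AlgebraicClosure ℚ)) [FiniteDimensional ℚ E]
    (𝓟 : Ideal (𝓞 E))
    (h𝓟 : ∀ a : 𝓞 E, a ∈ 𝓟 ↔
      ((algebraMap (𝓞 E) E a : E) : AlgebraicClosure ℚ) ∈ A.nonunits)
    (he : (q : 𝓞 E) ∉ 𝓟 ^ 2)
    (x : AlgebraicClosure ℚ) (hxE : x ∈ E) (hx : x ∈ A.nonunits) :
    x / (q : AlgebraicClosure ℚ) ∈ A := by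
  have : NumberField E := { to_charZero := inferInstance, to_finiteDimensional := inferInstance }
  exact s36be_of_e1 q A hA E (algebraMap E (AlgebraicClosure ℚ)) 𝓟 h𝓟 he ⟨x, hxE⟩ hx

end Fermat.Agent.S36
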