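import Mathlib
import Fermat.Prelude.Def_ModularCurve_ArithmeticGalois
import Fermat.Agent.S18.BaseChangeField

/-!
# S36, family BASE, leaf (L-C): integrality over `L[t]` in the function fields
`laurentBaseChange L F₀`

For `t x` in `laurentBaseChange L F₀`, "`x` is integral over `L[t]`" is
`(aeval t : L[X] →ₐ[L] _).toRingHom.IsIntegralElem x`.

* `s36bn_aut`: stable under the coefficientwise automorphism `arithmeticRingAut F₀ σ` when
  `t` is fixed;
* `s36bn_desc`: descends along `bcfHom K L F₀` when `L / K` is integral;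
* `s36bn_add`, `s36bn_mul`, `s36bn_sum`, `s36bn_const`, `s36bn_const_mul`: closure properties.
-/

set_option autoImplicit false
set_option linter.style.haveILetI false

open ModularCurve Polynomial Fermat.Agent.S18

namespace Fermat.Agent.S36

/-- **(C1)** integrality over `L[t]` is stable under a coefficientwise automorphism fixing
`t`. -/
theorem s36bn_aut {L : Type*} [Field L] [Algebra ℚ L]
    (F₀ : IntermediateField ℚ (LaurentSeries ℚ)) (σ : L ≃ₐ[ℚ] L)
    (t x : ↥(laurentBaseChange L F₀)) (ht : arithmeticRingAut F₀ σ t = t)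
    (hx : (aeval t : L[X] →ₐ[L] ↥(laurentBaseChange L F₀)).toRingHom.IsIntegralElem x) :
    (aeval t : L[X] →ₐ[L] ↥(laurentBaseChange L F₀)).toRingHom.IsIntegralElem
      (arithmeticRingAut F₀ σ x) := by
  obtain ⟨p, hp, hpx⟩ := hx
  set f : L[X] →+* ↥(laurentBaseChange L F₀) :=
    (aeval t : L[X] →ₐ[L] ↥(laurentBaseChange L F₀)).toRingHom with hf
  set Φ : ↥(laurentBaseChange L F₀) →+* ↥(laurentBaseChange L F₀) :=
    (arithmeticRingAut F₀ σ).toRingHom with hΦ
  have hcomp : Φ.comp f = f.comp (Polynomial.mapRingHom (σ : L →+* L)) := by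
    refine Polynomial.ringHom_ext (fun a => ?_) ?_
    · simp only [hf, hΦ, RingHom.comp_apply, AlgHom.toRingHom_eq_coe, RingHom.coe_coe, aeval_C,
        coe_mapRingHom, map_C, RingEquiv.toRingHom_eq_coe]
      exact arithmeticRingAut_algebraMap F₀ σ a
    · simp only [hf, hΦ, RingHom.comp_apply, AlgHom.toRingHom_eq_coe, RingHom.coe_coe, aeval_X,
        coe_mapRingHom, map_X, RingEquiv.toRingHom_eq_coe]
      exact ht
  refine ⟨p.map (Polynomial.mapRingHom (σ : L →+* L)), hp.map _, ?_⟩
  rw [Polynomial.eval₂_map, ← hcomp]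
  have h1 := Polynomial.hom_eval₂ p f Φ x
  rw [hpx, map_zero] at h1
  exact h1.symm

/-- **(C2)** integrality over `L[t]` of a base-changed element descends to integrality over
`K[t]` when `L / K` is integral. -/
theorem s36bn_desc {K L : Type*} [Field K] [Field L] [Algebra ℚ K] [Algebra ℚ L] [Algebra K L]
    [Algebra.IsIntegral K L] (F₀ : IntermediateField ℚ (LaurentSeries ℚ))
    (t2 z : ↥(laurentBaseChange K F₀))
    (hy : (aeval (bcfHom K L F₀ t2) : L[X] →ₐ[L] ↥(laurentBaseChange L F₀)).toRingHom.IsIntegralElem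
      (bcfHom K L F₀ z)) :
    (aeval t2 : K[X] →ₐ[K] ↥(laurentBaseChange K F₀)).toRingHom.IsIntegralElem z := by
  set g : L[X] →+* ↥(laurentBaseChange L F₀) :=
    (aeval (bcfHom K L F₀ t2) : L[X] →ₐ[L] ↥(laurentBaseChange L F₀)).toRingHom with hg
  set f2 : K[X] →+* ↥(laurentBaseChange K F₀) :=
    (aeval t2 : K[X] →ₐ[K] ↥(laurentBaseChange K F₀)).toRingHom with hf2
  have hcomp : g.comp (Polynomial.mapRingHom (algebraMap K L)) = (bcfHom K L F₀).comp f2 := by
    refine Polynomial.ringHom_ext (fun a => ?_) ?_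
    · simp only [hg, hf2, RingHom.comp_apply, AlgHom.toRingHom_eq_coe, RingHom.coe_coe, aeval_C,
        coe_mapRingHom, map_C]
      exact (bcfHom_algebraMap K L F₀ a).symm
    · simp only [hg, hf2, RingHom.comp_apply, AlgHom.toRingHom_eq_coe, RingHom.coe_coe, aeval_X,
        coe_mapRingHom, map_X]
  have key : (g.comp (Polynomial.mapRingHom (algebraMap K L))).IsIntegralElem
      (bcfHom K L F₀ z) := by
    letI : Algebra K[X] L[X] := Polynomial.algebra K L
    letI : Algebra L[X] ↥(laurentBaseChange L F₀) := g.toAlgebra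
    letI : Algebra K[X] ↥(laurentBaseChange L F₀) :=
      (g.comp (algebraMap K[X] L[X])).toAlgebra
    haveI : IsScalarTower K[X] L[X] ↥(laurentBaseChange L F₀) :=
      IsScalarTower.of_algebraMap_eq (fun _ => rfl)
    have h1 : IsIntegral L[X] (bcfHom K L F₀ z) := hy
    have h2 : IsIntegral K[X] (bcfHom K L F₀ z) := isIntegral_trans (R := K[X]) (A := L[X]) _ h1
    exact h2
  rw [hcomp] at key
  exact RingHom.IsIntegralElem.of_map (bcfHom_injective K L F₀) key

section Closure

variable {L : Type*} [Field L] [Algebra ℚ L] (F₀ : IntermediateField ℚ (LaurentSeries ℚ))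
  (t : ↥(laurentBaseChange L F₀))

/-- constants are integral over `L[t]` -/
theorem s36bn_const (c : L) :
    (aeval t : L[X] →ₐ[L] ↥(laurentBaseChange L F₀)).toRingHom.IsIntegralElem
      (algebraMap L ↥(laurentBaseChange L F₀) c) := by
  have h := RingHom.isIntegralElem_map
    (f := (aeval t : L[X] →ₐ[L] ↥(laurentBaseChange L F₀)).toRingHom) (x := Polynomial.C c)
  simpa using h

theorem s36bn_add {x y : ↥(laurentBaseChange L F₀)}
    (hx : (aeval t : L[X] →ₐ[L] ↥(laurentBaseChange L F₀)).toRingHom.IsIntegralElem x)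
    (hy : (aeval t : L[X] →ₐ[L] ↥(laurentBaseChange L F₀)).toRingHom.IsIntegralElem y) :
    (aeval t : L[X] →ₐ[L] ↥(laurentBaseChange L F₀)).toRingHom.IsIntegralElem (x + y) :=
  RingHom.IsIntegralElem.add _ hx hy

theorem s36bn_mul {x y : ↥(laurentBaseChange L F₀)}
    (hx : (aeval t : L[X] →ₐ[L] ↥(laurentBaseChange L F₀)).toRingHom.IsIntegralElem x)
    (hy : (aeval t : L[X] →ₐ[L] ↥(laurentBaseChange L F₀)).toRingHom.IsIntegralElem y) :
    (aeval t : L[X] →ₐ[L] ↥(laurentBaseChange L F₀)).toRingHom.IsIntegralElem (x * y) :=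
  RingHom.IsIntegralElem.mul _ hx hy

/-- multiplication by a constant -/
theorem s36bn_const_mul (c : L) {x : ↥(laurentBaseChange L F₀)}
    (hx : (aeval t : L[X] →ₐ[L] ↥(laurentBaseChange L F₀)).toRingHom.IsIntegralElem x) :
    (aeval t : L[X] →ₐ[L] ↥(laurentBaseChange L F₀)).toRingHom.IsIntegralElem
      (algebraMap L ↥(laurentBaseChange L F₀) c * x) :=
  s36bn_mul F₀ t (s36bn_const F₀ t c) hx

/-- **(C3)** finite sums -/
theorem s36bn_sum {ι : Type*} (s : Finset ι) (x : ι → ↥(laurentBaseChange L F₀))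
    (hx : ∀ i ∈ s,
      (aeval t : L[X] →ₐ[L] ↥(laurentBaseChange L F₀)).toRingHom.IsIntegralElem (x i)) :
    (aeval t : L[X] →ₐ[L] ↥(laurentBaseChange L F₀)).toRingHom.IsIntegralElem (∑ i ∈ s, x i) := by
  classical
  induction s using Finset.induction_on with
  | empty =>
    rw [Finset.sum_empty]
    exact RingHom.isIntegralElem_zero _
  | insert a s ha ih =>
    rw [Finset.sum_insert ha]
    exact s36bn_add F₀ t (hx a (Finset.mem_insert_self a s))
      (ih (fun i hi => hx i (Finset.mem_insert_of_mem hi)))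

end Closure

end Fermat.Agent.S36
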