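import Mathlib
import Fermat.Agent.S34.KrullSub
import Fermat.Agent.S36.Comp3Abs
import Fermat.Agent.S36.TriPrin

/-!
# S36, package COMP3: point types (PT-TYPES), abstract

`O' ⊆ E` and `O ⊆ F` two charts, `α : E → F` with `α(O') ⊆ O`, `O` integral over `α(O')`,
`O'` integrally closed.  Vertical valuations `V1`, `V2` of `E` and `Wa`, `Wb`, `Wc` of `F` with
`α⁻¹(Wa) = V1 = α⁻¹(Wc)`, `α⁻¹(Wb) = V2`; the fibre of `O` is `Wa ∪ Wb ∪ Wc` in radical form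
(`hred`).

* `s36k3_al_down` (going down): a prime `𝔫` of `O` whose contraction contains the centre of `V2`
  contains the centre of `Wb`;
* `s36k3_al_unique` (radicial): two maximal ideals of `O` through `Wb` with the same contraction
  are equal;
* `s36k3_al_node`: a maximal ideal of `O` whose contraction contains the centres of `V1` and
  `V2` contains the centres of `Wa`, `Wb`, `Wc`;
* `s36k3_al_two`: a maximal ideal of `O` through `Wb` and through one of `Wa`, `Wc` is a triple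
  point.
* `s36k3_swap_two`: with an involution `w` exchanging `Wa` and `Wb`, fixing `Wc`, and local
  domination of the charts along `w` at every closed point of the special fibre: a closed point
  through `Wa` and `Wc` is a triple point.
-/

set_option autoImplicit false
set_option linter.unusedSectionVars false
set_option linter.unusedVariables false

namespace Fermat.Agent.S36

open Fermat.Agent.S34 Fermat.Agent.S35 Polynomial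

section Al

variable {A E F : Type*} [CommRing A] [Field E] [Field F] [Algebra A E] [Algebra A F]

theorem s36k3_nu_of_iff (φ : E →+* F) (V : ValuationSubring E) (W : ValuationSubring F)
    (h : ∀ x, φ x ∈ W ↔ x ∈ V) (x : E) : φ x ∈ W.nonunits ↔ x ∈ V.nonunits := by
  rw [ValuationSubring.mem_nonunits_iff_or, ValuationSubring.mem_nonunits_iff_or,
    map_eq_zero, ← map_inv₀, h]

/-- the ring homomorphism `O' → O` induced by `α` -/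
def s36k3Hom (O' : Subalgebra A E) (O : Subalgebra A F) (α : E →+* F)
    (hαO : ∀ x ∈ O', α x ∈ O) : ↥O' →+* ↥O where
  toFun x := ⟨α x, hαO x x.2⟩
  map_one' := Subtype.ext (by simp)
  map_mul' x y := Subtype.ext (by simp)
  map_zero' := Subtype.ext (by simp)
  map_add' x y := Subtype.ext (by simp)

theorem s36k3Hom_coe (O' : Subalgebra A E) (O : Subalgebra A F) (α : E →+* F)
    (hαO : ∀ x ∈ O', α x ∈ O) (x : ↥O') : ((s36k3Hom O' O α hαO x : ↥O) : F) = α x := rfl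

theorem s36k3Hom_injective (O' : Subalgebra A E) (O : Subalgebra A F) (α : E →+* F)
    (hαO : ∀ x ∈ O', α x ∈ O) : Function.Injective (s36k3Hom O' O α hαO) := by
  intro x y h
  exact Subtype.ext (α.injective (congrArg Subtype.val h))

theorem s36k3Hom_integral (O' : Subalgebra A E) (O : Subalgebra A F) (α : E →+* F)
    (hαO : ∀ x ∈ O', α x ∈ O)
    (hint : ∀ y ∈ O, ∃ p : F[X], p.Monic ∧ (∀ i, ∃ c ∈ O', p.coeff i = α c) ∧ p.eval y = 0) :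
    (s36k3Hom O' O α hαO).IsIntegral := by
  intro y
  obtain ⟨p, hp, hc, hy⟩ := hint y y.2
  let f : ↥O' →+* F := α.comp (algebraMap ↥O' E)
  have hlift : p ∈ Polynomial.lifts f := by
    rw [Polynomial.lifts_iff_coeff_lifts]
    intro n
    obtain ⟨c, hcO, hcn⟩ := hc n
    exact ⟨⟨c, hcO⟩, hcn.symm⟩
  obtain ⟨P, hP, -, hPm⟩ := Polynomial.lifts_and_natDegree_eq_and_monic hlift hp
  refine ⟨P, hPm, ?_⟩
  apply Subtype.ext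
  have h3 : ((Polynomial.eval₂ (s36k3Hom O' O α hαO) y P : ↥O) : F)
      = Polynomial.eval₂ f (y : F) P :=
    Polynomial.hom_eval₂ P (s36k3Hom O' O α hαO) (algebraMap ↥O F) y
  rw [h3, ← Polynomial.eval_map, hP]
  exact hy

/-- **Going down.**  A prime of `O` whose contraction contains the centre of `V2` contains the
centre of `Wb`. -/
theorem s36k3_al_down (τ : A) (O' : Subalgebra A E) (O : Subalgebra A F)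
    (α : E →+* F) (hαO : ∀ x ∈ O', α x ∈ O)
    (hfrac' : ∀ x : E, ∃ a ∈ O', ∃ s ∈ O', s ≠ 0 ∧ x * s = a)
    (hic' : ∀ x : E, IsIntegral ↥O' x → x ∈ O')
    (hint : ∀ y ∈ O, ∃ p : F[X], p.Monic ∧ (∀ i, ∃ c ∈ O', p.coeff i = α c) ∧ p.eval y = 0)
    (V1 V2 : ValuationSubring E) (hO'2 : ∀ x ∈ O', x ∈ V2)
    (Wa Wb Wc : ValuationSubring F)
    (hOa : ∀ y ∈ O, y ∈ Wa) (hOb : ∀ y ∈ O, y ∈ Wb) (hOc : ∀ y ∈ O, y ∈ Wc)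
    (hαa : ∀ x : E, α x ∈ Wa ↔ x ∈ V1) (hαc : ∀ x : E, α x ∈ Wc ↔ x ∈ V1)
    (hτO : ∃ τ' ∈ O', τ' ∈ V2.nonunits ∧ α τ' = algebraMap A F τ)
    (hred : ∀ x ∈ O, x ∈ Wa.nonunits → x ∈ Wb.nonunits → x ∈ Wc.nonunits →
      ∃ (N : ℕ), ∃ y ∈ O, x ^ N = algebraMap A F τ * y)
    (hsep : ∃ x ∈ O', x ∈ V1.nonunits ∧ x ∉ V2.nonunits)
    (𝔫 : Ideal ↥O) [h𝔫 : 𝔫.IsPrime]
    (h2 : ∀ x : ↥O', (x : E) ∈ V2.nonunits → s36k3Hom O' O α hαO x ∈ 𝔫) :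
    ∀ x : ↥O, (x : F) ∈ Wb.nonunits → x ∈ 𝔫 := by
  classical
  let : Algebra ↥O' ↥O := (s36k3Hom O' O α hαO).toAlgebra
  have halg : ∀ x : ↥O', algebraMap ↥O' ↥O x = s36k3Hom O' O α hαO x := fun _ => rfl
  have : FaithfulSMul ↥O' ↥O :=
    (faithfulSMul_iff_algebraMap_injective ↥O' ↥O).mpr (s36k3Hom_injective O' O α hαO)
  have : IsIntegrallyClosed ↥O' := kri_sub_isIntegrallyClosed O' hfrac' hic'
  have : Algebra.IsIntegral ↥O' ↥O := ⟨s36k3Hom_integral O' O α hαO hint⟩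
  obtain ⟨p2, hp2, hp2mem⟩ := s36tn_centre O' V2 hO'2
  have := hp2
  have hle : p2 ≤ 𝔫.under ↥O' := by
    intro x hx
    rw [Ideal.mem_comap, halg]
    exact h2 x ((hp2mem x).mp hx)
  obtain ⟨P, hPn, hPp, hPo⟩ := Ideal.exists_ideal_le_liesOver_of_le (p := p2)
    (q := 𝔫.under ↥O') 𝔫 hle
  have := hPp
  have hover : ∀ x : ↥O', x ∈ p2 ↔ s36k3Hom O' O α hαO x ∈ P := by
    intro x
    have h1 := hPo.over
    rw [h1, Ideal.mem_comap, halg]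
  -- `τ ∈ P`
  obtain ⟨τ', hτ'O, hτ'V, hτ'⟩ := hτO
  have hτP : algebraMap A ↥O τ ∈ P := by
    have h1 : s36k3Hom O' O α hαO ⟨τ', hτ'O⟩ ∈ P :=
      (hover ⟨τ', hτ'O⟩).mp ((hp2mem ⟨τ', hτ'O⟩).mpr hτ'V)
    have h3 : s36k3Hom O' O α hαO ⟨τ', hτ'O⟩ = algebraMap A ↥O τ := Subtype.ext hτ'
    rwa [h3] at h1
  obtain ⟨x₁, hx₁O, hx₁1, hx₁2⟩ := hsep
  rcases s36k3_cover τ O Wa Wb Wc hOa hOb hOc hred P hτP with h | h | h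
  · exfalso
    have h1 : s36k3Hom O' O α hαO ⟨x₁, hx₁O⟩ ∈ P :=
      h _ ((s36k3_nu_of_iff α V1 Wa hαa x₁).mpr hx₁1)
    exact hx₁2 ((hp2mem ⟨x₁, hx₁O⟩).mp ((hover ⟨x₁, hx₁O⟩).mpr h1))
  · intro x hx
    exact hPn (h x hx)
  · exfalso
    have h1 : s36k3Hom O' O α hαO ⟨x₁, hx₁O⟩ ∈ P :=
      h _ ((s36k3_nu_of_iff α V1 Wc hαc x₁).mpr hx₁1)
    exact hx₁2 ((hp2mem ⟨x₁, hx₁O⟩).mp ((hover ⟨x₁, hx₁O⟩).mpr h1))

/-- **Radicial.**  Two maximal ideals of `O` through `Wb` with the same contraction to `O'`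
are equal. -/
theorem s36k3_al_unique (O' : Subalgebra A E) (O : Subalgebra A F)
    (α : E →+* F) (hαO : ∀ x ∈ O', α x ∈ O) (Wb : ValuationSubring F)
    (q : ℕ) (hq : 0 < q) (hrad : ∀ y ∈ O, ∃ r ∈ O', y ^ q - α r ∈ Wb.nonunits)
    (𝔫₁ 𝔫₂ : Ideal ↥O) (h𝔫₁ : 𝔫₁.IsMaximal) (h𝔫₂ : 𝔫₂.IsMaximal)
    (hb₁ : ∀ x : ↥O, (x : F) ∈ Wb.nonunits → x ∈ 𝔫₁)
    (hb₂ : ∀ x : ↥O, (x : F) ∈ Wb.nonunits → x ∈ 𝔫₂)
    (hcon : ∀ x : ↥O', s36k3Hom O' O α hαO x ∈ 𝔫₁ → s36k3Hom O' O α hαO x ∈ 𝔫₂) :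
    𝔫₁ = 𝔫₂ := by
  have hle : 𝔫₁ ≤ 𝔫₂ := by
    intro y hy
    obtain ⟨r, hrO, hr⟩ := hrad y y.2
    set d : ↥O := y ^ q - s36k3Hom O' O α hαO ⟨r, hrO⟩ with hd
    have hdW : (d : F) ∈ Wb.nonunits := hr
    have h1 : s36k3Hom O' O α hαO ⟨r, hrO⟩ ∈ 𝔫₁ := by
      have e : s36k3Hom O' O α hαO ⟨r, hrO⟩ = y ^ q - d := by rw [hd]; ring
      rw [e]
      exact 𝔫₁.sub_mem (𝔫₁.pow_mem_of_mem hy q hq) (hb₁ d hdW)
    have h2 : s36k3Hom O' O α hαO ⟨r, hrO⟩ ∈ 𝔫₂ := hcon _ h1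
    have h3 : y ^ q ∈ 𝔫₂ := by
      have e : y ^ q = s36k3Hom O' O α hαO ⟨r, hrO⟩ + d := by rw [hd]; ring
      rw [e]
      exact 𝔫₂.add_mem h2 (hb₂ d hdW)
    exact h𝔫₂.isPrime.mem_of_pow_mem q h3
  exact h𝔫₁.eq_of_le h𝔫₂.ne_top hle

/-- **A point over a node.**  A maximal ideal of `O` whose contraction to `O'` contains the
centres of `V1` and `V2` contains the centres of `Wa`, `Wb` and `Wc`. -/
theorem s36k3_al_node (τ : A) (O' : Subalgebra A E) (O : Subalgebra A F)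
    (α : E →+* F) (hαO : ∀ x ∈ O', α x ∈ O)
    (hfrac' : ∀ x : E, ∃ a ∈ O', ∃ s ∈ O', s ≠ 0 ∧ x * s = a)
    (hic' : ∀ x : E, IsIntegral ↥O' x → x ∈ O')
    (hint : ∀ y ∈ O, ∃ p : F[X], p.Monic ∧ (∀ i, ∃ c ∈ O', p.coeff i = α c) ∧ p.eval y = 0)
    (V1 V2 : ValuationSubring E) (hO'2 : ∀ x ∈ O', x ∈ V2)
    (Wa Wb Wc : ValuationSubring F)
    (hOa : ∀ y ∈ O, y ∈ Wa) (hOb : ∀ y ∈ O, y ∈ Wb) (hOc : ∀ y ∈ O, y ∈ Wc)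
    (hαa : ∀ x : E, α x ∈ Wa ↔ x ∈ V1) (hαc : ∀ x : E, α x ∈ Wc ↔ x ∈ V1)
    (hτO : ∃ τ' ∈ O', τ' ∈ V2.nonunits ∧ α τ' = algebraMap A F τ)
    (hred : ∀ x ∈ O, x ∈ Wa.nonunits → x ∈ Wb.nonunits → x ∈ Wc.nonunits →
      ∃ (N : ℕ), ∃ y ∈ O, x ^ N = algebraMap A F τ * y)
    (hsep : ∃ x ∈ O', x ∈ V1.nonunits ∧ x ∉ V2.nonunits)
    (q : ℕ) (hq : 0 < q) (hrad : ∀ y ∈ O, ∃ r ∈ O', y ^ q - α r ∈ Wb.nonunits)
    (𝔫 : Ideal ↥O) (h𝔫 : 𝔫.IsMaximal)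
    (h1 : ∀ x : ↥O', (x : E) ∈ V1.nonunits → s36k3Hom O' O α hαO x ∈ 𝔫)
    (h2 : ∀ x : ↥O', (x : E) ∈ V2.nonunits → s36k3Hom O' O α hαO x ∈ 𝔫) :
    (∀ x : ↥O, (x : F) ∈ Wa.nonunits → x ∈ 𝔫) ∧ (∀ x : ↥O, (x : F) ∈ Wb.nonunits → x ∈ 𝔫) ∧
      ∀ x : ↥O, (x : F) ∈ Wc.nonunits → x ∈ 𝔫 := by
  classical
  have h𝔫p : 𝔫.IsPrime := h𝔫.isPrime
  have hb : ∀ x : ↥O, (x : F) ∈ Wb.nonunits → x ∈ 𝔫 :=
    s36k3_al_down τ O' O α hαO hfrac' hic' hint V1 V2 hO'2 Wa Wb Wc hOa hOb hOc hαa hαc hτO hred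
      hsep 𝔫 h2
  let : Algebra ↥O' ↥O := (s36k3Hom O' O α hαO).toAlgebra
  have halg : ∀ x : ↥O', algebraMap ↥O' ↥O x = s36k3Hom O' O α hαO x := fun _ => rfl
  have : Algebra.IsIntegral ↥O' ↥O := ⟨s36k3Hom_integral O' O α hαO hint⟩
  have hmax : (𝔫.comap (algebraMap ↥O' ↥O)).IsMaximal :=
    Ideal.isMaximal_comap_of_isIntegral_of_isMaximal 𝔫
  -- the component `W` over `V1`
  have key : ∀ W : ValuationSubring F, (∀ y ∈ O, y ∈ W) → (∀ x : E, α x ∈ W ↔ x ∈ V1) →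
      ∀ x : ↥O, (x : F) ∈ W.nonunits → x ∈ 𝔫 := by
    intro W hOW hαW
    obtain ⟨pw, hpw, hpwmem⟩ := s36tn_centre O W hOW
    have hIP : pw.comap (algebraMap ↥O' ↥O) ≤ 𝔫.comap (algebraMap ↥O' ↥O) := by
      intro x hx
      rw [Ideal.mem_comap, halg] at hx ⊢
      exact h1 x ((s36k3_nu_of_iff α V1 W hαW x).mp ((hpwmem _).mp hx))
    obtain ⟨Q, hQ, hQp, hQc⟩ := Ideal.exists_ideal_over_prime_of_isIntegral
      (𝔫.comap (algebraMap ↥O' ↥O)) pw hIP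
    have := hQp
    have hQmax : Q.IsMaximal :=
      Ideal.isMaximal_of_isIntegral_of_isMaximal_comap Q (hQc.symm ▸ hmax)
    have hQcon : ∀ x : ↥O', s36k3Hom O' O α hαO x ∈ Q ↔ s36k3Hom O' O α hαO x ∈ 𝔫 := by
      intro x
      have h3 : x ∈ Q.comap (algebraMap ↥O' ↥O) ↔ x ∈ 𝔫.comap (algebraMap ↥O' ↥O) := by
        rw [hQc]
      rwa [Ideal.mem_comap, Ideal.mem_comap, halg] at h3
    have hQb : ∀ x : ↥O, (x : F) ∈ Wb.nonunits → x ∈ Q :=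
      s36k3_al_down τ O' O α hαO hfrac' hic' hint V1 V2 hO'2 Wa Wb Wc hOa hOb hOc hαa hαc hτO
        hred hsep Q (fun x hx => (hQcon x).mpr (h2 x hx))
    have hQ𝔫 : Q = 𝔫 :=
      s36k3_al_unique O' O α hαO Wb q hq hrad Q 𝔫 hQmax h𝔫 hQb hb
        (fun x hx => (hQcon x).mp hx)
    intro x hx
    rw [← hQ𝔫]
    exact hQ ((hpwmem x).mpr hx)
  exact ⟨key Wa hOa hαa, hb, key Wc hOc hαc⟩

/-- **Two ⇒ three along `α`.**  A maximal ideal of `O` through `Wb` and through one of `Wa`,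
`Wc` is a triple point. -/
theorem s36k3_al_two (τ : A) (O' : Subalgebra A E) (O : Subalgebra A F)
    (α : E →+* F) (hαO : ∀ x ∈ O', α x ∈ O)
    (hfrac' : ∀ x : E, ∃ a ∈ O', ∃ s ∈ O', s ≠ 0 ∧ x * s = a)
    (hic' : ∀ x : E, IsIntegral ↥O' x → x ∈ O')
    (hint : ∀ y ∈ O, ∃ p : F[X], p.Monic ∧ (∀ i, ∃ c ∈ O', p.coeff i = α c) ∧ p.eval y = 0)
    (V1 V2 : ValuationSubring E) (hO'2 : ∀ x ∈ O', x ∈ V2)
    (Wa Wb Wc : ValuationSubring F)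
    (hOa : ∀ y ∈ O, y ∈ Wa) (hOb : ∀ y ∈ O, y ∈ Wb) (hOc : ∀ y ∈ O, y ∈ Wc)
    (hαa : ∀ x : E, α x ∈ Wa ↔ x ∈ V1) (hαb : ∀ x : E, α x ∈ Wb ↔ x ∈ V2)
    (hαc : ∀ x : E, α x ∈ Wc ↔ x ∈ V1)
    (hτO : ∃ τ' ∈ O', τ' ∈ V2.nonunits ∧ α τ' = algebraMap A F τ)
    (hred : ∀ x ∈ O, x ∈ Wa.nonunits → x ∈ Wb.nonunits → x ∈ Wc.nonunits →
      ∃ (N : ℕ), ∃ y ∈ O, x ^ N = algebraMap A F τ * y)
    (hsep : ∃ x ∈ O', x ∈ V1.nonunits ∧ x ∉ V2.nonunits)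
    (q : ℕ) (hq : 0 < q) (hrad : ∀ y ∈ O, ∃ r ∈ O', y ^ q - α r ∈ Wb.nonunits)
    (𝔫 : Ideal ↥O) (h𝔫 : 𝔫.IsMaximal)
    (hb : ∀ x : ↥O, (x : F) ∈ Wb.nonunits → x ∈ 𝔫)
    (hac : (∀ x : ↥O, (x : F) ∈ Wa.nonunits → x ∈ 𝔫) ∨
      ∀ x : ↥O, (x : F) ∈ Wc.nonunits → x ∈ 𝔫) :
    (∀ x : ↥O, (x : F) ∈ Wa.nonunits → x ∈ 𝔫) ∧ (∀ x : ↥O, (x : F) ∈ Wb.nonunits → x ∈ 𝔫) ∧
      ∀ x : ↥O, (x : F) ∈ Wc.nonunits → x ∈ 𝔫 := by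
  refine s36k3_al_node τ O' O α hαO hfrac' hic' hint V1 V2 hO'2 Wa Wb Wc hOa hOb hOc hαa hαc hτO
    hred hsep q hq hrad 𝔫 h𝔫 ?_ ?_
  · intro x hx
    rcases hac with h | h
    · exact h _ ((s36k3_nu_of_iff α V1 Wa hαa x).mpr hx)
    · exact h _ ((s36k3_nu_of_iff α V1 Wc hαc x).mpr hx)
  · intro x hx
    exact hb _ ((s36k3_nu_of_iff α V2 Wb hαb x).mpr hx)

end Al

section Swap

variable {A F : Type*} [CommRing A] [Field F] [Algebra A F]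

/-- **Two ⇒ three along the swap.**  Charts `O i` of one model (transition elements `u i j`),
an involution `w` of `F` with `w⁻¹(Wa) = Wb`, `w⁻¹(Wc) = Wc`, local domination of the charts
along `w` at every closed point of the special fibre (`hdom`: the clauses of `s36cm_abs`), and
"`Wb`, `Wc` through `𝔫` ⇒ `Wa` through `𝔫`" at every closed point (`s36k3_al_two`).  Then a
closed point through `Wa` and `Wc` lies on `Wb`. -/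
theorem s36k3_swap_two {ι : Type*} (τ : A) (O : ι → Subalgebra A F) (u : ι → ι → F)
    (hu0 : ∀ i j, u i j ≠ 0) (hu : ∀ i j, u i j ∈ O j) (hu' : ∀ i j, (u i j)⁻¹ ∈ O i)
    (htr : ∀ i j, ∀ y ∈ O i, ∃ n : ℕ, y * u i j ^ n ∈ O j)
    (w : F →+* F) (hww : ∀ x, w (w x) = x)
    (Wa Wb Wc : ValuationSubring F)
    (hOa : ∀ i, ∀ y ∈ O i, y ∈ Wa) (hOb : ∀ i, ∀ y ∈ O i, y ∈ Wb)
    (hOc : ∀ i, ∀ y ∈ O i, y ∈ Wc)
    (hwab : ∀ x : F, w x ∈ Wa ↔ x ∈ Wb) (hwc : ∀ x : F, w x ∈ Wc ↔ x ∈ Wc)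
    (hdom : ∀ i (𝔫 : Ideal ↥(O i)), 𝔫.IsMaximal → algebraMap A ↥(O i) τ ∈ 𝔫 →
      ∃ j, ∃ 𝔫' : Ideal ↥(O j), 𝔫'.IsMaximal ∧ algebraMap A ↥(O j) τ ∈ 𝔫' ∧
        (∀ x : ↥(O j), x ∈ 𝔫' ↔
          ∃ a s : ↥(O i), a ∈ 𝔫 ∧ s ∉ 𝔫 ∧ w (x : F) * (s : F) = (a : F)) ∧
        (∀ x : ↥(O j), ∃ a s : ↥(O i), s ∉ 𝔫 ∧ w (x : F) * (s : F) = (a : F)))
    (hα : ∀ i (𝔫 : Ideal ↥(O i)), 𝔫.IsMaximal → algebraMap A ↥(O i) τ ∈ 𝔫 →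
      (∀ x : ↥(O i), (x : F) ∈ Wb.nonunits → x ∈ 𝔫) →
      (∀ x : ↥(O i), (x : F) ∈ Wc.nonunits → x ∈ 𝔫) →
      ∀ x : ↥(O i), (x : F) ∈ Wa.nonunits → x ∈ 𝔫) :
    ∀ i (𝔫 : Ideal ↥(O i)), 𝔫.IsMaximal → algebraMap A ↥(O i) τ ∈ 𝔫 →
      (∀ x : ↥(O i), (x : F) ∈ Wa.nonunits → x ∈ 𝔫) →
      (∀ x : ↥(O i), (x : F) ∈ Wc.nonunits → x ∈ 𝔫) →
      ∀ x : ↥(O i), (x : F) ∈ Wb.nonunits → x ∈ 𝔫 := by
  intro i 𝔫 h𝔫 hτ𝔫 ha hc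
  have h𝔫p : 𝔫.IsPrime := h𝔫.isPrime
  have hwba : ∀ x : F, w x ∈ Wb ↔ x ∈ Wa := by
    intro x
    rw [← hwab, hww]
  obtain ⟨j, 𝔫', h𝔫', hτ', hC1, hC2⟩ := hdom i 𝔫 h𝔫 hτ𝔫
  have h𝔫'p : 𝔫'.IsPrime := h𝔫'.isPrime
  -- `Wb`, `Wc` pass through `𝔫'`
  have hb' : ∀ x : ↥(O j), (x : F) ∈ Wb.nonunits → x ∈ 𝔫' := by
    intro x hx
    rw [hC1]
    obtain ⟨a, s, hs, hxs⟩ := hC2 x
    refine ⟨a, s, ha a ?_, hs, hxs⟩
    rw [← hxs]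
    exact s35pt_nu_mul Wa ((s36k3_nu_of_iff w Wb Wa hwab _).mpr hx) (hOa i _ s.2)
  have hc' : ∀ x : ↥(O j), (x : F) ∈ Wc.nonunits → x ∈ 𝔫' := by
    intro x hx
    rw [hC1]
    obtain ⟨a, s, hs, hxs⟩ := hC2 x
    refine ⟨a, s, hc a ?_, hs, hxs⟩
    rw [← hxs]
    exact s35pt_nu_mul Wc ((s36k3_nu_of_iff w Wc Wc hwc _).mpr hx) (hOc i _ s.2)
  have ha' : ∀ x : ↥(O j), (x : F) ∈ Wa.nonunits → x ∈ 𝔫' := hα j 𝔫' h𝔫' hτ' hb' hc'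
  obtain ⟨k, 𝔫'', h𝔫'', hτ'', hD1, hD2⟩ := hdom j 𝔫' h𝔫' hτ'
  -- `Wb` passes through `𝔫''`
  have hb'' : ∀ x : ↥(O k), (x : F) ∈ Wb.nonunits → x ∈ 𝔫'' := by
    intro x hx
    rw [hD1]
    obtain ⟨a, s, hs, hxs⟩ := hD2 x
    refine ⟨a, s, ha' a ?_, hs, hxs⟩
    rw [← hxs]
    exact s35pt_nu_mul Wa ((s36k3_nu_of_iff w Wb Wa hwab _).mpr hx) (hOa j _ s.2)
  -- `𝔫''` lies in `𝔫 O_𝔫`
  have hL : ∀ x : ↥(O k), x ∈ 𝔫'' →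
      ∃ a s : ↥(O i), a ∈ 𝔫 ∧ s ∉ 𝔫 ∧ (x : F) * (s : F) = (a : F) := by
    intro x hx
    obtain ⟨a₁, s₁, ha₁, hs₁, h1⟩ := (hD1 x).mp hx
    obtain ⟨a₂, s₂, hs₂, h2⟩ := hC2 s₁
    have ha₂ : a₂ ∉ 𝔫 := fun h => hs₁ ((hC1 s₁).mpr ⟨a₂, s₂, h, hs₂, h2⟩)
    obtain ⟨a₃, s₃, ha₃, hs₃, h3⟩ := (hC1 a₁).mp ha₁
    refine ⟨a₃ * s₂, a₂ * s₃, 𝔫.mul_mem_right _ ha₃, fun h => ?_, ?_⟩
    · rcases h𝔫p.mem_or_mem h with h | h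
      · exact ha₂ h
      · exact hs₃ h
    · have h4 : (x : F) * w (s₁ : F) = w (a₁ : F) := by
        have := congrArg w h1
        rwa [map_mul, hww] at this
      push_cast
      rw [← h2, ← h3, ← h4]
      ring
  intro y hy
  obtain ⟨n, hn⟩ := htr i k y y.2
  have hyn : (y : F) * u i k ^ n ∈ Wb.nonunits :=
    s35pt_nu_mul Wb hy (Wb.pow_mem (hOb k _ (hu i k)) n)
  obtain ⟨a, s, ha𝔫, hs, hys⟩ := hL ⟨(y : F) * u i k ^ n, hn⟩ (hb'' ⟨_, hn⟩ hyn)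
  have h5 : y * s = a * (⟨(u i k)⁻¹, hu' i k⟩ : ↥(O i)) ^ n := by
    apply Subtype.ext
    push_cast
    have h6 : (y : F) * u i k ^ n * (s : F) = (a : F) := hys
    rw [← h6, inv_pow]
    field_simp [hu0 i k]
  have h7 : y * s ∈ 𝔫 := by
    rw [h5]
    exact 𝔫.mul_mem_right _ ha𝔫
  rcases h𝔫p.mem_or_mem h7 with h | h
  · exact h
  · exact absurd h hs

end Swap

section Charts

variable {A F : Type*} [CommRing A] [Field F] [Algebra A F]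

/-- local domination of the chart `O'` by the point `𝔫` of the chart `O` along `w`: the clauses
of `s36cm_abs` (S36/ChartMap.lean) -/
def S36k3Dom (τ : A) (w : F →+* F) (O : Subalgebra A F) (𝔫 : Ideal ↥O) (O' : Subalgebra A F) :
    Prop :=
  ∃ 𝔫' : Ideal ↥O', 𝔫'.IsMaximal ∧ algebraMap A ↥O' τ ∈ 𝔫' ∧
    (∀ x : ↥O', x ∈ 𝔫' ↔ ∃ a s : ↥O, a ∈ 𝔫 ∧ s ∉ 𝔫 ∧ w (x : F) * (s : F) = (a : F)) ∧
    (∀ x : ↥O', ∃ a s : ↥O, s ∉ 𝔫 ∧ w (x : F) * (s : F) = (a : F))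

/-- **Two ⇒ three along the swap, two charts.**  The binder `hac` of `s36k3_point` for the two
charts `O₀ ∋ t`, `O₁ ∋ t⁻¹` from the binder `hbc` for the two charts and local domination along
the involution `w` (`w⁻¹(Wa) = Wb`, `w⁻¹(Wc) = Wc`) at every closed point of the special
fibre. -/
theorem s36k3_swap_charts (τ : A) (t : F) (ht : t ≠ 0) (O₀ O₁ : Subalgebra A F)
    (ht₀ : t ∈ O₀) (ht₁ : t⁻¹ ∈ O₁)
    (h01 : ∀ x ∈ O₀, ∃ n : ℕ, x * t⁻¹ ^ n ∈ O₁) (h10 : ∀ x ∈ O₁, ∃ n : ℕ, x * t ^ n ∈ O₀)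
    (w : F →+* F) (hww : ∀ x, w (w x) = x)
    (Wa Wb Wc : ValuationSubring F)
    (hV₀ : ∀ x ∈ O₀, x ∈ Wa ∧ x ∈ Wb ∧ x ∈ Wc) (hV₁ : ∀ x ∈ O₁, x ∈ Wa ∧ x ∈ Wb ∧ x ∈ Wc)
    (hwab : ∀ x : F, w x ∈ Wa ↔ x ∈ Wb) (hwc : ∀ x : F, w x ∈ Wc ↔ x ∈ Wc)
    (hdom₀ : ∀ 𝔫 : Ideal ↥O₀, 𝔫.IsMaximal → algebraMap A ↥O₀ τ ∈ 𝔫 →
      S36k3Dom τ w O₀ 𝔫 O₀ ∨ S36k3Dom τ w O₀ 𝔫 O₁)
    (hdom₁ : ∀ 𝔫 : Ideal ↥O₁, 𝔫.IsMaximal → algebraMap A ↥O₁ τ ∈ 𝔫 →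
      S36k3Dom τ w O₁ 𝔫 O₀ ∨ S36k3Dom τ w O₁ 𝔫 O₁)
    (hbc₀ : ∀ 𝔫 : Ideal ↥O₀, 𝔫.IsMaximal → algebraMap A ↥O₀ τ ∈ 𝔫 →
      (∀ x : ↥O₀, (x : F) ∈ Wb.nonunits → x ∈ 𝔫) → (∀ x : ↥O₀, (x : F) ∈ Wc.nonunits → x ∈ 𝔫) →
      ∀ x : ↥O₀, (x : F) ∈ Wa.nonunits → x ∈ 𝔫)
    (hbc₁ : ∀ 𝔫 : Ideal ↥O₁, 𝔫.IsMaximal → algebraMap A ↥O₁ τ ∈ 𝔫 →
      (∀ x : ↥O₁, (x : F) ∈ Wb.nonunits → x ∈ 𝔫) → (∀ x : ↥O₁, (x : F) ∈ Wc.nonunits → x ∈ 𝔫) →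
      ∀ x : ↥O₁, (x : F) ∈ Wa.nonunits → x ∈ 𝔫) :
    (∀ 𝔫 : Ideal ↥O₀, 𝔫.IsMaximal → algebraMap A ↥O₀ τ ∈ 𝔫 →
      (∀ x : ↥O₀, (x : F) ∈ Wa.nonunits → x ∈ 𝔫) → (∀ x : ↥O₀, (x : F) ∈ Wc.nonunits → x ∈ 𝔫) →
      ∀ x : ↥O₀, (x : F) ∈ Wb.nonunits → x ∈ 𝔫) ∧
    (∀ 𝔫 : Ideal ↥O₁, 𝔫.IsMaximal → algebraMap A ↥O₁ τ ∈ 𝔫 →
      (∀ x : ↥O₁, (x : F) ∈ Wa.nonunits → x ∈ 𝔫) → (∀ x : ↥O₁, (x : F) ∈ Wc.nonunits → x ∈ 𝔫) →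
      ∀ x : ↥O₁, (x : F) ∈ Wb.nonunits → x ∈ 𝔫) := by
  let O : Bool → Subalgebra A F := fun b => Bool.rec O₀ O₁ b
  let u : Bool → Bool → F := fun i j => Bool.rec (Bool.rec 1 t⁻¹ j) (Bool.rec t 1 j) i
  have key := s36k3_swap_two (ι := Bool) τ O u
    (by
      intro i j
      cases i <;> cases j
      · exact one_ne_zero
      · exact inv_ne_zero ht
      · exact ht
      · exact one_ne_zero)
    (by
      intro i j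
      cases i <;> cases j
      · exact O₀.one_mem
      · exact ht₁
      · exact ht₀
      · exact O₁.one_mem)
    (by
      intro i j
      cases i <;> cases j
      · show (1 : F)⁻¹ ∈ O₀
        rw [inv_one]; exact O₀.one_mem
      · show (t⁻¹)⁻¹ ∈ O₀
        rw [inv_inv]; exact ht₀
      · exact ht₁
      · show (1 : F)⁻¹ ∈ O₁
        rw [inv_one]; exact O₁.one_mem)
    (by
      intro i j
      cases i <;> cases j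
      · intro y hy
        exact ⟨0, by simpa using hy⟩
      · exact h01
      · exact h10
      · intro y hy
        exact ⟨0, by simpa using hy⟩)
    w hww Wa Wb Wc
    (by
      intro i
      cases i
      · exact fun y hy => (hV₀ y hy).1
      · exact fun y hy => (hV₁ y hy).1)
    (by
      intro i
      cases i
      · exact fun y hy => (hV₀ y hy).2.1
      · exact fun y hy => (hV₁ y hy).2.1)
    (by
      intro i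
      cases i
      · exact fun y hy => (hV₀ y hy).2.2
      · exact fun y hy => (hV₁ y hy).2.2)
    hwab hwc
    (by
      intro i
      cases i
      · intro 𝔫 h𝔫 hτ𝔫
        rcases hdom₀ 𝔫 h𝔫 hτ𝔫 with h | h
        · exact ⟨false, h⟩
        · exact ⟨true, h⟩
      · intro 𝔫 h𝔫 hτ𝔫
        rcases hdom₁ 𝔫 h𝔫 hτ𝔫 with h | h
        · exact ⟨false, h⟩
        · exact ⟨true, h⟩)
    (by
      intro i
      cases i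
      · exact hbc₀
      · exact hbc₁)
  exact ⟨key false, key true⟩

end Charts

end Fermat.Agent.S36
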