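import Mathlib
import Fermat.Agent.S36.CompDed3
import Fermat.Agent.S36.Val3Fin

/-!
# S36, leaf HD3-C: the non-reduced component `W_c` of the level-`M q^2` charts

Closed forms of `s36cd_al_hD` / `s36cd_al_ic` (`S36/CompDed3.lean`) at `W = s36v3Wc`
(table `s36v3_al_Wc`, residue degree one `s36v3_res_al_Wc`):

* `s36cd_Wc_hD`, `s36cd_Wc_hD_inv` : the coordinate ring `chtO A0 {t} ⧸ 𝔭` (resp. `{t⁻¹}`) of the
  component `𝔭 = chart ∩ 𝔪_{W_c}` is a Dedekind domain;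
* `s36cd_Wc_ic`, `s36cd_Wc_ic_inv` : `S35IC m (chart) 𝔫 W_c` at every prime `𝔫` on `W_c`;
* `s36cd_Wc_rfrac` : the residue field of `W_c` is generated by the chart.
-/

set_option autoImplicit false
set_option linter.unusedSectionVars false

open ModularCurve AlgebraicCurve Polynomial
open Fermat.Agent.S18 Fermat.Agent.S37 Fermat.Agent.S34 Fermat.Agent.S35

namespace Fermat.Agent.S36

local notation "Qb" => AlgebraicClosure ℚ

section Inst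

variable (M q : ℕ) [NeZero M] [hq : Fact q.Prime] (hM : ¬ q ∣ M)
  (K0 : Type*) [Field K0] [Algebra ℚ K0] [Algebra K0 Qb]
  (A0 : ValuationSubring K0) [IsDiscreteValuationRing ↥A0]
  {a2 : ℕ} (H : HauptRec a2 q)

/-- **HD3 for `W_c`**: the non-reduced component of the level-`M q^2` chart has a Dedekind
coordinate ring. -/
theorem s36cd_Wc_hD (ha2 : a2 ∣ M) (hA0 : A0.LiesOverPrime q)
    (hunr : ∀ x ∈ A0.nonunits, x * ((q : ℕ) : K0)⁻¹ ∈ A0)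
    [Algebra A0 ↥(laurentBaseChange K0 (modularFunctionFieldFull (M * q * q)))]
    [IsScalarTower A0 K0 ↥(laurentBaseChange K0 (modularFunctionFieldFull (M * q * q)))]
    (c0 c1 : A0) (hc : IsLocalRing.residue A0 c0 ≠ IsLocalRing.residue A0 c1)
    (hSM : cinstSMChart K0 A0 M H (c0 : K0) (c1 : K0))
    (t : ↥(laurentBaseChange K0 (modularFunctionFieldFull (M * q * q))))
    (ht : (t : LaurentSeries K0) = cinstU H K0 (c0 : K0) (c1 : K0))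
    (τ : A0) (hτ : Irreducible τ)
    (𝔭 : Ideal ↥(chtO A0 {t}))
    (h𝔭 : ∀ x : ↥(chtO A0 {t}), x ∈ 𝔭 ↔
      (x : ↥(laurentBaseChange K0 (modularFunctionFieldFull (M * q * q)))) ∈
        (s36v3Wc M q hM K0 A0).nonunits) :
    IsDedekindDomain (↥(chtO A0 {t}) ⧸ 𝔭) :=
  s36cd_al_hD M q hM K0 A0 H ha2 hA0 c0 c1 hc hSM (s36v3Wc M q hM K0 A0)
    (s36v3_al_Wc M q hM K0 A0) (s36v3_res_al_Wc M q hM K0 A0 hA0 hunr) t ht τ hτ 𝔭 h𝔭

/-- `s36cd_Wc_hD` for the chart `chtO A0 {t⁻¹}`. -/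
theorem s36cd_Wc_hD_inv (ha2 : a2 ∣ M) (hA0 : A0.LiesOverPrime q)
    (hunr : ∀ x ∈ A0.nonunits, x * ((q : ℕ) : K0)⁻¹ ∈ A0)
    [Algebra A0 ↥(laurentBaseChange K0 (modularFunctionFieldFull (M * q * q)))]
    [IsScalarTower A0 K0 ↥(laurentBaseChange K0 (modularFunctionFieldFull (M * q * q)))]
    (c0 c1 : A0) (hc : IsLocalRing.residue A0 c0 ≠ IsLocalRing.residue A0 c1)
    (hSM : cinstSMChart K0 A0 M H (c1 : K0) (c0 : K0))
    (t : ↥(laurentBaseChange K0 (modularFunctionFieldFull (M * q * q))))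
    (ht : (t : LaurentSeries K0) = cinstU H K0 (c0 : K0) (c1 : K0))
    (τ : A0) (hτ : Irreducible τ)
    (𝔭 : Ideal ↥(chtO A0 {t⁻¹}))
    (h𝔭 : ∀ x : ↥(chtO A0 {t⁻¹}), x ∈ 𝔭 ↔
      (x : ↥(laurentBaseChange K0 (modularFunctionFieldFull (M * q * q)))) ∈
        (s36v3Wc M q hM K0 A0).nonunits) :
    IsDedekindDomain (↥(chtO A0 {t⁻¹}) ⧸ 𝔭) :=
  s36cd_al_hD_inv M q hM K0 A0 H ha2 hA0 c0 c1 hc hSM (s36v3Wc M q hM K0 A0)
    (s36v3_al_Wc M q hM K0 A0) (s36v3_res_al_Wc M q hM K0 A0 hA0 hunr) t ht τ hτ 𝔭 h𝔭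

/-- **HD3 for `W_c`, `S35IC` form**, at every prime of the chart on `W_c`. -/
theorem s36cd_Wc_ic (ha2 : a2 ∣ M) (hA0 : A0.LiesOverPrime q)
    (hunr : ∀ x ∈ A0.nonunits, x * ((q : ℕ) : K0)⁻¹ ∈ A0)
    [Algebra A0 ↥(laurentBaseChange K0 (modularFunctionFieldFull (M * q * q)))]
    [IsScalarTower A0 K0 ↥(laurentBaseChange K0 (modularFunctionFieldFull (M * q * q)))]
    (c0 c1 : A0) (hc : IsLocalRing.residue A0 c0 ≠ IsLocalRing.residue A0 c1)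
    (hSM : cinstSMChart K0 A0 M H (c0 : K0) (c1 : K0))
    (t : ↥(laurentBaseChange K0 (modularFunctionFieldFull (M * q * q))))
    (ht : (t : LaurentSeries K0) = cinstU H K0 (c0 : K0) (c1 : K0))
    (τ : A0) (hτ : Irreducible τ)
    (𝔫 : Ideal ↥(chtO A0 {t})) [𝔫.IsPrime]
    (hp𝔫 : ∀ x : ↥(chtO A0 {t}),
      (x : ↥(laurentBaseChange K0 (modularFunctionFieldFull (M * q * q)))) ∈
        (s36v3Wc M q hM K0 A0).nonunits → x ∈ 𝔫)
    (m : ℕ) (hm : 0 < m) : S35IC m (chtO A0 {t}) 𝔫 (s36v3Wc M q hM K0 A0) :=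
  s36cd_al_ic M q hM K0 A0 H ha2 hA0 c0 c1 hc hSM (s36v3Wc M q hM K0 A0)
    (s36v3_al_Wc M q hM K0 A0) (s36v3_res_al_Wc M q hM K0 A0 hA0 hunr) t ht τ hτ 𝔫 hp𝔫 m hm

/-- `s36cd_Wc_ic` for the chart `chtO A0 {t⁻¹}`. -/
theorem s36cd_Wc_ic_inv (ha2 : a2 ∣ M) (hA0 : A0.LiesOverPrime q)
    (hunr : ∀ x ∈ A0.nonunits, x * ((q : ℕ) : K0)⁻¹ ∈ A0)
    [Algebra A0 ↥(laurentBaseChange K0 (modularFunctionFieldFull (M * q * q)))]
    [IsScalarTower A0 K0 ↥(laurentBaseChange K0 (modularFunctionFieldFull (M * q * q)))]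
    (c0 c1 : A0) (hc : IsLocalRing.residue A0 c0 ≠ IsLocalRing.residue A0 c1)
    (hSM : cinstSMChart K0 A0 M H (c1 : K0) (c0 : K0))
    (t : ↥(laurentBaseChange K0 (modularFunctionFieldFull (M * q * q))))
    (ht : (t : LaurentSeries K0) = cinstU H K0 (c0 : K0) (c1 : K0))
    (τ : A0) (hτ : Irreducible τ)
    (𝔫 : Ideal ↥(chtO A0 {t⁻¹})) [𝔫.IsPrime]
    (hp𝔫 : ∀ x : ↥(chtO A0 {t⁻¹}),
      (x : ↥(laurentBaseChange K0 (modularFunctionFieldFull (M * q * q)))) ∈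
        (s36v3Wc M q hM K0 A0).nonunits → x ∈ 𝔫)
    (m : ℕ) (hm : 0 < m) : S35IC m (chtO A0 {t⁻¹}) 𝔫 (s36v3Wc M q hM K0 A0) :=
  s36cd_al_ic_inv M q hM K0 A0 H ha2 hA0 c0 c1 hc hSM (s36v3Wc M q hM K0 A0)
    (s36v3_al_Wc M q hM K0 A0) (s36v3_res_al_Wc M q hM K0 A0 hA0 hunr) t ht τ hτ 𝔫 hp𝔫 m hm

/-- the residue field of `W_c` is generated by the level-`M q^2` chart -/
theorem s36cd_Wc_rfrac (ha2 : a2 ∣ M) (hA0 : A0.LiesOverPrime q)
    (hunr : ∀ x ∈ A0.nonunits, x * ((q : ℕ) : K0)⁻¹ ∈ A0)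
    [Algebra A0 ↥(laurentBaseChange K0 (modularFunctionFieldFull (M * q * q)))]
    [IsScalarTower A0 K0 ↥(laurentBaseChange K0 (modularFunctionFieldFull (M * q * q)))]
    (c0 c1 : A0) (hc : IsLocalRing.residue A0 c0 ≠ IsLocalRing.residue A0 c1)
    (t : ↥(laurentBaseChange K0 (modularFunctionFieldFull (M * q * q))))
    (ht : (t : LaurentSeries K0) = cinstU H K0 (c0 : K0) (c1 : K0))
    (τ : A0) (hτ : Irreducible τ) :
    ∀ z ∈ s36v3Wc M q hM K0 A0, ∃ a s : ↥(chtO A0 {t}),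
      (s : ↥(laurentBaseChange K0 (modularFunctionFieldFull (M * q * q)))) ∉
        (s36v3Wc M q hM K0 A0).nonunits ∧
      z * (s : ↥(laurentBaseChange K0 (modularFunctionFieldFull (M * q * q)))) -
        (a : ↥(laurentBaseChange K0 (modularFunctionFieldFull (M * q * q)))) ∈
          (s36v3Wc M q hM K0 A0).nonunits :=
  s36cd_al_rfrac M q hM K0 A0 H ha2 hA0 c0 c1 hc (s36v3Wc M q hM K0 A0)
    (s36v3_al_Wc M q hM K0 A0) (s36v3_res_al_Wc M q hM K0 A0 hA0 hunr) t ht τ hτ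

end Inst

end Fermat.Agent.S36
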