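import Fermat.Agent.S36.Val3Tw
import Fermat.Agent.S34.ThetaDelta

/-!
# S36, package CONG, part SER: the residue of `(Z(ζ t) - Z(t))^(q-1) / q`

`K` a field, `A` a valuation subring over the prime `q`, `ζ` a primitive `q`-th root of unity,
`Z = t⁻¹ (1 + ⋯)` an integral Laurent series, `F` its image over `K`, `θ = t d/dt`.

* `s36cs_sub`: `F(ζ t) - F(t) = (ζ⁻¹ - 1) · u` with `u` in the Gauss ring and residue `- θ Z̄`;
* `s36cs_cyc`: `(ζ⁻¹ - 1)^(q-1) / q ≡ -1` (Wilson);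
* `s36cs_pow`: `(F(ζ t) - F(t))^(q-1) / q` lies in the Gauss ring with residue `- (θ Z̄)^(q-1)`;
* `s36cs_nu`: a series `N` with `N · (θ F)(t^q) = θ F` lies in the Gauss ring and its residue `n`
  satisfies `n · (θ Z̄)^q = θ Z̄`;
* `s36cs_main`: `(F(ζ t) - F(t))^(q-1) / q · N + 1` lies in the Gauss ring with residue `0`.
-/

set_option autoImplicit false

open ModularCurve Fermat.Agent.S18 Fermat.Agent.S34

namespace Fermat.Agent.S36

section Ser

variable {K : Type*} [Field K]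

theorem s36cs_mem_of_nonunits (A : ValuationSubring K) {x : K} (hx : x ∈ A.nonunits) : x ∈ A :=
  A.nonunits_subset hx

theorem s36cs_nonunits_add (A : ValuationSubring K) {x y : K} (hx : x ∈ A.nonunits)
    (hy : y ∈ A.nonunits) : x + y ∈ A.nonunits := by
  rw [ValuationSubring.mem_nonunits_iff]
  exact lt_of_le_of_lt (Valuation.map_add _ _ _)
    (max_lt ((ValuationSubring.mem_nonunits_iff _).mp hx)
      ((ValuationSubring.mem_nonunits_iff _).mp hy))

theorem s36cs_nonunits_mul (A : ValuationSubring K) {x y : K} (hx : x ∈ A)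
    (hy : y ∈ A.nonunits) : x * y ∈ A.nonunits := by
  rw [ValuationSubring.mem_nonunits_iff, map_mul]
  exact lt_of_le_of_lt (mul_le_of_le_one_left' ((A.valuation_le_one_iff _).mpr hx))
    ((ValuationSubring.mem_nonunits_iff _).mp hy)

theorem s36cs_nonunits_neg (A : ValuationSubring K) {x : K} (hx : x ∈ A.nonunits) :
    -x ∈ A.nonunits := by
  rw [ValuationSubring.mem_nonunits_iff, Valuation.map_neg]
  exact (ValuationSubring.mem_nonunits_iff _).mp hx

/-- `(ζ⁻¹ - 1)⁻¹ (ζ^(k-1) - 1) ≡ -(k - 1)` modulo `𝔪_A` -/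
theorem s36cs_geom (A : ValuationSubring K) (ζ : K) (hζ : ζ ≠ 0) (hζA : ζ ∈ A) (hζ1 : ζ ≠ 1)
    (h1 : ζ - 1 ∈ A.nonunits) (k : ℕ) :
    (ζ⁻¹ - 1)⁻¹ * (ζ ^ ((k : ℤ) - 1) - 1) + (((k : ℤ) - 1 : ℤ) : K) ∈ A.nonunits := by
  have hne : ζ⁻¹ - 1 ≠ 0 := by
    intro h
    apply hζ1
    have : ζ⁻¹ = 1 := sub_eq_zero.mp h
    rw [← inv_inv ζ, this, inv_one]
  induction k with
  | zero =>
    have e : (ζ⁻¹ - 1)⁻¹ * (ζ ^ (((0 : ℕ) : ℤ) - 1) - 1) + ((((0 : ℕ) : ℤ) - 1 : ℤ) : K) = 0 := by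
      rw [Nat.cast_zero, zero_sub, zpow_neg, zpow_one, inv_mul_cancel₀ hne]
      push_cast
      ring
    rw [e, ValuationSubring.mem_nonunits_iff, map_zero]
    exact zero_lt_one
  | succ k ih =>
    have e : (ζ⁻¹ - 1)⁻¹ * (ζ ^ (((k + 1 : ℕ) : ℤ) - 1) - 1) + ((((k + 1 : ℕ) : ℤ) - 1 : ℤ) : K)
        = ζ * ((ζ⁻¹ - 1)⁻¹ * (ζ ^ ((k : ℤ) - 1) - 1) + (((k : ℤ) - 1 : ℤ) : K))
          + (-((k : ℕ) : K)) * (ζ - 1) := by
      have h2 : ((k + 1 : ℕ) : ℤ) - 1 = ((k : ℤ) - 1) + 1 := by push_cast; ring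
      rw [h2, zpow_add₀ hζ, zpow_one]
      push_cast
      field_simp
      ring
    rw [e]
    exact s36cs_nonunits_add A (s36cs_nonunits_mul A hζA ih)
      (s36cs_nonunits_mul A (A.toSubring.neg_mem (natCast_mem A k)) h1)

/-- the residue field of a valuation subring over `q` has characteristic `q` -/
theorem s36cs_charP (A : ValuationSubring K) (q : ℕ) [hq : Fact q.Prime]
    (hqA : ((q : ℕ) : K) ∈ A.nonunits) : CharP (IsLocalRing.ResidueField A) q := by
  have hq0 : ((q : ℕ) : IsLocalRing.ResidueField A) = 0 := by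
    have h1 : ((q : ℕ) : A) ∈ IsLocalRing.maximalIdeal A := by
      rw [← ValuationSubring.coe_mem_nonunits_iff]
      exact_mod_cast hqA
    have h2 := (IsLocalRing.residue_eq_zero_iff _).mpr h1
    rwa [map_natCast] at h2
  exact (CharP.charP_iff_prime_eq_zero hq.out).mpr hq0

/-- residue of an element of `A` congruent to an integer -/
theorem s36cs_res_eq (A : ValuationSubring K) (x y : A) (h : (x : K) - (y : K) ∈ A.nonunits) :
    IsLocalRing.residue A x = IsLocalRing.residue A y := by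
  have h1 : x - y ∈ IsLocalRing.maximalIdeal A := by
    rw [← ValuationSubring.coe_mem_nonunits_iff]
    exact h
  have h2 := (IsLocalRing.residue_eq_zero_iff _).mpr h1
  rw [map_sub] at h2
  exact sub_eq_zero.mp h2

theorem s36cs_nonunits_of_res (A : ValuationSubring K) (x : A)
    (h : IsLocalRing.residue A x = 0) : (x : K) ∈ A.nonunits := by
  have h1 : x ∈ IsLocalRing.maximalIdeal A := (IsLocalRing.residue_eq_zero_iff _).mp h
  exact ValuationSubring.coe_mem_nonunits_iff.mpr h1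

/-- **the twisted difference**: `F(ζ t) - F(t) = (ζ⁻¹ - 1) · u`, `u` in the Gauss ring with
residue `- θ Z̄` -/
theorem s36cs_sub (A : ValuationSubring K) (ζ : K) (hζ : ζ ≠ 0) (hζA : ζ ∈ A)
    (hζ1 : ζ ≠ 1) (h1 : ζ - 1 ∈ A.nonunits) (Z : LaurentSeries ℤ) (hZ : Hp4Lead Z (-1)) :
    ∃ (u : LaurentSeries K) (hu : u ∈ grV A),
      ccjTwist ζ hζ (coeffMap (Int.castRingHom K) Z) - coeffMap (Int.castRingHom K) Z
        = algebraMap K (LaurentSeries K) (ζ⁻¹ - 1) * u ∧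
      grRho A ⟨u, hu⟩ =
        - thdTheta (IsLocalRing.ResidueField A)
          (coeffMap (Int.castRingHom (IsLocalRing.ResidueField A)) Z) := by
  have hne : ζ⁻¹ - 1 ≠ 0 := by
    intro h
    apply hζ1
    have : ζ⁻¹ = 1 := sub_eq_zero.mp h
    rw [← inv_inv ζ, this, inv_one]
  set u : LaurentSeries K := algebraMap K (LaurentSeries K) (ζ⁻¹ - 1)⁻¹ *
    (ccjTwist ζ hζ (coeffMap (Int.castRingHom K) Z) - coeffMap (Int.castRingHom K) Z) with hu
  have hcoeff : ∀ n : ℤ, u.coeff n = (ζ⁻¹ - 1)⁻¹ * (ζ ^ n - 1) * ((Z.coeff n : ℤ) : K) := by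
    intro n
    rw [hu, algebraMap_laurentSeries_eq_single, ← HahnSeries.C_apply, HahnSeries.C_mul_eq_smul,
      HahnSeries.coeff_smul, HahnSeries.coeff_sub, ccjTwist_coeff, coeffMap_coeff, smul_eq_mul]
    simp only [eq_intCast]
    ring
  have hmem : ∀ n : ℤ, u.coeff n ∈ A.toSubring := by
    intro n
    rw [hcoeff]
    by_cases hn : n < -1
    · rw [hZ.coeff_lt hn, Int.cast_zero, mul_zero]
      exact A.zero_mem
    · push Not at hn
      obtain ⟨k, hk⟩ : ∃ k : ℕ, n = (k : ℤ) - 1 := ⟨(n + 1).toNat, by omega⟩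
      rw [hk]
      refine A.mul_mem _ _ (s36tw_geom_mem A ζ hζ hζA hζ1 k) ?_
      exact (Int.castRingHom A (Z.coeff ((k : ℤ) - 1))).2
  obtain ⟨u', hu'⟩ := dvd_lift_coeff A.toSubring u hmem
  have humem : u ∈ grV A := by
    rw [← hu']
    exact gr_coeffMap_mem A u'
  refine ⟨u, humem, ?_, ?_⟩
  · rw [hu, ← mul_assoc, ← map_mul, mul_inv_cancel₀ hne, map_one, one_mul]
  · have h2 : grRho A ⟨u, humem⟩ = coeffMap (IsLocalRing.residue A) u' := by
      have := grRho_coeffMap A u'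
      rw [← this]
      congr 1
      exact Subtype.ext hu'.symm
    rw [h2]
    ext n
    rw [coeffMap_coeff, HahnSeries.coeff_neg, thdTheta_coeff, coeffMap_coeff]
    have hval : ((u'.coeff n : A) : K) = u.coeff n := by
      rw [← hu']
      rfl
    by_cases hn : n < -1
    · have h0 : u'.coeff n = 0 := by
        apply Subtype.ext
        rw [hval, hcoeff, hZ.coeff_lt hn, Int.cast_zero, mul_zero]
        rfl
      rw [h0, map_zero, hZ.coeff_lt hn, map_zero, mul_zero, neg_zero]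
    · push Not at hn
      obtain ⟨k, hk⟩ : ∃ k : ℕ, n = (k : ℤ) - 1 := ⟨(n + 1).toNat, by omega⟩
      have h3 := s36cs_res_eq A (u'.coeff n) (-((n : ℤ) : A) * ((Z.coeff n : ℤ) : A)) (by
        rw [hval, hcoeff]
        have e : (ζ⁻¹ - 1)⁻¹ * (ζ ^ n - 1) * ((Z.coeff n : ℤ) : K) -
            ((-((n : ℤ) : A) * ((Z.coeff n : ℤ) : A) : A) : K)
            = ((Z.coeff n : ℤ) : K) * ((ζ⁻¹ - 1)⁻¹ * (ζ ^ n - 1) + ((n : ℤ) : K)) := by
          push_cast
          ring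
        rw [e, hk]
        exact s36cs_nonunits_mul A (intCast_mem A _) (s36cs_geom A ζ hζ hζA hζ1 h1 k))
      rw [h3, map_mul, map_neg, map_intCast, map_intCast]
      simp only [eq_intCast]
      ring

/-- **Wilson**: `(ζ⁻¹ - 1)^(q-1) / q ≡ -1` modulo `𝔪_A` -/
theorem s36cs_cyc (A : ValuationSubring K) (q : ℕ) [hq : Fact q.Prime]
    (hqA : ((q : ℕ) : K) ∈ A.nonunits) (ζ : K) (hζ : IsPrimitiveRoot ζ q) :
    (ζ⁻¹ - 1) ^ (q - 1) * ((q : ℕ) : K)⁻¹ + 1 ∈ A.nonunits := by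
  have hq1 : q - 1 + 1 = q := Nat.succ_pred_eq_of_pos hq.out.pos
  have hpow : ζ ^ q = 1 := hζ.pow_eq_one
  have hζ0 : ζ ≠ 0 := hζ.ne_zero hq.out.ne_zero
  have hζA : ζ ∈ A := s36tw_root_mem A ζ q hq.out.ne_zero hpow
  have h1 : ζ - 1 ∈ A.nonunits := s36tw_root_sub_one A q hqA ζ hpow
  obtain ⟨hX, -⟩ := s36tw_cyc_unit A q hqA ζ hζ
  have : CharP (IsLocalRing.ResidueField A) q := s36cs_charP A q hqA
  have hq0 : ((q : ℕ) : K) ≠ 0 := by
    intro h0
    have hζ' : IsPrimitiveRoot ζ (q - 1 + 1) := by rw [hq1]; exact hζ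
    have h2 := hζ'.prod_one_sub_pow_eq_order
    have h3 : ((q - 1 : ℕ) : K) + 1 = ((q : ℕ) : K) := by
      rw [← Nat.cast_one (R := K), ← Nat.cast_add, hq1]
    rw [h3, h0, Finset.prod_eq_zero_iff] at h2
    obtain ⟨k, hk, hk0⟩ := h2
    rw [Finset.mem_range] at hk
    have h4 : ζ ^ (k + 1) = 1 := (sub_eq_zero.mp hk0).symm
    have h5 := hζ.dvd_of_pow_eq_one _ h4
    have h6 := Nat.le_of_dvd (Nat.succ_pos k) h5
    omega
  set ζA : A := ⟨ζ, hζA⟩ with hζAdef
  have hζres : IsLocalRing.residue A ζA = 1 := by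
    have := s36cs_res_eq A ζA 1 (by simpa using h1)
    rwa [map_one] at this
  set XA : A := ⟨(ζ⁻¹ - 1) ^ (q - 1) * ((q : ℕ) : K)⁻¹, hX⟩ with hXA
  -- the product formula
  have hζ' : IsPrimitiveRoot ζ (q - 1 + 1) := by rw [hq1]; exact hζ
  have hprod := hζ'.prod_one_sub_pow_eq_order
  have h3 : ((q - 1 : ℕ) : K) + 1 = ((q : ℕ) : K) := by
    rw [← Nat.cast_one (R := K), ← Nat.cast_add, hq1]
  rw [h3] at hprod
  have hfac : ∀ k, 1 - ζ ^ (k + 1) = (1 - ζ) * ∑ i ∈ Finset.range (k + 1), ζ ^ i := by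
    intro k
    have := geom_sum_mul ζ (k + 1)
    linear_combination this
  have hprod2 : (1 - ζ) ^ (q - 1) * ∏ k ∈ Finset.range (q - 1),
      ∑ i ∈ Finset.range (k + 1), ζ ^ i = ((q : ℕ) : K) := by
    rw [← hprod, Finset.prod_congr rfl (fun k _ => hfac k), Finset.prod_mul_distrib,
      Finset.prod_const, Finset.card_range]
  have keyK : (ζ⁻¹ - 1) ^ (q - 1) * ((q : ℕ) : K)⁻¹ * (ζ ^ (q - 1) *
      ∏ k ∈ Finset.range (q - 1), ∑ i ∈ Finset.range (k + 1), ζ ^ i) = 1 := by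
    have e2 : ζ⁻¹ - 1 = ζ⁻¹ * (1 - ζ) := by
      field_simp
    rw [e2, mul_pow, inv_pow]
    have h5 : ζ ^ (q - 1) ≠ 0 := pow_ne_zero _ hζ0
    calc (ζ ^ (q - 1))⁻¹ * (1 - ζ) ^ (q - 1) * ((q : ℕ) : K)⁻¹ *
          (ζ ^ (q - 1) * ∏ k ∈ Finset.range (q - 1), ∑ i ∈ Finset.range (k + 1), ζ ^ i)
        = ((ζ ^ (q - 1))⁻¹ * ζ ^ (q - 1)) * ((q : ℕ) : K)⁻¹ * ((1 - ζ) ^ (q - 1) *
            ∏ k ∈ Finset.range (q - 1), ∑ i ∈ Finset.range (k + 1), ζ ^ i) := by ring
      _ = 1 := by rw [hprod2, inv_mul_cancel₀ h5, one_mul, inv_mul_cancel₀ hq0]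
  have key : XA * (ζA ^ (q - 1) * ∏ k ∈ Finset.range (q - 1),
      ∑ i ∈ Finset.range (k + 1), ζA ^ i) = 1 := by
    apply Subtype.ext
    push_cast
    exact keyK
  have hres := congrArg (IsLocalRing.residue A) key
  rw [map_mul, map_mul, map_pow, hζres, one_pow, one_mul, map_prod, map_one] at hres
  have hterm : ∀ k ∈ Finset.range (q - 1),
      IsLocalRing.residue A (∑ i ∈ Finset.range (k + 1), ζA ^ i)
        = ((k + 1 : ℕ) : IsLocalRing.ResidueField A) := by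
    intro k _
    rw [map_sum]
    simp only [map_pow, hζres, one_pow, Finset.sum_const, Finset.card_range, nsmul_eq_mul,
      mul_one]
  rw [Finset.prod_congr rfl hterm, ← Nat.cast_prod, Finset.prod_range_add_one_eq_factorial]
    at hres
  have hw : (((q - 1).factorial : ℕ) : IsLocalRing.ResidueField A) = -1 := by
    have hdvd : q ∣ (q - 1).factorial + 1 := by
      rw [← ZMod.natCast_eq_zero_iff]
      push_cast
      rw [ZMod.wilsons_lemma]
      ring
    have h6 := (CharP.cast_eq_zero_iff (IsLocalRing.ResidueField A) q _).mpr hdvd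
    push_cast at h6
    exact eq_neg_of_add_eq_zero_left h6
  rw [hw] at hres
  have hfin : IsLocalRing.residue A (XA + 1) = 0 := by
    rw [map_add, map_one]
    linear_combination -hres
  have := s36cs_nonunits_of_res A (XA + 1) hfin
  simpa [hXA] using this

theorem s36cs_neg_one_pow (k : Type*) [Field k] (q : ℕ) [hq : Fact q.Prime] [CharP k q] :
    (-1 : k) ^ (q - 1) = 1 := by
  rcases hq.out.eq_two_or_odd' with h2 | hodd
  · subst h2
    have : CharP k 2 := inferInstance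
    rw [show (2 : ℕ) - 1 = 1 from rfl, pow_one]
    exact CharTwo.neg_eq 1
  · have hev : Even (q - 1) := by
      obtain ⟨m, hm⟩ := hodd
      exact ⟨m, by omega⟩
    exact hev.neg_one_pow

/-- **the residue of `(F(ζ t) - F(t))^(q-1) / q`** is `- (θ Z̄)^(q-1)` -/
theorem s36cs_pow (A : ValuationSubring K) (q : ℕ) [hq : Fact q.Prime]
    (hqA : ((q : ℕ) : K) ∈ A.nonunits) (ζ : K) (hζ : IsPrimitiveRoot ζ q) (hζ0 : ζ ≠ 0)
    (Z : LaurentSeries ℤ) (hZ : Hp4Lead Z (-1)) :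
    ∃ hmem : (ccjTwist ζ hζ0 (coeffMap (Int.castRingHom K) Z) - coeffMap (Int.castRingHom K) Z)
        ^ (q - 1) * algebraMap K (LaurentSeries K) ((q : ℕ) : K)⁻¹ ∈ grV A,
      grRho A ⟨_, hmem⟩ =
        - thdTheta (IsLocalRing.ResidueField A)
          (coeffMap (Int.castRingHom (IsLocalRing.ResidueField A)) Z) ^ (q - 1) := by
  have hpow : ζ ^ q = 1 := hζ.pow_eq_one
  have hζA : ζ ∈ A := s36tw_root_mem A ζ q hq.out.ne_zero hpow
  have h1 : ζ - 1 ∈ A.nonunits := s36tw_root_sub_one A q hqA ζ hpow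
  have hζ1 : ζ ≠ 1 := hζ.ne_one hq.out.one_lt
  obtain ⟨hX, -⟩ := s36tw_cyc_unit A q hqA ζ hζ
  have : CharP (IsLocalRing.ResidueField A) q := s36cs_charP A q hqA
  obtain ⟨u, hu, hsub, hres⟩ := s36cs_sub A ζ hζ0 hζA hζ1 h1 Z hZ
  set XA : A := ⟨(ζ⁻¹ - 1) ^ (q - 1) * ((q : ℕ) : K)⁻¹, hX⟩ with hXA
  have hXres : IsLocalRing.residue A XA = -1 := by
    have h2 := s36cs_res_eq A XA (-1) (by
      have := s36cs_cyc A q hqA ζ hζ
      simpa [hXA, sub_neg_eq_add] using this)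
    rwa [map_neg, map_one] at h2
  have e : (ccjTwist ζ hζ0 (coeffMap (Int.castRingHom K) Z) - coeffMap (Int.castRingHom K) Z)
        ^ (q - 1) * algebraMap K (LaurentSeries K) ((q : ℕ) : K)⁻¹
      = algebraMap K (LaurentSeries K) ((XA : A) : K) * u ^ (q - 1) := by
    rw [hsub, mul_pow, ← map_pow, hXA]
    show _ = algebraMap K (LaurentSeries K) ((ζ⁻¹ - 1) ^ (q - 1) * ((q : ℕ) : K)⁻¹) * u ^ (q - 1)
    rw [map_mul]
    ring
  have hmem : (ccjTwist ζ hζ0 (coeffMap (Int.castRingHom K) Z) - coeffMap (Int.castRingHom K) Z)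
        ^ (q - 1) * algebraMap K (LaurentSeries K) ((q : ℕ) : K)⁻¹ ∈ grV A := by
    rw [e]
    exact (grV A).mul_mem (gr_algebraMap_mem A XA) (pow_mem hu _)
  refine ⟨hmem, ?_⟩
  have e2 : (⟨_, hmem⟩ : grV A) =
      ⟨algebraMap K (LaurentSeries K) ((XA : A) : K), gr_algebraMap_mem A XA⟩ * ⟨u, hu⟩ ^ (q - 1) :=
    Subtype.ext e
  rw [e2, map_mul, map_pow, grRho_algebraMap, hres, hXres, neg_pow, map_neg, map_one,
    ← map_one (algebraMap (IsLocalRing.ResidueField A)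
      (LaurentSeries (IsLocalRing.ResidueField A))), ← map_neg, ← map_pow,
    s36cs_neg_one_pow (IsLocalRing.ResidueField A) q, map_neg, map_one]
  ring

/-- a series `N` with `N · (θ F)(t^q) = θ F` lies in the Gauss ring; its residue `n` satisfies
`n · (θ Z̄)^q = θ Z̄` -/
theorem s36cs_nu (A : ValuationSubring K) (q : ℕ) [hq : Fact q.Prime]
    (hqA : ((q : ℕ) : K) ∈ A.nonunits) (Z : LaurentSeries ℤ) (hZ : Hp4Lead Z (-1))
    (N : LaurentSeries K)
    (hN : N * qExpand K q (thdTheta K (coeffMap (Int.castRingHom K) Z)) =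
      thdTheta K (coeffMap (Int.castRingHom K) Z)) :
    ∃ hmem : N ∈ grV A,
      grRho A ⟨N, hmem⟩ * thdTheta (IsLocalRing.ResidueField A)
          (coeffMap (Int.castRingHom (IsLocalRing.ResidueField A)) Z) ^ q =
        thdTheta (IsLocalRing.ResidueField A)
          (coeffMap (Int.castRingHom (IsLocalRing.ResidueField A)) Z) := by
  have : CharP (IsLocalRing.ResidueField A) q := s36cs_charP A q hqA
  set k := IsLocalRing.ResidueField A with hk
  set a : LaurentSeries A := coeffMap (Int.castRingHom A) (thdTheta ℤ Z) with ha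
  set b : LaurentSeries A := coeffMap (Int.castRingHom A) (qExpand ℤ q (thdTheta ℤ Z)) with hb
  have hcomp : A.subtype.comp (Int.castRingHom A) = Int.castRingHom K := RingHom.ext_int _ _
  have hcompk : (IsLocalRing.residue A).comp (Int.castRingHom A) = Int.castRingHom k :=
    RingHom.ext_int _ _
  have ea : coeffMap A.subtype a = thdTheta K (coeffMap (Int.castRingHom K) Z) := by
    rw [ha, coeffMap_coeffMap, hcomp, thdTheta_coeffMap]
  have eb : coeffMap A.subtype b = qExpand K q (thdTheta K (coeffMap (Int.castRingHom K) Z)) := by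
    rw [hb, coeffMap_coeffMap, hcomp, coeffMap_qExpand, thdTheta_coeffMap]
  have eak : coeffMap (IsLocalRing.residue A) a = thdTheta k (coeffMap (Int.castRingHom k) Z) := by
    rw [ha, coeffMap_coeffMap, hcompk, thdTheta_coeffMap]
  have hθ : thdTheta k (coeffMap (Int.castRingHom k) Z) ≠ 0 := by
    intro h0
    have h3 := congrArg (fun s => HahnSeries.coeff s (-1)) h0
    simp only [thdTheta_coeff, coeffMap_coeff, HahnSeries.coeff_zero] at h3
    rw [hZ.coeff_self] at h3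
    simp at h3
  have ebk : coeffMap (IsLocalRing.residue A) b =
      thdTheta k (coeffMap (Int.castRingHom k) Z) ^ q := by
    rw [hb, coeffMap_coeffMap, hcompk, coeffMap_qExpand, thdTheta_coeffMap,
      Fermat.Agent.S37.tvf_pow_char q]
    congr 1
    ext n
    rw [coeffMap_coeff, thdTheta_coeff, coeffMap_coeff, frobenius_def, mul_pow]
    have e1 : ((n : k)) ^ q = (n : k) := thd_intCast_pow q n
    have e2 : ((Int.castRingHom k) (Z.coeff n)) ^ q = (Int.castRingHom k) (Z.coeff n) :=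
      thd_intCast_pow q (Z.coeff n)
    rw [e1]
    exact congrArg _ e2.symm
  have hb0 : coeffMap (IsLocalRing.residue A) b ≠ 0 := by
    rw [ebk]
    exact pow_ne_zero _ hθ
  have hmem : N ∈ grV A := ⟨a, b, hb0, by rw [ea, eb, hN]⟩
  refine ⟨hmem, ?_⟩
  have h4 := grRho_spec A ⟨N, hmem⟩ a b hb0 (by rw [ea, eb]; exact hN)
  rw [ebk, eak] at h4
  exact h4

/-- **the congruence**: `(F(ζ t) - F(t))^(q-1) / q · N + 1` has residue `0` -/
theorem s36cs_main (A : ValuationSubring K) (q : ℕ) [hq : Fact q.Prime]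
    (hqA : ((q : ℕ) : K) ∈ A.nonunits) (ζ : K) (hζ : IsPrimitiveRoot ζ q) (hζ0 : ζ ≠ 0)
    (Z : LaurentSeries ℤ) (hZ : Hp4Lead Z (-1)) (N : LaurentSeries K)
    (hN : N * qExpand K q (thdTheta K (coeffMap (Int.castRingHom K) Z)) =
      thdTheta K (coeffMap (Int.castRingHom K) Z)) :
    ∃ hmem : (ccjTwist ζ hζ0 (coeffMap (Int.castRingHom K) Z) - coeffMap (Int.castRingHom K) Z)
        ^ (q - 1) * algebraMap K (LaurentSeries K) ((q : ℕ) : K)⁻¹ * N + 1 ∈ grV A,
      grRho A ⟨_, hmem⟩ = 0 := by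
  have : CharP (IsLocalRing.ResidueField A) q := s36cs_charP A q hqA
  obtain ⟨h1, hr1⟩ := s36cs_pow A q hqA ζ hζ hζ0 Z hZ
  obtain ⟨h2, hr2⟩ := s36cs_nu A q hqA Z hZ N hN
  have hmem : (ccjTwist ζ hζ0 (coeffMap (Int.castRingHom K) Z) - coeffMap (Int.castRingHom K) Z)
        ^ (q - 1) * algebraMap K (LaurentSeries K) ((q : ℕ) : K)⁻¹ * N + 1 ∈ grV A :=
    (grV A).add_mem ((grV A).mul_mem h1 h2) (grV A).one_mem
  refine ⟨hmem, ?_⟩
  have e : (⟨_, hmem⟩ : grV A) = ⟨_, h1⟩ * ⟨N, h2⟩ + 1 := Subtype.ext rfl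
  rw [e, map_add, map_mul, map_one, hr1]
  set θ := thdTheta (IsLocalRing.ResidueField A)
    (coeffMap (Int.castRingHom (IsLocalRing.ResidueField A)) Z) with hθdef
  have hθ : θ ≠ 0 := by
    intro h0
    have h3 := congrArg (fun s => HahnSeries.coeff s (-1)) h0
    simp only [hθdef, thdTheta_coeff, coeffMap_coeff, HahnSeries.coeff_zero] at h3
    rw [hZ.coeff_self] at h3
    simp at h3
  have hq1 : q - 1 + 1 = q := Nat.succ_pred_eq_of_pos hq.out.pos
  have h5 : θ ^ (q - 1) * grRho A ⟨N, h2⟩ = 1 := by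
    apply mul_right_cancel₀ hθ
    have h6 : θ ^ (q - 1) * grRho A ⟨N, h2⟩ * θ = (grRho A ⟨N, h2⟩ * θ ^ q) := by
      conv_rhs => rw [← hq1, pow_succ]
      ring
    rw [h6, hr2, one_mul]
  linear_combination -h5

end Ser

end Fermat.Agent.S36
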