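import Fermat.Agent.S36.Tors36
import Fermat.Agent.S35.NewIota
import Fermat.Agent.S34.Val2Deg
import Fermat.Agent.S18.Haupt9Rec

/-!
# S36, [CORE-TOP]: the torsion statement CORE36 of the front end from the class form

`s36ct_core_of_kum`: the hypothesis `hCORE` of `s36f_main` (for a newform `g` of level `M` and
every prime `q ≠ λ` with `q² ∥ M`: a place `A` over `q`, a Hecke polynomial `P` with
`χ_g(P(T)) ≠ 0` and `c ≠ 0` with `c • P(T) y = 0` for every inertia-fixed `λ`-power torsion class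
`y` of `J₀(M)`) from the class form of the geometric core at the auxiliary level `a^k L q²`
(`hKUM`) and the two norm squares of the level inclusion (`hSQ`).

Assembly: `M = L q q` with `q ∤ L` (from `M.factorization q = 2`), `a ^ k ∈ {4, 9}` prime to `q`
(`hp9_exists_hauptRec`), `s36tm_abs`, `nwi_iota_ne_zero_iff`.

Names are prefixed `s36ct_`.
-/

set_option autoImplicit false

open AlgebraicCurve ModularCurve CongruenceSubgroup CuspForm

namespace Fermat.Agent.S36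

open Fermat.Agent.S31 Fermat.Agent.S35 Fermat.Agent.S37

local notation "Qb" => AlgebraicClosure ℚ

/-- `M.factorization q = 2` means `M = L q q` with `q ∤ L`. -/
theorem s36ct_level (M q : ℕ) (hM : M ≠ 0) (hq : q.Prime) (h2 : M.factorization q = 2) :
    ∃ L : ℕ, M = L * q * q ∧ ¬ q ∣ L ∧ L ≠ 0 := by
  have h1 : q ^ 2 ∣ M := (hq.pow_dvd_iff_le_factorization hM).mpr h2.ge
  have h3 : ¬ q ^ 3 ∣ M := fun h => by
    have := (hq.pow_dvd_iff_le_factorization hM).mp h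
    omega
  obtain ⟨L, hL⟩ := h1
  refine ⟨L, by rw [hL]; ring, ?_, ?_⟩
  · rintro ⟨r, rfl⟩
    exact h3 ⟨r, by rw [hL]; ring⟩
  · rintro rfl
    exact hM (by rw [hL, mul_zero])

/-- **CORE-TOP, abstract in the class form.** -/
theorem s36ct_core_of_kum
    {M : ℕ} [NeZero M] {g : CuspForm (CongruenceSubgroup.Gamma0 M) 2} (hg : g.IsNewform)
    (lam : ℕ) [Fact lam.Prime] (S : Finset ℕ)
    (O' : Type) [CommRing O'] [IsDomain O'] [CharZero O']
    (chig : CuspForm.heckeAlgebra M 2 (↑S : Set ℕ) →+* ℂ)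
    (hchig : ∀ (ℓ : ℕ) (hℓ : ℓ.Prime) (hℓM : ¬ ℓ ∣ M) (hℓS : ℓ ∉ (↑S : Set ℕ)),
      chig (CuspForm.heckeAlgebra.T hℓ hℓM hℓS) = ModularFormClass.qCoeff g ℓ)
    (iota : chig.range →+* O') (hlamS : lam ∈ S) (hMS : ∀ q : ℕ, q.Prime → q ∣ M → q ∈ S)
    (hSQ : ∀ (L q a k : ℕ) [NeZero (L * q)] [NeZero (a ^ k * L * q)] [NeZero q], q.Prime →
      ¬ q ∣ a ^ k * L → ∀ (h1 : L * q ∣ a ^ k * L * q) (h2 : L * q * q ∣ a ^ k * L * q * q),
      (∀ f : ↥(modularFunctionFieldBar (L * q * q)),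
        hkdNorm (a ^ k * L * q) q (lvlIncl (L * q * q) (a ^ k * L * q * q) h2 f)
          = lvlIncl (L * q) (a ^ k * L * q) h1 (hkdNorm (L * q) q f)) ∧
      (∀ f : ↥(modularFunctionFieldBar (L * q * q)),
        hkdNormBeta (a ^ k * L * q) q (lvlIncl (L * q * q) (a ^ k * L * q * q) h2 f)
          = lvlIncl (L * q) (a ^ k * L * q) h1 (hkdNormBeta (L * q) q f)))
    (hKUM : ∀ (L q a k : ℕ) [NeZero (a ^ k * L * q)] [NeZero q], q.Prime → q ≠ lam → ¬ q ∣ L →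
      L ≠ 0 → a.Prime → Nonempty (Fermat.Agent.S18.HauptRec (a ^ k) q) →
      ∃ A : ValuationSubring Qb, A.LiesOverPrime q ∧ ∃ c : ℕ, c ≠ 0 ∧
        ∀ (n : ℕ) (y : JZero (a ^ k * L * q * q)), lam ^ n • y = 0 →
          (∀ σ ∈ A.inertiaSubgroupIn ℚ, σ • y = y) → s35pAlpha (a ^ k * L * q) q y = 0 →
          s35pBeta (a ^ k * L * q) q y = 0 → c • y = 0) :
    ∀ q : ℕ, q.Prime → q ≠ lam → M.factorization q = 2 →
      ∃ A : ValuationSubring Qb, A.LiesOverPrime q ∧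
        ∃ (P : FreeAlgebra ℤ (HresIdx M (↑S : Set ℕ))) (c : ℕ), c ≠ 0 ∧
          (iota.comp chig.rangeRestrict) (hresT M (↑S : Set ℕ) P) ≠ 0 ∧
          ∀ (n : ℕ) (y : JZero M), lam ^ n • y = 0 →
            (∀ σ ∈ A.inertiaSubgroupIn ℚ, σ • y = y) →
              c • hresJ (fun l : HresIdx M (↑S : Set ℕ) => heckeOperatorBar M ⟨l.1, l.2.1⟩) P y
                = 0 := by
  intro q hq hqlam hfac
  have hlam : lam.Prime := Fact.out
  obtain ⟨L, hL, hqL, hL0⟩ := s36ct_level M q (NeZero.ne M) hq hfac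
  subst hL
  have : Fact q.Prime := ⟨hq⟩
  have : NeZero L := ⟨hL0⟩
  have : NeZero q := ⟨hq.ne_zero⟩
  obtain ⟨a2, ha2, ⟨Hr⟩⟩ := Fermat.Agent.S18.hp9_exists_hauptRec q
  obtain ⟨a, k, haP, rfl⟩ : ∃ a k : ℕ, a.Prime ∧ a2 = a ^ k := by
    rcases ha2 with rfl | rfl
    · exact ⟨2, 2, Nat.prime_two, rfl⟩
    · exact ⟨3, 2, Nat.prime_three, rfl⟩
  have : NeZero (L * q) := ⟨Nat.mul_ne_zero hL0 hq.ne_zero⟩
  have : NeZero (a ^ k * L * q) :=
    ⟨Nat.mul_ne_zero (Nat.mul_ne_zero Hr.pos.ne' hL0) hq.ne_zero⟩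
  have hqaL : ¬ q ∣ a ^ k * L := fun h => (hq.dvd_mul.mp h).elim Hr.not_dvd hqL
  have h1 : L * q ∣ a ^ k * L * q := Nat.mul_dvd_mul_right (dvd_mul_left L (a ^ k)) q
  have h2 : L * q * q ∣ a ^ k * L * q * q := Nat.mul_dvd_mul_right h1 q
  obtain ⟨hsqα, hsqβ⟩ := hSQ L q a k hq hqaL h1 h2
  obtain ⟨A, hA, c, hc, hK⟩ := hKUM L q a k hq hqlam hqL hL0 haP ⟨Hr⟩
  obtain ⟨P, c', hc', hPχ, hP⟩ := s36tm_abs L q hq hg lam hlam S hlamS chig hchig hMS a k haP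
    h1 h2 hsqα hsqβ (A.inertiaSubgroupIn ℚ : Set (Qb ≃ₐ[ℚ] Qb)) c hc
    (fun n y hy hI hα hβ => hK n y hy hI hα hβ)
  exact ⟨A, hA, P, c', hc', (nwi_iota_ne_zero_iff chig iota _).mpr hPχ, hP⟩

end Fermat.Agent.S36
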