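import Mathlib

/-!
# S36, package [CUSPC-ABS]: the modular-polynomial certificate at cuspidal `W_c`-only points

Abstract algebra (Mathlib only).  `Φ ∈ ℤ[X][Y]` is a polynomial with

* `Φ` monic of degree `q + 1` in `Y`,
* Newton bound: the coefficient of `X ^ e Y ^ i` vanishes unless `e + q i ≤ q (q + 1)`,
* Kronecker: `Φ = (Y - X ^ q) (Y ^ q - X) + q Ψ`,

and `j0 j1 j2` are nonzero elements of a field `F` of characteristic zero with
`Φ(j0, j1) = 0 = Φ(j2, j1)` and `j0 ≠ j2`.  Let `Lam` be a subring of `F` containing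
`u = 1 / j0`, `s = j0 ^ q / j1` and `π = j0 / j2 - 1`, in which every
`1 + u x + q y + π z` is invertible.  Then `π ^ (q - 1) = q ε` with `ε` a unit of `Lam`
(`s36ca_main`); moreover `j0 / j2` is integral over `Lam` (`s36ca_integral`).
-/

set_option autoImplicit false

open Polynomial

namespace Fermat.Agent.S36

section Abs

variable {F : Type*} [Field F]

/-- the Newton bound on the support of a bivariate polynomial -/
def s36caBound (q : ℕ) (P : Polynomial (Polynomial ℤ)) : Prop :=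
  ∀ i e : ℕ, (P.coeff i).coeff e ≠ 0 → e + q * i ≤ q * (q + 1)

theorem s36ca_natDegree_lt (q : ℕ) (hq : 0 < q) (P : Polynomial (Polynomial ℤ))
    (hb : s36caBound q P) : P.natDegree < q + 2 := by
  have h : P.natDegree ≤ q + 1 := by
    rw [natDegree_le_iff_coeff_eq_zero]
    intro N hN
    by_contra hne
    obtain ⟨e, he⟩ : ∃ e, (P.coeff N).coeff e ≠ 0 := by
      by_contra hall
      push Not at hall
      exact hne (Polynomial.ext fun e => by rw [hall e, coeff_zero])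
    have h1 := hb N e he
    have h2 : q * N ≤ q * (q + 1) := le_trans (Nat.le_add_left _ _) h1
    have h3 := Nat.le_of_mul_le_mul_left h2 hq
    omega
  omega

theorem s36ca_natDegree_coeff_lt (q : ℕ) (P : Polynomial (Polynomial ℤ))
    (hb : s36caBound q P) (i : ℕ) : (P.coeff i).natDegree < q * (q + 1) + 1 := by
  have h : (P.coeff i).natDegree ≤ q * (q + 1) := by
    rw [natDegree_le_iff_coeff_eq_zero]
    intro N hN
    by_contra hne
    have h1 := hb i N hne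
    have h2 : N ≤ q * (q + 1) := le_trans (Nat.le_add_right _ _) h1
    omega
  omega

/-- the value `P(j0 Z, j1) / j1 ^ (q + 1)` as a polynomial expression in `u = 1 / j0`,
`s = j0 ^ q / j1` and `Z` -/
theorem s36ca_sum (q : ℕ) (hq : 0 < q) (P : Polynomial (Polynomial ℤ)) (hb : s36caBound q P)
    (j0 j1 : F) (hj0 : j0 ≠ 0) (hj1 : j1 ≠ 0) (Z : F) :
    P.eval₂ (Polynomial.aeval (j0 * Z) : Polynomial ℤ →ₐ[ℤ] F).toRingHom j1 * j1⁻¹ ^ (q + 1)
      = ∑ i ∈ Finset.range (q + 2), ∑ e ∈ Finset.range (q * (q + 1) + 1),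
          ((P.coeff i).coeff e : F) * (j0 ^ q * j1⁻¹) ^ (q + 1 - i)
            * j0⁻¹ ^ (q * (q + 1 - i) - e) * Z ^ e := by
  rw [eval₂_eq_sum_range' _ (s36ca_natDegree_lt q hq P hb), Finset.sum_mul]
  refine Finset.sum_congr rfl fun i _ => ?_
  show (Polynomial.aeval (j0 * Z)) (P.coeff i) * j1 ^ i * j1⁻¹ ^ (q + 1) = _
  rw [aeval_eq_sum_range' (s36ca_natDegree_coeff_lt q P hb i), Finset.sum_mul, Finset.sum_mul]
  refine Finset.sum_congr rfl fun e _ => ?_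
  by_cases hc : (P.coeff i).coeff e = 0
  · simp [hc]
  · have hbd := hb i e hc
    have hi' : i ≤ q + 1 := by
      have h2 : q * i ≤ q * (q + 1) := le_trans (Nat.le_add_left _ _) hbd
      exact Nat.le_of_mul_le_mul_left h2 hq
    obtain ⟨k, hk⟩ := Nat.exists_eq_add_of_le hi'
    have hk' : q + 1 - i = k := by omega
    have he' : e ≤ q * k := by
      have : q * (q + 1) = q * i + q * k := by rw [hk, Nat.mul_add]
      omega
    obtain ⟨m, hm⟩ := Nat.exists_eq_add_of_le he'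
    have hm' : q * k - e = m := by omega
    rw [hk', hm', hk, zsmul_eq_mul, mul_pow, mul_pow, ← pow_mul, hm, pow_add j1⁻¹ i k,
      pow_add j0 e m]
    have h1 : j1 ^ i * j1⁻¹ ^ i = 1 := by
      rw [← mul_pow, mul_inv_cancel₀ hj1, one_pow]
    have h2 : j0 ^ m * j0⁻¹ ^ m = 1 := by
      rw [← mul_pow, mul_inv_cancel₀ hj0, one_pow]
    calc ((P.coeff i).coeff e : F) * (j0 ^ e * Z ^ e) * j1 ^ i * (j1⁻¹ ^ i * j1⁻¹ ^ k)
        = ((P.coeff i).coeff e : F) * j0 ^ e * Z ^ e * (j1 ^ i * j1⁻¹ ^ i) * j1⁻¹ ^ k := by ring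
      _ = ((P.coeff i).coeff e : F) * j0 ^ e * Z ^ e * j1⁻¹ ^ k := by rw [h1, mul_one]
      _ = ((P.coeff i).coeff e : F) * j0 ^ e * (j0 ^ m * j0⁻¹ ^ m) * j1⁻¹ ^ k * Z ^ e := by
          rw [h2]; ring
      _ = ((P.coeff i).coeff e : F) * (j0 ^ e * j0 ^ m * j1⁻¹ ^ k) * j0⁻¹ ^ m * Z ^ e := by ring

/-- membership: the value `P(j0 Z, j1) / j1 ^ (q + 1)` lies in every subring containing `u`, `s`
and `Z` -/
theorem s36ca_mem (q : ℕ) (hq : 0 < q) (P : Polynomial (Polynomial ℤ)) (hb : s36caBound q P)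
    (j0 j1 : F) (hj0 : j0 ≠ 0) (hj1 : j1 ≠ 0) (Lam : Subring F) (hu : j0⁻¹ ∈ Lam)
    (hs : j0 ^ q * j1⁻¹ ∈ Lam) (Z : F) (hZ : Z ∈ Lam) :
    P.eval₂ (Polynomial.aeval (j0 * Z) : Polynomial ℤ →ₐ[ℤ] F).toRingHom j1 * j1⁻¹ ^ (q + 1)
      ∈ Lam := by
  rw [s36ca_sum q hq P hb j0 j1 hj0 hj1 Z]
  refine Subring.sum_mem _ fun i _ => Subring.sum_mem _ fun e _ => ?_
  exact Lam.mul_mem (Lam.mul_mem (Lam.mul_mem (intCast_mem Lam _) (Lam.pow_mem hs _))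
    (Lam.pow_mem hu _)) (Lam.pow_mem hZ _)

theorem s36ca_pow_sub_one (Lam : Subring F) (p : F) (hp : p ∈ Lam) (e : ℕ) :
    ∃ m ∈ Lam, (1 + p) ^ e - 1 = p * ((e : F) + p * m) := by
  induction e with
  | zero => exact ⟨0, Lam.zero_mem, by simp⟩
  | succ e ih =>
    obtain ⟨m, hm, h⟩ := ih
    refine ⟨m + (e : F) + p * m,
      Lam.add_mem (Lam.add_mem hm (natCast_mem Lam e)) (Lam.mul_mem hp hm), ?_⟩
    have h' : (1 + p) ^ e = 1 + p * ((e : F) + p * m) := by rw [← h]; ring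
    rw [pow_succ, h']
    push_cast
    ring

theorem s36ca_aeval_mem (Lam : Subring F) (p : F) (hp : p ∈ Lam) (B : Polynomial ℤ) :
    Polynomial.aeval p B ∈ Lam := by
  rw [aeval_eq_sum_range]
  exact Subring.sum_mem _ fun i _ => zsmul_mem (Lam.pow_mem hp i) _

/-- the difference `𝒢_P(1 + p) - 𝒢_P(1)` is `p (u x + q y + p z)` -/
theorem s36ca_diff (q : ℕ) (hq : 0 < q) (P : Polynomial (Polynomial ℤ)) (hb : s36caBound q P)
    (j0 j1 : F) (hj0 : j0 ≠ 0) (hj1 : j1 ≠ 0) (Lam : Subring F) (hu : j0⁻¹ ∈ Lam)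
    (hs : j0 ^ q * j1⁻¹ ∈ Lam) (p : F) (hp : p ∈ Lam) :
    ∃ x ∈ Lam, ∃ y ∈ Lam, ∃ z ∈ Lam,
      P.eval₂ (Polynomial.aeval (j0 * (1 + p)) : Polynomial ℤ →ₐ[ℤ] F).toRingHom j1
            * j1⁻¹ ^ (q + 1)
          - P.eval₂ (Polynomial.aeval (j0 * 1) : Polynomial ℤ →ₐ[ℤ] F).toRingHom j1
            * j1⁻¹ ^ (q + 1)
        = p * (j0⁻¹ * x + (q : F) * y + p * z) := by
  rw [s36ca_sum q hq P hb j0 j1 hj0 hj1 (1 + p), s36ca_sum q hq P hb j0 j1 hj0 hj1 1,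
    ← Finset.sum_sub_distrib]
  have key : ∀ (s : Finset ℕ) (f : ℕ → F),
      (∀ a ∈ s, ∃ x ∈ Lam, ∃ y ∈ Lam, ∃ z ∈ Lam,
        f a = p * (j0⁻¹ * x + (q : F) * y + p * z)) →
      ∃ x ∈ Lam, ∃ y ∈ Lam, ∃ z ∈ Lam,
        ∑ a ∈ s, f a = p * (j0⁻¹ * x + (q : F) * y + p * z) := by
    intro s f hf
    classical
    induction s using Finset.induction_on with
    | empty => exact ⟨0, Lam.zero_mem, 0, Lam.zero_mem, 0, Lam.zero_mem, by simp⟩
    | insert a s ha ih =>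
      obtain ⟨x1, hx1, y1, hy1, z1, hz1, h1⟩ := hf a (Finset.mem_insert_self a s)
      obtain ⟨x2, hx2, y2, hy2, z2, hz2, h2⟩ :=
        ih (fun b hb => hf b (Finset.mem_insert_of_mem hb))
      exact ⟨x1 + x2, Lam.add_mem hx1 hx2, y1 + y2, Lam.add_mem hy1 hy2, z1 + z2,
        Lam.add_mem hz1 hz2, by rw [Finset.sum_insert ha, h1, h2]; ring⟩
  apply key
  intro i _
  rw [← Finset.sum_sub_distrib]
  apply key
  intro e _
  obtain ⟨m, hm, hme⟩ := s36ca_pow_sub_one Lam p hp e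
  by_cases hc : (P.coeff i).coeff e = 0
  · exact ⟨0, Lam.zero_mem, 0, Lam.zero_mem, 0, Lam.zero_mem, by simp [hc]⟩
  · have hbd := hb i e hc
    have hi' : i ≤ q + 1 := by
      have h2 : q * i ≤ q * (q + 1) := le_trans (Nat.le_add_left _ _) hbd
      exact Nat.le_of_mul_le_mul_left h2 hq
    have hsplit : q * (q + 1) = q * i + q * (q + 1 - i) := by
      rw [← Nat.mul_add]
      congr 1
      omega
    have hcS : ((P.coeff i).coeff e : F) * (j0 ^ q * j1⁻¹) ^ (q + 1 - i) ∈ Lam :=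
      Lam.mul_mem (intCast_mem Lam _) (Lam.pow_mem hs _)
    have hdiff : ((P.coeff i).coeff e : F) * (j0 ^ q * j1⁻¹) ^ (q + 1 - i)
          * j0⁻¹ ^ (q * (q + 1 - i) - e) * (1 + p) ^ e
        - ((P.coeff i).coeff e : F) * (j0 ^ q * j1⁻¹) ^ (q + 1 - i)
          * j0⁻¹ ^ (q * (q + 1 - i) - e) * 1 ^ e
        = ((P.coeff i).coeff e : F) * (j0 ^ q * j1⁻¹) ^ (q + 1 - i)
          * j0⁻¹ ^ (q * (q + 1 - i) - e) * (p * ((e : F) + p * m)) := by
      rw [← hme]; ring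
    rw [hdiff]
    by_cases hb0 : q * (q + 1 - i) - e = 0
    · have he : e = q * (q + 1 - i) := by omega
      refine ⟨0, Lam.zero_mem,
        ((P.coeff i).coeff e : F) * (j0 ^ q * j1⁻¹) ^ (q + 1 - i) * ((q + 1 - i : ℕ) : F),
        Lam.mul_mem hcS (natCast_mem Lam _),
        ((P.coeff i).coeff e : F) * (j0 ^ q * j1⁻¹) ^ (q + 1 - i) * m, Lam.mul_mem hcS hm, ?_⟩
      rw [hb0, pow_zero]
      have he' : (e : F) = (q : F) * ((q + 1 - i : ℕ) : F) := by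
        conv_lhs => rw [he]
        push_cast
        ring
      rw [he']
      ring
    · obtain ⟨b', hb'⟩ := Nat.exists_eq_succ_of_ne_zero hb0
      refine ⟨((P.coeff i).coeff e : F) * (j0 ^ q * j1⁻¹) ^ (q + 1 - i) * j0⁻¹ ^ b' * (e : F),
        Lam.mul_mem (Lam.mul_mem hcS (Lam.pow_mem hu _)) (natCast_mem Lam _), 0, Lam.zero_mem,
        ((P.coeff i).coeff e : F) * (j0 ^ q * j1⁻¹) ^ (q + 1 - i)
          * j0⁻¹ ^ (q * (q + 1 - i) - e) * m,
        Lam.mul_mem (Lam.mul_mem hcS (Lam.pow_mem hu _)) hm, ?_⟩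
      rw [hb', pow_succ]
      ring

/-- the Kronecker polynomial `(Y - X ^ q) (Y ^ q - X)` satisfies the Newton bound -/
theorem s36ca_K_bound (q : ℕ) (hq : 2 ≤ q) :
    s36caBound q ((X - C (X ^ q)) * (X ^ q - C X) : Polynomial (Polynomial ℤ)) := by
  have hKe : ((X - C (X ^ q)) * (X ^ q - C X) : Polynomial (Polynomial ℤ))
      = X ^ (q + 1) - C X * X - C (X ^ q) * X ^ q + C (X ^ (q + 1)) := by
    rw [pow_succ (X : Polynomial ℤ) q, map_mul]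
    ring
  intro i e h
  rw [hKe] at h
  simp only [coeff_add, coeff_sub, coeff_X_pow, coeff_C_mul, coeff_X, coeff_C] at h
  by_contra hlt
  apply h
  have hqq : q * (q + 1) = q * q + q := Nat.mul_succ q q
  have hqq2 : 2 * q ≤ q * q := Nat.mul_le_mul_right q hq
  have h1 : (if i = q + 1 then (1 : Polynomial ℤ) else 0).coeff e = 0 := by
    split_ifs with hi
    · rw [coeff_one, if_neg]
      rintro rfl
      apply hlt
      rw [hi]
      omega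
    · rw [coeff_zero]
  have h2 : ((X : Polynomial ℤ) * if 1 = i then 1 else 0).coeff e = 0 := by
    split_ifs with hi
    · rw [mul_one, coeff_X, if_neg]
      rintro rfl
      apply hlt
      rw [← hi]
      omega
    · rw [mul_zero, coeff_zero]
  have h3 : ((X : Polynomial ℤ) ^ q * if i = q then 1 else 0).coeff e = 0 := by
    split_ifs with hi
    · rw [mul_one, coeff_X_pow, if_neg]
      rintro rfl
      apply hlt
      rw [hi]
      omega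
    · rw [mul_zero, coeff_zero]
  have h4 : (if i = 0 then (X : Polynomial ℤ) ^ (q + 1) else 0).coeff e = 0 := by
    split_ifs with hi
    · rw [coeff_X_pow, if_neg]
      rintro rfl
      apply hlt
      rw [hi]
      omega
    · rw [coeff_zero]
  rw [h1, h2, h3, h4]
  ring

theorem s36ca_binom (q : ℕ) (hq : q.Prime) :
    ∃ B : Polynomial ℤ,
      (1 + X : Polynomial ℤ) ^ q = 1 + X ^ q + C (q : ℤ) * X * (1 + X * B) := by
  obtain ⟨r, hr⟩ := exists_add_pow_prime_eq hq (1 : Polynomial ℤ) X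
  have h0 : r.coeff 0 = 1 := by
    have h1 := congrArg (fun p : Polynomial ℤ => p.coeff 1) hr
    simp only [coeff_one_add_X_pow, one_pow, coeff_add, mul_one] at h1
    have e1 : ((q : Polynomial ℤ) * X * r).coeff 1 = (q : ℤ) * r.coeff 0 := by
      rw [mul_assoc, coeff_natCast_mul, coeff_X_mul]
    have e2 : ((X : Polynomial ℤ) ^ q).coeff 1 = 0 := by
      rw [coeff_X_pow, if_neg hq.one_lt.ne]
    have e3 : (1 : Polynomial ℤ).coeff 1 = 0 := by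
      rw [coeff_one, if_neg one_ne_zero]
    rw [e1, e2, e3, Nat.choose_one_right] at h1
    have hq0 : (q : ℤ) ≠ 0 := Int.natCast_ne_zero.mpr hq.ne_zero
    have h2 : (q : ℤ) * r.coeff 0 = (q : ℤ) * 1 := by linarith
    exact mul_left_cancel₀ hq0 h2
  refine ⟨r.divX, ?_⟩
  have hr' : r = 1 + X * r.divX := by
    conv_lhs => rw [← divX_mul_X_add r, h0]
    rw [map_one]
    ring
  rw [hr, one_pow, mul_one, ← hr']
  simp

/-- the algebraic core -/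
theorem s36ca_core (Lam : Subring F) (q : ℕ)
    (u s w' p π a0 b0 x y z P1 Bp : F)
    (hu : u ∈ Lam) (hs : s ∈ Lam) (hw' : w' ∈ Lam) (hp : p ∈ Lam) (ha0 : a0 ∈ Lam)
    (hx : x ∈ Lam) (hy : y ∈ Lam) (hz : z ∈ Lam) (hBp : Bp ∈ Lam)
    (hpπ : p = -(π * (1 + p))) (hp0 : p ≠ 0)
    (hE1 : (1 - s) * (1 - u * w') + (q : F) * a0 = 0)
    (hE2 : (1 - s * (1 + p) ^ q) * (1 - u * w' * (1 + p)) + (q : F) * b0 = 0)
    (hD : b0 - a0 = p * (u * x + (q : F) * y + p * z))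
    (hB : (1 + p) ^ q = 1 + p * P1 + (q : F) * p * (1 + p * Bp))
    (hunit : ∀ x ∈ Lam, ∀ y ∈ Lam, ∀ z ∈ Lam,
      1 + u * x + (q : F) * y + π * z ≠ 0 ∧ (1 + u * x + (q : F) * y + π * z)⁻¹ ∈ Lam) :
    ∃ ε ∈ Lam, ε⁻¹ ∈ Lam ∧ P1 = (q : F) * ε := by
  have hZ : (1 + p) ∈ Lam := Lam.add_mem Lam.one_mem hp
  have hqL : (q : F) ∈ Lam := natCast_mem Lam q
  -- the three units
  have hC : 1 - u * w' * (1 + p) ∈ Lam :=
    Lam.sub_mem Lam.one_mem (Lam.mul_mem (Lam.mul_mem hu hw') hZ)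
  have hW : 1 - u * w' ∈ Lam := Lam.sub_mem Lam.one_mem (Lam.mul_mem hu hw')
  have hr : 1 + p * Bp ∈ Lam := Lam.add_mem Lam.one_mem (Lam.mul_mem hp hBp)
  obtain ⟨hC0, hCi⟩ := hunit (-(w' * (1 + p))) (Lam.neg_mem (Lam.mul_mem hw' hZ)) 0 Lam.zero_mem
    0 Lam.zero_mem
  have eC : 1 + u * (-(w' * (1 + p))) + (q : F) * 0 + π * 0 = 1 - u * w' * (1 + p) := by ring
  rw [eC] at hC0 hCi
  obtain ⟨hS0, hSi⟩ := hunit (-w') (Lam.neg_mem hw') a0 ha0 0 Lam.zero_mem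
  have eS : 1 + u * (-w') + (q : F) * a0 + π * 0 = s * (1 - u * w') := by
    linear_combination hE1
  rw [eS] at hS0 hSi
  -- the key identity
  have hE2' : (1 - s * (1 + p * P1 + (q : F) * p * (1 + p * Bp))) * (1 - u * w' * (1 + p))
      + (q : F) * (a0 + p * (u * x + (q : F) * y + p * z)) = 0 := by
    have hb0 : b0 = a0 + p * (u * x + (q : F) * y + p * z) := by linear_combination hD
    rw [← hB, ← hb0]
    exact hE2
  set N : F := a0 * (u * w') - (s * (1 + p * Bp) * (1 - u * w' * (1 + p))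
      - (u * x + (q : F) * y + p * z)) * (1 - u * w') with hN
  have key : s * P1 * (1 - u * w' * (1 + p)) * (1 - u * w') * p = (q : F) * N * p := by
    rw [hN]
    linear_combination (1 - u * w' - u * w' * p) * hE1 - (1 - u * w') * hE2'
  have key' : s * P1 * (1 - u * w' * (1 + p)) * (1 - u * w') = (q : F) * N :=
    mul_right_cancel₀ hp0 key
  -- `-N` is a unit
  have hNm : N ∈ Lam := by
    rw [hN]
    exact Lam.sub_mem (Lam.mul_mem ha0 (Lam.mul_mem hu hw'))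
      (Lam.mul_mem (Lam.sub_mem (Lam.mul_mem (Lam.mul_mem hs hr) hC)
        (Lam.add_mem (Lam.add_mem (Lam.mul_mem hu hx) (Lam.mul_mem hqL hy)) (Lam.mul_mem hp hz)))
        hW)
  obtain ⟨hN0, hNi⟩ := hunit
    (-(w' * (1 + p)) - w' * (1 + p * Bp) * (1 - u * w' * (1 + p)) - x * (1 - u * w') - a0 * w')
    (Lam.sub_mem (Lam.sub_mem (Lam.sub_mem (Lam.neg_mem (Lam.mul_mem hw' hZ))
      (Lam.mul_mem (Lam.mul_mem hw' hr) hC)) (Lam.mul_mem hx hW)) (Lam.mul_mem ha0 hw'))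
    (a0 * (1 + p * Bp) * (1 - u * w' * (1 + p)) - y * (1 - u * w'))
    (Lam.sub_mem (Lam.mul_mem (Lam.mul_mem ha0 hr) hC) (Lam.mul_mem hy hW))
    (-((1 + p) * (Bp * (1 - u * w' * (1 + p)) - z * (1 - u * w'))))
    (Lam.neg_mem (Lam.mul_mem hZ (Lam.sub_mem (Lam.mul_mem hBp hC) (Lam.mul_mem hz hW))))
  have eN : 1 + u * (-(w' * (1 + p)) - w' * (1 + p * Bp) * (1 - u * w' * (1 + p))
        - x * (1 - u * w') - a0 * w')
      + (q : F) * (a0 * (1 + p * Bp) * (1 - u * w' * (1 + p)) - y * (1 - u * w'))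
      + π * (-((1 + p) * (Bp * (1 - u * w' * (1 + p)) - z * (1 - u * w')))) = -N := by
    rw [hN]
    linear_combination ((1 + p * Bp) * (1 - u * w' * (1 + p))) * hE1
      - (Bp * (1 - u * w' * (1 + p)) - z * (1 - u * w')) * hpπ
  rw [eN] at hN0 hNi
  have hN0' : N ≠ 0 := fun h => hN0 (by rw [h, neg_zero])
  have hNi' : N⁻¹ ∈ Lam := by
    have : N⁻¹ = -(-N)⁻¹ := by rw [inv_neg, neg_neg]
    rw [this]
    exact Lam.neg_mem hNi
  refine ⟨N * (s * (1 - u * w'))⁻¹ * (1 - u * w' * (1 + p))⁻¹,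
    Lam.mul_mem (Lam.mul_mem hNm hSi) hCi, ?_, ?_⟩
  · rw [mul_inv, mul_inv, inv_inv, inv_inv]
    exact Lam.mul_mem (Lam.mul_mem hNi' (Lam.mul_mem hs hW)) hC
  · have h1 : P1 * ((s * (1 - u * w')) * (1 - u * w' * (1 + p))) = (q : F) * N := by
      linear_combination key'
    symm
    calc (q : F) * (N * (s * (1 - u * w'))⁻¹ * (1 - u * w' * (1 + p))⁻¹)
        = ((q : F) * N) * ((s * (1 - u * w'))⁻¹ * (1 - u * w' * (1 + p))⁻¹) := by ring
      _ = P1 * ((s * (1 - u * w')) * (s * (1 - u * w'))⁻¹)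
            * ((1 - u * w' * (1 + p)) * (1 - u * w' * (1 + p))⁻¹) := by rw [← h1]; ring
      _ = P1 := by rw [mul_inv_cancel₀ hS0, mul_inv_cancel₀ hC0, mul_one, mul_one]

/-- **[CUSPC-ABS]**: the modular-polynomial certificate.  With `π = j0 / j2 - 1`:
`π ^ (q - 1) = q ε` with `ε` a unit of `Lam`. -/
theorem s36ca_main [CharZero F] (q : ℕ) (hq : q.Prime) (Φ Ψ : Polynomial (Polynomial ℤ))
    (hm : Φ.Monic) (hd : Φ.natDegree = q + 1)
    (hb : ∀ i e : ℕ, (Φ.coeff i).coeff e ≠ 0 → e + q * i ≤ q * (q + 1))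
    (hK : Φ = (X - C (X ^ q)) * (X ^ q - C X) + C (C (q : ℤ)) * Ψ)
    (j0 j1 j2 : F) (hj0 : j0 ≠ 0) (hj1 : j1 ≠ 0) (hj2 : j2 ≠ 0) (hne : j0 ≠ j2)
    (h01 : Φ.eval₂ (Polynomial.aeval j0 : Polynomial ℤ →ₐ[ℤ] F).toRingHom j1 = 0)
    (h21 : Φ.eval₂ (Polynomial.aeval j2 : Polynomial ℤ →ₐ[ℤ] F).toRingHom j1 = 0)
    (Lam : Subring F) (hu : j0⁻¹ ∈ Lam) (hs : j0 ^ q * j1⁻¹ ∈ Lam) (hπ : j0 * j2⁻¹ - 1 ∈ Lam)
    (hunit : ∀ x ∈ Lam, ∀ y ∈ Lam, ∀ z ∈ Lam,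
      (1 + j0⁻¹ * x + (q : F) * y + (j0 * j2⁻¹ - 1) * z)⁻¹ ∈ Lam) :
    ∃ ε ∈ Lam, ε⁻¹ ∈ Lam ∧ (j0 * j2⁻¹ - 1) ^ (q - 1) = (q : F) * ε := by
  have hq2 : 2 ≤ q := hq.two_le
  have hq0 : 0 < q := hq.pos
  have hqF : (q : F) ≠ 0 := Nat.cast_ne_zero.mpr hq.ne_zero
  have hqL : (q : F) ∈ Lam := natCast_mem Lam q
  have hπ0 : j0 * j2⁻¹ - 1 ≠ 0 := by
    intro h
    apply hne
    have h1 : j0 * j2⁻¹ = 1 := by linear_combination h
    calc j0 = j0 * j2⁻¹ * j2 := by rw [mul_assoc, inv_mul_cancel₀ hj2, mul_one]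
      _ = j2 := by rw [h1, one_mul]
  by_cases hdeg : ∃ x ∈ Lam, ∃ y ∈ Lam, ∃ z ∈ Lam,
      1 + j0⁻¹ * x + (q : F) * y + (j0 * j2⁻¹ - 1) * z = 0
  · -- degenerate case: `Lam` is a field
    obtain ⟨x, hx, y, hy, z, hz, h0⟩ := hdeg
    have hinv : ∀ d ∈ Lam, d⁻¹ ∈ Lam := by
      intro d hd'
      have h1d : 1 - d ∈ Lam := Lam.sub_mem Lam.one_mem hd'
      have h := hunit (x * (1 - d)) (Lam.mul_mem hx h1d) (y * (1 - d)) (Lam.mul_mem hy h1d)
        (z * (1 - d)) (Lam.mul_mem hz h1d)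
      have e : 1 + j0⁻¹ * (x * (1 - d)) + (q : F) * (y * (1 - d))
          + (j0 * j2⁻¹ - 1) * (z * (1 - d)) = d := by
        linear_combination (1 - d) * h0
      rwa [e] at h
    have hε : (j0 * j2⁻¹ - 1) ^ (q - 1) * (q : F)⁻¹ ∈ Lam :=
      Lam.mul_mem (Lam.pow_mem hπ _) (hinv _ hqL)
    refine ⟨(j0 * j2⁻¹ - 1) ^ (q - 1) * (q : F)⁻¹, hε, hinv _ hε, ?_⟩
    rw [mul_comm ((j0 * j2⁻¹ - 1) ^ (q - 1)), ← mul_assoc, mul_inv_cancel₀ hqF, one_mul]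
  · push Not at hdeg
    have hunit' : ∀ x ∈ Lam, ∀ y ∈ Lam, ∀ z ∈ Lam,
        1 + j0⁻¹ * x + (q : F) * y + (j0 * j2⁻¹ - 1) * z ≠ 0 ∧
          (1 + j0⁻¹ * x + (q : F) * y + (j0 * j2⁻¹ - 1) * z)⁻¹ ∈ Lam :=
      fun x hx y hy z hz => ⟨hdeg x hx y hy z hz, hunit x hx y hy z hz⟩
    have hZ0 : j2 * j0⁻¹ ∈ Lam := by
      have h := hunit 0 Lam.zero_mem 0 Lam.zero_mem 1 Lam.one_mem
      have e : (1 + j0⁻¹ * 0 + (q : F) * 0 + (j0 * j2⁻¹ - 1) * 1)⁻¹ = j2 * j0⁻¹ := by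
        rw [mul_zero, mul_zero, add_zero, add_zero, mul_one, add_sub_cancel, mul_inv, inv_inv,
          mul_comm]
      rwa [e] at h
    have hρ : j0 * j2⁻¹ ∈ Lam := by
      have : j0 * j2⁻¹ = (j0 * j2⁻¹ - 1) + 1 := by ring
      rw [this]
      exact Lam.add_mem hπ Lam.one_mem
    have hρZ : j0 * j2⁻¹ * (j2 * j0⁻¹) = 1 := by
      calc j0 * j2⁻¹ * (j2 * j0⁻¹) = j0 * (j2⁻¹ * j2) * j0⁻¹ := by ring
        _ = 1 := by rw [inv_mul_cancel₀ hj2, mul_one, mul_inv_cancel₀ hj0]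
    obtain ⟨p, hpdef⟩ : ∃ p : F, p = j2 * j0⁻¹ - 1 := ⟨_, rfl⟩
    have hp : p ∈ Lam := by rw [hpdef]; exact Lam.sub_mem hZ0 Lam.one_mem
    have hZ : j2 * j0⁻¹ = 1 + p := by rw [hpdef]; ring
    have hp0 : p ≠ 0 := by
      rw [hpdef]
      intro h
      apply hne
      have h1 : j2 * j0⁻¹ = 1 := by linear_combination h
      calc j0 = j2 * j0⁻¹ * j0 := by rw [h1, one_mul]
        _ = j2 := by rw [mul_assoc, inv_mul_cancel₀ hj0, mul_one]
    have hpπ : p = -((j0 * j2⁻¹ - 1) * (1 + p)) := by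
      rw [← hZ, hpdef]
      linear_combination hρZ
    have hj0Z : j0 * (1 + p) = j2 := by
      rw [← hZ, mul_comm j2, ← mul_assoc, mul_inv_cancel₀ hj0, one_mul]
    -- the bound for `Ψ`
    have hbΨ : s36caBound q Ψ := by
      intro i e h
      by_cases hΦ : (Φ.coeff i).coeff e = 0
      · have hKc : (((X - C (X ^ q)) * (X ^ q - C X) : Polynomial (Polynomial ℤ)).coeff i).coeff e
            ≠ 0 := by
          intro h0
          have hcoef := congrArg (fun P : Polynomial (Polynomial ℤ) => (P.coeff i).coeff e) hK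
          simp only [coeff_add, coeff_C_mul] at hcoef
          rw [hΦ, h0, zero_add] at hcoef
          have hq' : (q : ℤ) ≠ 0 := Int.natCast_ne_zero.mpr hq.ne_zero
          exact h ((mul_eq_zero.mp hcoef.symm).resolve_left hq')
        exact s36ca_K_bound q hq2 i e hKc
      · exact hb i e hΦ
    -- `w = j0 / j1 ^ q = u * w'`
    obtain ⟨n, hn⟩ : ∃ n, q * q = n + 2 := by
      have h4 : 2 * 2 ≤ q * q := Nat.mul_le_mul hq2 hq2
      exact ⟨q * q - 2, by omega⟩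
    have hw : j0 * j1⁻¹ ^ q = j0⁻¹ * ((j0 ^ q * j1⁻¹) ^ q * j0⁻¹ ^ n) := by
      have h2 : j0 ^ n * j0⁻¹ ^ n = 1 := by rw [← mul_pow, mul_inv_cancel₀ hj0, one_pow]
      rw [mul_pow, ← pow_mul, hn, pow_add, pow_two]
      calc j0 * j1⁻¹ ^ q = (j0⁻¹ * j0) * j0 * (j0 ^ n * j0⁻¹ ^ n) * j1⁻¹ ^ q := by
            rw [h2, inv_mul_cancel₀ hj0]; ring
        _ = j0⁻¹ * (j0 ^ n * (j0 * j0) * j1⁻¹ ^ q * j0⁻¹ ^ n) := by ring
    have hw' : (j0 ^ q * j1⁻¹) ^ q * j0⁻¹ ^ n ∈ Lam :=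
      Lam.mul_mem (Lam.pow_mem hs _) (Lam.pow_mem hu _)
    -- the Kronecker identity
    have hKr : ∀ Z : F,
        Φ.eval₂ (Polynomial.aeval (j0 * Z) : Polynomial ℤ →ₐ[ℤ] F).toRingHom j1 * j1⁻¹ ^ (q + 1)
          = (1 - j0 ^ q * j1⁻¹ * Z ^ q) * (1 - j0 * j1⁻¹ ^ q * Z)
            + (q : F) * (Ψ.eval₂ (Polynomial.aeval (j0 * Z) : Polynomial ℤ →ₐ[ℤ] F).toRingHom j1
              * j1⁻¹ ^ (q + 1)) := by
      intro Z
      conv_lhs => rw [hK]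
      simp only [eval₂_add, eval₂_mul, eval₂_sub, eval₂_X, eval₂_C, eval₂_pow,
        AlgHom.toRingHom_eq_coe, RingHom.coe_coe, aeval_X, map_pow, map_natCast,
        eval₂_natCast]
      have h1 : j1 * j1⁻¹ = 1 := mul_inv_cancel₀ hj1
      have h2 : j1 ^ q * j1⁻¹ ^ q = 1 := by rw [← mul_pow, h1, one_pow]
      rw [pow_succ, mul_pow]
      linear_combination (j1 ^ q * j1⁻¹ ^ q - j0 * Z * j1⁻¹ ^ q) * h1
        + (1 - j0 ^ q * Z ^ q * j1⁻¹) * h2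
    have ha0 := s36ca_mem q hq0 Ψ hbΨ j0 j1 hj0 hj1 Lam hu hs 1 Lam.one_mem
    have hE1 : (1 - j0 ^ q * j1⁻¹) * (1 - j0⁻¹ * ((j0 ^ q * j1⁻¹) ^ q * j0⁻¹ ^ n))
        + (q : F) * (Ψ.eval₂ (Polynomial.aeval (j0 * 1) : Polynomial ℤ →ₐ[ℤ] F).toRingHom j1
          * j1⁻¹ ^ (q + 1)) = 0 := by
      have h := hKr 1
      rw [one_pow, mul_one, mul_one, mul_one, h01, zero_mul, hw] at h
      rw [mul_one]
      exact h.symm
    have hE2 : (1 - j0 ^ q * j1⁻¹ * (1 + p) ^ q)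
          * (1 - j0⁻¹ * ((j0 ^ q * j1⁻¹) ^ q * j0⁻¹ ^ n) * (1 + p))
        + (q : F) * (Ψ.eval₂ (Polynomial.aeval (j0 * (1 + p)) : Polynomial ℤ →ₐ[ℤ] F).toRingHom
          j1 * j1⁻¹ ^ (q + 1)) = 0 := by
      have h := hKr (1 + p)
      rw [hj0Z, h21, zero_mul, hw] at h
      rw [hj0Z]
      exact h.symm
    obtain ⟨x, hx, y, hy, z, hz, hD⟩ := s36ca_diff q hq0 Ψ hbΨ j0 j1 hj0 hj1 Lam hu hs p hp
    obtain ⟨B, hB⟩ := s36ca_binom q hq
    obtain ⟨k, hk⟩ : ∃ k, q = k + 1 := ⟨q - 1, by omega⟩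
    have hBp : (1 + p) ^ q = 1 + p * p ^ (q - 1) + (q : F) * p * (1 + p * Polynomial.aeval p B) := by
      have h := congrArg (Polynomial.aeval p) hB
      simp only [map_pow, map_add, map_one, aeval_X, map_mul, map_natCast] at h
      rw [h]
      have : p ^ q = p * p ^ (q - 1) := by
        conv_lhs => rw [hk]
        rw [pow_succ', hk, Nat.add_sub_cancel]
      rw [this]
    obtain ⟨ε, hε, hεi, hεq⟩ := s36ca_core Lam q j0⁻¹ (j0 ^ q * j1⁻¹)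
      ((j0 ^ q * j1⁻¹) ^ q * j0⁻¹ ^ n) p (j0 * j2⁻¹ - 1) _ _ x y z (p ^ (q - 1))
      (Polynomial.aeval p B) hu hs hw' hp ha0 hx hy hz
      (s36ca_aeval_mem Lam p hp B) hpπ hp0 hE1 hE2 hD hBp hunit'
    -- back to `π = -ρ p`
    have hπp : j0 * j2⁻¹ - 1 = -(j0 * j2⁻¹) * p := by
      rw [hpdef]
      linear_combination hρZ
    have hρi : (-(j0 * j2⁻¹))⁻¹ ∈ Lam := by
      have : (-(j0 * j2⁻¹))⁻¹ = -(j2 * j0⁻¹) := by
        rw [inv_neg, mul_inv, inv_inv, mul_comm]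
      rw [this]
      exact Lam.neg_mem hZ0
    refine ⟨(-(j0 * j2⁻¹)) ^ (q - 1) * ε, Lam.mul_mem (Lam.pow_mem (Lam.neg_mem hρ) _) hε, ?_, ?_⟩
    · rw [mul_inv, ← inv_pow]
      exact Lam.mul_mem (Lam.pow_mem hρi _) hεi
    · rw [hπp, mul_pow, hεq]
      ring

end Abs

end Fermat.Agent.S36
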