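import Mathlib
import Fermat.Agent.S24.Degree
import Fermat.Agent.S37.FrobSeries

/-!
# S36 [PHI-KRON]: the Kronecker congruence for a modular polynomial

* `s36mk_abs` (Mathlib only): a polynomial `Φ ∈ k[X][Y]`, monic of `Y`-degree `q + 1`, with
  `Φ(X, X^q) = 0` and `Φ(X^q, X) = 0`, equals `(Y - X^q)(Y^q - X)`.
* `s36mk_main`: a polynomial `Φ ∈ ℤ[X][Y]`, monic of `Y`-degree `q + 1`, vanishing at
  `(j(t), j(t^q))` and at `(j(t^q), j(t))`, satisfies `Φ = (Y - X^q)(Y^q - X) + q Ψ`.
-/

set_option autoImplicit false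

open Polynomial

namespace Fermat.Agent.S36

/-- abstract Kronecker identity -/
theorem s36mk_abs {k : Type*} [Field k] (q : ℕ) (hq : 2 ≤ q) (Φ : Polynomial (Polynomial k))
    (hm : Φ.Monic) (hd : Φ.natDegree = q + 1)
    (h1 : Φ.eval (X ^ q) = 0)
    (h2 : (Φ.map (Polynomial.expand k q : Polynomial k →ₐ[k] Polynomial k).toRingHom).eval X
      = 0) :
    Φ = (X - C (X ^ q)) * (X ^ q - C X) := by
  classical
  have hq0 : 0 < q := by omega
  set e : Polynomial k →+* Polynomial k :=
    (Polynomial.expand k q : Polynomial k →ₐ[k] Polynomial k).toRingHom with he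
  have he_apply : ∀ f : Polynomial k, e f = Polynomial.expand k q f := fun f => rfl
  -- step 1: divide by `Y - X^q`
  obtain ⟨g, hg⟩ : (X - C (X ^ q : Polynomial k)) ∣ Φ := Polynomial.dvd_iff_isRoot.mpr h1
  have hXC : (X - C (X ^ q : Polynomial k)).Monic := Polynomial.monic_X_sub_C _
  have hgm : g.Monic := by
    rw [hg] at hm
    exact hXC.of_mul_monic_left hm
  have hgd : g.natDegree = q := by
    have := congrArg Polynomial.natDegree hg
    rw [hd, hXC.natDegree_mul hgm, Polynomial.natDegree_X_sub_C] at this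
    omega
  -- step 2: `g(X^q, X) = 0`
  have h3 : (g.map e).eval X = 0 := by
    rw [hg, Polynomial.map_mul, Polynomial.eval_mul] at h2
    have h4 : ((X - C (X ^ q : Polynomial k)).map e).eval X = X - X ^ (q * q) := by
      rw [Polynomial.map_sub, Polynomial.map_X, Polynomial.map_C, Polynomial.eval_sub,
        Polynomial.eval_X, Polynomial.eval_C, he_apply, map_pow, Polynomial.expand_X, ← pow_mul]
    rw [h4] at h2
    have h5 : (X - X ^ (q * q) : Polynomial k) ≠ 0 := by
      intro h
      have h6 := congrArg (fun p : Polynomial k => p.coeff 1) h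
      have hqq : ¬ (1 = q * q) := by nlinarith
      simp only [Polynomial.coeff_sub, Polynomial.coeff_X_one, Polynomial.coeff_X_pow,
        if_neg hqq, sub_zero, Polynomial.coeff_zero] at h6
      exact one_ne_zero h6
    exact (mul_eq_zero.mp h2).resolve_left h5
  -- step 3: the difference `h = g - (Y^q - X)`
  have hkm : (X ^ q - C (X : Polynomial k) : Polynomial (Polynomial k)).Monic :=
    Polynomial.monic_X_pow_sub_C _ (by omega)
  have hkd : (X ^ q - C (X : Polynomial k) : Polynomial (Polynomial k)).natDegree = q :=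
    Polynomial.natDegree_X_pow_sub_C
  have hk0 : ((X ^ q - C (X : Polynomial k) : Polynomial (Polynomial k)).map e).eval X = 0 := by
    rw [Polynomial.map_sub, Polynomial.map_pow, Polynomial.map_X, Polynomial.map_C,
      Polynomial.eval_sub, Polynomial.eval_pow, Polynomial.eval_X, Polynomial.eval_C, he_apply,
      Polynomial.expand_X, sub_self]
  set h : Polynomial (Polynomial k) := g - (X ^ q - C (X : Polynomial k)) with hh
  have hh0 : (h.map e).eval X = 0 := by
    rw [hh, Polynomial.map_sub, Polynomial.eval_sub, h3, hk0, sub_zero]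
  have hhigh : ∀ r : ℕ, q ≤ r → h.coeff r = 0 := by
    intro r hr
    rw [hh, Polynomial.coeff_sub]
    rcases Nat.lt_or_ge q r with hlt | hge
    · rw [Polynomial.coeff_eq_zero_of_natDegree_lt (by rw [hgd]; exact hlt),
        Polynomial.coeff_eq_zero_of_natDegree_lt (by rw [hkd]; exact hlt), sub_zero]
    · have hrq : r = q := le_antisymm hge hr
      have e1 : g.coeff r = 1 := by
        rw [hrq, ← hgd]; exact hgm.coeff_natDegree
      have e2 : (X ^ q - C (X : Polynomial k) : Polynomial (Polynomial k)).coeff r = 1 := by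
        rw [hrq]
        have := hkm.coeff_natDegree
        rwa [hkd] at this
      rw [e1, e2, sub_self]
  have hdeg : (h.map e).natDegree < q := by
    have h7 : h.natDegree ≤ q - 1 := by
      rw [Polynomial.natDegree_le_iff_coeff_eq_zero]
      intro N hN
      exact hhigh N (by omega)
    have h8 := Polynomial.natDegree_map_le (f := e) (p := h)
    omega
  have hsum : ∑ i ∈ Finset.range q, Polynomial.expand k q (h.coeff i) * X ^ i = 0 := by
    have h9 := Polynomial.eval_eq_sum_range' hdeg (X : Polynomial k)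
    rw [hh0] at h9
    rw [h9]
    refine Finset.sum_congr rfl (fun i _ => ?_)
    rw [Polynomial.coeff_map, he_apply]
  have hlow : ∀ r : ℕ, r < q → h.coeff r = 0 := by
    intro r hr
    ext m
    have h10 := congrArg (fun p : Polynomial k => p.coeff (q * m + r)) hsum
    simp only [Polynomial.finsetSum_coeff, Polynomial.coeff_zero] at h10
    rw [Finset.sum_eq_single r] at h10
    · rw [Polynomial.coeff_mul_X_pow', if_pos (Nat.le_add_left r (q * m)),
        Nat.add_sub_cancel, Polynomial.coeff_expand hq0, if_pos (dvd_mul_right q m),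
        Nat.mul_div_cancel_left m hq0] at h10
      rw [h10, Polynomial.coeff_zero]
    · intro i hi hir
      rw [Finset.mem_range] at hi
      rw [Polynomial.coeff_mul_X_pow']
      split_ifs with h11
      · rw [Polynomial.coeff_expand hq0]
        split_ifs with h12
        · exfalso
          obtain ⟨c, hc⟩ := h12
          have h13 : q * m + r = q * c + i := by omega
          have h14 : (q * m + r) % q = (q * c + i) % q := by rw [h13]
          rw [Nat.mul_add_mod, Nat.mul_add_mod, Nat.mod_eq_of_lt hr, Nat.mod_eq_of_lt hi] at h14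
          exact hir h14.symm
        · rfl
      · rfl
    · intro hr'
      exact absurd (Finset.mem_range.mpr hr) hr'
  have hzero : h = 0 := by
    ext r : 1
    rw [Polynomial.coeff_zero]
    rcases Nat.lt_or_ge r q with hlt | hge
    · exact hlow r hlt
    · exact hhigh r hge
  have hgk : g = X ^ q - C (X : Polynomial k) := by
    have := hzero
    rw [hh, sub_eq_zero] at this
    exact this
  rw [hg, hgk]

open ModularCurve in
/-- **Kronecker congruence**: a polynomial `Φ ∈ ℤ[X][Y]`, monic of `Y`-degree `q + 1`, with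
`Φ(j(t), j(t^q)) = 0` and `Φ(j(t^q), j(t)) = 0`, is `(Y - X^q)(Y^q - X)` modulo `q` -/
theorem s36mk_main (q : ℕ) [NeZero q] (hq : q.Prime) (Φ : Polynomial (Polynomial ℤ))
    (hm : Φ.Monic) (hd : Φ.natDegree = q + 1)
    (h01 : Φ.eval₂ (Polynomial.aeval (jqModC ℤ) : Polynomial ℤ →ₐ[ℤ] LaurentSeries ℤ).toRingHom
      (qExpand ℤ q (jqModC ℤ)) = 0)
    (h10 : Φ.eval₂ (Polynomial.aeval (qExpand ℤ q (jqModC ℤ)) :
      Polynomial ℤ →ₐ[ℤ] LaurentSeries ℤ).toRingHom (jqModC ℤ) = 0) :
    ∃ Ψ : Polynomial (Polynomial ℤ),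
      Φ = (X - C (X ^ q)) * (X ^ q - C X) + C (C (q : ℤ)) * Ψ := by
  classical
  have : Fact q.Prime := ⟨hq⟩
  -- reduction modulo `q`
  let red : ℤ →+* ZMod q := Int.castRingHom (ZMod q)
  let redX : Polynomial ℤ →+* Polynomial (ZMod q) := Polynomial.mapRingHom red
  let cm : LaurentSeries ℤ →+* LaurentSeries (ZMod q) := coeffMap red
  let jb : LaurentSeries (ZMod q) := jqModC (ZMod q)
  let φ : Polynomial (ZMod q) →+* LaurentSeries (ZMod q) :=
    (Polynomial.aeval jb : Polynomial (ZMod q) →ₐ[ZMod q] LaurentSeries (ZMod q)).toRingHom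
  have hφinj : Function.Injective φ :=
    transcendental_iff_injective.mp (Fermat.Agent.S24.dg_transcendental_jqModC (ZMod q))
  have hcmj : cm (jqModC ℤ) = jb := coeffMap_jqModC red
  have hcmq : cm (qExpand ℤ q (jqModC ℤ)) = jb ^ q := by
    show coeffMap red (qExpand ℤ q (jqModC ℤ)) = jb ^ q
    rw [coeffMap_qExpand, coeffMap_jqModC]
    exact (Fermat.Agent.S37.tvf_jq_pow q).symm
  -- compatibility of `aeval` with the reduction
  have hcomp : ∀ x : LaurentSeries ℤ,
      cm.comp (Polynomial.aeval x : Polynomial ℤ →ₐ[ℤ] LaurentSeries ℤ).toRingHom =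
        ((Polynomial.aeval (cm x) : Polynomial (ZMod q) →ₐ[ZMod q]
          LaurentSeries (ZMod q)).toRingHom).comp redX := by
    intro x
    refine Polynomial.ringHom_ext (fun a => ?_) ?_
    · show cm (Polynomial.aeval x (C a)) = Polynomial.aeval (cm x) (redX (C a))
      have h1 : redX (C a) = C (red a) := Polynomial.map_C red
      rw [h1, Polynomial.aeval_C, Polynomial.aeval_C, eq_intCast, map_intCast]
      show ((a : ℤ) : LaurentSeries (ZMod q)) = algebraMap (ZMod q) _ ((a : ℤ) : ZMod q)
      rw [map_intCast]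
    · show cm (Polynomial.aeval x X) = Polynomial.aeval (cm x) (redX X)
      have h1 : redX X = X := Polynomial.map_X red
      rw [h1, Polynomial.aeval_X, Polynomial.aeval_X]
  set Φb : Polynomial (Polynomial (ZMod q)) := Φ.map redX with hΦb
  have hmb : Φb.Monic := hm.map redX
  have hdb : Φb.natDegree = q + 1 := by rw [hΦb, hm.natDegree_map, hd]
  -- `Φb(X, X^q) = 0`
  have h1 : Φb.eval (X ^ q) = 0 := by
    apply hφinj
    rw [map_zero]
    have h2 := congrArg cm h01
    rw [map_zero, Polynomial.hom_eval₂, hcomp, hcmj, hcmq, ← Polynomial.eval₂_map] at h2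
    have h3 : φ (Φb.eval (X ^ q)) = Φb.eval₂ φ (φ (X ^ q)) := by
      have := Polynomial.hom_eval₂ Φb (RingHom.id _) φ (X ^ q)
      rw [Polynomial.eval₂_id, RingHom.comp_id] at this
      exact this
    rw [h3]
    have h4 : φ (X ^ q) = jb ^ q := by
      show Polynomial.aeval jb (X ^ q) = jb ^ q
      rw [map_pow, Polynomial.aeval_X]
    rw [h4]
    exact h2
  -- `Φb(X^q, X) = 0`
  have h2 : (Φb.map (Polynomial.expand (ZMod q) q :
      Polynomial (ZMod q) →ₐ[ZMod q] Polynomial (ZMod q)).toRingHom).eval X = 0 := by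
    apply hφinj
    rw [map_zero]
    have h5 := congrArg cm h10
    rw [map_zero, Polynomial.hom_eval₂, hcomp, hcmj, hcmq, ← Polynomial.eval₂_map] at h5
    have h6 : ((Polynomial.aeval (jb ^ q) : Polynomial (ZMod q) →ₐ[ZMod q]
        LaurentSeries (ZMod q)).toRingHom) =
        φ.comp (Polynomial.expand (ZMod q) q :
          Polynomial (ZMod q) →ₐ[ZMod q] Polynomial (ZMod q)).toRingHom := by
      refine RingHom.ext (fun P => ?_)
      show Polynomial.aeval (jb ^ q) P = Polynomial.aeval jb (Polynomial.expand (ZMod q) q P)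
      rw [Polynomial.expand_aeval]
    rw [h6, ← Polynomial.eval₂_map] at h5
    have h7 : φ ((Φb.map (Polynomial.expand (ZMod q) q :
        Polynomial (ZMod q) →ₐ[ZMod q] Polynomial (ZMod q)).toRingHom).eval X) =
        (Φb.map (Polynomial.expand (ZMod q) q :
          Polynomial (ZMod q) →ₐ[ZMod q] Polynomial (ZMod q)).toRingHom).eval₂ φ (φ X) := by
      have := Polynomial.hom_eval₂ (Φb.map (Polynomial.expand (ZMod q) q :
        Polynomial (ZMod q) →ₐ[ZMod q] Polynomial (ZMod q)).toRingHom) (RingHom.id _) φ X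
      rw [Polynomial.eval₂_id, RingHom.comp_id] at this
      exact this
    rw [h7]
    have h8 : φ X = jb := by
      show Polynomial.aeval jb X = jb
      rw [Polynomial.aeval_X]
    rw [h8]
    exact h5
  have hkey := s36mk_abs q hq.two_le Φb hmb hdb h1 h2
  -- back to `ℤ`
  set K : Polynomial (Polynomial ℤ) := (X - C (X ^ q)) * (X ^ q - C X) with hK
  have hKmap : K.map redX = (X - C (X ^ q)) * (X ^ q - C X) := by
    rw [hK, Polynomial.map_mul, Polynomial.map_sub, Polynomial.map_sub, Polynomial.map_pow,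
      Polynomial.map_X, Polynomial.map_C, Polynomial.map_C]
    have e1 : redX (X ^ q) = X ^ q := by
      show (X ^ q : Polynomial ℤ).map red = X ^ q
      rw [Polynomial.map_pow, Polynomial.map_X]
    have e2 : redX X = X := Polynomial.map_X red
    rw [e1, e2]
  have hker : Φ - K ∈ RingHom.ker (Polynomial.mapRingHom redX) := by
    rw [RingHom.mem_ker]
    show (Φ - K).map redX = 0
    rw [Polynomial.map_sub, hKmap, ← hΦb, hkey, sub_self]
  rw [Polynomial.ker_mapRingHom] at hker
  have hker2 : RingHom.ker redX = Ideal.span {C (q : ℤ)} := by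
    show RingHom.ker (Polynomial.mapRingHom red) = _
    rw [Polynomial.ker_mapRingHom, ZMod.ker_intCastRingHom, Ideal.map_span, Set.image_singleton]
  rw [hker2, Ideal.map_span, Set.image_singleton, Ideal.mem_span_singleton'] at hker
  obtain ⟨Ψ, hΨ⟩ := hker
  refine ⟨Ψ, ?_⟩
  have : Φ = K + Ψ * C (C (q : ℤ)) := by rw [hΨ]; ring
  rw [this, mul_comm]

end Fermat.Agent.S36
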