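import Fermat.Agent.S36.CuspCAbs
import Fermat.Agent.S36.ModPolyKron
import Fermat.Agent.S34.KronVal
import Fermat.Agent.S34.DomInst

/-!
# S36, package [CUSPC-J]: the modular-polynomial certificate at the function field

Series bridge between the modular polynomial `Φ_q` (an identity between the integral Laurent
series `j(t)`, `j(t^q)`), and the generators `j0 = j(t)`, `j1 = j(t^q)`, `j2 = j(t^(q^2))` of the
function field of level `N`, `q^2 ∣ N`, over a field `K0`; and the assembly with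
`s36mk_main` (Kronecker) and `s36ca_main` (abstract certificate):

* `s36cj_main_of`: with `π = j0 / j2 - 1`, `u = 1 / j0`, `s = j0 ^ q / j1`, for every subring `Lam`
  of the function field containing `u`, `s`, `π` in which every `1 + u x + q y + π z` is
  invertible: `π ^ (q - 1) = q ε`, `ε` a unit of `Lam`.

The existence of `Φ_q` enters as the hypothesis `s36cjPhi q` (the statement of `s36mp_exists`).
-/

set_option autoImplicit false

open Polynomial AlgebraicCurve ModularCurve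
open Fermat.Agent.S18 Fermat.Agent.S37 Fermat.Agent.S24 Fermat.Agent.S28 Fermat.Agent.S34

namespace Fermat.Agent.S36

/-- the statement of `s36mp_exists`: existence of the modular polynomial `Φ_q` -/
def s36cjPhi (q : ℕ) [NeZero q] : Prop :=
  ∃ Φ : Polynomial (Polynomial ℤ), Φ.Monic ∧ Φ.natDegree = q + 1 ∧
    (∀ i e : ℕ, (Φ.coeff i).coeff e ≠ 0 → e + q * i ≤ q * (q + 1)) ∧
    Φ.eval₂ (Polynomial.aeval (jqModC ℤ) : Polynomial ℤ →ₐ[ℤ] LaurentSeries ℤ).toRingHom
      (qExpand ℤ q (jqModC ℤ)) = 0 ∧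
    Φ.eval₂ (Polynomial.aeval (qExpand ℤ q (jqModC ℤ)) :
      Polynomial ℤ →ₐ[ℤ] LaurentSeries ℤ).toRingHom (jqModC ℤ) = 0

/-- functoriality of the bivariate evaluation -/
theorem s36cj_map {R₁ R₂ : Type*} [CommRing R₁] [CommRing R₂] [Algebra ℤ R₁] [Algebra ℤ R₂]
    (φ : R₁ →+* R₂) (a z : R₁)
    (Φ : Polynomial (Polynomial ℤ)) :
    Φ.eval₂ (Polynomial.aeval (φ a) : Polynomial ℤ →ₐ[ℤ] R₂).toRingHom (φ z)
      = φ (Φ.eval₂ (Polynomial.aeval a : Polynomial ℤ →ₐ[ℤ] R₁).toRingHom z) := by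
  rw [hom_eval₂]
  have e : φ.comp (Polynomial.aeval a : Polynomial ℤ →ₐ[ℤ] R₁).toRingHom
      = (Polynomial.aeval (φ a) : Polynomial ℤ →ₐ[ℤ] R₂).toRingHom := by
    apply Polynomial.ringHom_ext
    · intro n
      simp
    · simp
  rw [e]

section Field

variable (N : ℕ) [NeZero N] (K0 : Type*) [Field K0] [Algebra ℚ K0]

omit [NeZero N] in
/-- an identity between the integral series `j(t^a)`, `j(t^b)` holds between the generators
`va2Jd a`, `va2Jd b` of the function field -/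
theorem s36cj_transport [Algebra ℤ (LaurentSeries ℤ)]
    [Algebra ℤ ↥(laurentBaseChange K0 (modularFunctionFieldFull N))]
    (Φ : Polynomial (Polynomial ℤ)) (a b : ℕ) [NeZero a] [NeZero b]
    (ha : a ∣ N) (hb : b ∣ N)
    (h : Φ.eval₂ (Polynomial.aeval (qExpand ℤ a (jqModC ℤ)) :
      Polynomial ℤ →ₐ[ℤ] LaurentSeries ℤ).toRingHom (qExpand ℤ b (jqModC ℤ)) = 0) :
    Φ.eval₂ (Polynomial.aeval (va2Jd K0 N a ha) :
      Polynomial ℤ →ₐ[ℤ] ↥(laurentBaseChange K0 (modularFunctionFieldFull N))).toRingHom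
      (va2Jd K0 N b hb) = 0 := by
  have hinj : Function.Injective
      (laurentBaseChange K0 (modularFunctionFieldFull N)).val.toRingHom :=
    fun x y hxy => Subtype.ext hxy
  apply hinj
  have e1 : (laurentBaseChange K0 (modularFunctionFieldFull N)).val.toRingHom (va2Jd K0 N a ha)
      = coeffMap (Int.castRingHom K0) (qExpand ℤ a (jqModC ℤ)) := krv_coe_Jd a ha
  have e2 : (laurentBaseChange K0 (modularFunctionFieldFull N)).val.toRingHom (va2Jd K0 N b hb)
      = coeffMap (Int.castRingHom K0) (qExpand ℤ b (jqModC ℤ)) := krv_coe_Jd b hb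
  let _ : Algebra ℤ (LaurentSeries K0) := Ring.toIntAlgebra _
  rw [map_zero, ← s36cj_map, e1, e2, s36cj_map, h, map_zero]

omit [NeZero N] in
/-- `j(t) ≠ j(t^(q^2))` in the function field -/
theorem s36cj_ne (q : ℕ) [NeZero q] (hq : q.Prime) (hqq : q * q ∣ N) :
    va2Jd K0 N 1 (one_dvd N) ≠ va2Jd K0 N (q * q) hqq := by
  have : CharZero K0 := algebraRat.charZero K0
  intro h
  have h1 := congrArg (fun x : ↥(laurentBaseChange K0 (modularFunctionFieldFull N)) =>
    (x : LaurentSeries K0).coeff (-1)) h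
  simp only [krv_coe_Jd, coeffMap_coeff, qExpand_one_apply, coeff_jqModC_neg_one] at h1
  rw [qExpand_coeff_of_not_dvd] at h1
  · simp at h1
  · intro hdvd
    have h2 : ((q * q : ℕ) : ℤ) ∣ 1 := (dvd_neg (a := ((q * q : ℕ) : ℤ)) (b := (1 : ℤ))).mp hdvd
    have h3 : q * q ∣ 1 := by exact_mod_cast h2
    have h4 := Nat.le_of_dvd one_pos h3
    have h5 : 2 * 2 ≤ q * q := Nat.mul_le_mul hq.two_le hq.two_le
    omega

/-- **[CUSPC-J]**: the modular-polynomial certificate at the level-`N` function field, `q² ∣ N`.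
With `j0 = j(t)`, `j1 = j(t^q)`, `j2 = j(t^(q^2))`, `π = j0 / j2 - 1`: for every subring `Lam`
containing `1 / j0`, `j0 ^ q / j1`, `π` in which every `1 + x / j0 + q y + π z` is invertible,
`π ^ (q - 1) = q ε` with `ε` a unit of `Lam`. -/
theorem s36cj_main_of (q : ℕ) [NeZero q] (hq : q.Prime) (hqq : q * q ∣ N) (hex : s36cjPhi q)
    (Lam : Subring ↥(laurentBaseChange K0 (modularFunctionFieldFull N)))
    (hu : (va2Jd K0 N 1 (one_dvd N))⁻¹ ∈ Lam)
    (hs : va2Jd K0 N 1 (one_dvd N) ^ q * (va2Jd K0 N q (dvd_of_mul_right_dvd hqq))⁻¹ ∈ Lam)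
    (hπ : va2Jd K0 N 1 (one_dvd N) * (va2Jd K0 N (q * q) hqq)⁻¹ - 1 ∈ Lam)
    (hunit : ∀ x ∈ Lam, ∀ y ∈ Lam, ∀ z ∈ Lam,
      (1 + (va2Jd K0 N 1 (one_dvd N))⁻¹ * x
        + (q : ↥(laurentBaseChange K0 (modularFunctionFieldFull N))) * y
        + (va2Jd K0 N 1 (one_dvd N) * (va2Jd K0 N (q * q) hqq)⁻¹ - 1) * z)⁻¹ ∈ Lam) :
    ∃ ε ∈ Lam, ε⁻¹ ∈ Lam ∧
      (va2Jd K0 N 1 (one_dvd N) * (va2Jd K0 N (q * q) hqq)⁻¹ - 1) ^ (q - 1)
        = (q : ↥(laurentBaseChange K0 (modularFunctionFieldFull N))) * ε := by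
  obtain ⟨Φ, hm, hd, hb, h01, h10⟩ := hex
  obtain ⟨Ψ, hK⟩ := s36mk_main q hq Φ hm hd h01 h10
  have : CharZero K0 := algebraRat.charZero K0
  have : CharZero ↥(laurentBaseChange K0 (modularFunctionFieldFull N)) :=
    charZero_of_injective_algebraMap
      (algebraMap K0 ↥(laurentBaseChange K0 (modularFunctionFieldFull N))).injective
  have h01z : Φ.eval₂ (Polynomial.aeval (qExpand ℤ 1 (jqModC ℤ)) :
      Polynomial ℤ →ₐ[ℤ] LaurentSeries ℤ).toRingHom (qExpand ℤ q (jqModC ℤ)) = 0 := by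
    rw [qExpand_one_apply]
    exact h01
  have h21z : Φ.eval₂ (Polynomial.aeval (qExpand ℤ (q * q) (jqModC ℤ)) :
      Polynomial ℤ →ₐ[ℤ] LaurentSeries ℤ).toRingHom (qExpand ℤ q (jqModC ℤ)) = 0 := by
    have h := congrArg (qExpand ℤ q) h10
    rw [map_zero, ← s36cj_map, qExpand_qExpand] at h
    exact h
  exact s36ca_main q hq Φ Ψ hm hd hb hK _ _ _ (dmi_jd_ne_zero K0 N 1 (one_dvd N))
    (dmi_jd_ne_zero K0 N q (dvd_of_mul_right_dvd hqq)) (dmi_jd_ne_zero K0 N (q * q) hqq)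
    (s36cj_ne N K0 q hq hqq)
    (s36cj_transport N K0 Φ 1 q (one_dvd N) (dvd_of_mul_right_dvd hqq) h01z)
    (s36cj_transport N K0 Φ (q * q) q hqq (dvd_of_mul_right_dvd hqq) h21z)
    Lam hu hs hπ hunit

end Field

end Fermat.Agent.S36
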