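import Mathlib
import Fermat.Agent.S34.ModEqDeg
import Fermat.Agent.S34.Val2Deg
import Fermat.Agent.S34.KronVal

/-!
# S36 [PHI-EX + PHI-SWAP]: the modular polynomial of level `q` over `ℤ`

`s36mp_exists`: for a prime `q` there is `Φ ∈ ℤ[X][Y]`, monic of degree `q + 1` in `Y`, whose
coefficient of `X ^ e Y ^ i` vanishes unless `e + q i ≤ q (q + 1)`, with
`Φ(j(t), j(t^q)) = 0` and `Φ(j(t^q), j(t)) = 0` in `ℤ((t))`.

Proof.  Over `ℚ`, at the level `1 * q`: the characteristic polynomial `p` of `y = j(t^q)` over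
`ℚ(x)`, `x = j(t)`, has degree `ψ(q) = q + 1`; over `ℚ̄` its coefficients are polynomials in
`j` with algebraic-integer coefficients and the degree bound of `S34/ModEqDeg`; being rational
functions of `x` over `ℚ`, they are polynomials in `x` with coefficients in `ℚ`, hence in `ℤ`.
The swapped relation is the image of the relation under the swap `va2Swap 1 q`.
-/

set_option autoImplicit false
set_option linter.style.haveILetI false

open Polynomial AlgebraicCurve IntermediateField UpperHalfPlane ModularForm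
open scoped MatrixGroups

namespace Fermat.Agent.S36

open Fermat.Agent.S24 Fermat.Agent.S37 Fermat.Agent.S18 Fermat.Agent.S34 ModularCurve

/-! ### The coefficients of a polynomial with the cusp/finite product formulas -/

section Coeffs

variable (N : ℕ) [NeZero N]

local notation "Kb" => AlgebraicClosure ℚ
set_option quotPrecheck false in
local notation "Fb" => ↥(modularFunctionFieldBar N)
local notation "Xc" => SL(2, ℤ) ⧸ CongruenceSubgroup.Gamma0 N

/-- A polynomial over the function field of `X₀(N)` over `ℚ̄` with coefficients in `ℚ̄(j)`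
which splits, under all the embeddings `meqFam`, as the product over the conjugates of
`j(q^d)`: its `k`-th coefficient is a polynomial in `j` of degree at most `d (deg p - k)` with
algebraic-integer coefficients. (The second half of the proof of `mqd_exists_monic`.) -/
theorem s36mp_coeffs (d : ℕ) [NeZero d] (hd : d ∣ N) [Fintype Xc] (p : Fb[X]) (hpm : p.Monic)
    (hpE : ∀ k, p.coeff k ∈ Kb⟮jBar N⟯)
    (hprod : ∀ (t : Option ℍ) (i : Xc),
      p.map (meqFam N t i) = ∏ j, (X - C (meqFam N t j (jdBar N d hd)))) (k : ℕ) :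
    ∃ P : Kb[X], p.coeff k = aeval (jBar N) P ∧ (∀ m, IsIntegral ℤ (P.coeff m)) ∧
      P.natDegree ≤ d * (p.natDegree - k) := by
  classical
  let q₀ : Xc := QuotientGroup.mk 1
  have hcoef : ∀ (t : Option ℍ) (T : Subring (LaurentSeries ℂ)),
      (∀ j, meqFam N t j (jdBar N d hd) ∈ T) → meqFam N t q₀ (p.coeff k) ∈ T := by
    intro t T hT
    have h2 := congrArg (fun p' => p'.coeff k) (hprod t q₀)
    simp only [coeff_map] at h2
    rw [h2]
    exact meq_coeff_prod_mem T Finset.univ _ (fun j _ => hT j) k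
  have hfin : ∀ τ₀ : ℍ, ∃ u : PowerSeries ℂ,
      sysfinPhi N τ₀ q₀ (p.coeff k) = HahnSeries.ofPowerSeries ℤ ℂ u := by
    intro τ₀
    obtain ⟨u, hu⟩ := hcoef (some τ₀) (HahnSeries.ofPowerSeries ℤ ℂ).range
      (fun j => ⟨_, (sysfinPhi_jdBar N τ₀ j d hd).symm⟩)
    exact ⟨u, hu.symm⟩
  obtain ⟨P, hP⟩ := meq_mem_poly N q₀ (p.coeff k) (hpE k) hfin
  refine ⟨P, hP, fun m => ?_, ?_⟩
  · have hmem : eval₂ ((HahnSeries.C : ℂ →+* LaurentSeries ℂ).comp ιc) (scJ N) P ∈ meqInt := by
      rw [← meq_scPhi_aeval N q₀ P, ← hP]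
      exact hcoef none meqInt (fun j => meq_scPhi_jdBar_mem N d hd j)
    have h5 := meq_triangular ιc (integralClosure ℤ ℂ).toSubring (scJ N) (N : ℤ) (meq_scJ_mem N)
      (meq_scJ_top N) (meq_scJ_low N) P.natDegree P le_rfl hmem m
    have h6 : IsIntegral ℤ (ιc (P.coeff m)) := h5
    exact (isIntegral_algHom_iff ιc.toIntAlgHom ιc.injective).mp h6
  · apply mqd_natDegree_le N P
    have hJ0 := sc_J_ne_zero N
    have hcinv : ∀ m < (N : ℤ), ((scJ N)⁻¹).coeff m = 0 := by
      intro m hm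
      apply HahnSeries.coeff_eq_zero_of_lt_order
      rw [sc_order_inv hJ0, sc_order_J, neg_neg]
      exact hm
    have hsr' : scPhi N q₀ (p.coeff k) * ((scJ N)⁻¹ ^ d) ^ (p.natDegree - k)
        = (∏ j : Xc, (X - C (scPhi N j (jdBar N d hd) * (scJ N)⁻¹ ^ d))).coeff k := by
      have h1 : (p.map (scPhi N q₀)).scaleRoots ((scJ N)⁻¹ ^ d)
          = ∏ j : Xc, (X - C (scPhi N j (jdBar N d hd) * (scJ N)⁻¹ ^ d)) := by
        rw [show p.map (scPhi N q₀) = ∏ j : Xc, (X - C (scPhi N j (jdBar N d hd)))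
          from hprod none q₀, mqd_scaleRoots_prod]
      rw [← h1, coeff_scaleRoots, coeff_map, hpm.natDegree_map]
    rw [← meq_scPhi_aeval N q₀ P, ← hP, pow_mul, hsr']
    refine meq_coeff_prod_mem _ Finset.univ _ (fun j _ => ?_) k
    apply mqd_mem_range
    intro n hn
    refine mqd_coeff_mul_zero _ _ (-((d : ℤ) * (N : ℤ))) ((d : ℤ) * (N : ℤ))
      (mqd_scPhi_jdBar N d hd j) (mqd_coeff_pow_zero _ (N : ℤ) hcinv d) n ?_
    rw [neg_add_cancel]
    exact hn

end Coeffs

/-! ### Base change of polynomial values -/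

section BC

local notation "Qb" => AlgebraicClosure ℚ

variable (K0 : Type*) [Field K0] [Algebra ℚ K0] [Algebra K0 Qb]

/-- base change of a polynomial value -/
theorem s36mp_bcf_aeval (F₀ : IntermediateField ℚ (LaurentSeries ℚ))
    (x : ↥(laurentBaseChange K0 F₀)) (r : K0[X]) :
    bcfHom K0 Qb F₀ (aeval x r) = aeval (bcfHom K0 Qb F₀ x) (r.map (algebraMap K0 Qb)) := by
  rw [aeval_def, hom_eval₂, aeval_def, eval₂_map]
  congr 1
  exact RingHom.ext fun c => bcfHom_algebraMap K0 Qb F₀ c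

end BC

/-! ### The modular equation over a field of definition -/

section Gen

variable (K0 : Type*) [Field K0] [Algebra ℚ K0] [Algebra K0 (AlgebraicClosure ℚ)]
variable (N : ℕ) [NeZero N]

local notation "Qb" => AlgebraicClosure ℚ
local notation "Xc" => SL(2, ℤ) ⧸ CongruenceSubgroup.Gamma0 N

/-- the base change of `j` -/
theorem s36mp_bcf_grJ :
    bcfHom K0 Qb (modularFunctionFieldFull N) (grJ K0 N) = jBar N := by
  apply Subtype.ext
  rw [bcfHom_coe, dg_coe_jBar]
  exact coeffMap_jqModC _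

/-- **The modular equation over `K0`**: `j(t^d)` is a root of a monic polynomial of degree
`ψ(N)` whose `k`-th coefficient is a polynomial in `j` over `K0` with algebraic-integer
coefficients, of degree at most `d (ψ(N) - k)`. -/
theorem s36mp_gen (d : ℕ) [NeZero d] (hd : d ∣ N) :
    ∃ R : ℕ → K0[X], (∀ k m, IsIntegral ℤ ((R k).coeff m)) ∧
      (∀ k, (R k).natDegree ≤ d * (Fermat.Agent.S28.psi N - k)) ∧
      va2Jd K0 N d hd ^ Fermat.Agent.S28.psi N +
        ∑ k ∈ Finset.range (Fermat.Agent.S28.psi N),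
          aeval (grJ K0 N) (R k) * va2Jd K0 N d hd ^ k = 0 := by
  classical
  letI : Fintype Xc := Fintype.ofFinite Xc
  haveI : CharZero K0 := algebraRat.charZero K0
  obtain ⟨hfr, hfd⟩ := va2d_finrank_j K0 N
  haveI := hfd
  have hfrb := (va2d_finrank_j Qb N).1
  have hJb : jBar N = grJ Qb N := Subtype.ext (dg_coe_jBar N)
  have hcardb : Fintype.card Xc = Fermat.Agent.S28.psi N := by
    rw [← hfrb, ← hJb]
    exact meq_card_eq N
  have hcard := hcardb.trans hfr.symm
  have hbx := s36mp_bcf_grJ K0 N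
  have hby : bcfHom K0 Qb (modularFunctionFieldFull N) (va2Jd K0 N d hd) = jdBar N d hd :=
    va2_bcf_jd K0 N d hd
  -- the embeddings over `ℚ̄`
  have hinj0 : ∀ t : Option ℍ, Function.Injective (meqFam N t) := by
    rintro (_ | τ₀)
    · exact sc_phi_injective N
    · exact sysfinPhi_injective N τ₀
  have hK0 : ∀ (t : Option ℍ) (i j : Xc) (c : Qb),
      meqFam N t i (algebraMap Qb ↥(modularFunctionFieldBar N) c) =
        meqFam N t j (algebraMap Qb ↥(modularFunctionFieldBar N) c) := by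
    rintro (_ | τ₀) i j c
    · show scPhi N i _ = scPhi N j _
      rw [sc_phi_const, sc_phi_const]
    · show sysfinPhi N τ₀ i _ = sysfinPhi N τ₀ j _
      rw [sysfinPhi_const, sysfinPhi_const]
  have hx0 : ∀ (t : Option ℍ) (i j : Xc), meqFam N t i (jBar N) = meqFam N t j (jBar N) := by
    rintro (_ | τ₀) i j
    · show scPhi N i _ = scPhi N j _
      rw [sc_phi_jBar, sc_phi_jBar]
    · show sysfinPhi N τ₀ i _ = sysfinPhi N τ₀ j _
      rw [sysfinPhi_jBar, sysfinPhi_jBar]
  -- the embeddings over `K0`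
  obtain ⟨ψ, hψ⟩ : ∃ ψ : Option ℍ → Xc →
      ↥(laurentBaseChange K0 (modularFunctionFieldFull N)) →+* LaurentSeries ℂ,
      ∀ t i x, ψ t i x = meqFam N t i (bcfHom K0 Qb (modularFunctionFieldFull N) x) :=
    ⟨fun t i => (meqFam N t i).comp (bcfHom K0 Qb (modularFunctionFieldFull N)),
      fun _ _ _ => rfl⟩
  have hinj : ∀ t, Function.Injective (ψ t) := by
    intro t i j hij
    apply hinj0 t
    refine va2_ringHom_ext (K := Qb) (N := N) _ _ (hK0 t i j) (fun e _ he => ?_)
    have h1 : va2Jd Qb N e he =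
        bcfHom K0 Qb (modularFunctionFieldFull N) (va2Jd K0 N e he) := by
      rw [va2_bcf_jd]
      rfl
    rw [h1, ← hψ, ← hψ, hij]
  have hK : ∀ (t : Option ℍ) (i j : Xc) (c : K0),
      ψ t i (algebraMap K0 ↥(laurentBaseChange K0 (modularFunctionFieldFull N)) c) =
        ψ t j (algebraMap K0 ↥(laurentBaseChange K0 (modularFunctionFieldFull N)) c) := by
    intro t i j c
    rw [hψ, hψ, bcfHom_algebraMap]
    exact hK0 t i j _
  have hx : ∀ (t : Option ℍ) (i j : Xc), ψ t i (grJ K0 N) = ψ t j (grJ K0 N) := by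
    intro t i j
    rw [hψ, hψ, hbx]
    exact hx0 t i j
  obtain ⟨p, hpm, hp0, hpE, hprod⟩ := mqd_abs (K := K0) (grJ K0 N) (va2Jd K0 N d hd) hcard
    ψ hinj hK hx
  -- the base change of `p`
  obtain ⟨p', hp'⟩ : ∃ p' : (↥(modularFunctionFieldBar N))[X],
      p' = p.map (bcfHom K0 Qb (modularFunctionFieldFull N)) := ⟨_, rfl⟩
  have hpm' : p'.Monic := by
    rw [hp']
    exact hpm.map _
  have hcoeff' : ∀ k, p'.coeff k = bcfHom K0 Qb (modularFunctionFieldFull N) (p.coeff k) := by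
    intro k
    rw [hp', coeff_map]
  have hpE' : ∀ k, p'.coeff k ∈ Qb⟮jBar N⟯ := by
    intro k
    obtain ⟨r, s, hrs⟩ := (mem_adjoin_simple_iff K0 _).mp (hpE k)
    rw [hcoeff', hrs, map_div₀, s36mp_bcf_aeval, s36mp_bcf_aeval, hbx]
    exact (mem_adjoin_simple_iff Qb _).mpr ⟨_, _, rfl⟩
  have hprod' : ∀ (t : Option ℍ) (i : Xc),
      p'.map (meqFam N t i) = ∏ j, (X - C (meqFam N t j (jdBar N d hd))) := by
    intro t i
    have h1 := hprod t i
    have h2 : ψ t i = (meqFam N t i).comp (bcfHom K0 Qb (modularFunctionFieldFull N)) :=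
      RingHom.ext fun x => hψ t i x
    rw [hp', Polynomial.map_map, ← h2, h1]
    refine Finset.prod_congr rfl fun j _ => ?_
    rw [hψ, hby]
  -- the degree
  have hn : p.natDegree = Fermat.Agent.S28.psi N := by
    have h1 := congrArg natDegree (hprod none (QuotientGroup.mk 1))
    rw [hpm.natDegree_map, natDegree_finsetProd_X_sub_C_eq_card, Finset.card_univ] at h1
    rw [h1, hcardb]
  have hn' : p'.natDegree = Fermat.Agent.S28.psi N := by
    rw [hp', hpm.natDegree_map, hn]
  -- the coefficients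
  have htr := transcendental_jBar' N
  have hinjA : Function.Injective (aeval (jBar N) : Qb[X] → ↥(modularFunctionFieldBar N)) :=
    transcendental_iff_injective.mp htr
  have hrat : ∀ k, ∃ Rk : K0[X], p.coeff k = aeval (grJ K0 N) Rk ∧
      (∀ m, IsIntegral ℤ (Rk.coeff m)) ∧
      Rk.natDegree ≤ d * (Fermat.Agent.S28.psi N - k) := by
    intro k
    obtain ⟨P, hPc, hPint, hPdeg⟩ := s36mp_coeffs N d hd p' hpm' hpE' hprod' k
    rw [hn'] at hPdeg
    obtain ⟨r, s, hrs⟩ := (mem_adjoin_simple_iff K0 _).mp (hpE k)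
    have hR : ∃ R : K0[X], P = R.map (algebraMap K0 Qb) := by
      by_cases hs : aeval (grJ K0 N) s = 0
      · refine ⟨0, ?_⟩
        have h0 : p.coeff k = 0 := by rw [hrs, hs, div_zero]
        have h1 : aeval (jBar N) P = 0 := by rw [← hPc, hcoeff', h0, map_zero]
        rw [Polynomial.map_zero]
        apply hinjA
        rw [h1, map_zero]
      · refine ⟨r / s, ?_⟩
        have hs0 : s ≠ 0 := by
          rintro rfl
          exact hs (map_zero _)
        have hs' : s.map (algebraMap K0 Qb) ≠ 0 :=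
          (Polynomial.map_ne_zero_iff (algebraMap K0 Qb).injective).mpr hs0
        have hsb : aeval (jBar N) (s.map (algebraMap K0 Qb)) ≠ 0 := by
          rw [← hbx, ← s36mp_bcf_aeval]
          exact (_root_.map_ne_zero _).mpr hs
        have h1 : aeval (jBar N) (r.map (algebraMap K0 Qb)) =
            aeval (jBar N) (s.map (algebraMap K0 Qb) * P) := by
          rw [map_mul, ← hPc, hcoeff', hrs, map_div₀, s36mp_bcf_aeval, s36mp_bcf_aeval, hbx,
            mul_div_cancel₀ _ hsb]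
        have h2 : r.map (algebraMap K0 Qb) = s.map (algebraMap K0 Qb) * P := hinjA h1
        rw [Polynomial.map_div, h2, mul_div_cancel_left₀ _ hs']
    obtain ⟨R, rfl⟩ := hR
    refine ⟨R, ?_, fun m => ?_, ?_⟩
    · apply bcfHom_injective K0 Qb (modularFunctionFieldFull N)
      rw [← hcoeff', hPc, s36mp_bcf_aeval, hbx]
    · have h1 : IsIntegral ℤ (algebraMap K0 Qb (R.coeff m)) := by
        rw [← coeff_map]
        exact hPint m
      exact (isIntegral_algHom_iff (algebraMap K0 Qb).toIntAlgHom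
        (algebraMap K0 Qb).injective).mp h1
    · rw [natDegree_map] at hPdeg
      exact hPdeg
  choose R hR1 hR2 hR3 using hrat
  refine ⟨R, hR2, hR3, ?_⟩
  have h1 := hpm.as_sum
  have h2 := congrArg (eval (va2Jd K0 N d hd)) h1
  rw [hp0, eval_add, eval_pow, eval_X, eval_finsetSum, hn] at h2
  rw [h2]
  congr 1
  refine Finset.sum_congr rfl fun k _ => ?_
  rw [eval_mul, eval_C, eval_pow, eval_X, hR1]

end Gen

/-! ### The polynomial `Φ` -/

section Phi

variable (n : ℕ) (Z : ℕ → ℤ[X])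

/-- the polynomial `Y ^ n + ∑_{k < n} Z_k(X) Y ^ k` -/
noncomputable def s36mpPhi : Polynomial (Polynomial ℤ) :=
  X ^ n + ∑ k ∈ Finset.range n, C (Z k) * X ^ k

theorem s36mp_phi_degree_lt :
    (∑ k ∈ Finset.range n, C (Z k) * (X : Polynomial (Polynomial ℤ)) ^ k).degree < n := by
  refine (degree_sum_le _ _).trans_lt ?_
  refine (Finset.sup_lt_iff (WithBot.bot_lt_coe n)).mpr (fun k hk => ?_)
  exact (degree_C_mul_X_pow_le k _).trans_lt (WithBot.coe_lt_coe.mpr (Finset.mem_range.mp hk))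

theorem s36mp_phi_monic : (s36mpPhi n Z).Monic :=
  monic_X_pow_add (s36mp_phi_degree_lt n Z)

theorem s36mp_phi_natDegree : (s36mpPhi n Z).natDegree = n := by
  rw [s36mpPhi, natDegree_add_eq_left_of_degree_lt, natDegree_X_pow]
  rw [degree_X_pow]
  exact s36mp_phi_degree_lt n Z

theorem s36mp_phi_coeff (i : ℕ) :
    (s36mpPhi n Z).coeff i = if i = n then 1 else if i < n then Z i else 0 := by
  classical
  rw [s36mpPhi, coeff_add, coeff_X_pow, finsetSum_coeff]
  have h1 : ∀ k ∈ Finset.range n,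
      (C (Z k) * (X : Polynomial (Polynomial ℤ)) ^ k).coeff i = if i = k then Z k else 0 := by
    intro k _
    rw [coeff_C_mul, coeff_X_pow, mul_ite, mul_one, mul_zero]
  rw [Finset.sum_congr rfl h1, Finset.sum_ite_eq]
  by_cases hin : i = n
  · rw [if_pos hin, if_pos hin, if_neg (by rw [Finset.mem_range]; omega), add_zero]
  · rw [if_neg hin, if_neg hin, zero_add]
    by_cases hlt : i < n
    · rw [if_pos (Finset.mem_range.mpr hlt), if_pos hlt]
    · rw [if_neg (by rw [Finset.mem_range]; exact hlt), if_neg hlt]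

theorem s36mp_phi_eval₂ {S : Type*} [CommRing S] (g : ℤ[X] →+* S) (z : S) :
    (s36mpPhi n Z).eval₂ g z = z ^ n + ∑ k ∈ Finset.range n, g (Z k) * z ^ k := by
  rw [s36mpPhi, eval₂_add, eval₂_pow, eval₂_X, eval₂_finsetSum]
  congr 1
  refine Finset.sum_congr rfl fun k _ => ?_
  rw [eval₂_mul, eval₂_C, eval₂_pow, eval₂_X]

/-- transport of a polynomial relation over `ℤ[a]` along a ring homomorphism -/
theorem s36mp_push {F F' : Type*} [CommRing F] [CommRing F'] (φ : F →+* F') (a z : F)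
    (Φ : Polynomial (Polynomial ℤ))
    (h0 : Φ.eval₂ ((Polynomial.aeval a : Polynomial ℤ →ₐ[ℤ] F).toRingHom) z = 0) :
    Φ.eval₂ ((Polynomial.aeval (φ a) : Polynomial ℤ →ₐ[ℤ] F').toRingHom) (φ z) = 0 := by
  have e : φ.comp (Polynomial.aeval a : Polynomial ℤ →ₐ[ℤ] F).toRingHom
      = (Polynomial.aeval (φ a) : Polynomial ℤ →ₐ[ℤ] F').toRingHom := by
    refine Polynomial.ringHom_ext (fun c => ?_) ?_
    · simp
    · simp
  rw [← e, ← hom_eval₂, h0, map_zero]

/-- from the relation with rational polynomials to the relation for `Φ` -/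
theorem s36mp_rel_of_sum {F : Type*} [CommRing F] (f : ℚ →+* F) (x y : F)
    (R : ℕ → ℚ[X]) (hZ : ∀ k, (Z k).map (Int.castRingHom ℚ) = R k)
    (h : y ^ n + ∑ k ∈ Finset.range n, (R k).eval₂ f x * y ^ k = 0) :
    (s36mpPhi n Z).eval₂ ((Polynomial.aeval x : Polynomial ℤ →ₐ[ℤ] F).toRingHom) y = 0 := by
  rw [s36mp_phi_eval₂, ← h]
  congr 1
  refine Finset.sum_congr rfl fun k _ => ?_
  congr 1
  rw [← hZ k, eval₂_map]
  show aeval x (Z k) = _
  rw [aeval_def]
  congr 1
  exact RingHom.ext_int _ _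

end Phi

/-! ### The main theorem -/

section Final

local notation "Qb" => AlgebraicClosure ℚ

/-- a polynomial over `ℚ` with integral coefficients comes from `ℤ[X]` -/
theorem s36mp_lift (R : ℚ[X]) (h : ∀ m, IsIntegral ℤ (R.coeff m)) :
    ∃ Z : ℤ[X], Z.map (Int.castRingHom ℚ) = R ∧ Z.natDegree = R.natDegree := by
  have hlift : R ∈ Polynomial.lifts (Int.castRingHom ℚ) := by
    rw [lifts_iff_coeff_lifts]
    intro m
    obtain ⟨z, hz⟩ := IsIntegrallyClosed.isIntegral_iff.mp (h m)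
    exact ⟨z, hz⟩
  obtain ⟨Z, hZ⟩ := (Polynomial.mem_lifts R).mp hlift
  refine ⟨Z, hZ, ?_⟩
  rw [← hZ, natDegree_map_eq_of_injective (RingHom.injective_int (Int.castRingHom ℚ))]

/-- any two `ℤ`-algebra structures give the same evaluation homomorphism -/
theorem s36mp_aeval_inst (A : Type*) [CommRing A] (i1 i2 : Algebra ℤ A) (x : A) :
    (@AlgHom.toRingHom ℤ (Polynomial ℤ) A _ _ _ _ i1 (@Polynomial.aeval ℤ A _ _ i1 x)) =
    (@AlgHom.toRingHom ℤ (Polynomial ℤ) A _ _ _ _ i2 (@Polynomial.aeval ℤ A _ _ i2 x)) :=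
  congrArg (fun i => @AlgHom.toRingHom ℤ (Polynomial ℤ) A _ _ _ _ i (@Polynomial.aeval ℤ A _ _ i x))
    (Subsingleton.elim i1 i2)

/-- **The modular polynomial of prime level `q` over `ℤ`**: `Φ ∈ ℤ[X][Y]`, monic of degree
`q + 1` in `Y`, supported in `e + q i ≤ q (q + 1)`, with `Φ(j(t), j(t^q)) = 0` and
`Φ(j(t^q), j(t)) = 0` in `ℤ((t))`. -/
theorem s36mp_exists (q : ℕ) [NeZero q] (hq : q.Prime) :
    ∃ Φ : Polynomial (Polynomial ℤ), Φ.Monic ∧ Φ.natDegree = q + 1 ∧
      (∀ i e : ℕ, (Φ.coeff i).coeff e ≠ 0 → e + q * i ≤ q * (q + 1)) ∧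
      Φ.eval₂ (Polynomial.aeval (jqModC ℤ) : Polynomial ℤ →ₐ[ℤ] LaurentSeries ℤ).toRingHom
        (qExpand ℤ q (jqModC ℤ)) = 0 ∧
      Φ.eval₂ (Polynomial.aeval (qExpand ℤ q (jqModC ℤ)) :
        Polynomial ℤ →ₐ[ℤ] LaurentSeries ℤ).toRingHom (jqModC ℤ) = 0 := by
  classical
  have hd : q * 1 ∣ 1 * q := by rw [Nat.mul_one, Nat.one_mul]
  have hpsi : Fermat.Agent.S28.psi (1 * q) = q + 1 := by
    rw [Nat.one_mul, Fermat.Agent.S28.psi_prime hq]
  obtain ⟨R, hRint, hRdeg, hrel⟩ := s36mp_gen ℚ (1 * q) (q * 1) hd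
  rw [hpsi] at hrel hRdeg
  have hlift := fun k => s36mp_lift (R k) (hRint k)
  choose Z hZ hZdeg using hlift
  -- the relation for `Φ` in the function field over `ℚ`
  have hrel' := hrel
  simp only [aeval_def] at hrel'
  have hI0 := s36mp_rel_of_sum (q + 1) Z _ _ _ R hZ hrel'
  have hinjZ : Function.Injective (coeffMap (Int.castRingHom ℚ)) :=
    bcf_coeffMap_injective _ (RingHom.injective_int (Int.castRingHom ℚ))
  have e1 : algebraMap ↥(laurentBaseChange ℚ (modularFunctionFieldFull (1 * q)))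
      (LaurentSeries ℚ) (grJ ℚ (1 * q)) = coeffMap (Int.castRingHom ℚ) (jqModC ℤ) :=
    (coeffMap_jqModC (Int.castRingHom ℚ)).symm
  have e2 : algebraMap ↥(laurentBaseChange ℚ (modularFunctionFieldFull (1 * q)))
      (LaurentSeries ℚ) (va2Jd ℚ (1 * q) (q * 1) hd) =
      coeffMap (Int.castRingHom ℚ) (qExpand ℤ (q * 1) (jqModC ℤ)) :=
    krv_coe_Jd (K0 := ℚ) (N := 1 * q) (q * 1) hd
  refine ⟨s36mpPhi (q + 1) Z, s36mp_phi_monic _ _, s36mp_phi_natDegree _ _, ?_, ?_, ?_⟩
  · -- the Newton bound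
    intro i e hne
    rw [s36mp_phi_coeff] at hne
    by_cases hin : i = q + 1
    · rw [if_pos hin, coeff_one] at hne
      have he : e = 0 := by
        by_contra h0
        exact hne (if_neg h0)
      rw [he, hin, zero_add]
    · rw [if_neg hin] at hne
      by_cases hlt : i < q + 1
      · rw [if_pos hlt] at hne
        have h1 : e ≤ (Z i).natDegree := le_natDegree_of_ne_zero hne
        have h2 := hRdeg i
        rw [← hZdeg, Nat.mul_one] at h2
        have h3 : q * (q + 1 - i) + q * i = q * (q + 1) := by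
          rw [← Nat.mul_add]
          congr 1
          omega
        omega
      · rw [if_neg hlt, coeff_zero] at hne
        exact absurd rfl hne
  · -- `Φ(j(t), j(t^q)) = 0`
    have hI1 := s36mp_push (algebraMap ↥(laurentBaseChange ℚ (modularFunctionFieldFull (1 * q)))
      (LaurentSeries ℚ)) _ _ _ hI0
    rw [e1, e2] at hI1
    have hI2 := mqd_descent (coeffMap (Int.castRingHom ℚ)) hinjZ (jqModC ℤ)
      (qExpand ℤ (q * 1) (jqModC ℤ)) _ hI1
    rw [qExpand_congr (Nat.mul_one q)] at hI2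
    rw [s36mp_aeval_inst (LaurentSeries ℤ) _ (Ring.toIntAlgebra _) (jqModC ℤ)]
    exact hI2
  · -- `Φ(j(t^q), j(t)) = 0`: the swap
    have hswap : ¬ q ∣ 1 := fun h => hq.one_lt.ne' (Nat.dvd_one.mp h)
    have hx1 : grJ ℚ (1 * q) = va2Jd ℚ (1 * q) 1 ((dvd_refl 1).mul_right q) := by
      apply Subtype.ext
      rw [krv_coe_J]
      exact (coeffMap_jqModC (Int.castRingHom ℚ)).symm
    have hw1 : va2Swap 1 q hq hswap ℚ (grJ ℚ (1 * q)) = va2Jd ℚ (1 * q) (q * 1) hd := by
      rw [hx1]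
      exact va2Swap_jd1 1 q hq hswap ℚ 1 (dvd_refl 1)
    have hw2 : va2Swap 1 q hq hswap ℚ (va2Jd ℚ (1 * q) (q * 1) hd) = grJ ℚ (1 * q) := by
      rw [hx1]
      exact va2Swap_jd2 1 q hq hswap ℚ 1 (dvd_refl 1)
    have hI0' := s36mp_push (va2Swap 1 q hq hswap ℚ) _ _ _ hI0
    rw [hw1, hw2] at hI0'
    have hI1 := s36mp_push (algebraMap ↥(laurentBaseChange ℚ (modularFunctionFieldFull (1 * q)))
      (LaurentSeries ℚ)) _ _ _ hI0'
    rw [e1, e2] at hI1
    have hI2 := mqd_descent (coeffMap (Int.castRingHom ℚ)) hinjZ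
      (qExpand ℤ (q * 1) (jqModC ℤ)) (jqModC ℤ) _ hI1
    rw [qExpand_congr (Nat.mul_one q)] at hI2
    rw [s36mp_aeval_inst (LaurentSeries ℤ) _ (Ring.toIntAlgebra _) (qExpand ℤ q (jqModC ℤ))]
    exact hI2

end Final

end Fermat.Agent.S36
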