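import Fermat.Agent.S36.CuspCJ
import Fermat.Agent.S36.ModPoly

/-!
# S36, package [CUSPC]: the modular-polynomial certificate, final form

`s36cj_main`: at the level-`N` function field over `K0`, `q² ∣ N`, with `j0 = j(t)`,
`j1 = j(t^q)`, `j2 = j(t^(q^2))`, `π = j0 / j2 - 1`: for every subring `Lam` containing `1 / j0`,
`j0 ^ q / j1`, `π`, in which every `1 + x / j0 + q y + π z` is invertible,
`π ^ (q - 1) = q ε` with `ε` a unit of `Lam`.  (`s36cj_main_of` + `s36mp_exists`.)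
-/

set_option autoImplicit false

open Polynomial AlgebraicCurve ModularCurve
open Fermat.Agent.S18 Fermat.Agent.S37 Fermat.Agent.S24 Fermat.Agent.S28 Fermat.Agent.S34

namespace Fermat.Agent.S36

/-- the modular polynomial exists -/
theorem s36cj_phi (q : ℕ) [NeZero q] (hq : q.Prime) : s36cjPhi q :=
  s36mp_exists q hq

/-- **[CUSPC]**: the certificate `π ^ (q - 1) = q ε`, `ε` a unit, at cuspidal `W_c`-only points. -/
theorem s36cj_main (N : ℕ) [NeZero N] (K0 : Type*) [Field K0] [Algebra ℚ K0] (q : ℕ) [NeZero q]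
    (hq : q.Prime) (hqq : q * q ∣ N)
    (Lam : Subring ↥(laurentBaseChange K0 (modularFunctionFieldFull N)))
    (hu : (va2Jd K0 N 1 (one_dvd N))⁻¹ ∈ Lam)
    (hs : va2Jd K0 N 1 (one_dvd N) ^ q * (va2Jd K0 N q (dvd_of_mul_right_dvd hqq))⁻¹ ∈ Lam)
    (hπ : va2Jd K0 N 1 (one_dvd N) * (va2Jd K0 N (q * q) hqq)⁻¹ - 1 ∈ Lam)
    (hunit : ∀ x ∈ Lam, ∀ y ∈ Lam, ∀ z ∈ Lam,
      (1 + (va2Jd K0 N 1 (one_dvd N))⁻¹ * x
        + (q : ↥(laurentBaseChange K0 (modularFunctionFieldFull N))) * y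
        + (va2Jd K0 N 1 (one_dvd N) * (va2Jd K0 N (q * q) hqq)⁻¹ - 1) * z)⁻¹ ∈ Lam) :
    ∃ ε ∈ Lam, ε⁻¹ ∈ Lam ∧
      (va2Jd K0 N 1 (one_dvd N) * (va2Jd K0 N (q * q) hqq)⁻¹ - 1) ^ (q - 1)
        = (q : ↥(laurentBaseChange K0 (modularFunctionFieldFull N))) * ε :=
  s36cj_main_of N K0 q hq hqq (s36cj_phi q hq) Lam hu hs hπ hunit

end Fermat.Agent.S36
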