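import Mathlib
import Fermat.Agent.S36.CuspInst3
import Fermat.Agent.S36.CongCar
import Fermat.Agent.S36.Val3Fin

/-!
# S36, (B-c) at cuspidal points of the third component: the certificate at `W_c = s36v3Wc`

`s36ci_main` (S36/CuspInst3.lean) instantiated at the third valuation ring `s36v3Wc M q hM K0 A0`
of VAL3 (table `s36v3_al_Wc`, uniformiser `s36v3_z_Wc`, congruence `s36cc_g` through the expansion
`s36v3Ec` at the middle cusp).

* `s36cw_main`: for ANY integrally closed `A0`-subalgebra `O ⊆ W_c` of the level-`M q²` function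
  field and ANY prime `𝔫` of `O` through which `W_c` passes and which is CUSPIDAL
  (`1/j0 ∈ 𝔫 O_𝔫`, the second alternative of `dma_j_dichotomy`), over an unramified base
  `q = τ ε`: `π = j0/j2 - 1 ∈ O_𝔫 ∩ 𝔪_{W_c}`, `om ∈ O_𝔫`, `c` a unit of `O_𝔫`,
  `π^(q-1) / τ * om - c ∈ 𝔪_{W_c}`
  (= the binders `π hπO hπc om c homO hcO hcong` of `s36we_eps / s36we_prin / s36we_loc`).
  The rational form of the reduced Fermat quotient of `j` ([PU-RAT-J]) is a hypothesis here.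
-/

set_option autoImplicit false
set_option linter.unusedSectionVars false

noncomputable section

open ModularCurve AlgebraicCurve Polynomial
open Fermat.Agent.S18 Fermat.Agent.S34

namespace Fermat.Agent.S36

local notation "Qb" => AlgebraicClosure ℚ

section Carrier

variable (M q : ℕ) [NeZero M] [hq : Fact q.Prime]
  (K0 : Type*) [Field K0] [Algebra ℚ K0] [Algebra K0 Qb]
  (A0 : ValuationSubring K0) [IsDiscreteValuationRing ↥A0]

set_option quotPrecheck false in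
local notation "F₂" => ↥(laurentBaseChange K0 (modularFunctionFieldFull (M * q * q)))

/-- **(B-c) at a cuspidal point of `W_c`: the certificate** (with [PU-RAT-J] as hypothesis). -/
theorem s36cw_main (hM : ¬ q ∣ M)
    [Algebra A0 F₂] [IsScalarTower A0 K0 F₂]
    (hA0 : A0.LiesOverPrime q)
    (τ ε : A0) (hε : IsUnit ε) (hqτ : ((q : ℕ) : ↥A0) = τ * ε)
    (δZ : LaurentSeries ℤ)
    (hδZ : (q : LaurentSeries ℤ) * δZ = jqModC ℤ ^ q - qExpand ℤ q (jqModC ℤ))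
    (P D : (IsLocalRing.ResidueField ↥A0)[X]) (hD : D ≠ 0)
    (hPD : coeffMap (Int.castRingHom (IsLocalRing.ResidueField ↥A0)) δZ *
        aeval (coeffMap (Int.castRingHom (IsLocalRing.ResidueField ↥A0)) (jqModC ℤ)) D =
      aeval (coeffMap (Int.castRingHom (IsLocalRing.ResidueField ↥A0)) (jqModC ℤ)) P)
    (O : Subalgebra A0 F₂) (hint : ∀ x : F₂, IsIntegral ↥O x → x ∈ O)
    (hO : ∀ x ∈ O, x ∈ s36v3Wc M q hM K0 A0)
    (𝔫 : Ideal ↥O) [𝔫.IsPrime]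
    (h1 : ∀ x : ↥O, (x : F₂) ∈ (s36v3Wc M q hM K0 A0).nonunits → x ∈ 𝔫)
    (hcusp : (va2Jd K0 (M * q * q) 1 (one_dvd _))⁻¹ ∈ dmaMax O 𝔫) :
    ∃ π om c : F₂,
      π = va2Jd K0 (M * q * q) 1 (one_dvd _) *
        (va2Jd K0 (M * q * q) (q * q) ⟨M, by ring⟩)⁻¹ - 1 ∧
      (∃ a s : ↥O, s ∉ 𝔫 ∧ π * (s : F₂) = (a : F₂)) ∧
      π ∈ (s36v3Wc M q hM K0 A0).nonunits ∧
      (∃ a s : ↥O, s ∉ 𝔫 ∧ om * (s : F₂) = (a : F₂)) ∧
      (∃ a s : ↥O, a ∉ 𝔫 ∧ s ∉ 𝔫 ∧ c * (s : F₂) = (a : F₂)) ∧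
      π ^ (q - 1) * (algebraMap A0 F₂ τ)⁻¹ * om - c ∈ (s36v3Wc M q hM K0 A0).nonunits := by
  have hf : ((va2Jd K0 M 1 (one_dvd M) : ↥(laurentBaseChange K0 (modularFunctionFieldFull M))) :
      LaurentSeries K0) = coeffMap (Int.castRingHom K0) (jqModC ℤ) := krv_coe_J _
  refine s36ci_main M q K0 A0 hM hA0 τ ε hε hqτ δZ hδZ P D hD hPD (s36v3Wc M q hM K0 A0)
    (s36v3_al_Wc M q hM K0 A0)
    (s36v3_z_Wc M q hM K0 A0 hA0 _ (jqModC ℤ) hf s36v3_jlead).1 ?_ O hint hO 𝔫 h1 hcusp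
  intro g hg hres
  exact s36cc_g M q K0 A0 (s36v3Ap K0 A0) (s36v3Ap_comap K0 A0) hA0 (s36v3Zeta q)
    (s36v3Zeta_spec q) (s36v3Zeta_ne_zero q) (s36v3Wc M q hM K0 A0) (s36v3Ec M q hM K0)
    (s36v3Ec_al M q hM K0)
    (fun f => s36ec_be_be M q hM K0 _ _ _ _ f)
    (fun x h h0 => s36v3_Wc_nonunits_of_series M q hM K0 A0 x h h0)
    (va2Jd K0 M 1 (one_dvd M)) (jqModC ℤ) hf s36v3_jlead g hg hres

end Carrier

end Fermat.Agent.S36
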