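import Mathlib
import Fermat.Agent.S36.CuspWc
import Fermat.Agent.S36.PsiRatJ

/-!
# S36, (B-c) at cuspidal points of the third component: the closed certificate

`s36cw_cert` = `s36cw_main` (S36/CuspWc.lean) with [PU-RAT-J] (`s36pj_main`) discharged:
NO hypothesis left beyond the point data.  For ANY integrally closed `A0`-subalgebra `O ⊆ W_c`
(`W_c = s36v3Wc M q hM K0 A0`) of the level-`M q²` function field, ANY prime `𝔫` of `O` through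
which `W_c` passes, CUSPIDAL (`1/j0 ∈ 𝔫 O_𝔫` = the second alternative of `dma_j_dichotomy`), and
an unramified base `q = τ ε`:

`π = j0/j2 - 1 ∈ O_𝔫 ∩ 𝔪_{W_c}`, `om ∈ O_𝔫`, `c` a unit of `O_𝔫`, `π^(q-1)/τ * om - c ∈ 𝔪_{W_c}`

= the binders `π hπO hπc om c homO hcO hcong` of `s36we_eps / s36we_prin / s36we_loc` (`e = q - 1`).
-/

set_option autoImplicit false
set_option linter.unusedSectionVars false

noncomputable section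

open ModularCurve AlgebraicCurve Polynomial
open Fermat.Agent.S18 Fermat.Agent.S34

namespace Fermat.Agent.S36

local notation "Qb" => AlgebraicClosure ℚ

section Carrier

variable (M q : ℕ) [NeZero M] [hq : Fact q.Prime]
  (K0 : Type*) [Field K0] [Algebra ℚ K0] [Algebra K0 Qb]
  (A0 : ValuationSubring K0) [IsDiscreteValuationRing ↥A0]

set_option quotPrecheck false in
local notation "F₂" => ↥(laurentBaseChange K0 (modularFunctionFieldFull (M * q * q)))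

/-- **(B-c) at a cuspidal point of `W_c`: the certificate, closed.** -/
theorem s36cw_cert (hM : ¬ q ∣ M)
    [Algebra A0 F₂] [IsScalarTower A0 K0 F₂]
    (hA0 : A0.LiesOverPrime q)
    (τ ε : A0) (hε : IsUnit ε) (hqτ : ((q : ℕ) : ↥A0) = τ * ε)
    (O : Subalgebra A0 F₂) (hint : ∀ x : F₂, IsIntegral ↥O x → x ∈ O)
    (hO : ∀ x ∈ O, x ∈ s36v3Wc M q hM K0 A0)
    (𝔫 : Ideal ↥O) [𝔫.IsPrime]
    (h1 : ∀ x : ↥O, (x : F₂) ∈ (s36v3Wc M q hM K0 A0).nonunits → x ∈ 𝔫)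
    (hcusp : (va2Jd K0 (M * q * q) 1 (one_dvd _))⁻¹ ∈ dmaMax O 𝔫) :
    ∃ π om c : F₂,
      π = va2Jd K0 (M * q * q) 1 (one_dvd _) *
        (va2Jd K0 (M * q * q) (q * q) ⟨M, by ring⟩)⁻¹ - 1 ∧
      (∃ a s : ↥O, s ∉ 𝔫 ∧ π * (s : F₂) = (a : F₂)) ∧
      π ∈ (s36v3Wc M q hM K0 A0).nonunits ∧
      (∃ a s : ↥O, s ∉ 𝔫 ∧ om * (s : F₂) = (a : F₂)) ∧
      (∃ a s : ↥O, a ∉ 𝔫 ∧ s ∉ 𝔫 ∧ c * (s : F₂) = (a : F₂)) ∧
      π ^ (q - 1) * (algebraMap A0 F₂ τ)⁻¹ * om - c ∈ (s36v3Wc M q hM K0 A0).nonunits := by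
  obtain ⟨δZ, hδZ⟩ := thd_exists_delta q (jqModC ℤ)
  obtain ⟨P, D, hD, hPD⟩ := s36pj_main q K0 A0 hA0 δZ hδZ
  exact s36cw_main M q K0 A0 hM hA0 τ ε hε hqτ δZ hδZ P D hD hPD O hint hO 𝔫 h1 hcusp

/-- the cusp hypothesis in fraction form (`= mem_dmaMax`, by `Iff.rfl`) -/
theorem s36cw_cert' (hM : ¬ q ∣ M)
    [Algebra A0 F₂] [IsScalarTower A0 K0 F₂]
    (hA0 : A0.LiesOverPrime q)
    (τ ε : A0) (hε : IsUnit ε) (hqτ : ((q : ℕ) : ↥A0) = τ * ε)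
    (O : Subalgebra A0 F₂) (hint : ∀ x : F₂, IsIntegral ↥O x → x ∈ O)
    (hO : ∀ x ∈ O, x ∈ s36v3Wc M q hM K0 A0)
    (𝔫 : Ideal ↥O) [𝔫.IsPrime]
    (h1 : ∀ x : ↥O, (x : F₂) ∈ (s36v3Wc M q hM K0 A0).nonunits → x ∈ 𝔫)
    (hcusp : ∃ a s : ↥O, a ∈ 𝔫 ∧ s ∉ 𝔫 ∧
      (va2Jd K0 (M * q * q) 1 (one_dvd _))⁻¹ * (s : F₂) = (a : F₂)) :
    ∃ π om c : F₂,
      (∃ a s : ↥O, s ∉ 𝔫 ∧ π * (s : F₂) = (a : F₂)) ∧
      π ∈ (s36v3Wc M q hM K0 A0).nonunits ∧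
      (∃ a s : ↥O, s ∉ 𝔫 ∧ om * (s : F₂) = (a : F₂)) ∧
      (∃ a s : ↥O, a ∉ 𝔫 ∧ s ∉ 𝔫 ∧ c * (s : F₂) = (a : F₂)) ∧
      π ^ (q - 1) * (algebraMap A0 F₂ τ)⁻¹ * om - c ∈ (s36v3Wc M q hM K0 A0).nonunits := by
  obtain ⟨π, om, c, -, h⟩ := s36cw_cert M q K0 A0 hM hA0 τ ε hε hqτ O hint hO 𝔫 h1 hcusp
  exact ⟨π, om, c, h⟩

end Carrier

end Fermat.Agent.S36
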