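import Mathlib
import Fermat.Agent.S36.DescentCar

/-!
# S36, package DESCENT-LE: variants of DESCENT-CAR over any field `K' ⊇ K₂`

`K₂ = K₁ ⊓ Qb ^ I`, `I = A.inertiaSubgroupIn ℚ`, `K'` any intermediate field containing `K₂`.

* `s36dl_lift`: a function defined over `K₂` is defined over every `K' ⊇ K₂`.
* `s36dl_fixed_of_range`: a function over `K₁` which is defined over `K₂` is inertia-fixed
  (converse of `s36dc_fixed`).
* `s36dl_main`, `s36dl_pow`: `s36dc_main`, `s36dc_pow` with conclusions over `K'`.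
* `s36dl_pow_of_range`: `s36dl_pow` with the hypothesis "defined over `K₂`" instead of
  "inertia-fixed".
-/

set_option autoImplicit false

noncomputable section

open ModularCurve Fermat.Agent.S18

namespace Fermat.Agent.S36

local notation "Qb" => AlgebraicClosure ℚ

section Le

variable (F₀ : IntermediateField ℚ (LaurentSeries ℚ))

/-- a function defined over `K₂` is defined over every larger field `K'` -/
theorem s36dl_lift (K2 K' : IntermediateField ℚ Qb) (hle : K2 ≤ K')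
    (x2 : ↥(laurentBaseChange ↥K2 F₀)) :
    ∃ x' : ↥(laurentBaseChange ↥K' F₀), bcfHom ↥K' Qb F₀ x' = bcfHom ↥K2 Qb F₀ x2 := by
  haveI : Algebra.IsAlgebraic ℚ Qb := AlgebraicClosure.isAlgebraic ℚ
  haveI : Algebra.IsAlgebraic ↥K' Qb := bcf_isAlgebraic _ _
  have key := s36df_range_of_coeff ↥K' Qb F₀ (bcfHom ↥K2 Qb F₀ x2) ?_
  · obtain ⟨x', hx'⟩ := key
    exact ⟨x', hx'⟩
  intro n
  rw [bcfHom_coe, coeffMap_coeff]
  exact ⟨⟨_, hle ((x2 : LaurentSeries ↥K2).coeff n).2⟩, rfl⟩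

variable (K1 : IntermediateField ℚ Qb) [Normal ℚ K1] (A : ValuationSubring Qb)

/-- a function over `K₁` which is defined over a field fixed by inertia is inertia-fixed -/
theorem s36dl_fixed_of_range (K2 : IntermediateField ℚ Qb)
    (hK2 : K2 ≤ IntermediateField.fixedField (A.inertiaSubgroupIn ℚ))
    (x : ↥(laurentBaseChange ↥K1 F₀))
    (hx : ∃ x2 : ↥(laurentBaseChange ↥K2 F₀), bcfHom ↥K2 Qb F₀ x2 = bcfHom ↥K1 Qb F₀ x)
    (σ : Qb ≃ₐ[ℚ] Qb) (hσ : σ ∈ A.inertiaSubgroupIn ℚ) :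
    arithmeticRingAut F₀ (σ.restrictNormal ↥K1) x = x := by
  obtain ⟨x2, hx2⟩ := hx
  apply Subtype.ext
  rw [coe_arithmeticRingAut_apply]
  ext n
  rw [coeffMap_coeff]
  have h1 : (((x : LaurentSeries ↥K1).coeff n : ↥K1) : Qb) =
      (((x2 : LaurentSeries ↥K2).coeff n : ↥K2) : Qb) := by
    have := congrArg (fun y : ↥(laurentBaseChange Qb F₀) => (y : LaurentSeries Qb).coeff n) hx2
    exact this.symm
  have h2 : σ (((x2 : LaurentSeries ↥K2).coeff n : ↥K2) : Qb) =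
      (((x2 : LaurentSeries ↥K2).coeff n : ↥K2) : Qb) :=
    (IntermediateField.mem_fixedField_iff _ _).mp
      (hK2 ((x2 : LaurentSeries ↥K2).coeff n).2) σ hσ
  have h3 := AlgEquiv.restrictNormal_commutes σ ↥K1 ((x : LaurentSeries ↥K1).coeff n)
  exact h3.trans ((congrArg σ h1).trans (h2.trans h1.symm))

variable [FiniteDimensional ℚ K1]

/-- `s36dc_main` with conclusion over any `K' ⊇ K₁ ⊓ Qb ^ I` -/
theorem s36dl_main (K' : IntermediateField ℚ Qb)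
    (hK' : K1 ⊓ IntermediateField.fixedField (A.inertiaSubgroupIn ℚ) ≤ K')
    (m : ℕ) (hm : m ≠ 0) (f : ↥(laurentBaseChange ↥K1 F₀)) (hf : f ≠ 0)
    (h : ∀ σ ∈ A.inertiaSubgroupIn ℚ, ∃ (c : ↥K1) (g : ↥(laurentBaseChange ↥K1 F₀)), g ≠ 0 ∧
      arithmeticRingAut F₀ (σ.restrictNormal ↥K1) f =
        algebraMap ↥K1 ↥(laurentBaseChange ↥K1 F₀) c * g ^ m * f) :
    ∃ a : ↥K1, a ≠ 0 ∧ ∃ b : ↥(laurentBaseChange ↥K1 F₀), b ≠ 0 ∧
      (∀ σ ∈ A.inertiaSubgroupIn ℚ, arithmeticRingAut F₀ (σ.restrictNormal ↥K1)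
        (algebraMap ↥K1 ↥(laurentBaseChange ↥K1 F₀) a * b ^ m * f) =
          algebraMap ↥K1 ↥(laurentBaseChange ↥K1 F₀) a * b ^ m * f) ∧
      ∃ f' : ↥(laurentBaseChange ↥K' F₀),
        bcfHom ↥K' Qb F₀ f' =
          bcfHom ↥K1 Qb F₀ (algebraMap ↥K1 ↥(laurentBaseChange ↥K1 F₀) a * b ^ m * f) := by
  obtain ⟨a, ha0, b, hb0, f2, hf2⟩ := s36dc_main F₀ K1 A m hm f hf h
  obtain ⟨f', hf'⟩ := s36dl_lift F₀ _ K' hK' f2
  refine ⟨a, ha0, b, hb0, fun σ hσ => ?_, f', hf'.trans hf2⟩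
  exact s36dl_fixed_of_range F₀ K1 A _ inf_le_right _ ⟨f2, hf2⟩ σ hσ

/-- `s36dc_pow` with conclusion over any `K' ⊇ K₁ ⊓ Qb ^ I` -/
theorem s36dl_pow (K' : IntermediateField ℚ Qb)
    (hK' : K1 ⊓ IntermediateField.fixedField (A.inertiaSubgroupIn ℚ) ≤ K')
    (m : ℕ) (hm : m ≠ 0) (x : ↥(laurentBaseChange ↥K1 F₀))
    (hx : ∀ σ ∈ A.inertiaSubgroupIn ℚ, arithmeticRingAut F₀ (σ.restrictNormal ↥K1) x = x)
    (c : ↥K1) (hc0 : c ≠ 0) (e : ↥(laurentBaseChange ↥K1 F₀)) (he0 : e ≠ 0)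
    (hxe : x = algebraMap ↥K1 ↥(laurentBaseChange ↥K1 F₀) c * e ^ m) :
    ∃ (c' : ↥K') (e' : ↥(laurentBaseChange ↥K' F₀)),
      bcfHom ↥K1 Qb F₀ x = bcfHom ↥K' Qb F₀
        (algebraMap ↥K' ↥(laurentBaseChange ↥K' F₀) c' * e' ^ m) := by
  obtain ⟨c2, e2, h2⟩ := s36dc_pow F₀ K1 A m hm x hx c hc0 e he0 hxe
  obtain ⟨e', he'⟩ := s36dl_lift F₀ _ K' hK' e2
  refine ⟨⟨(c2 : Qb), hK' c2.2⟩, e', ?_⟩
  rw [h2, map_mul, map_pow, bcfHom_algebraMap, he']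
  rfl

/-- `s36dl_pow` for a function which is defined over `K₁ ⊓ Qb ^ I` -/
theorem s36dl_pow_of_range (K' : IntermediateField ℚ Qb)
    (hK' : K1 ⊓ IntermediateField.fixedField (A.inertiaSubgroupIn ℚ) ≤ K')
    (m : ℕ) (hm : m ≠ 0) (x : ↥(laurentBaseChange ↥K1 F₀))
    (hx : ∃ x2 : ↥(laurentBaseChange
        ↥(K1 ⊓ IntermediateField.fixedField (A.inertiaSubgroupIn ℚ)) F₀),
      bcfHom ↥(K1 ⊓ IntermediateField.fixedField (A.inertiaSubgroupIn ℚ)) Qb F₀ x2 =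
        bcfHom ↥K1 Qb F₀ x)
    (c : ↥K1) (hc0 : c ≠ 0) (e : ↥(laurentBaseChange ↥K1 F₀)) (he0 : e ≠ 0)
    (hxe : x = algebraMap ↥K1 ↥(laurentBaseChange ↥K1 F₀) c * e ^ m) :
    ∃ (c' : ↥K') (e' : ↥(laurentBaseChange ↥K' F₀)),
      bcfHom ↥K1 Qb F₀ x = bcfHom ↥K' Qb F₀
        (algebraMap ↥K' ↥(laurentBaseChange ↥K' F₀) c' * e' ^ m) :=
  s36dl_pow F₀ K1 A K' hK' m hm x
    (fun σ hσ => s36dl_fixed_of_range F₀ K1 A _ inf_le_right x hx σ hσ) c hc0 e he0 hxe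

end Le

end Fermat.Agent.S36
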