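import Mathlib
import Fermat.Agent.S34.KrullSub

/-!
# S36, family CHART3, leaf INT3: the Krull intersection for a fibre that need not be reduced

`O` a noetherian subalgebra of a field `F`, integrally closed in `F`, with fraction field `F`;
`Ws` a set of valuation subrings of `F` containing every principal ideal valuation ring over `O`
in whose maximal ideal `τ` lies (the "vertical" ones: at level `q ^ 2` the three rings
`W_a`, `W_b`, `W_c`; no hypothesis on the multiplicities of the fibre `τ = 0`).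

* `s36i3_mem`  : `x ∈ V` for the vertical `V ∈ Ws` through the prime `𝔫`, and `x` has no pole
  along the horizontal principal ideal valuation rings through `𝔫`  ⇒  `x ∈ O_𝔫`;
* `s36i3_unit` : the unit form;
* `s36i3_mem_of_forall`, `s36i3_unit_of_forall` : the same when `x` lies in all of `Ws`;
* `s36i3_div` : if `x y⁻¹` lies in the vertical rings through `𝔫` and `y` is a unit along the
  horizontal ones, then `y` divides `x` in `O_𝔫` (fraction form `x * s = y * a`).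
-/

set_option autoImplicit false

namespace Fermat.Agent.S36

open Fermat.Agent.S34

section

variable {A F : Type*} [CommRing A] [Field F] [Algebra A F]

/-- a valuation subring containing `τ` but not `τ⁻¹` has `τ` in its maximal ideal -/
theorem s36i3_nonunit (V : ValuationSubring F) {y : F} (hy : y ∈ V) (hy' : y⁻¹ ∉ V) :
    y ∈ V.nonunits := by
  rw [ValuationSubring.mem_nonunits_iff_exists_mem_maximalIdeal]
  refine ⟨hy, ?_⟩
  rw [IsLocalRing.mem_maximalIdeal, mem_nonunits_iff]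
  intro hu
  obtain ⟨w, hw⟩ := hu.exists_right_inv
  apply hy'
  have hw' : y * (w : F) = 1 := congrArg Subtype.val hw
  have h0 : y ≠ 0 := left_ne_zero_of_mul_eq_one hw'
  have : y⁻¹ = (w : F) := by
    field_simp
    exact hw'.symm
  rw [this]
  exact w.2

/-- **[INT3]**: Krull intersection at a prime `𝔫` of a chart whose vertical principal ideal
valuation rings all lie in the set `Ws`. -/
theorem s36i3_mem (τ : A) (O : Subalgebra A F) [IsNoetherianRing ↥O]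
    (hfrac : ∀ x : F, ∃ a ∈ O, ∃ s ∈ O, s ≠ 0 ∧ x * s = a)
    (hic : ∀ x : F, IsIntegral ↥O x → x ∈ O)
    (Ws : Set (ValuationSubring F))
    (hex : ∀ V : ValuationSubring F, (∀ y ∈ O, y ∈ V) → IsPrincipalIdealRing V → V ≠ ⊤ →
      algebraMap A F τ ∈ V.nonunits → V ∈ Ws)
    (𝔫 : Ideal ↥O) [𝔫.IsPrime] (x : F)
    (hver : ∀ V ∈ Ws, (∀ s : ↥O, s ∉ 𝔫 → (s : F)⁻¹ ∈ V) → x ∈ V)
    (hhor : ∀ V : ValuationSubring F, (∀ y ∈ O, y ∈ V) →
      (∀ s : ↥O, s ∉ 𝔫 → (s : F)⁻¹ ∈ V) → IsPrincipalIdealRing V → V ≠ ⊤ →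
      (algebraMap A F τ)⁻¹ ∈ V → x ∈ V) :
    ∃ a s : ↥O, s ∉ 𝔫 ∧ x * (s : F) = (a : F) := by
  refine kri_sub_mem_localization O hfrac hic 𝔫 x (fun V hO hn hpid htop => ?_)
  by_cases hτ : (algebraMap A F τ)⁻¹ ∈ V
  · exact hhor V hO hn hpid htop hτ
  · exact hver V (hex V hO hpid htop
      (s36i3_nonunit V (hO _ (O.algebraMap_mem τ)) hτ)) hn

/-- **[INT3]**, unit form. -/
theorem s36i3_unit (τ : A) (O : Subalgebra A F) [IsNoetherianRing ↥O]
    (hfrac : ∀ x : F, ∃ a ∈ O, ∃ s ∈ O, s ≠ 0 ∧ x * s = a)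
    (hic : ∀ x : F, IsIntegral ↥O x → x ∈ O)
    (Ws : Set (ValuationSubring F))
    (hex : ∀ V : ValuationSubring F, (∀ y ∈ O, y ∈ V) → IsPrincipalIdealRing V → V ≠ ⊤ →
      algebraMap A F τ ∈ V.nonunits → V ∈ Ws)
    (𝔫 : Ideal ↥O) [𝔫.IsPrime] (x : F) (hx0 : x ≠ 0)
    (hver : ∀ V ∈ Ws, (∀ s : ↥O, s ∉ 𝔫 → (s : F)⁻¹ ∈ V) → x ∈ V ∧ x⁻¹ ∈ V)
    (hhor : ∀ V : ValuationSubring F, (∀ y ∈ O, y ∈ V) →
      (∀ s : ↥O, s ∉ 𝔫 → (s : F)⁻¹ ∈ V) → IsPrincipalIdealRing V → V ≠ ⊤ →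
      (algebraMap A F τ)⁻¹ ∈ V → x ∈ V ∧ x⁻¹ ∈ V) :
    ∃ a b : ↥O, a ∉ 𝔫 ∧ b ∉ 𝔫 ∧ x * (b : F) = (a : F) := by
  refine kri_sub_unit_localization O hfrac hic 𝔫 x hx0 (fun V hO hn hpid htop => ?_)
  by_cases hτ : (algebraMap A F τ)⁻¹ ∈ V
  · exact hhor V hO hn hpid htop hτ
  · exact hver V (hex V hO hpid htop
      (s36i3_nonunit V (hO _ (O.algebraMap_mem τ)) hτ)) hn

/-- **[INT3]** for an element of all the vertical rings. -/
theorem s36i3_mem_of_forall (τ : A) (O : Subalgebra A F) [IsNoetherianRing ↥O]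
    (hfrac : ∀ x : F, ∃ a ∈ O, ∃ s ∈ O, s ≠ 0 ∧ x * s = a)
    (hic : ∀ x : F, IsIntegral ↥O x → x ∈ O)
    (Ws : Set (ValuationSubring F))
    (hex : ∀ V : ValuationSubring F, (∀ y ∈ O, y ∈ V) → IsPrincipalIdealRing V → V ≠ ⊤ →
      algebraMap A F τ ∈ V.nonunits → V ∈ Ws)
    (𝔫 : Ideal ↥O) [𝔫.IsPrime] (x : F) (hver : ∀ V ∈ Ws, x ∈ V)
    (hhor : ∀ V : ValuationSubring F, (∀ y ∈ O, y ∈ V) →
      (∀ s : ↥O, s ∉ 𝔫 → (s : F)⁻¹ ∈ V) → IsPrincipalIdealRing V → V ≠ ⊤ →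
      (algebraMap A F τ)⁻¹ ∈ V → x ∈ V) :
    ∃ a s : ↥O, s ∉ 𝔫 ∧ x * (s : F) = (a : F) :=
  s36i3_mem τ O hfrac hic Ws hex 𝔫 x (fun V hV _ => hver V hV) hhor

/-- **[INT3]**, global form: an element of all the vertical rings without horizontal poles
lies in `O`. -/
theorem s36i3_mem_global (τ : A) (O : Subalgebra A F) [IsNoetherianRing ↥O]
    (hfrac : ∀ x : F, ∃ a ∈ O, ∃ s ∈ O, s ≠ 0 ∧ x * s = a)
    (hic : ∀ x : F, IsIntegral ↥O x → x ∈ O)
    (Ws : Set (ValuationSubring F))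
    (hex : ∀ V : ValuationSubring F, (∀ y ∈ O, y ∈ V) → IsPrincipalIdealRing V → V ≠ ⊤ →
      algebraMap A F τ ∈ V.nonunits → V ∈ Ws)
    (x : F) (hver : ∀ V ∈ Ws, x ∈ V)
    (hhor : ∀ V : ValuationSubring F, (∀ y ∈ O, y ∈ V) → IsPrincipalIdealRing V → V ≠ ⊤ →
      (algebraMap A F τ)⁻¹ ∈ V → x ∈ V) :
    x ∈ O := by
  classical
  -- the ideal of denominators of `x` is not contained in any maximal ideal
  let D : Ideal ↥O :=
    { carrier := {s | x * (s : F) ∈ O}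
      add_mem' := fun {a b} ha hb => by
        show x * ((a + b : ↥O) : F) ∈ O
        rw [Subalgebra.coe_add, mul_add]
        exact O.add_mem ha hb
      zero_mem' := by
        show x * ((0 : ↥O) : F) ∈ O
        rw [Subalgebra.coe_zero, mul_zero]
        exact O.zero_mem
      smul_mem' := fun c a ha => by
        show x * ((c • a : ↥O) : F) ∈ O
        rw [smul_eq_mul, Subalgebra.coe_mul, mul_left_comm]
        exact O.mul_mem c.2 ha }
  have hD : D = ⊤ := by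
    by_contra hne
    obtain ⟨𝔫, h𝔫, hle⟩ := Ideal.exists_le_maximal D hne
    have : 𝔫.IsPrime := h𝔫.isPrime
    obtain ⟨a, s, hs, h⟩ := s36i3_mem_of_forall τ O hfrac hic Ws hex 𝔫 x hver
      (fun V hO _ hpid htop hτ => hhor V hO hpid htop hτ)
    exact hs (hle (show x * (s : F) ∈ O from h ▸ a.2))
  have h1 : (1 : ↥O) ∈ D := hD ▸ Submodule.mem_top
  have h2 : x * ((1 : ↥O) : F) ∈ O := h1
  rwa [Subalgebra.coe_one, mul_one] at h2

end

end Fermat.Agent.S36
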