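import Mathlib

/-!
# S36, triple points, leaf [TRI-NORM-CAR], Mathlib-only half: `LocIntUniq`

Let `R → S` be an integral extension and `𝔫` a prime of `S` which is the **only** prime of `S`
over its contraction `𝔫 ∩ R`.

* `s36lu_div` : every `s ∉ 𝔫` divides (in `S`) the image of some `r ∈ R ∖ (𝔫 ∩ R)`
  (otherwise `(s) ∩ R ⊆ 𝔫 ∩ R` and going up gives a second prime over `𝔫 ∩ R`);
* `s36lu_div_of` : the same with the contraction named (`𝔫'`) and the uniqueness hypothesis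
  stated for primes `𝔮` with `𝔮.comap = 𝔫'`;
* `s36lu_poly` : field form, for a chart map `α : E →+* F`, `α O' ⊆ O`, `O` integral over
  `α O'` (coefficient form), `𝔫` the only prime of `O` over `𝔫1`: every element `r = a / s`
  of the local ring `O_𝔫` is a root of a monic polynomial with coefficients in the local ring
  `O'_𝔫1` (evaluated along `α`) -- the hypothesis `hr` of the norm lemma of the triple points;
* `s36lu_loc` : the same elements written as `α (1 / c) * y`, `y ∈ O`, `c ∈ O' ∖ 𝔫1`.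
-/

set_option autoImplicit false

namespace Fermat.Agent.S36

open Polynomial

/-- **[LOC-INT-UNIQ]**: in an integral extension, if `𝔫` is the only prime over its
contraction, every `s ∉ 𝔫` divides an element of `R` outside the contraction. -/
theorem s36lu_div {R S : Type*} [CommRing R] [CommRing S] [IsDomain S] [Algebra R S]
    [Algebra.IsIntegral R S] (hinj : Function.Injective (algebraMap R S))
    (𝔫 : Ideal S) [𝔫.IsPrime]
    (huniq : ∀ 𝔮 : Ideal S, 𝔮.IsPrime →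
      𝔮.comap (algebraMap R S) = 𝔫.comap (algebraMap R S) → 𝔮 = 𝔫)
    (s : S) (hs : s ∉ 𝔫) :
    ∃ (b : S) (r : R), r ∉ 𝔫.comap (algebraMap R S) ∧ s * b = algebraMap R S r := by
  have _ := hinj
  by_contra hcon
  have hIP : (Ideal.span {s}).comap (algebraMap R S) ≤ 𝔫.comap (algebraMap R S) := by
    intro r hr
    by_contra hr'
    rw [Ideal.mem_comap, Ideal.mem_span_singleton'] at hr
    obtain ⟨b, hb⟩ := hr
    exact hcon ⟨b, r, hr', by rw [← hb, mul_comm]⟩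
  obtain ⟨Q, hQ, hQp, hQc⟩ :=
    Ideal.exists_ideal_over_prime_of_isIntegral (𝔫.comap (algebraMap R S)) (Ideal.span {s}) hIP
  have hQ𝔫 := huniq Q hQp hQc
  exact hs (hQ𝔫 ▸ hQ (Ideal.subset_span (Set.mem_singleton s)))

/-- `s36lu_div` for a ring homomorphism, with the contraction named. -/
theorem s36lu_div_of {R S : Type*} [CommRing R] [CommRing S] (f : R →+* S)
    (hint : f.IsIntegral) (𝔫 : Ideal S) [𝔫.IsPrime] (𝔫' : Ideal R)
    (h𝔫' : 𝔫.comap f = 𝔫')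
    (huniq : ∀ 𝔮 : Ideal S, 𝔮.IsPrime → 𝔮.comap f = 𝔫' → 𝔮 = 𝔫)
    (s : S) (hs : s ∉ 𝔫) :
    ∃ (b : S) (r : R), r ∉ 𝔫' ∧ s * b = f r := by
  let _ : Algebra R S := f.toAlgebra
  have : Algebra.IsIntegral R S := ⟨hint⟩
  by_contra hcon
  have hIP : (Ideal.span {s}).comap (algebraMap R S) ≤ 𝔫.comap (algebraMap R S) := by
    intro r hr
    by_contra hr'
    rw [Ideal.mem_comap, Ideal.mem_span_singleton'] at hr
    obtain ⟨b, hb⟩ := hr
    refine hcon ⟨b, r, ?_, by rw [mul_comm]; exact hb⟩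
    rw [← h𝔫']
    exact hr'
  obtain ⟨Q, hQ, hQp, hQc⟩ :=
    Ideal.exists_ideal_over_prime_of_isIntegral (𝔫.comap (algebraMap R S)) (Ideal.span {s}) hIP
  have hQ𝔫 := huniq Q hQp (hQc.trans h𝔫')
  exact hs (hQ𝔫 ▸ hQ (Ideal.subset_span (Set.mem_singleton s)))

section Field

variable {A E F : Type*} [CommRing A] [Field E] [Field F] [Algebra A E] [Algebra A F]

/-- the restriction of `α` to the charts -/
def s36luRes (α : E →+* F) (O' : Subalgebra A E) (O : Subalgebra A F)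
    (hαO : ∀ x ∈ O', α x ∈ O) : ↥O' →+* ↥O :=
  (α.comp (O'.val : ↥O' →+* E)).codRestrict O (fun x => hαO x x.2)

theorem s36luRes_coe (α : E →+* F) (O' : Subalgebra A E) (O : Subalgebra A F)
    (hαO : ∀ x ∈ O', α x ∈ O) (x : ↥O') :
    ((s36luRes α O' O hαO x : ↥O) : F) = α (x : E) := rfl

/-- integrality of the restriction from the coefficient form -/
theorem s36luRes_isIntegral (α : E →+* F) (O' : Subalgebra A E) (O : Subalgebra A F)
    (hαO : ∀ x ∈ O', α x ∈ O)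
    (hint : ∀ y ∈ O, ∃ p : F[X], p.Monic ∧ (∀ i, ∃ c ∈ O', p.coeff i = α c) ∧ p.eval y = 0) :
    (s36luRes α O' O hαO).IsIntegral := by
  intro y
  obtain ⟨p, hp, hc, hpy⟩ := hint (y : F) y.2
  have hlift : p ∈ Polynomial.lifts (α.comp (O'.val : ↥O' →+* E)) := by
    rw [Polynomial.lifts_iff_coeff_lifts]
    intro i
    obtain ⟨c, hcO, hci⟩ := hc i
    exact ⟨⟨c, hcO⟩, hci.symm⟩
  obtain ⟨P, hP, -, hPm⟩ := Polynomial.lifts_and_degree_eq_and_monic hlift hp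
  refine ⟨P, hPm, Subtype.ext ?_⟩
  have h := Polynomial.hom_eval₂ P (s36luRes α O' O hαO) (O.val : ↥O →+* F) y
  have h2 : (O.val : ↥O →+* F).comp (s36luRes α O' O hαO) = α.comp (O'.val : ↥O' →+* E) := by
    ext x; rfl
  rw [h2] at h
  have h3 : Polynomial.eval₂ (α.comp (O'.val : ↥O' →+* E)) ((O.val : ↥O →+* F) y) P
      = Polynomial.eval (y : F) (P.map (α.comp (O'.val : ↥O' →+* E))) := by
    rw [Polynomial.eval_map]; rfl
  rw [h3, hP, hpy] at h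
  exact h

/-- **local form**: every element of `O_𝔫` is `α (c⁻¹) * y` with `y ∈ O`, `c ∈ O' ∖ 𝔫1`. -/
theorem s36lu_loc (α : E →+* F) (O' : Subalgebra A E) (O : Subalgebra A F)
    (hαO : ∀ x ∈ O', α x ∈ O)
    (hint : ∀ y ∈ O, ∃ p : F[X], p.Monic ∧ (∀ i, ∃ c ∈ O', p.coeff i = α c) ∧ p.eval y = 0)
    (𝔫 : Ideal ↥O) [𝔫.IsPrime] (𝔫1 : Ideal ↥O')
    (hcon : ∀ x : ↥O', x ∈ 𝔫1 ↔ (⟨α (x : E), hαO x x.2⟩ : ↥O) ∈ 𝔫)
    (huniq : ∀ 𝔮 : Ideal ↥O, 𝔮.IsPrime →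
      (∀ x : ↥O', x ∈ 𝔫1 ↔ (⟨α (x : E), hαO x x.2⟩ : ↥O) ∈ 𝔮) → 𝔮 = 𝔫)
    (r : F) (hr : ∃ a s : ↥O, s ∉ 𝔫 ∧ r * (s : F) = (a : F)) :
    ∃ (y : ↥O) (c : ↥O'), c ∉ 𝔫1 ∧ r * α (c : E) = (y : F) := by
  obtain ⟨a, s, hs, hrs⟩ := hr
  have h𝔫' : 𝔫.comap (s36luRes α O' O hαO) = 𝔫1 := by
    ext x
    rw [Ideal.mem_comap]
    exact (hcon x).symm
  obtain ⟨b, c, hc, hsb⟩ := s36lu_div_of (s36luRes α O' O hαO)
    (s36luRes_isIntegral α O' O hαO hint) 𝔫 𝔫1 h𝔫'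
    (fun 𝔮 h𝔮 h => huniq 𝔮 h𝔮 (fun x => by rw [← h, Ideal.mem_comap]; rfl)) s hs
  refine ⟨a * b, c, hc, ?_⟩
  have h1 : ((s : F)) * (b : F) = α (c : E) := by
    have := congrArg (Subtype.val : ↥O → F) hsb
    exact this
  rw [← h1, ← mul_assoc, hrs]
  rfl

/-- **[LOC-INT-UNIQ], field form**: if `𝔫` is the only prime of `O` over the prime `𝔫1` of
`O'` (`O` integral over `α O'`), every element of the local ring `O_𝔫` is a root of a monic
polynomial with coefficients in the local ring `O'_𝔫1`. -/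
theorem s36lu_poly (α : E →+* F) (O' : Subalgebra A E) (O : Subalgebra A F)
    (hαO : ∀ x ∈ O', α x ∈ O)
    (hint : ∀ y ∈ O, ∃ p : F[X], p.Monic ∧ (∀ i, ∃ c ∈ O', p.coeff i = α c) ∧ p.eval y = 0)
    (𝔫 : Ideal ↥O) [𝔫.IsPrime] (𝔫1 : Ideal ↥O') [h𝔫1 : 𝔫1.IsPrime]
    (hcon : ∀ x : ↥O', x ∈ 𝔫1 ↔ (⟨α (x : E), hαO x x.2⟩ : ↥O) ∈ 𝔫)
    (huniq : ∀ 𝔮 : Ideal ↥O, 𝔮.IsPrime →
      (∀ x : ↥O', x ∈ 𝔫1 ↔ (⟨α (x : E), hαO x x.2⟩ : ↥O) ∈ 𝔮) → 𝔮 = 𝔫)
    (r : F) (hr : ∃ a s : ↥O, s ∉ 𝔫 ∧ r * (s : F) = (a : F)) :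
    ∃ p : E[X], p.Monic ∧ (∀ i, ∃ a s : ↥O', s ∉ 𝔫1 ∧ p.coeff i * (s : E) = (a : E)) ∧
      Polynomial.eval₂ α r p = 0 := by
  obtain ⟨y, c, hc, hry⟩ := s36lu_loc α O' O hαO hint 𝔫 𝔫1 hcon huniq r hr
  have hc0 : (c : E) ≠ 0 := by
    intro h0
    apply hc
    have : c = 0 := Subtype.ext h0
    rw [this]
    exact 𝔫1.zero_mem
  have hαc0 : α (c : E) ≠ 0 := by
    rw [Ne, map_eq_zero]; exact hc0
  obtain ⟨P, hPm, hPy⟩ := s36luRes_isIntegral α O' O hαO hint y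
  -- the polynomial over `E`
  have hev : Polynomial.eval₂ α (y : F) (P.map (O'.val : ↥O' →+* E)) = 0 := by
    rw [Polynomial.eval₂_map]
    have h := Polynomial.hom_eval₂ P (s36luRes α O' O hαO) (O.val : ↥O →+* F) y
    have h2 : (O.val : ↥O →+* F).comp (s36luRes α O' O hαO) = α.comp (O'.val : ↥O' →+* E) := by
      ext x; rfl
    rw [h2, hPy, map_zero] at h
    exact h.symm
  refine ⟨Polynomial.scaleRoots (P.map (O'.val : ↥O' →+* E)) ((c : E)⁻¹), ?_, ?_, ?_⟩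
  · rw [Polynomial.monic_scaleRoots_iff]
    exact hPm.map _
  · intro i
    refine ⟨P.coeff i, c ^ ((P.map (O'.val : ↥O' →+* E)).natDegree - i),
      fun h => hc (h𝔫1.mem_of_pow_mem _ h), ?_⟩
    rw [Polynomial.coeff_scaleRoots, Polynomial.coeff_map, Subalgebra.coe_pow, mul_assoc,
      ← mul_pow, inv_mul_cancel₀ hc0, one_pow, mul_one]
    rfl
  · have hr' : r = α ((c : E)⁻¹) * (y : F) := by
      rw [map_inv₀, ← hry, mul_comm, mul_assoc, mul_inv_cancel₀ hαc0, mul_one]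
    rw [hr', Polynomial.scaleRoots_eval₂_mul, hev, mul_zero]

end Field

end Fermat.Agent.S36
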