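import Fermat.Agent.S36.CuspCJ
import Fermat.Agent.S34.ModEqDeg
import Fermat.Agent.S24.Degree

/-!
# S36, package [PHI-ABS]: from the characteristic polynomial to the modular polynomial

The non-modular steps of the construction of the modular polynomial `Φ_q ∈ ℤ[X][Y]`:

* `s36ma_rat` (Mathlib only): a monic polynomial `p` over a field `F ⊇ ℚ(x)` with coefficients in
  `ℚ(x)`, whose coefficients become, after a base change `bcf : F → Fb`, polynomials in `bcf x`
  with algebraic-integer coefficients and bounded degrees, is `Φ(x, Y)` for a `Φ ∈ ℤ[X][Y]` with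
  the same degree bounds;
* `s36ma_series`: an identity `Φ(j(t^a), j(t^b)) = 0` in the level-`N` function field over `ℚ`
  holds between the integral Laurent series;
* `s36ma_swap`: `Φ(j(t), j(t^q)) = 0` implies `Φ(j(t^q), j(t)) = 0` (Atkin-Lehner swap at level
  `1 * q`).
-/

set_option autoImplicit false

open Polynomial AlgebraicCurve ModularCurve IntermediateField
open Fermat.Agent.S18 Fermat.Agent.S37 Fermat.Agent.S24 Fermat.Agent.S28 Fermat.Agent.S34

namespace Fermat.Agent.S36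

section Rat

variable {F Fb Kb : Type*} [Field F] [Field Fb] [Field Kb] [Algebra ℚ F] [Algebra ℚ Kb]
  [Algebra Kb Fb]

/-- base change of a polynomial expression with rational coefficients -/
theorem s36ma_bcf_aeval (bcf : F →+* Fb) (x : F) (r : Polynomial ℚ) :
    bcf (Polynomial.aeval x r) = Polynomial.aeval (bcf x) (r.map (algebraMap ℚ Kb)) := by
  rw [aeval_def, hom_eval₂, aeval_def, eval₂_map]
  congr 1
  exact Subsingleton.elim _ _

/-- one coefficient: rational function of `x` over `ℚ` which is an integral polynomial in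
`bcf x` over `Kb` is an integer polynomial in `x` -/
theorem s36ma_coeff (bcf : F →+* Fb) (x : F)
    (htr : ∀ P : Polynomial Kb, Polynomial.aeval (bcf x) P = 0 → P = 0)
    (c : F) (hc : c ∈ ℚ⟮x⟯) (P : Polynomial Kb) (hP : bcf c = Polynomial.aeval (bcf x) P)
    (hint : ∀ m, IsIntegral ℤ (P.coeff m)) :
    ∃ Q : Polynomial ℤ, c = Polynomial.aeval x Q ∧ Q.natDegree = P.natDegree := by
  have hι : Function.Injective (algebraMap ℚ Kb) := (algebraMap ℚ Kb).injective
  obtain ⟨r, s, hrs⟩ := (mem_adjoin_simple_iff ℚ c).mp hc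
  -- `P = R.map ι` for a rational polynomial `R`
  obtain ⟨R, hR⟩ : ∃ R : Polynomial ℚ, P = R.map (algebraMap ℚ Kb) := by
    by_cases hs : Polynomial.aeval x s = 0
    · refine ⟨0, ?_⟩
      rw [Polynomial.map_zero]
      apply htr
      rw [← hP, hrs, hs, div_zero, map_zero]
    · have hs0 : s ≠ 0 := fun h => hs (by rw [h, map_zero])
      have hsm : s.map (algebraMap ℚ Kb) ≠ 0 := (Polynomial.map_ne_zero_iff hι).mpr hs0
      have h1 : c * Polynomial.aeval x s = Polynomial.aeval x r := by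
        rw [hrs, div_mul_cancel₀ _ hs]
      have h2 := congrArg bcf h1
      rw [map_mul, hP, s36ma_bcf_aeval (Kb := Kb), s36ma_bcf_aeval (Kb := Kb), ← map_mul] at h2
      have h3 : P * s.map (algebraMap ℚ Kb) = r.map (algebraMap ℚ Kb) := by
        have := htr (P * s.map (algebraMap ℚ Kb) - r.map (algebraMap ℚ Kb))
          (by rw [map_sub, h2, sub_self])
        exact sub_eq_zero.mp this
      refine ⟨r / s, ?_⟩
      rw [Polynomial.map_div, ← h3, mul_div_cancel_right₀ _ hsm]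
  -- the coefficients of `R` are integers
  have hRint : ∀ m, R.coeff m ∈ Set.range (Int.castRingHom ℚ) := by
    intro m
    have h1 : IsIntegral ℤ (algebraMap ℚ Kb (R.coeff m)) := by
      have := hint m
      rwa [hR, coeff_map] at this
    have h2 : IsIntegral ℤ (R.coeff m) := (isIntegral_algebraMap_iff hι).mp h1
    obtain ⟨z, hz⟩ := IsIntegrallyClosed.isIntegral_iff.mp h2
    exact ⟨z, by rw [← hz]; rfl⟩
  obtain ⟨Q, hQ⟩ := (lifts_iff_coeff_lifts R).mpr hRint
  have hQ' : Q.map (Int.castRingHom ℚ) = R := hQ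
  refine ⟨Q, ?_, ?_⟩
  · have hinj : Function.Injective bcf := bcf.injective
    apply hinj
    have h4 : Polynomial.aeval x Q = Polynomial.aeval x R := by
      rw [← hQ']
      exact (aeval_map_algebraMap (A := ℚ) x Q).symm
    rw [hP, hR, h4, s36ma_bcf_aeval (Kb := Kb)]
  · rw [hR, ← hQ', natDegree_map_eq_of_injective hι,
      natDegree_map_eq_of_injective (RingHom.injective_int (Int.castRingHom ℚ))]

/-- **[PHI-ABS, rationality]**: from the characteristic polynomial to `Φ ∈ ℤ[X][Y]` -/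
theorem s36ma_rat (bcf : F →+* Fb) (x y : F)
    (htr : ∀ P : Polynomial Kb, Polynomial.aeval (bcf x) P = 0 → P = 0)
    (n d : ℕ) (p : Polynomial F) (hpm : p.Monic) (hpn : p.natDegree = n)
    (hp0 : Polynomial.eval y p = 0) (hpE : ∀ k, p.coeff k ∈ ℚ⟮x⟯)
    (hpP : ∀ k, ∃ P : Polynomial Kb, bcf (p.coeff k) = Polynomial.aeval (bcf x) P ∧
      (∀ m, IsIntegral ℤ (P.coeff m)) ∧ P.natDegree ≤ d * (n - k)) :
    ∃ Φ : Polynomial (Polynomial ℤ), Φ.Monic ∧ Φ.natDegree = n ∧
      (∀ i e : ℕ, (Φ.coeff i).coeff e ≠ 0 → e + d * i ≤ d * n) ∧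
      Φ.eval₂ (Polynomial.aeval x : Polynomial ℤ →ₐ[ℤ] F).toRingHom y = 0 := by
  have hQ : ∀ k, ∃ Q : Polynomial ℤ, p.coeff k = Polynomial.aeval x Q ∧
      Q.natDegree ≤ d * (n - k) := by
    intro k
    obtain ⟨P, h1, h2, h3⟩ := hpP k
    obtain ⟨Q, hQ1, hQ2⟩ := s36ma_coeff bcf x htr _ (hpE k) P h1 h2
    exact ⟨Q, hQ1, hQ2 ▸ h3⟩
  choose Q hQc hQd using hQ
  set S : Polynomial (Polynomial ℤ) := ∑ i ∈ Finset.range n, C (Q i) * X ^ i with hS
  have hScoeff : ∀ m, S.coeff m = if m < n then Q m else 0 := by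
    intro m
    rw [hS, finsetSum_coeff]
    simp only [coeff_C_mul, coeff_X_pow]
    split_ifs with hm
    · rw [Finset.sum_eq_single m]
      · rw [if_pos rfl, mul_one]
      · intro b _ hb
        rw [if_neg (Ne.symm hb), mul_zero]
      · intro hmem
        exact absurd (Finset.mem_range.mpr hm) hmem
    · apply Finset.sum_eq_zero
      intro i hi
      have hi' := Finset.mem_range.mp hi
      rw [if_neg (by omega), mul_zero]
  have hSdeg : S.degree < n := (degree_lt_iff_coeff_zero S n).mpr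
    (fun m hm => by rw [hScoeff, if_neg (by omega)])
  have hdeg : (X ^ n + S).degree = (n : WithBot ℕ) := by
    rw [degree_add_eq_left_of_degree_lt (by rw [degree_X_pow]; exact hSdeg), degree_X_pow]
  refine ⟨X ^ n + S, monic_X_pow_add hSdeg, natDegree_eq_of_degree_eq_some hdeg, ?_, ?_⟩
  · intro i e h
    rw [coeff_add, coeff_X_pow, hScoeff] at h
    rcases lt_trichotomy i n with hi | hi | hi
    · rw [if_neg (by omega), if_pos hi, zero_add] at h
      have h1 : e ≤ (Q i).natDegree := le_natDegree_of_ne_zero h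
      have h2 := hQd i
      have h3 : d * (n - i) + d * i = d * n := by
        rw [← Nat.mul_add, Nat.sub_add_cancel hi.le]
      omega
    · rw [if_pos hi, if_neg (by omega), add_zero, coeff_one] at h
      have he : e = 0 := by
        by_contra hne
        exact h (if_neg hne)
      rw [he, hi]
      omega
    · rw [if_neg (by omega), if_neg (by omega), add_zero, coeff_zero] at h
      exact absurd rfl h
  · have h1 : Polynomial.eval y p = y ^ n + ∑ i ∈ Finset.range n, p.coeff i * y ^ i := by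
      conv_lhs => rw [hpm.as_sum]
      rw [hpn, eval_add, eval_pow, eval_X, eval_finsetSum]
      simp only [eval_mul, eval_C, eval_pow, eval_X]
    rw [eval₂_add, eval₂_pow, eval₂_X, hS, eval₂_finsetSum, ← hp0, h1]
    congr 1
    refine Finset.sum_congr rfl fun i _ => ?_
    rw [eval₂_mul, eval₂_C, eval₂_pow, eval₂_X, hQc i]
    rfl

end Rat

/-! ### Series level -/

theorem s36ma_coeffMap_injective :
    Function.Injective (coeffMap (Int.castRingHom ℚ)) := by
  intro x y hxy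
  ext k
  have h := congrArg (fun z : LaurentSeries ℚ => z.coeff k) hxy
  simp only [coeffMap_coeff] at h
  exact Int.cast_injective h

/-- an identity between the generators `j(t^a)`, `j(t^b)` of the level-`N` function field over
`ℚ` holds between the integral Laurent series -/
theorem s36ma_series (N : ℕ) [Algebra ℤ (LaurentSeries ℤ)]
    [Algebra ℤ ↥(laurentBaseChange ℚ (modularFunctionFieldFull N))]
    (Φ : Polynomial (Polynomial ℤ)) (a b : ℕ) [NeZero a] [NeZero b] (ha : a ∣ N) (hb : b ∣ N)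
    (h : Φ.eval₂ (Polynomial.aeval (va2Jd ℚ N a ha) :
      Polynomial ℤ →ₐ[ℤ] ↥(laurentBaseChange ℚ (modularFunctionFieldFull N))).toRingHom
      (va2Jd ℚ N b hb) = 0) :
    Φ.eval₂ (Polynomial.aeval (qExpand ℤ a (jqModC ℤ)) :
      Polynomial ℤ →ₐ[ℤ] LaurentSeries ℤ).toRingHom (qExpand ℤ b (jqModC ℤ)) = 0 := by
  apply s36ma_coeffMap_injective
  let _ : Algebra ℤ (LaurentSeries ℚ) := Ring.toIntAlgebra _
  have h1 := congrArg (algebraMap ↥(laurentBaseChange ℚ (modularFunctionFieldFull N))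
    (LaurentSeries ℚ)) h
  have e1 : algebraMap ↥(laurentBaseChange ℚ (modularFunctionFieldFull N)) (LaurentSeries ℚ)
      (va2Jd ℚ N a ha) = coeffMap (Int.castRingHom ℚ) (qExpand ℤ a (jqModC ℤ)) :=
    krv_coe_Jd a ha
  have e2 : algebraMap ↥(laurentBaseChange ℚ (modularFunctionFieldFull N)) (LaurentSeries ℚ)
      (va2Jd ℚ N b hb) = coeffMap (Int.castRingHom ℚ) (qExpand ℤ b (jqModC ℤ)) :=
    krv_coe_Jd b hb
  rw [map_zero, ← s36cj_map, e1, e2, s36cj_map] at h1
  rw [map_zero]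
  exact h1

local notation "Qb" => AlgebraicClosure ℚ

/-- the Atkin-Lehner swap at the series level: `Φ(j(t), j(t^q)) = 0` implies
`Φ(j(t^q), j(t)) = 0` -/
theorem s36ma_swap [Algebra ℤ (LaurentSeries ℤ)] (q : ℕ) [NeZero q] (hq : q.Prime)
    (Φ : Polynomial (Polynomial ℤ))
    (h : Φ.eval₂ (Polynomial.aeval (jqModC ℤ) : Polynomial ℤ →ₐ[ℤ] LaurentSeries ℤ).toRingHom
      (qExpand ℤ q (jqModC ℤ)) = 0) :
    Φ.eval₂ (Polynomial.aeval (qExpand ℤ q (jqModC ℤ)) :
      Polynomial ℤ →ₐ[ℤ] LaurentSeries ℤ).toRingHom (jqModC ℤ) = 0 := by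
  have h1 : ¬ q ∣ 1 := hq.not_dvd_one
  have hq1 : q ∣ 1 * q := Dvd.intro_left 1 rfl
  have hq1' : q * 1 ∣ 1 * q := by rw [mul_one]; exact hq1
  let _ : Algebra ℤ ↥(laurentBaseChange ℚ (modularFunctionFieldFull (1 * q))) :=
    Ring.toIntAlgebra _
  have e0 : Φ.eval₂ (Polynomial.aeval (va2Jd ℚ (1 * q) 1 (one_dvd _)) :
      Polynomial ℤ →ₐ[ℤ] ↥(laurentBaseChange ℚ (modularFunctionFieldFull (1 * q)))).toRingHom
      (va2Jd ℚ (1 * q) q hq1) = 0 :=
    s36cj_transport (1 * q) ℚ Φ 1 q (one_dvd _) hq1 (by rw [qExpand_one_apply]; exact h)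
  have e1 := congrArg (va2Swap 1 q hq h1 ℚ) e0
  rw [map_zero, ← s36cj_map] at e1
  have s1 := va2Swap_jd1 1 q hq h1 ℚ 1 (dvd_refl 1)
  have s2 := va2Swap_jd2 1 q hq h1 ℚ 1 (dvd_refl 1)
  have c : va2Jd ℚ (1 * q) q hq1 = va2Jd ℚ (1 * q) (q * 1) hq1' :=
    mqk_va2Jd_congr ℚ (1 * q) (mul_one q).symm hq1 hq1'
  rw [c] at e1
  rw [s1, s2, ← c] at e1
  have e2 := s36ma_series (1 * q) Φ q 1 hq1 (one_dvd _) e1
  rw [qExpand_one_apply] at e2
  exact e2

/-- **[PHI-ABS]**: the modular polynomial from the characteristic polynomial of `j(t^q)` over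
`ℚ(j)` at a level `N` divisible by `q`: statement `s36cjPhi q` of `s36mp_exists`. -/
theorem s36ma_main (q : ℕ) [NeZero q] (hq : q.Prime) (N : ℕ) [NeZero N] (hqN : q ∣ N)
    (p : Polynomial ↥(laurentBaseChange ℚ (modularFunctionFieldFull N))) (hpm : p.Monic)
    (hpn : p.natDegree = q + 1) (hp0 : Polynomial.eval (va2Jd ℚ N q hqN) p = 0)
    (hpE : ∀ k, p.coeff k ∈ ℚ⟮va2Jd ℚ N 1 (one_dvd N)⟯)
    (hpP : ∀ k, ∃ P : Polynomial Qb,
      bcfHom ℚ Qb (modularFunctionFieldFull N) (p.coeff k) = Polynomial.aeval (jBar N) P ∧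
      (∀ m, IsIntegral ℤ (P.coeff m)) ∧ P.natDegree ≤ q * (q + 1 - k)) :
    s36cjPhi q := by
  have hx : bcfHom ℚ Qb (modularFunctionFieldFull N) (va2Jd ℚ N 1 (one_dvd N)) = jBar N := by
    rw [va2_bcf_jd, ← jBar_eq_jdBar_one]
  have htr : ∀ P : Polynomial Qb, Polynomial.aeval
      (bcfHom ℚ Qb (modularFunctionFieldFull N) (va2Jd ℚ N 1 (one_dvd N))) P = 0 → P = 0 := by
    intro P hP
    rw [hx] at hP
    exact transcendental_iff.mp (transcendental_jBar' N) P hP
  obtain ⟨Φ, hm, hd, hb, h0⟩ := s36ma_rat (Kb := Qb)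
    (bcfHom ℚ Qb (modularFunctionFieldFull N)) (va2Jd ℚ N 1 (one_dvd N)) (va2Jd ℚ N q hqN) htr
    (q + 1) q p hpm hpn hp0 hpE (fun k => by rw [hx]; exact hpP k)
  have h01 := s36ma_series N Φ 1 q (one_dvd N) hqN h0
  rw [qExpand_one_apply] at h01
  exact ⟨Φ, hm, hd, hb, h01, s36ma_swap q hq Φ h01⟩

end Fermat.Agent.S36
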