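import Fermat.Agent.S36.CongCar
import Fermat.Agent.S36.PsiSer
import Fermat.Agent.S36.NuPlace
import Fermat.Agent.S36.PsiInt
import Fermat.Agent.S36.WcEps

/-!
# S36, package WC-CERT, part NC: the certificate at the non-cuspidal `W_c`-only points

Carrier: `F1`, `F2` the function fields of level `M q`, `M q²` over `K0`, `al`, `be : F1 → F2`,
`h₀ = al (al' h)`, `h₁ = al (be' h)`, `h₂ = be (be' h)` for the Hauptmodul `h` of level `a2 ∣ M`,
`z = h₂ - h₀`, `ν = q ν'` with `d(al' h) = ν' • d(be' h)`.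

* `s36nc_pir_comap`: the pull-back of a principal valuation ring along a field embedding is
  principal;
* `s36nc_hor`: `al ν'` lies in every principal valuation ring of `F2` over `K0` in which
  `h₀`, `h₁` are finite with non-cuspidal values;
* `s36nc_cert`: at a prime `𝔫` of a chart `O` of level `M q²` through which `W_a`, `W_b` do not
  pass and at which `h₀`, `h₁` are finite and non-cuspidal: the data `(om, c)` of the
  `ε`-criterion `s36we_eps` for `π = z`, `e = q - 1`: `om = al ν ∈ O_𝔫`, `c = -q/τ` a unit, and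
  `z^(q-1) / τ · om - c ∈ 𝔪_{W_c}`.
-/

set_option autoImplicit false

open AlgebraicCurve ModularCurve Polynomial Fermat.Agent.S18 Fermat.Agent.S34

namespace Fermat.Agent.S36

local notation "Qb" => AlgebraicClosure ℚ

section Abs

/-- the pull-back of a principal valuation ring along a field embedding is principal -/
theorem s36nc_pir_comap {F1 F2 : Type*} [Field F1] [Field F2] (φ : F1 →+* F2)
    (V : ValuationSubring F2) (h : IsPrincipalIdealRing V) :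
    IsPrincipalIdealRing (V.comap φ) := by
  refine ⟨fun I => ?_⟩
  let f : ↥(V.comap φ) →+* ↥V :=
    (φ.comp (V.comap φ).subtype).codRestrict V.toSubring (fun x => x.2)
  have hfval : ∀ x : ↥(V.comap φ), ((f x : ↥V) : F2) = φ (x : F1) := fun x => rfl
  have hfinj : ∀ x : ↥(V.comap φ), f x = 0 → x = 0 := by
    intro x hx
    have h1 : φ (x : F1) = 0 := by
      rw [← hfval, hx]
      rfl
    exact Subtype.ext ((map_eq_zero φ).mp h1)
  by_cases hI : I = ⊥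
  · subst hI
    exact ⟨0, by simp⟩
  obtain ⟨g, hg⟩ := (h.principal (Ideal.map f I)).principal
  have hg' : Ideal.map f I = Ideal.span {g} := hg
  have hex : ∃ x ∈ I, ∃ w : ↥V, IsUnit w ∧ f x = g * w := by
    by_contra hcon
    push Not at hcon
    have hle : Ideal.map f I ≤ Ideal.span {g} * IsLocalRing.maximalIdeal ↥V := by
      rw [Ideal.map_le_iff_le_comap]
      intro x hx
      have hfx : f x ∈ Ideal.map f I := Ideal.mem_map_of_mem f hx
      rw [hg'] at hfx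
      obtain ⟨w, hw⟩ := Ideal.mem_span_singleton'.mp hfx
      have hwn : ¬ IsUnit w := fun hu => hcon x hx w hu (by rw [← hw, mul_comm])
      rw [Ideal.mem_comap, ← hw, mul_comm w g]
      exact Ideal.mul_mem_mul (Ideal.mem_span_singleton_self g)
        ((IsLocalRing.mem_maximalIdeal w).mpr hwn)
    have hgmem : g ∈ Ideal.span {g} * IsLocalRing.maximalIdeal ↥V :=
      hle (by rw [hg']; exact Ideal.mem_span_singleton_self g)
    obtain ⟨μ, hμ, hgμ⟩ := Ideal.mem_span_singleton_mul.mp hgmem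
    have h1u : IsUnit (1 - μ) := by
      by_contra hnu
      have h2 : (1 - μ) ∈ IsLocalRing.maximalIdeal ↥V := (IsLocalRing.mem_maximalIdeal _).mpr hnu
      have h3 : (1 : ↥V) ∈ IsLocalRing.maximalIdeal ↥V := by
        have := Ideal.add_mem _ h2 hμ
        rwa [sub_add_cancel] at this
      exact (IsLocalRing.maximalIdeal.isMaximal ↥V).ne_top ((Ideal.eq_top_iff_one _).mpr h3)
    have hg0 : g = 0 := by
      have h4 : g * (1 - μ) = 0 := by rw [mul_sub, mul_one, hgμ, sub_self]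
      exact (h1u.mul_left_eq_zero).mp h4
    apply hI
    rw [eq_bot_iff]
    intro x hx
    have hfx : f x ∈ Ideal.map f I := Ideal.mem_map_of_mem f hx
    rw [hg', hg0] at hfx
    have hfx0 : f x = 0 := by simpa using hfx
    rw [Ideal.mem_bot]
    exact hfinj x hfx0
  obtain ⟨x, hxI, w, hw, hfx⟩ := hex
  have hx0 : (x : F1) ≠ 0 := by
    intro h0
    apply hI
    have hx0' : x = 0 := Subtype.ext h0
    have hg0 : g = 0 := by
      have h5 : g * w = 0 := by rw [← hfx, hx0', map_zero]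
      exact (hw.mul_left_eq_zero).mp h5
    rw [eq_bot_iff]
    intro y hy
    have hfy : f y ∈ Ideal.map f I := Ideal.mem_map_of_mem f hy
    rw [hg', hg0] at hfy
    have hfy0 : f y = 0 := by simpa using hfy
    rw [Ideal.mem_bot]
    exact hfinj y hfy0
  refine ⟨x, le_antisymm ?_ ?_⟩
  · intro y hy
    have hfy : f y ∈ Ideal.map f I := Ideal.mem_map_of_mem f hy
    rw [hg'] at hfy
    obtain ⟨v, hv⟩ := Ideal.mem_span_singleton'.mp hfy
    obtain ⟨w', hw'⟩ := hw.exists_right_inv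
    -- `f y = f x * (w' * v)`
    have h6 : f y = f x * (w' * v) := by
      rw [hfx, ← hv]
      calc v * g = (w * w') * (v * g) := by rw [hw', one_mul]
        _ = g * w * (w' * v) := by ring
    have h7 : φ (y : F1) = φ (x : F1) * ((w' * v : ↥V) : F2) := by
      rw [← hfval, ← hfval, h6]
      rfl
    have h8 : φ ((y : F1) * (x : F1)⁻¹) = ((w' * v : ↥V) : F2) := by
      rw [map_mul, map_inv₀, h7]
      have hφx : φ (x : F1) ≠ 0 := (map_ne_zero φ).mpr hx0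
      field_simp
    have h9 : (y : F1) * (x : F1)⁻¹ ∈ V.comap φ := by
      rw [ValuationSubring.mem_comap, h8]
      exact (w' * v).2
    rw [Submodule.mem_span_singleton]
    refine ⟨⟨_, h9⟩, ?_⟩
    apply Subtype.ext
    show (y : F1) * (x : F1)⁻¹ * (x : F1) = (y : F1)
    rw [mul_assoc, inv_mul_cancel₀ hx0, mul_one]
  · rw [Submodule.span_singleton_le_iff_mem]
    exact hxI

/-- an element of `O_𝔫` lies in every valuation ring through `𝔫` -/
theorem s36nc_loc_mem {A F : Type*} [CommRing A] [Field F] [Algebra A F] (O : Subalgebra A F)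
    (𝔫 : Ideal ↥O) [𝔫.IsPrime] (V : ValuationSubring F) (hOV : ∀ y ∈ O, y ∈ V)
    (hinv : ∀ s : ↥O, s ∉ 𝔫 → (s : F)⁻¹ ∈ V) {x : F}
    (hx : ∃ a s : ↥O, s ∉ 𝔫 ∧ x * (s : F) = (a : F)) : x ∈ V := by
  obtain ⟨a, s, hs, h⟩ := hx
  have hs0 : (s : F) ≠ 0 := fun h0 => hs (by
    have : s = 0 := Subtype.ext h0
    rw [this]; exact 𝔫.zero_mem)
  have e : x = (a : F) * (s : F)⁻¹ := by
    rw [← h, mul_assoc, mul_inv_cancel₀ hs0, mul_one]
  rw [e]
  exact V.mul_mem _ _ (hOV _ a.2) (hinv s hs)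

/-- the inverse of a unit of `O_𝔫` lies in every valuation ring through `𝔫` -/
theorem s36nc_loc_inv_mem {A F : Type*} [CommRing A] [Field F] [Algebra A F] (O : Subalgebra A F)
    (𝔫 : Ideal ↥O) [𝔫.IsPrime] (V : ValuationSubring F) (hOV : ∀ y ∈ O, y ∈ V)
    (hinv : ∀ s : ↥O, s ∉ 𝔫 → (s : F)⁻¹ ∈ V) {x : F}
    (hx : ∃ a s : ↥O, a ∉ 𝔫 ∧ s ∉ 𝔫 ∧ x * (s : F) = (a : F)) : x⁻¹ ∈ V := by
  obtain ⟨a, s, ha, hs, h⟩ := hx
  have hs0 : (s : F) ≠ 0 := fun h0 => hs (by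
    have : s = 0 := Subtype.ext h0
    rw [this]; exact 𝔫.zero_mem)
  have e : x⁻¹ = (s : F) * (a : F)⁻¹ := by
    have hx' : x = (a : F) * (s : F)⁻¹ := by
      rw [← h, mul_assoc, mul_inv_cancel₀ hs0, mul_one]
    rw [hx', mul_inv, inv_inv, mul_comm]
  rw [e]
  exact V.mul_mem _ _ (hOV _ s.2) (hinv a ha)

end Abs

section Carrier

set_option synthInstance.maxHeartbeats 400000

variable (M q : ℕ) [NeZero M] [hq : Fact q.Prime] (hM : ¬ q ∣ M)
  (K0 : Type*) [Field K0] [Algebra ℚ K0] [Algebra K0 Qb]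
  (A0 : ValuationSubring K0) [IsDiscreteValuationRing ↥A0]
  {a2 : ℕ} (H : HauptRec a2 q)

include hM in
/-- **horizontal membership**: `al ν'` is a unit of every principal valuation ring of `F2` over
`K0` in which `h₀ = al (al' h)` and `h₁ = al (be' h)` are finite with non-cuspidal values -/
theorem s36nc_hor (ha2 : a2 ∣ M)
    (ν' : ↥(laurentBaseChange K0 (modularFunctionFieldFull (M * q))))
    (hD : KaehlerDifferential.D K0 ↥(laurentBaseChange K0 (modularFunctionFieldFull (M * q)))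
          (heckeAlphaBar K0 M q (nunH K0 M H ha2)) =
        ν' • KaehlerDifferential.D K0 ↥(laurentBaseChange K0 (modularFunctionFieldFull (M * q)))
          (heckeBetaBar K0 M q (nunH K0 M H ha2)))
    (V : ValuationSubring ↥(laurentBaseChange K0 (modularFunctionFieldFull (M * q * q))))
    (hpir : IsPrincipalIdealRing V)
    (hK : ∀ c : K0,
      algebraMap K0 ↥(laurentBaseChange K0 (modularFunctionFieldFull (M * q * q))) c ∈ V)
    (hh : heckeAlphaBar K0 (M * q) q (heckeAlphaBar K0 M q (nunH K0 M H ha2)) ∈ V)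
    (hQ : (aeval (heckeAlphaBar K0 (M * q) q (heckeAlphaBar K0 M q (nunH K0 M H ha2)))
      H.Qrad)⁻¹ ∈ V)
    (hth : heckeAlphaBar K0 (M * q) q (heckeBetaBar K0 M q (nunH K0 M H ha2)) ∈ V)
    (hQth : (aeval (heckeAlphaBar K0 (M * q) q (heckeBetaBar K0 M q (nunH K0 M H ha2)))
      H.Qrad)⁻¹ ∈ V) :
    heckeAlphaBar K0 (M * q) q ν' ∈ V ∧ (heckeAlphaBar K0 (M * q) q ν')⁻¹ ∈ V := by
  set φ : ↥(laurentBaseChange K0 (modularFunctionFieldFull (M * q))) →+*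
      ↥(laurentBaseChange K0 (modularFunctionFieldFull (M * q * q))) :=
    (heckeAlphaBar K0 (M * q) q).toRingHom with hφ
  have hφa : ∀ x, φ x = heckeAlphaBar K0 (M * q) q x := fun x => rfl
  by_cases htop : V.comap φ = ⊤
  · have h1 : ν' ∈ V.comap φ := by rw [htop]; exact ValuationSubring.mem_top _
    have h2 : ν'⁻¹ ∈ V.comap φ := by rw [htop]; exact ValuationSubring.mem_top _
    rw [ValuationSubring.mem_comap, hφa] at h1 h2
    rw [map_inv₀] at h2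
    exact ⟨h1, h2⟩
  · have haev : ∀ y : ↥(laurentBaseChange K0 (modularFunctionFieldFull (M * q))),
        aeval (heckeAlphaBar K0 (M * q) q y) H.Qrad =
          heckeAlphaBar K0 (M * q) q (aeval y H.Qrad) := fun y =>
      Polynomial.aeval_algHom_apply (heckeAlphaBar K0 (M * q) q).toRingHom.toIntAlgHom y H.Qrad
    obtain ⟨h1, h2⟩ := s36np_val M q hM H ha2 K0 ν' hD (V.comap φ)
      (s36nc_pir_comap φ V hpir) htop
      (fun c => by
        rw [ValuationSubring.mem_comap, hφa, AlgHom.commutes]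
        exact hK c)
      (by rw [ValuationSubring.mem_comap, hφa]; exact hh)
      (by rw [ValuationSubring.mem_comap, hφa, map_inv₀, ← haev]; exact hQ)
      (by rw [ValuationSubring.mem_comap, hφa]; exact hth)
      (by rw [ValuationSubring.mem_comap, hφa, map_inv₀, ← haev]; exact hQth)
    rw [ValuationSubring.mem_comap, hφa] at h1 h2
    rw [map_inv₀] at h2
    exact ⟨h1, h2⟩

include hM in
/-- **[NC-INST] the certificate at a non-cuspidal `W_c`-only point.**  `O` a chart of level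
`M q²` (noetherian, integrally closed, inside `W_a, W_b, W_c`, radical form of reducedness),
`𝔫` a prime through which `W_a`, `W_b` do not pass, at which `h₀`, `h₁` are finite and
`Qrad(h₀)`, `Qrad(h₁)` are units.  Then `om = al ν` lies in `O_𝔫`, `c = -q/τ` is a unit of `O_𝔫`
and `z^(q-1) / τ · om - c ∈ 𝔪_{W_c}` for `z = h₂ - h₀`: the inputs of the `ε`-criterion
`s36we_eps` with `π = z`, `e = q - 1`. -/
theorem s36nc_cert (ha2 : a2 ∣ M) (hA0 : A0.LiesOverPrime q)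
    (A' : ValuationSubring Qb) (hA' : A'.comap (algebraMap K0 Qb) = A0)
    (ζ : Qb) (hζ : IsPrimitiveRoot ζ q) (hζ0 : ζ ≠ 0)
    (Wc : ValuationSubring ↥(laurentBaseChange K0 (modularFunctionFieldFull (M * q * q))))
    (Ec : ↥(laurentBaseChange K0 (modularFunctionFieldFull (M * q * q))) →+* LaurentSeries Qb)
    (hEal : ∀ x : ↥(laurentBaseChange K0 (modularFunctionFieldFull (M * q))),
      Ec (heckeAlphaBar K0 (M * q) q x) = coeffMap (algebraMap K0 Qb) (x : LaurentSeries K0))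
    (hEbe : ∀ f : ↥(laurentBaseChange K0 (modularFunctionFieldFull M)),
      Ec (heckeBetaBar K0 (M * q) q (heckeBetaBar K0 M q f)) =
        ccjTwist ζ hζ0 (coeffMap (algebraMap K0 Qb) (f : LaurentSeries K0)))
    (hdom : ∀ x : ↥(laurentBaseChange K0 (modularFunctionFieldFull (M * q * q))),
      ∀ h : Ec x ∈ grV A', grRho A' ⟨Ec x, h⟩ = 0 → x ∈ Wc.nonunits)
    (halc : ∀ x, heckeAlphaBar K0 (M * q) q x ∈ Wc ↔ x ∈ va2V1 M q K0 A0)
    [Algebra ↥A0 ↥(laurentBaseChange K0 (modularFunctionFieldFull (M * q * q)))]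
    [IsScalarTower ↥A0 K0 ↥(laurentBaseChange K0 (modularFunctionFieldFull (M * q * q)))]
    (τ : A0) (hτ : Irreducible τ) (ε : A0) (hε : IsUnit ε) (hqτ : ((q : ℕ) : ↥A0) = τ * ε)
    (O : Subalgebra ↥A0 ↥(laurentBaseChange K0 (modularFunctionFieldFull (M * q * q))))
    [IsNoetherianRing ↥O]
    (hfrac : ∀ x : ↥(laurentBaseChange K0 (modularFunctionFieldFull (M * q * q))),
      ∃ a ∈ O, ∃ s ∈ O, s ≠ 0 ∧ x * s = a)
    (hic : ∀ x : ↥(laurentBaseChange K0 (modularFunctionFieldFull (M * q * q))),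
      IsIntegral ↥O x → x ∈ O)
    (Wa Wb : ValuationSubring ↥(laurentBaseChange K0 (modularFunctionFieldFull (M * q * q))))
    (hOc : ∀ y ∈ O, y ∈ Wc) (hOa : ∀ y ∈ O, y ∈ Wa) (hOb : ∀ y ∈ O, y ∈ Wb)
    (hWctop : Wc ≠ ⊤) (hWatop : Wa ≠ ⊤) (hWbtop : Wb ≠ ⊤)
    (hred : ∀ x ∈ O, x ∈ Wc.nonunits → x ∈ Wa.nonunits → x ∈ Wb.nonunits →
      ∃ (N : ℕ), ∃ y ∈ O, x ^ N =
        algebraMap ↥A0 ↥(laurentBaseChange K0 (modularFunctionFieldFull (M * q * q))) τ * y)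
    (𝔫 : Ideal ↥O) [𝔫.IsPrime]
    (ha : ∃ r : ↥O,
      (r : ↥(laurentBaseChange K0 (modularFunctionFieldFull (M * q * q)))) ∈ Wa.nonunits ∧ r ∉ 𝔫)
    (hb : ∃ r : ↥O,
      (r : ↥(laurentBaseChange K0 (modularFunctionFieldFull (M * q * q)))) ∈ Wb.nonunits ∧ r ∉ 𝔫)
    (hh0 : ∃ a s : ↥O, s ∉ 𝔫 ∧
      heckeAlphaBar K0 (M * q) q (heckeAlphaBar K0 M q (nunH K0 M H ha2)) *
        (s : ↥(laurentBaseChange K0 (modularFunctionFieldFull (M * q * q)))) = (a : _))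
    (hQ0 : ∃ a s : ↥O, a ∉ 𝔫 ∧ s ∉ 𝔫 ∧
      aeval (heckeAlphaBar K0 (M * q) q (heckeAlphaBar K0 M q (nunH K0 M H ha2))) H.Qrad *
        (s : ↥(laurentBaseChange K0 (modularFunctionFieldFull (M * q * q)))) = (a : _))
    (hh1 : ∃ a s : ↥O, s ∉ 𝔫 ∧
      heckeAlphaBar K0 (M * q) q (heckeBetaBar K0 M q (nunH K0 M H ha2)) *
        (s : ↥(laurentBaseChange K0 (modularFunctionFieldFull (M * q * q)))) = (a : _))
    (hQ1 : ∃ a s : ↥O, a ∉ 𝔫 ∧ s ∉ 𝔫 ∧
      aeval (heckeAlphaBar K0 (M * q) q (heckeBetaBar K0 M q (nunH K0 M H ha2))) H.Qrad *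
        (s : ↥(laurentBaseChange K0 (modularFunctionFieldFull (M * q * q)))) = (a : _)) :
    ∃ om c : ↥(laurentBaseChange K0 (modularFunctionFieldFull (M * q * q))),
      (∃ a s : ↥O, s ∉ 𝔫 ∧ om * (s : _) = (a : _)) ∧
      (∃ a s : ↥O, a ∉ 𝔫 ∧ s ∉ 𝔫 ∧ c * (s : _) = (a : _)) ∧
      (heckeBetaBar K0 (M * q) q (heckeBetaBar K0 M q (nunH K0 M H ha2)) -
          heckeAlphaBar K0 (M * q) q (heckeAlphaBar K0 M q (nunH K0 M H ha2))) ^ (q - 1) *
          (algebraMap ↥A0 ↥(laurentBaseChange K0 (modularFunctionFieldFull (M * q * q))) τ)⁻¹ *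
          om - c ∈ Wc.nonunits := by
  have : NeZero q := ⟨hq.out.ne_zero⟩
  obtain ⟨ν', hD, hcoe⟩ := s36ps_nu M q hM K0 H ha2
  set ν : ↥(laurentBaseChange K0 (modularFunctionFieldFull (M * q))) :=
    ((q : ℕ) : ↥(laurentBaseChange K0 (modularFunctionFieldFull (M * q)))) * ν' with hνdef
  have hνser : (ν : LaurentSeries K0) *
      qExpand K0 q (thdTheta K0 ((nunH K0 M H ha2 :
        ↥(laurentBaseChange K0 (modularFunctionFieldFull M))) : LaurentSeries K0)) =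
      thdTheta K0 ((nunH K0 M H ha2 :
        ↥(laurentBaseChange K0 (modularFunctionFieldFull M))) : LaurentSeries K0) := by
    rw [hcoe]
    exact s36nx_nu_map_mul q H.hZ H.leadZ (R := K0)
  have hcongν := s36cc_nu M q K0 A0 A' hA' hA0 ζ hζ hζ0 Wc Ec hEal hEbe hdom
    (nunH K0 M H ha2) H.hZ rfl H.leadZ ν hνser
  have hν1 : ν ∈ va2V1 M q K0 A0 := by
    rw [mem_va2V1, hcoe]
    exact krv_int_mem A0 _
  have hνc : heckeAlphaBar K0 (M * q) q ν ∈ Wc := (halc ν).mpr hν1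
  have homO := s36we_mem3 τ O hfrac hic Wc Wa Wb hOc hOa hOb hWctop hWatop hWbtop hred 𝔫
    (heckeAlphaBar K0 (M * q) q ν) (Or.inl hνc) (Or.inr ha) (Or.inr hb)
    (fun V hOV hinv hpir _ hτV => by
      have hK := s36pi_const_mem A0 τ hτ V (fun a => hOV _ (O.algebraMap_mem a)) hτV
      obtain ⟨h1, -⟩ := s36nc_hor M q hM K0 H ha2 ν' hD V hpir hK
        (s36nc_loc_mem O 𝔫 V hOV hinv hh0) (s36nc_loc_inv_mem O 𝔫 V hOV hinv hQ0)
        (s36nc_loc_mem O 𝔫 V hOV hinv hh1) (s36nc_loc_inv_mem O 𝔫 V hOV hinv hQ1)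
      rw [hνdef, map_mul, map_natCast]
      have hqV := hK (q : K0)
      rw [map_natCast] at hqV
      exact V.mul_mem _ _ hqV h1)
  set T := algebraMap ↥A0 ↥(laurentBaseChange K0 (modularFunctionFieldFull (M * q * q))) τ
    with hT
  set E := algebraMap ↥A0 ↥(laurentBaseChange K0 (modularFunctionFieldFull (M * q * q))) ε
    with hE
  have hinjA : Function.Injective
      (algebraMap ↥A0 ↥(laurentBaseChange K0 (modularFunctionFieldFull (M * q * q)))) := by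
    intro x y hxy
    rw [IsScalarTower.algebraMap_apply A0 K0
      ↥(laurentBaseChange K0 (modularFunctionFieldFull (M * q * q))),
      IsScalarTower.algebraMap_apply A0 K0
      ↥(laurentBaseChange K0 (modularFunctionFieldFull (M * q * q)))] at hxy
    exact Subtype.ext ((algebraMap K0 _).injective hxy)
  have hT0 : T ≠ 0 := fun h0 => hτ.ne_zero (hinjA (by rw [← hT, h0, map_zero]))
  have hE0 : E ≠ 0 := fun h0 => hε.ne_zero (hinjA (by rw [← hE, h0, map_zero]))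
  have hQ : ((q : ℕ) : ↥(laurentBaseChange K0 (modularFunctionFieldFull (M * q * q)))) = T * E := by
    rw [hT, hE, ← map_mul, ← hqτ, map_natCast]
  refine ⟨heckeAlphaBar K0 (M * q) q ν, -E, homO, ?_, ?_⟩
  · refine ⟨⟨-E, O.neg_mem (O.algebraMap_mem ε)⟩, 1, ?_, ?_, ?_⟩
    · intro hmem
      have hu : IsUnit (algebraMap ↥A0 ↥O ε) := hε.map _
      have hu' : IsUnit (⟨-E, O.neg_mem (O.algebraMap_mem ε)⟩ : ↥O) := by
        have e1 : (⟨-E, O.neg_mem (O.algebraMap_mem ε)⟩ : ↥O) = -(algebraMap ↥A0 ↥O ε) :=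
          Subtype.ext rfl
        rw [e1]
        exact hu.neg
      exact (Ideal.IsPrime.ne_top inferInstance) (Ideal.eq_top_of_isUnit_mem _ hmem hu')
    · intro hmem
      exact (Ideal.IsPrime.ne_top inferInstance) ((Ideal.eq_top_iff_one _).mpr hmem)
    · show -E * ((1 : ↥O) : ↥(laurentBaseChange K0 (modularFunctionFieldFull (M * q * q)))) = -E
      rw [OneMemClass.coe_one, mul_one]
  · have hEc : E ∈ Wc := hOc _ (O.algebraMap_mem ε)
    have h3 := s36cs_nonunits_mul Wc hEc hcongν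
    have e : (heckeBetaBar K0 (M * q) q (heckeBetaBar K0 M q (nunH K0 M H ha2)) -
          heckeAlphaBar K0 (M * q) q (heckeAlphaBar K0 M q (nunH K0 M H ha2))) ^ (q - 1) *
          T⁻¹ * heckeAlphaBar K0 (M * q) q ν - -E =
        E * ((heckeBetaBar K0 (M * q) q (heckeBetaBar K0 M q (nunH K0 M H ha2)) -
          heckeAlphaBar K0 (M * q) q (heckeAlphaBar K0 M q (nunH K0 M H ha2))) ^ (q - 1) *
          ((q : ℕ) : ↥(laurentBaseChange K0 (modularFunctionFieldFull (M * q * q))))⁻¹ *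
          heckeAlphaBar K0 (M * q) q ν + 1) := by
      rw [hQ]
      field_simp
      ring
    rw [e]
    exact h3


omit [IsDiscreteValuationRing ↥A0] in
/-- `z_f ∈ 𝔪_{W_c}` from the `Ec` package -/
theorem s36nc_z_mem (hA0 : A0.LiesOverPrime q)
    (A' : ValuationSubring Qb) (hA' : A'.comap (algebraMap K0 Qb) = A0)
    (ζ : Qb) (hζ : IsPrimitiveRoot ζ q) (hζ0 : ζ ≠ 0)
    (Wc : ValuationSubring ↥(laurentBaseChange K0 (modularFunctionFieldFull (M * q * q))))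
    (Ec : ↥(laurentBaseChange K0 (modularFunctionFieldFull (M * q * q))) →+* LaurentSeries Qb)
    (hEal : ∀ x : ↥(laurentBaseChange K0 (modularFunctionFieldFull (M * q))),
      Ec (heckeAlphaBar K0 (M * q) q x) = coeffMap (algebraMap K0 Qb) (x : LaurentSeries K0))
    (hEbe : ∀ f : ↥(laurentBaseChange K0 (modularFunctionFieldFull M)),
      Ec (heckeBetaBar K0 (M * q) q (heckeBetaBar K0 M q f)) =
        ccjTwist ζ hζ0 (coeffMap (algebraMap K0 Qb) (f : LaurentSeries K0)))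
    (hdom : ∀ x : ↥(laurentBaseChange K0 (modularFunctionFieldFull (M * q * q))),
      ∀ h : Ec x ∈ grV A', grRho A' ⟨Ec x, h⟩ = 0 → x ∈ Wc.nonunits)
    (f : ↥(laurentBaseChange K0 (modularFunctionFieldFull M)))
    (Z : LaurentSeries ℤ) (hf : (f : LaurentSeries K0) = coeffMap (Int.castRingHom K0) Z)
    (hZ : Hp4Lead Z (-1)) :
    heckeBetaBar K0 (M * q) q (heckeBetaBar K0 M q f) -
      heckeAlphaBar K0 (M * q) q (heckeAlphaBar K0 M q f) ∈ Wc.nonunits := by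
  have hqA' : ((q : ℕ) : Qb) ∈ A'.nonunits := s36cc_q_mem q K0 A0 A' hA' hA0
  have hpow : ζ ^ q = 1 := hζ.pow_eq_one
  have hζA : ζ ∈ A' := s36tw_root_mem A' ζ q hq.out.ne_zero hpow
  have hζA' : ζ⁻¹ ∈ A' := s36tw_root_inv_mem A' ζ q hq.out.ne_zero hpow
  have h1 : ζ - 1 ∈ A'.nonunits := s36tw_root_sub_one A' q hqA' ζ hpow
  have hζ1 : ζ ≠ 1 := hζ.ne_one hq.out.one_lt
  have h1' : ζ⁻¹ - 1 ∈ A'.nonunits := s36tw_inv_sub_one A' ζ hζ0 hζA' h1
  obtain ⟨u, hu, hsub, -⟩ := s36cs_sub A' ζ hζ0 hζA hζ1 h1 Z hZ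
  have hF : coeffMap (algebraMap K0 Qb) (f : LaurentSeries K0) = coeffMap (Int.castRingHom Qb) Z := by
    rw [hf, coeffMap_coeffMap]
    exact coeffMap_congr (RingHom.ext_int _ _) Z
  have hE : Ec (heckeBetaBar K0 (M * q) q (heckeBetaBar K0 M q f) -
      heckeAlphaBar K0 (M * q) q (heckeAlphaBar K0 M q f)) =
      algebraMap Qb (LaurentSeries Qb) (ζ⁻¹ - 1) * u := by
    rw [map_sub, hEbe, hEal, coe_heckeAlphaBar, hF, hsub]
  set c : A' := ⟨ζ⁻¹ - 1, A'.nonunits_subset h1'⟩ with hc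
  have hcres : IsLocalRing.residue A' c = 0 := by
    rw [IsLocalRing.residue_eq_zero_iff, ← ValuationSubring.coe_mem_nonunits_iff]
    exact h1'
  have hmem : Ec (heckeBetaBar K0 (M * q) q (heckeBetaBar K0 M q f) -
      heckeAlphaBar K0 (M * q) q (heckeAlphaBar K0 M q f)) ∈ grV A' := by
    rw [hE]
    exact (grV A').mul_mem (gr_algebraMap_mem A' c) hu
  refine hdom _ hmem ?_
  have e : (⟨_, hmem⟩ : grV A') =
      ⟨algebraMap Qb (LaurentSeries Qb) ((c : A') : Qb), gr_algebraMap_mem A' c⟩ * ⟨u, hu⟩ :=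
    Subtype.ext hE
  rw [e, map_mul, grRho_algebraMap, hcres, map_zero, zero_mul]

include hM in
/-- **[NC-INST], `ε` form**: `z^(q-1) = τ · (unit of O_𝔫)` at a non-cuspidal `W_c`-only point -/
theorem s36nc_eps (ha2 : a2 ∣ M) (hA0 : A0.LiesOverPrime q)
    (A' : ValuationSubring Qb) (hA' : A'.comap (algebraMap K0 Qb) = A0)
    (ζ : Qb) (hζ : IsPrimitiveRoot ζ q) (hζ0 : ζ ≠ 0)
    (Wc : ValuationSubring ↥(laurentBaseChange K0 (modularFunctionFieldFull (M * q * q))))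
    (Ec : ↥(laurentBaseChange K0 (modularFunctionFieldFull (M * q * q))) →+* LaurentSeries Qb)
    (hEal : ∀ x : ↥(laurentBaseChange K0 (modularFunctionFieldFull (M * q))),
      Ec (heckeAlphaBar K0 (M * q) q x) = coeffMap (algebraMap K0 Qb) (x : LaurentSeries K0))
    (hEbe : ∀ f : ↥(laurentBaseChange K0 (modularFunctionFieldFull M)),
      Ec (heckeBetaBar K0 (M * q) q (heckeBetaBar K0 M q f)) =
        ccjTwist ζ hζ0 (coeffMap (algebraMap K0 Qb) (f : LaurentSeries K0)))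
    (hdom : ∀ x : ↥(laurentBaseChange K0 (modularFunctionFieldFull (M * q * q))),
      ∀ h : Ec x ∈ grV A', grRho A' ⟨Ec x, h⟩ = 0 → x ∈ Wc.nonunits)
    (halc : ∀ x, heckeAlphaBar K0 (M * q) q x ∈ Wc ↔ x ∈ va2V1 M q K0 A0)
    [Algebra ↥A0 ↥(laurentBaseChange K0 (modularFunctionFieldFull (M * q * q)))]
    [IsScalarTower ↥A0 K0 ↥(laurentBaseChange K0 (modularFunctionFieldFull (M * q * q)))]
    (τ : A0) (hτ : Irreducible τ) (ε : A0) (hε : IsUnit ε) (hqτ : ((q : ℕ) : ↥A0) = τ * ε)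
    (O : Subalgebra ↥A0 ↥(laurentBaseChange K0 (modularFunctionFieldFull (M * q * q))))
    [IsNoetherianRing ↥O]
    (hfrac : ∀ x : ↥(laurentBaseChange K0 (modularFunctionFieldFull (M * q * q))),
      ∃ a ∈ O, ∃ s ∈ O, s ≠ 0 ∧ x * s = a)
    (hic : ∀ x : ↥(laurentBaseChange K0 (modularFunctionFieldFull (M * q * q))),
      IsIntegral ↥O x → x ∈ O)
    (Wa Wb : ValuationSubring ↥(laurentBaseChange K0 (modularFunctionFieldFull (M * q * q))))
    (hOc : ∀ y ∈ O, y ∈ Wc) (hOa : ∀ y ∈ O, y ∈ Wa) (hOb : ∀ y ∈ O, y ∈ Wb)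
    (hWctop : Wc ≠ ⊤) (hWatop : Wa ≠ ⊤) (hWbtop : Wb ≠ ⊤)
    (hred : ∀ x ∈ O, x ∈ Wc.nonunits → x ∈ Wa.nonunits → x ∈ Wb.nonunits →
      ∃ (N : ℕ), ∃ y ∈ O, x ^ N =
        algebraMap ↥A0 ↥(laurentBaseChange K0 (modularFunctionFieldFull (M * q * q))) τ * y)
    (𝔫 : Ideal ↥O) [𝔫.IsPrime]
    (ha : ∃ r : ↥O,
      (r : ↥(laurentBaseChange K0 (modularFunctionFieldFull (M * q * q)))) ∈ Wa.nonunits ∧ r ∉ 𝔫)
    (hb : ∃ r : ↥O,
      (r : ↥(laurentBaseChange K0 (modularFunctionFieldFull (M * q * q)))) ∈ Wb.nonunits ∧ r ∉ 𝔫)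
    (hh0 : ∃ a s : ↥O, s ∉ 𝔫 ∧
      heckeAlphaBar K0 (M * q) q (heckeAlphaBar K0 M q (nunH K0 M H ha2)) *
        (s : ↥(laurentBaseChange K0 (modularFunctionFieldFull (M * q * q)))) = (a : _))
    (hQ0 : ∃ a s : ↥O, a ∉ 𝔫 ∧ s ∉ 𝔫 ∧
      aeval (heckeAlphaBar K0 (M * q) q (heckeAlphaBar K0 M q (nunH K0 M H ha2))) H.Qrad *
        (s : ↥(laurentBaseChange K0 (modularFunctionFieldFull (M * q * q)))) = (a : _))
    (hh1 : ∃ a s : ↥O, s ∉ 𝔫 ∧
      heckeAlphaBar K0 (M * q) q (heckeBetaBar K0 M q (nunH K0 M H ha2)) *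
        (s : ↥(laurentBaseChange K0 (modularFunctionFieldFull (M * q * q)))) = (a : _))
    (hQ1 : ∃ a s : ↥O, a ∉ 𝔫 ∧ s ∉ 𝔫 ∧
      aeval (heckeAlphaBar K0 (M * q) q (heckeBetaBar K0 M q (nunH K0 M H ha2))) H.Qrad *
        (s : ↥(laurentBaseChange K0 (modularFunctionFieldFull (M * q * q)))) = (a : _))
    (h1 : ∀ x : ↥O, (x : ↥(laurentBaseChange K0 (modularFunctionFieldFull (M * q * q)))) ∈ Wc.nonunits → x ∈ 𝔫)
    (hE : ∀ y ∈ Wc.nonunits, y ^ (q - 1) *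
      (algebraMap ↥A0 ↥(laurentBaseChange K0 (modularFunctionFieldFull (M * q * q))) τ)⁻¹ ∈ Wc)
    (hzO : ∃ a s : ↥O, s ∉ 𝔫 ∧ (heckeBetaBar K0 (M * q) q (heckeBetaBar K0 M q (nunH K0 M H ha2)) -
          heckeAlphaBar K0 (M * q) q (heckeAlphaBar K0 M q (nunH K0 M H ha2))) * (s : ↥(laurentBaseChange K0 (modularFunctionFieldFull (M * q * q)))) = (a : _)) :
    ∃ a s : ↥O, a ∉ 𝔫 ∧ s ∉ 𝔫 ∧
      (heckeBetaBar K0 (M * q) q (heckeBetaBar K0 M q (nunH K0 M H ha2)) -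
          heckeAlphaBar K0 (M * q) q (heckeAlphaBar K0 M q (nunH K0 M H ha2))) ^ (q - 1) * (s : ↥(laurentBaseChange K0 (modularFunctionFieldFull (M * q * q)))) =
        algebraMap ↥A0 ↥(laurentBaseChange K0 (modularFunctionFieldFull (M * q * q))) τ * (a : _) := by
  obtain ⟨om, c, homO, hcO, hcong⟩ := s36nc_cert M q hM K0 A0 H ha2 hA0 A' hA' ζ hζ hζ0 Wc Ec hEal hEbe hdom halc τ hτ ε hε hqτ O hfrac hic Wa Wb
    hOc hOa hOb hWctop hWatop hWbtop hred 𝔫 ha hb hh0 hQ0 hh1 hQ1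
  have hzc := s36nc_z_mem M q K0 A0 hA0 A' hA' ζ hζ hζ0 Wc Ec hEal hEbe hdom
    (nunH K0 M H ha2) H.hZ rfl H.leadZ
  have hτ0 : algebraMap ↥A0 ↥(laurentBaseChange K0 (modularFunctionFieldFull (M * q * q))) τ ≠ 0 := by
    rw [IsScalarTower.algebraMap_apply A0 K0 ↥(laurentBaseChange K0 (modularFunctionFieldFull (M * q * q))), Ne, map_eq_zero]
    intro h0
    exact hτ.ne_zero (Subtype.ext h0)
  exact s36we_eps τ hτ0 O hfrac hic Wc Wa Wb hOc hOa hOb hWctop hWatop hWbtop hred 𝔫 h1 ha hb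
    (q - 1) hE _ hzO hzc om c homO hcO hcong

include hM in
/-- **[NC-INST], principal form**: `𝔭_c O_𝔫 = z O_𝔫` at a non-cuspidal `W_c`-only point -/
theorem s36nc_prin (ha2 : a2 ∣ M) (hA0 : A0.LiesOverPrime q)
    (A' : ValuationSubring Qb) (hA' : A'.comap (algebraMap K0 Qb) = A0)
    (ζ : Qb) (hζ : IsPrimitiveRoot ζ q) (hζ0 : ζ ≠ 0)
    (Wc : ValuationSubring ↥(laurentBaseChange K0 (modularFunctionFieldFull (M * q * q))))
    (Ec : ↥(laurentBaseChange K0 (modularFunctionFieldFull (M * q * q))) →+* LaurentSeries Qb)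
    (hEal : ∀ x : ↥(laurentBaseChange K0 (modularFunctionFieldFull (M * q))),
      Ec (heckeAlphaBar K0 (M * q) q x) = coeffMap (algebraMap K0 Qb) (x : LaurentSeries K0))
    (hEbe : ∀ f : ↥(laurentBaseChange K0 (modularFunctionFieldFull M)),
      Ec (heckeBetaBar K0 (M * q) q (heckeBetaBar K0 M q f)) =
        ccjTwist ζ hζ0 (coeffMap (algebraMap K0 Qb) (f : LaurentSeries K0)))
    (hdom : ∀ x : ↥(laurentBaseChange K0 (modularFunctionFieldFull (M * q * q))),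
      ∀ h : Ec x ∈ grV A', grRho A' ⟨Ec x, h⟩ = 0 → x ∈ Wc.nonunits)
    (halc : ∀ x, heckeAlphaBar K0 (M * q) q x ∈ Wc ↔ x ∈ va2V1 M q K0 A0)
    [Algebra ↥A0 ↥(laurentBaseChange K0 (modularFunctionFieldFull (M * q * q)))]
    [IsScalarTower ↥A0 K0 ↥(laurentBaseChange K0 (modularFunctionFieldFull (M * q * q)))]
    (τ : A0) (hτ : Irreducible τ) (ε : A0) (hε : IsUnit ε) (hqτ : ((q : ℕ) : ↥A0) = τ * ε)
    (O : Subalgebra ↥A0 ↥(laurentBaseChange K0 (modularFunctionFieldFull (M * q * q))))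
    [IsNoetherianRing ↥O]
    (hfrac : ∀ x : ↥(laurentBaseChange K0 (modularFunctionFieldFull (M * q * q))),
      ∃ a ∈ O, ∃ s ∈ O, s ≠ 0 ∧ x * s = a)
    (hic : ∀ x : ↥(laurentBaseChange K0 (modularFunctionFieldFull (M * q * q))),
      IsIntegral ↥O x → x ∈ O)
    (Wa Wb : ValuationSubring ↥(laurentBaseChange K0 (modularFunctionFieldFull (M * q * q))))
    (hOc : ∀ y ∈ O, y ∈ Wc) (hOa : ∀ y ∈ O, y ∈ Wa) (hOb : ∀ y ∈ O, y ∈ Wb)
    (hWctop : Wc ≠ ⊤) (hWatop : Wa ≠ ⊤) (hWbtop : Wb ≠ ⊤)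
    (hred : ∀ x ∈ O, x ∈ Wc.nonunits → x ∈ Wa.nonunits → x ∈ Wb.nonunits →
      ∃ (N : ℕ), ∃ y ∈ O, x ^ N =
        algebraMap ↥A0 ↥(laurentBaseChange K0 (modularFunctionFieldFull (M * q * q))) τ * y)
    (𝔫 : Ideal ↥O) [𝔫.IsPrime]
    (ha : ∃ r : ↥O,
      (r : ↥(laurentBaseChange K0 (modularFunctionFieldFull (M * q * q)))) ∈ Wa.nonunits ∧ r ∉ 𝔫)
    (hb : ∃ r : ↥O,
      (r : ↥(laurentBaseChange K0 (modularFunctionFieldFull (M * q * q)))) ∈ Wb.nonunits ∧ r ∉ 𝔫)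
    (hh0 : ∃ a s : ↥O, s ∉ 𝔫 ∧
      heckeAlphaBar K0 (M * q) q (heckeAlphaBar K0 M q (nunH K0 M H ha2)) *
        (s : ↥(laurentBaseChange K0 (modularFunctionFieldFull (M * q * q)))) = (a : _))
    (hQ0 : ∃ a s : ↥O, a ∉ 𝔫 ∧ s ∉ 𝔫 ∧
      aeval (heckeAlphaBar K0 (M * q) q (heckeAlphaBar K0 M q (nunH K0 M H ha2))) H.Qrad *
        (s : ↥(laurentBaseChange K0 (modularFunctionFieldFull (M * q * q)))) = (a : _))
    (hh1 : ∃ a s : ↥O, s ∉ 𝔫 ∧
      heckeAlphaBar K0 (M * q) q (heckeBetaBar K0 M q (nunH K0 M H ha2)) *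
        (s : ↥(laurentBaseChange K0 (modularFunctionFieldFull (M * q * q)))) = (a : _))
    (hQ1 : ∃ a s : ↥O, a ∉ 𝔫 ∧ s ∉ 𝔫 ∧
      aeval (heckeAlphaBar K0 (M * q) q (heckeBetaBar K0 M q (nunH K0 M H ha2))) H.Qrad *
        (s : ↥(laurentBaseChange K0 (modularFunctionFieldFull (M * q * q)))) = (a : _))
    (h1 : ∀ x : ↥O, (x : ↥(laurentBaseChange K0 (modularFunctionFieldFull (M * q * q)))) ∈ Wc.nonunits → x ∈ 𝔫)
    (hE : ∀ y ∈ Wc.nonunits, y ^ (q - 1) *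
      (algebraMap ↥A0 ↥(laurentBaseChange K0 (modularFunctionFieldFull (M * q * q))) τ)⁻¹ ∈ Wc)
    (hzO : ∃ a s : ↥O, s ∉ 𝔫 ∧ (heckeBetaBar K0 (M * q) q (heckeBetaBar K0 M q (nunH K0 M H ha2)) -
          heckeAlphaBar K0 (M * q) q (heckeAlphaBar K0 M q (nunH K0 M H ha2))) * (s : ↥(laurentBaseChange K0 (modularFunctionFieldFull (M * q * q)))) = (a : _)) :
    ∀ x : ↥O, (x : ↥(laurentBaseChange K0 (modularFunctionFieldFull (M * q * q)))) ∈ Wc.nonunits →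
      ∃ b c' : ↥O, c' ∉ 𝔫 ∧ (x : ↥(laurentBaseChange K0 (modularFunctionFieldFull (M * q * q)))) * (c' : _) =
        (heckeBetaBar K0 (M * q) q (heckeBetaBar K0 M q (nunH K0 M H ha2)) -
          heckeAlphaBar K0 (M * q) q (heckeAlphaBar K0 M q (nunH K0 M H ha2))) * (b : _) := by
  obtain ⟨om, c, homO, hcO, hcong⟩ := s36nc_cert M q hM K0 A0 H ha2 hA0 A' hA' ζ hζ hζ0 Wc Ec hEal hEbe hdom halc τ hτ ε hε hqτ O hfrac hic Wa Wb
    hOc hOa hOb hWctop hWatop hWbtop hred 𝔫 ha hb hh0 hQ0 hh1 hQ1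
  have hzc := s36nc_z_mem M q K0 A0 hA0 A' hA' ζ hζ hζ0 Wc Ec hEal hEbe hdom
    (nunH K0 M H ha2) H.hZ rfl H.leadZ
  have hτ0 : algebraMap ↥A0 ↥(laurentBaseChange K0 (modularFunctionFieldFull (M * q * q))) τ ≠ 0 := by
    rw [IsScalarTower.algebraMap_apply A0 K0 ↥(laurentBaseChange K0 (modularFunctionFieldFull (M * q * q))), Ne, map_eq_zero]
    intro h0
    exact hτ.ne_zero (Subtype.ext h0)
  have he : 0 < q - 1 := Nat.sub_pos_of_lt hq.out.one_lt
  exact s36we_prin τ hτ0 O hfrac hic Wc Wa Wb hOc hOa hOb hWctop hWatop hWbtop hred 𝔫 h1 ha hb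
    (q - 1) he hE _ hzO hzc om c homO hcO hcong

include hM in
/-- **[NC-INST], (LOC) form**: (LOC) holds at every non-cuspidal `W_c`-only closed point, for
every `f` with `hord` -/
theorem s36nc_loc (ha2 : a2 ∣ M) (hA0 : A0.LiesOverPrime q)
    (A' : ValuationSubring Qb) (hA' : A'.comap (algebraMap K0 Qb) = A0)
    (ζ : Qb) (hζ : IsPrimitiveRoot ζ q) (hζ0 : ζ ≠ 0)
    (Wc : ValuationSubring ↥(laurentBaseChange K0 (modularFunctionFieldFull (M * q * q))))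
    (Ec : ↥(laurentBaseChange K0 (modularFunctionFieldFull (M * q * q))) →+* LaurentSeries Qb)
    (hEal : ∀ x : ↥(laurentBaseChange K0 (modularFunctionFieldFull (M * q))),
      Ec (heckeAlphaBar K0 (M * q) q x) = coeffMap (algebraMap K0 Qb) (x : LaurentSeries K0))
    (hEbe : ∀ f : ↥(laurentBaseChange K0 (modularFunctionFieldFull M)),
      Ec (heckeBetaBar K0 (M * q) q (heckeBetaBar K0 M q f)) =
        ccjTwist ζ hζ0 (coeffMap (algebraMap K0 Qb) (f : LaurentSeries K0)))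
    (hdom : ∀ x : ↥(laurentBaseChange K0 (modularFunctionFieldFull (M * q * q))),
      ∀ h : Ec x ∈ grV A', grRho A' ⟨Ec x, h⟩ = 0 → x ∈ Wc.nonunits)
    (halc : ∀ x, heckeAlphaBar K0 (M * q) q x ∈ Wc ↔ x ∈ va2V1 M q K0 A0)
    [Algebra ↥A0 ↥(laurentBaseChange K0 (modularFunctionFieldFull (M * q * q)))]
    [IsScalarTower ↥A0 K0 ↥(laurentBaseChange K0 (modularFunctionFieldFull (M * q * q)))]
    (τ : A0) (hτ : Irreducible τ) (ε : A0) (hε : IsUnit ε) (hqτ : ((q : ℕ) : ↥A0) = τ * ε)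
    (O : Subalgebra ↥A0 ↥(laurentBaseChange K0 (modularFunctionFieldFull (M * q * q))))
    [IsNoetherianRing ↥O]
    (hfrac : ∀ x : ↥(laurentBaseChange K0 (modularFunctionFieldFull (M * q * q))),
      ∃ a ∈ O, ∃ s ∈ O, s ≠ 0 ∧ x * s = a)
    (hic : ∀ x : ↥(laurentBaseChange K0 (modularFunctionFieldFull (M * q * q))),
      IsIntegral ↥O x → x ∈ O)
    (Wa Wb : ValuationSubring ↥(laurentBaseChange K0 (modularFunctionFieldFull (M * q * q))))
    (hOc : ∀ y ∈ O, y ∈ Wc) (hOa : ∀ y ∈ O, y ∈ Wa) (hOb : ∀ y ∈ O, y ∈ Wb)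
    (hWctop : Wc ≠ ⊤) (hWatop : Wa ≠ ⊤) (hWbtop : Wb ≠ ⊤)
    (hred : ∀ x ∈ O, x ∈ Wc.nonunits → x ∈ Wa.nonunits → x ∈ Wb.nonunits →
      ∃ (N : ℕ), ∃ y ∈ O, x ^ N =
        algebraMap ↥A0 ↥(laurentBaseChange K0 (modularFunctionFieldFull (M * q * q))) τ * y)
    (𝔫 : Ideal ↥O) [𝔫.IsPrime]
    (ha : ∃ r : ↥O,
      (r : ↥(laurentBaseChange K0 (modularFunctionFieldFull (M * q * q)))) ∈ Wa.nonunits ∧ r ∉ 𝔫)
    (hb : ∃ r : ↥O,
      (r : ↥(laurentBaseChange K0 (modularFunctionFieldFull (M * q * q)))) ∈ Wb.nonunits ∧ r ∉ 𝔫)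
    (hh0 : ∃ a s : ↥O, s ∉ 𝔫 ∧
      heckeAlphaBar K0 (M * q) q (heckeAlphaBar K0 M q (nunH K0 M H ha2)) *
        (s : ↥(laurentBaseChange K0 (modularFunctionFieldFull (M * q * q)))) = (a : _))
    (hQ0 : ∃ a s : ↥O, a ∉ 𝔫 ∧ s ∉ 𝔫 ∧
      aeval (heckeAlphaBar K0 (M * q) q (heckeAlphaBar K0 M q (nunH K0 M H ha2))) H.Qrad *
        (s : ↥(laurentBaseChange K0 (modularFunctionFieldFull (M * q * q)))) = (a : _))
    (hh1 : ∃ a s : ↥O, s ∉ 𝔫 ∧
      heckeAlphaBar K0 (M * q) q (heckeBetaBar K0 M q (nunH K0 M H ha2)) *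
        (s : ↥(laurentBaseChange K0 (modularFunctionFieldFull (M * q * q)))) = (a : _))
    (hQ1 : ∃ a s : ↥O, a ∉ 𝔫 ∧ s ∉ 𝔫 ∧
      aeval (heckeAlphaBar K0 (M * q) q (heckeBetaBar K0 M q (nunH K0 M H ha2))) H.Qrad *
        (s : ↥(laurentBaseChange K0 (modularFunctionFieldFull (M * q * q)))) = (a : _))
    (h𝔫 : 𝔫.IsMaximal)
    (h1 : ∀ x : ↥O, (x : ↥(laurentBaseChange K0 (modularFunctionFieldFull (M * q * q)))) ∈ Wc.nonunits → x ∈ 𝔫)
    (hE : ∀ y ∈ Wc.nonunits, y ^ (q - 1) *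
      (algebraMap ↥A0 ↥(laurentBaseChange K0 (modularFunctionFieldFull (M * q * q))) τ)⁻¹ ∈ Wc)
    (hzO : ∃ a s : ↥O, s ∉ 𝔫 ∧ (heckeBetaBar K0 (M * q) q (heckeBetaBar K0 M q (nunH K0 M H ha2)) -
          heckeAlphaBar K0 (M * q) q (heckeAlphaBar K0 M q (nunH K0 M H ha2))) * (s : ↥(laurentBaseChange K0 (modularFunctionFieldFull (M * q * q)))) = (a : _))
    (hDed : ∀ 𝔭 : Ideal ↥O, (∀ x : ↥O, x ∈ 𝔭 ↔
      (x : ↥(laurentBaseChange K0 (modularFunctionFieldFull (M * q * q)))) ∈ Wc.nonunits) → IsDedekindDomain (↥O ⧸ 𝔭))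
    (m : ℕ) (hm : 0 < m)
    (f : ↥(laurentBaseChange K0 (modularFunctionFieldFull (M * q * q)))) (hf : f ≠ 0)
    (hord : ∀ V : ValuationSubring ↥(laurentBaseChange K0 (modularFunctionFieldFull (M * q * q))),
      (∀ a : ↥A0, algebraMap ↥A0 ↥(laurentBaseChange K0 (modularFunctionFieldFull (M * q * q))) a ∈ V) →
        (algebraMap ↥A0 ↥(laurentBaseChange K0 (modularFunctionFieldFull (M * q * q))) τ)⁻¹ ∈ V → IsPrincipalIdealRing V →
        ∃ u : ↥(laurentBaseChange K0 (modularFunctionFieldFull (M * q * q))), u ≠ 0 ∧ f * u ^ m ∈ V ∧ (f * u ^ m)⁻¹ ∈ V) :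
    S34Loc τ m O f 𝔫 := by
  obtain ⟨om, c, homO, hcO, hcong⟩ := s36nc_cert M q hM K0 A0 H ha2 hA0 A' hA' ζ hζ hζ0 Wc Ec hEal hEbe hdom halc τ hτ ε hε hqτ O hfrac hic Wa Wb
    hOc hOa hOb hWctop hWatop hWbtop hred 𝔫 ha hb hh0 hQ0 hh1 hQ1
  have hzc := s36nc_z_mem M q K0 A0 hA0 A' hA' ζ hζ hζ0 Wc Ec hEal hEbe hdom
    (nunH K0 M H ha2) H.hZ rfl H.leadZ
  have hτ0 : algebraMap ↥A0 ↥(laurentBaseChange K0 (modularFunctionFieldFull (M * q * q))) τ ≠ 0 := by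
    rw [IsScalarTower.algebraMap_apply A0 K0 ↥(laurentBaseChange K0 (modularFunctionFieldFull (M * q * q))), Ne, map_eq_zero]
    intro h0
    exact hτ.ne_zero (Subtype.ext h0)
  have he : 0 < q - 1 := Nat.sub_pos_of_lt hq.out.one_lt
  exact s36we_loc τ hτ0 O hfrac hic Wc Wa Wb hOc hOa hOb hWctop hWatop hWbtop hred hDed m hm 𝔫 h𝔫
    h1 ha hb (q - 1) he hE _ hzO hzc om c homO hcO hcong f hf hord

end Carrier

end Fermat.Agent.S36
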