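import Mathlib
import Fermat.Agent.S34.CuspInst
import Fermat.Agent.S34.NodeChart
import Fermat.Agent.S36.NuPlace
import Fermat.Agent.S36.PsiInt
import Fermat.Agent.S36.PsiLift

/-!
# S36, [NC-OMEGA]: the modular unit `ν = q dh/dh_q` at the non-cuspidal points of the chart

`Val2Def` carrier (the one of `s35nd_node`): `F = K0(X₀(M q))`, `q ∤ M`, `A0` a discrete valuation
subring of `K0` over `q`, `V₁ = va2V1`, `V₂ = va2V2`, chart `O = chtO A0 {t}` with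
`t = cinstU H K0 c0 c1`, `h = α (nunH)`, `θ = β (nunH)`, `J = va2Jd 1`.
Let `𝔫` be a prime of `O` containing `q` at which `j` is finite (`J ∈ O_𝔫`): a non-cuspidal
point of the special fibre (any type: on `V₁` only, on `V₂` only, or a crossing point).

* `s36nq_abs`  : abstract non-cuspidality: if `J, h ∈ O_𝔫`, `J * Q(h) = P(h)`,
  `U P + V Q = 1 + ℓ W` and `ℓ ∈ 𝔫`, then `Q(h) ∉ 𝔫 O_𝔫`;
* `s36nq_qrad` : `h, θ ∈ O_𝔫` and `Qrad(h)`, `Qrad(θ)` are units of `O_𝔫`;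
* `s36nq_hhor` : for `ν'` with `d h = ν' • d θ`: `ν'` is a unit of every horizontal principal
  valuation ring through `𝔫` (the hypothesis `hhor` of `s36pi_unit` / `s36pi_main`);
* `s36nq_hhor_q` : the same for `ν = q ν'`;
* `s36nq_nu_loc` : **`ν = q ν' ∈ O_𝔫`** (fraction form `s36puL`), given `ν ∈ V₁ ∩ V₂`;
-/

set_option autoImplicit false
set_option linter.unusedSectionVars false

noncomputable section

open ModularCurve AlgebraicCurve Polynomial KaehlerDifferential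
open Fermat.Agent.S18 Fermat.Agent.S37 Fermat.Agent.S34

namespace Fermat.Agent.S36

local notation "Qb" => AlgebraicClosure ℚ

section Abs

variable {A F : Type*} [CommRing A] [Field F] [Algebra A F]
  (O : Subalgebra A F) (𝔫 : Ideal ↥O) [𝔫.IsPrime]

/-- an integer polynomial in an element of `O_𝔫` lies in `O_𝔫` -/
theorem s36nq_aeval {z : F} (hz : s36puL O 𝔫 z) (p : ℤ[X]) : s36puL O 𝔫 (aeval z p) := by
  have h := s36pl_aeval O 𝔫 hz (p.map (algebraMap ℤ A))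
  rwa [aeval_map_algebraMap] at h

/-- **Abstract non-cuspidality.**  If `J, h ∈ O_𝔫` with `J * Q(h) = P(h)`, the polynomials `P`,
`Q` are coprime modulo `ℓ` and `ℓ ∈ 𝔫`, then `Q(h)` is not in `𝔫 O_𝔫`. -/
theorem s36nq_abs (J h : F) (hJ : s36puL O 𝔫 J) (hh : s36puL O 𝔫 h) (P Q U V W : ℤ[X]) (ℓ : ℕ)
    (hUV : U * P + V * Q = 1 + C (ℓ : ℤ) * W) (hℓ : ((ℓ : ℕ) : ↥O) ∈ 𝔫)
    (hrel : J * aeval h Q = aeval h P) : ¬ s36puM O 𝔫 (aeval h Q) := by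
  intro hM
  have hP : s36puM O 𝔫 (aeval h P) := by
    rw [← hrel, mul_comm]
    exact s36puM_mul O 𝔫 hM hJ
  have h1 : s36puM O 𝔫 (aeval h P * aeval h U + aeval h Q * aeval h V) :=
    s36puM_add O 𝔫 (s36puM_mul O 𝔫 hP (s36nq_aeval O 𝔫 hh U))
      (s36puM_mul O 𝔫 hM (s36nq_aeval O 𝔫 hh V))
  have h2 : aeval h P * aeval h U + aeval h Q * aeval h V =
      1 + ((ℓ : ℕ) : F) * aeval h W := by
    have := congrArg (aeval h) hUV
    rw [map_add, map_add, map_mul, map_mul, map_mul, map_one, aeval_C, eq_intCast,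
      Int.cast_natCast] at this
    rw [← this]
    ring
  rw [h2] at h1
  have hℓM : s36puM O 𝔫 (((ℓ : ℕ) : F)) :=
    ⟨((ℓ : ℕ) : ↥O), 1, hℓ,
      fun h => (Ideal.IsPrime.ne_top ‹_›) ((Ideal.eq_top_iff_one _).mpr h), by simp⟩
  have h3 : s36puM O 𝔫 (((ℓ : ℕ) : F) * aeval h W) :=
    s36puM_mul O 𝔫 hℓM (s36nq_aeval O 𝔫 hh W)
  have h4 := s36puM_sub O 𝔫 h1 h3
  rw [add_sub_cancel_right] at h4
  exact s36puM_one O 𝔫 h4

/-- a divisor of `Q` is not in `𝔫 O_𝔫` either -/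
theorem s36nq_dvd (h : F) (hh : s36puL O 𝔫 h) (Q R : ℤ[X]) (hR : R ∣ Q)
    (hQ : ¬ s36puM O 𝔫 (aeval h Q)) : ¬ s36puM O 𝔫 (aeval h R) := by
  intro hM
  obtain ⟨S, rfl⟩ := hR
  apply hQ
  rw [map_mul]
  exact s36puM_mul O 𝔫 hM (s36nq_aeval O 𝔫 hh S)

omit [𝔫.IsPrime] in
/-- an element of `O_𝔫` lies in every valuation ring through `𝔫` -/
theorem s36nq_mem (V : ValuationSubring F) (hO : ∀ x ∈ O, x ∈ V)
    (hinv : ∀ s : ↥O, s ∉ 𝔫 → ((s : F))⁻¹ ∈ V) {z : F} (hz : s36puL O 𝔫 z) : z ∈ V := by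
  obtain ⟨a, s, hs, h⟩ := hz
  have h0 := s36pu_ne_zero O 𝔫 hs
  have : z = (a : F) * ((s : F))⁻¹ := by
    field_simp
    exact h
  rw [this]
  exact V.mul_mem _ _ (hO _ a.2) (hinv s hs)

omit [𝔫.IsPrime] in
/-- the inverse of a unit of `O_𝔫` lies in every valuation ring through `𝔫` -/
theorem s36nq_inv_mem (V : ValuationSubring F) (hO : ∀ x ∈ O, x ∈ V)
    (hinv : ∀ s : ↥O, s ∉ 𝔫 → ((s : F))⁻¹ ∈ V) {z : F} (hz : s36puL O 𝔫 z)
    (hz' : ¬ s36puM O 𝔫 z) : z⁻¹ ∈ V := by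
  obtain ⟨a, s, hs, h⟩ := hz
  have ha : a ∉ 𝔫 := fun ha => hz' ⟨a, s, ha, hs, h⟩
  have h0 := s36pu_ne_zero O 𝔫 hs
  have ha0 := s36pu_ne_zero O 𝔫 ha
  have : z⁻¹ = (s : F) * ((a : F))⁻¹ := by
    have hz0 : z ≠ 0 := by
      rintro rfl
      rw [zero_mul] at h
      exact ha0 h.symm
    field_simp
    exact h.symm
  rw [this]
  exact V.mul_mem _ _ (hO _ s.2) (hinv a ha)

end Abs

section Carrier

variable (M q : ℕ) [NeZero M] [hq : Fact q.Prime] (hM : ¬ q ∣ M)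
  (K0 : Type*) [Field K0] [Algebra ℚ K0] [Algebra K0 Qb]
  (A0 : ValuationSubring K0) [IsDiscreteValuationRing ↥A0]
  {a2 : ℕ} (H : HauptRec a2 q)

include hM in
/-- **Points where `j` is finite are not cuspidal.**  At a prime `𝔫 ∋ q` of the chart with
`J ∈ O_𝔫`: `h = α(nunH)` and `θ = β(nunH)` lie in `O_𝔫`, and `Qrad(h)`, `Qrad(θ)` are not in
`𝔫 O_𝔫`. -/
theorem s36nq_qrad (ha2 : a2 ∣ M)
    (t : ↥(laurentBaseChange K0 (modularFunctionFieldFull (M * q))))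
    [Algebra ↥A0 ↥(laurentBaseChange K0 (modularFunctionFieldFull (M * q)))]
    [IsScalarTower ↥A0 K0 ↥(laurentBaseChange K0 (modularFunctionFieldFull (M * q)))]
    (𝔫 : Ideal ↥(chtO A0 {t})) [𝔫.IsPrime]
    (hq𝔫 : ((q : ℕ) : ↥(chtO A0 {t})) ∈ 𝔫)
    (hJ : s36puL (chtO A0 {t}) 𝔫 (va2Jd K0 (M * q) 1 (one_dvd _))) :
    s36puL (chtO A0 {t}) 𝔫 (heckeAlphaBar K0 M q (nunH K0 M H ha2)) ∧
    s36puL (chtO A0 {t}) 𝔫 (heckeBetaBar K0 M q (nunH K0 M H ha2)) ∧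
    ¬ s36puM (chtO A0 {t}) 𝔫 (aeval (heckeAlphaBar K0 M q (nunH K0 M H ha2)) H.Qrad) ∧
    ¬ s36puM (chtO A0 {t}) 𝔫 (aeval (heckeBetaBar K0 M q (nunH K0 M H ha2)) H.Qrad) := by
  have hint : ∀ x : ↥(laurentBaseChange K0 (modularFunctionFieldFull (M * q))),
      IsIntegral ↥(chtO A0 {t}) x → x ∈ chtO A0 {t} := fun x hx => cht_integral_closed {t} hx
  obtain ⟨Φ, hΦ, hΦ0, -⟩ := mqk_exists_poly M q hq.out hM K0
  obtain ⟨U, V, W, hUV⟩ := cni_bezout H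
  have hdeg : H.Q.natDegree < H.P.natDegree := by
    rw [H.natDegree_P]
    exact H.natDegree_Q
  have hrel := cni_rel K0 (M * q) H (ha2.mul_right q)
  obtain ⟨hsw1, -⟩ := krv_swap M q hq.out hM K0
  have hrelq := congrArg (va2Swap M q hq.out hM K0) hrel
  rw [map_mul, cni_map_aeval, cni_map_aeval, hsw1] at hrelq
  have hj : va2Jd K0 (M * q) 1 (one_dvd _) ∈ dmaLoc (chtO A0 {t}) 𝔫 := hJ
  have hjq : va2Jd K0 (M * q) q (dvd_mul_left q M) ∈ dmaLoc (chtO A0 {t}) 𝔫 :=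
    dma_mem_of_rel (chtO A0 {t}) 𝔫 hint hj Φ hΦ hΦ0
  have hΨ : (X - C X : ℤ[X][X]).eval₂
      ((aeval (va2Jd K0 (M * q) 1 (one_dvd _)) :
        ℤ[X] →ₐ[ℤ] ↥(laurentBaseChange K0 (modularFunctionFieldFull (M * q)))).toRingHom)
      (va2Jd K0 (M * q) 1 (one_dvd _)) = 0 := by
    rw [eval₂_sub, eval₂_X, eval₂_C]
    simp
  have hh' : nunH K0 (M * q) H (ha2.mul_right q) ∈ dmaLoc (chtO A0 {t}) 𝔫 :=
    dma_hq_mem (chtO A0 {t}) 𝔫 hint H.P H.Q H.P_monic hdeg hrel (X - C X) (monic_X_sub_C _) hΨ hj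
  have hhq' : va2Swap M q hq.out hM K0 (nunH K0 (M * q) H (ha2.mul_right q)) ∈
      dmaLoc (chtO A0 {t}) 𝔫 :=
    dma_hq_mem (chtO A0 {t}) 𝔫 hint H.P H.Q H.P_monic hdeg hrelq Φ hΦ hΦ0 hj
  have hh : s36puL (chtO A0 {t}) 𝔫 (nunH K0 (M * q) H (ha2.mul_right q)) := hh'
  have hth : s36puL (chtO A0 {t}) 𝔫
      (va2Swap M q hq.out hM K0 (nunH K0 (M * q) H (ha2.mul_right q))) := hhq'
  have hJq : s36puL (chtO A0 {t}) 𝔫 (va2Jd K0 (M * q) q (dvd_mul_left q M)) := hjq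
  have hQ := s36nq_abs (chtO A0 {t}) 𝔫 _ _ hJ hh H.P H.Q U V W q hUV hq𝔫 hrel
  have hQq := s36nq_abs (chtO A0 {t}) 𝔫 _ _ hJq hth H.P H.Q U V W q hUV hq𝔫 hrelq
  have hQr := s36nq_dvd (chtO A0 {t}) 𝔫 _ hh H.Q H.Qrad H.Qrad_dvd hQ
  have hQqr := s36nq_dvd (chtO A0 {t}) 𝔫 _ hth H.Q H.Qrad H.Qrad_dvd hQq
  rw [← cni_alpha_h M q K0 H (ha2.mul_right q) ha2] at hh hQr
  rw [cni_swap_h M q hM K0 H (ha2.mul_right q) ha2] at hth hQqr
  exact ⟨hh, hth, hQr, hQqr⟩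

include hM in
/-- **[NC-OMEGA]** `hhor` for `ν'`: if `d h = ν' • d θ`, then `ν'` is a unit of every principal
valuation ring `V ≠ ⊤` of `F` containing `K0`, the chart, and the inverses of the elements of
the chart outside a prime `𝔫 ∋ q` at which `j` is finite. -/
theorem s36nq_hhor (ha2 : a2 ∣ M)
    (t : ↥(laurentBaseChange K0 (modularFunctionFieldFull (M * q))))
    [Algebra ↥A0 ↥(laurentBaseChange K0 (modularFunctionFieldFull (M * q)))]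
    [IsScalarTower ↥A0 K0 ↥(laurentBaseChange K0 (modularFunctionFieldFull (M * q)))]
    (𝔫 : Ideal ↥(chtO A0 {t})) [𝔫.IsPrime]
    (hq𝔫 : ((q : ℕ) : ↥(chtO A0 {t})) ∈ 𝔫)
    (hJ : s36puL (chtO A0 {t}) 𝔫 (va2Jd K0 (M * q) 1 (one_dvd _)))
    (ν' : ↥(laurentBaseChange K0 (modularFunctionFieldFull (M * q))))
    (hrel : D K0 ↥(laurentBaseChange K0 (modularFunctionFieldFull (M * q)))
        (heckeAlphaBar K0 M q (nunH K0 M H ha2)) =
      ν' • D K0 ↥(laurentBaseChange K0 (modularFunctionFieldFull (M * q)))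
        (heckeBetaBar K0 M q (nunH K0 M H ha2))) :
    ∀ V : ValuationSubring ↥(laurentBaseChange K0 (modularFunctionFieldFull (M * q))),
      IsPrincipalIdealRing V → V ≠ ⊤ →
      (∀ c : K0, algebraMap K0 ↥(laurentBaseChange K0 (modularFunctionFieldFull (M * q))) c ∈ V) →
      (∀ x ∈ chtO A0 {t}, x ∈ V) →
      (∀ s : ↥(chtO A0 {t}), s ∉ 𝔫 →
        ((s : ↥(laurentBaseChange K0 (modularFunctionFieldFull (M * q)))))⁻¹ ∈ V) →
      ν' ∈ V ∧ ν'⁻¹ ∈ V := by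
  intro V hpir htop hK hO hinv
  obtain ⟨hh, hth, hQ, hQq⟩ := s36nq_qrad M q hM K0 A0 H ha2 t 𝔫 hq𝔫 hJ
  exact s36np_val M q hM H ha2 K0 ν' hrel V hpir htop hK
    (s36nq_mem (chtO A0 {t}) 𝔫 V hO hinv hh)
    (s36nq_inv_mem (chtO A0 {t}) 𝔫 V hO hinv (s36nq_aeval (chtO A0 {t}) 𝔫 hh H.Qrad) hQ)
    (s36nq_mem (chtO A0 {t}) 𝔫 V hO hinv hth)
    (s36nq_inv_mem (chtO A0 {t}) 𝔫 V hO hinv (s36nq_aeval (chtO A0 {t}) 𝔫 hth H.Qrad) hQq)

include hM in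
/-- **[NC-OMEGA]** `hhor` for `ν = q ν'` (the shape of `s36pi_unit` / `s36pi_main`). -/
theorem s36nq_hhor_q (ha2 : a2 ∣ M)
    (t : ↥(laurentBaseChange K0 (modularFunctionFieldFull (M * q))))
    [Algebra ↥A0 ↥(laurentBaseChange K0 (modularFunctionFieldFull (M * q)))]
    [IsScalarTower ↥A0 K0 ↥(laurentBaseChange K0 (modularFunctionFieldFull (M * q)))]
    (𝔫 : Ideal ↥(chtO A0 {t})) [𝔫.IsPrime]
    (hq𝔫 : ((q : ℕ) : ↥(chtO A0 {t})) ∈ 𝔫)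
    (hJ : s36puL (chtO A0 {t}) 𝔫 (va2Jd K0 (M * q) 1 (one_dvd _)))
    (ν' : ↥(laurentBaseChange K0 (modularFunctionFieldFull (M * q))))
    (hrel : D K0 ↥(laurentBaseChange K0 (modularFunctionFieldFull (M * q)))
        (heckeAlphaBar K0 M q (nunH K0 M H ha2)) =
      ν' • D K0 ↥(laurentBaseChange K0 (modularFunctionFieldFull (M * q)))
        (heckeBetaBar K0 M q (nunH K0 M H ha2))) :
    ∀ V : ValuationSubring ↥(laurentBaseChange K0 (modularFunctionFieldFull (M * q))),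
      IsPrincipalIdealRing V → V ≠ ⊤ →
      (∀ c : K0, algebraMap K0 ↥(laurentBaseChange K0 (modularFunctionFieldFull (M * q))) c ∈ V) →
      (∀ x ∈ chtO A0 {t}, x ∈ V) →
      (∀ s : ↥(chtO A0 {t}), s ∉ 𝔫 →
        ((s : ↥(laurentBaseChange K0 (modularFunctionFieldFull (M * q)))))⁻¹ ∈ V) →
      ((q : ℕ) : ↥(laurentBaseChange K0 (modularFunctionFieldFull (M * q)))) * ν' ∈ V ∧
        (((q : ℕ) : ↥(laurentBaseChange K0 (modularFunctionFieldFull (M * q)))) * ν')⁻¹ ∈ V := by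
  intro V hpir htop hK hO hinv
  exact s36np_val_q M q K0 ν' V hK
    (s36nq_hhor M q hM K0 A0 H ha2 t 𝔫 hq𝔫 hJ ν' hrel V hpir htop hK hO hinv)

/-- **[NC-OMEGA]** `ν = q ν'` lies in `O_𝔫` at every prime `𝔫 ∋ q` of the chart at which `j` is
finite, given that `ν ∈ V₁ ∩ V₂` (outputs of `s36ps_main`). -/
theorem s36nq_nu_loc (ha2 : a2 ∣ M) (hA0 : A0.LiesOverPrime q) (c0 c1 : A0)
    (hc : IsLocalRing.residue ↥A0 c0 ≠ IsLocalRing.residue ↥A0 c1)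
    (t : ↥(laurentBaseChange K0 (modularFunctionFieldFull (M * q))))
    (ht : (t : LaurentSeries K0) = cinstU H K0 (c0 : K0) (c1 : K0))
    [Algebra ↥A0 ↥(laurentBaseChange K0 (modularFunctionFieldFull (M * q)))]
    [IsScalarTower ↥A0 K0 ↥(laurentBaseChange K0 (modularFunctionFieldFull (M * q)))]
    (τ : A0) (hτ : Irreducible τ)
    (𝔫 : Ideal ↥(chtO A0 {t})) [𝔫.IsPrime]
    (hq𝔫 : ((q : ℕ) : ↥(chtO A0 {t})) ∈ 𝔫)
    (hJ : s36puL (chtO A0 {t}) 𝔫 (va2Jd K0 (M * q) 1 (one_dvd _)))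
    (ν' : ↥(laurentBaseChange K0 (modularFunctionFieldFull (M * q))))
    (hrel : D K0 ↥(laurentBaseChange K0 (modularFunctionFieldFull (M * q)))
        (heckeAlphaBar K0 M q (nunH K0 M H ha2)) =
      ν' • D K0 ↥(laurentBaseChange K0 (modularFunctionFieldFull (M * q)))
        (heckeBetaBar K0 M q (nunH K0 M H ha2)))
    (hν₁ : ((q : ℕ) : ↥(laurentBaseChange K0 (modularFunctionFieldFull (M * q)))) * ν' ∈
      va2V1 M q K0 A0)
    (hν₂ : ((q : ℕ) : ↥(laurentBaseChange K0 (modularFunctionFieldFull (M * q)))) * ν' ∈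
      va2V2 M q hM K0 A0) :
    s36puL (chtO A0 {t}) 𝔫
      (((q : ℕ) : ↥(laurentBaseChange K0 (modularFunctionFieldFull (M * q)))) * ν') :=
  s36pi_main M q hM K0 A0 H ha2 hA0 c0 c1 hc t ht τ hτ 𝔫 _ hν₁ hν₂
    (fun V hpir htop hK hO hinv =>
      (s36nq_hhor_q M q hM K0 A0 H ha2 t 𝔫 hq𝔫 hJ ν' hrel V hpir htop hK hO hinv).1)

end Carrier

end Fermat.Agent.S36
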