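import Mathlib
import Fermat.Agent.S36.NcInst
import Fermat.Agent.S36.NuPoint

/-!
# S36, package WC-CERT, part NC-CAR: the point inputs of `s36nc_cert` at a non-cuspidal point

Level `M q²`, `F2` its function field over `K0`, `al`, `be : F1 → F2` the two degeneracy maps from
level `M q`, `h₀ = al (al' h)`, `h₁ = al (be' h)`, `h₂ = be (be' h)` the three Hauptmoduln,
`j₀ = j(t)`.

* `s36nk_step`: abstract step of the domination chain: if `j ∈ O_𝔫`, `Φ(j, j') = 0` with `Φ`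
  monic and `j' Q(h') = P(h')` with `P` monic of larger degree and `P`, `Q` coprime modulo
  `ℓ ∈ 𝔫`, then `j', h' ∈ O_𝔫` and `Q(h')` is a unit of `O_𝔫`;
* `s36nk_map_rel`: a relation `Φ(x, y) = 0` is transported by ring homomorphisms;
* `s36nk_pt`: for an integrally closed `O ⊆ F2` and a prime `𝔫 ∋ q` with `j₀ ∈ O_𝔫` (the
  non-cuspidal alternative of `dma_j_dichotomy`): `h₀, h₁ ∈ O_𝔫`, `Qrad(h₀)`, `Qrad(h₁)` are units
  of `O_𝔫` and `z = h₂ - h₀ ∈ O_𝔫` -- the binders `hh0`, `hQ0`, `hh1`, `hQ1` of `s36nc_cert` and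
  `hπO` of the `ε`-criterion;
* `s36nk_cert`: the complete certificate `(π, om, c)` of the `ε`-criterion (`e = q - 1`,
  `π = z`) at such a point through which `W_a`, `W_b` do not pass.
-/

set_option autoImplicit false
set_option linter.unusedSectionVars false
set_option synthInstance.maxHeartbeats 400000

open AlgebraicCurve ModularCurve Polynomial Fermat.Agent.S18 Fermat.Agent.S34

namespace Fermat.Agent.S36

local notation "Qb" => AlgebraicClosure ℚ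

section Abs

variable {A F : Type*} [CommRing A] [Field F] [Algebra A F]
  (O : Subalgebra A F) (𝔫 : Ideal ↥O) [𝔫.IsPrime]

/-- **One step of the domination chain.**  If `j ∈ O_𝔫`, `Φ(j, j') = 0` with `Φ` monic, and
`j' Q(h') = P(h')` with `P` monic, `deg Q < deg P`, `P`, `Q` coprime modulo `ℓ ∈ 𝔫`, then
`j', h' ∈ O_𝔫` and `Q(h')` is not in `𝔫 O_𝔫`. -/
theorem s36nk_step (hint : ∀ x : F, IsIntegral ↥O x → x ∈ O) (P Q U V W : ℤ[X]) (ℓ : ℕ)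
    (hP : P.Monic) (hdeg : Q.natDegree < P.natDegree)
    (hUV : U * P + V * Q = 1 + C (ℓ : ℤ) * W) (hℓ : ((ℓ : ℕ) : ↥O) ∈ 𝔫)
    (Φ : ℤ[X][X]) (hΦ : Φ.Monic) {j j' h' : F} (hj : j ∈ dmaLoc O 𝔫)
    (hΦ0 : Φ.eval₂ ((aeval j : ℤ[X] →ₐ[ℤ] F).toRingHom) j' = 0)
    (hrel : j' * aeval h' Q = aeval h' P) :
    j' ∈ dmaLoc O 𝔫 ∧ h' ∈ dmaLoc O 𝔫 ∧ ¬ s36puM O 𝔫 (aeval h' Q) := by
  have hj' : j' ∈ dmaLoc O 𝔫 := dma_mem_of_rel O 𝔫 hint hj Φ hΦ hΦ0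
  have hh' : h' ∈ dmaLoc O 𝔫 := dma_hq_mem O 𝔫 hint P Q hP hdeg hrel Φ hΦ hΦ0 hj
  exact ⟨hj', hh', s36nq_abs O 𝔫 j' h' hj' hh' P Q U V W ℓ hUV hℓ hrel⟩

/-- a unit of `O_𝔫` in the fraction form `a ∉ 𝔫`, `s ∉ 𝔫` -/
theorem s36nk_unit_shape {x : F} (hL : x ∈ dmaLoc O 𝔫) (hM : ¬ s36puM O 𝔫 x) :
    ∃ a s : ↥O, a ∉ 𝔫 ∧ s ∉ 𝔫 ∧ x * (s : F) = (a : F) := by
  obtain ⟨a, s, hs, h⟩ := hL
  exact ⟨a, s, fun ha => hM ⟨a, s, ha, hs, h⟩, hs, h⟩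

end Abs

/-- a relation `Φ(x, y) = 0` over `ℤ[X]` is transported by ring homomorphisms -/
theorem s36nk_map_rel {R S : Type*} [CommRing R] [CommRing S] (φ : R →+* S) (Φ : ℤ[X][X])
    (x y : R) (h : Φ.eval₂ ((aeval x : ℤ[X] →ₐ[ℤ] R).toRingHom) y = 0) :
    Φ.eval₂ ((aeval (φ x) : ℤ[X] →ₐ[ℤ] S).toRingHom) (φ y) = 0 := by
  have h1 := congrArg φ h
  rw [Polynomial.hom_eval₂, map_zero] at h1
  have h2 : φ.comp ((aeval x : ℤ[X] →ₐ[ℤ] R).toRingHom)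
      = (aeval (φ x) : ℤ[X] →ₐ[ℤ] S).toRingHom := by
    refine Polynomial.ringHom_ext (fun c => ?_) ?_
    · simp
    · simp
  rw [h2] at h1
  exact h1

section Carrier

variable (M q : ℕ) [NeZero M] [hq : Fact q.Prime] (hM : ¬ q ∣ M)
  (K0 : Type*) [Field K0] [Algebra ℚ K0] [Algebra K0 Qb]
  (A0 : ValuationSubring K0) [IsDiscreteValuationRing ↥A0]
  {a2 : ℕ} (H : HauptRec a2 q)

/-- `al (j(t)) = j(t)` one level up -/
theorem s36nk_al_j :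
    heckeAlphaBar K0 (M * q) q (va2Jd K0 (M * q) 1 (one_dvd _)) =
      va2Jd K0 (M * q * q) 1 (one_dvd _) := by
  apply Subtype.ext
  rw [coe_heckeAlphaBar, mqk_va2Jd_coe, mqk_va2Jd_coe]

/-- `al (j(t^q)) = be (j(t))` -/
theorem s36nk_al_jq :
    heckeAlphaBar K0 (M * q) q (va2Jd K0 (M * q) q (dvd_mul_left q M)) =
      heckeBetaBar K0 (M * q) q (va2Jd K0 (M * q) 1 (one_dvd _)) := by
  apply Subtype.ext
  rw [coe_heckeAlphaBar, coe_heckeBetaBar, krv_coe_Jd, krv_coe_J, coeffMap_qExpand]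

include hM in
/-- **The point inputs of `s36nc_cert` at a non-cuspidal point.** -/
theorem s36nk_pt (ha2 : a2 ∣ M)
    [Algebra ↥A0 ↥(laurentBaseChange K0 (modularFunctionFieldFull (M * q * q)))]
    (O : Subalgebra ↥A0 ↥(laurentBaseChange K0 (modularFunctionFieldFull (M * q * q))))
    (hic : ∀ x : ↥(laurentBaseChange K0 (modularFunctionFieldFull (M * q * q))),
      IsIntegral ↥O x → x ∈ O)
    (𝔫 : Ideal ↥O) [𝔫.IsPrime] (hq𝔫 : ((q : ℕ) : ↥O) ∈ 𝔫)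
    (hJ : va2Jd K0 (M * q * q) 1 (one_dvd _) ∈ dmaLoc O 𝔫) :
    (∃ a s : ↥O, s ∉ 𝔫 ∧
      heckeAlphaBar K0 (M * q) q (heckeAlphaBar K0 M q (nunH K0 M H ha2)) *
        (s : ↥(laurentBaseChange K0 (modularFunctionFieldFull (M * q * q)))) = (a : _)) ∧
    (∃ a s : ↥O, a ∉ 𝔫 ∧ s ∉ 𝔫 ∧
      aeval (heckeAlphaBar K0 (M * q) q (heckeAlphaBar K0 M q (nunH K0 M H ha2))) H.Qrad *
        (s : ↥(laurentBaseChange K0 (modularFunctionFieldFull (M * q * q)))) = (a : _)) ∧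
    (∃ a s : ↥O, s ∉ 𝔫 ∧
      heckeAlphaBar K0 (M * q) q (heckeBetaBar K0 M q (nunH K0 M H ha2)) *
        (s : ↥(laurentBaseChange K0 (modularFunctionFieldFull (M * q * q)))) = (a : _)) ∧
    (∃ a s : ↥O, a ∉ 𝔫 ∧ s ∉ 𝔫 ∧
      aeval (heckeAlphaBar K0 (M * q) q (heckeBetaBar K0 M q (nunH K0 M H ha2))) H.Qrad *
        (s : ↥(laurentBaseChange K0 (modularFunctionFieldFull (M * q * q)))) = (a : _)) ∧
    (∃ a s : ↥O, s ∉ 𝔫 ∧
      (heckeBetaBar K0 (M * q) q (heckeBetaBar K0 M q (nunH K0 M H ha2)) -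
        heckeAlphaBar K0 (M * q) q (heckeAlphaBar K0 M q (nunH K0 M H ha2))) *
        (s : ↥(laurentBaseChange K0 (modularFunctionFieldFull (M * q * q)))) = (a : _)) := by
  obtain ⟨Φ, hΦ, hΦ0, -⟩ := mqk_exists_poly M q hq.out hM K0
  obtain ⟨U, V, W, hUV⟩ := cni_bezout H
  have hdeg : H.Q.natDegree < H.P.natDegree := by
    rw [H.natDegree_P]
    exact H.natDegree_Q
  -- the level-`M q` relations
  have hrel := cni_rel K0 (M * q) H (ha2.mul_right q)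
  obtain ⟨hsw1, -⟩ := krv_swap M q hq.out hM K0
  have hrelq := congrArg (va2Swap M q hq.out hM K0) hrel
  rw [map_mul, cni_map_aeval, cni_map_aeval, hsw1,
    cni_swap_h M q hM K0 H (ha2.mul_right q) ha2] at hrelq
  rw [← cni_alpha_h M q K0 H (ha2.mul_right q) ha2] at hrel
  -- transported to level `M q²`
  have hal : ∀ (x : ↥(laurentBaseChange K0 (modularFunctionFieldFull (M * q)))) (p : ℤ[X]),
      heckeAlphaBar K0 (M * q) q (aeval x p) = aeval (heckeAlphaBar K0 (M * q) q x) p :=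
    fun x p => cni_map_aeval (heckeAlphaBar K0 (M * q) q).toRingHom x p
  have hbe : ∀ (x : ↥(laurentBaseChange K0 (modularFunctionFieldFull (M * q)))) (p : ℤ[X]),
      heckeBetaBar K0 (M * q) q (aeval x p) = aeval (heckeBetaBar K0 (M * q) q x) p :=
    fun x p => cni_map_aeval (heckeBetaBar K0 (M * q) q).toRingHom x p
  have hr0 := congrArg (heckeAlphaBar K0 (M * q) q) hrel
  rw [map_mul, hal, hal] at hr0
  have hr1 := congrArg (heckeAlphaBar K0 (M * q) q) hrelq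
  rw [map_mul, hal, hal] at hr1
  have hr2 := congrArg (heckeBetaBar K0 (M * q) q) hrelq
  rw [map_mul, hbe, hbe] at hr2
  have hΦ01 : Φ.eval₂ ((aeval (heckeAlphaBar K0 (M * q) q (va2Jd K0 (M * q) 1 (one_dvd _))) :
        ℤ[X] →ₐ[ℤ] ↥(laurentBaseChange K0 (modularFunctionFieldFull (M * q * q)))).toRingHom)
      (heckeAlphaBar K0 (M * q) q (va2Jd K0 (M * q) q (dvd_mul_left q M))) = 0 :=
    s36nk_map_rel (heckeAlphaBar K0 (M * q) q).toRingHom Φ _ _ hΦ0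
  have hΦ12 : Φ.eval₂ ((aeval (heckeBetaBar K0 (M * q) q (va2Jd K0 (M * q) 1 (one_dvd _))) :
        ℤ[X] →ₐ[ℤ] ↥(laurentBaseChange K0 (modularFunctionFieldFull (M * q * q)))).toRingHom)
      (heckeBetaBar K0 (M * q) q (va2Jd K0 (M * q) q (dvd_mul_left q M))) = 0 :=
    s36nk_map_rel (heckeBetaBar K0 (M * q) q).toRingHom Φ _ _ hΦ0
  have hΨ : (X - C X : ℤ[X][X]).eval₂
      ((aeval (va2Jd K0 (M * q * q) 1 (one_dvd _)) :
        ℤ[X] →ₐ[ℤ] ↥(laurentBaseChange K0 (modularFunctionFieldFull (M * q * q)))).toRingHom)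
      (va2Jd K0 (M * q * q) 1 (one_dvd _)) = 0 := by
    rw [eval₂_sub, eval₂_X, eval₂_C]
    simp
  have e0 := s36nk_al_j M q K0
  have e1 := s36nk_al_jq M q K0
  rw [e0] at hr0 hΦ01
  rw [e1] at hr1 hΦ01
  -- step 0: `h₀`
  obtain ⟨-, hh0, hQ0⟩ := s36nk_step O 𝔫 hic H.P H.Q U V W q H.P_monic hdeg hUV hq𝔫
    (X - C X) (monic_X_sub_C _) hJ hΨ hr0
  -- step 1: `j₁`, `h₁`
  obtain ⟨hj1, hh1, hQ1⟩ := s36nk_step O 𝔫 hic H.P H.Q U V W q H.P_monic hdeg hUV hq𝔫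
    Φ hΦ hJ hΦ01 hr1
  -- step 2: `j₂`, `h₂`
  obtain ⟨-, hh2, -⟩ := s36nk_step O 𝔫 hic H.P H.Q U V W q H.P_monic hdeg hUV hq𝔫
    Φ hΦ hj1 hΦ12 hr2
  have hQr0 := s36nq_dvd O 𝔫 _ hh0 H.Q H.Qrad H.Qrad_dvd hQ0
  have hQr1 := s36nq_dvd O 𝔫 _ hh1 H.Q H.Qrad H.Qrad_dvd hQ1
  refine ⟨hh0, s36nk_unit_shape O 𝔫 (s36nq_aeval O 𝔫 hh0 H.Qrad) hQr0, hh1,
    s36nk_unit_shape O 𝔫 (s36nq_aeval O 𝔫 hh1 H.Qrad) hQr1, ?_⟩
  exact (dmaLoc O 𝔫).sub_mem hh2 hh0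

include hM in
/-- **[NC-CAR] The certificate of the `ε`-criterion at a non-cuspidal `W_c`-only point.**
For a chart `O` of level `M q²` (binders as in `s36nc_cert`), a prime `𝔫 ∋ τ` through which `W_a`,
`W_b` do not pass and at which `j₀ = j(t)` is finite: with `π = z = h₂ - h₀` and `e = q - 1`,
`π ∈ O_𝔫`, `π ∈ 𝔪_{W_c}`, and there are `om ∈ O_𝔫`, `c ∈ O_𝔫ˣ` with
`π^(q-1) / τ · om - c ∈ 𝔪_{W_c}`. -/
theorem s36nk_cert (ha2 : a2 ∣ M) (hA0 : A0.LiesOverPrime q)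
    (A' : ValuationSubring Qb) (hA' : A'.comap (algebraMap K0 Qb) = A0)
    (ζ : Qb) (hζ : IsPrimitiveRoot ζ q) (hζ0 : ζ ≠ 0)
    (Wc : ValuationSubring ↥(laurentBaseChange K0 (modularFunctionFieldFull (M * q * q))))
    (Ec : ↥(laurentBaseChange K0 (modularFunctionFieldFull (M * q * q))) →+* LaurentSeries Qb)
    (hEal : ∀ x : ↥(laurentBaseChange K0 (modularFunctionFieldFull (M * q))),
      Ec (heckeAlphaBar K0 (M * q) q x) = coeffMap (algebraMap K0 Qb) (x : LaurentSeries K0))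
    (hEbe : ∀ f : ↥(laurentBaseChange K0 (modularFunctionFieldFull M)),
      Ec (heckeBetaBar K0 (M * q) q (heckeBetaBar K0 M q f)) =
        ccjTwist ζ hζ0 (coeffMap (algebraMap K0 Qb) (f : LaurentSeries K0)))
    (hdom : ∀ x : ↥(laurentBaseChange K0 (modularFunctionFieldFull (M * q * q))),
      ∀ h : Ec x ∈ grV A', grRho A' ⟨Ec x, h⟩ = 0 → x ∈ Wc.nonunits)
    (halc : ∀ x, heckeAlphaBar K0 (M * q) q x ∈ Wc ↔ x ∈ va2V1 M q K0 A0)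
    [Algebra ↥A0 ↥(laurentBaseChange K0 (modularFunctionFieldFull (M * q * q)))]
    [IsScalarTower ↥A0 K0 ↥(laurentBaseChange K0 (modularFunctionFieldFull (M * q * q)))]
    (τ : A0) (hτ : Irreducible τ) (ε : A0) (hε : IsUnit ε) (hqτ : ((q : ℕ) : ↥A0) = τ * ε)
    (O : Subalgebra ↥A0 ↥(laurentBaseChange K0 (modularFunctionFieldFull (M * q * q))))
    [IsNoetherianRing ↥O]
    (hfrac : ∀ x : ↥(laurentBaseChange K0 (modularFunctionFieldFull (M * q * q))),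
      ∃ a ∈ O, ∃ s ∈ O, s ≠ 0 ∧ x * s = a)
    (hic : ∀ x : ↥(laurentBaseChange K0 (modularFunctionFieldFull (M * q * q))),
      IsIntegral ↥O x → x ∈ O)
    (Wa Wb : ValuationSubring ↥(laurentBaseChange K0 (modularFunctionFieldFull (M * q * q))))
    (hOc : ∀ y ∈ O, y ∈ Wc) (hOa : ∀ y ∈ O, y ∈ Wa) (hOb : ∀ y ∈ O, y ∈ Wb)
    (hWctop : Wc ≠ ⊤) (hWatop : Wa ≠ ⊤) (hWbtop : Wb ≠ ⊤)
    (hred : ∀ x ∈ O, x ∈ Wc.nonunits → x ∈ Wa.nonunits → x ∈ Wb.nonunits →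
      ∃ (N : ℕ), ∃ y ∈ O, x ^ N =
        algebraMap ↥A0 ↥(laurentBaseChange K0 (modularFunctionFieldFull (M * q * q))) τ * y)
    (𝔫 : Ideal ↥O) [𝔫.IsPrime] (hτ𝔫 : algebraMap ↥A0 ↥O τ ∈ 𝔫)
    (ha : ∃ r : ↥O,
      (r : ↥(laurentBaseChange K0 (modularFunctionFieldFull (M * q * q)))) ∈ Wa.nonunits ∧ r ∉ 𝔫)
    (hb : ∃ r : ↥O,
      (r : ↥(laurentBaseChange K0 (modularFunctionFieldFull (M * q * q)))) ∈ Wb.nonunits ∧ r ∉ 𝔫)
    (hJ : va2Jd K0 (M * q * q) 1 (one_dvd _) ∈ dmaLoc O 𝔫) :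
    (∃ a s : ↥O, s ∉ 𝔫 ∧
      (heckeBetaBar K0 (M * q) q (heckeBetaBar K0 M q (nunH K0 M H ha2)) -
        heckeAlphaBar K0 (M * q) q (heckeAlphaBar K0 M q (nunH K0 M H ha2))) *
        (s : ↥(laurentBaseChange K0 (modularFunctionFieldFull (M * q * q)))) = (a : _)) ∧
    (heckeBetaBar K0 (M * q) q (heckeBetaBar K0 M q (nunH K0 M H ha2)) -
        heckeAlphaBar K0 (M * q) q (heckeAlphaBar K0 M q (nunH K0 M H ha2))) ∈ Wc.nonunits ∧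
    ∃ om c : ↥(laurentBaseChange K0 (modularFunctionFieldFull (M * q * q))),
      (∃ a s : ↥O, s ∉ 𝔫 ∧ om * (s : _) = (a : _)) ∧
      (∃ a s : ↥O, a ∉ 𝔫 ∧ s ∉ 𝔫 ∧ c * (s : _) = (a : _)) ∧
      (heckeBetaBar K0 (M * q) q (heckeBetaBar K0 M q (nunH K0 M H ha2)) -
          heckeAlphaBar K0 (M * q) q (heckeAlphaBar K0 M q (nunH K0 M H ha2))) ^ (q - 1) *
          (algebraMap ↥A0 ↥(laurentBaseChange K0 (modularFunctionFieldFull (M * q * q))) τ)⁻¹ *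
          om - c ∈ Wc.nonunits := by
  have hq𝔫 : ((q : ℕ) : ↥O) ∈ 𝔫 := by
    have e : ((q : ℕ) : ↥O) = algebraMap ↥A0 ↥O τ * algebraMap ↥A0 ↥O ε := by
      rw [← map_mul, ← hqτ, map_natCast]
    rw [e]
    exact 𝔫.mul_mem_right _ hτ𝔫
  obtain ⟨hh0, hQ0, hh1, hQ1, hzO⟩ := s36nk_pt M q hM K0 A0 H ha2 O hic 𝔫 hq𝔫 hJ
  refine ⟨hzO, ?_, ?_⟩
  · exact s36nc_z_mem M q K0 A0 hA0 A' hA' ζ hζ hζ0 Wc Ec hEal hEbe hdom
      (nunH K0 M H ha2) H.hZ rfl H.leadZ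
  · exact s36nc_cert M q hM K0 A0 H ha2 hA0 A' hA' ζ hζ hζ0 Wc Ec hEal hEbe hdom halc τ hτ ε hε
      hqτ O hfrac hic Wa Wb hOc hOa hOb hWctop hWatop hWbtop hred 𝔫 ha hb hh0 hQ0 hh1 hQ1

end Carrier

end Fermat.Agent.S36
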