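import Mathlib
import Fermat.Agent.S36.NormResInst3
import Fermat.Agent.S36.Val3Wc
import Fermat.Agent.S36.Val3Swap
import Fermat.Agent.S36.Val3Za
import Fermat.Agent.S36.Val3Exh
import Fermat.Agent.S36.Val3Def

/-!
# S36 [NR3-CLOSED]: the four norm-residue binders of `s36vc_main`, closed at the VAL3 objects

`W_a := s36v3Wa M q K0 A0`, `W_b := s36v3Wb M q hM K0 A0`,
`W_c := s36v3Wc M q hM K0 A0`, `π := s36v3Z M q K0 f` (`f` of level `M` with an integral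
expansion `Z` having a simple pole with leading coefficient one).

* `s36nrc_z_ne`   : `s36v3Z M q K0 f ≠ 0`;
* `s36nrc_alpha1` : `hNα1` of `s36vc_main`;
* `s36nrc_beta2`  : `hNβ2` of `s36vc_main`;
* `s36nrc_beta1`  : `hNβ1` of `s36vc_main`;
* `s36nrc_alpha2` : `hNα2` of `s36vc_main`.

Names are prefixed `s36nrc`.
-/

set_option autoImplicit false

noncomputable section

open AlgebraicCurve ModularCurve Fermat.Agent.S18 Fermat.Agent.S34 Fermat.Agent.S35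
  Fermat.Agent.S37

namespace Fermat.Agent.S36

local notation "Qb" => AlgebraicClosure ℚ

section Carrier

variable (M q : ℕ) [NeZero M] [hq : Fact q.Prime] (hM : ¬ q ∣ M)
  (K0 : Type*) [Field K0] [Algebra ℚ K0] [Algebra K0 Qb]
  (A0 : ValuationSubring K0) [IsDiscreteValuationRing ↥A0]

omit [NeZero M] in
/-- `z_f ≠ 0` -/
theorem s36nrc_z_ne [NeZero M] (f : ↥(laurentBaseChange K0 (modularFunctionFieldFull M)))
    (Z : LaurentSeries ℤ) (hf : (f : LaurentSeries K0) = coeffMap (Int.castRingHom K0) Z)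
    (hZ : Hp4Lead Z (-1)) : s36v3Z M q K0 f ≠ 0 := by
  intro h0
  have hc := s36v3_z_coe M q K0 f Z hf
  rw [h0] at hc
  have hnd : ¬ ((q : ℤ) ∣ (-1 : ℤ)) := by
    intro h
    rw [dvd_neg] at h
    have h' : q ∣ 1 := by exact_mod_cast h
    exact hq.out.one_lt.ne' (Nat.dvd_one.mp h')
  have h2 : (qExpand ℤ q (qExpand ℤ q Z) - Z).coeff (-1) = -1 := by
    rw [HahnSeries.coeff_sub, qExpand_coeff_of_not_dvd q _ hnd, hZ.coeff_self, zero_sub]
  have h1 := congrArg (fun s => HahnSeries.coeff s (-1)) hc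
  simp only [coeffMap_coeff] at h1
  rw [h2] at h1
  have h3 : (((0 : ↥(laurentBaseChange K0 (modularFunctionFieldFull (M * q * q)))) :
      LaurentSeries K0)).coeff (-1) = 0 := rfl
  rw [h3] at h1
  simp at h1

/-- **`hNα1` of `s36vc_main`, closed.** -/
theorem s36nrc_alpha1 (hA0 : A0.LiesOverPrime q)
    (hunr : ∀ x ∈ A0.nonunits, x * ((q : ℕ) : K0)⁻¹ ∈ A0)
    (f : ↥(laurentBaseChange K0 (modularFunctionFieldFull M)))
    (Z : LaurentSeries ℤ) (hf : (f : LaurentSeries K0) = coeffMap (Int.castRingHom K0) Z)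
    (hZ : Hp4Lead Z (-1)) :
    ∀ (z : ↥(laurentBaseChange K0 (modularFunctionFieldFull (M * q * q))))
      (za zc : ↥(laurentBaseChange K0 (modularFunctionFieldFull (M * q)))),
      za ∈ va2V1 M q K0 A0 → zc ∈ va2V1 M q K0 A0 →
      z - heckeAlphaBar K0 (M * q) q za ∈ (s36v3Wa M q K0 A0).nonunits →
      z - heckeAlphaBar K0 (M * q) q zc ∈ (s36v3Wc M q hM K0 A0).nonunits →
      s35NormA K0 (M * q) q z - za * zc ^ (q - 1) ∈ (va2V1 M q K0 A0).nonunits :=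
  s36nri_alpha1 M q K0 A0 hA0 hunr (s36v3Wa M q K0 A0) (s36v3Wc M q hM K0 A0)
    (s36v3_al_Wa M q K0 A0) (s36v3_al_Wc M q hM K0 A0) (s36v3Z M q K0 f)
    (s36nrc_z_ne M q K0 f Z hf hZ)
    (s36v3_z_Wa M q K0 A0 f Z hf hZ).1 (s36v3_z_Wa M q K0 A0 f Z hf hZ).2
    (s36v3_z_Wc M q hM K0 A0 hA0 f Z hf hZ).2.1 (s36v3_z_Wc M q hM K0 A0 hA0 f Z hf hZ).2.2

/-- **`hNβ2` of `s36vc_main`, closed.** -/
theorem s36nrc_beta2 (hA0 : A0.LiesOverPrime q)
    (hunr : ∀ x ∈ A0.nonunits, x * ((q : ℕ) : K0)⁻¹ ∈ A0)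
    (f : ↥(laurentBaseChange K0 (modularFunctionFieldFull M)))
    (Z : LaurentSeries ℤ) (hf : (f : LaurentSeries K0) = coeffMap (Int.castRingHom K0) Z)
    (hZ : Hp4Lead Z (-1)) :
    ∀ (z : ↥(laurentBaseChange K0 (modularFunctionFieldFull (M * q * q))))
      (zb zc : ↥(laurentBaseChange K0 (modularFunctionFieldFull (M * q)))),
      zb ∈ va2V2 M q hM K0 A0 → zc ∈ va2V2 M q hM K0 A0 →
      z - heckeBetaBar K0 (M * q) q zb ∈ (s36v3Wb M q hM K0 A0).nonunits →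
      z - heckeBetaBar K0 (M * q) q zc ∈ (s36v3Wc M q hM K0 A0).nonunits →
      s35NormB K0 (M * q) q z - zb * zc ^ (q - 1) ∈ (va2V2 M q hM K0 A0).nonunits :=
  s36nri_beta2 M q hM K0 A0 hA0 hunr (s36v3Wb M q hM K0 A0) (s36v3Wc M q hM K0 A0)
    (s36v3_be_Wb M q hM K0 A0) (s36v3_be_Wc M q hM K0 A0 hA0) (s36v3Z M q K0 f)
    (s36nrc_z_ne M q K0 f Z hf hZ)
    (s36v3_z_Wb M q hM K0 A0 f Z hf hZ).1 (s36v3_z_Wb M q hM K0 A0 f Z hf hZ).2
    (s36v3_z_Wc M q hM K0 A0 hA0 f Z hf hZ).2.1 (s36v3_z_Wc M q hM K0 A0 hA0 f Z hf hZ).2.2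

include hM in
/-- **`hNβ1` of `s36vc_main`, closed.** -/
theorem s36nrc_beta1 (hA0 : A0.LiesOverPrime q) :
    ∀ z : ↥(laurentBaseChange K0 (modularFunctionFieldFull (M * q * q))),
      z ∈ s36v3Wa M q K0 A0 →
      heckeBetaBar K0 (M * q) q (s35NormB K0 (M * q) q z) - z ^ q ∈
        (s36v3Wa M q K0 A0).nonunits :=
  s36nri_beta1 M q hM K0 A0 hA0

/-- **`hNα2` of `s36vc_main`, closed.** -/
theorem s36nrc_alpha2 (hA0 : A0.LiesOverPrime q) :
    ∀ z : ↥(laurentBaseChange K0 (modularFunctionFieldFull (M * q * q))),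
      z ∈ s36v3Wb M q hM K0 A0 →
      heckeAlphaBar K0 (M * q) q (s35NormA K0 (M * q) q z) - z ^ q ∈
        (s36v3Wb M q hM K0 A0).nonunits :=
  s36nri_alpha2 M q hM K0 A0 hA0 (s36v3Swap M q hM K0) (s36v3Swap_swap M q hM K0)
    (s36v3Swap_al M q hM K0)

end Carrier

end Fermat.Agent.S36
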