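import Mathlib
import Fermat.Agent.S18.Charts
import Fermat.Agent.S34.DomAbs
import Fermat.Agent.S35.LocIC
import Fermat.Agent.S35.LocICPt
import Fermat.Agent.S35.LocUnit
import Fermat.Agent.S34.LocNodeInst
import Fermat.Agent.S36.OneInst

/-!
# S36, leaf ONE-B (abstract): closed points on the component `Wb` only, by transfer along the swap

`w` is an involution of the function field `F` fixing the base ring `A`, exchanging the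
valuation rings `Wa` and `Wb` and fixing `Wc`.  For a closed point `𝔫` of the chart
`O = chtO A {g}` on `Wb` only we produce a chart `O' = chtO A {g'}` and a closed point `𝔫'` of
`O'` on `Wa` only such that `w` is an isomorphism of local rings `O'_𝔫' ≃ O_𝔫`, and transfer
`S35IC` and `S35Unit` from `(O', 𝔫', Wa)` (leaf ONE-A, `s36oi_one`) to `(O, 𝔫, Wb)`.

* `s36obCentre`: the centre `𝔫' = {x ∈ O' | w x ∈ 𝔫 O_𝔫}` (a prime ideal of `O'`).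
* `s36ob_chart_le`: `w g' ∈ O_𝔫` and `O_𝔫` integrally closed give `w (chtO A {g'}) ⊆ O_𝔫`.
* `s36ob_iso`: the local isomorphism, from the dichotomy "`w g ∈ O'_𝔫'` or `(w g)⁻¹ ∈ O'_𝔫'`".
* `s36ob_Y`: a maximal ideal of the chart `chtO A {g}` is not the centre of a valuation ring
  at which `g` is residually transcendental.
* `s36ob_max`: the centre `𝔫'` is a maximal ideal (Dedekind coordinate ring of `Wa` on `O'`).
* `s36ob_ic_transfer`, `s36ob_unit_transfer`: transfer of `S35IC`, `S35Unit` along a local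
  isomorphism.
* `s36ob_point`: the two data clauses of the one-component point type at a `Wb`-only point.
-/

set_option autoImplicit false
set_option linter.unusedSectionVars false
set_option linter.unusedVariables false

namespace Fermat.Agent.S36

open Fermat.Agent.S18 Fermat.Agent.S34 Fermat.Agent.S35
open Polynomial

section Loc

variable {A F : Type*} [CommRing A] [Field F] [Algebra A F]

/-- an element of `O` lying in `𝔫 O_𝔫` lies in `𝔫` -/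
theorem s36ob_mem_of_max (O : Subalgebra A F) (𝔫 : Ideal ↥O) [h𝔫 : 𝔫.IsPrime] (x : ↥O)
    (hx : (x : F) ∈ dmaMax O 𝔫) : x ∈ 𝔫 := by
  obtain ⟨a, s, ha, hs, h⟩ := hx
  have e : x * s = a := Subtype.ext (by push_cast; exact h)
  have hxs : x * s ∈ 𝔫 := e ▸ ha
  exact (h𝔫.mem_or_mem hxs).resolve_right hs

/-- a unit of `O_𝔫` is a quotient of two elements of `O` outside `𝔫` -/
theorem s36ob_unit_repr (O : Subalgebra A F) (𝔫 : Ideal ↥O) [h𝔫 : 𝔫.IsPrime] {v : F}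
    (hv : v ∈ dmaLoc O 𝔫) (hv' : v ∉ dmaMax O 𝔫) :
    ∃ a s : ↥O, a ∉ 𝔫 ∧ s ∉ 𝔫 ∧ v * (s : F) = (a : F) := by
  obtain ⟨a, s, hs, h⟩ := hv
  exact ⟨a, s, fun ha => hv' ⟨a, s, ha, hs, h⟩, hs, h⟩

/-- a quotient of two elements of `O` outside `𝔫` is a unit of `O_𝔫` -/
theorem s36ob_unit_of_repr (O : Subalgebra A F) (𝔫 : Ideal ↥O) [h𝔫 : 𝔫.IsPrime] {v : F}
    (a s : ↥O) (ha : a ∉ 𝔫) (hs : s ∉ 𝔫) (h : v * (s : F) = (a : F)) :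
    v ∈ dmaLoc O 𝔫 ∧ v ∉ dmaMax O 𝔫 := by
  refine ⟨⟨a, s, hs, h⟩, ?_⟩
  rintro ⟨a', s', ha', hs', h'⟩
  have e : a * s' = a' * s := Subtype.ext (by push_cast; rw [← h, ← h']; ring)
  have h1 : a * s' ∈ 𝔫 := e ▸ 𝔫.mul_mem_right _ ha'
  exact (h𝔫.mem_or_mem h1).elim ha hs'

/-- an element of `O` outside `𝔫` is nonzero in `F` -/
theorem s36ob_coe_ne_zero (O : Subalgebra A F) (𝔫 : Ideal ↥O) {a : ↥O} (ha : a ∉ 𝔫) :
    (a : F) ≠ 0 := by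
  intro h
  apply ha
  have h0 : a = 0 := Subtype.ext h
  rw [h0]
  exact 𝔫.zero_mem

/-- the local ring `O_𝔫` lies in every valuation ring through `𝔫` -/
theorem s36ob_loc_le (O : Subalgebra A F) (𝔫 : Ideal ↥O) [h𝔫 : 𝔫.IsPrime]
    (V : ValuationSubring F) (hOV : ∀ x ∈ O, x ∈ V)
    (hc : ∀ x : ↥O, (x : F) ∈ V.nonunits → x ∈ 𝔫) {x : F} (hx : x ∈ dmaLoc O 𝔫) : x ∈ V := by
  obtain ⟨a, s, hs, h⟩ := hx
  have hs0 : (s : F) ≠ 0 := s36ob_coe_ne_zero O 𝔫 hs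
  have hsW : (s : F)⁻¹ ∈ V := by
    by_contra hcon
    exact hs (hc s (V.mem_nonunits_iff_or.mpr (Or.inr hcon)))
  have e : x = (a : F) * (s : F)⁻¹ := by
    rw [← h, mul_assoc, mul_inv_cancel₀ hs0, mul_one]
  rw [e]
  exact V.mul_mem _ _ (hOV _ a.2) hsW

/-- the inverse of an element of `O` outside `𝔫` lies in every valuation ring through `𝔫` -/
theorem s36ob_inv_mem (O : Subalgebra A F) (𝔫 : Ideal ↥O)
    (V : ValuationSubring F)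
    (hc : ∀ x : ↥O, (x : F) ∈ V.nonunits → x ∈ 𝔫) (s : ↥O) (hs : s ∉ 𝔫) : (s : F)⁻¹ ∈ V := by
  by_contra hcon
  exact hs (hc s (V.mem_nonunits_iff_or.mpr (Or.inr hcon)))

/-- membership of the maximal ideals corresponds under a ring endomorphism `w` with
`x ∈ Wb ↔ w x ∈ Wa` -/
theorem s36ob_nu_iff (w : F →+* F) (Wa Wb : ValuationSubring F)
    (hwb : ∀ x : F, x ∈ Wb ↔ w x ∈ Wa) (x : F) : x ∈ Wb.nonunits ↔ w x ∈ Wa.nonunits := by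
  rw [ValuationSubring.mem_nonunits_iff_or, ValuationSubring.mem_nonunits_iff_or, hwb x⁻¹,
    map_inv₀, map_eq_zero]

end Loc

section Iso

variable {A F : Type*} [CommRing A] [Field F] [Algebra A F]

/-- a root of a monic polynomial with coefficients in `O_𝔫` lies in `O_𝔫` -/
theorem s36ob_ic_poly (O : Subalgebra A F) (𝔫 : Ideal ↥O) [h𝔫 : 𝔫.IsPrime]
    (hint : ∀ x : F, IsIntegral ↥O x → x ∈ O) (p : F[X]) (hp : p.Monic)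
    (hc : ∀ i, p.coeff i ∈ dmaLoc O 𝔫) {y : F} (hy : p.eval y = 0) : y ∈ dmaLoc O 𝔫 := by
  have hsub : (↑p.coeffs : Set F) ⊆ (dmaLoc O 𝔫 : Set F) := by
    intro c hc'
    obtain ⟨n, -, rfl⟩ := Polynomial.mem_coeffs_iff.mp hc'
    exact hc n
  refine dma_mem_of_monic O 𝔫 hint (p.toSubring (dmaLoc O 𝔫) hsub)
    ((Polynomial.monic_toSubring p _ hsub).mpr hp) ?_
  rw [← Polynomial.eval_map, Polynomial.map_toSubring]
  exact hy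

/-- if `w g ∈ O_𝔫` then `w` maps the chart `chtO A {g}` into `O_𝔫` -/
theorem s36ob_chart_le (O : Subalgebra A F) (𝔫 : Ideal ↥O) [h𝔫 : 𝔫.IsPrime]
    (hint : ∀ x : F, IsIntegral ↥O x → x ∈ O) (w : F →+* F)
    (hwA : ∀ a : A, w (algebraMap A F a) = algebraMap A F a) (g : F)
    (hg : w g ∈ dmaLoc O 𝔫) {x : F} (hx : x ∈ chtO A {g}) : w x ∈ dmaLoc O 𝔫 := by
  obtain ⟨p, hp, hc, hpx⟩ := cht_mem_iff_poly.mp hx
  have hadj : ∀ c ∈ Algebra.adjoin A {g}, w c ∈ dmaLoc O 𝔫 := by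
    intro c hc'
    induction hc' using Algebra.adjoin_induction with
    | mem y hy =>
      rw [Set.mem_singleton_iff.mp hy]
      exact hg
    | algebraMap r =>
      rw [hwA]
      exact dma_of_mem O 𝔫 (O.algebraMap_mem r)
    | add y z _ _ hy hz =>
      rw [map_add]
      exact (dmaLoc O 𝔫).add_mem hy hz
    | mul y z _ _ hy hz =>
      rw [map_mul]
      exact (dmaLoc O 𝔫).mul_mem hy hz
  refine s36ob_ic_poly O 𝔫 hint (p.map w) (hp.map w) (fun i => ?_) ?_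
  · rw [Polynomial.coeff_map]
    exact hadj _ (hc i)
  · rw [Polynomial.eval_map, Polynomial.eval₂_at_apply, hpx, map_zero]

/-- the centre on `O'` of the point `𝔫` of `O`, seen through `w`:
`𝔫' = {x ∈ O' | w x ∈ 𝔫 O_𝔫}` -/
def s36obCentre (O O' : Subalgebra A F) (w : F →+* F) (𝔫 : Ideal ↥O) [h𝔫 : 𝔫.IsPrime]
    (hdom : ∀ x ∈ O', w x ∈ dmaLoc O 𝔫) : Ideal ↥O' where
  carrier := {x | w (x : F) ∈ dmaMax O 𝔫}
  add_mem' := by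
    intro a b ha hb
    show w ((a + b : ↥O') : F) ∈ dmaMax O 𝔫
    rw [Subalgebra.coe_add, map_add]
    exact (dmaMax O 𝔫).add_mem ha hb
  zero_mem' := by
    show w ((0 : ↥O') : F) ∈ dmaMax O 𝔫
    rw [Subalgebra.coe_zero, map_zero]
    exact (dmaMax O 𝔫).zero_mem
  smul_mem' := by
    intro c x hx
    show w ((c • x : ↥O') : F) ∈ dmaMax O 𝔫
    rw [smul_eq_mul, Subalgebra.coe_mul, map_mul]
    exact dma_max_mul O 𝔫 (hdom c c.2) hx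

theorem s36ob_centre_mem (O O' : Subalgebra A F) (w : F →+* F) (𝔫 : Ideal ↥O)
    [h𝔫 : 𝔫.IsPrime] (hdom : ∀ x ∈ O', w x ∈ dmaLoc O 𝔫) (x : ↥O') :
    x ∈ s36obCentre O O' w 𝔫 hdom ↔ w (x : F) ∈ dmaMax O 𝔫 := Iff.rfl

theorem s36ob_centre_prime (O O' : Subalgebra A F) (w : F →+* F) (𝔫 : Ideal ↥O)
    [h𝔫 : 𝔫.IsPrime] (hdom : ∀ x ∈ O', w x ∈ dmaLoc O 𝔫) :
    (s36obCentre O O' w 𝔫 hdom).IsPrime := by
  refine ⟨?_, ?_⟩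
  · intro h
    have h1 : (1 : ↥O') ∈ s36obCentre O O' w 𝔫 hdom := by
      rw [h]
      trivial
    have h2 : w ((1 : ↥O') : F) ∈ dmaMax O 𝔫 := h1
    rw [Subalgebra.coe_one, map_one] at h2
    exact dma_one_notMem_max O 𝔫 h2
  · intro x y hxy
    have h1 : w ((x * y : ↥O') : F) ∈ dmaMax O 𝔫 := hxy
    rw [Subalgebra.coe_mul, map_mul] at h1
    by_cases hx : w (x : F) ∈ dmaMax O 𝔫
    · exact Or.inl hx
    · right
      have hinv := dma_inv_mem O 𝔫 (hdom x x.2) hx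
      have hx0 := dma_ne_zero O 𝔫 hx
      have h2 := dma_max_mul O 𝔫 hinv h1
      rwa [← mul_assoc, inv_mul_cancel₀ hx0, one_mul] at h2

/-- `w` maps `O'_𝔫'` into `O_𝔫` and `𝔫' O'_𝔫'` into `𝔫 O_𝔫`, for the centre `𝔫'` -/
theorem s36ob_fwd (O O' : Subalgebra A F) (w : F →+* F) (𝔫 : Ideal ↥O) [h𝔫 : 𝔫.IsPrime]
    (hdom : ∀ x ∈ O', w x ∈ dmaLoc O 𝔫) (𝔫' : Ideal ↥O') [h𝔫' : 𝔫'.IsPrime]
    (hcen : ∀ x : ↥O', x ∈ 𝔫' ↔ w (x : F) ∈ dmaMax O 𝔫) :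
    (∀ v ∈ dmaLoc O' 𝔫', w v ∈ dmaLoc O 𝔫) ∧ (∀ v ∈ dmaMax O' 𝔫', w v ∈ dmaMax O 𝔫) := by
  have key : ∀ s : ↥O', s ∉ 𝔫' → (w (s : F))⁻¹ ∈ dmaLoc O 𝔫 ∧ w (s : F) ≠ 0 := fun s hs =>
    ⟨dma_inv_mem O 𝔫 (hdom s s.2) (fun h => hs ((hcen s).mpr h)),
      dma_ne_zero O 𝔫 (fun h => hs ((hcen s).mpr h))⟩
  constructor
  · rintro v ⟨a, s, hs, h⟩
    obtain ⟨h1, h2⟩ := key s hs
    have e : w v = w (a : F) * (w (s : F))⁻¹ := by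
      rw [← h, map_mul, mul_assoc, mul_inv_cancel₀ h2, mul_one]
    rw [e]
    exact (dmaLoc O 𝔫).mul_mem (hdom a a.2) h1
  · rintro v ⟨a, s, ha, hs, h⟩
    obtain ⟨h1, h2⟩ := key s hs
    have e : w v = (w (s : F))⁻¹ * w (a : F) := by
      rw [← h, map_mul, mul_comm (w v), ← mul_assoc, inv_mul_cancel₀ h2, one_mul]
    rw [e]
    exact dma_max_mul O 𝔫 h1 ((hcen a).mp ha)

/-- two-sided correspondence for an involution `w` with `w (O'_𝔫') ⊆ O_𝔫`,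
`w (𝔫' O'_𝔫') ⊆ 𝔫 O_𝔫` and `w (O_𝔫) ⊆ O'_𝔫'` -/
theorem s36ob_iso_core (O O' : Subalgebra A F) (w : F →+* F) (hww : ∀ x, w (w x) = x)
    (𝔫 : Ideal ↥O) [𝔫.IsPrime] (𝔫' : Ideal ↥O') [𝔫'.IsPrime]
    (hF : ∀ v ∈ dmaLoc O' 𝔫', w v ∈ dmaLoc O 𝔫) (hFm : ∀ v ∈ dmaMax O' 𝔫', w v ∈ dmaMax O 𝔫)
    (hB : ∀ v ∈ dmaLoc O 𝔫, w v ∈ dmaLoc O' 𝔫') :
    (∀ v ∈ dmaMax O 𝔫, w v ∈ dmaMax O' 𝔫') ∧
    (∀ v ∈ dmaLoc O 𝔫, v ∉ dmaMax O 𝔫 → w v ∉ dmaMax O' 𝔫') ∧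
    (∀ v ∈ dmaLoc O' 𝔫', v ∉ dmaMax O' 𝔫' → w v ∉ dmaMax O 𝔫) := by
  have hBm : ∀ v ∈ dmaMax O 𝔫, w v ∈ dmaMax O' 𝔫' := by
    intro v hv
    by_contra hcon
    have hv0 : w v ≠ 0 := dma_ne_zero O' 𝔫' hcon
    have hinv := dma_inv_mem O' 𝔫' (hB v (dma_max_le O 𝔫 hv)) hcon
    have h1 := hF _ hinv
    rw [map_inv₀, hww] at h1
    have hv0' : v ≠ 0 := fun h => hv0 (by rw [h, map_zero])
    have h2 := dma_max_mul O 𝔫 h1 hv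
    rw [inv_mul_cancel₀ hv0'] at h2
    exact dma_one_notMem_max O 𝔫 h2
  refine ⟨hBm, ?_, ?_⟩
  · intro v hv hv' hcon
    have := hFm _ hcon
    rw [hww] at this
    exact hv' this
  · intro v hv hv' hcon
    have := hBm _ hcon
    rw [hww] at this
    exact hv' this

/-- the backward inclusion `w (O_𝔫) ⊆ O'_𝔫'` for the chart `O = chtO A {g}`, from the
dichotomy "`w g ∈ O'_𝔫'` or `(w g)⁻¹ ∈ O'_𝔫'`" -/
theorem s36ob_bwd (O' : Subalgebra A F) (w : F →+* F)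
    (hwA : ∀ a : A, w (algebraMap A F a) = algebraMap A F a) (hww : ∀ x, w (w x) = x)
    (g : F) (𝔫 : Ideal ↥(chtO A {g})) [𝔫.IsPrime] (𝔫' : Ideal ↥O') [𝔫'.IsPrime]
    (hint' : ∀ x : F, IsIntegral ↥O' x → x ∈ O')
    (hF : ∀ v ∈ dmaLoc O' 𝔫', w v ∈ dmaLoc (chtO A {g}) 𝔫)
    (hFm : ∀ v ∈ dmaMax O' 𝔫', w v ∈ dmaMax (chtO A {g}) 𝔫)
    (hD : w g ∈ dmaLoc O' 𝔫' ∨ (w g)⁻¹ ∈ dmaLoc O' 𝔫') :
    ∀ v ∈ dmaLoc (chtO A {g}) 𝔫, w v ∈ dmaLoc O' 𝔫' := by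
  have hg : w g ∈ dmaLoc O' 𝔫' := by
    by_cases hg0 : g = 0
    · rw [hg0, map_zero]
      exact (dmaLoc O' 𝔫').zero_mem
    rcases hD with h | h
    · exact h
    · by_cases hm : (w g)⁻¹ ∈ dmaMax O' 𝔫'
      · exfalso
        have h1 := hFm _ hm
        rw [map_inv₀, hww] at h1
        have h2 := dma_max_mul (chtO A {g}) 𝔫 (dma_of_mem (chtO A {g}) 𝔫 (cht_h1 g).1) h1
        rw [mul_inv_cancel₀ hg0] at h2
        exact dma_one_notMem_max (chtO A {g}) 𝔫 h2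
      · have := dma_inv_mem O' 𝔫' h hm
        rwa [inv_inv] at this
  have hO : ∀ x ∈ chtO A {g}, w x ∈ dmaLoc O' 𝔫' := fun x hx =>
    s36ob_chart_le O' 𝔫' hint' w hwA g hg hx
  rintro v ⟨a, s, hs, h⟩
  have hsm : w (s : F) ∉ dmaMax O' 𝔫' := by
    intro hcon
    have h1 := hFm _ hcon
    rw [hww] at h1
    exact hs (s36ob_mem_of_max (chtO A {g}) 𝔫 s h1)
  have hinv := dma_inv_mem O' 𝔫' (hO s s.2) hsm
  have hs0 := dma_ne_zero O' 𝔫' hsm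
  have e : w v = w (a : F) * (w (s : F))⁻¹ := by
    rw [← h, map_mul, mul_assoc, mul_inv_cancel₀ hs0, mul_one]
  rw [e]
  exact (dmaLoc O' 𝔫').mul_mem (hO a a.2) hinv

end Iso

section Point

variable {A F : Type*} [CommRing A] [Field F] [Algebra A F]

/-- A maximal ideal of the chart `chtO A {g}` contains an element `P(g)`, `P ∈ A[X]` with a
coefficient not divisible by `τ` (`τ` a non-unit of `A`): the chart is integral over `A[g]`,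
so the contraction of the maximal ideal to `A[X]` is maximal. -/
theorem s36ob_Y (τ : A) (hτu : ¬ IsUnit τ) (g : F) (𝔫 : Ideal ↥(chtO A {g}))
    (h𝔫 : 𝔫.IsMaximal) :
    ∃ P : A[X], (∃ i, ¬ τ ∣ P.coeff i) ∧
      ∃ y : ↥(chtO A {g}), y ∈ 𝔫 ∧ (y : F) = aeval g P := by
  let g' : ↥(chtO A {g}) := ⟨g, (cht_h1 g).1⟩
  let f : A[X] →+* ↥(chtO A {g}) := (aeval g' : A[X] →ₐ[A] ↥(chtO A {g})).toRingHom
  have hcoe : ∀ P : A[X], ((f P : ↥(chtO A {g})) : F) = aeval g P := by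
    intro P
    show ((aeval g' P : ↥(chtO A {g})) : F) = aeval g P
    rw [aeval_subalgebra_coe]
  have hcomp : (algebraMap ↥(chtO A {g}) F).comp f = (aeval g : A[X] →ₐ[A] F).toRingHom := by
    refine Polynomial.ringHom_ext (fun c => ?_) ?_
    · show ((f (C c) : ↥(chtO A {g})) : F) = aeval g (C c)
      rw [hcoe]
    · show ((f X : ↥(chtO A {g})) : F) = aeval g X
      rw [hcoe]
  have hf : f.IsIntegral := by
    intro x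
    obtain ⟨q, hqm, hq⟩ := (cht_isIntegral_adjoin_iff g (x : F)).mp x.2
    refine ⟨q, hqm, ?_⟩
    apply Subtype.ext
    have h1 := Polynomial.hom_eval₂ q f (algebraMap ↥(chtO A {g}) F) x
    rw [hcomp] at h1
    have h2 : algebraMap ↥(chtO A {g}) F x = (x : F) := rfl
    rw [h2, hq] at h1
    exact h1
  have hmaxI : 𝔫.IsMaximal := h𝔫
  have hJ : (𝔫.comap f).IsMaximal := Ideal.isMaximal_comap_of_isIntegral_of_isMaximal' f hf 𝔫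
  have h1 : ¬ τ ∣ (1 : A) := fun h => hτu (isUnit_of_dvd_one h)
  by_cases hX : (X : A[X]) ∈ 𝔫.comap f
  · refine ⟨X, ⟨1, ?_⟩, f X, hX, hcoe X⟩
    rw [coeff_X_one]
    exact h1
  · obtain ⟨Q, i, hi, e⟩ := hJ.exists_inv hX
    refine ⟨i, ⟨0, ?_⟩, f i, hi, hcoe i⟩
    have h0 : i.coeff 0 = 1 := by
      have h2 := congrArg (fun p : A[X] => p.coeff 0) e
      simpa using h2
    rw [h0]
    exact h1

/-- a prime ideal of `O'` containing the centre `p` of a component with Dedekind coordinate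
ring, and an element outside `p`, is maximal -/
theorem s36ob_max (O' : Subalgebra A F) (p : Ideal ↥O') [IsDedekindDomain (↥O' ⧸ p)]
    (𝔫' : Ideal ↥O') [h𝔫' : 𝔫'.IsPrime] (hp : p ≤ 𝔫') (a : ↥O') (ha : a ∈ 𝔫') (hap : a ∉ p) :
    𝔫'.IsMaximal := by
  have hPprime : (𝔫'.map (Ideal.Quotient.mk p)).IsPrime :=
    Ideal.map_isPrime_of_surjective Ideal.Quotient.mk_surjective (by rw [Ideal.mk_ker]; exact hp)
  have hne : 𝔫'.map (Ideal.Quotient.mk p) ≠ ⊥ := by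
    intro h
    have h1 : Ideal.Quotient.mk p a ∈ 𝔫'.map (Ideal.Quotient.mk p) := Ideal.mem_map_of_mem _ ha
    rw [h, Ideal.mem_bot, Ideal.Quotient.eq_zero_iff_mem] at h1
    exact hap h1
  have hmax : (𝔫'.map (Ideal.Quotient.mk p)).IsMaximal := hPprime.isMaximal hne
  have hcomap : (𝔫'.map (Ideal.Quotient.mk p)).comap (Ideal.Quotient.mk p) = 𝔫' := by
    rw [Ideal.comap_map_of_surjective _ Ideal.Quotient.mk_surjective, ← RingHom.ker_eq_comap_bot,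
      Ideal.mk_ker]
    exact sup_eq_left.mpr hp
  rw [← hcomap]
  exact Ideal.comap_isMaximal_of_surjective _ Ideal.Quotient.mk_surjective

/-- transfer of `S35Unit` along a local homomorphism `w : O'_𝔫' → O_𝔫` -/
theorem s36ob_unit_transfer (O O' : Subalgebra A F) (w : F →+* F) (hww : ∀ x, w (w x) = x)
    (𝔫 : Ideal ↥O) [𝔫.IsPrime] (𝔫' : Ideal ↥O') [𝔫'.IsPrime]
    (hF : ∀ v ∈ dmaLoc O' 𝔫', w v ∈ dmaLoc O 𝔫)
    (hFu : ∀ v ∈ dmaLoc O' 𝔫', v ∉ dmaMax O' 𝔫' → w v ∉ dmaMax O 𝔫)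
    (m : ℕ) (f : F) (h : S35Unit m O' 𝔫' (w f)) : S35Unit m O 𝔫 f := by
  obtain ⟨g, hg, a, s, ha, hs, e⟩ := h
  have hgm : g ^ m ≠ 0 := pow_ne_zero _ hg
  obtain ⟨hv, hv'⟩ := s36ob_unit_of_repr O' 𝔫' (v := w f * (g ^ m)⁻¹) a s ha hs (by
    rw [mul_right_comm, e, mul_assoc, mul_inv_cancel₀ hgm, mul_one])
  have h1 := hF _ hv
  have h2 := hFu _ hv hv'
  rw [map_mul, hww, map_inv₀, map_pow] at h1 h2
  obtain ⟨a₁, s₁, ha₁, hs₁, e₁⟩ := s36ob_unit_repr O 𝔫 h1 h2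
  have hwg : (w g) ^ m ≠ 0 := pow_ne_zero _ ((map_ne_zero w).mpr hg)
  refine ⟨w g, (map_ne_zero w).mpr hg, a₁, s₁, ha₁, hs₁, ?_⟩
  rw [← e₁]
  field_simp

/-- transfer of `S35IC` along a local isomorphism `w : O'_𝔫' ≃ O_𝔫` exchanging `Wa`, `Wb` -/
theorem s36ob_ic_transfer (O O' : Subalgebra A F) (w : F →+* F) (hww : ∀ x, w (w x) = x)
    (Wa Wb : ValuationSubring F) (hwb : ∀ x : F, x ∈ Wb ↔ w x ∈ Wa)
    (hOb : ∀ x ∈ O, x ∈ Wb) (hO'a : ∀ x ∈ O', x ∈ Wa)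
    (𝔫 : Ideal ↥O) [𝔫.IsPrime] (𝔫' : Ideal ↥O') [𝔫'.IsPrime]
    (hb : ∀ x : ↥O, (x : F) ∈ Wb.nonunits → x ∈ 𝔫)
    (ha : ∀ x : ↥O', (x : F) ∈ Wa.nonunits → x ∈ 𝔫')
    (hF : ∀ v ∈ dmaLoc O' 𝔫', w v ∈ dmaLoc O 𝔫)
    (hB : ∀ v ∈ dmaLoc O 𝔫, w v ∈ dmaLoc O' 𝔫')
    (hBu : ∀ v ∈ dmaLoc O 𝔫, v ∉ dmaMax O 𝔫 → w v ∉ dmaMax O' 𝔫')
    (m : ℕ) (h : S35IC m O' 𝔫' Wa) : S35IC m O 𝔫 Wb := by
  have hnu := s36ob_nu_iff w Wa Wb hwb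
  rintro z ⟨a, s, ha', hs, hz⟩
  have hs0 := s36ob_coe_ne_zero O 𝔫 hs
  obtain ⟨hv, hv'⟩ := s36ob_unit_of_repr O 𝔫 (v := (a : F) * (s : F)⁻¹) a s ha' hs (by
    rw [mul_assoc, inv_mul_cancel₀ hs0, mul_one])
  have hsinv : (s : F)⁻¹ ∈ Wb := s36ob_inv_mem O 𝔫 Wb hb s hs
  have h1 : z ^ m - (a : F) * (s : F)⁻¹ ∈ Wb.nonunits := by
    have e : z ^ m - (a : F) * (s : F)⁻¹ = (z ^ m * (s : F) - (a : F)) * (s : F)⁻¹ := by
      rw [sub_mul, mul_assoc, mul_inv_cancel₀ hs0, mul_one]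
    rw [e]
    exact cz_nonunits_mul Wb hz hsinv
  have h2 : (w z) ^ m - w ((a : F) * (s : F)⁻¹) ∈ Wa.nonunits := by
    have := (hnu _).mp h1
    rwa [map_sub, map_pow] at this
  obtain ⟨a₁, s₁, ha₁, hs₁, e₁⟩ := s36ob_unit_repr O' 𝔫' (hB _ hv) (hBu _ hv hv')
  have h3 : (w z) ^ m * (s₁ : F) - (a₁ : F) ∈ Wa.nonunits := by
    have e : (w z) ^ m * (s₁ : F) - (a₁ : F) =
        ((w z) ^ m - w ((a : F) * (s : F)⁻¹)) * (s₁ : F) := by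
      rw [← e₁]
      ring
    rw [e]
    exact cz_nonunits_mul Wa h2 (hO'a _ s₁.2)
  obtain ⟨a₂, s₂, hs₂, h4⟩ := h (w z) ⟨a₁, s₁, ha₁, hs₁, h3⟩
  have hs₂0 := s36ob_coe_ne_zero O' 𝔫' hs₂
  have hv₂ : (a₂ : F) * (s₂ : F)⁻¹ ∈ dmaLoc O' 𝔫' :=
    ⟨a₂, s₂, hs₂, by rw [mul_assoc, inv_mul_cancel₀ hs₂0, mul_one]⟩
  have hs₂inv : (s₂ : F)⁻¹ ∈ Wa := s36ob_inv_mem O' 𝔫' Wa ha s₂ hs₂
  have h5 : w z - (a₂ : F) * (s₂ : F)⁻¹ ∈ Wa.nonunits := by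
    have e : w z - (a₂ : F) * (s₂ : F)⁻¹ = (w z * (s₂ : F) - (a₂ : F)) * (s₂ : F)⁻¹ := by
      rw [sub_mul, mul_assoc, mul_inv_cancel₀ hs₂0, mul_one]
    rw [e]
    exact cz_nonunits_mul Wa h4 hs₂inv
  have h6 : z - w ((a₂ : F) * (s₂ : F)⁻¹) ∈ Wb.nonunits := by
    rw [hnu, map_sub, hww]
    exact h5
  obtain ⟨a₃, s₃, hs₃, e₃⟩ := hF _ hv₂
  refine ⟨a₃, s₃, hs₃, ?_⟩
  have e : z * (s₃ : F) - (a₃ : F) = (z - w ((a₂ : F) * (s₂ : F)⁻¹)) * (s₃ : F) := by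
    rw [← e₃]
    ring
  rw [e]
  exact cz_nonunits_mul Wb h6 (hOb _ s₃.2)

/-- **ONE-B, abstract.**  Charts `O = chtO A {g}`, `O' = chtO A {g'}`, an involution `w`
of `F` over `A` exchanging `Wa` and `Wb` and fixing `Wc`.  At a closed point `𝔫` of `O` on
`Wb` only, with `w g' ∈ O_𝔫` (`hg'`), the two data clauses of the one-component point type:
`S35IC m O 𝔫 Wb` and `S35Unit m O 𝔫 f` for every `f` with `hord` which is a unit of `Wb`.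
Inputs on `O'`: the chart block of `s36oi_one'` with `W₁ = Wa` (in particular the Dedekind
coordinate ring `hD'` of `Wa`) and the dichotomy `hdom'` at its primes over `τ`; input on `O`:
`g` is residually transcendental at `Wb` (`hGb`). -/
theorem s36ob_point (τ : A) (hτ0 : algebraMap A F τ ≠ 0) (hτu : ¬ IsUnit τ)
    (w : F →+* F) (hwA : ∀ a : A, w (algebraMap A F a) = algebraMap A F a)
    (hww : ∀ x : F, w (w x) = x)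
    (Wa Wb Wc : ValuationSubring F)
    (hwb : ∀ x : F, x ∈ Wb ↔ w x ∈ Wa) (hwc : ∀ x : F, x ∈ Wc ↔ w x ∈ Wc)
    (g g' : F)
    [IsNoetherianRing ↥(chtO A {g'})]
    (hfrac' : ∀ x : F, ∃ a ∈ chtO A {g'}, ∃ s ∈ chtO A {g'}, s ≠ 0 ∧ x * s = a)
    (hO'a : ∀ y ∈ chtO A {g'}, y ∈ Wa) (hO'b : ∀ y ∈ chtO A {g'}, y ∈ Wb)
    (hO'c : ∀ y ∈ chtO A {g'}, y ∈ Wc)
    (hWatop : Wa ≠ ⊤) (hWbtop : Wb ≠ ⊤) (hWctop : Wc ≠ ⊤)
    (hdiv' : ∀ x ∈ chtO A {g'}, x * (algebraMap A F τ)⁻¹ ∈ Wa →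
      x * (algebraMap A F τ)⁻¹ ∈ Wb → x * (algebraMap A F τ)⁻¹ ∈ Wc →
      x * (algebraMap A F τ)⁻¹ ∈ chtO A {g'})
    (hred' : ∀ x ∈ chtO A {g'}, x ∈ Wa.nonunits → x ∈ Wb.nonunits → x ∈ Wc.nonunits →
      ∃ (N : ℕ), ∃ y ∈ chtO A {g'}, x ^ N = algebraMap A F τ * y)
    (hτW : algebraMap A F τ ∈ Wa.nonunits)
    (hdec : ∀ z : F, z ≠ 0 → ∃ j : ℤ, z * algebraMap A F τ ^ j ∈ Wa ∧
      (z * algebraMap A F τ ^ j)⁻¹ ∈ Wa)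
    (ϖb : F) (hϖb : ϖb ∈ Wb) (hϖb0 : ϖb ≠ 0)
    (hdecb : ∀ z : F, z ≠ 0 → ∃ j : ℤ, z * ϖb ^ j ∈ Wb ∧ (z * ϖb ^ j)⁻¹ ∈ Wb)
    (ϖc : F) (hϖc : ϖc ∈ Wc) (hϖc0 : ϖc ≠ 0)
    (hdecc : ∀ z : F, z ≠ 0 → ∃ j : ℤ, z * ϖc ^ j ∈ Wc ∧ (z * ϖc ^ j)⁻¹ ∈ Wc)
    (hD' : ∀ 𝔭 : Ideal ↥(chtO A {g'}),
      (∀ x : ↥(chtO A {g'}), x ∈ 𝔭 ↔ (x : F) ∈ Wa.nonunits) →
      IsDedekindDomain (↥(chtO A {g'}) ⧸ 𝔭))
    (hdom' : ∀ 𝔫' : Ideal ↥(chtO A {g'}), 𝔫'.IsPrime →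
      algebraMap A ↥(chtO A {g'}) τ ∈ 𝔫' →
      (∃ a s : ↥(chtO A {g'}), s ∉ 𝔫' ∧ w g * (s : F) = a) ∨
      (∃ a s : ↥(chtO A {g'}), s ∉ 𝔫' ∧ (w g)⁻¹ * (s : F) = a))
    (hOb : ∀ y ∈ chtO A {g}, y ∈ Wb)
    (hGb : ∀ p : A[X], (∃ i, ¬ τ ∣ p.coeff i) → aeval g p ∉ Wb.nonunits)
    (m : ℕ) (hm : 0 < m) (𝔫 : Ideal ↥(chtO A {g})) (h𝔫 : 𝔫.IsMaximal)
    (h1 : ∀ x : ↥(chtO A {g}), (x : F) ∈ Wb.nonunits → x ∈ 𝔫)
    (hmissa : ∃ X : ↥(chtO A {g}), (X : F) ∈ Wa.nonunits ∧ X ∉ 𝔫)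
    (hmissc : ∃ X : ↥(chtO A {g}), (X : F) ∈ Wc.nonunits ∧ X ∉ 𝔫)
    (hg' : ∃ a s : ↥(chtO A {g}), s ∉ 𝔫 ∧ w g' * (s : F) = a) :
    S35IC m (chtO A {g}) 𝔫 Wb ∧
    ∀ f : F, f ≠ 0 →
      (∀ V : ValuationSubring F, (∀ a : A, algebraMap A F a ∈ V) →
        (algebraMap A F τ)⁻¹ ∈ V → IsPrincipalIdealRing V →
        ∃ u : F, u ≠ 0 ∧ f * u ^ m ∈ V ∧ (f * u ^ m)⁻¹ ∈ V) →
      f ∈ Wb → f⁻¹ ∈ Wb → S35Unit m (chtO A {g}) 𝔫 f := by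
  have h𝔫p : 𝔫.IsPrime := h𝔫.isPrime
  have hint : ∀ x : F, IsIntegral ↥(chtO A {g}) x → x ∈ chtO A {g} :=
    fun x hx => cht_integral_closed _ hx
  have hint' : ∀ x : F, IsIntegral ↥(chtO A {g'}) x → x ∈ chtO A {g'} :=
    fun x hx => cht_integral_closed _ hx
  have hnu := s36ob_nu_iff w Wa Wb hwb
  have hnuc := s36ob_nu_iff w Wc Wc hwc
  -- `τ ∈ 𝔫`
  have hτb : algebraMap A F τ ∈ Wb.nonunits := by
    rw [hnu, hwA]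
    exact hτW
  have hτ𝔫 : algebraMap A ↥(chtO A {g}) τ ∈ 𝔫 := h1 _ hτb
  -- `w` maps `O'` into `O_𝔫`
  have hdomO' : ∀ x ∈ chtO A {g'}, w x ∈ dmaLoc (chtO A {g}) 𝔫 := fun x hx =>
    s36ob_chart_le (chtO A {g}) 𝔫 hint w hwA g' hg' hx
  -- the centre
  have h𝔫' : (s36obCentre (chtO A {g}) (chtO A {g'}) w 𝔫 hdomO').IsPrime :=
    s36ob_centre_prime (chtO A {g}) (chtO A {g'}) w 𝔫 hdomO'
  have hcen : ∀ x : ↥(chtO A {g'}),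
      x ∈ s36obCentre (chtO A {g}) (chtO A {g'}) w 𝔫 hdomO' ↔
        w (x : F) ∈ dmaMax (chtO A {g}) 𝔫 := fun x => Iff.rfl
  generalize s36obCentre (chtO A {g}) (chtO A {g'}) w 𝔫 hdomO' = 𝔫' at h𝔫' hcen
  obtain ⟨hF, hFm⟩ := s36ob_fwd (chtO A {g}) (chtO A {g'}) w 𝔫 hdomO' 𝔫' hcen
  have hτ𝔫' : algebraMap A ↥(chtO A {g'}) τ ∈ 𝔫' := by
    rw [hcen]
    show w (algebraMap A F τ) ∈ dmaMax (chtO A {g}) 𝔫
    rw [hwA]
    exact dma_max_of_mem (chtO A {g}) 𝔫 _ hτ𝔫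
  have hB := s36ob_bwd (chtO A {g'}) w hwA hww g 𝔫 𝔫' hint' hF hFm (hdom' 𝔫' h𝔫' hτ𝔫')
  obtain ⟨hBm, hBu, hFu⟩ := s36ob_iso_core (chtO A {g}) (chtO A {g'}) w hww 𝔫 𝔫' hF hFm hB
  -- `Wa` passes through `𝔫'`
  have h1' : ∀ x : ↥(chtO A {g'}), (x : F) ∈ Wa.nonunits → x ∈ 𝔫' := by
    intro x hx
    rw [hcen]
    have hxb : w (x : F) ∈ Wb.nonunits := by
      rw [hnu, hww]
      exact hx
    obtain ⟨a, s, hs, e⟩ := hdomO' x x.2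
    refine ⟨a, s, h1 a ?_, hs, e⟩
    rw [← e]
    exact cz_nonunits_mul Wb hxb (hOb _ s.2)
  -- an element of `𝔫'` which is a unit of `Wa`
  obtain ⟨P, hP, y, hy𝔫, hyP⟩ := s36ob_Y τ hτu g 𝔫 h𝔫
  have hyb : (y : F) ∉ Wb.nonunits := by
    rw [hyP]
    exact hGb P hP
  obtain ⟨a₀, s₀, ha₀, hs₀, e₀⟩ := hBm _ (dma_max_of_mem (chtO A {g}) 𝔫 y hy𝔫)
  have ha₀W : (a₀ : F) ∉ Wa.nonunits := by
    intro hcon
    apply hyb
    rw [hnu]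
    have hs₀inv : (s₀ : F)⁻¹ ∈ Wa := s36ob_inv_mem (chtO A {g'}) 𝔫' Wa h1' s₀ hs₀
    have hs₀0 := s36ob_coe_ne_zero (chtO A {g'}) 𝔫' hs₀
    have e : w (y : F) = (a₀ : F) * (s₀ : F)⁻¹ := by
      rw [← e₀, mul_assoc, mul_inv_cancel₀ hs₀0, mul_one]
    rw [e]
    exact cz_nonunits_mul Wa hcon hs₀inv
  -- `𝔫'` is maximal
  obtain ⟨p, hpmem⟩ := s35ip_exists_p (chtO A {g'}) Wa hO'a
  have hded : IsDedekindDomain (↥(chtO A {g'}) ⧸ p) := hD' p hpmem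
  have hmax' : 𝔫'.IsMaximal :=
    s36ob_max (chtO A {g'}) p 𝔫' (fun x hx => h1' x ((hpmem x).mp hx)) a₀ ha₀
      (fun h => ha₀W ((hpmem a₀).mp h))
  -- `Wb` and `Wc` miss `𝔫'`
  have hmissb' : ¬ ∀ x : ↥(chtO A {g'}), (x : F) ∈ Wb.nonunits → x ∈ 𝔫' := by
    intro hcon
    obtain ⟨X, hXa, hX𝔫⟩ := hmissa
    have hXu : (X : F) ∉ dmaMax (chtO A {g}) 𝔫 := fun h =>
      hX𝔫 (s36ob_mem_of_max (chtO A {g}) 𝔫 X h)
    obtain ⟨a, s, ha, hs, e⟩ := s36ob_unit_repr (chtO A {g'}) 𝔫'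
      (hB _ (dma_of_mem (chtO A {g}) 𝔫 X.2)) (hBu _ (dma_of_mem (chtO A {g}) 𝔫 X.2) hXu)
    refine ha (hcon a ?_)
    rw [← e]
    refine cz_nonunits_mul Wb ?_ (hO'b _ s.2)
    rw [hnu, hww]
    exact hXa
  have hmissc' : ¬ ∀ x : ↥(chtO A {g'}), (x : F) ∈ Wc.nonunits → x ∈ 𝔫' := by
    intro hcon
    obtain ⟨X, hXc, hX𝔫⟩ := hmissc
    have hXu : (X : F) ∉ dmaMax (chtO A {g}) 𝔫 := fun h =>
      hX𝔫 (s36ob_mem_of_max (chtO A {g}) 𝔫 X h)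
    obtain ⟨a, s, ha, hs, e⟩ := s36ob_unit_repr (chtO A {g'}) 𝔫'
      (hB _ (dma_of_mem (chtO A {g}) 𝔫 X.2)) (hBu _ (dma_of_mem (chtO A {g}) 𝔫 X.2) hXu)
    refine ha (hcon a ?_)
    rw [← e]
    refine cz_nonunits_mul Wc ?_ (hO'c _ s.2)
    rw [hnuc, hww]
    exact hXc
  -- ONE-A at `(O', 𝔫', Wa)`
  obtain ⟨hIC', hU'⟩ := s36oi_one' τ hτ0 (chtO A {g'}) hfrac' hint' Wa Wb Wc hO'a hO'b hO'c
    hWatop hWbtop hWctop hdiv' hred' hτW hdec ϖb hϖb hϖb0 hdecb ϖc hϖc hϖc0 hdecc hD' m hm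
    𝔫' hmax' h1' hmissb' hmissc'
  refine ⟨s36ob_ic_transfer (chtO A {g}) (chtO A {g'}) w hww Wa Wb hwb hOb hO'a 𝔫 𝔫' h1 h1'
    hF hB hBu m hIC', ?_⟩
  intro f hf0 hord hfb hfb'
  refine s36ob_unit_transfer (chtO A {g}) (chtO A {g'}) w hww 𝔫 𝔫' hF hFu m f ?_
  have hbij : Function.Bijective w := Function.Involutive.bijective hww
  have hord' := lni_hord_comap τ m f (RingEquiv.ofBijective w hbij) hwA hord
  refine hU' (w f) ((map_ne_zero w).mpr hf0) hord' ((hwb f).mp hfb) ?_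
  rw [← map_inv₀]
  exact (hwb _).mp hfb'

end Point

end Fermat.Agent.S36
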