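import Mathlib
import Fermat.Agent.S36.OneInstB
import Fermat.Agent.S36.Comp3CarB
import Fermat.Agent.S36.SwapDom
import Fermat.Agent.S36.Val3Sw

/-!
# S36, ONE-B at the carrier by the swap route: the closed points on `W_b` only

The clause `hB` of `s36k3_point` (S36/Comp3.lean) for the two Hauptmodul charts
`chtO A0 {t}`, `chtO A0 {t⁻¹}` of level `M q ^ 2`, WITHOUT a Dedekind statement for the
component `W_b`: the abstract transfer `s36ob_point` (S36/OneInstB.lean) along the swap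
`w₂ = s36v3Swap M q hM K0` reduces a `W_b`-only point to a `W_a`-only point of one of the two
charts, where ONE-A (`s36oi_one'`, with `s36cd_Wa_hD`, `s36cd_Wa_hD_inv`) applies.

* `s36ob_car_lvl`, `s36ob_car_G`: a polynomial in a level-`M` function which is a unit of the
  Gauss valuation ring `W_a` is a unit of `W_b` (so the chart coordinate is residually
  transcendental at `W_b`).
* `s36ob_car_ptone`: `S36inPtOne` (with `V := W_b`) at every closed point of both charts on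
  `W_b` only.
* `s36ob_car_hB`: the clause `hB` of `s36k3_point` in the datum form `S36inPtDat`, both charts,
  closed at `W_b = W_a.comap w₂`, `W_c = s36v3Wc` = the hypothesis `hB` of `s36kc_comp3_dat`
  (S36/Comp3CarB.lean) verbatim; swap domination is `s36sw_dom` (S36/SwapDom.lean).

Hypotheses of `s36ob_car_ptone` beyond the chart binders of `s36oi_hB`: `hSM`, `hSM'` (for the
Dedekind coordinate rings of `W_a`), the action of the swap on the valuation rings (`hwb`,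
`hwc`; at the carrier `Iff.rfl` and `s36vw_mem_Wc`), and the domination statement `hdom0`,
`hdom1` at every prime of the two charts over `τ`.
-/

set_option autoImplicit false
set_option linter.unusedSectionVars false
set_option linter.unusedVariables false

open AlgebraicCurve ModularCurve Polynomial
open Fermat.Agent.S28 Fermat.Agent.S18 Fermat.Agent.S34 Fermat.Agent.S35

namespace Fermat.Agent.S36

local notation "Qb" => AlgebraicClosure ℚ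

section Carrier

variable {K0 : Type*} [Field K0] [Algebra ℚ K0] [Algebra K0 Qb] (A0 : ValuationSubring K0)
  [IsDiscreteValuationRing ↥A0]
  (M q : ℕ) [NeZero M] [hq : Fact q.Prime] (hM : ¬ q ∣ M)
  {a2 : ℕ} (H : HauptRec a2 q) (ha2 : a2 ∣ M)

/-- a level-`M` function lying in the Gauss valuation ring `W_a` lies in `W_b` -/
theorem s36ob_car_lvl
    (Wb : ValuationSubring ↥(laurentBaseChange K0 (modularFunctionFieldFull (M * q * q))))
    (halb : ∀ x, heckeAlphaBar K0 (M * q) q x ∈ Wb ↔ x ∈ va2V2 M q hM K0 A0)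
    (y : ↥(laurentBaseChange K0 (modularFunctionFieldFull M)))
    (h : heckeAlphaBar K0 (M * q) q (heckeAlphaBar K0 M q y) ∈ va2V1 (M * q) q K0 A0) :
    heckeAlphaBar K0 (M * q) q (heckeAlphaBar K0 M q y) ∈ Wb := by
  rw [halb, mem_va2V2, va2Swap_alpha, mem_va2V1, coe_heckeBetaBar]
  rw [mem_va2V1, coe_heckeAlphaBar, coe_heckeAlphaBar] at h
  exact Fermat.Agent.S37.tv_qExpand_mem A0 q h

/-- a polynomial in a level-`M` function which is a unit of `W_a` is a unit of `W_b` -/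
theorem s36ob_car_G
    [Algebra A0 ↥(laurentBaseChange K0 (modularFunctionFieldFull (M * q * q)))]
    [IsScalarTower A0 K0 ↥(laurentBaseChange K0 (modularFunctionFieldFull (M * q * q)))]
    (Wb : ValuationSubring ↥(laurentBaseChange K0 (modularFunctionFieldFull (M * q * q))))
    (halb : ∀ x, heckeAlphaBar K0 (M * q) q x ∈ Wb ↔ x ∈ va2V2 M q hM K0 A0)
    (u : ↥(laurentBaseChange K0 (modularFunctionFieldFull M))) (p : A0[X])
    (h : aeval (heckeAlphaBar K0 (M * q) q (heckeAlphaBar K0 M q u)) p ∉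
      (va2V1 (M * q) q K0 A0).nonunits) :
    aeval (heckeAlphaBar K0 (M * q) q (heckeAlphaBar K0 M q u)) p ∉ Wb.nonunits := by
  have e : aeval (heckeAlphaBar K0 (M * q) q (heckeAlphaBar K0 M q u)) p =
      heckeAlphaBar K0 (M * q) q (heckeAlphaBar K0 M q
        (aeval u (p.map (algebraMap A0 K0)))) := by
    rw [← aeval_algHom_apply, ← aeval_algHom_apply, aeval_map_algebraMap]
  rw [e] at h ⊢
  rw [ValuationSubring.mem_nonunits_iff_or] at h ⊢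
  have h1 : heckeAlphaBar K0 (M * q) q (heckeAlphaBar K0 M q
      (aeval u (p.map (algebraMap A0 K0)))) ≠ 0 := fun h0 => h (Or.inl h0)
  have h2 : (heckeAlphaBar K0 (M * q) q (heckeAlphaBar K0 M q
      (aeval u (p.map (algebraMap A0 K0)))))⁻¹ ∈ va2V1 (M * q) q K0 A0 := by
    by_contra hcon
    exact h (Or.inr hcon)
  rintro (h0 | hcon)
  · exact h1 h0
  · apply hcon
    rw [← map_inv₀, ← map_inv₀] at h2 ⊢
    exact s36ob_car_lvl A0 M q hM Wb halb _ h2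

include ha2 in
/-- **ONE-B at the carrier, swap route.**  At every closed point of the two Hauptmodul charts
of level `M q ^ 2` lying on `W_b` and missed by `W_a`, `W_c`: the point predicate `S36inPtOne`
(with `V := W_b`). -/
theorem s36ob_car_ptone
    [Algebra A0 ↥(laurentBaseChange K0 (modularFunctionFieldFull (M * q * q)))]
    [IsScalarTower A0 K0 ↥(laurentBaseChange K0 (modularFunctionFieldFull (M * q * q)))]
    (hA0 : A0.LiesOverPrime q)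
    (Wb Wc : ValuationSubring ↥(laurentBaseChange K0 (modularFunctionFieldFull (M * q * q))))
    (halb : ∀ x, heckeAlphaBar K0 (M * q) q x ∈ Wb ↔ x ∈ va2V2 M q hM K0 A0)
    (halc : ∀ x, heckeAlphaBar K0 (M * q) q x ∈ Wc ↔ x ∈ va2V1 M q K0 A0)
    (hexh1 : ∀ W : ValuationSubring ↥(laurentBaseChange K0 (modularFunctionFieldFull (M * q * q))),
      (∀ x, heckeAlphaBar K0 (M * q) q x ∈ W ↔ x ∈ va2V1 M q K0 A0) →
      W = va2V1 (M * q) q K0 A0 ∨ W = Wc)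
    (hexh2 : ∀ W : ValuationSubring ↥(laurentBaseChange K0 (modularFunctionFieldFull (M * q * q))),
      (∀ x, heckeAlphaBar K0 (M * q) q x ∈ W ↔ x ∈ va2V2 M q hM K0 A0) → W = Wb)
    (c0 c1 : A0) (hc : IsLocalRing.residue A0 c0 ≠ IsLocalRing.residue A0 c1)
    (hSM : cinstSMChart K0 A0 M H (c0 : K0) (c1 : K0))
    (hSM' : cinstSMChart K0 A0 M H (c1 : K0) (c0 : K0))
    (t : ↥(laurentBaseChange K0 (modularFunctionFieldFull (M * q * q))))
    (ht : (t : LaurentSeries K0) = cinstU H K0 (c0 : K0) (c1 : K0))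
    (τ : A0) (hτ : Irreducible τ)
    (hτb : algebraMap A0 ↥(laurentBaseChange K0 (modularFunctionFieldFull (M * q * q))) τ ∈
      Wb.nonunits)
    (hdecb : ∀ z : ↥(laurentBaseChange K0 (modularFunctionFieldFull (M * q * q))), z ≠ 0 →
      ∃ j : ℤ,
        z * algebraMap A0 ↥(laurentBaseChange K0 (modularFunctionFieldFull (M * q * q))) τ ^ j
          ∈ Wb ∧
        (z * algebraMap A0 ↥(laurentBaseChange K0 (modularFunctionFieldFull (M * q * q))) τ ^ j)⁻¹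
          ∈ Wb)
    (π : ↥(laurentBaseChange K0 (modularFunctionFieldFull (M * q * q)))) (hπ0 : π ≠ 0)
    (hπc : π ∈ Wc.nonunits)
    (hdecc : ∀ z : ↥(laurentBaseChange K0 (modularFunctionFieldFull (M * q * q))), z ≠ 0 →
      ∃ j : ℤ, z * π ^ j ∈ Wc ∧ (z * π ^ j)⁻¹ ∈ Wc)
    (e : ℕ) (he : 0 < e)
    (hπτ : π ^ e *
      (algebraMap A0 ↥(laurentBaseChange K0 (modularFunctionFieldFull (M * q * q))) τ)⁻¹ ∈ Wc)
    (hwb : ∀ x : ↥(laurentBaseChange K0 (modularFunctionFieldFull (M * q * q))),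
      x ∈ Wb ↔ s36v3Swap M q hM K0 x ∈ va2V1 (M * q) q K0 A0)
    (hwc : ∀ x : ↥(laurentBaseChange K0 (modularFunctionFieldFull (M * q * q))),
      x ∈ Wc ↔ s36v3Swap M q hM K0 x ∈ Wc)
    (hdom0 : ∀ 𝔫 : Ideal ↥(chtO A0 {t}), 𝔫.IsPrime → algebraMap A0 ↥(chtO A0 {t}) τ ∈ 𝔫 →
      (∃ a s : ↥(chtO A0 {t}), s ∉ 𝔫 ∧ s36v3Swap M q hM K0 t *
        (s : ↥(laurentBaseChange K0 (modularFunctionFieldFull (M * q * q)))) = a) ∨
      (∃ a s : ↥(chtO A0 {t}), s ∉ 𝔫 ∧ (s36v3Swap M q hM K0 t)⁻¹ *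
        (s : ↥(laurentBaseChange K0 (modularFunctionFieldFull (M * q * q)))) = a))
    (hdom1 : ∀ 𝔫 : Ideal ↥(chtO A0 {t⁻¹}), 𝔫.IsPrime → algebraMap A0 ↥(chtO A0 {t⁻¹}) τ ∈ 𝔫 →
      (∃ a s : ↥(chtO A0 {t⁻¹}), s ∉ 𝔫 ∧ s36v3Swap M q hM K0 t *
        (s : ↥(laurentBaseChange K0 (modularFunctionFieldFull (M * q * q)))) = a) ∨
      (∃ a s : ↥(chtO A0 {t⁻¹}), s ∉ 𝔫 ∧ (s36v3Swap M q hM K0 t)⁻¹ *
        (s : ↥(laurentBaseChange K0 (modularFunctionFieldFull (M * q * q)))) = a))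
    (m : ℕ) (hm : 0 < m) :
    (∀ 𝔫 : Ideal ↥(chtO A0 {t}), 𝔫.IsMaximal →
      (∀ x : ↥(chtO A0 {t}),
        (x : ↥(laurentBaseChange K0 (modularFunctionFieldFull (M * q * q)))) ∈ Wb.nonunits →
          x ∈ 𝔫) →
      (∃ X : ↥(chtO A0 {t}),
        (X : ↥(laurentBaseChange K0 (modularFunctionFieldFull (M * q * q)))) ∈
          (va2V1 (M * q) q K0 A0).nonunits ∧ X ∉ 𝔫) →
      (∃ X : ↥(chtO A0 {t}),
        (X : ↥(laurentBaseChange K0 (modularFunctionFieldFull (M * q * q)))) ∈ Wc.nonunits ∧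
          X ∉ 𝔫) →
      S36inPtOne τ m (va2V1 (M * q) q K0 A0) Wb Wc (chtO A0 {t}) 𝔫) ∧
    (∀ 𝔫 : Ideal ↥(chtO A0 {t⁻¹}), 𝔫.IsMaximal →
      (∀ x : ↥(chtO A0 {t⁻¹}),
        (x : ↥(laurentBaseChange K0 (modularFunctionFieldFull (M * q * q)))) ∈ Wb.nonunits →
          x ∈ 𝔫) →
      (∃ X : ↥(chtO A0 {t⁻¹}),
        (X : ↥(laurentBaseChange K0 (modularFunctionFieldFull (M * q * q)))) ∈
          (va2V1 (M * q) q K0 A0).nonunits ∧ X ∉ 𝔫) →
      (∃ X : ↥(chtO A0 {t⁻¹}),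
        (X : ↥(laurentBaseChange K0 (modularFunctionFieldFull (M * q * q)))) ∈ Wc.nonunits ∧
          X ∉ 𝔫) →
      S36inPtOne τ m (va2V1 (M * q) q K0 A0) Wb Wc (chtO A0 {t⁻¹}) 𝔫) := by
  obtain ⟨⟨hAa, hAb, hAc, hτa, hgena, htt, hex⟩, h1, h2, h3, ⟨b0, hb0, hspan0⟩,
    ⟨b1, hb1, hspan1⟩, h01, h10, hfrac0, hfrac1, hroot0, hroot1, hcap, hV0, hV1, hdiv0, hdiv1,
    hNoe0, hNoe1, hic0, hic1⟩ := s36c3_chart A0 M q hM H ha2 hA0 Wb Wc halb halc hexh1 hexh2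
      c0 c1 hc t ht τ hτ m hm
  obtain ⟨-, -, -, -, htV, htV', hG, -, -⟩ :=
    c2i_hyps A0 (M * q * q) H (va2V1 (M * q) q K0 A0) (fun _ => Iff.rfl) c0 c1 hc t ht τ hτ
  have hτ0 : algebraMap A0 ↥(laurentBaseChange K0 (modularFunctionFieldFull (M * q * q))) τ ≠ 0 := by
    rw [IsScalarTower.algebraMap_apply A0 K0
      ↥(laurentBaseChange K0 (modularFunctionFieldFull (M * q * q)))]
    refine (_root_.map_ne_zero _).mpr ?_
    intro h0
    exact hτ.ne_zero (Subtype.ext h0)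
  have ht0 : t ≠ 0 := by
    intro h0
    rw [h0, zero_mul] at h1
    exact zero_ne_one h1
  have hG' := cht_hG_inv (va2V1 (M * q) q K0 A0) τ t ht0 htV hG
  have hdeca := gsp_hdec₁ (M * q) q K0 A0 τ hτ
  have hτWa : algebraMap A0 ↥(laurentBaseChange K0 (modularFunctionFieldFull (M * q * q))) τ ∈
      va2V1 (M * q) q K0 A0 := ValuationSubring.nonunits_subset hτa
  have hτWb : algebraMap A0 ↥(laurentBaseChange K0 (modularFunctionFieldFull (M * q * q))) τ ∈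
      Wb := ValuationSubring.nonunits_subset hτb
  have hπWc : π ∈ Wc := ValuationSubring.nonunits_subset hπc
  have hgena' := s36oi_gen_of_dec (va2V1 (M * q) q K0 A0) _ hτWa hτ0 hdeca
  have hgenb := s36oi_gen_of_dec Wb _ hτWb hτ0 hdecb
  have hgenc := s36oi_gen_of_dec Wc π hπWc hπ0 hdecc
  have hE : ∀ x ∈ Wc.nonunits, x ^ e *
      (algebraMap A0 ↥(laurentBaseChange K0 (modularFunctionFieldFull (M * q * q))) τ)⁻¹ ∈
        Wc := by
    intro x hx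
    have e1 : x ^ e *
        (algebraMap A0 ↥(laurentBaseChange K0 (modularFunctionFieldFull (M * q * q))) τ)⁻¹ =
        (x * π⁻¹) ^ e * (π ^ e *
          (algebraMap A0 ↥(laurentBaseChange K0 (modularFunctionFieldFull (M * q * q))) τ)⁻¹) := by
      rw [mul_pow, inv_pow]
      field_simp
    rw [e1]
    exact Wc.mul_mem _ _ (Wc.pow_mem (hgenc x hx) e) hπτ
  have hred0 := s36wc_hred3 τ (chtO A0 {t}) (va2V1 (M * q) q K0 A0) Wb Wc
    (fun y hy => (hV0 y hy).1) (fun y hy => (hV0 y hy).2.1) hgena' hgenb e he hE hτ0 hdiv0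
  have hred1 := s36wc_hred3 τ (chtO A0 {t⁻¹}) (va2V1 (M * q) q K0 A0) Wb Wc
    (fun y hy => (hV1 y hy).1) (fun y hy => (hV1 y hy).2.1) hgena' hgenb e he hE hτ0 hdiv1
  have hWatop := s36oi_ne_top (va2V1 (M * q) q K0 A0) _ hτ0 hτa
  have hWbtop := s36oi_ne_top Wb _ hτ0 hτb
  have hWctop := s36oi_ne_top Wc π hπ0 hπc
  -- the swap
  have hwA : ∀ a : A0, s36v3Swap M q hM K0
      (algebraMap A0 ↥(laurentBaseChange K0 (modularFunctionFieldFull (M * q * q))) a) =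
      algebraMap A0 ↥(laurentBaseChange K0 (modularFunctionFieldFull (M * q * q))) a := by
    intro a
    rw [IsScalarTower.algebraMap_apply A0 K0
      ↥(laurentBaseChange K0 (modularFunctionFieldFull (M * q * q))), s36v3Swap_const]
  have hww := s36v3Swap_swap M q hM K0
  -- the chart coordinate comes from level `M`
  have htM : t = heckeAlphaBar K0 (M * q) q (heckeAlphaBar K0 M q
      (⟨cinstU H K0 (c0 : K0) (c1 : K0), cinstU_mem H K0 ha2 _ _⟩ :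
        ↥(laurentBaseChange K0 (modularFunctionFieldFull M)))) := by
    apply Subtype.ext
    rw [coe_heckeAlphaBar, coe_heckeAlphaBar]
    exact ht
  have htM' : t⁻¹ = heckeAlphaBar K0 (M * q) q (heckeAlphaBar K0 M q
      (⟨cinstU H K0 (c0 : K0) (c1 : K0), cinstU_mem H K0 ha2 _ _⟩ :
        ↥(laurentBaseChange K0 (modularFunctionFieldFull M)))⁻¹) := by
    rw [map_inv₀, map_inv₀, ← htM]
  have hGb0 : ∀ p : A0[X], (∃ i, ¬ τ ∣ p.coeff i) → aeval t p ∉ Wb.nonunits := by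
    intro p hp
    have := hG p hp
    rw [htM] at this ⊢
    exact s36ob_car_G A0 M q hM Wb halb _ p this
  have hGb1 : ∀ p : A0[X], (∃ i, ¬ τ ∣ p.coeff i) → aeval t⁻¹ p ∉ Wb.nonunits := by
    intro p hp
    have := hG' p hp
    rw [htM'] at this ⊢
    exact s36ob_car_G A0 M q hM Wb halb _ p this
  have hD0 : ∀ 𝔭 : Ideal ↥(chtO A0 {t}), (∀ x : ↥(chtO A0 {t}), x ∈ 𝔭 ↔
      (x : ↥(laurentBaseChange K0 (modularFunctionFieldFull (M * q * q)))) ∈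
        (va2V1 (M * q) q K0 A0).nonunits) → IsDedekindDomain (↥(chtO A0 {t}) ⧸ 𝔭) :=
    fun 𝔭 h𝔭 => s36cd_Wa_hD M q hM K0 A0 H ha2 hA0 c0 c1 hc hSM t ht τ hτ 𝔭 h𝔭
  have hD1 : ∀ 𝔭 : Ideal ↥(chtO A0 {t⁻¹}), (∀ x : ↥(chtO A0 {t⁻¹}), x ∈ 𝔭 ↔
      (x : ↥(laurentBaseChange K0 (modularFunctionFieldFull (M * q * q)))) ∈
        (va2V1 (M * q) q K0 A0).nonunits) → IsDedekindDomain (↥(chtO A0 {t⁻¹}) ⧸ 𝔭) :=
    fun 𝔭 h𝔭 => s36cd_Wa_hD_inv M q hM K0 A0 H ha2 hA0 c0 c1 hc hSM' t ht τ hτ 𝔭 h𝔭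
  -- the abstract transfer, for the target chart `chtO A0 {t}` resp. `chtO A0 {t⁻¹}`
  have K0' := fun g hdom' hOb hGb 𝔫 h𝔫 hthr hXa hXc hg' =>
    s36ob_point τ hτ0 hτ.not_isUnit (s36v3Swap M q hM K0) hwA hww (va2V1 (M * q) q K0 A0) Wb Wc
      hwb hwc g t hfrac0 (fun y hy => (hV0 y hy).1) (fun y hy => (hV0 y hy).2.1)
      (fun y hy => (hV0 y hy).2.2) hWatop hWbtop hWctop hdiv0 hred0 hτa hdeca
      (algebraMap A0 ↥(laurentBaseChange K0 (modularFunctionFieldFull (M * q * q))) τ)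
      hτWb hτ0 hdecb π hπWc hπ0 hdecc hD0 hdom' hOb hGb m hm 𝔫 h𝔫 hthr hXa hXc hg'
  have K1' := fun g hdom' hOb hGb 𝔫 h𝔫 hthr hXa hXc hg' =>
    s36ob_point τ hτ0 hτ.not_isUnit (s36v3Swap M q hM K0) hwA hww (va2V1 (M * q) q K0 A0) Wb Wc
      hwb hwc g t⁻¹ hfrac1 (fun y hy => (hV1 y hy).1) (fun y hy => (hV1 y hy).2.1)
      (fun y hy => (hV1 y hy).2.2) hWatop hWbtop hWctop hdiv1 hred1 hτa hdeca
      (algebraMap A0 ↥(laurentBaseChange K0 (modularFunctionFieldFull (M * q * q))) τ)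
      hτWb hτ0 hdecb π hπWc hπ0 hdecc hD1 hdom' hOb hGb m hm 𝔫 h𝔫 hthr hXa hXc hg'
  -- the dichotomy for `w t⁻¹` on the two charts
  have hdom0' : ∀ 𝔫 : Ideal ↥(chtO A0 {t}), 𝔫.IsPrime → algebraMap A0 ↥(chtO A0 {t}) τ ∈ 𝔫 →
      (∃ a s : ↥(chtO A0 {t}), s ∉ 𝔫 ∧ s36v3Swap M q hM K0 t⁻¹ *
        (s : ↥(laurentBaseChange K0 (modularFunctionFieldFull (M * q * q)))) = a) ∨
      (∃ a s : ↥(chtO A0 {t}), s ∉ 𝔫 ∧ (s36v3Swap M q hM K0 t⁻¹)⁻¹ *
        (s : ↥(laurentBaseChange K0 (modularFunctionFieldFull (M * q * q)))) = a) := by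
    intro 𝔫 h𝔫 hτ𝔫
    rw [map_inv₀, inv_inv]
    exact (hdom0 𝔫 h𝔫 hτ𝔫).symm
  have hdom1' : ∀ 𝔫 : Ideal ↥(chtO A0 {t⁻¹}), 𝔫.IsPrime →
      algebraMap A0 ↥(chtO A0 {t⁻¹}) τ ∈ 𝔫 →
      (∃ a s : ↥(chtO A0 {t⁻¹}), s ∉ 𝔫 ∧ s36v3Swap M q hM K0 t⁻¹ *
        (s : ↥(laurentBaseChange K0 (modularFunctionFieldFull (M * q * q)))) = a) ∨
      (∃ a s : ↥(chtO A0 {t⁻¹}), s ∉ 𝔫 ∧ (s36v3Swap M q hM K0 t⁻¹)⁻¹ *
        (s : ↥(laurentBaseChange K0 (modularFunctionFieldFull (M * q * q)))) = a) := by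
    intro 𝔫 h𝔫 hτ𝔫
    rw [map_inv₀, inv_inv]
    exact (hdom1 𝔫 h𝔫 hτ𝔫).symm
  refine ⟨?_, ?_⟩
  · intro 𝔫 h𝔫 hthr hXa hXc
    have hτ𝔫 : algebraMap A0 ↥(chtO A0 {t}) τ ∈ 𝔫 := hthr _ hτb
    have hOb : ∀ y ∈ chtO A0 {t}, y ∈ Wb := fun y hy => (hV0 y hy).2.1
    have key : S35IC m (chtO A0 {t}) 𝔫 Wb ∧ ∀ f : ↥(laurentBaseChange K0
        (modularFunctionFieldFull (M * q * q))), f ≠ 0 → S36inOrd τ m f → f ∈ Wb → f⁻¹ ∈ Wb →
        S35Unit m (chtO A0 {t}) 𝔫 f := by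
      rcases hdom0 𝔫 h𝔫.isPrime hτ𝔫 with hg' | hg'
      · exact K0' t hdom0 hOb hGb0 𝔫 h𝔫 hthr hXa hXc hg'
      · rw [← map_inv₀] at hg'
        exact K1' t hdom1 hOb hGb0 𝔫 h𝔫 hthr hXa hXc hg'
    refine ⟨Wb, Or.inr (Or.inl rfl), hthr, ?_, key.1, key.2⟩
    intro V' hV'
    rcases hV' with h | h | h
    · rw [h]; exact Or.inr hXa
    · exact Or.inl h
    · rw [h]; exact Or.inr hXc
  · intro 𝔫 h𝔫 hthr hXa hXc
    have hτ𝔫 : algebraMap A0 ↥(chtO A0 {t⁻¹}) τ ∈ 𝔫 := hthr _ hτb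
    have hOb : ∀ y ∈ chtO A0 {t⁻¹}, y ∈ Wb := fun y hy => (hV1 y hy).2.1
    have key : S35IC m (chtO A0 {t⁻¹}) 𝔫 Wb ∧ ∀ f : ↥(laurentBaseChange K0
        (modularFunctionFieldFull (M * q * q))), f ≠ 0 → S36inOrd τ m f → f ∈ Wb → f⁻¹ ∈ Wb →
        S35Unit m (chtO A0 {t⁻¹}) 𝔫 f := by
      rcases hdom1 𝔫 h𝔫.isPrime hτ𝔫 with hg' | hg'
      · exact K0' t⁻¹ hdom0' hOb hGb1 𝔫 h𝔫 hthr hXa hXc hg'
      · rw [← map_inv₀] at hg'
        exact K1' t⁻¹ hdom1' hOb hGb1 𝔫 h𝔫 hthr hXa hXc hg'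
    refine ⟨Wb, Or.inr (Or.inl rfl), hthr, ?_, key.1, key.2⟩
    intro V' hV'
    rcases hV' with h | h | h
    · rw [h]; exact Or.inr hXa
    · exact Or.inl h
    · rw [h]; exact Or.inr hXc

end Carrier

section CarrierClosed

variable (M q : ℕ) [NeZero M] [hq : Fact q.Prime] (hM : ¬ q ∣ M)
  (K0 : Type) [Field K0] [Algebra ℚ K0] [Algebra K0 Qb]
  (A0 : ValuationSubring K0) [IsDiscreteValuationRing ↥A0]
  {a2 : ℕ} (H : HauptRec a2 q)

/-- **The clause `hB` of `s36k3_point` at the carrier by the swap route** (datum form, both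
charts; the hypothesis `hB` of `s36kc_comp3_dat` verbatim), with no Dedekind statement for the
`W_b`-components: at a closed point on `W_b` only the swap `w₂` identifies the local ring with
the local ring of a point on `W_a` only (`s36ob_point`, swap domination `s36sw_dom`). -/
theorem s36ob_car_hB
    [Algebra ↥A0 ↥(laurentBaseChange K0 (modularFunctionFieldFull (M * q)))]
    [IsScalarTower ↥A0 K0 ↥(laurentBaseChange K0 (modularFunctionFieldFull (M * q)))]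
    [Algebra ↥A0 ↥(laurentBaseChange K0 (modularFunctionFieldFull (M * q * q)))]
    [IsScalarTower ↥A0 K0 ↥(laurentBaseChange K0 (modularFunctionFieldFull (M * q * q)))]
    (ha2 : a2 ∣ M) (hA0 : A0.LiesOverPrime q)
    (hunif : ∀ x ∈ A0.nonunits, ∃ a ∈ A0, x = (q : K0) * a)
    (c0 c1 : A0) (hc : IsLocalRing.residue ↥A0 c0 ≠ IsLocalRing.residue ↥A0 c1)
    (hQ0 : smi2U A0 (aeval (c0 : K0) H.Qrad)) (hQ1 : smi2U A0 (aeval (c1 : K0) H.Qrad))
    (hSM : cinstSMChart K0 A0 M H (c0 : K0) (c1 : K0))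
    (hSM' : cinstSMChart K0 A0 M H (c1 : K0) (c0 : K0))
    (m : ℕ) (hm : 0 < m) :
    ∀ τ : A0, Irreducible τ → ∀ t : ↥(laurentBaseChange K0 (modularFunctionFieldFull (M * q * q))),
      (t : LaurentSeries K0) = cinstU H K0 (c0 : K0) (c1 : K0) →
      (∀ 𝔫 : Ideal ↥(chtO A0 {t}), 𝔫.IsMaximal → algebraMap ↥A0 ↥(chtO A0 {t}) τ ∈ 𝔫 → (∀ x : ↥(chtO
        A0 {t}), (x : ↥(laurentBaseChange K0 (modularFunctionFieldFull (M * q * q)))) ∈ ((va2V1 (M *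
        q) q K0 A0).comap (s36v3Swap M q hM K0)).nonunits → x ∈ 𝔫) → (∃ r : ↥(chtO A0 {t}), (r :
        ↥(laurentBaseChange K0 (modularFunctionFieldFull (M * q * q)))) ∈ (va2V1 (M * q) q K0
        A0).nonunits ∧ r ∉ 𝔫) → (∃ r : ↥(chtO A0 {t}), (r : ↥(laurentBaseChange K0
        (modularFunctionFieldFull (M * q * q)))) ∈ (s36v3Wc M q hM K0 A0).nonunits ∧ r ∉ 𝔫) →
        S36inPtDat τ m q (va2V1 (M * q) q K0 A0) ((va2V1 (M * q) q K0 A0).comap (s36v3Swap M q hM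
        K0)) (s36v3Wc M q hM K0 A0) (chtO A0 {t}) 𝔫) ∧
      (∀ 𝔫 : Ideal ↥(chtO A0 {t⁻¹}), 𝔫.IsMaximal → algebraMap ↥A0 ↥(chtO A0 {t⁻¹}) τ ∈ 𝔫 → (∀ x :
        ↥(chtO A0 {t⁻¹}), (x : ↥(laurentBaseChange K0 (modularFunctionFieldFull (M * q * q)))) ∈
        ((va2V1 (M * q) q K0 A0).comap (s36v3Swap M q hM K0)).nonunits → x ∈ 𝔫) → (∃ r : ↥(chtO A0
        {t⁻¹}), (r : ↥(laurentBaseChange K0 (modularFunctionFieldFull (M * q * q)))) ∈ (va2V1 (M *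
        q) q K0 A0).nonunits ∧ r ∉ 𝔫) → (∃ r : ↥(chtO A0 {t⁻¹}), (r : ↥(laurentBaseChange K0
        (modularFunctionFieldFull (M * q * q)))) ∈ (s36v3Wc M q hM K0 A0).nonunits ∧ r ∉ 𝔫) →
        S36inPtDat τ m q (va2V1 (M * q) q K0 A0) ((va2V1 (M * q) q K0 A0).comap (s36v3Swap M q hM
        K0)) (s36v3Wc M q hM K0 A0) (chtO A0 {t⁻¹}) 𝔫) := by
  intro τ hτ t ht
  classical
  have hqp : q.Prime := hq.out
  have : CharZero K0 := algebraRat.charZero K0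
  have hq0 : ((q : ℕ) : K0) ≠ 0 := Nat.cast_ne_zero.mpr hqp.ne_zero
  have hunr : ∀ x ∈ A0.nonunits, x * ((q : ℕ) : K0)⁻¹ ∈ A0 := by
    intro x hx
    obtain ⟨a, ha, rfl⟩ := hunif x hx
    rw [mul_comm ((q : ℕ) : K0) a, mul_assoc, mul_inv_cancel₀ hq0, mul_one]
    exact ha
  -- the uniformiser `z = h(t^(q^2)) - h(t)` of `W_c`
  obtain ⟨z, hzdef⟩ : ∃ z : ↥(laurentBaseChange K0 (modularFunctionFieldFull (M * q * q))),
      z = s36v3Z M q K0 (nunH K0 M H ha2) := ⟨_, rfl⟩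
  have hz0 : z ≠ 0 := by
    rw [hzdef]
    exact s36ai_z_ne_zero M q K0 (nunH K0 M H ha2) H.hZ rfl H.leadZ
  obtain ⟨hza, hza'⟩ : z ∈ va2V1 (M * q) q K0 A0 ∧ z⁻¹ ∈ va2V1 (M * q) q K0 A0 := by
    rw [hzdef]
    exact s36za_Wa M q K0 A0 (nunH K0 M H ha2) H.hZ rfl H.leadZ
  obtain ⟨hzc_nu, hzc, hzc'⟩ : z ∈ (s36v3Wc M q hM K0 A0).nonunits ∧
      z ^ (q - 1) * ((q : ℕ) :
        ↥(laurentBaseChange K0 (modularFunctionFieldFull (M * q * q))))⁻¹ ∈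
        s36v3Wc M q hM K0 A0 ∧
      (z ^ (q - 1) * ((q : ℕ) :
        ↥(laurentBaseChange K0 (modularFunctionFieldFull (M * q * q))))⁻¹)⁻¹ ∈
        s36v3Wc M q hM K0 A0 := by
    rw [hzdef]
    exact s36v3_z_Wc M q hM K0 A0 hA0 (nunH K0 M H ha2) H.hZ rfl H.leadZ
  -- the table
  have hαa : ∀ x : ↥(laurentBaseChange K0 (modularFunctionFieldFull (M * q))),
      heckeAlphaBar K0 (M * q) q x ∈ va2V1 (M * q) q K0 A0 ↔ x ∈ va2V1 M q K0 A0 :=
    fun x => s36vx_al_Wa M q K0 A0 x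
  have hβa : ∀ x : ↥(laurentBaseChange K0 (modularFunctionFieldFull (M * q))),
      heckeBetaBar K0 (M * q) q x ∈ va2V1 (M * q) q K0 A0 ↔ x ∈ va2V1 M q K0 A0 :=
    fun x => s36v3_be_Wa M q K0 A0 x
  have hαb : ∀ x : ↥(laurentBaseChange K0 (modularFunctionFieldFull (M * q))),
      heckeAlphaBar K0 (M * q) q x ∈ (va2V1 (M * q) q K0 A0).comap (s36v3Swap M q hM K0) ↔
        x ∈ va2V2 M q hM K0 A0 := by
    intro x
    rw [ValuationSubring.mem_comap, s36v3Swap_al, hβa, mem_va2V2]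
  have hβb : ∀ x : ↥(laurentBaseChange K0 (modularFunctionFieldFull (M * q))),
      heckeBetaBar K0 (M * q) q x ∈ (va2V1 (M * q) q K0 A0).comap (s36v3Swap M q hM K0) ↔
        x ∈ va2V2 M q hM K0 A0 :=
    fun x => s36vx_be_Wb M q hM K0 A0 x
  have hαc : ∀ x : ↥(laurentBaseChange K0 (modularFunctionFieldFull (M * q))),
      heckeAlphaBar K0 (M * q) q x ∈ s36v3Wc M q hM K0 A0 ↔ x ∈ va2V1 M q K0 A0 :=
    fun x => s36v3_al_Wc M q hM K0 A0 x
  have hβc : ∀ x : ↥(laurentBaseChange K0 (modularFunctionFieldFull (M * q))),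
      heckeBetaBar K0 (M * q) q x ∈ s36v3Wc M q hM K0 A0 ↔ x ∈ va2V2 M q hM K0 A0 :=
    fun x => s36v3_be_Wc M q hM K0 A0 hA0 x
  have hgen : ∀ y ∈ (s36v3Wc M q hM K0 A0).nonunits, y * z⁻¹ ∈ s36v3Wc M q hM K0 A0 :=
    fun y hy => s36vx_unif_c M q K0 A0 hA0 hunr (s36v3Wc M q hM K0 A0) hαc z hz0 hzc hzc' hza
      hza' y hy
  have hmapF : ∀ a : ↥A0,
      algebraMap ↥A0 ↥(laurentBaseChange K0 (modularFunctionFieldFull (M * q * q))) a =
        algebraMap K0 ↥(laurentBaseChange K0 (modularFunctionFieldFull (M * q * q))) (a : K0) :=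
    fun a => IsScalarTower.algebraMap_apply ↥A0 K0 _ a
  have hexh1 : ∀ W : ValuationSubring
      ↥(laurentBaseChange K0 (modularFunctionFieldFull (M * q * q))),
      (∀ x, heckeAlphaBar K0 (M * q) q x ∈ W ↔ x ∈ va2V1 M q K0 A0) →
      W = va2V1 (M * q) q K0 A0 ∨ W = s36v3Wc M q hM K0 A0 :=
    fun W hW => s36vx_exh_al1 M q K0 A0 hA0 hunr (s36v3Wc M q hM K0 A0) hαc z hz0 hzc hzc' hza
      hza' W hW
  have hexh2 : ∀ W : ValuationSubring
      ↥(laurentBaseChange K0 (modularFunctionFieldFull (M * q * q))),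
      (∀ x, heckeAlphaBar K0 (M * q) q x ∈ W ↔ x ∈ va2V2 M q hM K0 A0) →
      W = (va2V1 (M * q) q K0 A0).comap (s36v3Swap M q hM K0) :=
    fun W hW => s36vi_exh_al_Wb M q hM K0 A0 (s36v3Swap M q hM K0) (s36v3Swap_swap M q hM K0)
      (s36v3Swap_al M q hM K0) hA0 W hW
  have hRαc : ∀ x ∈ s36v3Wc M q hM K0 A0, ∃ r ∈ va2V1 M q K0 A0,
      x - heckeAlphaBar K0 (M * q) q r ∈ (s36v3Wc M q hM K0 A0).nonunits :=
    fun x hx => s36vx_res_al_Wc M q K0 A0 hA0 hunr (s36v3Wc M q hM K0 A0) hαc z hz0 hzc hzc'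
      hza hza' x hx
  have hdeca : ∀ y : ↥(laurentBaseChange K0 (modularFunctionFieldFull (M * q * q))), y ≠ 0 →
      ∃ j : ℤ,
        y * algebraMap ↥A0 ↥(laurentBaseChange K0 (modularFunctionFieldFull (M * q * q))) τ ^ j
          ∈ va2V1 (M * q) q K0 A0 ∧
        (y * algebraMap ↥A0 ↥(laurentBaseChange K0 (modularFunctionFieldFull (M * q * q))) τ ^ j)⁻¹
          ∈ va2V1 (M * q) q K0 A0 := by
    intro y hy
    rw [hmapF]
    exact s36ai_dec_a M q K0 A0 τ hτ y hy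
  have hdecb : ∀ y : ↥(laurentBaseChange K0 (modularFunctionFieldFull (M * q * q))), y ≠ 0 →
      ∃ j : ℤ,
        y * algebraMap ↥A0 ↥(laurentBaseChange K0 (modularFunctionFieldFull (M * q * q))) τ ^ j
          ∈ (va2V1 (M * q) q K0 A0).comap (s36v3Swap M q hM K0) ∧
        (y * algebraMap ↥A0 ↥(laurentBaseChange K0 (modularFunctionFieldFull (M * q * q))) τ ^ j)⁻¹
          ∈ (va2V1 (M * q) q K0 A0).comap (s36v3Swap M q hM K0) := by
    intro y hy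
    rw [hmapF]
    exact s36ai_dec_b M q K0 A0 (s36v3Swap M q hM K0) (s36v3Swap_const M q hM K0)
      ((va2V1 (M * q) q K0 A0).comap (s36v3Swap M q hM K0)) (fun _ => Iff.rfl) τ hτ y hy
  have hdecc : ∀ y : ↥(laurentBaseChange K0 (modularFunctionFieldFull (M * q * q))), y ≠ 0 →
      ∃ j : ℤ, y * z ^ j ∈ s36v3Wc M q hM K0 A0 ∧ (y * z ^ j)⁻¹ ∈ s36v3Wc M q hM K0 A0 :=
    s36ai_dec_Wc M q K0 A0 hA0 (s36v3Wc M q hM K0 A0) hαc z hz0 hgen hzc
  -- the uniformiser binders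
  obtain ⟨-, -, -, -, -, -, -, -, hτF0, -, -, hτb, hτc, -, -, -, -, hπτ, -⟩ :=
    s36vc_binders M q hM K0 A0 H ha2 hA0 hunr τ hτ (va2V1 (M * q) q K0 A0)
      ((va2V1 (M * q) q K0 A0).comap (s36v3Swap M q hM K0)) (s36v3Wc M q hM K0 A0) hαa hβa hαb
      hβb hαc hβc hRαc z hz0 hzc hzc' hdeca 1 one_pos (Nat.coprime_one_left q)
  have he : 0 < q - 1 := Nat.sub_pos_of_lt hqp.one_lt
  have he : 0 < q - 1 := Nat.sub_pos_of_lt hqp.one_lt
  obtain ⟨hV0, hV1, -⟩ := s36kc_core M q hM K0 A0 H ha2 hA0 hunif c0 c1 hc t ht τ hτ m hm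
  obtain ⟨hdom0, hdom1⟩ := s36sw_dom M q hM K0 A0 H ha2 hA0 c0 c1 hc hQ0 hQ1 t ht τ hτ
  have key := s36ob_car_ptone A0 M q hM H ha2 hA0
    ((va2V1 (M * q) q K0 A0).comap (s36v3Swap M q hM K0)) (s36v3Wc M q hM K0 A0) hαb hαc hexh1
    hexh2 c0 c1 hc hSM hSM' t ht τ hτ hτb hdecb z hz0 hzc_nu hdecc (q - 1) he hπτ.1
    (fun _ => Iff.rfl) (fun x => (s36vw_mem_Wc M q hM K0 A0 hA0 hunr x).symm) hdom0 hdom1 m hm
  refine ⟨fun 𝔫 h𝔫 hτ𝔫 hthr hXa hXc => ?_, fun 𝔫 h𝔫 hτ𝔫 hthr hXa hXc => ?_⟩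
  · have : 𝔫.IsPrime := h𝔫.isPrime
    exact s36in_dat_of_one τ m q hm _ _ _ _ hV0 𝔫 (key.1 𝔫 h𝔫 hthr hXa hXc)
  · have : 𝔫.IsPrime := h𝔫.isPrime
    exact s36in_dat_of_one τ m q hm _ _ _ _ hV1 𝔫 (key.2 𝔫 h𝔫 hthr hXa hXc)

end CarrierClosed

end Fermat.Agent.S36
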