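import Mathlib
import Fermat.Agent.S34.InsepChart
import Fermat.Agent.S35.AbsNorm
import Fermat.Agent.S36.PtTypes
import Fermat.Agent.S36.Val3Fin

/-!
# S36, leaf [RAD-INST]: the component `W_b` of level `M q²` is radicial over the level-`M` fibre

`E = K0(X₀(M))`, `F₁ = K0(X₀(M q))`, `F₂ = K0(X₀(M q²))`, `α' = heckeAlphaBar K0 M q`,
`α = heckeAlphaBar K0 (M q) q`, `φ = α ∘ α'`.  `O_M = chtO A0 {tM}` a chart of level `M` with
Dedekind special fibre, `O = chtO A0 {φ tM}` the chart of level `M q²` with the same coordinate.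
`W_b` a valuation subring of `F₂` with the table row `α x ∈ W_b ↔ x ∈ V₂` and the pure
inseparability `x ^ q ≡ α r` (contract VAL3: `s36v3_al_Wb`, `s36v3_insep_al_Wb`).

* `s36rd_pow`: every `z ∈ O` has `z ^ (q ^ (f + 1)) ≡ φ z₀` modulo `𝔪_{W_b}` with `z₀ ∈ O_M`
  (= `isc_main` one level up);
* `s36rd_unique`: two primes of `O` on `W_b` with the same contraction to `O_M` are equal;
* `s36rd_unique_al`: two primes of `O` on `W_b` with the same contraction to the level-`M q`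
  chart `chtO A0 {α' tM}` are equal;
* `s36rd_pow_wb`, `s36rd_unique_wb`, `s36rd_unique_al_wb`: the same for `W_b = s36v3Wb`.
-/

set_option autoImplicit false
set_option linter.unusedSectionVars false
set_option linter.style.haveILetI false

noncomputable section

open AlgebraicCurve ModularCurve
open Fermat.Agent.S18 Fermat.Agent.S34 Fermat.Agent.S35 Fermat.Agent.S37

namespace Fermat.Agent.S36

local notation "Qb" => AlgebraicClosure ℚ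

section Main

variable (M q : ℕ) [NeZero M] [hq : Fact q.Prime] (hM : ¬ q ∣ M)
  (K0 : Type*) [Field K0] [Algebra ℚ K0] [Algebra K0 Qb]
  (A0 : ValuationSubring K0) [IsDiscreteValuationRing ↥A0]

/-- **`isc_main` one level up**: every element `z` of the level-`M q²` chart has
`z ^ (q ^ (f + 1)) ≡ α (α' z₀)` modulo `𝔪_{W_b}` for some `z₀` in the level-`M` chart. -/
theorem s36rd_pow
    [Algebra ↥A0 ↥(laurentBaseChange K0 (modularFunctionFieldFull M))]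
    [IsScalarTower ↥A0 K0 ↥(laurentBaseChange K0 (modularFunctionFieldFull M))]
    [Algebra ↥A0 ↥(laurentBaseChange K0 (modularFunctionFieldFull (M * q * q)))]
    [IsScalarTower ↥A0 K0 ↥(laurentBaseChange K0 (modularFunctionFieldFull (M * q * q)))]
    (hA0 : A0.LiesOverPrime q)
    (hdeg : finrankAlong K0 (heckeAlphaBar K0 M q) = q + 1)
    (f : ℕ) (hf : 1 ≤ f) (hk : ∀ c : IsLocalRing.ResidueField ↥A0, c ^ (q ^ f) = c)
    (τ : ↥A0) (hτ : Irreducible τ)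
    (VE : ValuationSubring ↥(laurentBaseChange K0 (modularFunctionFieldFull M)))
    (hVE : ∀ x : ↥(laurentBaseChange K0 (modularFunctionFieldFull M)),
      x ∈ VE ↔ (x : LaurentSeries K0) ∈ grV A0)
    (tM : ↥(laurentBaseChange K0 (modularFunctionFieldFull M)))
    (hnoeth : IsNoetherianRing ↥(chtO ↥A0 {tM}))
    (hfracM : ∀ x : ↥(laurentBaseChange K0 (modularFunctionFieldFull M)),
      ∃ a ∈ chtO ↥A0 {tM}, ∃ s ∈ chtO ↥A0 {tM}, s ≠ 0 ∧ x * s = a)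
    (hVM : ∀ x ∈ chtO ↥A0 {tM}, x ∈ VE)
    (hVτM : ∀ x ∈ chtO ↥A0 {tM}, x ∈ VE.nonunits →
      ∃ y ∈ chtO ↥A0 {tM},
        x = algebraMap ↥A0 ↥(laurentBaseChange K0 (modularFunctionFieldFull M)) τ * y)
    (hSM : IsDedekindDomain
      (↥(chtO ↥A0 {tM}) ⧸ Ideal.span {algebraMap ↥A0 ↥(chtO ↥A0 {tM}) τ}))
    (t : ↥(laurentBaseChange K0 (modularFunctionFieldFull (M * q * q))))
    (htt : heckeAlphaBar K0 (M * q) q (heckeAlphaBar K0 M q tM) = t)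
    (Wb : ValuationSubring ↥(laurentBaseChange K0 (modularFunctionFieldFull (M * q * q))))
    (hαb : ∀ x : ↥(laurentBaseChange K0 (modularFunctionFieldFull (M * q))),
      heckeAlphaBar K0 (M * q) q x ∈ Wb ↔ x ∈ va2V2 M q hM K0 A0)
    (hins : ∀ x ∈ Wb, ∃ r ∈ va2V2 M q hM K0 A0,
      x ^ q - heckeAlphaBar K0 (M * q) q r ∈ Wb.nonunits)
    (hOb : ∀ x ∈ chtO ↥A0 {t}, x ∈ Wb)
    (z : ↥(laurentBaseChange K0 (modularFunctionFieldFull (M * q * q))))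
    (hz : z ∈ chtO ↥A0 {t}) :
    ∃ z0 ∈ chtO ↥A0 {tM},
      z ^ (q ^ (f + 1)) - heckeAlphaBar K0 (M * q) q (heckeAlphaBar K0 M q z0) ∈ Wb.nonunits := by
  have hτVE : algebraMap ↥A0 ↥(laurentBaseChange K0 (modularFunctionFieldFull M)) τ
      ∈ VE.nonunits := by
    rw [IsScalarTower.algebraMap_apply ↥A0 K0
      ↥(laurentBaseChange K0 (modularFunctionFieldFull M))]
    refine cinst_algebraMap_mem_nonunits VE hVE τ ?_
    rw [IsLocalRing.mem_maximalIdeal, mem_nonunits_iff]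
    exact hτ.not_isUnit
  have hτ0 : algebraMap ↥A0 ↥(laurentBaseChange K0 (modularFunctionFieldFull M)) τ ≠ 0 := by
    rw [IsScalarTower.algebraMap_apply ↥A0 K0
      ↥(laurentBaseChange K0 (modularFunctionFieldFull M)), Ne, map_eq_zero]
    intro h0
    exact hτ.ne_zero (Subtype.ext h0)
  -- the non-unit bridge along `α`
  have hαnu : ∀ x : ↥(laurentBaseChange K0 (modularFunctionFieldFull (M * q))),
      heckeAlphaBar K0 (M * q) q x ∈ Wb.nonunits ↔ x ∈ (va2V2 M q hM K0 A0).nonunits :=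
    fun x => s36v3_nonunits_of_iff (heckeAlphaBar K0 (M * q) q :
      ↥(laurentBaseChange K0 (modularFunctionFieldFull (M * q))) →+*
      ↥(laurentBaseChange K0 (modularFunctionFieldFull (M * q * q))))
      (va2V2 M q hM K0 A0) Wb hαb x
  have hmem : ∀ a : ↥(laurentBaseChange K0 (modularFunctionFieldFull M)), a ∈ VE →
      heckeAlphaBar K0 (M * q) q (heckeAlphaBar K0 M q a) ∈ Wb := fun a ha =>
    (hαb _).mpr (isc_alpha_mem M q hM K0 A0 a ((hVE a).mp ha))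
  have hbridge : ∀ a : ↥(laurentBaseChange K0 (modularFunctionFieldFull M)), a ∈ VE →
      (heckeAlphaBar K0 (M * q) q (heckeAlphaBar K0 M q a) ∈ Wb.nonunits ↔
        a ∈ VE.nonunits) := by
    intro a ha
    have ha' := (hVE a).mp ha
    rw [hαnu, isc_alpha_nonunits M q hM K0 A0 a ha', cinst_mem_nonunits_iff VE hVE a]
    exact ⟨fun h => ⟨ha', h⟩, fun ⟨_, h⟩ => h⟩
  have hzW : z ∈ Wb := hOb z hz
  -- the power congruence at the level of valuation rings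
  have hpow : ∃ a0 ∈ VE, z ^ (q ^ (f + 1)) -
      heckeAlphaBar K0 (M * q) q (heckeAlphaBar K0 M q a0) ∈ Wb.nonunits := by
    obtain ⟨r0, hr0, h1⟩ := hins z hzW
    obtain ⟨a0, ha0, h2⟩ := isk_pow M q hM K0 A0 hA0 hdeg f hf hk r0 hr0
    refine ⟨a0, (hVE a0).mpr ha0, ?_⟩
    have h3 : (z ^ q) ^ (q ^ f) - (heckeAlphaBar K0 (M * q) q r0) ^ (q ^ f) ∈ Wb.nonunits :=
      s35n_pow_sub_pow Wb ((hαb r0).mpr hr0) h1 (q ^ f)
    have h4 : heckeAlphaBar K0 (M * q) q (r0 ^ (q ^ f) - heckeAlphaBar K0 M q a0)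
        ∈ Wb.nonunits := (hαnu _).mpr h2
    have e : z ^ (q ^ (f + 1)) - heckeAlphaBar K0 (M * q) q (heckeAlphaBar K0 M q a0) =
        ((z ^ q) ^ (q ^ f) - (heckeAlphaBar K0 (M * q) q r0) ^ (q ^ f)) +
        heckeAlphaBar K0 (M * q) q (r0 ^ (q ^ f) - heckeAlphaBar K0 M q a0) := by
      rw [map_sub, map_pow, ← pow_mul, pow_succ' q f]
      ring
    rw [e]
    exact s35n_nu_add Wb h3 h4
  exact isc_abs (((heckeAlphaBar K0 (M * q) q).comp (heckeAlphaBar K0 M q)).restrictScalars ↥A0)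
    τ VE Wb (chtO ↥A0 {tM}) hnoeth hτVE hτ0 hfracM hVM hVτM hSM hmem hbridge (q ^ (f + 1)) z hzW
    (by
      obtain ⟨p, hp, hc, hpx⟩ := (cht_isIntegral_iff (Algebra.adjoin ↥A0 {t}) z).mp hz
      refine (cht_isIntegral_iff _ z).mpr ⟨p, hp, fun i => ?_, hpx⟩
      refine (Algebra.adjoin_le ?_ : Algebra.adjoin ↥A0 {t} ≤ _) (hc i)
      rintro _ rfl
      exact ⟨tM, (cht_h1 tM).1, htt⟩)
    hpow

/-- **The component `W_b` is radicial over the level-`M` chart**: two primes of the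
level-`M q²` chart on `W_b` with the same contraction to the level-`M` chart are equal. -/
theorem s36rd_unique
    [Algebra ↥A0 ↥(laurentBaseChange K0 (modularFunctionFieldFull M))]
    [IsScalarTower ↥A0 K0 ↥(laurentBaseChange K0 (modularFunctionFieldFull M))]
    [Algebra ↥A0 ↥(laurentBaseChange K0 (modularFunctionFieldFull (M * q * q)))]
    [IsScalarTower ↥A0 K0 ↥(laurentBaseChange K0 (modularFunctionFieldFull (M * q * q)))]
    (hA0 : A0.LiesOverPrime q)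
    (hdeg : finrankAlong K0 (heckeAlphaBar K0 M q) = q + 1)
    (f : ℕ) (hf : 1 ≤ f) (hk : ∀ c : IsLocalRing.ResidueField ↥A0, c ^ (q ^ f) = c)
    (τ : ↥A0) (hτ : Irreducible τ)
    (VE : ValuationSubring ↥(laurentBaseChange K0 (modularFunctionFieldFull M)))
    (hVE : ∀ x : ↥(laurentBaseChange K0 (modularFunctionFieldFull M)),
      x ∈ VE ↔ (x : LaurentSeries K0) ∈ grV A0)
    (tM : ↥(laurentBaseChange K0 (modularFunctionFieldFull M)))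
    (hnoeth : IsNoetherianRing ↥(chtO ↥A0 {tM}))
    (hfracM : ∀ x : ↥(laurentBaseChange K0 (modularFunctionFieldFull M)),
      ∃ a ∈ chtO ↥A0 {tM}, ∃ s ∈ chtO ↥A0 {tM}, s ≠ 0 ∧ x * s = a)
    (hVM : ∀ x ∈ chtO ↥A0 {tM}, x ∈ VE)
    (hVτM : ∀ x ∈ chtO ↥A0 {tM}, x ∈ VE.nonunits →
      ∃ y ∈ chtO ↥A0 {tM},
        x = algebraMap ↥A0 ↥(laurentBaseChange K0 (modularFunctionFieldFull M)) τ * y)
    (hSM : IsDedekindDomain
      (↥(chtO ↥A0 {tM}) ⧸ Ideal.span {algebraMap ↥A0 ↥(chtO ↥A0 {tM}) τ}))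
    (t : ↥(laurentBaseChange K0 (modularFunctionFieldFull (M * q * q))))
    (htt : heckeAlphaBar K0 (M * q) q (heckeAlphaBar K0 M q tM) = t)
    (Wb : ValuationSubring ↥(laurentBaseChange K0 (modularFunctionFieldFull (M * q * q))))
    (hαb : ∀ x : ↥(laurentBaseChange K0 (modularFunctionFieldFull (M * q))),
      heckeAlphaBar K0 (M * q) q x ∈ Wb ↔ x ∈ va2V2 M q hM K0 A0)
    (hins : ∀ x ∈ Wb, ∃ r ∈ va2V2 M q hM K0 A0,
      x ^ q - heckeAlphaBar K0 (M * q) q r ∈ Wb.nonunits)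
    (hOb : ∀ x ∈ chtO ↥A0 {t}, x ∈ Wb)
    (𝔫₁ 𝔫₂ : Ideal ↥(chtO ↥A0 {t})) [𝔫₁.IsPrime] [𝔫₂.IsPrime]
    (h1 : ∀ y : ↥(chtO ↥A0 {t}),
      (y : ↥(laurentBaseChange K0 (modularFunctionFieldFull (M * q * q)))) ∈ Wb.nonunits → y ∈ 𝔫₁)
    (h2 : ∀ y : ↥(chtO ↥A0 {t}),
      (y : ↥(laurentBaseChange K0 (modularFunctionFieldFull (M * q * q)))) ∈ Wb.nonunits → y ∈ 𝔫₂)
    (h12 : ∀ (x : ↥(laurentBaseChange K0 (modularFunctionFieldFull M))), x ∈ chtO ↥A0 {tM} →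
      ∀ hφ : heckeAlphaBar K0 (M * q) q (heckeAlphaBar K0 M q x) ∈ chtO ↥A0 {t},
        ((⟨_, hφ⟩ : ↥(chtO ↥A0 {t})) ∈ 𝔫₁ ↔ (⟨_, hφ⟩ : ↥(chtO ↥A0 {t})) ∈ 𝔫₂)) :
    𝔫₁ = 𝔫₂ := by
  have hQ : 0 < q ^ (f + 1) := pow_pos hq.out.pos _
  have hφO : ∀ x : ↥(laurentBaseChange K0 (modularFunctionFieldFull M)), x ∈ chtO ↥A0 {tM} →
      heckeAlphaBar K0 (M * q) q (heckeAlphaBar K0 M q x) ∈ chtO ↥A0 {t} := by
    intro x hx
    have h := isc_map_chart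
      (((heckeAlphaBar K0 (M * q) q).comp (heckeAlphaBar K0 M q)).restrictScalars ↥A0) tM x hx
    have e : (((heckeAlphaBar K0 (M * q) q).comp (heckeAlphaBar K0 M q)).restrictScalars ↥A0) tM
        = t := htt
    rw [e] at h
    exact h
  have key : ∀ 𝔞 𝔟 : Ideal ↥(chtO ↥A0 {t}), 𝔟.IsPrime →
      (∀ y : ↥(chtO ↥A0 {t}),
        (y : ↥(laurentBaseChange K0 (modularFunctionFieldFull (M * q * q)))) ∈ Wb.nonunits →
          y ∈ 𝔞) →
      (∀ y : ↥(chtO ↥A0 {t}),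
        (y : ↥(laurentBaseChange K0 (modularFunctionFieldFull (M * q * q)))) ∈ Wb.nonunits →
          y ∈ 𝔟) →
      (∀ (x : ↥(laurentBaseChange K0 (modularFunctionFieldFull M))), x ∈ chtO ↥A0 {tM} →
        ∀ hφ : heckeAlphaBar K0 (M * q) q (heckeAlphaBar K0 M q x) ∈ chtO ↥A0 {t},
          ((⟨_, hφ⟩ : ↥(chtO ↥A0 {t})) ∈ 𝔞 → (⟨_, hφ⟩ : ↥(chtO ↥A0 {t})) ∈ 𝔟)) →
      𝔞 ≤ 𝔟 := by
    intro 𝔞 𝔟 h𝔟 ha hb hab y hy
    obtain ⟨z0, hz0, hnon⟩ := s36rd_pow M q hM K0 A0 hA0 hdeg f hf hk τ hτ VE hVE tM hnoeth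
      hfracM hVM hVτM hSM t htt Wb hαb hins hOb
      (y : ↥(laurentBaseChange K0 (modularFunctionFieldFull (M * q * q)))) y.2
    set r : ↥(chtO ↥A0 {t}) := ⟨_, hφO z0 hz0⟩ with hr
    have h3 : y ^ (q ^ (f + 1)) - r ∈ 𝔞 := ha _ hnon
    have h4 : r ∈ 𝔞 := by
      have e : r = y ^ (q ^ (f + 1)) - (y ^ (q ^ (f + 1)) - r) := by ring
      rw [e]
      exact 𝔞.sub_mem (Ideal.pow_mem_of_mem 𝔞 hy _ hQ) h3
    have h5 : r ∈ 𝔟 := hab z0 hz0 (hφO z0 hz0) h4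
    have h6 : y ^ (q ^ (f + 1)) ∈ 𝔟 := by
      have e : y ^ (q ^ (f + 1)) = (y ^ (q ^ (f + 1)) - r) + r := by ring
      rw [e]
      exact 𝔟.add_mem (hb _ hnon) h5
    exact h𝔟.mem_of_pow_mem _ h6
  exact le_antisymm
    (key 𝔫₁ 𝔫₂ inferInstance h1 h2 (fun x hx hφ => (h12 x hx hφ).mp))
    (key 𝔫₂ 𝔫₁ inferInstance h2 h1 (fun x hx hφ => (h12 x hx hφ).mpr))

/-- **The same, with the contraction to the level-`M q` chart** `chtO A0 {α' tM}` along `α`. -/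
theorem s36rd_unique_al
    [Algebra ↥A0 ↥(laurentBaseChange K0 (modularFunctionFieldFull M))]
    [IsScalarTower ↥A0 K0 ↥(laurentBaseChange K0 (modularFunctionFieldFull M))]
    [Algebra ↥A0 ↥(laurentBaseChange K0 (modularFunctionFieldFull (M * q)))]
    [IsScalarTower ↥A0 K0 ↥(laurentBaseChange K0 (modularFunctionFieldFull (M * q)))]
    [Algebra ↥A0 ↥(laurentBaseChange K0 (modularFunctionFieldFull (M * q * q)))]
    [IsScalarTower ↥A0 K0 ↥(laurentBaseChange K0 (modularFunctionFieldFull (M * q * q)))]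
    (hA0 : A0.LiesOverPrime q)
    (hdeg : finrankAlong K0 (heckeAlphaBar K0 M q) = q + 1)
    (f : ℕ) (hf : 1 ≤ f) (hk : ∀ c : IsLocalRing.ResidueField ↥A0, c ^ (q ^ f) = c)
    (τ : ↥A0) (hτ : Irreducible τ)
    (VE : ValuationSubring ↥(laurentBaseChange K0 (modularFunctionFieldFull M)))
    (hVE : ∀ x : ↥(laurentBaseChange K0 (modularFunctionFieldFull M)),
      x ∈ VE ↔ (x : LaurentSeries K0) ∈ grV A0)
    (tM : ↥(laurentBaseChange K0 (modularFunctionFieldFull M)))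
    (hnoeth : IsNoetherianRing ↥(chtO ↥A0 {tM}))
    (hfracM : ∀ x : ↥(laurentBaseChange K0 (modularFunctionFieldFull M)),
      ∃ a ∈ chtO ↥A0 {tM}, ∃ s ∈ chtO ↥A0 {tM}, s ≠ 0 ∧ x * s = a)
    (hVM : ∀ x ∈ chtO ↥A0 {tM}, x ∈ VE)
    (hVτM : ∀ x ∈ chtO ↥A0 {tM}, x ∈ VE.nonunits →
      ∃ y ∈ chtO ↥A0 {tM},
        x = algebraMap ↥A0 ↥(laurentBaseChange K0 (modularFunctionFieldFull M)) τ * y)
    (hSM : IsDedekindDomain
      (↥(chtO ↥A0 {tM}) ⧸ Ideal.span {algebraMap ↥A0 ↥(chtO ↥A0 {tM}) τ}))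
    (t : ↥(laurentBaseChange K0 (modularFunctionFieldFull (M * q * q))))
    (htt : heckeAlphaBar K0 (M * q) q (heckeAlphaBar K0 M q tM) = t)
    (Wb : ValuationSubring ↥(laurentBaseChange K0 (modularFunctionFieldFull (M * q * q))))
    (hαb : ∀ x : ↥(laurentBaseChange K0 (modularFunctionFieldFull (M * q))),
      heckeAlphaBar K0 (M * q) q x ∈ Wb ↔ x ∈ va2V2 M q hM K0 A0)
    (hins : ∀ x ∈ Wb, ∃ r ∈ va2V2 M q hM K0 A0,
      x ^ q - heckeAlphaBar K0 (M * q) q r ∈ Wb.nonunits)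
    (hOb : ∀ x ∈ chtO ↥A0 {t}, x ∈ Wb)
    (𝔫₁ 𝔫₂ : Ideal ↥(chtO ↥A0 {t})) [𝔫₁.IsPrime] [𝔫₂.IsPrime]
    (h1 : ∀ y : ↥(chtO ↥A0 {t}),
      (y : ↥(laurentBaseChange K0 (modularFunctionFieldFull (M * q * q)))) ∈ Wb.nonunits → y ∈ 𝔫₁)
    (h2 : ∀ y : ↥(chtO ↥A0 {t}),
      (y : ↥(laurentBaseChange K0 (modularFunctionFieldFull (M * q * q)))) ∈ Wb.nonunits → y ∈ 𝔫₂)
    (h12 : ∀ (x : ↥(laurentBaseChange K0 (modularFunctionFieldFull (M * q)))),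
      x ∈ chtO ↥A0 {heckeAlphaBar K0 M q tM} →
      ∀ hφ : heckeAlphaBar K0 (M * q) q x ∈ chtO ↥A0 {t},
        ((⟨_, hφ⟩ : ↥(chtO ↥A0 {t})) ∈ 𝔫₁ ↔ (⟨_, hφ⟩ : ↥(chtO ↥A0 {t})) ∈ 𝔫₂)) :
    𝔫₁ = 𝔫₂ :=
  s36rd_unique M q hM K0 A0 hA0 hdeg f hf hk τ hτ VE hVE tM hnoeth hfracM hVM hVτM hSM t htt
    Wb hαb hins hOb 𝔫₁ 𝔫₂ h1 h2 (fun x hx hφ =>
      h12 (heckeAlphaBar K0 M q x)
        (isc_map_chart ((heckeAlphaBar K0 M q).restrictScalars ↥A0) tM x hx) hφ)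

/-- `s36rd_pow` for `W_b = s36v3Wb` -/
theorem s36rd_pow_wb
    [Algebra ↥A0 ↥(laurentBaseChange K0 (modularFunctionFieldFull M))]
    [IsScalarTower ↥A0 K0 ↥(laurentBaseChange K0 (modularFunctionFieldFull M))]
    [Algebra ↥A0 ↥(laurentBaseChange K0 (modularFunctionFieldFull (M * q * q)))]
    [IsScalarTower ↥A0 K0 ↥(laurentBaseChange K0 (modularFunctionFieldFull (M * q * q)))]
    (hA0 : A0.LiesOverPrime q)
    (hdeg : finrankAlong K0 (heckeAlphaBar K0 M q) = q + 1)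
    (f : ℕ) (hf : 1 ≤ f) (hk : ∀ c : IsLocalRing.ResidueField ↥A0, c ^ (q ^ f) = c)
    (τ : ↥A0) (hτ : Irreducible τ)
    (VE : ValuationSubring ↥(laurentBaseChange K0 (modularFunctionFieldFull M)))
    (hVE : ∀ x : ↥(laurentBaseChange K0 (modularFunctionFieldFull M)),
      x ∈ VE ↔ (x : LaurentSeries K0) ∈ grV A0)
    (tM : ↥(laurentBaseChange K0 (modularFunctionFieldFull M)))
    (hnoeth : IsNoetherianRing ↥(chtO ↥A0 {tM}))
    (hfracM : ∀ x : ↥(laurentBaseChange K0 (modularFunctionFieldFull M)),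
      ∃ a ∈ chtO ↥A0 {tM}, ∃ s ∈ chtO ↥A0 {tM}, s ≠ 0 ∧ x * s = a)
    (hVM : ∀ x ∈ chtO ↥A0 {tM}, x ∈ VE)
    (hVτM : ∀ x ∈ chtO ↥A0 {tM}, x ∈ VE.nonunits →
      ∃ y ∈ chtO ↥A0 {tM},
        x = algebraMap ↥A0 ↥(laurentBaseChange K0 (modularFunctionFieldFull M)) τ * y)
    (hSM : IsDedekindDomain
      (↥(chtO ↥A0 {tM}) ⧸ Ideal.span {algebraMap ↥A0 ↥(chtO ↥A0 {tM}) τ}))
    (t : ↥(laurentBaseChange K0 (modularFunctionFieldFull (M * q * q))))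
    (htt : heckeAlphaBar K0 (M * q) q (heckeAlphaBar K0 M q tM) = t)
    (hOb : ∀ x ∈ chtO ↥A0 {t}, x ∈ s36v3Wb M q hM K0 A0)
    (z : ↥(laurentBaseChange K0 (modularFunctionFieldFull (M * q * q))))
    (hz : z ∈ chtO ↥A0 {t}) :
    ∃ z0 ∈ chtO ↥A0 {tM},
      z ^ (q ^ (f + 1)) - heckeAlphaBar K0 (M * q) q (heckeAlphaBar K0 M q z0)
        ∈ (s36v3Wb M q hM K0 A0).nonunits :=
  s36rd_pow M q hM K0 A0 hA0 hdeg f hf hk τ hτ VE hVE tM hnoeth hfracM hVM hVτM hSM t htt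
    (s36v3Wb M q hM K0 A0) (s36v3_al_Wb M q hM K0 A0)
    (fun x hx => s36v3_insep_al_Wb M q hM K0 A0 hA0 x hx) hOb z hz

/-- `s36rd_unique_al` for `W_b = s36v3Wb`: two primes of the level-`M q²` chart on `W_b` with
the same contraction (along `α`) to the level-`M q` chart are equal. -/
theorem s36rd_unique_al_wb
    [Algebra ↥A0 ↥(laurentBaseChange K0 (modularFunctionFieldFull M))]
    [IsScalarTower ↥A0 K0 ↥(laurentBaseChange K0 (modularFunctionFieldFull M))]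
    [Algebra ↥A0 ↥(laurentBaseChange K0 (modularFunctionFieldFull (M * q)))]
    [IsScalarTower ↥A0 K0 ↥(laurentBaseChange K0 (modularFunctionFieldFull (M * q)))]
    [Algebra ↥A0 ↥(laurentBaseChange K0 (modularFunctionFieldFull (M * q * q)))]
    [IsScalarTower ↥A0 K0 ↥(laurentBaseChange K0 (modularFunctionFieldFull (M * q * q)))]
    (hA0 : A0.LiesOverPrime q)
    (hdeg : finrankAlong K0 (heckeAlphaBar K0 M q) = q + 1)
    (f : ℕ) (hf : 1 ≤ f) (hk : ∀ c : IsLocalRing.ResidueField ↥A0, c ^ (q ^ f) = c)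
    (τ : ↥A0) (hτ : Irreducible τ)
    (VE : ValuationSubring ↥(laurentBaseChange K0 (modularFunctionFieldFull M)))
    (hVE : ∀ x : ↥(laurentBaseChange K0 (modularFunctionFieldFull M)),
      x ∈ VE ↔ (x : LaurentSeries K0) ∈ grV A0)
    (tM : ↥(laurentBaseChange K0 (modularFunctionFieldFull M)))
    (hnoeth : IsNoetherianRing ↥(chtO ↥A0 {tM}))
    (hfracM : ∀ x : ↥(laurentBaseChange K0 (modularFunctionFieldFull M)),
      ∃ a ∈ chtO ↥A0 {tM}, ∃ s ∈ chtO ↥A0 {tM}, s ≠ 0 ∧ x * s = a)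
    (hVM : ∀ x ∈ chtO ↥A0 {tM}, x ∈ VE)
    (hVτM : ∀ x ∈ chtO ↥A0 {tM}, x ∈ VE.nonunits →
      ∃ y ∈ chtO ↥A0 {tM},
        x = algebraMap ↥A0 ↥(laurentBaseChange K0 (modularFunctionFieldFull M)) τ * y)
    (hSM : IsDedekindDomain
      (↥(chtO ↥A0 {tM}) ⧸ Ideal.span {algebraMap ↥A0 ↥(chtO ↥A0 {tM}) τ}))
    (t : ↥(laurentBaseChange K0 (modularFunctionFieldFull (M * q * q))))
    (htt : heckeAlphaBar K0 (M * q) q (heckeAlphaBar K0 M q tM) = t)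
    (hOb : ∀ x ∈ chtO ↥A0 {t}, x ∈ s36v3Wb M q hM K0 A0)
    (𝔫₁ 𝔫₂ : Ideal ↥(chtO ↥A0 {t})) [𝔫₁.IsPrime] [𝔫₂.IsPrime]
    (h1 : ∀ y : ↥(chtO ↥A0 {t}),
      (y : ↥(laurentBaseChange K0 (modularFunctionFieldFull (M * q * q))))
        ∈ (s36v3Wb M q hM K0 A0).nonunits → y ∈ 𝔫₁)
    (h2 : ∀ y : ↥(chtO ↥A0 {t}),
      (y : ↥(laurentBaseChange K0 (modularFunctionFieldFull (M * q * q))))
        ∈ (s36v3Wb M q hM K0 A0).nonunits → y ∈ 𝔫₂)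
    (h12 : ∀ (x : ↥(laurentBaseChange K0 (modularFunctionFieldFull (M * q)))),
      x ∈ chtO ↥A0 {heckeAlphaBar K0 M q tM} →
      ∀ hφ : heckeAlphaBar K0 (M * q) q x ∈ chtO ↥A0 {t},
        ((⟨_, hφ⟩ : ↥(chtO ↥A0 {t})) ∈ 𝔫₁ ↔ (⟨_, hφ⟩ : ↥(chtO ↥A0 {t})) ∈ 𝔫₂)) :
    𝔫₁ = 𝔫₂ :=
  s36rd_unique_al M q hM K0 A0 hA0 hdeg f hf hk τ hτ VE hVE tM hnoeth hfracM hVM hVτM hSM t htt
    (s36v3Wb M q hM K0 A0) (s36v3_al_Wb M q hM K0 A0)
    (fun x hx => s36v3_insep_al_Wb M q hM K0 A0 hA0 x hx) hOb 𝔫₁ 𝔫₂ h1 h2 h12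

/-- `s36rd_unique_al_wb` with the contraction written with `s36ptRes` (the shape of
`s36pt_unique_on`). -/
theorem s36rd_unique_res_wb
    [Algebra ↥A0 ↥(laurentBaseChange K0 (modularFunctionFieldFull M))]
    [IsScalarTower ↥A0 K0 ↥(laurentBaseChange K0 (modularFunctionFieldFull M))]
    [Algebra ↥A0 ↥(laurentBaseChange K0 (modularFunctionFieldFull (M * q)))]
    [IsScalarTower ↥A0 K0 ↥(laurentBaseChange K0 (modularFunctionFieldFull (M * q)))]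
    [Algebra ↥A0 ↥(laurentBaseChange K0 (modularFunctionFieldFull (M * q * q)))]
    [IsScalarTower ↥A0 K0 ↥(laurentBaseChange K0 (modularFunctionFieldFull (M * q * q)))]
    (hA0 : A0.LiesOverPrime q)
    (hdeg : finrankAlong K0 (heckeAlphaBar K0 M q) = q + 1)
    (f : ℕ) (hf : 1 ≤ f) (hk : ∀ c : IsLocalRing.ResidueField ↥A0, c ^ (q ^ f) = c)
    (τ : ↥A0) (hτ : Irreducible τ)
    (VE : ValuationSubring ↥(laurentBaseChange K0 (modularFunctionFieldFull M)))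
    (hVE : ∀ x : ↥(laurentBaseChange K0 (modularFunctionFieldFull M)),
      x ∈ VE ↔ (x : LaurentSeries K0) ∈ grV A0)
    (tM : ↥(laurentBaseChange K0 (modularFunctionFieldFull M)))
    (hnoeth : IsNoetherianRing ↥(chtO ↥A0 {tM}))
    (hfracM : ∀ x : ↥(laurentBaseChange K0 (modularFunctionFieldFull M)),
      ∃ a ∈ chtO ↥A0 {tM}, ∃ s ∈ chtO ↥A0 {tM}, s ≠ 0 ∧ x * s = a)
    (hVM : ∀ x ∈ chtO ↥A0 {tM}, x ∈ VE)
    (hVτM : ∀ x ∈ chtO ↥A0 {tM}, x ∈ VE.nonunits →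
      ∃ y ∈ chtO ↥A0 {tM},
        x = algebraMap ↥A0 ↥(laurentBaseChange K0 (modularFunctionFieldFull M)) τ * y)
    (hSM : IsDedekindDomain
      (↥(chtO ↥A0 {tM}) ⧸ Ideal.span {algebraMap ↥A0 ↥(chtO ↥A0 {tM}) τ}))
    (t : ↥(laurentBaseChange K0 (modularFunctionFieldFull (M * q * q))))
    (htt : heckeAlphaBar K0 (M * q) q (heckeAlphaBar K0 M q tM) = t)
    (hOb : ∀ x ∈ chtO ↥A0 {t}, x ∈ s36v3Wb M q hM K0 A0)
    (hφO : ∀ x ∈ chtO ↥A0 {heckeAlphaBar K0 M q tM},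
      ((heckeAlphaBar K0 (M * q) q).restrictScalars ↥A0) x ∈ chtO ↥A0 {t})
    (𝔫₁ 𝔫₂ : Ideal ↥(chtO ↥A0 {t})) [𝔫₁.IsPrime] [𝔫₂.IsPrime]
    (h1 : ∀ y : ↥(chtO ↥A0 {t}),
      (y : ↥(laurentBaseChange K0 (modularFunctionFieldFull (M * q * q))))
        ∈ (s36v3Wb M q hM K0 A0).nonunits → y ∈ 𝔫₁)
    (h2 : ∀ y : ↥(chtO ↥A0 {t}),
      (y : ↥(laurentBaseChange K0 (modularFunctionFieldFull (M * q * q))))
        ∈ (s36v3Wb M q hM K0 A0).nonunits → y ∈ 𝔫₂)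
    (h12 : ∀ x : ↥(chtO ↥A0 {heckeAlphaBar K0 M q tM}),
      s36ptRes ((heckeAlphaBar K0 (M * q) q).restrictScalars ↥A0)
          (chtO ↥A0 {heckeAlphaBar K0 M q tM}) (chtO ↥A0 {t}) hφO x ∈ 𝔫₁ ↔
        s36ptRes ((heckeAlphaBar K0 (M * q) q).restrictScalars ↥A0)
          (chtO ↥A0 {heckeAlphaBar K0 M q tM}) (chtO ↥A0 {t}) hφO x ∈ 𝔫₂) :
    𝔫₁ = 𝔫₂ :=
  s36rd_unique_al_wb M q hM K0 A0 hA0 hdeg f hf hk τ hτ VE hVE tM hnoeth hfracM hVM hVτM hSM t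
    htt hOb 𝔫₁ 𝔫₂ h1 h2 (fun x hx _ => h12 ⟨x, hx⟩)

end Main

end Fermat.Agent.S36
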