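import Mathlib
import Fermat.Agent.S36.Inst36Abs

/-!
# S36: transfer of the one-component point data along a local isomorphism

`O`, `O'` two charts of the function field `F`, `𝔫`, `𝔫'` primes of `O`, `O'`, and `w` an
automorphism of `F` inducing an isomorphism of the local rings `O'_{𝔫'} ≅ O_𝔫`:

* `hfwd : ∀ x, x ∈ ndrLoc O' 𝔫' → w x ∈ ndrLoc O 𝔫`,
* `hbwd : ∀ y, y ∈ ndrLoc O 𝔫 → w.symm y ∈ ndrLoc O' 𝔫'`.

Then everything the point lemmas produce at `(O', 𝔫')` for a valuation ring `V'` transfers to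
`(O, 𝔫)` for `V` with `V' = V.comap w`:

* `s36si_ord`: the order condition `S36inOrd` is invariant under `w` (`w` fixes `A`);
* `s36si_unit_map`: units of `O'_{𝔫'}` go to units of `O_𝔫` (written out);
* `s36si_unit`: `S35Unit m O' 𝔫' f → S35Unit m O 𝔫 (w f)`;
* `s36si_ic`: `S35IC m O' 𝔫' V' → S35IC m O 𝔫 V`;
* `s36si_through`, `s36si_off`: the type of the point is preserved;
* `s36si_main`: the branch clauses (`S35IC` and `S35Unit` for every function with the order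
  condition) at a `Wb`-only point `𝔫` of `O` from the corresponding clause at the `Wa`-only point
  `𝔫'` of `O'`, for a swap `w` exchanging `Wa` and `Wb` and fixing `Wc`.
-/

set_option autoImplicit false
set_option linter.unusedSectionVars false
set_option linter.unusedVariables false

namespace Fermat.Agent.S36

open Fermat.Agent.S18 Fermat.Agent.S34 Fermat.Agent.S35

section SwapIso

variable {A F : Type*} [CommRing A] [Field F] [Algebra A F]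

/-- nonunits correspond under an automorphism matching two valuation rings -/
theorem s36si_nu_iff (w : F ≃+* F) (V V' : ValuationSubring F)
    (h : ∀ x : F, x ∈ V' ↔ w x ∈ V) (x : F) : x ∈ V'.nonunits ↔ w x ∈ V.nonunits := by
  rw [ValuationSubring.mem_nonunits_iff_or, ValuationSubring.mem_nonunits_iff_or, h x⁻¹,
    map_inv₀]
  constructor
  · rintro (h0 | h1)
    · exact Or.inl (by rw [h0, map_zero])
    · exact Or.inr h1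
  · rintro (h0 | h1)
    · exact Or.inl ((map_eq_zero_iff w w.injective).mp h0)
    · exact Or.inr h1

/-- **The order condition is invariant under an automorphism fixing the base ring.** -/
theorem s36si_ord (τ : A) (m : ℕ) (w : F ≃+* F)
    (hwA : ∀ a : A, w (algebraMap A F a) = algebraMap A F a) {f : F}
    (hf : S36inOrd τ m f) : S36inOrd τ m (w f) := by
  intro V hA hτ hP
  have hmem : ∀ x : F, x ∈ V.comap (w : F →+* F) ↔ w x ∈ V := fun x => Iff.rfl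
  have hA₂ : ∀ a : A, algebraMap A F a ∈ V.comap (w : F →+* F) := fun a => by
    rw [hmem, hwA]; exact hA a
  have hτ₂ : (algebraMap A F τ)⁻¹ ∈ V.comap (w : F →+* F) := by
    rw [hmem, map_inv₀, hwA]; exact hτ
  have hP₂ : IsPrincipalIdealRing ↥(V.comap (w : F →+* F)) := by
    have hcod : ∀ x : ↥V, ((w.symm : F →+* F).comp V.subtype) x ∈ V.comap (w : F →+* F) := by
      intro x
      rw [hmem]
      show w (w.symm (x : F)) ∈ V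
      rw [RingEquiv.apply_symm_apply]
      exact x.2
    have hsurj : Function.Surjective
        (((w.symm : F →+* F).comp V.subtype).codRestrict (V.comap (w : F →+* F)) hcod) := by
      intro y
      refine ⟨⟨w (y : F), (hmem _).mp y.2⟩, Subtype.ext ?_⟩
      show w.symm (w (y : F)) = (y : F)
      exact w.symm_apply_apply _
    exact IsPrincipalIdealRing.of_surjective _ hsurj
  obtain ⟨u, hu, h1, h2⟩ := hf (V.comap (w : F →+* F)) hA₂ hτ₂ hP₂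
  refine ⟨w u, (map_ne_zero w).mpr hu, ?_, ?_⟩
  · have e : w f * w u ^ m = w (f * u ^ m) := by rw [map_mul, map_pow]
    rw [e]
    exact (hmem _).mp h1
  · have e : (w f * w u ^ m)⁻¹ = w ((f * u ^ m)⁻¹) := by rw [map_inv₀, map_mul, map_pow]
    rw [e]
    exact (hmem _).mp h2

/-- **Units go to units**: an element of `O'` outside `𝔫'` is mapped by `w` to a quotient of two
elements of `O` outside `𝔫`. -/
theorem s36si_unit_map (O O' : Subalgebra A F) (𝔫 : Ideal ↥O) [h𝔫 : 𝔫.IsPrime]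
    (𝔫' : Ideal ↥O') [h𝔫' : 𝔫'.IsPrime] (w : F ≃+* F)
    (hfwd : ∀ x : F, x ∈ ndrLoc O' 𝔫' → w x ∈ ndrLoc O 𝔫)
    (x : ↥O') (hx : x ∉ 𝔫') :
    ∃ a s : ↥O, a ∉ 𝔫 ∧ s ∉ 𝔫 ∧ w (x : F) * (s : F) = (a : F) := by
  have hx0 : (x : F) ≠ 0 := s35pt_ne_zero O' 𝔫' x hx
  have hwx0 : w (x : F) ≠ 0 := (map_ne_zero w).mpr hx0
  have h1 : (x : F) ∈ ndrLoc O' 𝔫' := ndr_le O' 𝔫' x.2
  have h2 : (x : F)⁻¹ ∈ ndrLoc O' 𝔫' :=
    ⟨1, x, hx, by rw [Subalgebra.coe_one]; exact inv_mul_cancel₀ hx0⟩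
  obtain ⟨a, s, hs, has⟩ := hfwd _ h1
  obtain ⟨b, r, hr, hbr⟩ := hfwd _ h2
  refine ⟨a, s, ?_, hs, has⟩
  intro ha
  have e : a * b = s * r := by
    apply Subtype.ext
    rw [Subalgebra.coe_mul, Subalgebra.coe_mul, ← has, ← hbr, map_inv₀]
    field_simp
  have h3 : s * r ∈ 𝔫 := e ▸ 𝔫.mul_mem_right _ ha
  exact (h𝔫.mem_or_mem h3).elim hs hr

/-- **Transfer of `S35Unit`.** -/
theorem s36si_unit (O O' : Subalgebra A F) (𝔫 : Ideal ↥O) [h𝔫 : 𝔫.IsPrime]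
    (𝔫' : Ideal ↥O') [h𝔫' : 𝔫'.IsPrime] (w : F ≃+* F)
    (hfwd : ∀ x : F, x ∈ ndrLoc O' 𝔫' → w x ∈ ndrLoc O 𝔫)
    (m : ℕ) (f : F) (h : S35Unit m O' 𝔫' f) : S35Unit m O 𝔫 (w f) := by
  obtain ⟨g, hg, a, s, ha, hs, hfs⟩ := h
  obtain ⟨α, σ, hα, hσ, e1⟩ := s36si_unit_map O O' 𝔫 𝔫' w hfwd s hs
  obtain ⟨γ, δ, hγ, hδ, e2⟩ := s36si_unit_map O O' 𝔫 𝔫' w hfwd a ha
  have e0 : w f * w (s : F) = w (a : F) * w g ^ m := by
    rw [← map_mul, hfs, map_mul, map_pow]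
  refine ⟨w g, (map_ne_zero w).mpr hg, γ * σ, α * δ,
    fun hh => (h𝔫.mem_or_mem hh).elim hγ hσ, fun hh => (h𝔫.mem_or_mem hh).elim hα hδ, ?_⟩
  rw [Subalgebra.coe_mul, Subalgebra.coe_mul, ← e1, ← e2]
  linear_combination ((σ : F) * (δ : F)) * e0

/-- **Transfer of `S35IC`.** -/
theorem s36si_ic (O O' : Subalgebra A F) (𝔫 : Ideal ↥O) [h𝔫 : 𝔫.IsPrime]
    (𝔫' : Ideal ↥O') [h𝔫' : 𝔫'.IsPrime] (w : F ≃+* F)
    (hfwd : ∀ x : F, x ∈ ndrLoc O' 𝔫' → w x ∈ ndrLoc O 𝔫)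
    (hbwd : ∀ y : F, y ∈ ndrLoc O 𝔫 → w.symm y ∈ ndrLoc O' 𝔫')
    (V V' : ValuationSubring F) (hOV : ∀ x ∈ O, x ∈ V) (hOV' : ∀ x ∈ O', x ∈ V')
    (hwV : ∀ x : F, x ∈ V' ↔ w x ∈ V)
    (m : ℕ) (hIC : S35IC m O' 𝔫' V') : S35IC m O 𝔫 V := by
  have hnu := s36si_nu_iff w V V' hwV
  rintro z ⟨a, s, ha, hs, hz⟩
  -- pull back to `O'`
  obtain ⟨a₁, s₁, ha₁, hs₁, e1⟩ := s36si_unit_map O' O 𝔫' 𝔫 w.symm hbwd a ha
  obtain ⟨a₂, s₂, ha₂, hs₂, e2⟩ := s36si_unit_map O' O 𝔫' 𝔫 w.symm hbwd s hs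
  have hz' : w.symm z ^ m * w.symm (s : F) - w.symm (a : F) ∈ V'.nonunits := by
    rw [hnu, map_sub, map_mul, map_pow, RingEquiv.apply_symm_apply, RingEquiv.apply_symm_apply,
      RingEquiv.apply_symm_apply]
    exact hz
  have hz'' : w.symm z ^ m * ((a₂ * s₁ : ↥O') : F) - ((a₁ * s₂ : ↥O') : F) ∈ V'.nonunits := by
    have e : w.symm z ^ m * ((a₂ * s₁ : ↥O') : F) - ((a₁ * s₂ : ↥O') : F) =
        (w.symm z ^ m * w.symm (s : F) - w.symm (a : F)) * ((s₁ : F) * (s₂ : F)) := by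
      rw [Subalgebra.coe_mul, Subalgebra.coe_mul, ← e1, ← e2]
      ring
    rw [e]
    exact s35pt_nu_mul V' hz' (V'.mul_mem _ _ (hOV' _ s₁.2) (hOV' _ s₂.2))
  obtain ⟨a', s', hs', h'⟩ := hIC (w.symm z) ⟨a₁ * s₂, a₂ * s₁,
    fun hh => (h𝔫'.mem_or_mem hh).elim ha₁ hs₂, fun hh => (h𝔫'.mem_or_mem hh).elim ha₂ hs₁, hz''⟩
  -- push forward to `O`
  obtain ⟨α, σ, hα, hσ, e3⟩ := s36si_unit_map O O' 𝔫 𝔫' w hfwd s' hs'
  obtain ⟨γ, δ, hδ, e4⟩ := hfwd _ (ndr_le O' 𝔫' a'.2)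
  have h'' : z * w (s' : F) - w (a' : F) ∈ V.nonunits := by
    have e : z * w (s' : F) - w (a' : F) = w (w.symm z * (s' : F) - (a' : F)) := by
      rw [map_sub, map_mul, RingEquiv.apply_symm_apply]
    rw [e, ← hnu]
    exact h'
  refine ⟨γ * σ, α * δ, fun hh => (h𝔫.mem_or_mem hh).elim hα hδ, ?_⟩
  have e : z * ((α * δ : ↥O) : F) - ((γ * σ : ↥O) : F) =
      (z * w (s' : F) - w (a' : F)) * ((σ : F) * (δ : F)) := by
    rw [Subalgebra.coe_mul, Subalgebra.coe_mul, ← e3, ← e4]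
    ring
  rw [e]
  exact s35pt_nu_mul V h'' (V.mul_mem _ _ (hOV _ σ.2) (hOV _ δ.2))

/-- **Type preservation, "through".**  If `V` passes through `𝔫`, then `V' = V.comap w` passes
through `𝔫'`. -/
theorem s36si_through (O O' : Subalgebra A F) (𝔫 : Ideal ↥O) [h𝔫 : 𝔫.IsPrime]
    (𝔫' : Ideal ↥O') [h𝔫' : 𝔫'.IsPrime] (w : F ≃+* F)
    (hfwd : ∀ x : F, x ∈ ndrLoc O' 𝔫' → w x ∈ ndrLoc O 𝔫)
    (V V' : ValuationSubring F) (hOV : ∀ x ∈ O, x ∈ V)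
    (hwV : ∀ x : F, x ∈ V'.nonunits → w x ∈ V.nonunits)
    (hp : ∀ x : ↥O, (x : F) ∈ V.nonunits → x ∈ 𝔫) :
    ∀ x : ↥O', (x : F) ∈ V'.nonunits → x ∈ 𝔫' := by
  intro x hx
  by_contra hx𝔫
  obtain ⟨a, s, ha, hs, e⟩ := s36si_unit_map O O' 𝔫 𝔫' w hfwd x hx𝔫
  exact ha (hp a (e ▸ s35pt_nu_mul V (hwV _ hx) (hOV _ s.2)))

/-- **Type preservation, "off".**  If `U` misses `𝔫`, then `U' = U.comap w` misses `𝔫'`. -/
theorem s36si_off (O O' : Subalgebra A F) (𝔫 : Ideal ↥O) [h𝔫 : 𝔫.IsPrime]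
    (𝔫' : Ideal ↥O') [h𝔫' : 𝔫'.IsPrime] (w : F ≃+* F)
    (hbwd : ∀ y : F, y ∈ ndrLoc O 𝔫 → w.symm y ∈ ndrLoc O' 𝔫')
    (U U' : ValuationSubring F) (hOU' : ∀ x ∈ O', x ∈ U')
    (hwU : ∀ y : F, y ∈ U.nonunits → w.symm y ∈ U'.nonunits)
    (h : ∃ X : ↥O, (X : F) ∈ U.nonunits ∧ X ∉ 𝔫) :
    ∃ X : ↥O', (X : F) ∈ U'.nonunits ∧ X ∉ 𝔫' := by
  obtain ⟨X, hX, hX𝔫⟩ := h
  obtain ⟨a, s, ha, hs, e⟩ := s36si_unit_map O' O 𝔫' 𝔫 w.symm hbwd X hX𝔫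
  exact ⟨a, e ▸ s35pt_nu_mul U' (hwU _ hX) (hOU' _ s.2), ha⟩

/-- **The `Wb`-only points by transfer.**  `w` an automorphism of `F` over `A` exchanging `Wa`
and `Wb` and fixing `Wc`, inducing an isomorphism `O'_{𝔫'} ≅ O_𝔫`.  If `𝔫` lies on `Wb` only,
then `𝔫'` lies on `Wa` only, and the branch clauses at `(O', 𝔫', Wa)` (`hA'`: the conclusion of
`s36oi_one`) give the branch clauses at `(O, 𝔫, Wb)`. -/
theorem s36si_main (τ : A) (m : ℕ) (w : F ≃+* F)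
    (hwA : ∀ a : A, w (algebraMap A F a) = algebraMap A F a)
    (O O' : Subalgebra A F) (𝔫 : Ideal ↥O) [h𝔫 : 𝔫.IsPrime]
    (𝔫' : Ideal ↥O') [h𝔫' : 𝔫'.IsPrime]
    (hfwd : ∀ x : F, x ∈ ndrLoc O' 𝔫' → w x ∈ ndrLoc O 𝔫)
    (hbwd : ∀ y : F, y ∈ ndrLoc O 𝔫 → w.symm y ∈ ndrLoc O' 𝔫')
    (Wa Wb Wc : ValuationSubring F)
    (hO : ∀ x ∈ O, x ∈ Wa ∧ x ∈ Wb ∧ x ∈ Wc) (hO' : ∀ x ∈ O', x ∈ Wa ∧ x ∈ Wb ∧ x ∈ Wc)
    (hwab : ∀ x : F, x ∈ Wa ↔ w x ∈ Wb) (hwba : ∀ x : F, x ∈ Wb ↔ w x ∈ Wa)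
    (hwc : ∀ x : F, x ∈ Wc ↔ w x ∈ Wc)
    (hA' : (∀ x : ↥O', (x : F) ∈ Wa.nonunits → x ∈ 𝔫') →
      (∃ r : ↥O', (r : F) ∈ Wb.nonunits ∧ r ∉ 𝔫') → (∃ r : ↥O', (r : F) ∈ Wc.nonunits ∧ r ∉ 𝔫') →
      S35IC m O' 𝔫' Wa ∧
        ∀ f : F, f ≠ 0 → S36inOrd τ m f → f ∈ Wa → f⁻¹ ∈ Wa → S35Unit m O' 𝔫' f)
    (h1 : ∀ x : ↥O, (x : F) ∈ Wb.nonunits → x ∈ 𝔫)
    (hXa : ∃ r : ↥O, (r : F) ∈ Wa.nonunits ∧ r ∉ 𝔫)
    (hXc : ∃ r : ↥O, (r : F) ∈ Wc.nonunits ∧ r ∉ 𝔫) :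
    S35IC m O 𝔫 Wb ∧
      ∀ f : F, f ≠ 0 → S36inOrd τ m f → f ∈ Wb → f⁻¹ ∈ Wb → S35Unit m O 𝔫 f := by
  have hnab := s36si_nu_iff w Wb Wa hwab
  have hnba := s36si_nu_iff w Wa Wb hwba
  have hnc := s36si_nu_iff w Wc Wc hwc
  have hwsA : ∀ a : A, w.symm (algebraMap A F a) = algebraMap A F a := fun a => by
    rw [RingEquiv.symm_apply_eq, hwA]
  -- the type of `𝔫'`
  have h1' : ∀ x : ↥O', (x : F) ∈ Wa.nonunits → x ∈ 𝔫' :=
    s36si_through O O' 𝔫 𝔫' w hfwd Wb Wa (fun x hx => (hO x hx).2.1)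
      (fun x hx => (hnab x).mp hx) h1
  have hXb' : ∃ r : ↥O', (r : F) ∈ Wb.nonunits ∧ r ∉ 𝔫' :=
    s36si_off O O' 𝔫 𝔫' w hbwd Wa Wb (fun x hx => (hO' x hx).2.1)
      (fun y hy => by rw [hnba, RingEquiv.apply_symm_apply]; exact hy) hXa
  have hXc' : ∃ r : ↥O', (r : F) ∈ Wc.nonunits ∧ r ∉ 𝔫' :=
    s36si_off O O' 𝔫 𝔫' w hbwd Wc Wc (fun x hx => (hO' x hx).2.2)
      (fun y hy => by rw [hnc, RingEquiv.apply_symm_apply]; exact hy) hXc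
  obtain ⟨hIC', hU'⟩ := hA' h1' hXb' hXc'
  refine ⟨s36si_ic O O' 𝔫 𝔫' w hfwd hbwd Wb Wa (fun x hx => (hO x hx).2.1)
    (fun x hx => (hO' x hx).1) hwab m hIC', ?_⟩
  intro f hf hord hfW hfW'
  have hf' : w.symm f ≠ 0 := (map_ne_zero w.symm).mpr hf
  have hord' : S36inOrd τ m (w.symm f) := s36si_ord τ m w.symm hwsA hord
  have hfa : w.symm f ∈ Wa := by rw [hwab, RingEquiv.apply_symm_apply]; exact hfW
  have hfa' : (w.symm f)⁻¹ ∈ Wa := by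
    rw [hwab, map_inv₀, RingEquiv.apply_symm_apply]; exact hfW'
  have h := s36si_unit O O' 𝔫 𝔫' w hfwd m (w.symm f) (hU' _ hf' hord' hfa hfa')
  rwa [RingEquiv.apply_symm_apply] at h

end SwapIso

end Fermat.Agent.S36
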