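import Mathlib
import Fermat.Agent.S36.ChartMap
import Fermat.Agent.S36.OneInstB
import Fermat.Agent.S36.SwapDom
import Fermat.Agent.S36.Val3Sw

/-!
# S36 [SWAP-LOC-ISO]: the swap is a two-sided isomorphism of local rings of the charts

`w` is an involution of the function field `F` over the base ring `A` (a local ring with maximal
ideal `(τ)`), the charts are `chtO A {t}` and `chtO A {t⁻¹}`, and swap domination (SWAP-DOM, the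
conclusion of `s36sw_dom`) holds at every prime over `τ` of the two charts.  Then every closed
point `𝔫 ∋ τ` of a chart `O` has a swapped closed point `𝔫' ∋ τ` on one of the two charts `O'`
with `x ∈ O'_𝔫' ↔ w x ∈ O_𝔫` and `x ∈ 𝔫' O'_𝔫' ↔ w x ∈ 𝔫 O_𝔫`.

Abstract part:

* `S36slPt τ w O 𝔫 O'`: the swapped point of `𝔫` exists on the chart `O'`;
* `s36sl_max`: the centre on a chart of the local ring `O_𝔫` (along `w`) is a maximal ideal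
  containing `τ`;
* `s36sl_core`: one pair of charts; `s36sl_main`: both charts, from SWAP-DOM;
* `s36sl_nu`, `s36sl_back`, `s36sl_thr`, `s36sl_types`: a valuation ring `W` passes through `𝔫`
  iff `W.comap w` passes through `𝔫'`;
* `s36sl_hac`: the point-type clause `hac` from the clause `hbc` on both charts.

Carrier (level `M q²`, `w := s36v3Swap M q hM K0`): `s36sl_car`, `s36sl_car_hac`.
-/

set_option autoImplicit false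
set_option linter.unusedSectionVars false
set_option linter.unusedVariables false
set_option linter.style.haveILetI false

open AlgebraicCurve ModularCurve Polynomial
open Fermat.Agent.S18 Fermat.Agent.S37 Fermat.Agent.S24 Fermat.Agent.S28 Fermat.Agent.S34
open Fermat.Agent.S35

namespace Fermat.Agent.S36

local notation "Qb" => AlgebraicClosure ℚ

/-! ### Abstract part -/

section Abs

variable {A F : Type*} [CommRing A] [Field F] [Algebra A F]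

/-- **The swapped point.**  The closed point `𝔫` of the chart `O` has a swapped closed point
`𝔫' ∋ τ` on the chart `O'`: `𝔫' = {x ∈ O' | w x ∈ 𝔫 O_𝔫}`, `x ∈ O'_𝔫' ↔ w x ∈ O_𝔫` and
`x ∈ 𝔫' O'_𝔫' ↔ w x ∈ 𝔫 O_𝔫` (fraction forms). -/
def S36slPt (τ : A) (w : F →+* F) (O : Subalgebra A F) (𝔫 : Ideal ↥O) (O' : Subalgebra A F) :
    Prop :=
  ∃ 𝔫' : Ideal ↥O', 𝔫'.IsMaximal ∧ algebraMap A ↥O' τ ∈ 𝔫' ∧
    (∀ x : ↥O', x ∈ 𝔫' ↔ ∃ a s : ↥O, a ∈ 𝔫 ∧ s ∉ 𝔫 ∧ w (x : F) * (s : F) = (a : F)) ∧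
    (∀ x : F, (∃ a s : ↥O', s ∉ 𝔫' ∧ x * (s : F) = (a : F)) ↔
      ∃ a s : ↥O, s ∉ 𝔫 ∧ w x * (s : F) = (a : F)) ∧
    (∀ x : F, (∃ a s : ↥O', a ∈ 𝔫' ∧ s ∉ 𝔫' ∧ x * (s : F) = (a : F)) ↔
      ∃ a s : ↥O, a ∈ 𝔫 ∧ s ∉ 𝔫 ∧ w x * (s : F) = (a : F))

/-- **(Max).**  The centre on the chart `chtO A {g'}` of the local ring of a closed point
`𝔫 ∋ τ` of the chart `chtO A {g}`, along `w`, is a maximal ideal containing `τ`. -/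
theorem s36sl_max (τ : A) (hτA : ∀ a : A, a ∉ Ideal.span {τ} → IsUnit a)
    (w : F →+* F) (hwA : ∀ a : A, w (algebraMap A F a) = algebraMap A F a)
    (g g' : F) (𝔫 : Ideal ↥(chtO A {g})) (h𝔫 : 𝔫.IsMaximal)
    (hτ𝔫 : algebraMap A ↥(chtO A {g}) τ ∈ 𝔫)
    (hg' : ∃ a s : ↥(chtO A {g}), s ∉ 𝔫 ∧ w g' * (s : F) = (a : F))
    (𝔭 : Ideal ↥(chtO A {g'}))
    (h𝔭 : ∀ x : ↥(chtO A {g'}), x ∈ 𝔭 ↔
      ∃ a s : ↥(chtO A {g}), a ∈ 𝔫 ∧ s ∉ 𝔫 ∧ w (x : F) * (s : F) = (a : F)) :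
    𝔭.IsMaximal ∧ algebraMap A ↥(chtO A {g'}) τ ∈ 𝔭 := by
  obtain ⟨𝔫', hmax', hτ', hmem, -⟩ := s36cm_abs τ hτA w hwA g 𝔫 h𝔫 hτ𝔫 g' hg'
  have e : 𝔭 = 𝔫' := Ideal.ext fun x => (h𝔭 x).trans (hmem x).symm
  rw [e]
  exact ⟨hmax', hτ'⟩

/-- (Max) in the chart-domination form: `w` maps the chart `chtO A {g'}` into `O_𝔫`. -/
theorem s36sl_max' (τ : A) (hτA : ∀ a : A, a ∉ Ideal.span {τ} → IsUnit a)
    (w : F →+* F) (hwA : ∀ a : A, w (algebraMap A F a) = algebraMap A F a)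
    (g g' : F) (𝔫 : Ideal ↥(chtO A {g})) (h𝔫 : 𝔫.IsMaximal)
    (hτ𝔫 : algebraMap A ↥(chtO A {g}) τ ∈ 𝔫)
    (hsub : ∀ x ∈ chtO A {g'}, ∃ a s : ↥(chtO A {g}), s ∉ 𝔫 ∧ w x * (s : F) = (a : F))
    (𝔭 : Ideal ↥(chtO A {g'}))
    (h𝔭 : ∀ x : ↥(chtO A {g'}), x ∈ 𝔭 ↔
      ∃ a s : ↥(chtO A {g}), a ∈ 𝔫 ∧ s ∉ 𝔫 ∧ w (x : F) * (s : F) = (a : F)) :
    𝔭.IsMaximal ∧ algebraMap A ↥(chtO A {g'}) τ ∈ 𝔭 :=
  s36sl_max τ hτA w hwA g g' 𝔫 h𝔫 hτ𝔫 (hsub g' (cht_h1 g').1) 𝔭 h𝔭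

/-- **The two-sided local isomorphism, one pair of charts.**  `𝔫 ∋ τ` a closed point of
`chtO A {g}` with `w g' ∈ O_𝔫`, and the dichotomy "`w g` or `(w g)⁻¹` is regular" at the primes
over `τ` of `chtO A {g'}`: the swapped point of `𝔫` exists on `chtO A {g'}`. -/
theorem s36sl_core (τ : A) (hτA : ∀ a : A, a ∉ Ideal.span {τ} → IsUnit a)
    (w : F →+* F) (hwA : ∀ a : A, w (algebraMap A F a) = algebraMap A F a)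
    (hww : ∀ x : F, w (w x) = x) (g g' : F)
    (𝔫 : Ideal ↥(chtO A {g})) (h𝔫 : 𝔫.IsMaximal) (hτ𝔫 : algebraMap A ↥(chtO A {g}) τ ∈ 𝔫)
    (hg' : ∃ a s : ↥(chtO A {g}), s ∉ 𝔫 ∧ w g' * (s : F) = (a : F))
    (hdom' : ∀ 𝔫' : Ideal ↥(chtO A {g'}), 𝔫'.IsPrime → algebraMap A ↥(chtO A {g'}) τ ∈ 𝔫' →
      (∃ a s : ↥(chtO A {g'}), s ∉ 𝔫' ∧ w g * (s : F) = (a : F)) ∨
      (∃ a s : ↥(chtO A {g'}), s ∉ 𝔫' ∧ (w g)⁻¹ * (s : F) = (a : F))) :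
    S36slPt τ w (chtO A {g}) 𝔫 (chtO A {g'}) := by
  haveI h𝔫p : 𝔫.IsPrime := h𝔫.isPrime
  obtain ⟨𝔫', hmax', hτ', hmem, hF, hFm, -⟩ := s36cm_abs τ hτA w hwA g 𝔫 h𝔫 hτ𝔫 g' hg'
  haveI h𝔫'p : 𝔫'.IsPrime := hmax'.isPrime
  have hint' : ∀ x : F, IsIntegral ↥(chtO A {g'}) x → x ∈ chtO A {g'} :=
    fun x hx => cht_integral_closed _ hx
  have hF' : ∀ v ∈ dmaLoc (chtO A {g'}) 𝔫', w v ∈ dmaLoc (chtO A {g}) 𝔫 := fun v hv => hF v hv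
  have hFm' : ∀ v ∈ dmaMax (chtO A {g'}) 𝔫', w v ∈ dmaMax (chtO A {g}) 𝔫 :=
    fun v hv => hFm v hv
  have hB := s36ob_bwd (chtO A {g'}) w hwA hww g 𝔫 𝔫' hint' hF' hFm' (hdom' 𝔫' h𝔫'p hτ')
  obtain ⟨hBm, -, -⟩ := s36ob_iso_core (chtO A {g}) (chtO A {g'}) w hww 𝔫 𝔫' hF' hFm' hB
  refine ⟨𝔫', hmax', hτ', hmem, fun x => ⟨fun hx => hF x hx, fun hx => ?_⟩,
    fun x => ⟨fun hx => hFm x hx, fun hx => ?_⟩⟩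
  · have h1 := hB (w x) hx
    rw [hww] at h1
    exact h1
  · have h1 := hBm (w x) hx
    rw [hww] at h1
    exact h1

/-- **The two-sided local isomorphism for the two charts `chtO A {t}`, `chtO A {t⁻¹}`.**
From swap domination at every prime over `τ` of the two charts (`hdom`: the conclusion of
`s36sw_dom`), every closed point `𝔫 ∋ τ` of either chart has a swapped closed point on one of
the two charts. -/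
theorem s36sl_main (τ : A) (hτA : ∀ a : A, a ∉ Ideal.span {τ} → IsUnit a)
    (w : F →+* F) (hwA : ∀ a : A, w (algebraMap A F a) = algebraMap A F a)
    (hww : ∀ x : F, w (w x) = x) (t : F)
    (hdom : (∀ 𝔫 : Ideal ↥(chtO A {t}), 𝔫.IsPrime → algebraMap A ↥(chtO A {t}) τ ∈ 𝔫 →
        (∃ a s : ↥(chtO A {t}), s ∉ 𝔫 ∧ w t * (s : F) = a) ∨
        (∃ a s : ↥(chtO A {t}), s ∉ 𝔫 ∧ (w t)⁻¹ * (s : F) = a)) ∧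
      (∀ 𝔫 : Ideal ↥(chtO A {t⁻¹}), 𝔫.IsPrime → algebraMap A ↥(chtO A {t⁻¹}) τ ∈ 𝔫 →
        (∃ a s : ↥(chtO A {t⁻¹}), s ∉ 𝔫 ∧ w t * (s : F) = a) ∨
        (∃ a s : ↥(chtO A {t⁻¹}), s ∉ 𝔫 ∧ (w t)⁻¹ * (s : F) = a))) :
    (∀ 𝔫 : Ideal ↥(chtO A {t}), 𝔫.IsMaximal → algebraMap A ↥(chtO A {t}) τ ∈ 𝔫 →
      S36slPt τ w (chtO A {t}) 𝔫 (chtO A {t}) ∨ S36slPt τ w (chtO A {t}) 𝔫 (chtO A {t⁻¹})) ∧
    (∀ 𝔫 : Ideal ↥(chtO A {t⁻¹}), 𝔫.IsMaximal → algebraMap A ↥(chtO A {t⁻¹}) τ ∈ 𝔫 →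
      S36slPt τ w (chtO A {t⁻¹}) 𝔫 (chtO A {t}) ∨
        S36slPt τ w (chtO A {t⁻¹}) 𝔫 (chtO A {t⁻¹})) := by
  obtain ⟨h0, h1⟩ := hdom
  have h0' : ∀ 𝔫 : Ideal ↥(chtO A {t}), 𝔫.IsPrime → algebraMap A ↥(chtO A {t}) τ ∈ 𝔫 →
      (∃ a s : ↥(chtO A {t}), s ∉ 𝔫 ∧ w t⁻¹ * (s : F) = a) ∨
      (∃ a s : ↥(chtO A {t}), s ∉ 𝔫 ∧ (w t⁻¹)⁻¹ * (s : F) = a) := by
    intro 𝔫 h𝔫 hτ
    rw [map_inv₀, inv_inv]
    exact (h0 𝔫 h𝔫 hτ).symm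
  have h1' : ∀ 𝔫 : Ideal ↥(chtO A {t⁻¹}), 𝔫.IsPrime → algebraMap A ↥(chtO A {t⁻¹}) τ ∈ 𝔫 →
      (∃ a s : ↥(chtO A {t⁻¹}), s ∉ 𝔫 ∧ w t⁻¹ * (s : F) = a) ∨
      (∃ a s : ↥(chtO A {t⁻¹}), s ∉ 𝔫 ∧ (w t⁻¹)⁻¹ * (s : F) = a) := by
    intro 𝔫 h𝔫 hτ
    rw [map_inv₀, inv_inv]
    exact (h1 𝔫 h𝔫 hτ).symm
  refine ⟨fun 𝔫 h𝔫 hτ𝔫 => ?_, fun 𝔫 h𝔫 hτ𝔫 => ?_⟩
  · rcases h0 𝔫 h𝔫.isPrime hτ𝔫 with h | h
    · exact Or.inl (s36sl_core τ hτA w hwA hww t t 𝔫 h𝔫 hτ𝔫 h h0)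
    · refine Or.inr (s36sl_core τ hτA w hwA hww t t⁻¹ 𝔫 h𝔫 hτ𝔫 ?_ h1)
      rw [map_inv₀]
      exact h
  · rcases h1 𝔫 h𝔫.isPrime hτ𝔫 with h | h
    · exact Or.inl (s36sl_core τ hτA w hwA hww t⁻¹ t 𝔫 h𝔫 hτ𝔫 h h0')
    · refine Or.inr (s36sl_core τ hτA w hwA hww t⁻¹ t⁻¹ 𝔫 h𝔫 hτ𝔫 ?_ h1')
      rw [map_inv₀]
      exact h

/-- non-units correspond under a ring endomorphism `w` with `w x ∈ Wa ↔ x ∈ Wb` -/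
theorem s36sl_nu (w : F →+* F) (Wa Wb : ValuationSubring F)
    (hwa : ∀ x : F, w x ∈ Wa ↔ x ∈ Wb) (x : F) : w x ∈ Wa.nonunits ↔ x ∈ Wb.nonunits := by
  rw [ValuationSubring.mem_nonunits_iff_or, ValuationSubring.mem_nonunits_iff_or, ← hwa x⁻¹,
    map_inv₀, map_eq_zero]

/-- back direction: `y ∈ O` with `w y ∈ 𝔫' O'_𝔫'` lies in `𝔫` -/
theorem s36sl_back (w : F →+* F) (hww : ∀ x : F, w (w x) = x) (O O' : Subalgebra A F)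
    (𝔫 : Ideal ↥O) [h𝔫 : 𝔫.IsPrime] (𝔫' : Ideal ↥O')
    (hmaxi : ∀ x : F, (∃ a s : ↥O', a ∈ 𝔫' ∧ s ∉ 𝔫' ∧ x * (s : F) = (a : F)) ↔
      ∃ a s : ↥O, a ∈ 𝔫 ∧ s ∉ 𝔫 ∧ w x * (s : F) = (a : F))
    (y : ↥O) (hy : ∃ a s : ↥O', a ∈ 𝔫' ∧ s ∉ 𝔫' ∧ w (y : F) * (s : F) = (a : F)) : y ∈ 𝔫 := by
  have h1 := (hmaxi (w (y : F))).mp hy
  rw [hww] at h1
  exact s36ob_mem_of_max O 𝔫 y h1

/-- **Through-transfer.**  A valuation ring `W ⊇ O` with `w (O') ⊆ W` passes through `𝔫` iff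
`W.comap w` passes through the swapped point `𝔫'` (element form). -/
theorem s36sl_thr (w : F →+* F) (hww : ∀ x : F, w (w x) = x) (O O' : Subalgebra A F)
    (𝔫 : Ideal ↥O) [h𝔫 : 𝔫.IsPrime] (𝔫' : Ideal ↥O') [h𝔫' : 𝔫'.IsPrime]
    (hmem : ∀ x : ↥O', x ∈ 𝔫' ↔ ∃ a s : ↥O, a ∈ 𝔫 ∧ s ∉ 𝔫 ∧ w (x : F) * (s : F) = (a : F))
    (hloc : ∀ x : F, (∃ a s : ↥O', s ∉ 𝔫' ∧ x * (s : F) = (a : F)) ↔
      ∃ a s : ↥O, s ∉ 𝔫 ∧ w x * (s : F) = (a : F))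
    (hmaxi : ∀ x : F, (∃ a s : ↥O', a ∈ 𝔫' ∧ s ∉ 𝔫' ∧ x * (s : F) = (a : F)) ↔
      ∃ a s : ↥O, a ∈ 𝔫 ∧ s ∉ 𝔫 ∧ w x * (s : F) = (a : F))
    (W : ValuationSubring F) (hOW : ∀ x ∈ O, x ∈ W) (hO'W : ∀ x ∈ O', w x ∈ W) :
    (∀ x : ↥O, (x : F) ∈ W.nonunits → x ∈ 𝔫) ↔
      (∀ x : ↥O', w (x : F) ∈ W.nonunits → x ∈ 𝔫') := by
  constructor
  · intro hthr x hx
    rw [hmem]
    have h1 : ∃ a s : ↥O', s ∉ 𝔫' ∧ (x : F) * (s : F) = (a : F) :=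
      ⟨x, 1, fun h => h𝔫'.ne_top ((Ideal.eq_top_iff_one 𝔫').mpr h), by
        rw [Subalgebra.coe_one, mul_one]⟩
    obtain ⟨a, s, hs, e⟩ := (hloc (x : F)).mp h1
    refine ⟨a, s, hthr a ?_, hs, e⟩
    rw [← e]
    exact cz_nonunits_mul W hx (hOW _ s.2)
  · intro hthr y hy
    have h1 : ∃ a s : ↥O, s ∉ 𝔫 ∧ w (w (y : F)) * (s : F) = (a : F) :=
      ⟨y, 1, fun h => h𝔫.ne_top ((Ideal.eq_top_iff_one 𝔫).mpr h), by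
        rw [hww, Subalgebra.coe_one, mul_one]⟩
    obtain ⟨a, s, hs, e⟩ := (hloc (w (y : F))).mpr h1
    refine s36sl_back w hww O O' 𝔫 𝔫' hmaxi y ⟨a, s, hthr a ?_, hs, e⟩
    rw [← e, map_mul, hww]
    exact cz_nonunits_mul W hy (hO'W _ s.2)

/-- **Point types at the swapped point.**  `w` exchanges `Wa`, `Wb` and fixes `Wc`; the charts
`O`, `O'` lie in the three valuation rings.  The swapped point `𝔫'` of `𝔫` is on `Wb` iff `𝔫` is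
on `Wa`, on `Wa` iff `𝔫` is on `Wb`, on `Wc` iff `𝔫` is on `Wc`. -/
theorem s36sl_types (τ : A) (w : F →+* F) (hww : ∀ x : F, w (w x) = x)
    (Wa Wb Wc : ValuationSubring F)
    (hwa : ∀ x : F, w x ∈ Wa ↔ x ∈ Wb) (hwc : ∀ x : F, w x ∈ Wc ↔ x ∈ Wc)
    (O O' : Subalgebra A F)
    (hO : ∀ x ∈ O, x ∈ Wa ∧ x ∈ Wb ∧ x ∈ Wc) (hO' : ∀ x ∈ O', x ∈ Wa ∧ x ∈ Wb ∧ x ∈ Wc)
    (𝔫 : Ideal ↥O) (h𝔫 : 𝔫.IsPrime) (h : S36slPt τ w O 𝔫 O') :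
    ∃ 𝔫' : Ideal ↥O', 𝔫'.IsMaximal ∧ algebraMap A ↥O' τ ∈ 𝔫' ∧
      (∀ x : ↥O', x ∈ 𝔫' ↔ ∃ a s : ↥O, a ∈ 𝔫 ∧ s ∉ 𝔫 ∧ w (x : F) * (s : F) = (a : F)) ∧
      (∀ x : F, (∃ a s : ↥O', s ∉ 𝔫' ∧ x * (s : F) = (a : F)) ↔
        ∃ a s : ↥O, s ∉ 𝔫 ∧ w x * (s : F) = (a : F)) ∧
      (∀ x : F, (∃ a s : ↥O', a ∈ 𝔫' ∧ s ∉ 𝔫' ∧ x * (s : F) = (a : F)) ↔
        ∃ a s : ↥O, a ∈ 𝔫 ∧ s ∉ 𝔫 ∧ w x * (s : F) = (a : F)) ∧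
      ((∀ x : ↥O, (x : F) ∈ Wa.nonunits → x ∈ 𝔫) ↔
        (∀ x : ↥O', (x : F) ∈ Wb.nonunits → x ∈ 𝔫')) ∧
      ((∀ x : ↥O, (x : F) ∈ Wb.nonunits → x ∈ 𝔫) ↔
        (∀ x : ↥O', (x : F) ∈ Wa.nonunits → x ∈ 𝔫')) ∧
      ((∀ x : ↥O, (x : F) ∈ Wc.nonunits → x ∈ 𝔫) ↔
        (∀ x : ↥O', (x : F) ∈ Wc.nonunits → x ∈ 𝔫')) := by
  obtain ⟨𝔫', hmax', hτ', hmem, hloc, hmaxi⟩ := h
  haveI := h𝔫
  haveI h𝔫'p : 𝔫'.IsPrime := hmax'.isPrime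
  have hwb : ∀ x : F, w x ∈ Wb ↔ x ∈ Wa := by
    intro x
    have h1 := hwa (w x)
    rw [hww] at h1
    exact h1.symm
  have hna := s36sl_nu w Wa Wb hwa
  have hnb := s36sl_nu w Wb Wa hwb
  have hnc := s36sl_nu w Wc Wc hwc
  refine ⟨𝔫', hmax', hτ', hmem, hloc, hmaxi, ?_, ?_, ?_⟩
  · have h1 := s36sl_thr w hww O O' 𝔫 𝔫' hmem hloc hmaxi Wa (fun x hx => (hO x hx).1)
      (fun x hx => (hwa x).mpr (hO' x hx).2.1)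
    rw [h1]
    exact ⟨fun h2 x hx => h2 x ((hna _).mpr hx), fun h2 x hx => h2 x ((hna _).mp hx)⟩
  · have h1 := s36sl_thr w hww O O' 𝔫 𝔫' hmem hloc hmaxi Wb (fun x hx => (hO x hx).2.1)
      (fun x hx => (hwb x).mpr (hO' x hx).1)
    rw [h1]
    exact ⟨fun h2 x hx => h2 x ((hnb _).mpr hx), fun h2 x hx => h2 x ((hnb _).mp hx)⟩
  · have h1 := s36sl_thr w hww O O' 𝔫 𝔫' hmem hloc hmaxi Wc (fun x hx => (hO x hx).2.2)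
      (fun x hx => (hwc x).mpr (hO' x hx).2.2)
    rw [h1]
    exact ⟨fun h2 x hx => h2 x ((hnc _).mpr hx), fun h2 x hx => h2 x ((hnc _).mp hx)⟩

/-- **`hac` from `hbc`, abstract.**  On the two charts `chtO A {t}`, `chtO A {t⁻¹}`: if every
closed point over `τ` on `Wb` and `Wc` is on `Wa` (`hbc`, both charts), then every closed point
over `τ` on `Wa` and `Wc` is on `Wb` (`hac`, both charts) — the clause `hbc` at the swapped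
point. -/
theorem s36sl_hac (τ : A) (hτA : ∀ a : A, a ∉ Ideal.span {τ} → IsUnit a)
    (w : F →+* F) (hwA : ∀ a : A, w (algebraMap A F a) = algebraMap A F a)
    (hww : ∀ x : F, w (w x) = x) (t : F)
    (hdom : (∀ 𝔫 : Ideal ↥(chtO A {t}), 𝔫.IsPrime → algebraMap A ↥(chtO A {t}) τ ∈ 𝔫 →
        (∃ a s : ↥(chtO A {t}), s ∉ 𝔫 ∧ w t * (s : F) = a) ∨
        (∃ a s : ↥(chtO A {t}), s ∉ 𝔫 ∧ (w t)⁻¹ * (s : F) = a)) ∧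
      (∀ 𝔫 : Ideal ↥(chtO A {t⁻¹}), 𝔫.IsPrime → algebraMap A ↥(chtO A {t⁻¹}) τ ∈ 𝔫 →
        (∃ a s : ↥(chtO A {t⁻¹}), s ∉ 𝔫 ∧ w t * (s : F) = a) ∨
        (∃ a s : ↥(chtO A {t⁻¹}), s ∉ 𝔫 ∧ (w t)⁻¹ * (s : F) = a)))
    (Wa Wb Wc : ValuationSubring F)
    (hwa : ∀ x : F, w x ∈ Wa ↔ x ∈ Wb) (hwc : ∀ x : F, w x ∈ Wc ↔ x ∈ Wc)
    (hO₀ : ∀ x ∈ chtO A {t}, x ∈ Wa ∧ x ∈ Wb ∧ x ∈ Wc)
    (hO₁ : ∀ x ∈ chtO A {t⁻¹}, x ∈ Wa ∧ x ∈ Wb ∧ x ∈ Wc)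
    (hbc : (∀ 𝔫 : Ideal ↥(chtO A {t}), 𝔫.IsMaximal → algebraMap A ↥(chtO A {t}) τ ∈ 𝔫 →
        (∀ x : ↥(chtO A {t}), (x : F) ∈ Wb.nonunits → x ∈ 𝔫) →
        (∀ x : ↥(chtO A {t}), (x : F) ∈ Wc.nonunits → x ∈ 𝔫) →
        ∀ x : ↥(chtO A {t}), (x : F) ∈ Wa.nonunits → x ∈ 𝔫) ∧
      (∀ 𝔫 : Ideal ↥(chtO A {t⁻¹}), 𝔫.IsMaximal → algebraMap A ↥(chtO A {t⁻¹}) τ ∈ 𝔫 →
        (∀ x : ↥(chtO A {t⁻¹}), (x : F) ∈ Wb.nonunits → x ∈ 𝔫) →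
        (∀ x : ↥(chtO A {t⁻¹}), (x : F) ∈ Wc.nonunits → x ∈ 𝔫) →
        ∀ x : ↥(chtO A {t⁻¹}), (x : F) ∈ Wa.nonunits → x ∈ 𝔫)) :
    (∀ 𝔫 : Ideal ↥(chtO A {t}), 𝔫.IsMaximal → algebraMap A ↥(chtO A {t}) τ ∈ 𝔫 →
      (∀ x : ↥(chtO A {t}), (x : F) ∈ Wa.nonunits → x ∈ 𝔫) →
      (∀ x : ↥(chtO A {t}), (x : F) ∈ Wc.nonunits → x ∈ 𝔫) →
      ∀ x : ↥(chtO A {t}), (x : F) ∈ Wb.nonunits → x ∈ 𝔫) ∧
    (∀ 𝔫 : Ideal ↥(chtO A {t⁻¹}), 𝔫.IsMaximal → algebraMap A ↥(chtO A {t⁻¹}) τ ∈ 𝔫 →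
      (∀ x : ↥(chtO A {t⁻¹}), (x : F) ∈ Wa.nonunits → x ∈ 𝔫) →
      (∀ x : ↥(chtO A {t⁻¹}), (x : F) ∈ Wc.nonunits → x ∈ 𝔫) →
      ∀ x : ↥(chtO A {t⁻¹}), (x : F) ∈ Wb.nonunits → x ∈ 𝔫) := by
  obtain ⟨hbc₀, hbc₁⟩ := hbc
  obtain ⟨hm₀, hm₁⟩ := s36sl_main τ hτA w hwA hww t hdom
  refine ⟨fun 𝔫 h𝔫 hτ𝔫 ha hc => ?_, fun 𝔫 h𝔫 hτ𝔫 ha hc => ?_⟩
  · rcases hm₀ 𝔫 h𝔫 hτ𝔫 with h | h
    · obtain ⟨𝔫', hmax', hτ', -, -, -, hab', hba', hcc'⟩ :=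
        s36sl_types τ w hww Wa Wb Wc hwa hwc _ _ hO₀ hO₀ 𝔫 h𝔫.isPrime h
      exact hba'.mpr (hbc₀ 𝔫' hmax' hτ' (hab'.mp ha) (hcc'.mp hc))
    · obtain ⟨𝔫', hmax', hτ', -, -, -, hab', hba', hcc'⟩ :=
        s36sl_types τ w hww Wa Wb Wc hwa hwc _ _ hO₀ hO₁ 𝔫 h𝔫.isPrime h
      exact hba'.mpr (hbc₁ 𝔫' hmax' hτ' (hab'.mp ha) (hcc'.mp hc))
  · rcases hm₁ 𝔫 h𝔫 hτ𝔫 with h | h
    · obtain ⟨𝔫', hmax', hτ', -, -, -, hab', hba', hcc'⟩ :=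
        s36sl_types τ w hww Wa Wb Wc hwa hwc _ _ hO₁ hO₀ 𝔫 h𝔫.isPrime h
      exact hba'.mpr (hbc₀ 𝔫' hmax' hτ' (hab'.mp ha) (hcc'.mp hc))
    · obtain ⟨𝔫', hmax', hτ', -, -, -, hab', hba', hcc'⟩ :=
        s36sl_types τ w hww Wa Wb Wc hwa hwc _ _ hO₁ hO₁ 𝔫 h𝔫.isPrime h
      exact hba'.mpr (hbc₁ 𝔫' hmax' hτ' (hab'.mp ha) (hcc'.mp hc))

end Abs

/-! ### Carrier: level `M q²`, the swap `w₂ = s36v3Swap M q hM K0` -/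

section Car

variable (M q : ℕ) [NeZero M] [hq : Fact q.Prime] (hM : ¬ q ∣ M)
  (K0 : Type*) [Field K0] [Algebra ℚ K0] [Algebra K0 Qb]
  (A0 : ValuationSubring K0) [IsDiscreteValuationRing ↥A0]
  {a2 : ℕ} (H : HauptRec a2 q)

omit [IsDiscreteValuationRing ↥A0] in
/-- the swap fixes the base ring `A0` -/
theorem s36sl_swap_A
    [Algebra A0 ↥(laurentBaseChange K0 (modularFunctionFieldFull (M * q * q)))]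
    [IsScalarTower A0 K0 ↥(laurentBaseChange K0 (modularFunctionFieldFull (M * q * q)))]
    (a : A0) :
    s36v3Swap M q hM K0
        (algebraMap A0 ↥(laurentBaseChange K0 (modularFunctionFieldFull (M * q * q))) a)
      = algebraMap A0 ↥(laurentBaseChange K0 (modularFunctionFieldFull (M * q * q))) a := by
  rw [IsScalarTower.algebraMap_apply A0 K0
    ↥(laurentBaseChange K0 (modularFunctionFieldFull (M * q * q))), s36v3Swap_const]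

/-- **SWAP-LOC-ISO at the carrier**: every closed point `𝔫 ∋ τ` of either Hauptmodul chart of
level `M q²` has a swapped closed point on one of the two charts (binders of `s36sw_dom`). -/
theorem s36sl_car (ha2 : a2 ∣ M) (hA0 : A0.LiesOverPrime q)
    [Algebra A0 ↥(laurentBaseChange K0 (modularFunctionFieldFull (M * q * q)))]
    [IsScalarTower A0 K0 ↥(laurentBaseChange K0 (modularFunctionFieldFull (M * q * q)))]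
    (c0 c1 : A0) (hc : IsLocalRing.residue A0 c0 ≠ IsLocalRing.residue A0 c1)
    (hQ0 : smi2U A0 (aeval (c0 : K0) H.Qrad)) (hQ1 : smi2U A0 (aeval (c1 : K0) H.Qrad))
    (t : ↥(laurentBaseChange K0 (modularFunctionFieldFull (M * q * q))))
    (ht : (t : LaurentSeries K0) = cinstU H K0 (c0 : K0) (c1 : K0))
    (τ : A0) (hτ : Irreducible τ) :
    (∀ 𝔫 : Ideal ↥(chtO A0 {t}), 𝔫.IsMaximal → algebraMap A0 ↥(chtO A0 {t}) τ ∈ 𝔫 →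
      S36slPt τ (s36v3Swap M q hM K0) (chtO A0 {t}) 𝔫 (chtO A0 {t}) ∨
        S36slPt τ (s36v3Swap M q hM K0) (chtO A0 {t}) 𝔫 (chtO A0 {t⁻¹})) ∧
    (∀ 𝔫 : Ideal ↥(chtO A0 {t⁻¹}), 𝔫.IsMaximal → algebraMap A0 ↥(chtO A0 {t⁻¹}) τ ∈ 𝔫 →
      S36slPt τ (s36v3Swap M q hM K0) (chtO A0 {t⁻¹}) 𝔫 (chtO A0 {t}) ∨
        S36slPt τ (s36v3Swap M q hM K0) (chtO A0 {t⁻¹}) 𝔫 (chtO A0 {t⁻¹})) :=
  s36sl_main τ (s36cm_unit_of_notMem A0 τ hτ) (s36v3Swap M q hM K0)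
    (s36sl_swap_A M q hM K0 A0) (s36v3Swap_swap M q hM K0) t
    (s36sw_dom M q hM K0 A0 H ha2 hA0 c0 c1 hc hQ0 hQ1 t ht τ hτ)

/-- **(Max) at the carrier**, in the shape of the hypothesis `hmaxc` of `s36tj_main`: for charts
`O, O' ∈ {chtO A0 {t}, chtO A0 {t⁻¹}}` and a closed point `𝔫 ∋ τ` of `O` with
`w₂ (O') ⊆ O_𝔫`, the centre of `O_𝔫` on `O'` is a maximal ideal. -/
theorem s36sl_car_max
    [Algebra A0 ↥(laurentBaseChange K0 (modularFunctionFieldFull (M * q * q)))]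
    [IsScalarTower A0 K0 ↥(laurentBaseChange K0 (modularFunctionFieldFull (M * q * q)))]
    (t : ↥(laurentBaseChange K0 (modularFunctionFieldFull (M * q * q))))
    (τ : A0) (hτ : Irreducible τ)
    (O O' : Subalgebra A0 ↥(laurentBaseChange K0 (modularFunctionFieldFull (M * q * q))))
    (hO : O = chtO A0 {t} ∨ O = chtO A0 {t⁻¹}) (hO' : O' = chtO A0 {t} ∨ O' = chtO A0 {t⁻¹})
    (𝔫 : Ideal ↥O) (h𝔫 : 𝔫.IsMaximal) (hτ𝔫 : algebraMap A0 ↥O τ ∈ 𝔫)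
    (hsub : ∀ x ∈ O', s36v3Swap M q hM K0 x ∈ @ndrLoc A0 _ _ _ _ O 𝔫 h𝔫.isPrime)
    (𝔭 : Ideal ↥O')
    (h𝔭 : ∀ x : ↥O', x ∈ 𝔭 ↔ ∃ a s : ↥O, a ∈ 𝔫 ∧ s ∉ 𝔫 ∧
      s36v3Swap M q hM K0 (x : ↥(laurentBaseChange K0 (modularFunctionFieldFull (M * q * q))))
        * (s : ↥(laurentBaseChange K0 (modularFunctionFieldFull (M * q * q)))) = (a : _)) :
    𝔭.IsMaximal ∧ algebraMap A0 ↥O' τ ∈ 𝔭 := by
  rcases hO with rfl | rfl <;> rcases hO' with rfl | rfl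
  · exact s36sl_max' τ (s36cm_unit_of_notMem A0 τ hτ) (s36v3Swap M q hM K0)
      (s36sl_swap_A M q hM K0 A0) t t 𝔫 h𝔫 hτ𝔫 hsub 𝔭 h𝔭
  · exact s36sl_max' τ (s36cm_unit_of_notMem A0 τ hτ) (s36v3Swap M q hM K0)
      (s36sl_swap_A M q hM K0 A0) t t⁻¹ 𝔫 h𝔫 hτ𝔫 hsub 𝔭 h𝔭
  · exact s36sl_max' τ (s36cm_unit_of_notMem A0 τ hτ) (s36v3Swap M q hM K0)
      (s36sl_swap_A M q hM K0 A0) t⁻¹ t 𝔫 h𝔫 hτ𝔫 hsub 𝔭 h𝔭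
  · exact s36sl_max' τ (s36cm_unit_of_notMem A0 τ hτ) (s36v3Swap M q hM K0)
      (s36sl_swap_A M q hM K0 A0) t⁻¹ t⁻¹ 𝔫 h𝔫 hτ𝔫 hsub 𝔭 h𝔭

/-- **`hac` at the carrier from `hbc`** (both charts; the binders `hac`, `hbc` of `s36k3_point`
at `(W_a, W_b, W_c) = (va2V1 (M q) q, s36v3Wb, s36v3Wc)`): a closed point over `τ` on `W_a` and
`W_c` is on `W_b`. -/
theorem s36sl_car_hac (ha2 : a2 ∣ M) (hA0 : A0.LiesOverPrime q)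
    (hunr : ∀ x ∈ A0.nonunits, x * ((q : ℕ) : K0)⁻¹ ∈ A0)
    [Algebra A0 ↥(laurentBaseChange K0 (modularFunctionFieldFull (M * q * q)))]
    [IsScalarTower A0 K0 ↥(laurentBaseChange K0 (modularFunctionFieldFull (M * q * q)))]
    (c0 c1 : A0) (hc : IsLocalRing.residue A0 c0 ≠ IsLocalRing.residue A0 c1)
    (hQ0 : smi2U A0 (aeval (c0 : K0) H.Qrad)) (hQ1 : smi2U A0 (aeval (c1 : K0) H.Qrad))
    (t : ↥(laurentBaseChange K0 (modularFunctionFieldFull (M * q * q))))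
    (ht : (t : LaurentSeries K0) = cinstU H K0 (c0 : K0) (c1 : K0))
    (τ : A0) (hτ : Irreducible τ)
    (hO₀ : ∀ x ∈ chtO A0 {t}, x ∈ va2V1 (M * q) q K0 A0 ∧ x ∈ s36v3Wb M q hM K0 A0 ∧
      x ∈ s36v3Wc M q hM K0 A0)
    (hO₁ : ∀ x ∈ chtO A0 {t⁻¹}, x ∈ va2V1 (M * q) q K0 A0 ∧ x ∈ s36v3Wb M q hM K0 A0 ∧
      x ∈ s36v3Wc M q hM K0 A0)
    (hbc : (∀ 𝔫 : Ideal ↥(chtO A0 {t}), 𝔫.IsMaximal → algebraMap A0 ↥(chtO A0 {t}) τ ∈ 𝔫 →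
        (∀ x : ↥(chtO A0 {t}), (x : ↥(laurentBaseChange K0 (modularFunctionFieldFull (M * q * q))))
          ∈ (s36v3Wb M q hM K0 A0).nonunits → x ∈ 𝔫) →
        (∀ x : ↥(chtO A0 {t}), (x : ↥(laurentBaseChange K0 (modularFunctionFieldFull (M * q * q))))
          ∈ (s36v3Wc M q hM K0 A0).nonunits → x ∈ 𝔫) →
        ∀ x : ↥(chtO A0 {t}), (x : ↥(laurentBaseChange K0 (modularFunctionFieldFull (M * q * q))))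
          ∈ (va2V1 (M * q) q K0 A0).nonunits → x ∈ 𝔫) ∧
      (∀ 𝔫 : Ideal ↥(chtO A0 {t⁻¹}), 𝔫.IsMaximal → algebraMap A0 ↥(chtO A0 {t⁻¹}) τ ∈ 𝔫 →
        (∀ x : ↥(chtO A0 {t⁻¹}),
          (x : ↥(laurentBaseChange K0 (modularFunctionFieldFull (M * q * q))))
            ∈ (s36v3Wb M q hM K0 A0).nonunits → x ∈ 𝔫) →
        (∀ x : ↥(chtO A0 {t⁻¹}),
          (x : ↥(laurentBaseChange K0 (modularFunctionFieldFull (M * q * q))))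
            ∈ (s36v3Wc M q hM K0 A0).nonunits → x ∈ 𝔫) →
        ∀ x : ↥(chtO A0 {t⁻¹}),
          (x : ↥(laurentBaseChange K0 (modularFunctionFieldFull (M * q * q))))
            ∈ (va2V1 (M * q) q K0 A0).nonunits → x ∈ 𝔫)) :
    (∀ 𝔫 : Ideal ↥(chtO A0 {t}), 𝔫.IsMaximal → algebraMap A0 ↥(chtO A0 {t}) τ ∈ 𝔫 →
      (∀ x : ↥(chtO A0 {t}), (x : ↥(laurentBaseChange K0 (modularFunctionFieldFull (M * q * q))))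
        ∈ (va2V1 (M * q) q K0 A0).nonunits → x ∈ 𝔫) →
      (∀ x : ↥(chtO A0 {t}), (x : ↥(laurentBaseChange K0 (modularFunctionFieldFull (M * q * q))))
        ∈ (s36v3Wc M q hM K0 A0).nonunits → x ∈ 𝔫) →
      ∀ x : ↥(chtO A0 {t}), (x : ↥(laurentBaseChange K0 (modularFunctionFieldFull (M * q * q))))
        ∈ (s36v3Wb M q hM K0 A0).nonunits → x ∈ 𝔫) ∧
    (∀ 𝔫 : Ideal ↥(chtO A0 {t⁻¹}), 𝔫.IsMaximal → algebraMap A0 ↥(chtO A0 {t⁻¹}) τ ∈ 𝔫 →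
      (∀ x : ↥(chtO A0 {t⁻¹}),
        (x : ↥(laurentBaseChange K0 (modularFunctionFieldFull (M * q * q))))
          ∈ (va2V1 (M * q) q K0 A0).nonunits → x ∈ 𝔫) →
      (∀ x : ↥(chtO A0 {t⁻¹}),
        (x : ↥(laurentBaseChange K0 (modularFunctionFieldFull (M * q * q))))
          ∈ (s36v3Wc M q hM K0 A0).nonunits → x ∈ 𝔫) →
      ∀ x : ↥(chtO A0 {t⁻¹}),
        (x : ↥(laurentBaseChange K0 (modularFunctionFieldFull (M * q * q))))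
          ∈ (s36v3Wb M q hM K0 A0).nonunits → x ∈ 𝔫) :=
  s36sl_hac τ (s36cm_unit_of_notMem A0 τ hτ) (s36v3Swap M q hM K0)
    (s36sl_swap_A M q hM K0 A0) (s36v3Swap_swap M q hM K0) t
    (s36sw_dom M q hM K0 A0 H ha2 hA0 c0 c1 hc hQ0 hQ1 t ht τ hτ)
    (va2V1 (M * q) q K0 A0) (s36v3Wb M q hM K0 A0) (s36v3Wc M q hM K0 A0)
    (s36vw_mem_Wa M q hM K0 A0) (s36vw_mem_Wc M q hM K0 A0 hA0 hunr) hO₀ hO₁ hbc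

end Car

end Fermat.Agent.S36
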