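import Mathlib

/-!
# S36, seam lemma SWAP-TYPE: type preservation for the transfer along the swap

Setting of the transfer of local data along an automorphism `w` (the swap): `O`, `O'` two charts
of the function field `F`, `𝔫` a closed point of `O` on the REDUCED component `Wb` only, and
`𝔫'` the contraction of `𝔫 O_𝔫` to `O'` along `w` (one-sided domination `w (O'_𝔫') ⊆ O_𝔫`).

* `s36sy_nu_of_mul`: the maximal ideal of a valuation ring is prime.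
* `s36sy_no_fac`: `τ` does not factor into two non-units at `𝔫'`: if `τ` generates the centre of
  `Wb` at `𝔫` (`hgen`; `τ` is then irreducible in `O_𝔫`), there are no `ξ, b ∈ 𝔫'`, `c ∉ 𝔫'`
  with `τ * c = ξ * b`.
* `s36sy_through`: `w (𝔪_Wa) ⊆ 𝔪_Wb` implies that `Wa` passes through `𝔫'`.
* `s36sy_fac_tri`: at a point on `Wa` and `Wb` where the centre of `Wa` is generated by an
  element `ξ` which is a unit of `Wb`, `τ` DOES factor: `τ * c = ξ' * b` with `ξ', b ∈ 𝔫'`,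
  `c ∉ 𝔫'`.
* `s36sy_off`: hence, in that situation, `Wb` does not pass through `𝔫'`.

So a point `𝔫'` obtained from a `Wb`-only point by the swap is not a triple point, hence (by the
classification of the points: exactly one component or all three) it is a `Wa`-only point.
-/

set_option autoImplicit false
set_option linter.unusedSectionVars false
set_option linter.unusedVariables false

namespace Fermat.Agent.S36

section SwapType

variable {A F : Type*} [CommRing A] [Field F] [Algebra A F]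

/-- the maximal ideal of a valuation ring is prime (element form) -/
theorem s36sy_nu_of_mul (V : ValuationSubring F) {x y : F} (hx : x ∈ V) (hy : y ∈ V)
    (h : x * y ∈ V.nonunits) : x ∈ V.nonunits ∨ y ∈ V.nonunits := by
  by_contra hcon
  rw [not_or] at hcon
  rw [ValuationSubring.mem_nonunits_iff] at h hcon
  rw [ValuationSubring.mem_nonunits_iff] at hcon
  have h1 : V.valuation x = 1 :=
    le_antisymm ((ValuationSubring.valuation_le_one_iff V x).mpr hx) (not_lt.mp hcon.1)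
  have h2 : V.valuation y = 1 :=
    le_antisymm ((ValuationSubring.valuation_le_one_iff V y).mpr hy) (not_lt.mp hcon.2)
  rw [map_mul, h1, h2, mul_one] at h
  exact lt_irrefl _ h

/-- a product with a factor in the maximal ideal and the other in the valuation ring lies in the
maximal ideal -/
theorem s36sy_nu_mul (V : ValuationSubring F) {x y : F} (hx : x ∈ V.nonunits) (hy : y ∈ V) :
    x * y ∈ V.nonunits := by
  rw [ValuationSubring.mem_nonunits_iff] at hx ⊢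
  rw [map_mul]
  have h2 : V.valuation y ≤ 1 := (ValuationSubring.valuation_le_one_iff V y).mpr hy
  calc V.valuation x * V.valuation y ≤ V.valuation x * 1 := by gcongr
    _ = V.valuation x := mul_one _
    _ < 1 := hx

/-- **SWAP-TYPE, the key lemma.**  `𝔫` a prime of `O` on `Wb` at which `τ` generates the centre
of `Wb` (`hgen`); `𝔫'` an ideal of `O'` with `w x ∈ 𝔫 O_𝔫` for `x ∈ 𝔫'` (`hloc`) and `w x` a unit
of `O_𝔫` for `x ∉ 𝔫'` (`hloc'`); `w τ = τ`.  Then `τ` has no factorisation `τ * c = ξ * b` with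
`ξ, b ∈ 𝔫'` and `c ∉ 𝔫'`. -/
theorem s36sy_no_fac (τ : A) (hτ0 : algebraMap A F τ ≠ 0) (O O' : Subalgebra A F)
    (w : F →+* F) (hwτ : w (algebraMap A F τ) = algebraMap A F τ)
    (Wb : ValuationSubring F) (hOWb : ∀ y ∈ O, y ∈ Wb)
    (hτWb : algebraMap A F τ ∈ Wb.nonunits)
    (𝔫 : Ideal ↥O) [h𝔫 : 𝔫.IsPrime]
    (h1 : ∀ x : ↥O, (x : F) ∈ Wb.nonunits → x ∈ 𝔫)
    (hgen : ∀ y : ↥O, (y : F) ∈ Wb.nonunits →
      ∃ b c : ↥O, c ∉ 𝔫 ∧ (y : F) * (c : F) = algebraMap A F τ * (b : F))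
    (𝔫' : Ideal ↥O')
    (hloc : ∀ x : ↥O', x ∈ 𝔫' → ∃ a s : ↥O, a ∈ 𝔫 ∧ s ∉ 𝔫 ∧ w (x : F) * (s : F) = (a : F))
    (hloc' : ∀ x : ↥O', x ∉ 𝔫' → ∃ a s : ↥O, a ∉ 𝔫 ∧ s ∉ 𝔫 ∧ w (x : F) * (s : F) = (a : F)) :
    ¬ ∃ ξ b c : ↥O', ξ ∈ 𝔫' ∧ b ∈ 𝔫' ∧ c ∉ 𝔫' ∧
      algebraMap A F τ * (c : F) = (ξ : F) * (b : F) := by
  rintro ⟨ξ, b, c, hξ, hb, hc, hfac⟩
  obtain ⟨a1, s1, ha1, hs1, e1⟩ := hloc ξ hξ
  obtain ⟨a2, s2, ha2, hs2, e2⟩ := hloc b hb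
  obtain ⟨a3, s3, ha3, hs3, e3⟩ := hloc' c hc
  -- the factorisation pushed into `O`
  have hw : algebraMap A F τ * w (c : F) = w (ξ : F) * w (b : F) := by
    have h0 := congrArg w hfac
    rw [map_mul, map_mul, hwτ] at h0
    exact h0
  have key : algebraMap A F τ * ((a3 : F) * (s1 : F) * (s2 : F)) =
      (a1 : F) * (a2 : F) * (s3 : F) := by
    rw [← e1, ← e2, ← e3]
    linear_combination ((s1 : F) * (s2 : F) * (s3 : F)) * hw
  have hmem : (a1 : F) * (a2 : F) * (s3 : F) ∈ Wb.nonunits := by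
    rw [← key]
    exact s36sy_nu_mul Wb hτWb
      (Wb.mul_mem _ _ (Wb.mul_mem _ _ (hOWb _ a3.2) (hOWb _ s1.2)) (hOWb _ s2.2))
  have hs3nu : (s3 : F) ∉ Wb.nonunits := fun h => hs3 (h1 s3 h)
  have h12 : (a1 : F) * (a2 : F) ∈ Wb.nonunits := by
    rcases s36sy_nu_of_mul Wb (Wb.mul_mem _ _ (hOWb _ a1.2) (hOWb _ a2.2)) (hOWb _ s3.2) hmem
      with h | h
    · exact h
    · exact absurd h hs3nu
  -- one of `a1`, `a2` is divisible by `τ` locally; cancel `τ`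
  rcases s36sy_nu_of_mul Wb (hOWb _ a1.2) (hOWb _ a2.2) h12 with h | h
  · obtain ⟨b1, c1, hc1, hb1⟩ := hgen a1 h
    have h3 : algebraMap A F τ * ((a3 : F) * (s1 : F) * (s2 : F) * (c1 : F)) =
        algebraMap A F τ * ((b1 : F) * (a2 : F) * (s3 : F)) := by
      linear_combination (c1 : F) * key + (a2 : F) * (s3 : F) * hb1
    have h4 : a3 * s1 * s2 * c1 = b1 * a2 * s3 := by
      apply Subtype.ext
      push_cast
      exact mul_left_cancel₀ hτ0 h3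
    have h5 : a3 * s1 * s2 * c1 ∈ 𝔫 := by
      rw [h4]
      exact 𝔫.mul_mem_right _ (𝔫.mul_mem_left _ ha2)
    rcases h𝔫.mem_or_mem h5 with h6 | h6
    · rcases h𝔫.mem_or_mem h6 with h7 | h7
      · rcases h𝔫.mem_or_mem h7 with h8 | h8
        · exact ha3 h8
        · exact hs1 h8
      · exact hs2 h7
    · exact hc1 h6
  · obtain ⟨b2, c2, hc2, hb2⟩ := hgen a2 h
    have h3 : algebraMap A F τ * ((a3 : F) * (s1 : F) * (s2 : F) * (c2 : F)) =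
        algebraMap A F τ * ((a1 : F) * (b2 : F) * (s3 : F)) := by
      linear_combination (c2 : F) * key + (a1 : F) * (s3 : F) * hb2
    have h4 : a3 * s1 * s2 * c2 = a1 * b2 * s3 := by
      apply Subtype.ext
      push_cast
      exact mul_left_cancel₀ hτ0 h3
    have h5 : a3 * s1 * s2 * c2 ∈ 𝔫 := by
      rw [h4]
      exact 𝔫.mul_mem_right _ (𝔫.mul_mem_right _ ha1)
    rcases h𝔫.mem_or_mem h5 with h6 | h6
    · rcases h𝔫.mem_or_mem h6 with h7 | h7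
      · rcases h𝔫.mem_or_mem h7 with h8 | h8
        · exact ha3 h8
        · exact hs1 h8
      · exact hs2 h7
    · exact hc2 h6

/-- `Wa` passes through the contracted point `𝔫'` as soon as `w (𝔪_Wa) ⊆ 𝔪_Wb`. -/
theorem s36sy_through (O O' : Subalgebra A F) (w : F →+* F)
    (Wa Wb : ValuationSubring F) (hOWb : ∀ y ∈ O, y ∈ Wb)
    (hw : ∀ x ∈ Wa.nonunits, w x ∈ Wb.nonunits)
    (𝔫 : Ideal ↥O) [h𝔫 : 𝔫.IsPrime]
    (h1 : ∀ x : ↥O, (x : F) ∈ Wb.nonunits → x ∈ 𝔫)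
    (𝔫' : Ideal ↥O')
    (hloc' : ∀ x : ↥O', x ∉ 𝔫' → ∃ a s : ↥O, a ∉ 𝔫 ∧ s ∉ 𝔫 ∧ w (x : F) * (s : F) = (a : F)) :
    ∀ x : ↥O', (x : F) ∈ Wa.nonunits → x ∈ 𝔫' := by
  intro x hx
  by_contra hcon
  obtain ⟨a, s, ha, hs, e⟩ := hloc' x hcon
  have h2 : (a : F) ∈ Wb.nonunits := by
    rw [← e]
    exact s36sy_nu_mul Wb (hw _ hx) (hOWb _ s.2)
  exact ha (h1 a h2)

/-- At a point `𝔫'` on `Wa` and `Wb` where the centre of `Wa` is generated by `ξ`, a unit of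
`Wb`, the constant `τ ∈ 𝔪_Wa ∩ 𝔪_Wb` factors into two non-units. -/
theorem s36sy_fac_tri (τ : A) (O' : Subalgebra A F)
    (Wa Wb : ValuationSubring F) (hOWa : ∀ y ∈ O', y ∈ Wa) (hOWb : ∀ y ∈ O', y ∈ Wb)
    (hτWa : algebraMap A F τ ∈ Wa.nonunits) (hτWb : algebraMap A F τ ∈ Wb.nonunits)
    (𝔫' : Ideal ↥O') [h𝔫' : 𝔫'.IsPrime]
    (ha : ∀ x : ↥O', (x : F) ∈ Wa.nonunits → x ∈ 𝔫')
    (hb : ∀ x : ↥O', (x : F) ∈ Wb.nonunits → x ∈ 𝔫')
    (ξ : F) (hξ0 : ξ ≠ 0) (hξWa : ξ ∈ Wa.nonunits) (hξWb : ξ⁻¹ ∈ Wb)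
    (hξO : ∃ a s : ↥O', s ∉ 𝔫' ∧ ξ * (s : F) = (a : F))
    (hprin : ∀ y : ↥O', (y : F) ∈ Wa.nonunits →
      ∃ b c : ↥O', c ∉ 𝔫' ∧ (y : F) * (c : F) = ξ * (b : F)) :
    ∃ ξ' b c : ↥O', ξ' ∈ 𝔫' ∧ b ∈ 𝔫' ∧ c ∉ 𝔫' ∧
      algebraMap A F τ * (c : F) = (ξ' : F) * (b : F) := by
  obtain ⟨a, s, hs, e⟩ := hξO
  have haWa : (a : F) ∈ Wa.nonunits := by
    rw [← e]
    exact s36sy_nu_mul Wa hξWa (hOWa _ s.2)
  have ha𝔫 : a ∈ 𝔫' := ha a haWa
  obtain ⟨b0, c, hc, e2⟩ := hprin (algebraMap A ↥O' τ) (by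
    show algebraMap A F τ ∈ Wa.nonunits
    exact hτWa)
  have e2' : algebraMap A F τ * (c : F) = ξ * (b0 : F) := e2
  have key : algebraMap A F τ * ((c : F) * (s : F)) = (a : F) * (b0 : F) := by
    rw [← e]
    linear_combination (s : F) * e2'
  refine ⟨a, b0, c * s, ha𝔫, ?_, ?_, ?_⟩
  · by_contra hb0
    -- `a * b0 ∈ 𝔪_Wb`, `b0 ∉ 𝔪_Wb`, so `a ∈ 𝔪_Wb`; but `a = ξ * s` is a unit of `Wb`
    have h1 : (a : F) * (b0 : F) ∈ Wb.nonunits := by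
      rw [← key]
      exact s36sy_nu_mul Wb hτWb (Wb.mul_mem _ _ (hOWb _ c.2) (hOWb _ s.2))
    have h2 : (a : F) ∈ Wb.nonunits := by
      rcases s36sy_nu_of_mul Wb (hOWb _ a.2) (hOWb _ b0.2) h1 with h | h
      · exact h
      · exact absurd (hb b0 h) hb0
    have h3 : (s : F) ∈ Wb.nonunits := by
      have e3 : (s : F) = (a : F) * ξ⁻¹ := by
        rw [← e]
        field_simp
      rw [e3]
      exact s36sy_nu_mul Wb h2 hξWb
    exact hs (hb s h3)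
  · intro h
    rcases h𝔫'.mem_or_mem h with h | h
    · exact hc h
    · exact hs h
  · push_cast
    exact key

/-- Consequence: in the situation of `s36sy_no_fac`, a point `𝔫'` on `Wa` at which the centre of
`Wa` is generated by a unit `ξ` of `Wb` is NOT on `Wb`. -/
theorem s36sy_off (τ : A) (hτ0 : algebraMap A F τ ≠ 0) (O O' : Subalgebra A F)
    (w : F →+* F) (hwτ : w (algebraMap A F τ) = algebraMap A F τ)
    (Wa Wb : ValuationSubring F) (hOWb : ∀ y ∈ O, y ∈ Wb)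
    (hO'Wa : ∀ y ∈ O', y ∈ Wa) (hO'Wb : ∀ y ∈ O', y ∈ Wb)
    (hτWa : algebraMap A F τ ∈ Wa.nonunits) (hτWb : algebraMap A F τ ∈ Wb.nonunits)
    (𝔫 : Ideal ↥O) [h𝔫 : 𝔫.IsPrime]
    (h1 : ∀ x : ↥O, (x : F) ∈ Wb.nonunits → x ∈ 𝔫)
    (hgen : ∀ y : ↥O, (y : F) ∈ Wb.nonunits →
      ∃ b c : ↥O, c ∉ 𝔫 ∧ (y : F) * (c : F) = algebraMap A F τ * (b : F))
    (𝔫' : Ideal ↥O') [h𝔫' : 𝔫'.IsPrime]
    (hloc : ∀ x : ↥O', x ∈ 𝔫' → ∃ a s : ↥O, a ∈ 𝔫 ∧ s ∉ 𝔫 ∧ w (x : F) * (s : F) = (a : F))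
    (hloc' : ∀ x : ↥O', x ∉ 𝔫' → ∃ a s : ↥O, a ∉ 𝔫 ∧ s ∉ 𝔫 ∧ w (x : F) * (s : F) = (a : F))
    (ha : ∀ x : ↥O', (x : F) ∈ Wa.nonunits → x ∈ 𝔫')
    (ξ : F) (hξ0 : ξ ≠ 0) (hξWa : ξ ∈ Wa.nonunits) (hξWb : ξ⁻¹ ∈ Wb)
    (hξO : ∃ a s : ↥O', s ∉ 𝔫' ∧ ξ * (s : F) = (a : F))
    (hprin : ∀ y : ↥O', (y : F) ∈ Wa.nonunits →
      ∃ b c : ↥O', c ∉ 𝔫' ∧ (y : F) * (c : F) = ξ * (b : F)) :
    ¬ ∀ x : ↥O', (x : F) ∈ Wb.nonunits → x ∈ 𝔫' := by
  intro hb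
  exact s36sy_no_fac τ hτ0 O O' w hwτ Wb hOWb hτWb 𝔫 h1 hgen 𝔫' hloc hloc'
    (s36sy_fac_tri τ O' Wa Wb hO'Wa hO'Wb hτWa hτWb 𝔫' ha hb ξ hξ0 hξWa hξWb hξO hprin)

end SwapType

end Fermat.Agent.S36
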