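/-
S36, family D (NORMRES-TORIC), leaf [TORIC3-RING] (ring half of TORIC3-PT, finding 244).
Mathlib + S35/AbsNorm + S36/Toric3Lift.  Prefix `s36tr_`.

`s36tr_main`: at a triple point with local ring `R ⊆ Wa ∩ Wb ∩ Wc` (locality and
`P_c ⊆ P_a + P_b` in the element form of `S36Tri`), given units `ε ε'` of `R` and `a1 b1 ∈ R`
with `a1 ε' ≡ 1` on `Wa`, `b1 ε ≡ 1` on `Wb`, `ε^q a1 ≡ κ b1 ε'^q` on `Wc` (the toric relation),
the three elements `Ga = ε'^((q+1)e)`, `Gb = ε^((q+1)e) κ⁻ᵉ`, `Gc = (ε^q a1)^(q+1) κ^(-q)` whose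
`m`-th powers are congruent to a common `v ∈ R` on `Wa`, `Wb`, `Wc` respectively are the
reductions of ONE unit `x0` of `R`.
-/
import Mathlib
import Fermat.Agent.S35.AbsNorm
import Fermat.Agent.S36.Toric3Lift

set_option autoImplicit false
set_option linter.unusedVariables false

namespace Fermat.Agent.S36

open Fermat.Agent.S35

section Ring

variable {F : Type*} [Field F]

/-- the ideal of the subring `R ⊆ W` cut out by the maximal ideal of `W` -/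
def s36trP (R : Subring F) (W : ValuationSubring F) (hRW : ∀ x ∈ R, x ∈ W) : Ideal ↥R where
  carrier := {x | (x : F) ∈ W.nonunits}
  add_mem' := fun ha hb => s35n_nu_add W ha hb
  zero_mem' := s35n_nu_zero W
  smul_mem' := fun c _ hx => s35n_nu_mul W (hRW c c.2) hx

theorem s36trP_mem (R : Subring F) (W : ValuationSubring F) (hRW : ∀ x ∈ R, x ∈ W) (x : ↥R) :
    x ∈ s36trP R W hRW ↔ (x : F) ∈ W.nonunits := Iff.rfl

variable {A : Type*} [CommRing A] [Algebra A F]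

/-- **TORIC3, ring half at a triple point.** -/
theorem s36tr_main (Wa Wb Wc : ValuationSubring F) (q e m : ℕ) (hqe : q = e + 1)
    (hmA : IsUnit (m : A)) (R : Subring F)
    (hRW : ∀ x ∈ R, x ∈ Wa ∧ x ∈ Wb ∧ x ∈ Wc) (hRA : ∀ a : A, algebraMap A F a ∈ R)
    (hRloc : ∀ x ∈ R, x⁻¹ ∈ R → x ≠ 0 → ∀ p ∈ R, p ∈ Wa.nonunits → ∀ p' ∈ R,
      p' ∈ Wb.nonunits → x + p + p' ≠ 0 ∧ (x + p + p')⁻¹ ∈ R)
    (hRc : ∀ z ∈ R, z ∈ Wc.nonunits → ∃ p ∈ R, p ∈ Wa.nonunits ∧ ∃ p' ∈ R,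
      p' ∈ Wb.nonunits ∧ z = p + p')
    (ε ε' a1 b1 : F) (hε : ε ∈ R) (hε' : ε⁻¹ ∈ R) (hε0 : ε ≠ 0)
    (hη : ε' ∈ R) (hη' : ε'⁻¹ ∈ R) (hη0 : ε' ≠ 0) (ha1 : a1 ∈ R) (hb1 : b1 ∈ R)
    (κ κi : A) (hκ : κ * κi = 1)
    (h1 : a1 * ε' - 1 ∈ Wa.nonunits) (h2 : b1 * ε - 1 ∈ Wb.nonunits)
    (h3 : ε ^ q * a1 - algebraMap A F κ * b1 * ε' ^ q ∈ Wc.nonunits)
    (v : F) (hv : v ∈ R)
    (ha : (ε' ^ ((q + 1) * e)) ^ m - v ∈ Wa.nonunits)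
    (hb : (ε ^ ((q + 1) * e) * algebraMap A F κi ^ e) ^ m - v ∈ Wb.nonunits)
    (hc : ((ε ^ q * a1) ^ (q + 1) * algebraMap A F κi ^ q) ^ m - v ∈ Wc.nonunits) :
    ∃ x0 : F, x0 ∈ R ∧ x0⁻¹ ∈ R ∧ x0 ≠ 0 ∧
      x0 - ε' ^ ((q + 1) * e) ∈ Wa.nonunits ∧
      x0 - ε ^ ((q + 1) * e) * algebraMap A F κi ^ e ∈ Wb.nonunits ∧
      x0 - (ε ^ q * a1) ^ (q + 1) * algebraMap A F κi ^ q ∈ Wc.nonunits := by
  classical
  set Pa : Ideal ↥R := s36trP R Wa (fun x hx => (hRW x hx).1) with hPa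
  set Pb : Ideal ↥R := s36trP R Wb (fun x hx => (hRW x hx).2.1) with hPb
  set Pc : Ideal ↥R := s36trP R Wc (fun x hx => (hRW x hx).2.2) with hPc
  -- locality
  have hloc : ∀ x : ↥R, IsUnit x → ∀ y ∈ Pa ⊔ Pb, IsUnit (x + y) := by
    intro x hx y hy
    obtain ⟨p, hp, p', hp', rfl⟩ := Submodule.mem_sup.mp hy
    obtain ⟨xi, hxi⟩ := hx.exists_right_inv
    have hxi' : (x : F) * (xi : F) = 1 := congrArg Subtype.val hxi
    have hx0 : (x : F) ≠ 0 := left_ne_zero_of_mul_eq_one hxi'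
    have hxinv : (x : F)⁻¹ ∈ R := by
      rw [inv_eq_of_mul_eq_one_right hxi']
      exact xi.2
    obtain ⟨h0, hinv⟩ := hRloc x x.2 hxinv hx0 p p.2 hp p' p'.2 hp'
    refine IsUnit.of_mul_eq_one ⟨((x : F) + p + p')⁻¹, hinv⟩ ?_
    apply Subtype.ext
    show ((x : F) + ((p : F) + (p' : F))) * ((x : F) + p + p')⁻¹ = 1
    rw [← add_assoc]
    exact mul_inv_cancel₀ h0
  -- `m` is a unit of `R`
  have hmR : IsUnit ((m : ℕ) : ↥R) := by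
    obtain ⟨mi, hmi⟩ := hmA.exists_right_inv
    refine IsUnit.of_mul_eq_one ⟨algebraMap A F mi, hRA mi⟩ ?_
    apply Subtype.ext
    show ((m : ℕ) : F) * algebraMap A F mi = 1
    rw [← map_natCast (algebraMap A F) m, ← map_mul, hmi, map_one]
  -- the elements of `R`
  set xE : ↥R := ⟨ε, hε⟩ with hxE
  set xH : ↥R := ⟨ε', hη⟩ with hxH
  set xA : ↥R := ⟨a1, ha1⟩ with hxA
  set xB : ↥R := ⟨b1, hb1⟩ with hxB
  set xK : ↥R := ⟨algebraMap A F κ, hRA κ⟩ with hxK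
  set xKi : ↥R := ⟨algebraMap A F κi, hRA κi⟩ with hxKi
  -- the relations in the quotient
  have q1 : Ideal.Quotient.mk (Pa ⊔ Pb) xA * Ideal.Quotient.mk (Pa ⊔ Pb) xH = 1 := by
    rw [← map_mul, ← map_one (Ideal.Quotient.mk (Pa ⊔ Pb)), Ideal.Quotient.eq]
    exact Ideal.mem_sup_left h1
  have q2 : Ideal.Quotient.mk (Pa ⊔ Pb) xB * Ideal.Quotient.mk (Pa ⊔ Pb) xE = 1 := by
    rw [← map_mul, ← map_one (Ideal.Quotient.mk (Pa ⊔ Pb)), Ideal.Quotient.eq]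
    exact Ideal.mem_sup_right h2
  have q3 : Ideal.Quotient.mk (Pa ⊔ Pb) xE ^ q * Ideal.Quotient.mk (Pa ⊔ Pb) xA =
      Ideal.Quotient.mk (Pa ⊔ Pb) xK * Ideal.Quotient.mk (Pa ⊔ Pb) xB *
        Ideal.Quotient.mk (Pa ⊔ Pb) xH ^ q := by
    rw [← map_pow, ← map_pow, ← map_mul, ← map_mul, ← map_mul, Ideal.Quotient.eq]
    obtain ⟨p, hp, hpa, p', hp', hpb, hz⟩ :=
      hRc (ε ^ q * a1 - algebraMap A F κ * b1 * ε' ^ q)
        (xE ^ q * xA - xK * xB * xH ^ q : ↥R).2 h3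
    exact Submodule.mem_sup.mpr ⟨⟨p, hp⟩, hpa, ⟨p', hp'⟩, hpb, Subtype.ext hz.symm⟩
  have q4 : Ideal.Quotient.mk (Pa ⊔ Pb) xK * Ideal.Quotient.mk (Pa ⊔ Pb) xKi = 1 := by
    rw [← map_mul, ← map_one (Ideal.Quotient.mk (Pa ⊔ Pb))]
    congr 1
    apply Subtype.ext
    show algebraMap A F κ * algebraMap A F κi = 1
    rw [← map_mul, hκ, map_one]
  have key := s36tl_alg q e hqe _ _ _ _ _ _ q1 q2 q3 q4
  have hab : xH ^ ((q + 1) * e) - xE ^ ((q + 1) * e) * xKi ^ e ∈ Pa ⊔ Pb := by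
    rw [← Ideal.Quotient.eq, map_mul, map_pow, map_pow, map_pow]
    exact key.1.symm
  have hac : xH ^ ((q + 1) * e) - (xE ^ q * xA) ^ (q + 1) * xKi ^ q ∈ Pa ⊔ Pb := by
    rw [← Ideal.Quotient.eq, map_mul, map_pow, map_pow, map_pow, map_mul, map_pow]
    exact key.2.symm
  have hGaU : IsUnit (xH ^ ((q + 1) * e)) := by
    refine IsUnit.pow _ (IsUnit.of_mul_eq_one ⟨ε'⁻¹, hη'⟩ ?_)
    apply Subtype.ext
    exact mul_inv_cancel₀ hη0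
  obtain ⟨x0, hx0u, hxa, hxb, hxc⟩ := s36tl_lift Pa Pb Pc hloc m hmR
    (xH ^ ((q + 1) * e)) (xE ^ ((q + 1) * e) * xKi ^ e) ((xE ^ q * xA) ^ (q + 1) * xKi ^ q)
    ⟨v, hv⟩ hGaU hab hac ha hb hc
  obtain ⟨xi, hxi⟩ := hx0u.exists_right_inv
  have hxi' : (x0 : F) * (xi : F) = 1 := congrArg Subtype.val hxi
  refine ⟨x0, x0.2, ?_, left_ne_zero_of_mul_eq_one hxi', hxa, hxb, hxc⟩
  rw [inv_eq_of_mul_eq_one_right hxi']
  exact xi.2

end Ring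

end Fermat.Agent.S36
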