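import Fermat.Agent.S35.TorsAbs
import Fermat.Agent.S35.NewMainInst
import Fermat.Agent.S35.PushSquare

/-!
# S36, [TORS36]: from the class form of the geometric core to the front-end hypothesis

Level `M = L q²` (`q ∤ L`), auxiliary level `a^k L q²`.  Let `g` be a newform of level `M` and `I`
a set of Galois automorphisms.  Suppose (class form of the core, hypothesis `hKUM`) that every
`λ`-power torsion class `y` of `J₀(a^k L q²)` fixed by `I` and killed by the two degeneracy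
push-forwards to `J₀(a^k L q)` satisfies `c • y = 0`.  Then there are a Hecke polynomial `P` with
`χ_g(P(T)) ≠ 0` and `c' ≠ 0` such that `c' • P(T) y = 0` for every `λ`-power torsion class `y` of
`J₀(M)` fixed by `I`.

* `s36tm_elt` : the elementwise step, for levels `N q ∣ N' q` (the two norm squares of the level
  inclusions and the vanishing of `d • P(T)` on the torsion of `J₀(N)` are hypotheses);
* `s36tm_abs` : the statement at `N = L q`, `N' = a^k L q`, with the Hecke polynomial of the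
  newform (`nwm_main_mul`); the two norm squares are hypotheses.

Proof of `s36tm_elt`: `z := d • P(T) y` is `λ`-power torsion, fixed by `I` (`tsa_galois`) and
killed by both push-forwards to level `N` (`tsa_alpha_zero`, `tsa_beta_zero`); its pull-back to
level `N' q` is fixed by `I` (`lvl_smul`) and killed by both push-forwards to level `N'`
(`psq_alpha`, `psq_beta`); so `c • π^* z = 0`, and `π^*` is injective on torsion
(`lvl_injective_torsion`).

Names are prefixed `s36tm_`.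
-/

set_option autoImplicit false

open AlgebraicCurve ModularCurve CongruenceSubgroup CuspForm

namespace Fermat.Agent.S36

open Fermat.Agent.S31 Fermat.Agent.S35 Fermat.Agent.S37

local notation "Qb" => AlgebraicClosure ℚ

/-- **TORS36, elementwise step.** -/
theorem s36tm_elt (N N' q : ℕ) [NeZero N] [NeZero N'] [NeZero q] [NeZero (N * q)]
    [NeZero (N' * q)] (h : N ∣ N') (h' : N * q ∣ N' * q)
    (hnum : dedekindPsi (N' * q) * (N * q) < 2 * (N' * q) * dedekindPsi (N * q))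
    (hsqα : ∀ f : ↥(modularFunctionFieldBar (N * q)),
      hkdNorm N' q (lvlIncl (N * q) (N' * q) h' f) = lvlIncl N N' h (hkdNorm N q f))
    (hsqβ : ∀ f : ↥(modularFunctionFieldBar (N * q)),
      hkdNormBeta N' q (lvlIncl (N * q) (N' * q) h' f) = lvlIncl N N' h (hkdNormBeta N q f))
    (lam : ℕ) (hlam : lam.Prime) (S : Set ℕ) (hlamS : lam ∈ S)
    (P : FreeAlgebra ℤ (HresIdx (N * q) S)) (d : ℕ)
    (hP : ∀ (n : ℕ) (x : TrcX N (lam ^ n)),
      d • hresJ (fun l : HresIdx (N * q) S =>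
        trcTheta N (lam ^ n) S (nwmIdx S (dvd_mul_right N q) l)) P x = 0)
    (I : Set (Qb ≃ₐ[ℚ] Qb)) (c : ℕ)
    (hKUM : ∀ (n : ℕ) (y : JZero (N' * q)), lam ^ n • y = 0 → (∀ σ ∈ I, σ • y = y) →
      s35pAlpha N' q y = 0 → s35pBeta N' q y = 0 → c • y = 0)
    (n : ℕ) (y : JZero (N * q)) (hy : lam ^ n • y = 0) (hI : ∀ σ ∈ I, σ • y = y) :
    c • d • hresJ (fun l : HresIdx (N * q) S => heckeOperatorBar (N * q) ⟨l.1, l.2.1⟩) P y
      = 0 := by
  have hm : lam ^ n ≠ 0 := pow_ne_zero n hlam.ne_zero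
  obtain ⟨z, hz⟩ : ∃ z : JZero (N * q),
      z = d • hresJ (fun l : HresIdx (N * q) S => heckeOperatorBar (N * q) ⟨l.1, l.2.1⟩) P y :=
    ⟨_, rfl⟩
  rw [← hz]
  have hzt : lam ^ n • z = 0 := by
    rw [hz, smul_comm, ← map_nsmul, hy, map_zero, nsmul_zero]
  have hzα : s35pAlpha N q z = 0 := by
    rw [hz]
    exact tsa_alpha_zero N q S lam hlam hlamS P d n (hP n) y hy
  have hzβ : s35pBeta N q z = 0 := by
    rw [hz]
    exact tsa_beta_zero N q S lam hlam hlamS P d n (hP n) y hy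
  have hzI : ∀ σ ∈ I, σ • z = z := by
    intro σ hσ
    rw [hz, tsa_smul_nsmul,
      ← tsa_galois S (lam ^ n) (tsa_not_dvd N q S lam hlam hlamS n) σ P y hy, hI σ hσ]
  -- the pull-back to the level `N' q`
  have hwt : lam ^ n • lvlPullback (N * q) (N' * q) h' z = 0 := by
    rw [← map_nsmul, hzt, map_zero]
  have hwI : ∀ σ ∈ I, σ • lvlPullback (N * q) (N' * q) h' z
      = lvlPullback (N * q) (N' * q) h' z := by
    intro σ hσ
    rw [← lvl_smul, hzI σ hσ]
  have hwα : s35pAlpha N' q (lvlPullback (N * q) (N' * q) h' z) = 0 := by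
    rw [psq_alpha N N' q h h' hsqα (lam ^ n) hm z hzt, hzα, map_zero]
  have hwβ : s35pBeta N' q (lvlPullback (N * q) (N' * q) h' z) = 0 := by
    rw [psq_beta N N' q h h' hsqβ (lam ^ n) hm z hzt, hzβ, map_zero]
  have hcw := hKUM n _ hwt hwI hwα hwβ
  refine lvl_injective_torsion (N * q) (N' * q) h' hnum (c • z) (lam ^ n) hm ?_ ?_
  · rw [smul_comm, hzt, nsmul_zero]
  · rw [map_nsmul]
    exact hcw

/-- **TORS36**, the two norm squares as hypotheses. -/
theorem s36tm_abs (L q : ℕ) [NeZero L] (hq : q.Prime) [NeZero q]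
    {g : CuspForm (Gamma0 (L * q * q)) 2} (hg : g.IsNewform)
    (lam : ℕ) (hlam : lam.Prime) (S : Finset ℕ) (hlamS : lam ∈ S)
    (chig : heckeAlgebra (L * q * q) 2 (↑S : Set ℕ) →+* ℂ)
    (hchig : ∀ (ℓ : ℕ) (hℓ : ℓ.Prime) (hℓM : ¬ ℓ ∣ L * q * q) (hℓS : ℓ ∉ (↑S : Set ℕ)),
      chig (heckeAlgebra.T hℓ hℓM hℓS) = ModularFormClass.qCoeff g ℓ)
    (hMS : ∀ r : ℕ, r.Prime → r ∣ L * q * q → r ∈ S)
    (a k : ℕ) (ha : a.Prime) [NeZero (a ^ k * L * q)]
    (h1 : L * q ∣ a ^ k * L * q) (h2 : L * q * q ∣ a ^ k * L * q * q)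
    (hsqα : ∀ f : ↥(modularFunctionFieldBar (L * q * q)),
      hkdNorm (a ^ k * L * q) q (lvlIncl (L * q * q) (a ^ k * L * q * q) h2 f)
        = lvlIncl (L * q) (a ^ k * L * q) h1 (hkdNorm (L * q) q f))
    (hsqβ : ∀ f : ↥(modularFunctionFieldBar (L * q * q)),
      hkdNormBeta (a ^ k * L * q) q (lvlIncl (L * q * q) (a ^ k * L * q * q) h2 f)
        = lvlIncl (L * q) (a ^ k * L * q) h1 (hkdNormBeta (L * q) q f))
    (I : Set (Qb ≃ₐ[ℚ] Qb)) (c : ℕ) (hc : c ≠ 0)
    (hKUM : ∀ (n : ℕ) (y : JZero (a ^ k * L * q * q)), lam ^ n • y = 0 →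
      (∀ σ ∈ I, σ • y = y) → s35pAlpha (a ^ k * L * q) q y = 0 →
      s35pBeta (a ^ k * L * q) q y = 0 → c • y = 0) :
    ∃ (P : FreeAlgebra ℤ (HresIdx (L * q * q) (↑S : Set ℕ))) (c' : ℕ), c' ≠ 0 ∧
      chig (hresT (L * q * q) (↑S : Set ℕ) P) ≠ 0 ∧
      ∀ (n : ℕ) (y : JZero (L * q * q)), lam ^ n • y = 0 → (∀ σ ∈ I, σ • y = y) →
        c' • hresJ (fun l : HresIdx (L * q * q) (↑S : Set ℕ) =>
          heckeOperatorBar (L * q * q) ⟨l.1, l.2.1⟩) P y = 0 := by
  obtain ⟨P, d, hd, hPχ, hNEW⟩ :=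
    nwm_main_mul (M0 := L * q) (q := q) hg hq.one_lt.ne' lam hlam.ne_zero S chig hchig hMS
  have hnum : dedekindPsi (a ^ k * L * q * q) * (L * q * q)
      < 2 * (a ^ k * L * q * q) * dedekindPsi (L * q * q) := by
    have h0 := lvl_num (L * q * q) a k (NeZero.pos (L * q * q)) ha
    have e : a ^ k * (L * q * q) = a ^ k * L * q * q := by ring
    rw [e] at h0
    exact h0
  refine ⟨P, c * d, Nat.mul_ne_zero hc hd, hPχ, fun n y hy hI => ?_⟩
  rw [mul_smul]
  exact s36tm_elt (L * q) (a ^ k * L * q) q h1 h2 hnum hsqα hsqβ lam hlam (↑S : Set ℕ)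
    (Finset.mem_coe.mpr hlamS) P d hNEW I c hKUM n y hy hI

end Fermat.Agent.S36
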