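/-
S36, leaf [TRI-INST], bridges (prefix `s36tj_`), Mathlib + S34/DomAbs only:

* `s36tj_dom_of_t` : swap domination in chart form from the coordinate: if `w t ∈ O_𝔫` and the
  chart `O₀` is integral over `A[t]`, then `w(O₀) ⊆ O_𝔫` (`O` integrally closed) = binder `hdom`
  of `s36tj_main` from the `dmi_dom_aux` shape;
* `s36tj_res_ring`, `s36tj_res` : the residue field of a closed point `𝔫` of a chart integral
  over `A[t]` is integral over `A` (`A` local with `𝔪_A ⊆ 𝔫`): every `x` satisfies a monic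
  equation over `A` modulo `𝔫`;
* `s36tj_maxc` : the centre on a chart `O'` of the local ring `O_𝔫` of a closed point (along a
  ring endomorphism `w` fixing `A`) is a MAXIMAL ideal = binder `hmaxc` of `s36tj_main`.
-/
import Mathlib
import Fermat.Agent.S34.DomAbs

set_option autoImplicit false

namespace Fermat.Agent.S36

open Fermat.Agent.S34 Polynomial

section Dom

variable {A F : Type*} [CommRing A] [Field F] [Algebra A F]

/-- **swap domination from the coordinate**: if `w t` lies in the local ring `O_𝔫` of an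
integrally closed chart, `w` fixes `A` and `O₀` is integral over `A[t]`, then `w(O₀) ⊆ O_𝔫`. -/
theorem s36tj_dom_of_t (O : Subalgebra A F) (𝔫 : Ideal ↥O) [h𝔫 : 𝔫.IsPrime]
    (hic : ∀ x : F, IsIntegral ↥O x → x ∈ O)
    (w : F →+* F) (hwA : ∀ a : A, w (algebraMap A F a) = algebraMap A F a)
    (t : F) (O₀ : Subalgebra A F) (hO₀ : ∀ x ∈ O₀, IsIntegral ↥(Algebra.adjoin A {t}) x)
    (hwt : w t ∈ dmaLoc O 𝔫) : ∀ x ∈ O₀, w x ∈ dmaLoc O 𝔫 := by
  have hadj : ∀ c ∈ Algebra.adjoin A {t}, w c ∈ dmaLoc O 𝔫 := by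
    intro c hc
    induction hc using Algebra.adjoin_induction with
    | mem x hx =>
      rw [Set.mem_singleton_iff] at hx
      rw [hx]; exact hwt
    | algebraMap r =>
      rw [hwA]
      exact dma_of_mem O 𝔫 (O.algebraMap_mem r)
    | add x y _ _ hx hy => rw [map_add]; exact (dmaLoc O 𝔫).add_mem hx hy
    | mul x y _ _ hx hy => rw [map_mul]; exact (dmaLoc O 𝔫).mul_mem hx hy
  intro x hx
  obtain ⟨p, hp, hpx⟩ := hO₀ x hx
  -- the image polynomial has coefficients in the local ring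
  let f : ↥(Algebra.adjoin A {t}) →+* ↥(dmaLoc O 𝔫) :=
    (w.comp (algebraMap ↥(Algebra.adjoin A {t}) F)).codRestrict (dmaLoc O 𝔫)
      (fun c => hadj _ c.2)
  refine dma_mem_of_monic O 𝔫 hic (p.map f) (hp.map _) ?_
  rw [eval₂_map]
  have hcomp : (dmaLoc O 𝔫).subtype.comp f = w.comp (algebraMap ↥(Algebra.adjoin A {t}) F) := by
    ext c; rfl
  rw [hcomp]
  have h2 := Polynomial.hom_eval₂ p (algebraMap ↥(Algebra.adjoin A {t}) F) w x
  rw [← h2, hpx, map_zero]

end Dom

section Res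

variable {A R : Type*} [CommRing A] [CommRing R] [Algebra A R]

/-- normalisation: a polynomial over `A` with a unit coefficient which vanishes at `t` modulo
`𝔫` can be replaced by a monic one (the non-unit leading coefficients lie in `𝔫`) -/
theorem s36tj_monic_of_unit_coeff (t : R) (𝔫 : Ideal R) (h1 : (1 : R) ∉ 𝔫)
    (hA : ∀ a : A, IsUnit a ∨ algebraMap A R a ∈ 𝔫) :
    ∀ (n : ℕ) (P : A[X]), P.natDegree ≤ n → aeval t P ∈ 𝔫 → (∃ i, IsUnit (P.coeff i)) →
      ∃ P' : A[X], P'.Monic ∧ aeval t P' ∈ 𝔫 := by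
  have hAnt : Nontrivial A := by
    by_contra hn
    rw [not_nontrivial_iff_subsingleton] at hn
    apply h1
    have : (1 : R) = algebraMap A R 1 := (map_one _).symm
    rw [this, Subsingleton.elim (1 : A) 0, map_zero]
    exact 𝔫.zero_mem
  intro n
  induction n with
  | zero =>
    intro P hdeg hP ⟨i, hi⟩
    have hi0 : P.coeff i ≠ 0 := hi.ne_zero
    have hile : i ≤ P.natDegree := le_natDegree_of_ne_zero hi0
    have hi' : i = 0 := by omega
    subst hi'
    have hP' : P = C (P.coeff 0) := eq_C_of_natDegree_le_zero hdeg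
    exfalso
    rw [hP', aeval_C] at hP
    obtain ⟨u, hu⟩ := hi
    have h2 : algebraMap A R (↑u⁻¹ : A) * algebraMap A R (P.coeff 0) ∈ 𝔫 := 𝔫.mul_mem_left _ hP
    rw [← map_mul, ← hu, Units.inv_mul, map_one] at h2
    exact h1 h2
  | succ n ih =>
    intro P hdeg hP ⟨i, hi⟩
    rcases hA P.leadingCoeff with hu | hlc
    · obtain ⟨u, hu⟩ := hu
      refine ⟨C (↑u⁻¹ : A) * P, monic_C_mul_of_mul_leadingCoeff_eq_one ?_, ?_⟩
      · rw [← hu, Units.inv_mul]
      · rw [map_mul, aeval_C]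
        exact 𝔫.mul_mem_left _ hP
    · have hi0 : P.coeff i ≠ 0 := hi.ne_zero
      have hile : i ≤ P.natDegree := le_natDegree_of_ne_zero hi0
      have hine : i ≠ P.natDegree := by
        intro h
        rw [h] at hi
        rcases hi.exists_left_inv with ⟨b, hb⟩
        have h2 : algebraMap A R b * algebraMap A R P.leadingCoeff ∈ 𝔫 := 𝔫.mul_mem_left _ hlc
        rw [← map_mul] at h2
        have h3 : b * P.leadingCoeff = 1 := hb
        rw [h3, map_one] at h2
        exact h1 h2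
      have hdeg1 : P.eraseLead.natDegree ≤ n := by
        have := eraseLead_natDegree_le P
        omega
      have hP1 : aeval t P.eraseLead ∈ 𝔫 := by
        have e := congrArg (aeval t) (eraseLead_add_C_mul_X_pow P)
        rw [map_add, map_mul, aeval_C, map_pow, aeval_X] at e
        have e2 : aeval t P.eraseLead = aeval t P -
            algebraMap A R P.leadingCoeff * t ^ P.natDegree := by
          rw [← e]; ring
        rw [e2]
        exact 𝔫.sub_mem hP (𝔫.mul_mem_right _ hlc)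
      exact ih P.eraseLead hdeg1 hP1 ⟨i, by rw [eraseLead_coeff_of_ne i hine]; exact hi⟩

/-- **the residue field of a closed point is integral over `A`** (ring form): `R` integral over
`A[t]`, `𝔫` maximal, `A` local with maximal ideal inside `𝔫`. -/
theorem s36tj_res_ring (t : R) (hint : ∀ x : R, IsIntegral ↥(Algebra.adjoin A {t}) x)
    (𝔫 : Ideal R) [h𝔫 : 𝔫.IsMaximal] (hA : ∀ a : A, IsUnit a ∨ algebraMap A R a ∈ 𝔫)
    (x : R) : ∃ p : A[X], p.Monic ∧ aeval x p ∈ 𝔫 := by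
  classical
  have h1 : (1 : R) ∉ 𝔫 := fun h => h𝔫.ne_top ((Ideal.eq_top_iff_one 𝔫).mpr h)
  -- step 1: a monic polynomial over `A` vanishing at `t` modulo `𝔫`
  obtain ⟨P', hP'm, hP'⟩ : ∃ P' : A[X], P'.Monic ∧ aeval t P' ∈ 𝔫 := by
    by_cases ht : t ∈ 𝔫
    · exact ⟨X, monic_X, by rw [aeval_X]; exact ht⟩
    · have : Algebra.IsIntegral ↥(Algebra.adjoin A {t}) R := ⟨hint⟩
      have hmax0 : (𝔫.comap (algebraMap ↥(Algebra.adjoin A {t}) R)).IsMaximal :=
        Ideal.isMaximal_comap_of_isIntegral_of_isMaximal (R := ↥(Algebra.adjoin A {t})) 𝔫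
      let tS : ↥(Algebra.adjoin A {t}) := ⟨t, Algebra.subset_adjoin (Set.mem_singleton t)⟩
      have htS : tS ∉ 𝔫.comap (algebraMap ↥(Algebra.adjoin A {t}) R) := fun h => ht h
      obtain ⟨g, i, hi, hgi⟩ := hmax0.exists_inv htS
      have hg : (g : R) ∈ (aeval t : A[X] →ₐ[A] R).range := by
        rw [← Algebra.adjoin_singleton_eq_range_aeval]; exact g.2
      obtain ⟨G, hG⟩ := hg
      have hG' : aeval t G = (g : R) := hG
      have hval : aeval t (X * G - 1) ∈ 𝔫 := by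
        rw [map_sub, map_mul, aeval_X, map_one, hG']
        have h3 : (g : R) * t + (i : R) = 1 := congrArg Subtype.val hgi
        have h4 : t * (g : R) - 1 = -(i : R) := by rw [← h3]; ring
        rw [h4]
        exact 𝔫.neg_mem hi
      refine s36tj_monic_of_unit_coeff t 𝔫 h1 hA _ (X * G - 1) le_rfl hval ⟨0, ?_⟩
      rw [coeff_sub, mul_coeff_zero, coeff_X_zero, zero_mul, zero_sub, coeff_one_zero]
      exact isUnit_one.neg
  -- step 2: integrality of the residue class of `x` over `A`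
  let mk : R →+* R ⧸ 𝔫 := Ideal.Quotient.mk 𝔫
  have hmkA : ∀ (y : R) (P : A[X]), aeval (mk y) P = mk (aeval y P) := fun y P =>
    aeval_algHom_apply (Ideal.Quotient.mkₐ A 𝔫) y P
  have hmk0 : ∀ y : R, mk y = 0 ↔ y ∈ 𝔫 := fun y => Ideal.Quotient.eq_zero_iff_mem
  have htint : IsIntegral A (mk t) := by
    refine ⟨P', hP'm, ?_⟩
    rw [← aeval_def, hmkA]
    exact (hmk0 _).2 hP'
  have hT : Algebra.IsIntegral A ↥(Algebra.adjoin A {mk t}) := by
    apply Algebra.IsIntegral.adjoin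
    intro y hy
    rw [Set.mem_singleton_iff] at hy
    rw [hy]; exact htint
  have hST : ∀ c ∈ Algebra.adjoin A {t}, mk c ∈ Algebra.adjoin A {mk t} := by
    intro c hc
    induction hc using Algebra.adjoin_induction with
    | mem y hy =>
      rw [Set.mem_singleton_iff] at hy
      rw [hy]; exact Algebra.subset_adjoin (Set.mem_singleton _)
    | algebraMap r => exact (Algebra.adjoin A {mk t}).algebraMap_mem r
    | add y z _ _ hy hz => rw [map_add]; exact (Algebra.adjoin A {mk t}).add_mem hy hz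
    | mul y z _ _ hy hz => rw [map_mul]; exact (Algebra.adjoin A {mk t}).mul_mem hy hz
  let f : ↥(Algebra.adjoin A {t}) →+* ↥(Algebra.adjoin A {mk t}) :=
    (mk.comp (algebraMap ↥(Algebra.adjoin A {t}) R)).codRestrict
      (Algebra.adjoin A {mk t}).toSubring (fun c => hST _ c.2)
  have hxT : IsIntegral ↥(Algebra.adjoin A {mk t}) (mk x) := by
    obtain ⟨p, hp, hpx⟩ := hint x
    refine ⟨p.map f, hp.map _, ?_⟩
    rw [eval₂_map]
    have hcomp : (algebraMap ↥(Algebra.adjoin A {mk t}) (R ⧸ 𝔫)).comp f =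
        mk.comp (algebraMap ↥(Algebra.adjoin A {t}) R) := by
      ext c; rfl
    rw [hcomp]
    have h2 := Polynomial.hom_eval₂ p (algebraMap ↥(Algebra.adjoin A {t}) R) mk x
    rw [← h2, hpx, map_zero]
  have hxA : IsIntegral A (mk x) :=
    isIntegral_trans (R := A) (A := ↥(Algebra.adjoin A {mk t})) (mk x) hxT
  obtain ⟨p, hp, hpx⟩ := hxA
  refine ⟨p, hp, ?_⟩
  rw [← hmk0, ← hmkA, aeval_def]
  exact hpx

end Res

section Max

variable {A F : Type*} [CommRing A] [Field F] [Algebra A F]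

/-- `s36tj_res_ring` for a chart inside the function field -/
theorem s36tj_res (O : Subalgebra A F) (t : F) (ht : t ∈ O)
    (hint : ∀ x ∈ O, IsIntegral ↥(Algebra.adjoin A {t}) x)
    (𝔫 : Ideal ↥O) [h𝔫 : 𝔫.IsMaximal] (hA : ∀ a : A, IsUnit a ∨ algebraMap A ↥O a ∈ 𝔫)
    (x : ↥O) : ∃ p : A[X], p.Monic ∧ aeval x p ∈ 𝔫 := by
  refine s36tj_res_ring (⟨t, ht⟩ : ↥O) ?_ 𝔫 hA x
  intro y
  -- transport of integrality from `F` to `O`
  have hmap : (Algebra.adjoin A {(⟨t, ht⟩ : ↥O)}).map O.val = Algebra.adjoin A {t} := by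
    rw [AlgHom.map_adjoin, Set.image_singleton]
    rfl
  have hSO : ∀ c : ↥(Algebra.adjoin A {t}), (c : F) ∈ O := fun c =>
    (Algebra.adjoin_le (by rintro z rfl; exact ht) : Algebra.adjoin A {t} ≤ O) c.2
  let ψ0 : ↥(Algebra.adjoin A {t}) →+* ↥O :=
    (algebraMap ↥(Algebra.adjoin A {t}) F).codRestrict O.toSubring hSO
  have hmem : ∀ c : ↥(Algebra.adjoin A {t}), ψ0 c ∈ Algebra.adjoin A {(⟨t, ht⟩ : ↥O)} := by
    intro c
    have hc : (c : F) ∈ (Algebra.adjoin A {(⟨t, ht⟩ : ↥O)}).map O.val := by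
      rw [hmap]; exact c.2
    obtain ⟨c', hc', hcc⟩ := hc
    have : ψ0 c = c' := Subtype.ext hcc.symm
    rw [this]; exact hc'
  let ψ : ↥(Algebra.adjoin A {t}) →+* ↥(Algebra.adjoin A {(⟨t, ht⟩ : ↥O)}) :=
    ψ0.codRestrict (Algebra.adjoin A {(⟨t, ht⟩ : ↥O)}).toSubring hmem
  obtain ⟨p, hp, hpy⟩ := hint (y : F) y.2
  refine ⟨p.map ψ, hp.map _, ?_⟩
  rw [eval₂_map]
  have hcomp : (algebraMap ↥(Algebra.adjoin A {(⟨t, ht⟩ : ↥O)}) ↥O).comp ψ = ψ0 := by
    ext c; rfl
  rw [hcomp]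
  apply Subtype.ext
  have h2 := Polynomial.hom_eval₂ p ψ0 (O.val : ↥O →+* F) y
  have hcomp2 : (O.val : ↥O →+* F).comp ψ0 = algebraMap ↥(Algebra.adjoin A {t}) F := by
    ext c; rfl
  rw [hcomp2] at h2
  exact h2.trans hpy

/-- the monic equations over `A` extend from the chart to its local ring -/
theorem s36tj_res_loc (O : Subalgebra A F) (𝔫 : Ideal ↥O) [h𝔫 : 𝔫.IsMaximal]
    (hres : ∀ x : ↥O, ∃ p : A[X], p.Monic ∧ aeval x p ∈ 𝔫)
    (u : F) (hu : u ∈ dmaLoc O 𝔫) : ∃ p : A[X], p.Monic ∧ aeval u p ∈ dmaMax O 𝔫 := by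
  obtain ⟨a, s, hs, hus⟩ := id hu
  obtain ⟨s', i, hi, hs'⟩ := h𝔫.exists_inv hs
  obtain ⟨p, hp, hpc⟩ := hres (a * s')
  refine ⟨p, hp, ?_⟩
  have hdiff : u - ((a * s' : ↥O) : F) ∈ dmaMax O 𝔫 := by
    have h1 : ((s' : ↥O) : F) * (s : F) + (i : F) = 1 := congrArg Subtype.val hs'
    have e : u - ((a * s' : ↥O) : F) = u * (i : F) := by
      rw [Subalgebra.coe_mul, ← hus]
      linear_combination (-u) * h1
    rw [e]
    exact dma_max_mul O 𝔫 hu (dma_max_of_mem O 𝔫 i hi)
  have hcL : ((a * s' : ↥O) : F) ∈ dmaLoc O 𝔫 := dma_of_mem O 𝔫 (a * s').2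
  have hpow : ∀ n : ℕ, u ^ n - ((a * s' : ↥O) : F) ^ n ∈ dmaMax O 𝔫 := by
    intro n
    induction n with
    | zero => rw [pow_zero, pow_zero, sub_self]; exact (dmaMax O 𝔫).zero_mem
    | succ n ih =>
      have e : u ^ (n + 1) - ((a * s' : ↥O) : F) ^ (n + 1) =
          u * (u ^ n - ((a * s' : ↥O) : F) ^ n) +
            ((a * s' : ↥O) : F) ^ n * (u - ((a * s' : ↥O) : F)) := by ring
      rw [e]
      exact (dmaMax O 𝔫).add_mem (dma_max_mul O 𝔫 hu ih)
        (dma_max_mul O 𝔫 ((dmaLoc O 𝔫).pow_mem hcL n) hdiff)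
  have h2 : aeval u p - aeval ((a * s' : ↥O) : F) p ∈ dmaMax O 𝔫 := by
    rw [aeval_eq_sum_range, aeval_eq_sum_range, ← Finset.sum_sub_distrib]
    refine (dmaMax O 𝔫).sum_mem fun k _ => ?_
    rw [← smul_sub, Algebra.smul_def]
    exact dma_max_mul O 𝔫 (dma_of_mem O 𝔫 (O.algebraMap_mem _)) (hpow k)
  have h3 : aeval ((a * s' : ↥O) : F) p ∈ dmaMax O 𝔫 := by
    rw [Subalgebra.aeval_coe]
    exact dma_max_of_mem O 𝔫 _ hpc
  have := (dmaMax O 𝔫).add_mem h2 h3
  rwa [sub_add_cancel] at this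

/-- **(Max)**: the centre on a chart `O'` of the local ring of a closed point `𝔫` of a chart
`O` (along a ring endomorphism `w` fixing `A` and mapping `O'` into `O_𝔫`) is a maximal ideal,
when the residue field of `𝔫` is integral over `A` and `A` is local with `𝔪_A ⊆ 𝔫`. -/
theorem s36tj_maxc (O O' : Subalgebra A F) (𝔫 : Ideal ↥O) [h𝔫 : 𝔫.IsMaximal]
    (hres : ∀ x : ↥O, ∃ p : A[X], p.Monic ∧ aeval x p ∈ 𝔫)
    (hA : ∀ a : A, IsUnit a ∨ algebraMap A ↥O a ∈ 𝔫)
    (w : F →+* F) (hwA : ∀ a : A, w (algebraMap A F a) = algebraMap A F a)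
    (hsub : ∀ x ∈ O', w x ∈ dmaLoc O 𝔫)
    (𝔭 : Ideal ↥O') (h𝔭 : 𝔭.IsPrime)
    (hc : ∀ x : ↥O', x ∈ 𝔭 ↔ w (x : F) ∈ dmaMax O 𝔫) : 𝔭.IsMaximal := by
  have hAF : ∀ a : A, algebraMap A ↥O a ∈ 𝔫 → algebraMap A F a ∈ dmaMax O 𝔫 := fun a ha =>
    dma_max_of_mem O 𝔫 _ ha
  have hAL : ∀ a : A, algebraMap A F a ∈ dmaLoc O 𝔫 := fun a =>
    dma_of_mem O 𝔫 (O.algebraMap_mem a)
  -- an element of the local ring outside the maximal ideal is invertible modulo it by a
  -- polynomial expression over `A`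
  have key : ∀ u : F, u ∈ dmaLoc O 𝔫 → u ∉ dmaMax O 𝔫 → ∀ (n : ℕ) (p : A[X]), p.Monic →
      p.natDegree ≤ n → aeval u p ∈ dmaMax O 𝔫 →
      ∃ G : A[X], u * aeval u G - 1 ∈ dmaMax O 𝔫 := by
    intro u hu hu' n
    induction n with
    | zero =>
      intro p hp hdeg hpu
      exfalso
      have h1 : p = 1 := eq_one_of_monic_natDegree_zero hp (Nat.le_zero.mp hdeg)
      rw [h1, map_one] at hpu
      exact dma_one_notMem_max O 𝔫 hpu
    | succ n ih =>
      intro p hp hdeg hpu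
      by_cases hd0 : p.natDegree = 0
      · exfalso
        have h1 : p = 1 := eq_one_of_monic_natDegree_zero hp hd0
        rw [h1, map_one] at hpu
        exact dma_one_notMem_max O 𝔫 hpu
      have e := congrArg (aeval u) (divX_mul_X_add p)
      rw [map_add, map_mul, aeval_X, aeval_C] at e
      rcases hA (p.coeff 0) with hunit | hmem
      · obtain ⟨b, hb⟩ := hunit.exists_left_inv
        refine ⟨-(C b * p.divX), ?_⟩
        have e2 : u * aeval u (-(C b * p.divX)) - 1 = -(algebraMap A F b * aeval u p) := by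
          have hb' : algebraMap A F b * algebraMap A F (p.coeff 0) = 1 := by
            rw [← map_mul, hb, map_one]
          rw [map_neg, map_mul, aeval_C, ← e]
          linear_combination hb'
        rw [e2]
        exact (dmaMax O 𝔫).neg_mem (dma_max_mul O 𝔫 (hAL b) hpu)
      · have h2 : aeval u p.divX * u ∈ dmaMax O 𝔫 := by
          have := (dmaMax O 𝔫).sub_mem hpu (hAF _ hmem)
          rwa [← e, add_sub_cancel_right] at this
        have h3 : aeval u p.divX ∈ dmaMax O 𝔫 := by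
          have := dma_max_mul O 𝔫 (dma_inv_mem O 𝔫 hu hu') h2
          rwa [mul_comm, mul_assoc, mul_inv_cancel₀ (dma_ne_zero O 𝔫 hu'), mul_one] at this
        have hmon : p.divX.Monic := by
          have hnd : p.divX.natDegree = p.natDegree - 1 := natDegree_divX_eq_natDegree_tsub_one
          rw [Monic, leadingCoeff, hnd, coeff_divX, Nat.sub_add_cancel (Nat.pos_of_ne_zero hd0)]
          exact hp
        have hdeg' : p.divX.natDegree ≤ n := by
          rw [natDegree_divX_eq_natDegree_tsub_one]; omega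
        exact ih p.divX hmon hdeg' h3
  have h1 : (1 : ↥O') ∉ 𝔭 := fun h => h𝔭.ne_top ((Ideal.eq_top_iff_one 𝔭).mpr h)
  let wA : F →ₐ[A] F := { w with commutes' := hwA }
  refine Ideal.isMaximal_iff.2 ⟨h1, fun J x hJ hx hxJ => ?_⟩
  have hu : w (x : F) ∈ dmaLoc O 𝔫 := hsub _ x.2
  have hu' : w (x : F) ∉ dmaMax O 𝔫 := fun h => hx ((hc x).2 h)
  obtain ⟨p, hp, hpu⟩ := s36tj_res_loc O 𝔫 hres _ hu
  obtain ⟨G, hG⟩ := key _ hu hu' _ p hp le_rfl hpu
  have h2 : x * aeval x G - 1 ∈ 𝔭 := by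
    rw [hc]
    have e : w ((x * aeval x G - 1 : ↥O') : F) = w (x : F) * aeval (w (x : F)) G - 1 := by
      rw [Subalgebra.coe_sub, Subalgebra.coe_mul, Subalgebra.coe_one, ← Subalgebra.aeval_coe,
        map_sub, map_mul, map_one]
      congr 2
      exact (aeval_algHom_apply wA (x : F) G).symm
    rw [e]
    exact hG
  have h3 : (1 : ↥O') = x * aeval x G - (x * aeval x G - 1) := by ring
  rw [h3]
  exact J.sub_mem (J.mul_mem_right _ hxJ) (hJ h2)

end Max

end Fermat.Agent.S36
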