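/-
S36, leaf [TRI-INST], bridge (prefix `s36tj_`): THE NORM BINDER `hNα` of `S36tjAl` / `s36ti_main`.
Mathlib + S34/DomAbs + S36/PtTypes + S36/TriAbs.

Setting of PT-TYPES (`S36/PtTypes.lean`): `φ : E →ₐ[A] F`, charts `O'` of `E`, `O` of `F` with
`φ O' ⊆ O`, `O` integral over `φ O'`; `𝔫` a maximal ideal of `O` which is the ONLY maximal ideal
of `O` over its contraction `𝔫₁ = 𝔫.comap (s36ptRes φ O' O hφO)` (PT-TYPES (K3) at a node).  Then

* `s36tj_denom` : every `s ∈ O ∖ 𝔫` divides the image of an element of `O' ∖ 𝔫₁`;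
* `s36tj_int`   : every element of the local ring `O_𝔫` is integral over `φ (O'_{𝔫₁})`
  (polynomial form = binder `hr` of `s36ti_norm_mem`);
* `s36tj_norm`  : the norm along `φ` of an element of `O_𝔫` lies in `O'_{𝔫₁}` (`O'` integrally
  closed) = binder `hNα` of `s36ti_main` for `R1 = dmaLoc O' 𝔫₁`.
-/
import Mathlib
import Fermat.Agent.S34.DomAbs
import Fermat.Agent.S36.PtTypes
import Fermat.Agent.S36.TriAbs

set_option autoImplicit false

namespace Fermat.Agent.S36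

open Fermat.Agent.S34

section Norm

variable {A E F : Type*} [CommRing A] [Field E] [Field F] [Algebra A E] [Algebra A F]

/-- if `𝔫` is the only maximal ideal of `O` over its contraction, every element of `O ∖ 𝔫`
divides the image of an element of `O'` outside the contraction -/
theorem s36tj_denom (φ : E →ₐ[A] F) (O' : Subalgebra A E) (O : Subalgebra A F)
    (hφO : ∀ x ∈ O', φ x ∈ O) (hint : ∀ y ∈ O, IsIntegral ↥(O'.map φ) y)
    (𝔫 : Ideal ↥O) [h𝔫 : 𝔫.IsMaximal]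
    (huniq : ∀ 𝔫' : Ideal ↥O, 𝔫'.IsMaximal →
      𝔫'.comap (s36ptRes φ O' O hφO) = 𝔫.comap (s36ptRes φ O' O hφO) → 𝔫' = 𝔫)
    (s : ↥O) (hs : s ∉ 𝔫) :
    ∃ (b : ↥O) (r : ↥O'), r ∉ 𝔫.comap (s36ptRes φ O' O hφO) ∧
      s * b = s36ptRes φ O' O hφO r := by
  by_contra hcon
  have hle : (Ideal.span {s}).comap (s36ptRes φ O' O hφO) ≤
      𝔫.comap (s36ptRes φ O' O hφO) := by
    intro r hr
    rw [Ideal.mem_comap, Ideal.mem_span_singleton'] at hr
    obtain ⟨b, hb⟩ := hr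
    by_contra hr'
    exact hcon ⟨b, r, hr', by rw [mul_comm]; exact hb⟩
  have hmax1 := s36pt_comap_isMaximal φ O' O hφO hint 𝔫
  obtain ⟨Q, hIQ, hQ, hQc⟩ := s36pt_going_up (s36ptRes φ O' O hφO)
    (s36ptRes_isIntegral φ O' O hφO hint) (Ideal.span {s})
    (𝔫.comap (s36ptRes φ O' O hφO)) hle
  obtain ⟨𝔫', h𝔫', hQ𝔫'⟩ := Ideal.exists_le_maximal Q hQ.ne_top
  have hle' : 𝔫.comap (s36ptRes φ O' O hφO) ≤ 𝔫'.comap (s36ptRes φ O' O hφO) := by
    rw [← hQc]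
    exact Ideal.comap_mono hQ𝔫'
  have hc' : 𝔫'.comap (s36ptRes φ O' O hφO) = 𝔫.comap (s36ptRes φ O' O hφO) :=
    (hmax1.eq_of_le (Ideal.comap_ne_top _ h𝔫'.ne_top) hle').symm
  have h1 := huniq 𝔫' h𝔫' hc'
  have h2 : s ∈ 𝔫' := hQ𝔫' (hIQ (Ideal.mem_span_singleton_self s))
  rw [h1] at h2
  exact hs h2

/-- every element of the local ring `O_𝔫` is integral over the image of the local ring of the
contraction (polynomial form) -/
theorem s36tj_int (φ : E →ₐ[A] F) (O' : Subalgebra A E) (O : Subalgebra A F)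
    (hφO : ∀ x ∈ O', φ x ∈ O) (hint : ∀ y ∈ O, IsIntegral ↥(O'.map φ) y)
    (𝔫 : Ideal ↥O) [h𝔫 : 𝔫.IsMaximal]
    (huniq : ∀ 𝔫' : Ideal ↥O, 𝔫'.IsMaximal →
      𝔫'.comap (s36ptRes φ O' O hφO) = 𝔫.comap (s36ptRes φ O' O hφO) → 𝔫' = 𝔫)
    (u : F) (hu : u ∈ dmaLoc O 𝔫) :
    ∃ p : Polynomial E, p.Monic ∧
      (∀ i, p.coeff i ∈ dmaLoc O' (𝔫.comap (s36ptRes φ O' O hφO))) ∧
      Polynomial.eval₂ (φ : E →+* F) u p = 0 := by
  obtain ⟨a, s, hs, hus⟩ := hu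
  obtain ⟨b, r, hr, hsb⟩ := s36tj_denom φ O' O hφO hint 𝔫 huniq s hs
  have hsb' : (s : F) * (b : F) = φ (r : E) := congrArg Subtype.val hsb
  have hr0 : (r : E) ≠ 0 := by
    intro h0
    apply hr
    have : r = 0 := Subtype.ext h0
    rw [this]
    exact Ideal.zero_mem _
  obtain ⟨p, hp, hpy⟩ := s36pt_int_elem φ O' ((a * b : ↥O) : F) (hint _ (a * b).2)
  have hc : (r : E)⁻¹ ∈ dmaLoc O' (𝔫.comap (s36ptRes φ O' O hφO)) :=
    ⟨1, r, hr, by rw [Subalgebra.coe_one, inv_mul_cancel₀ hr0]⟩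
  have hu' : u = φ ((r : E)⁻¹) * ((a * b : ↥O) : F) := by
    have hφr : φ (r : E) ≠ 0 := by
      rw [Ne, map_eq_zero]; exact hr0
    rw [map_inv₀, Subalgebra.coe_mul, ← hus, ← hsb']
    have hs0 : (s : F) ≠ 0 := by
      intro h0
      rw [h0, zero_mul] at hsb'
      exact hφr hsb'.symm
    have hb0 : (b : F) ≠ 0 := by
      intro h0
      rw [h0, mul_zero] at hsb'
      exact hφr hsb'.symm
    field_simp
  refine ⟨(p.map (O'.val : ↥O' →+* E)).scaleRoots ((r : E)⁻¹), ?_, ?_, ?_⟩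
  · rw [Polynomial.monic_scaleRoots_iff]
    exact hp.map _
  · intro i
    rw [Polynomial.coeff_scaleRoots, Polynomial.coeff_map]
    exact (dmaLoc O' _).mul_mem (dma_of_mem O' _ (p.coeff i).2)
      ((dmaLoc O' _).pow_mem hc _)
  · have h3 := Polynomial.scaleRoots_eval₂_mul (p := p.map (O'.val : ↥O' →+* E))
      (φ : E →+* F) ((a * b : ↥O) : F) ((r : E)⁻¹)
    rw [Polynomial.eval₂_map] at h3
    have h2 : Polynomial.eval₂ ((φ : E →+* F).comp (O'.val : ↥O' →+* E))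
        ((a * b : ↥O) : F) p = 0 := hpy
    rw [h2, mul_zero] at h3
    rw [hu']
    exact h3

/-- **the norm binder**: the norm along `φ` of an element of the local ring `O_𝔫` lies in the
local ring of the contraction. -/
theorem s36tj_norm (φ : E →ₐ[A] F) (O' : Subalgebra A E) (O : Subalgebra A F)
    (hφO : ∀ x ∈ O', φ x ∈ O) (hint : ∀ y ∈ O, IsIntegral ↥(O'.map φ) y)
    (hic : ∀ x : E, IsIntegral ↥O' x → x ∈ O')
    (𝔫 : Ideal ↥O) [h𝔫 : 𝔫.IsMaximal]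
    (huniq : ∀ 𝔫' : Ideal ↥O, 𝔫'.IsMaximal →
      𝔫'.comap (s36ptRes φ O' O hφO) = 𝔫.comap (s36ptRes φ O' O hφO) → 𝔫' = 𝔫)
    (u : F) (hu : u ∈ dmaLoc O 𝔫) :
    (letI := (φ : E →+* F).toAlgebra; Algebra.norm E u) ∈
      dmaLoc O' (𝔫.comap (s36ptRes φ O' O hφO)) :=
  s36ti_norm_mem (φ : E →+* F) (dmaLoc O' (𝔫.comap (s36ptRes φ O' O hφO)))
    (fun _ hx => dma_ic O' _ hic hx) u (s36tj_int φ O' O hφO hint 𝔫 huniq u hu)

end Norm

end Fermat.Agent.S36
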