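/-
S36, leaf [TRI-INST] / [TRI-NORM-CAR], bridge (prefix `s36tj_`): THE NORM BINDER `hNα` of
`S36tjAl` / `s36ti_main` AT THE CARRIER, from fibre uniqueness.

* `s36tj_norm_el` : abstract, elementwise form of `s36tj_norm` (`S36/TriInstNorm.lean`): the
  contraction `𝔫1` given by an elementwise clause `hcon` (shape of `s36tb_al` / `s36cm_al`), the
  uniqueness of `𝔫` over `𝔫1` given elementwise; conclusion in `ndrLoc`.
* `s36tj_norm_car` : the carrier instance, `al = heckeAlphaBar K0 (M q) q`, charts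
  `chtO A0 {t'}` (level `M q`) and `chtO A0 {t}` (level `M q²`) for ANY `t'`, `t` with
  `al t' = t` (so the inverse charts are the instance `t'⁻¹`, `t⁻¹`):
  `u ∈ O_𝔫 ⇒ s35NormA K0 (M q) q u ∈ O'_{𝔫1}`.
-/
import Mathlib
import Fermat.Agent.S34.CompInst
import Fermat.Agent.S34.LocRing
import Fermat.Agent.S35.HCoreDef
import Fermat.Agent.S36.TriInstNorm

set_option autoImplicit false
set_option linter.unusedSectionVars false

noncomputable section

open ModularCurve AlgebraicCurve Polynomial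
open Fermat.Agent.S18 Fermat.Agent.S37 Fermat.Agent.S34 Fermat.Agent.S35

namespace Fermat.Agent.S36

local notation "Qb" => AlgebraicClosure ℚ

section Abs

variable {A E F : Type*} [CommRing A] [Field E] [Field F] [Algebra A E] [Algebra A F]

/-- elementwise form of `s36tj_norm`: contraction and uniqueness given elementwise, conclusion
in `ndrLoc` -/
theorem s36tj_norm_el (φ : E →ₐ[A] F) (O' : Subalgebra A E) (O : Subalgebra A F)
    (hφO : ∀ x ∈ O', φ x ∈ O) (hint : ∀ y ∈ O, IsIntegral ↥(O'.map φ) y)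
    (hic : ∀ x : E, IsIntegral ↥O' x → x ∈ O')
    (𝔫 : Ideal ↥O) (h𝔫 : 𝔫.IsMaximal)
    (𝔫1 : Ideal ↥O') [h𝔫1 : 𝔫1.IsPrime]
    (hcon : ∀ (x : ↥O') (hx : φ (x : E) ∈ O), x ∈ 𝔫1 ↔ (⟨φ (x : E), hx⟩ : ↥O) ∈ 𝔫)
    (huniq : ∀ 𝔫' : Ideal ↥O, 𝔫'.IsMaximal →
      (∀ (x : ↥O') (hx : φ (x : E) ∈ O),
        (⟨φ (x : E), hx⟩ : ↥O) ∈ 𝔫' ↔ (⟨φ (x : E), hx⟩ : ↥O) ∈ 𝔫) → 𝔫' = 𝔫)
    (u : F) (hu : u ∈ @ndrLoc A F _ _ _ O 𝔫 h𝔫.isPrime) :
    (letI := (φ : E →+* F).toAlgebra; Algebra.norm E u) ∈ ndrLoc O' 𝔫1 := by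
  have := h𝔫
  have h1 : 𝔫.comap (s36ptRes φ O' O hφO) = 𝔫1 := by
    ext x
    rw [Ideal.mem_comap]
    exact (hcon x (hφO x x.2)).symm
  have huniq' : ∀ 𝔫' : Ideal ↥O, 𝔫'.IsMaximal →
      𝔫'.comap (s36ptRes φ O' O hφO) = 𝔫.comap (s36ptRes φ O' O hφO) → 𝔫' = 𝔫 := by
    intro 𝔫' h𝔫' hc
    refine huniq 𝔫' h𝔫' (fun x hx => ?_)
    have h2 : x ∈ 𝔫'.comap (s36ptRes φ O' O hφO) ↔ x ∈ 𝔫.comap (s36ptRes φ O' O hφO) := by
      rw [hc]
    exact h2
  obtain ⟨a, s, hs, h⟩ := s36tj_norm φ O' O hφO hint hic 𝔫 huniq' u hu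
  exact ⟨a, s, fun hs' => hs (h1 ▸ hs'), h⟩

end Abs

section Carrier

variable (M q : ℕ) [NeZero M] [hq : Fact q.Prime]
  (K0 : Type*) [Field K0] [Algebra ℚ K0] [Algebra K0 Qb]
  (A0 : ValuationSubring K0)

/-- **[TRI-NORM-CAR]** (norm step): at a maximal ideal `𝔫` of the level-`M q²` chart
`chtO A0 {t}` which is the only maximal ideal over its contraction `𝔫1` to the level-`M q` chart
`chtO A0 {t'}` along `al` (`al t' = t`), the norm along `al` maps the local ring `O_𝔫` into the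
local ring `O'_{𝔫1}`. -/
theorem s36tj_norm_car
    [Algebra ↥A0 ↥(laurentBaseChange K0 (modularFunctionFieldFull (M * q)))]
    [IsScalarTower ↥A0 K0 ↥(laurentBaseChange K0 (modularFunctionFieldFull (M * q)))]
    [Algebra ↥A0 ↥(laurentBaseChange K0 (modularFunctionFieldFull (M * q * q)))]
    [IsScalarTower ↥A0 K0 ↥(laurentBaseChange K0 (modularFunctionFieldFull (M * q * q)))]
    (t' : ↥(laurentBaseChange K0 (modularFunctionFieldFull (M * q))))
    (t : ↥(laurentBaseChange K0 (modularFunctionFieldFull (M * q * q))))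
    (hαt : heckeAlphaBar K0 (M * q) q t' = t)
    (𝔫 : Ideal ↥(chtO A0 {t})) (h𝔫 : 𝔫.IsMaximal)
    (𝔫1 : Ideal ↥(chtO A0 {t'})) [h𝔫1 : 𝔫1.IsPrime]
    (hcon : ∀ (x : ↥(chtO A0 {t'}))
      (hx : heckeAlphaBar K0 (M * q) q
        (x : ↥(laurentBaseChange K0 (modularFunctionFieldFull (M * q)))) ∈ chtO A0 {t}),
      x ∈ 𝔫1 ↔ (⟨heckeAlphaBar K0 (M * q) q
        (x : ↥(laurentBaseChange K0 (modularFunctionFieldFull (M * q)))), hx⟩ :
          ↥(chtO A0 {t})) ∈ 𝔫)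
    (huniq : ∀ 𝔫' : Ideal ↥(chtO A0 {t}), 𝔫'.IsMaximal →
      (∀ (x : ↥(chtO A0 {t'}))
        (hx : heckeAlphaBar K0 (M * q) q
          (x : ↥(laurentBaseChange K0 (modularFunctionFieldFull (M * q)))) ∈ chtO A0 {t}),
        (⟨heckeAlphaBar K0 (M * q) q
          (x : ↥(laurentBaseChange K0 (modularFunctionFieldFull (M * q)))), hx⟩ :
            ↥(chtO A0 {t})) ∈ 𝔫' ↔
        (⟨heckeAlphaBar K0 (M * q) q
          (x : ↥(laurentBaseChange K0 (modularFunctionFieldFull (M * q)))), hx⟩ :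
            ↥(chtO A0 {t})) ∈ 𝔫) → 𝔫' = 𝔫) :
    ∀ u ∈ (@ndrLoc _ _ _ _ _ (chtO A0 {t}) 𝔫 h𝔫.isPrime).toSubring,
      s35NormA K0 (M * q) q u ∈ (ndrLoc (chtO A0 {t'}) 𝔫1).toSubring := by
  intro u hu
  let α : ↥(laurentBaseChange K0 (modularFunctionFieldFull (M * q))) →ₐ[A0]
      ↥(laurentBaseChange K0 (modularFunctionFieldFull (M * q * q))) :=
    (heckeAlphaBar K0 (M * q) q).restrictScalars A0
  have hαt' : α t' = t := hαt
  have hφO : ∀ x ∈ chtO A0 {t'}, α x ∈ chtO A0 {t} := by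
    intro x hx
    have h := cmi_map_mem α t' hx
    rw [hαt'] at h
    exact h
  have hadj : Algebra.adjoin A0 {t} ≤ (chtO A0 {t'}).map α := by
    refine Algebra.adjoin_le ?_
    rintro y rfl
    exact ⟨t', (cht_h1 t').1, hαt'⟩
  have hint : ∀ y ∈ chtO A0 {t}, IsIntegral ↥((chtO A0 {t'}).map α) y := by
    intro y hy
    rw [cht_mem_iff_poly] at hy
    obtain ⟨p, hp, hc, hpy⟩ := hy
    exact (cht_isIntegral_iff _ y).mpr ⟨p, hp, fun i => hadj (hc i), hpy⟩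
  have hic : ∀ x : ↥(laurentBaseChange K0 (modularFunctionFieldFull (M * q))),
      IsIntegral ↥(chtO A0 {t'}) x → x ∈ chtO A0 {t'} := fun x hx => cht_integral_closed {t'} hx
  exact s36tj_norm_el α (chtO A0 {t'}) (chtO A0 {t}) hφO hint hic 𝔫 h𝔫 𝔫1 hcon huniq u hu

end Carrier

end Fermat.Agent.S36
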