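/-
S36, family D (NORMRES-TORIC) / TRI-INST, leaf [TRI-NORM-CAR] (COORD-6 R18 (1), R20):
uniqueness of the point of the level-`M q²` chart over a crossing point of the level-`M q`
chart, AT THE CARRIER -- the hypothesis `huniq` of the norm step `hNα` (`s36tj_norm`,
`S36/TriInstNorm.lean`).  Prefix `s36nm_`.

Abstract part (`al`-adapted pair of charts `(O', O)`, table `al x ∈ W_b ↔ x ∈ V₂`):

* `s36nm_frac2` : (FRAC) for `V₂` on `O'` from one crossing point and the local equation `x`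
  of the first component there;
* `s36nm_br2` : the branch statement (BR) for `(O', 𝔫', V₂)` at a crossing point `𝔫'`
  (`S35Node`, clause 4, through `s36tk_br_principal`);
* `s36nm_node_unique` : a maximal ideal `𝔫` of `O` whose contraction is a crossing point of
  `O'` is the only prime of `O` with that contraction (every prime over the crossing point lies
  on `W_b` by `s36pt_through`; two such primes are equal by `s36pt_br_unique`).

Carrier: `F1 = K0(X₀(M q))`, `F2 = K0(X₀(M q²))`, `al = heckeAlphaBar K0 (M q) q`,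
`W_a = va2V1 (M q) q K0 A0`, `W_b = W_a.comap (s36v3Swap M q hM K0)`; charts `O = chtO A0 {t}`
(level `M q²`), `O' = chtO A0 {t'}` (level `M q`) for the same series `cinstU H K0 c0 c1`:

* `s36nm_uniq` : `𝔫` maximal on `W_a` and `W_b`, `𝔫'` prime with `al x ∈ 𝔫' ↔ al x ∈ 𝔫` for all
  `x ∈ O'` ⟹ `𝔫' = 𝔫`;
* `s36nm_uniq_inv` : the same on the inverse charts `chtO A0 {t⁻¹}`, `chtO A0 {t'⁻¹}`.
-/
import Mathlib
import Fermat.Agent.S34.KrullSub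
import Fermat.Agent.S34.CompInst
import Fermat.Agent.S35.NodeData
import Fermat.Agent.S35.GaussSep
import Fermat.Agent.S35.LocICPt
import Fermat.Agent.S36.Val3Def
import Fermat.Agent.S36.TriBranch
import Fermat.Agent.S36.PtTypesLoc

set_option autoImplicit false
set_option linter.unusedSectionVars false

noncomputable section

open ModularCurve AlgebraicCurve Polynomial
open Fermat.Agent.S18 Fermat.Agent.S37 Fermat.Agent.S34 Fermat.Agent.S35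

namespace Fermat.Agent.S36

local notation "Qb" => AlgebraicClosure ℚ

section Node

variable {A E F : Type*} [CommRing A] [Field E] [Field F] [Algebra A E] [Algebra A F]

/-- (FRAC) for `V₂` on the chart `O'`, from one crossing point `𝔫'` and the local equation `x`
of the first component there. -/
theorem s36nm_frac2 (τ : A) (hτ0 : algebraMap A E τ ≠ 0) (O' : Subalgebra A E)
    (𝔫' : Ideal ↥O') (V1 V2 : ValuationSubring E)
    (hO1 : ∀ x ∈ O', x ∈ V1) (hO2 : ∀ x ∈ O', x ∈ V2)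
    (hfrac : ∀ x : E, ∃ a ∈ O', ∃ s ∈ O', s ≠ 0 ∧ x * s = a)
    (hτV2 : algebraMap A E τ ∈ V2.nonunits)
    (hτgen2 : ∀ x ∈ V2.nonunits, x * (algebraMap A E τ)⁻¹ ∈ V2)
    (hdec2 : ∀ z : E, z ≠ 0 → ∃ j : ℤ, z * algebraMap A E τ ^ j ∈ V2 ∧
      (z * algebraMap A E τ ^ j)⁻¹ ∈ V2)
    (hred : ∀ x ∈ O', x ∈ V1.nonunits → x ∈ V2.nonunits → ∃ y ∈ O', x = algebraMap A E τ * y)
    (hp2 : ∀ x : ↥O', (x : E) ∈ V2.nonunits → x ∈ 𝔫')
    (x : E) (hx1 : x ∈ V1.nonunits) (hx2' : x⁻¹ ∈ V2) (hx0 : x ≠ 0)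
    (hxΛ : ∃ a s : ↥O', s ∉ 𝔫' ∧ x * (s : E) = (a : E)) :
    ∀ z ∈ V2, ∃ a s : ↥O', (s : E) ∉ V2.nonunits ∧ z * (s : E) = (a : E) :=
  s35ip_frac_node τ hτ0 O' 𝔫' V2 V1 hO2 hO1 hfrac hτV2 hτgen2 hdec2
    (fun y hy h2 h1 => hred y hy h1 h2) hp2 x hx1 hx2' hx0 hxΛ

/-- (BR) for `V₂` at a crossing point `𝔫'` of the chart `O'`, from the node data. -/
theorem s36nm_br2 (τ : A) (hτ0 : algebraMap A E τ ≠ 0) (O' : Subalgebra A E)
    [IsNoetherianRing ↥O'] (𝔫' : Ideal ↥O') [𝔫'.IsPrime] (V1 V2 : ValuationSubring E)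
    (hO1 : ∀ x ∈ O', x ∈ V1) (hO2 : ∀ x ∈ O', x ∈ V2)
    (hfrac : ∀ x : E, ∃ a ∈ O', ∃ s ∈ O', s ≠ 0 ∧ x * s = a)
    (hτV2 : algebraMap A E τ ∈ V2.nonunits)
    (hτgen2 : ∀ x ∈ V2.nonunits, x * (algebraMap A E τ)⁻¹ ∈ V2)
    (hdec2 : ∀ z : E, z ≠ 0 → ∃ j : ℤ, z * algebraMap A E τ ^ j ∈ V2 ∧
      (z * algebraMap A E τ ^ j)⁻¹ ∈ V2)
    (hred : ∀ x ∈ O', x ∈ V1.nonunits → x ∈ V2.nonunits → ∃ y ∈ O', x = algebraMap A E τ * y)
    (hp1 : ∀ x : ↥O', (x : E) ∈ V1.nonunits → x ∈ 𝔫')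
    (hp2 : ∀ x : ↥O', (x : E) ∈ V2.nonunits → x ∈ 𝔫')
    (x : E) (hx1 : x ∈ V1.nonunits) (hx2' : x⁻¹ ∈ V2) (hx0 : x ≠ 0)
    (hxΛ : ∃ a s : ↥O', s ∉ 𝔫' ∧ x * (s : E) = (a : E))
    (hB2 : ∀ a : ↥O', a ∈ 𝔫' → ∃ b c : ↥O', c ∉ 𝔫' ∧
      (a : E) * (c : E) - x * (b : E) ∈ V2.nonunits) :
    ∀ s ∈ V2, (∃ c ∈ ndrLoc O' 𝔫', s - c ∈ V2.nonunits) ∨
      (∃ g ∈ ndrLoc O' 𝔫', s * g - 1 ∈ V2.nonunits) := by
  obtain ⟨a, s, hs, hxs⟩ := hxΛ
  have ha : a ∈ 𝔫' := hp1 a (by rw [← hxs]; exact cpl_nu_mul V1 hx1 (hO1 _ s.2))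
  exact s36tk_br_principal O' 𝔫' V2 hO2 hp2
    (s36nm_frac2 τ hτ0 O' 𝔫' V1 V2 hO1 hO2 hfrac hτV2 hτgen2 hdec2 hred hp2 x hx1 hx2' hx0
      ⟨a, s, hs, hxs⟩) x ⟨a, s, ha, hs, hxs⟩ hB2

/-- **Uniqueness of the point over a node.**  On an `al`-adapted pair of charts: if `V₁` and
`V₂` pass through the contraction of the maximal ideal `𝔫` of `O`, every prime of `O` with the
same contraction equals `𝔫`. -/
theorem s36nm_node_unique (τ : A) (hτ0 : algebraMap A E τ ≠ 0)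
    (al : E →ₐ[A] F) (O' : Subalgebra A E) (O : Subalgebra A F) [IsNoetherianRing ↥O']
    (hfrac : ∀ x : E, ∃ a ∈ O', ∃ s ∈ O', s ≠ 0 ∧ x * s = a)
    (hic : ∀ x : E, IsIntegral ↥O' x → x ∈ O')
    (halO : ∀ x ∈ O', al x ∈ O) (hintal : ∀ y ∈ O, IsIntegral ↥(O'.map al) y)
    (V1 V2 : ValuationSubring E) (Wb : ValuationSubring F)
    (hO1 : ∀ x ∈ O', x ∈ V1) (hO2 : ∀ x ∈ O', x ∈ V2) (hOb : ∀ y ∈ O, y ∈ Wb)
    (hal_b : ∀ x, al x ∈ Wb ↔ x ∈ V2)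
    (hτV2 : algebraMap A E τ ∈ V2.nonunits)
    (hτgen2 : ∀ x ∈ V2.nonunits, x * (algebraMap A E τ)⁻¹ ∈ V2)
    (hdec2 : ∀ z : E, z ≠ 0 → ∃ j : ℤ, z * algebraMap A E τ ^ j ∈ V2 ∧
      (z * algebraMap A E τ ^ j)⁻¹ ∈ V2)
    (hred : ∀ x ∈ O', x ∈ V1.nonunits → x ∈ V2.nonunits → ∃ y ∈ O', x = algebraMap A E τ * y)
    (hexh_al2 : ∀ W : ValuationSubring F, (∀ x, al x ∈ W ↔ x ∈ V2) → W = Wb)
    (q : ℕ) (hq : 0 < q) (hins_al : ∀ y ∈ Wb, ∃ r ∈ V2, y ^ q - al r ∈ Wb.nonunits)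
    (hnode : ∀ 𝔫' : Ideal ↥O', 𝔫'.IsMaximal →
      (∀ x : ↥O', (x : E) ∈ V1.nonunits → x ∈ 𝔫') →
      (∀ x : ↥O', (x : E) ∈ V2.nonunits → x ∈ 𝔫') →
      ∃ x : E, x ∈ V1.nonunits ∧ x⁻¹ ∈ V2 ∧ x ≠ 0 ∧
        (∃ a s : ↥O', s ∉ 𝔫' ∧ x * (s : E) = (a : E)) ∧
        ∀ a : ↥O', a ∈ 𝔫' → ∃ b c : ↥O', c ∉ 𝔫' ∧
          (a : E) * (c : E) - x * (b : E) ∈ V2.nonunits)
    (𝔫 : Ideal ↥O) (h𝔫 : 𝔫.IsMaximal)
    (hV1 : ∀ x : ↥O', (x : E) ∈ V1.nonunits → s36ptRes al O' O halO x ∈ 𝔫)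
    (hV2 : ∀ x : ↥O', (x : E) ∈ V2.nonunits → s36ptRes al O' O halO x ∈ 𝔫)
    (𝔫₂ : Ideal ↥O) [𝔫₂.IsPrime]
    (h12 : ∀ x : ↥O', s36ptRes al O' O halO x ∈ 𝔫 ↔ s36ptRes al O' O halO x ∈ 𝔫₂) :
    𝔫 = 𝔫₂ := by
  have h𝔫p : 𝔫.IsPrime := h𝔫.isPrime
  have hicO' : IsIntegrallyClosed ↥O' := kri_sub_isIntegrallyClosed O' hfrac hic
  have hmax : (𝔫.comap (s36ptRes al O' O halO)).IsMaximal :=
    s36pt_comap_isMaximal al O' O halO hintal 𝔫
  have hpr : (𝔫.comap (s36ptRes al O' O halO)).IsPrime := hmax.isPrime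
  obtain ⟨x, hx1, hx2', hx0, hxΛ, hB2⟩ := hnode (𝔫.comap (s36ptRes al O' O halO)) hmax
    (fun x hx => Ideal.mem_comap.mpr (hV1 x hx)) (fun x hx => Ideal.mem_comap.mpr (hV2 x hx))
  have hloc2 := s36nm_frac2 τ hτ0 O' (𝔫.comap (s36ptRes al O' O halO)) V1 V2 hO1 hO2
    hfrac hτV2 hτgen2 hdec2 hred (fun x hx => Ideal.mem_comap.mpr (hV2 x hx)) x hx1 hx2' hx0
    hxΛ
  have hBR := s36nm_br2 τ hτ0 O' (𝔫.comap (s36ptRes al O' O halO)) V1 V2 hO1 hO2 hfrac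
    hτV2 hτgen2 hdec2 hred (fun x hx => Ideal.mem_comap.mpr (hV1 x hx))
    (fun x hx => Ideal.mem_comap.mpr (hV2 x hx)) x hx1 hx2' hx0 hxΛ hB2
  have hb1 : ∀ y : ↥O, (y : F) ∈ Wb.nonunits → y ∈ 𝔫 :=
    s36pt_through al O' O halO hintal V2 Wb hO2 hOb hloc2 hexh_al2 𝔫 hV2
  have hb2 : ∀ y : ↥O, (y : F) ∈ Wb.nonunits → y ∈ 𝔫₂ :=
    s36pt_through al O' O halO hintal V2 Wb hO2 hOb hloc2 hexh_al2 𝔫₂
      (fun x hx => (h12 x).mp (hV2 x hx))
  exact s36pt_br_unique al O' O halO V2 Wb hOb hal_b q hq hins_al 𝔫 𝔫₂ hb1 hb2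
    (𝔫.comap (s36ptRes al O' O halO)) (fun _ => Iff.rfl) (fun x => h12 x) hBR

end Node

section Carrier

variable (M q : ℕ) [NeZero M] [hq : Fact q.Prime] (hM : ¬ q ∣ M)
  (K0 : Type*) [Field K0] [Algebra ℚ K0] [Algebra K0 Qb]
  (A0 : ValuationSubring K0) [IsDiscreteValuationRing ↥A0]
  {a2 : ℕ} (H : HauptRec a2 q)

/-- **[TRI-NORM-CAR], `huniq`.**  A maximal ideal `𝔫` of the level-`M q²` chart `chtO A0 {t}`
on `W_a` and `W_b` is the only prime of that chart over its contraction (along `al`) to the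
level-`M q` chart `chtO A0 {t'}`. -/
theorem s36nm_uniq (ha2 : a2 ∣ M) (hA0 : A0.LiesOverPrime q) (c0 c1 : A0)
    (hc : IsLocalRing.residue ↥A0 c0 ≠ IsLocalRing.residue ↥A0 c1)
    (hQ0 : smi2U A0 (aeval (c0 : K0) H.Qrad))
    (hSM0 : cinstSMChart K0 A0 M H (c0 : K0) (c1 : K0))
    (hSM1 : cinstSMChart K0 A0 M H (c1 : K0) (c0 : K0))
    (hu0 : unrChart K0 A0 M H c0 c1) (hu1 : unrChart K0 A0 M H c1 c0)
    [Algebra ↥A0 ↥(laurentBaseChange K0 (modularFunctionFieldFull (M * q)))]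
    [IsScalarTower ↥A0 K0 ↥(laurentBaseChange K0 (modularFunctionFieldFull (M * q)))]
    [Algebra ↥A0 ↥(laurentBaseChange K0 (modularFunctionFieldFull (M * q * q)))]
    [IsScalarTower ↥A0 K0 ↥(laurentBaseChange K0 (modularFunctionFieldFull (M * q * q)))]
    (t' : ↥(laurentBaseChange K0 (modularFunctionFieldFull (M * q))))
    (ht' : (t' : LaurentSeries K0) = cinstU H K0 (c0 : K0) (c1 : K0))
    (t : ↥(laurentBaseChange K0 (modularFunctionFieldFull (M * q * q))))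
    (ht : (t : LaurentSeries K0) = cinstU H K0 (c0 : K0) (c1 : K0))
    (τ : A0) (hτ : Irreducible τ)
    (𝔫 : Ideal ↥(chtO A0 {t})) (h𝔫 : 𝔫.IsMaximal)
    (hta : ∀ x : ↥(chtO A0 {t}),
      (x : ↥(laurentBaseChange K0 (modularFunctionFieldFull (M * q * q)))) ∈
        (va2V1 (M * q) q K0 A0).nonunits → x ∈ 𝔫)
    (htb : ∀ x : ↥(chtO A0 {t}),
      (x : ↥(laurentBaseChange K0 (modularFunctionFieldFull (M * q * q)))) ∈
        ((va2V1 (M * q) q K0 A0).comap (s36v3Swap M q hM K0)).nonunits → x ∈ 𝔫) :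
    ∀ 𝔫' : Ideal ↥(chtO A0 {t}), 𝔫'.IsPrime →
      (∀ (x : ↥(chtO A0 {t'}))
        (hx : heckeAlphaBar K0 (M * q) q
          (x : ↥(laurentBaseChange K0 (modularFunctionFieldFull (M * q)))) ∈ chtO A0 {t}),
        (⟨heckeAlphaBar K0 (M * q) q
          (x : ↥(laurentBaseChange K0 (modularFunctionFieldFull (M * q)))), hx⟩ :
            ↥(chtO A0 {t})) ∈ 𝔫' ↔
        (⟨heckeAlphaBar K0 (M * q) q
          (x : ↥(laurentBaseChange K0 (modularFunctionFieldFull (M * q)))), hx⟩ :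
            ↥(chtO A0 {t})) ∈ 𝔫) →
      𝔫' = 𝔫 := by
  classical
  intro 𝔫' h𝔫' h12
  -- `al` maps the level-`M q` chart into the level-`M q²` chart
  let α : ↥(laurentBaseChange K0 (modularFunctionFieldFull (M * q))) →ₐ[A0]
      ↥(laurentBaseChange K0 (modularFunctionFieldFull (M * q * q))) :=
    (heckeAlphaBar K0 (M * q) q).restrictScalars A0
  have hαt : α t' = t := Subtype.ext ((coe_heckeAlphaBar (M * q) q t').trans (ht'.trans ht.symm))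
  have hmap : ∀ x ∈ chtO A0 {t'}, α x ∈ chtO A0 {t} := by
    intro x hx
    have h := cmi_map_mem α t' hx
    rw [hαt] at h
    exact h
  -- the level-`M q²` chart is integral over the image of the level-`M q` chart
  have hint : ∀ y ∈ chtO A0 {t}, IsIntegral ↥((chtO A0 {t'}).map α) y := by
    intro y hy
    have hle : Algebra.adjoin A0 {t} ≤ (chtO A0 {t'}).map α := by
      have h1 : (Algebra.adjoin A0 {t'}).map α ≤ (chtO A0 {t'}).map α :=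
        Subalgebra.map_mono (cht_adjoin_le {t'})
      rw [AlgHom.map_adjoin, Set.image_singleton, hαt] at h1
      exact h1
    obtain ⟨p, hp, hcf, hpy⟩ := (cht_isIntegral_iff (Algebra.adjoin A0 {t}) y).mp
      (cht_mem_iff.mp hy)
    exact (cht_isIntegral_iff ((chtO A0 {t'}).map α) y).mpr ⟨p, hp, fun i => hle (hcf i), hpy⟩
  -- the level-`M q` chart
  obtain ⟨-, hτV₁, -, -, -, -, -, -, -⟩ :=
    c2i_hyps A0 (M * q) H (va2V1 M q K0 A0) (fun _ => Iff.rfl) c0 c1 hc t' ht' τ hτ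
  obtain ⟨-, htO', -, ⟨b0, hb0, hspan0⟩, -, -, -, hfrac, -, -, -, hV0, -, -, -, hVτ, -⟩ :=
    c2i_chart A0 (M * q) H (va2V1 M q K0 A0) (va2V2 M q hM K0 A0) (fun _ => Iff.rfl) c0 c1 hc
      t' ht' τ hτ (va2_hA2 A0 M q hM) (va2_htaugen2 A0 M q hM τ hτ)
      (va2_htV2 A0 M q hM H ha2 c0 c1 t' ht') (va2_htV2' A0 M q hM H ha2 c0 c1 t' ht')
      (va2_hex A0 M q hM H ha2 hA0 c0 c1 hc t' ht') 1 Nat.one_pos
  have hnoeth : IsNoetherianRing ↥(chtO A0 {t'}) :=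
    cz_noeth t' (chtO A0 {t'}) htO' b0 hb0 hspan0
  have hOV₁ : ∀ x ∈ chtO A0 {t'}, x ∈ va2V1 M q K0 A0 := fun x hx => (hV0 x hx).1
  have hOV₂ : ∀ x ∈ chtO A0 {t'}, x ∈ va2V2 M q hM K0 A0 := fun x hx => (hV0 x hx).2
  have hτ0 : algebraMap A0 ↥(laurentBaseChange K0 (modularFunctionFieldFull (M * q))) τ ≠ 0 := by
    intro h0
    rw [IsScalarTower.algebraMap_apply A0 K0
      ↥(laurentBaseChange K0 (modularFunctionFieldFull (M * q)))] at h0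
    have h1 : algebraMap A0 K0 τ = 0 := (map_eq_zero _).mp h0
    exact hτ.ne_zero (Subtype.ext h1)
  have hτV₂ : algebraMap A0 ↥(laurentBaseChange K0 (modularFunctionFieldFull (M * q))) τ ∈
      (va2V2 M q hM K0 A0).nonunits := by
    rw [va2_mem_nonunits_V2, IsScalarTower.algebraMap_apply A0 K0
      ↥(laurentBaseChange K0 (modularFunctionFieldFull (M * q))), va2Swap_const,
      ← IsScalarTower.algebraMap_apply A0 K0
      ↥(laurentBaseChange K0 (modularFunctionFieldFull (M * q)))]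
    exact hτV₁
  -- the level-`M q²` chart lies in `W_b`
  have hAb : ∀ a : A0,
      algebraMap A0 ↥(laurentBaseChange K0 (modularFunctionFieldFull (M * q * q))) a ∈
        (va2V1 (M * q) q K0 A0).comap (s36v3Swap M q hM K0) := by
    intro a
    rw [IsScalarTower.algebraMap_apply A0 K0
      ↥(laurentBaseChange K0 (modularFunctionFieldFull (M * q * q)))]
    exact (s36v3_const_Wb M q hM K0 A0 (a : K0)).mpr a.2
  have htWb : t ∈ (va2V1 (M * q) q K0 A0).comap (s36v3Swap M q hM K0) := by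
    have h1 : heckeAlphaBar K0 (M * q) q t' = t := hαt
    rw [← h1]
    exact (s36v3_al_Wb M q hM K0 A0 t').mpr (hOV₂ t' htO')
  have hOb : ∀ x ∈ chtO A0 {t}, x ∈ (va2V1 (M * q) q K0 A0).comap (s36v3Swap M q hM K0) :=
    fun x hx => cht_le_valuationSubring _ hAb (s := {t}) (by rintro y rfl; exact htWb) hx
  -- the node data at the crossing points of the level-`M q` chart
  have hnode : ∀ 𝔫'' : Ideal ↥(chtO A0 {t'}), 𝔫''.IsMaximal →
      (∀ x : ↥(chtO A0 {t'}),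
        (x : ↥(laurentBaseChange K0 (modularFunctionFieldFull (M * q)))) ∈
          (va2V1 M q K0 A0).nonunits → x ∈ 𝔫'') →
      (∀ x : ↥(chtO A0 {t'}),
        (x : ↥(laurentBaseChange K0 (modularFunctionFieldFull (M * q)))) ∈
          (va2V2 M q hM K0 A0).nonunits → x ∈ 𝔫'') →
      ∃ x : ↥(laurentBaseChange K0 (modularFunctionFieldFull (M * q))),
        x ∈ (va2V1 M q K0 A0).nonunits ∧ x⁻¹ ∈ va2V2 M q hM K0 A0 ∧ x ≠ 0 ∧
        (∃ a s : ↥(chtO A0 {t'}), s ∉ 𝔫'' ∧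
          x * (s : ↥(laurentBaseChange K0 (modularFunctionFieldFull (M * q)))) =
            (a : ↥(laurentBaseChange K0 (modularFunctionFieldFull (M * q))))) ∧
        ∀ a : ↥(chtO A0 {t'}), a ∈ 𝔫'' → ∃ b c : ↥(chtO A0 {t'}), c ∉ 𝔫'' ∧
          (a : ↥(laurentBaseChange K0 (modularFunctionFieldFull (M * q)))) *
              (c : ↥(laurentBaseChange K0 (modularFunctionFieldFull (M * q)))) -
            x * (b : ↥(laurentBaseChange K0 (modularFunctionFieldFull (M * q))))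
            ∈ (va2V2 M q hM K0 A0).nonunits := by
    intro 𝔫'' h𝔫'' hc₁ hc₂
    obtain ⟨-, hB₂, -, -, hxΛ, -⟩ := s35nd_node M q hM K0 A0 H ha2 hA0 c0 c1 hc hQ0 hSM0 hSM1 hu0
      hu1 t' ht' τ hτ 𝔫'' h𝔫'' hc₁ hc₂
    obtain ⟨-, hx₂', hx0⟩ := gsp_x_unit₂ M q hM K0 A0 H ha2
    obtain ⟨a, s, -, hs, h⟩ := hxΛ
    exact ⟨_, gsp_x_mem₁ M q hM K0 A0 H ha2 hA0, hx₂', hx0, ⟨a, s, hs, h⟩, hB₂⟩
  -- the abstract uniqueness
  have hEq := s36nm_node_unique τ hτ0 α (chtO A0 {t'}) (chtO A0 {t}) hfrac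
    (fun x hx => cht_integral_closed {t'} hx) hmap hint
    (va2V1 M q K0 A0) (va2V2 M q hM K0 A0)
    ((va2V1 (M * q) q K0 A0).comap (s36v3Swap M q hM K0)) hOV₁ hOV₂ hOb
    (fun x => s36v3_al_Wb M q hM K0 A0 x) hτV₂ (va2_htaugen2 A0 M q hM τ hτ)
    (gsp_hdec₂ M q hM K0 A0 τ hτ) hVτ
    (fun W hW => s36v3_exh_al2 M q hM K0 A0 hA0 W hW) q hq.out.pos
    (fun y hy => s36v3_insep_al_Wb M q hM K0 A0 hA0 y hy) hnode 𝔫 h𝔫
    (fun x hx => hta _ ((s36pt_nonunits_iff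
      ((heckeAlphaBar K0 (M * q) q :
        ↥(laurentBaseChange K0 (modularFunctionFieldFull (M * q))) →ₐ[K0]
          ↥(laurentBaseChange K0 (modularFunctionFieldFull (M * q * q)))) :
        ↥(laurentBaseChange K0 (modularFunctionFieldFull (M * q))) →+*
          ↥(laurentBaseChange K0 (modularFunctionFieldFull (M * q * q))))
      (va2V1 M q K0 A0) (va2V1 (M * q) q K0 A0) (s36v3_al_Wa M q K0 A0)
      (x : ↥(laurentBaseChange K0 (modularFunctionFieldFull (M * q))))).mpr hx))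
    (fun x hx => htb _ ((s36pt_nonunits_iff
      ((heckeAlphaBar K0 (M * q) q :
        ↥(laurentBaseChange K0 (modularFunctionFieldFull (M * q))) →ₐ[K0]
          ↥(laurentBaseChange K0 (modularFunctionFieldFull (M * q * q)))) :
        ↥(laurentBaseChange K0 (modularFunctionFieldFull (M * q))) →+*
          ↥(laurentBaseChange K0 (modularFunctionFieldFull (M * q * q))))
      (va2V2 M q hM K0 A0) ((va2V1 (M * q) q K0 A0).comap (s36v3Swap M q hM K0))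
      (s36v3_al_Wb M q hM K0 A0)
      (x : ↥(laurentBaseChange K0 (modularFunctionFieldFull (M * q))))).mpr hx))
    𝔫' (fun x => (h12 x (hmap x x.2)).symm)
  exact hEq.symm

/-- **[TRI-NORM-CAR], `huniq`, inverse charts**: the same for `chtO A0 {t⁻¹}` (level `M q²`)
and `chtO A0 {t'⁻¹}` (level `M q`) — the instance `(c1, c0)` of `s36nm_uniq`. -/
theorem s36nm_uniq_inv (ha2 : a2 ∣ M) (hA0 : A0.LiesOverPrime q) (c0 c1 : A0)
    (hc : IsLocalRing.residue ↥A0 c0 ≠ IsLocalRing.residue ↥A0 c1)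
    (hQ1 : smi2U A0 (aeval (c1 : K0) H.Qrad))
    (hSM0 : cinstSMChart K0 A0 M H (c0 : K0) (c1 : K0))
    (hSM1 : cinstSMChart K0 A0 M H (c1 : K0) (c0 : K0))
    (hu0 : unrChart K0 A0 M H c0 c1) (hu1 : unrChart K0 A0 M H c1 c0)
    [Algebra ↥A0 ↥(laurentBaseChange K0 (modularFunctionFieldFull (M * q)))]
    [IsScalarTower ↥A0 K0 ↥(laurentBaseChange K0 (modularFunctionFieldFull (M * q)))]
    [Algebra ↥A0 ↥(laurentBaseChange K0 (modularFunctionFieldFull (M * q * q)))]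
    [IsScalarTower ↥A0 K0 ↥(laurentBaseChange K0 (modularFunctionFieldFull (M * q * q)))]
    (t' : ↥(laurentBaseChange K0 (modularFunctionFieldFull (M * q))))
    (ht' : (t' : LaurentSeries K0) = cinstU H K0 (c0 : K0) (c1 : K0))
    (t : ↥(laurentBaseChange K0 (modularFunctionFieldFull (M * q * q))))
    (ht : (t : LaurentSeries K0) = cinstU H K0 (c0 : K0) (c1 : K0))
    (τ : A0) (hτ : Irreducible τ)
    (𝔫 : Ideal ↥(chtO A0 {t⁻¹})) (h𝔫 : 𝔫.IsMaximal)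
    (hta : ∀ x : ↥(chtO A0 {t⁻¹}),
      (x : ↥(laurentBaseChange K0 (modularFunctionFieldFull (M * q * q)))) ∈
        (va2V1 (M * q) q K0 A0).nonunits → x ∈ 𝔫)
    (htb : ∀ x : ↥(chtO A0 {t⁻¹}),
      (x : ↥(laurentBaseChange K0 (modularFunctionFieldFull (M * q * q)))) ∈
        ((va2V1 (M * q) q K0 A0).comap (s36v3Swap M q hM K0)).nonunits → x ∈ 𝔫) :
    ∀ 𝔫' : Ideal ↥(chtO A0 {t⁻¹}), 𝔫'.IsPrime →
      (∀ (x : ↥(chtO A0 {t'⁻¹}))
        (hx : heckeAlphaBar K0 (M * q) q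
          (x : ↥(laurentBaseChange K0 (modularFunctionFieldFull (M * q)))) ∈ chtO A0 {t⁻¹}),
        (⟨heckeAlphaBar K0 (M * q) q
          (x : ↥(laurentBaseChange K0 (modularFunctionFieldFull (M * q)))), hx⟩ :
            ↥(chtO A0 {t⁻¹})) ∈ 𝔫' ↔
        (⟨heckeAlphaBar K0 (M * q) q
          (x : ↥(laurentBaseChange K0 (modularFunctionFieldFull (M * q)))), hx⟩ :
            ↥(chtO A0 {t⁻¹})) ∈ 𝔫) →
      𝔫' = 𝔫 :=
  s36nm_uniq M q hM K0 A0 H ha2 hA0 c1 c0 hc.symm hQ1 hSM1 hSM0 hu1 hu0 t'⁻¹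
    (by rw [IntermediateField.coe_inv, ht', cinstU_inv]) t⁻¹
    (by rw [IntermediateField.coe_inv, ht, cinstU_inv]) τ hτ 𝔫 h𝔫 hta htb

end Carrier

end Fermat.Agent.S36
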