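import Mathlib
import Fermat.Agent.S36.TriPtCar
import Fermat.Agent.S36.TriHalCar
import Fermat.Agent.S36.TriUnitComp

/-!
# S36, the clause of the triple points at the carrier, closed form (prefix `s36ht_`)

`s36ht_main`: the binder `hT` of `s36kc_comp3` (S36/Comp3Car.lean) with NO hypothesis left --
`S36inPtTri` at every closed point over `τ` through the three components `W_a`, `W_b`, `W_c`,
on both Hauptmodul charts of level `M q²`:

* the toric half `S36Tri`: `s36tx_main` (S36/TriInstCar.lean) with the alpha-side data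
  `s36th_hal` (S36/TriHalCar.lean);
* the unit half: `s36tv_comp3` (S36/TriUnitComp.lean);
* assembled by `s36ht_of` (S36/TriPtCar.lean).
-/

set_option autoImplicit false
set_option linter.unusedSectionVars false
set_option linter.unusedVariables false

noncomputable section

open ModularCurve AlgebraicCurve Polynomial
open Fermat.Agent.S18 Fermat.Agent.S34 Fermat.Agent.S35

namespace Fermat.Agent.S36

local notation "Qb" => AlgebraicClosure ℚ

section Carrier

variable (M q : ℕ) [NeZero M] [hq : Fact q.Prime] (hM : ¬ q ∣ M)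
  (K0 : Type) [Field K0] [Algebra ℚ K0] [Algebra K0 Qb]
  (A0 : ValuationSubring K0) [IsDiscreteValuationRing ↥A0]
  {a2 : ℕ} (H : HauptRec a2 q)

/-- **the clause of the triple points at the carrier** = the binder `hT` of `s36kc_comp3`. -/
theorem s36ht_main
    [Algebra ↥A0 ↥(laurentBaseChange K0 (modularFunctionFieldFull (M * q)))]
    [IsScalarTower ↥A0 K0 ↥(laurentBaseChange K0 (modularFunctionFieldFull (M * q)))]
    [Algebra ↥A0 ↥(laurentBaseChange K0 (modularFunctionFieldFull (M * q * q)))]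
    [IsScalarTower ↥A0 K0 ↥(laurentBaseChange K0 (modularFunctionFieldFull (M * q * q)))]
    (ha2 : a2 ∣ M) (hA0 : A0.LiesOverPrime q)
    (hunif : ∀ x ∈ A0.nonunits, ∃ a ∈ A0, x = (q : K0) * a)
    (c0 c1 : A0) (hc : IsLocalRing.residue ↥A0 c0 ≠ IsLocalRing.residue ↥A0 c1)
    (hQ0 : smi2U A0 (aeval (c0 : K0) H.Qrad)) (hQ1 : smi2U A0 (aeval (c1 : K0) H.Qrad))
    (hSM : cinstSMChart K0 A0 M H (c0 : K0) (c1 : K0))
    (hSM' : cinstSMChart K0 A0 M H (c1 : K0) (c0 : K0))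
    (hu0 : unrChart K0 A0 M H c0 c1) (hu1 : unrChart K0 A0 M H c1 c0)
    (m : ℕ) (hm : 0 < m) :
    ∀ τ : A0, Irreducible τ →
      ∀ t : ↥(laurentBaseChange K0 (modularFunctionFieldFull (M * q * q))),
      (t : LaurentSeries K0) = cinstU H K0 (c0 : K0) (c1 : K0) →
      (∀ 𝔫 : Ideal ↥(chtO A0 {t}), ∀ h𝔫 : 𝔫.IsMaximal, algebraMap ↥A0 ↥(chtO A0 {t}) τ ∈ 𝔫 →
        (∀ x : ↥(chtO A0 {t}),
          (x : ↥(laurentBaseChange K0 (modularFunctionFieldFull (M * q * q)))) ∈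
            (va2V1 (M * q) q K0 A0).nonunits → x ∈ 𝔫) →
        (∀ x : ↥(chtO A0 {t}),
          (x : ↥(laurentBaseChange K0 (modularFunctionFieldFull (M * q * q)))) ∈
            ((va2V1 (M * q) q K0 A0).comap (s36v3Swap M q hM K0)).nonunits → x ∈ 𝔫) →
        (∀ x : ↥(chtO A0 {t}),
          (x : ↥(laurentBaseChange K0 (modularFunctionFieldFull (M * q * q)))) ∈
            (s36v3Wc M q hM K0 A0).nonunits → x ∈ 𝔫) →
        S36inPtTri τ m (heckeAlphaBar K0 (M * q) q).toRingHom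
          (heckeBetaBar K0 (M * q) q).toRingHom (s35NormA K0 (M * q) q) (s35NormB K0 (M * q) q)
          (va2V1 (M * q) q K0 A0) ((va2V1 (M * q) q K0 A0).comap (s36v3Swap M q hM K0))
          (s36v3Wc M q hM K0 A0) (chtO A0 {t}) 𝔫 h𝔫.isPrime) ∧
      (∀ 𝔫 : Ideal ↥(chtO A0 {t⁻¹}), ∀ h𝔫 : 𝔫.IsMaximal,
        algebraMap ↥A0 ↥(chtO A0 {t⁻¹}) τ ∈ 𝔫 →
        (∀ x : ↥(chtO A0 {t⁻¹}),
          (x : ↥(laurentBaseChange K0 (modularFunctionFieldFull (M * q * q)))) ∈
            (va2V1 (M * q) q K0 A0).nonunits → x ∈ 𝔫) →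
        (∀ x : ↥(chtO A0 {t⁻¹}),
          (x : ↥(laurentBaseChange K0 (modularFunctionFieldFull (M * q * q)))) ∈
            ((va2V1 (M * q) q K0 A0).comap (s36v3Swap M q hM K0)).nonunits → x ∈ 𝔫) →
        (∀ x : ↥(chtO A0 {t⁻¹}),
          (x : ↥(laurentBaseChange K0 (modularFunctionFieldFull (M * q * q)))) ∈
            (s36v3Wc M q hM K0 A0).nonunits → x ∈ 𝔫) →
        S36inPtTri τ m (heckeAlphaBar K0 (M * q) q).toRingHom
          (heckeBetaBar K0 (M * q) q).toRingHom (s35NormA K0 (M * q) q) (s35NormB K0 (M * q) q)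
          (va2V1 (M * q) q K0 A0) ((va2V1 (M * q) q K0 A0).comap (s36v3Swap M q hM K0))
          (s36v3Wc M q hM K0 A0) (chtO A0 {t⁻¹}) 𝔫 h𝔫.isPrime) :=
  s36ht_of M q K0 A0 H hM ha2 hA0 hunif c0 c1 hc hQ0 hQ1 m hm
    (fun τ hτ t ht => s36th_hal M q hM K0 A0 H ha2 hA0 c0 c1 hc hQ0 hQ1 hSM hSM' hu0 hu1
      (s36v3Wc M q hM K0 A0) t ht τ hτ)
    (s36tv_comp3 M q hM K0 A0 H ha2 hA0 hunif c0 c1 hc hQ0 hQ1 hSM hSM' hu0 hu1 m hm)

end Carrier

end Fermat.Agent.S36
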