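import Mathlib
import Fermat.Agent.S36.Toric3Def

/-!
# S36, leaf TRIPLE-ABS: the local ring at a triple point (abstract; Mathlib + the def `S36Tri`)

Ring form.  `ψ : L → R` a ring homomorphism (`L` = the regular node ring of level `L q`,
maximal ideal `(x, y)`; `R` = the ring above it at level `L q²`), `I` a prime ideal of `R`
containing `ψ y` (the branch on which `ψ` is purely inseparable: `I = ψ y R`), `a : R` with
`a ^ q ≡ ψ x mod I`, `a` not a unit modulo `I`.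

* `s36ta_key`, `s36ta_indep`: `1, a, …, a ^ (q - 1)` are independent over `L / y` modulo `I`.
* `s36ta_core`: if every `r : R` satisfies a relation `ψ d * r ≡ ∑ ψ (c i) * a ^ i mod I`
  with `d ∉ y L` (rank `≤ q`), then `R = ∑_{i < q} ψ L * a ^ i + I`.
* `s36ta_rank`: the reduced rank condition from an exact nontrivial relation.
* `s36ta_dvr`: `L / y` is a discrete valuation ring with uniformiser `x` (element form).
* `s36ta_span` (Nakayama), `s36ta_mem_max`, `s36ta_unit`: `R = ⊕_{i<q} ψ L a ^ i` and `R` is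
  local with maximal ideal `(a, ψ y)` when `R` is finite over `L`.

Field form.
* `s36ta_side`: the same for a subring `R` of a field `F`, `I = R ∩ 𝔪_W`.
* `s36ta_tri`: the local data `S36Tri` (contract finding 236) at a triple point from the two
  sides (`α` over `Wb`, `β` over `Wa`).
-/

set_option autoImplicit false

namespace Fermat.Agent.S36

open Finset

section Core

variable {L R : Type*} [CommRing L] [CommRing R] (ψ : L →+* R) (I : Ideal R) [hI : I.IsPrime]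
  (x y : L) (a : R) (q : ℕ)

include hI in
/-- **Key lemma**: a combination `∑ ψ (c i) a ^ i` divisible by `a ^ q` modulo `I` has all its
coefficients in the maximal ideal `(x, y)`. -/
theorem s36ta_key (hL : ∀ c : L, IsUnit c ∨ c ∈ Ideal.span {x, y})
    (hyI : ψ y ∈ I) (haI : a ∉ I) (haq : ψ x - a ^ q ∈ I) (hnu : ∀ r : R, a * r - 1 ∉ I)
    (c : Fin q → L) (s : R) (h : ∑ i, ψ (c i) * a ^ (i : ℕ) - a ^ q * s ∈ I) :
    ∀ i, c i ∈ Ideal.span {x, y} := by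
  classical
  by_contra hcon
  push Not at hcon
  obtain ⟨i1, hi1⟩ := hcon
  obtain ⟨i0, hi0S, hmin'⟩ := exists_min_image
    (univ.filter (fun i => c i ∉ Ideal.span {x, y})) (fun i => i)
    ⟨i1, mem_filter.mpr ⟨mem_univ _, hi1⟩⟩
  have hi0 : c i0 ∉ Ideal.span {x, y} := (mem_filter.mp hi0S).2
  have hmin : ∀ j, c j ∉ Ideal.span {x, y} → i0 ≤ j := fun j hj =>
    hmin' j (mem_filter.mpr ⟨mem_univ _, hj⟩)
  have hu : IsUnit (c i0) := (hL (c i0)).resolve_right hi0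
  have hi0q : (i0 : ℕ) < q := i0.2
  have hterm : ∀ j, ∃ T : R, j ≠ i0 →
      ψ (c j) * a ^ (j : ℕ) - a ^ ((i0 : ℕ) + 1) * T ∈ I := by
    intro j
    rcases lt_trichotomy j i0 with hlt | heq | hgt
    · have hcj : c j ∈ Ideal.span {x, y} := by
        by_contra h'
        exact absurd (hmin j h') (not_le.mpr hlt)
      obtain ⟨u, v, huv⟩ := Ideal.mem_span_pair.mp hcj
      refine ⟨a ^ (q - 1 - (i0 : ℕ) + (j : ℕ)) * ψ u, fun _ => ?_⟩
      have hpow : a ^ ((i0 : ℕ) + 1) * a ^ (q - 1 - (i0 : ℕ) + (j : ℕ)) = a ^ q * a ^ (j : ℕ) := by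
        rw [← pow_add, ← pow_add]
        congr 1
        omega
      have e : ψ (c j) * a ^ (j : ℕ) -
          a ^ ((i0 : ℕ) + 1) * (a ^ (q - 1 - (i0 : ℕ) + (j : ℕ)) * ψ u) =
          (ψ x - a ^ q) * (ψ u * a ^ (j : ℕ)) + ψ y * (ψ v * a ^ (j : ℕ)) := by
        rw [← huv, map_add, map_mul, map_mul]
        linear_combination (-(ψ u)) * hpow
      rw [e]
      exact I.add_mem (I.mul_mem_right _ haq) (I.mul_mem_right _ hyI)
    · exact ⟨0, fun hne => absurd heq hne⟩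
    · refine ⟨a ^ ((j : ℕ) - (i0 : ℕ) - 1) * ψ (c j), fun _ => ?_⟩
      have hlt' : (i0 : ℕ) < (j : ℕ) := hgt
      have hpow : a ^ ((i0 : ℕ) + 1) * a ^ ((j : ℕ) - (i0 : ℕ) - 1) = a ^ (j : ℕ) := by
        rw [← pow_add]
        congr 1
        omega
      have e : ψ (c j) * a ^ (j : ℕ) -
          a ^ ((i0 : ℕ) + 1) * (a ^ ((j : ℕ) - (i0 : ℕ) - 1) * ψ (c j)) = 0 := by
        linear_combination (-(ψ (c j))) * hpow
      rw [e]
      exact I.zero_mem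
  choose T hT using hterm
  have hsplit : ∑ i, ψ (c i) * a ^ (i : ℕ) =
      ψ (c i0) * a ^ (i0 : ℕ) + ∑ j ∈ univ.erase i0, ψ (c j) * a ^ (j : ℕ) :=
    (add_sum_erase _ _ (mem_univ i0)).symm
  have hrest : ∑ j ∈ univ.erase i0, (ψ (c j) * a ^ (j : ℕ) - a ^ ((i0 : ℕ) + 1) * T j) ∈ I :=
    I.sum_mem (fun j hj => hT j (ne_of_mem_erase hj))
  have hpowq : a ^ ((i0 : ℕ) + 1) * a ^ (q - 1 - (i0 : ℕ)) = a ^ q := by
    rw [← pow_add]
    congr 1
    omega
  have hmain : a ^ (i0 : ℕ) * (ψ (c i0) -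
      a * (a ^ (q - 1 - (i0 : ℕ)) * s - ∑ j ∈ univ.erase i0, T j)) ∈ I := by
    have e : a ^ (i0 : ℕ) * (ψ (c i0) -
        a * (a ^ (q - 1 - (i0 : ℕ)) * s - ∑ j ∈ univ.erase i0, T j)) =
        (∑ i, ψ (c i) * a ^ (i : ℕ) - a ^ q * s) -
          ∑ j ∈ univ.erase i0, (ψ (c j) * a ^ (j : ℕ) - a ^ ((i0 : ℕ) + 1) * T j) := by
      rw [hsplit, sum_sub_distrib, ← mul_sum, ← hpowq]
      ring
    rw [e]
    exact I.sub_mem h hrest
  have hmain' : ψ (c i0) - a * (a ^ (q - 1 - (i0 : ℕ)) * s - ∑ j ∈ univ.erase i0, T j) ∈ I :=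
    (hI.mem_or_mem hmain).resolve_left (fun h' => haI (hI.mem_of_pow_mem _ h'))
  obtain ⟨w, hw⟩ := hu.exists_right_inv
  apply hnu ((a ^ (q - 1 - (i0 : ℕ)) * s - ∑ j ∈ univ.erase i0, T j) * ψ w)
  have e : a * ((a ^ (q - 1 - (i0 : ℕ)) * s - ∑ j ∈ univ.erase i0, T j) * ψ w) - 1 =
      -((ψ (c i0) - a * (a ^ (q - 1 - (i0 : ℕ)) * s - ∑ j ∈ univ.erase i0, T j)) * ψ w) := by
    have hw' : ψ (c i0) * ψ w = 1 := by rw [← map_mul, hw, map_one]
    linear_combination hw'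
  rw [e]
  exact I.neg_mem (I.mul_mem_right _ hmain')

omit hI in
/-- If all `c i ∈ (x, y)`, then `∑ ψ (c i) a ^ i ≡ a ^ q * ∑ ψ (u i) a ^ i mod I` with
`c i = u i * x + v i * y`. -/
theorem s36ta_split (hyI : ψ y ∈ I) (haq : ψ x - a ^ q ∈ I)
    (c : Fin q → L) (hc : ∀ i, c i ∈ Ideal.span {x, y}) :
    ∃ u : Fin q → L, (∀ i, ∃ v, c i = u i * x + v * y) ∧
      ∑ i, ψ (c i) * a ^ (i : ℕ) - a ^ q * ∑ i, ψ (u i) * a ^ (i : ℕ) ∈ I := by
  choose u v huv using fun i => Ideal.mem_span_pair.mp (hc i)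
  refine ⟨u, fun i => ⟨v i, (huv i).symm⟩, ?_⟩
  have e : ∑ i, ψ (c i) * a ^ (i : ℕ) - a ^ q * ∑ i, ψ (u i) * a ^ (i : ℕ) =
      ∑ i, ((ψ x - a ^ q) * (ψ (u i) * a ^ (i : ℕ)) + ψ y * (ψ (v i) * a ^ (i : ℕ))) := by
    rw [mul_sum, ← sum_sub_distrib]
    refine sum_congr rfl (fun i _ => ?_)
    rw [← huv i, map_add, map_mul, map_mul]
    ring
  rw [e]
  exact I.sum_mem (fun i _ => I.add_mem (I.mul_mem_right _ haq) (I.mul_mem_right _ hyI))

include hI in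
theorem s36ta_indep_aux (hL : ∀ c : L, IsUnit c ∨ c ∈ Ideal.span {x, y})
    (hyI : ψ y ∈ I) (haI : a ∉ I) (haq : ψ x - a ^ q ∈ I) (hnu : ∀ r : R, a * r - 1 ∉ I)
    (n : ℕ) : ∀ c : Fin q → L, ∑ i, ψ (c i) * a ^ (i : ℕ) ∈ I →
      ∀ i, ∃ e, c i - x ^ n * e ∈ Ideal.span {y} := by
  induction n with
  | zero =>
    intro c _ i
    exact ⟨c i, by simp⟩
  | succ n ih =>
    intro c hc i
    have hc' : ∑ i, ψ (c i) * a ^ (i : ℕ) - a ^ q * 0 ∈ I := by simpa using hc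
    have hk := s36ta_key ψ I x y a q hL hyI haI haq hnu c 0 hc'
    obtain ⟨u, hu, hsum⟩ := s36ta_split ψ I x y a q hyI haq c hk
    have h1 : a ^ q * ∑ i, ψ (u i) * a ^ (i : ℕ) ∈ I := by
      have := I.sub_mem hc hsum
      simpa using this
    have h2 : ∑ i, ψ (u i) * a ^ (i : ℕ) ∈ I :=
      (hI.mem_or_mem h1).resolve_left (fun h' => haI (hI.mem_of_pow_mem _ h'))
    obtain ⟨e, he⟩ := ih u h2 i
    obtain ⟨v, hv⟩ := hu i
    refine ⟨e, ?_⟩
    have e1 : c i - x ^ (n + 1) * e = (u i - x ^ n * e) * x + v * y := by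
      rw [hv]
      ring
    rw [e1]
    exact Ideal.add_mem _ (Ideal.mul_mem_right _ _ he)
      (Ideal.mul_mem_left _ _ (Ideal.mem_span_singleton_self y))

include hI in
/-- **Independence**: `1, a, …, a ^ (q - 1)` are linearly independent over `L / y` modulo `I`. -/
theorem s36ta_indep (hq : 0 < q) (hL : ∀ c : L, IsUnit c ∨ c ∈ Ideal.span {x, y})
    (hyI : ψ y ∈ I) (haI : a ∉ I) (haq : ψ x - a ^ q ∈ I) (hnu : ∀ r : R, a * r - 1 ∉ I)
    (hDVR : ∀ c : L, c ∉ Ideal.span {y} →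
      ∃ (n : ℕ) (u : L), IsUnit u ∧ c - x ^ n * u ∈ Ideal.span {y})
    (c : Fin q → L) (hc : ∑ i, ψ (c i) * a ^ (i : ℕ) ∈ I) : ∀ i, c i ∈ Ideal.span {y} := by
  intro i
  by_contra hci
  obtain ⟨n, u, hu, hcu⟩ := hDVR (c i) hci
  obtain ⟨e, he⟩ := s36ta_indep_aux ψ I x y a q hL hyI haI haq hnu (n + 1) c hc i
  have h1 : x ^ n * (u - x * e) ∈ Ideal.span {y} := by
    have e1 : x ^ n * (u - x * e) = (c i - x ^ (n + 1) * e) - (c i - x ^ n * u) := by ring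
    rw [e1]
    exact Ideal.sub_mem _ he hcu
  have h2 : ψ x ^ n * (ψ u - ψ x * ψ e) ∈ I := by
    obtain ⟨w, hw⟩ := Ideal.mem_span_singleton'.mp h1
    have e1 : ψ x ^ n * (ψ u - ψ x * ψ e) = ψ w * ψ y := by
      have h := congrArg ψ hw
      simp only [map_mul, map_sub, map_pow] at h
      exact h.symm
    rw [e1]
    exact I.mul_mem_left _ hyI
  have hxI : ψ x ∉ I := by
    intro h'
    have h'' : a ^ q ∈ I := by
      have := I.sub_mem h' haq
      simpa using this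
    exact haI (hI.mem_of_pow_mem _ h'')
  have h3 : ψ u - ψ x * ψ e ∈ I :=
    (hI.mem_or_mem h2).resolve_left (fun h' => hxI (hI.mem_of_pow_mem _ h'))
  have h4 : ψ u - a ^ q * ψ e ∈ I := by
    have e1 : ψ u - a ^ q * ψ e = (ψ u - ψ x * ψ e) + (ψ x - a ^ q) * ψ e := by ring
    rw [e1]
    exact I.add_mem h3 (I.mul_mem_right _ haq)
  obtain ⟨w, hw⟩ := hu.exists_right_inv
  apply hnu (a ^ (q - 1) * ψ e * ψ w)
  have hw' : ψ u * ψ w = 1 := by rw [← map_mul, hw, map_one]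
  have hpow : a * a ^ (q - 1) = a ^ q := by
    rw [← pow_succ']
    congr 1
    omega
  have e1 : a * (a ^ (q - 1) * ψ e * ψ w) - 1 = -((ψ u - a ^ q * ψ e) * ψ w) := by
    linear_combination (ψ e * ψ w) * hpow + hw'
  rw [e1]
  exact I.neg_mem (I.mul_mem_right _ h4)

include hI in
theorem s36ta_core_aux (hL : ∀ c : L, IsUnit c ∨ c ∈ Ideal.span {x, y})
    (hyI : ψ y ∈ I) (haI : a ∉ I) (haq : ψ x - a ^ q ∈ I) (hnu : ∀ r : R, a * r - 1 ∉ I)
    (n : ℕ) : ∀ (r : R) (c : Fin q → L),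
      a ^ (q * n) * r - ∑ i, ψ (c i) * a ^ (i : ℕ) ∈ I →
      ∃ c' : Fin q → L, r - ∑ i, ψ (c' i) * a ^ (i : ℕ) ∈ I := by
  induction n with
  | zero =>
    intro r c h
    exact ⟨c, by simpa using h⟩
  | succ n ih =>
    intro r c h
    have h' : ∑ i, ψ (c i) * a ^ (i : ℕ) - a ^ q * (a ^ (q * n) * r) ∈ I := by
      have e : ∑ i, ψ (c i) * a ^ (i : ℕ) - a ^ q * (a ^ (q * n) * r) =
          -(a ^ (q * (n + 1)) * r - ∑ i, ψ (c i) * a ^ (i : ℕ)) := by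
        rw [mul_add, mul_one, pow_add]
        ring
      rw [e]
      exact I.neg_mem h
    have hk := s36ta_key ψ I x y a q hL hyI haI haq hnu c _ h'
    obtain ⟨u, -, hsum⟩ := s36ta_split ψ I x y a q hyI haq c hk
    have h1 : a ^ q * (a ^ (q * n) * r - ∑ i, ψ (u i) * a ^ (i : ℕ)) ∈ I := by
      have e : a ^ q * (a ^ (q * n) * r - ∑ i, ψ (u i) * a ^ (i : ℕ)) =
          (∑ i, ψ (c i) * a ^ (i : ℕ) - a ^ q * ∑ i, ψ (u i) * a ^ (i : ℕ)) -
            (∑ i, ψ (c i) * a ^ (i : ℕ) - a ^ q * (a ^ (q * n) * r)) := by ring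
      rw [e]
      exact I.sub_mem hsum h'
    have h2 := (hI.mem_or_mem h1).resolve_left (fun h'' => haI (hI.mem_of_pow_mem _ h''))
    exact ih r u h2

include hI in
/-- **TRIPLE-ABS, core**: `R = ∑_{i < q} ψ L * a ^ i + I`. -/
theorem s36ta_core (hL : ∀ c : L, IsUnit c ∨ c ∈ Ideal.span {x, y})
    (hyI : ψ y ∈ I) (haI : a ∉ I) (haq : ψ x - a ^ q ∈ I) (hnu : ∀ r : R, a * r - 1 ∉ I)
    (hDVR : ∀ c : L, c ∉ Ideal.span {y} →
      ∃ (n : ℕ) (u : L), IsUnit u ∧ c - x ^ n * u ∈ Ideal.span {y})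
    (hrank : ∀ r : R, ∃ (c : Fin q → L) (d : L), d ∉ Ideal.span {y} ∧
      ψ d * r - ∑ i, ψ (c i) * a ^ (i : ℕ) ∈ I) (r : R) :
    ∃ c : Fin q → L, r - ∑ i, ψ (c i) * a ^ (i : ℕ) ∈ I := by
  obtain ⟨c, d, hd, hrel⟩ := hrank r
  obtain ⟨n, u, hu, hdu⟩ := hDVR d hd
  have hxn : ψ x ^ n - a ^ (q * n) ∈ I := by
    rw [pow_mul]
    exact Ideal.mem_of_dvd I (sub_dvd_pow_sub_pow (ψ x) (a ^ q) n) haq
  have h1 : ψ d - a ^ (q * n) * ψ u ∈ I := by
    obtain ⟨w, hw⟩ := Ideal.mem_span_singleton'.mp hdu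
    have hw' : ψ w * ψ y = ψ d - ψ x ^ n * ψ u := by
      have h := congrArg ψ hw
      simp only [map_mul, map_sub, map_pow] at h
      exact h
    have e : ψ d - a ^ (q * n) * ψ u = ψ w * ψ y + (ψ x ^ n - a ^ (q * n)) * ψ u := by
      rw [hw']
      ring
    rw [e]
    exact I.add_mem (I.mul_mem_left _ hyI) (I.mul_mem_right _ hxn)
  have h2 : a ^ (q * n) * (ψ u * r) - ∑ i, ψ (c i) * a ^ (i : ℕ) ∈ I := by
    have e : a ^ (q * n) * (ψ u * r) - ∑ i, ψ (c i) * a ^ (i : ℕ) =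
        (ψ d * r - ∑ i, ψ (c i) * a ^ (i : ℕ)) - (ψ d - a ^ (q * n) * ψ u) * r := by ring
    rw [e]
    exact I.sub_mem hrel (I.mul_mem_right _ h1)
  obtain ⟨c', hc'⟩ := s36ta_core_aux ψ I x y a q hL hyI haI haq hnu n (ψ u * r) c h2
  obtain ⟨w, hw⟩ := hu.exists_left_inv
  refine ⟨fun i => w * c' i, ?_⟩
  have hw' : ψ w * ψ u = 1 := by rw [← map_mul, hw, map_one]
  have hs : ∑ i, ψ (w * c' i) * a ^ (i : ℕ) = ψ w * ∑ i, ψ (c' i) * a ^ (i : ℕ) := by
    rw [mul_sum]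
    exact sum_congr rfl (fun i _ => by rw [map_mul]; ring)
  have e : r - ∑ i, ψ (w * c' i) * a ^ (i : ℕ) =
      ψ w * (ψ u * r - ∑ i, ψ (c' i) * a ^ (i : ℕ)) := by
    rw [hs]
    linear_combination (-r) * hw'
  rw [e]
  exact I.mul_mem_left _ hc'

end Core

section Local

variable {L R : Type*} [CommRing L] [CommRing R] [IsLocalRing L]

/-- In a noetherian local ring with `𝔪 = (x, y)`: `L / y` is a discrete valuation ring with
uniformiser `x` (element form; Krull's intersection theorem). -/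
theorem s36ta_dvr [IsNoetherianRing L] (x y : L)
    (hmax : ∀ c : L, IsUnit c ∨ c ∈ Ideal.span {x, y}) (hxy : (1 : L) ∉ Ideal.span {x, y})
    (c : L) (hc : c ∉ Ideal.span {y}) :
    ∃ (n : ℕ) (u : L), IsUnit u ∧ c - x ^ n * u ∈ Ideal.span {y} := by
  have hxM : x ∈ IsLocalRing.maximalIdeal L := by
    rw [IsLocalRing.mem_maximalIdeal]
    intro hu
    obtain ⟨w, hw⟩ := hu.exists_right_inv
    apply hxy
    rw [← hw]
    exact Ideal.mul_mem_right _ _ (Ideal.subset_span (Set.mem_insert _ _))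
  have hK := Ideal.iInf_pow_smul_eq_bot_of_isLocalRing (I := IsLocalRing.maximalIdeal L)
    (M := L ⧸ Ideal.span {y}) (IsLocalRing.maximalIdeal.isMaximal L).ne_top
  have hc0 : Ideal.Quotient.mk (Ideal.span {y}) c ≠ 0 :=
    fun h => hc (Ideal.Quotient.eq_zero_iff_mem.mp h)
  have hex : ∃ i : ℕ, Ideal.Quotient.mk (Ideal.span {y}) c ∉
      (IsLocalRing.maximalIdeal L ^ i • ⊤ : Submodule L (L ⧸ Ideal.span {y})) := by
    by_contra hcon
    push Not at hcon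
    have h1 : Ideal.Quotient.mk (Ideal.span {y}) c ∈
        (⨅ i : ℕ, IsLocalRing.maximalIdeal L ^ i • ⊤ : Submodule L (L ⧸ Ideal.span {y})) :=
      (Submodule.mem_iInf _).mpr hcon
    rw [hK] at h1
    exact hc0 ((Submodule.mem_bot _).mp h1)
  obtain ⟨i, hi⟩ := hex
  have hci : ∀ e : L, c - x ^ i * e ∉ Ideal.span {y} := by
    intro e he
    apply hi
    have h1 : Ideal.Quotient.mk (Ideal.span {y}) c = (x ^ i * e) • (1 : L ⧸ Ideal.span {y}) := by
      rw [Algebra.smul_def, mul_one]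
      exact Ideal.Quotient.eq.mpr he
    rw [h1]
    exact Submodule.smul_mem_smul (Ideal.mul_mem_right _ _ (Ideal.pow_mem_pow hxM i))
      Submodule.mem_top
  have hdesc : ∀ e : ℕ, (∃ b, c - x ^ e * b ∈ Ideal.span {y}) ∨ ∃ (e' : ℕ) (u : L), IsUnit u ∧
      c - x ^ e' * u ∈ Ideal.span {y} := by
    intro e
    induction e with
    | zero => exact Or.inl ⟨c, by simp⟩
    | succ e ih =>
      rcases ih with ⟨b, hb⟩ | h
      · rcases hmax b with hu | hbm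
        · exact Or.inr ⟨e, b, hu, hb⟩
        · obtain ⟨u, v, huv⟩ := Ideal.mem_span_pair.mp hbm
          refine Or.inl ⟨u, ?_⟩
          have e1 : c - x ^ (e + 1) * u = (c - x ^ e * b) + (x ^ e * v) * y := by
            rw [← huv]
            ring
          rw [e1]
          exact Ideal.add_mem _ hb (Ideal.mul_mem_left _ _ (Ideal.mem_span_singleton_self y))
      · exact Or.inr h
  rcases hdesc i with ⟨b, hb⟩ | h
  · exact absurd hb (hci b)
  · exact h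

/-- Nakayama: the decomposition modulo `ψ y` is exact when `R` is finite over `L`. -/
theorem s36ta_span (ψ : L →+* R) (hfin : ψ.Finite) (y : L) (hy : y ∈ IsLocalRing.maximalIdeal L)
    (a : R) (q : ℕ)
    (h : ∀ r : R, ∃ (c : Fin q → L) (s : R), r = ∑ i, ψ (c i) * a ^ (i : ℕ) + ψ y * s) (r : R) :
    ∃ c : Fin q → L, r = ∑ i, ψ (c i) * a ^ (i : ℕ) := by
  let _ := ψ.toAlgebra
  have : Module.Finite L R := hfin
  have hsm : ∀ (l : L) (r : R), l • r = ψ l * r := fun l r => Algebra.smul_def l r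
  have hle : (⊤ : Submodule L R) ≤
      Submodule.span L (Set.range (fun i : Fin q => a ^ (i : ℕ))) := by
    refine Submodule.le_of_le_smul_of_le_jacobson_bot Module.Finite.fg_top
      (IsLocalRing.maximalIdeal_le_jacobson ⊥) ?_
    intro r _
    obtain ⟨c, s, hr⟩ := h r
    rw [hr]
    refine Submodule.add_mem_sup ?_ ?_
    · refine Submodule.sum_mem _ (fun i _ => ?_)
      rw [← hsm]
      exact Submodule.smul_mem _ _ (Submodule.subset_span ⟨i, rfl⟩)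
    · rw [← hsm]
      exact Submodule.smul_mem_smul hy Submodule.mem_top
  have hr : r ∈ Submodule.span L (Set.range (fun i : Fin q => a ^ (i : ℕ))) :=
    hle Submodule.mem_top
  obtain ⟨c, hc⟩ := (Submodule.mem_span_range_iff_exists_fun L).mp hr
  exact ⟨c, by rw [← hc]; exact sum_congr rfl (fun i _ => (hsm _ _).symm)⟩

/-- Every maximal ideal of `R` contains `a` and `ψ y` (`R` integral over `L`). -/
theorem s36ta_mem_max (ψ : L →+* R) (hint : ψ.IsIntegral) (x y : L)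
    (hx : x ∈ IsLocalRing.maximalIdeal L) (hy : y ∈ IsLocalRing.maximalIdeal L)
    (a : R) (q : ℕ) (haq : ∃ t : R, a ^ q = ψ x + ψ y * t)
    (𝔐 : Ideal R) [h𝔐 : 𝔐.IsMaximal] : a ∈ 𝔐 ∧ ψ y ∈ 𝔐 := by
  have hcm : (𝔐.comap ψ).IsMaximal := Ideal.isMaximal_comap_of_isIntegral_of_isMaximal' ψ hint 𝔐
  have heq : 𝔐.comap ψ = IsLocalRing.maximalIdeal L := IsLocalRing.eq_maximalIdeal hcm
  have hxm : ψ x ∈ 𝔐 := by
    have : x ∈ 𝔐.comap ψ := by rw [heq]; exact hx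
    exact this
  have hym : ψ y ∈ 𝔐 := by
    have : y ∈ 𝔐.comap ψ := by rw [heq]; exact hy
    exact this
  refine ⟨?_, hym⟩
  obtain ⟨t, ht⟩ := haq
  have : a ^ q ∈ 𝔐 := by
    rw [ht]
    exact 𝔐.add_mem hxm (𝔐.mul_mem_right _ hym)
  exact h𝔐.isPrime.mem_of_pow_mem _ this

/-- `ψ (unit) + a * s` is a unit of `R`. -/
theorem s36ta_unit (ψ : L →+* R) (hint : ψ.IsIntegral) (x y : L)
    (hx : x ∈ IsLocalRing.maximalIdeal L) (hy : y ∈ IsLocalRing.maximalIdeal L)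
    (a : R) (q : ℕ) (haq : ∃ t : R, a ^ q = ψ x + ψ y * t)
    (c0 : L) (hc0 : IsUnit c0) (s s' : R) : IsUnit (ψ c0 + a * s + ψ y * s') := by
  by_contra hnu
  obtain ⟨𝔐, h𝔐, hmem⟩ := exists_max_ideal_of_mem_nonunits hnu
  obtain ⟨ha, hy'⟩ := s36ta_mem_max ψ hint x y hx hy a q haq 𝔐
  have h1 : ψ c0 ∈ 𝔐 := by
    have e : ψ c0 = (ψ c0 + a * s + ψ y * s') - a * s - ψ y * s' := by ring
    rw [e]
    exact 𝔐.sub_mem (𝔐.sub_mem hmem (𝔐.mul_mem_right _ ha)) (𝔐.mul_mem_right _ hy')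
  exact h𝔐.ne_top (Ideal.eq_top_of_isUnit_mem _ h1 (hc0.map ψ))

end Local

section Rank

variable {L R : Type*} [CommRing L] [CommRing R] (ψ : L →+* R) (I : Ideal R) [hI : I.IsPrime]
  (x y : L) (a : R) (q : ℕ)

include hI in
theorem s36ta_rank_aux (hq : 0 < q) (hL : ∀ c : L, IsUnit c ∨ c ∈ Ideal.span {x, y})
    (hyI : ψ y ∈ I) (haI : a ∉ I) (haq : ψ x - a ^ q ∈ I) (hnu : ∀ r : R, a * r - 1 ∉ I)
    (hDVR : ∀ c : L, c ∉ Ideal.span {y} →
      ∃ (n : ℕ) (u : L), IsUnit u ∧ c - x ^ n * u ∈ Ideal.span {y})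
    (hψy : ∀ r : R, ψ y * r = 0 → r = 0) (r : R) (N : ℕ) :
    ∀ (c : Fin q → L) (d : L), ∑ i, ψ (c i) * a ^ (i : ℕ) + ψ d * r = 0 →
      (d ∉ Ideal.span {y ^ N} ∨ ∃ i, c i ∉ Ideal.span {y ^ N}) →
      ∃ (c' : Fin q → L) (d' : L), d' ∉ Ideal.span {y} ∧
        ψ d' * r - ∑ i, ψ (c' i) * a ^ (i : ℕ) ∈ I := by
  induction N with
  | zero =>
    intro c d _ h
    exfalso
    have htop : ∀ z : L, z ∈ Ideal.span {y ^ 0} := fun z => by
      rw [pow_zero, Ideal.span_singleton_one]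
      trivial
    rcases h with h | ⟨i, h⟩
    · exact h (htop _)
    · exact h (htop _)
  | succ N ih =>
    intro c d hrel hne
    by_cases hd : d ∈ Ideal.span {y}
    · obtain ⟨d1, hd1⟩ := Ideal.mem_span_singleton'.mp hd
      have hd1' : ψ d = ψ d1 * ψ y := by rw [← hd1, map_mul]
      have hsum : ∑ i, ψ (c i) * a ^ (i : ℕ) ∈ I := by
        have e : ∑ i, ψ (c i) * a ^ (i : ℕ) = -(ψ y * (ψ d1 * r)) := by
          rw [hd1'] at hrel
          linear_combination hrel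
        rw [e]
        exact I.neg_mem (I.mul_mem_right _ hyI)
      have hci := s36ta_indep ψ I x y a q hq hL hyI haI haq hnu hDVR c hsum
      choose c1 hc1 using fun i => Ideal.mem_span_singleton'.mp (hci i)
      have hrel1 : ∑ i, ψ (c1 i) * a ^ (i : ℕ) + ψ d1 * r = 0 := by
        apply hψy
        have e : ψ y * (∑ i, ψ (c1 i) * a ^ (i : ℕ) + ψ d1 * r) =
            ∑ i, ψ (c i) * a ^ (i : ℕ) + ψ d * r := by
          rw [mul_add, mul_sum, hd1']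
          congr 1
          · exact sum_congr rfl (fun i _ => by rw [← hc1 i, map_mul]; ring)
          · ring
        rw [e, hrel]
      refine ih c1 d1 hrel1 ?_
      rcases hne with h | ⟨i, h⟩
      · left
        intro h'
        apply h
        obtain ⟨w, hw⟩ := Ideal.mem_span_singleton'.mp h'
        rw [Ideal.mem_span_singleton']
        exact ⟨w, by rw [← hd1, ← hw, pow_succ]; ring⟩
      · right
        refine ⟨i, fun h' => h ?_⟩
        obtain ⟨w, hw⟩ := Ideal.mem_span_singleton'.mp h'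
        rw [Ideal.mem_span_singleton']
        exact ⟨w, by rw [← hc1 i, ← hw, pow_succ]; ring⟩
    · refine ⟨fun i => -c i, d, hd, ?_⟩
      have e : ψ d * r - ∑ i, ψ (-c i) * a ^ (i : ℕ) = 0 := by
        have e' : ∑ i, ψ (-c i) * a ^ (i : ℕ) = -∑ i, ψ (c i) * a ^ (i : ℕ) := by
          rw [← sum_neg_distrib]
          exact sum_congr rfl (fun i _ => by rw [map_neg]; ring)
        rw [e']
        linear_combination hrel
      rw [e]
      exact I.zero_mem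

include hI in
/-- The reduced rank condition from an exact nontrivial linear relation. -/
theorem s36ta_rank [IsLocalRing L] [IsNoetherianRing L] (hq : 0 < q)
    (hL : ∀ c : L, IsUnit c ∨ c ∈ Ideal.span {x, y})
    (hyI : ψ y ∈ I) (haI : a ∉ I) (haq : ψ x - a ^ q ∈ I) (hnu : ∀ r : R, a * r - 1 ∉ I)
    (hDVR : ∀ c : L, c ∉ Ideal.span {y} →
      ∃ (n : ℕ) (u : L), IsUnit u ∧ c - x ^ n * u ∈ Ideal.span {y})
    (hψy : ∀ r : R, ψ y * r = 0 → r = 0) (hyM : y ∈ IsLocalRing.maximalIdeal L) (r : R)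
    (c : Fin q → L) (d : L) (hne : d ≠ 0 ∨ ∃ i, c i ≠ 0)
    (hrel : ∑ i, ψ (c i) * a ^ (i : ℕ) + ψ d * r = 0) :
    ∃ (c' : Fin q → L) (d' : L), d' ∉ Ideal.span {y} ∧
      ψ d' * r - ∑ i, ψ (c' i) * a ^ (i : ℕ) ∈ I := by
  have htop : Ideal.span {y} ≠ ⊤ := by
    intro h
    rw [Ideal.span_singleton_eq_top] at h
    exact (IsLocalRing.mem_maximalIdeal y).mp hyM h
  have hK := Ideal.iInf_pow_eq_bot_of_isLocalRing (Ideal.span {y}) htop
  have hkr : ∀ z : L, z ≠ 0 → ∃ N : ℕ, z ∉ Ideal.span {y ^ N} := by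
    intro z hz
    by_contra hcon
    push Not at hcon
    have h1 : z ∈ ⨅ i : ℕ, Ideal.span {y} ^ i := by
      rw [Ideal.mem_iInf]
      intro i
      rw [Ideal.span_singleton_pow]
      exact hcon i
    rw [hK] at h1
    exact hz ((Ideal.mem_bot).mp h1)
  rcases hne with hd | ⟨i, hi⟩
  · obtain ⟨N, hN⟩ := hkr d hd
    exact s36ta_rank_aux ψ I x y a q hq hL hyI haI haq hnu hDVR hψy r N c d hrel (Or.inl hN)
  · obtain ⟨N, hN⟩ := hkr (c i) hi
    exact s36ta_rank_aux ψ I x y a q hq hL hyI haI haq hnu hDVR hψy r N c d hrel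
      (Or.inr ⟨i, hN⟩)

end Rank

section Field

variable {F : Type*} [Field F]

/-- The prime ideal `R ∩ 𝔪_W` of a subring `R ≤ W`. -/
def s36taIdeal (R : Subring F) (W : ValuationSubring F) (hRW : ∀ r ∈ R, r ∈ W) : Ideal ↥R where
  carrier := {r | (r : F) ∈ W.nonunits}
  add_mem' := by
    intro r s hr hs
    show ((r + s : ↥R) : F) ∈ W.nonunits
    have hr' : (r : F) ∈ W.nonunits := hr
    have hs' : (s : F) ∈ W.nonunits := hs
    rw [ValuationSubring.mem_nonunits_iff] at hr' hs'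
    rw [Subring.coe_add, ValuationSubring.mem_nonunits_iff]
    exact Valuation.map_add_lt _ hr' hs'
  zero_mem' := by
    show ((0 : ↥R) : F) ∈ W.nonunits
    rw [Subring.coe_zero, ValuationSubring.mem_nonunits_iff, map_zero]
    exact zero_lt_one
  smul_mem' := by
    intro c r hr
    show ((c • r : ↥R) : F) ∈ W.nonunits
    have hr' : (r : F) ∈ W.nonunits := hr
    rw [ValuationSubring.mem_nonunits_iff] at hr'
    rw [smul_eq_mul, Subring.coe_mul, ValuationSubring.mem_nonunits_iff, map_mul]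
    exact lt_of_le_of_lt
      (mul_le_of_le_one_left' ((W.valuation_le_one_iff _).mpr (hRW _ c.2))) hr'

theorem s36taIdeal_mem (R : Subring F) (W : ValuationSubring F) (hRW : ∀ r ∈ R, r ∈ W)
    (r : ↥R) : r ∈ s36taIdeal R W hRW ↔ (r : F) ∈ W.nonunits := Iff.rfl

instance s36taIdeal_prime (R : Subring F) (W : ValuationSubring F) (hRW : ∀ r ∈ R, r ∈ W) :
    (s36taIdeal R W hRW).IsPrime := by
  rw [Ideal.isPrime_iff]
  refine ⟨?_, ?_⟩
  · intro h
    have h1 : (1 : ↥R) ∈ s36taIdeal R W hRW := by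
      rw [h]
      trivial
    rw [s36taIdeal_mem, Subring.coe_one, ValuationSubring.mem_nonunits_iff, map_one] at h1
    exact lt_irrefl _ h1
  · intro r s hrs
    rw [s36taIdeal_mem, Subring.coe_mul, ValuationSubring.mem_nonunits_iff, map_mul] at hrs
    by_contra hcon
    push Not at hcon
    obtain ⟨h1, h2⟩ := hcon
    rw [s36taIdeal_mem, ValuationSubring.mem_nonunits_iff, not_lt] at h1 h2
    have hr : W.valuation (r : F) = 1 :=
      le_antisymm ((W.valuation_le_one_iff _).mpr (hRW _ r.2)) h1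
    have hs : W.valuation (s : F) = 1 :=
      le_antisymm ((W.valuation_le_one_iff _).mpr (hRW _ s.2)) h2
    rw [hr, hs, mul_one] at hrs
    exact lt_irrefl _ hrs

end Field

section Side

variable {L F : Type*} [CommRing L] [IsLocalRing L] [IsNoetherianRing L] [Field F]

omit [IsNoetherianRing L] in
theorem s36ta_mem_maximal (x y : L) (hxy : (1 : L) ∉ Ideal.span {x, y}) :
    x ∈ IsLocalRing.maximalIdeal L ∧ y ∈ IsLocalRing.maximalIdeal L := by
  constructor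
  · rw [IsLocalRing.mem_maximalIdeal]
    intro hu
    obtain ⟨w, hw⟩ := hu.exists_right_inv
    apply hxy
    rw [← hw]
    exact Ideal.mul_mem_right _ _ (Ideal.subset_span (Set.mem_insert _ _))
  · rw [IsLocalRing.mem_maximalIdeal]
    intro hu
    obtain ⟨w, hw⟩ := hu.exists_right_inv
    apply hxy
    rw [← hw]
    exact Ideal.mul_mem_right _ _
      (Ideal.subset_span (Set.mem_insert_of_mem _ (Set.mem_singleton _)))

/-- **TRIPLE-ABS, one side.**  `ψ : L → F` the composite of the inclusion of the regular node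
ring `L` of level `L q` (maximal ideal `(x, y)`) with one of the two embeddings, `R ⊆ F` a
subring finite over `ψ L`, `W ⊇ R` the vertical valuation over which the embedding is purely
inseparable: `R ∩ 𝔪_W = ψ y R`, `a ∈ R` a unit of `W` with `a ^ q ≡ ψ x mod 𝔪_W`, `a` and `ψ y`
in a common proper ideal of `R`, and `[F : Frac ψ L] ≤ q` (relation form).  Then
`R = ⊕_{i < q} ψ L a ^ i`, every element of `R` is `ψ c₀ + a s`, and `R` is local with maximal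
ideal `(a, ψ y)`. -/
theorem s36ta_side (ψ : L →+* F) (R : Subring F) (hψR : ∀ c, ψ c ∈ R)
    (hfin : ∃ G : Finset F, (∀ g ∈ G, g ∈ R) ∧
      ∀ r ∈ R, ∃ c : F → L, r = ∑ g ∈ G, ψ (c g) * g)
    (x y : L) (hmax : ∀ c : L, IsUnit c ∨ c ∈ Ideal.span {x, y}) (hy0 : ψ y ≠ 0)
    (q : ℕ) (hq : 0 < q) (a : F) (ha : a ∈ R)
    (W : ValuationSubring F) (hRW : ∀ r ∈ R, r ∈ W)
    (hyW : ψ y ∈ W.nonunits) (haW : a ∉ W.nonunits) (haq : ψ x - a ^ q ∈ W.nonunits)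
    (hPR : ∀ r ∈ R, r ∈ W.nonunits → ∃ s ∈ R, r = ψ y * s)
    (hnu : ∀ r ∈ R, ∀ s ∈ R, a * r + ψ y * s ≠ 1)
    (hrank : ∀ r ∈ R, ∃ (c : Fin q → L) (d : L), (d ≠ 0 ∨ ∃ i, c i ≠ 0) ∧
      ∑ i, ψ (c i) * a ^ (i : ℕ) + ψ d * r = 0) :
    (∀ r ∈ R, ∃ c : Fin q → L, r = ∑ i, ψ (c i) * a ^ (i : ℕ)) ∧
    (∀ r ∈ R, ∃ c0 : L, ∃ s ∈ R, r = ψ c0 + a * s) ∧
    (∀ r ∈ R, (r ≠ 0 ∧ r⁻¹ ∈ R) ∨ ∃ s ∈ R, ∃ s' ∈ R, r = a * s + ψ y * s') := by
  classical
  let ψR : L →+* ↥R := ψ.codRestrict R hψR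
  have hψRc : ∀ c, ((ψR c : ↥R) : F) = ψ c := fun c => rfl
  let aR : ↥R := ⟨a, ha⟩
  have haRc : ((aR : ↥R) : F) = a := rfl
  have hyI : ψR y ∈ s36taIdeal R W hRW := hyW
  have haI : aR ∉ s36taIdeal R W hRW := haW
  have haqI : ψR x - aR ^ q ∈ s36taIdeal R W hRW := by
    rw [s36taIdeal_mem, AddSubgroupClass.coe_sub, Subring.coe_pow, hψRc, haRc]
    exact haq
  obtain ⟨s0, hs0R, hs0⟩ := hPR (ψ x - a ^ q) (R.sub_mem (hψR x) (R.pow_mem ha q)) haq
  have hpow : a * a ^ (q - 1) = a ^ q := by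
    rw [← pow_succ']
    congr 1
    omega
  have hnuI : ∀ r : ↥R, aR * r - 1 ∉ s36taIdeal R W hRW := by
    intro r hr
    rw [s36taIdeal_mem, AddSubgroupClass.coe_sub, Subring.coe_mul, Subring.coe_one, haRc] at hr
    obtain ⟨s, hsR, hs⟩ := hPR _ (R.sub_mem (R.mul_mem ha r.2) R.one_mem) hr
    exact hnu r r.2 (-s) (R.neg_mem hsR) (by linear_combination hs)
  have hxy : (1 : L) ∉ Ideal.span {x, y} := by
    intro h
    obtain ⟨u, v, huv⟩ := Ideal.mem_span_pair.mp h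
    have h1 : ψ u * ψ x + ψ v * ψ y = 1 := by
      rw [← map_mul, ← map_mul, ← map_add, huv, map_one]
    refine hnu (a ^ (q - 1) * ψ u) (R.mul_mem (R.pow_mem ha _) (hψR u)) (ψ u * s0 + ψ v)
      (R.add_mem (R.mul_mem (hψR u) hs0R) (hψR v)) ?_
    linear_combination h1 + (ψ u) * hpow - (ψ u) * hs0
  obtain ⟨hxM, hyM⟩ := s36ta_mem_maximal x y hxy
  have hDVR := s36ta_dvr x y hmax hxy
  have hψy : ∀ r : ↥R, ψR y * r = 0 → r = 0 := by
    intro r hr
    have h1 : ψ y * (r : F) = 0 := by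
      have h2 := congrArg Subtype.val hr
      rwa [Subring.coe_mul, hψRc, Subring.coe_zero] at h2
    rcases mul_eq_zero.mp h1 with h | h
    · exact absurd h hy0
    · exact Subtype.ext h
  have hcoe_sum : ∀ (c : Fin q → L),
      ((∑ i, ψR (c i) * aR ^ (i : ℕ) : ↥R) : F) = ∑ i, ψ (c i) * a ^ (i : ℕ) := by
    intro c
    rw [AddSubmonoidClass.coe_finsetSum]
    exact sum_congr rfl (fun i _ => by rw [Subring.coe_mul, Subring.coe_pow, hψRc, haRc])
  have hrankI : ∀ r : ↥R, ∃ (c : Fin q → L) (d : L), d ∉ Ideal.span {y} ∧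
      ψR d * r - ∑ i, ψR (c i) * aR ^ (i : ℕ) ∈ s36taIdeal R W hRW := by
    intro r
    obtain ⟨c, d, hne, hrel⟩ := hrank r r.2
    refine s36ta_rank ψR (s36taIdeal R W hRW) x y aR q hq hmax hyI haI haqI hnuI hDVR hψy hyM
      r c d hne ?_
    apply Subtype.ext
    rw [Subring.coe_add, hcoe_sum, Subring.coe_mul, hψRc, Subring.coe_zero]
    exact hrel
  have hcore := s36ta_core ψR (s36taIdeal R W hRW) x y aR q hmax hyI haI haqI hnuI hDVR hrankI
  have hdec : ∀ r : ↥R, ∃ (c : Fin q → L) (s : ↥R),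
      r = ∑ i, ψR (c i) * aR ^ (i : ℕ) + ψR y * s := by
    intro r
    obtain ⟨c, hc⟩ := hcore r
    rw [s36taIdeal_mem] at hc
    obtain ⟨s, hsR, hs⟩ := hPR _ (r - ∑ i, ψR (c i) * aR ^ (i : ℕ)).2 hc
    refine ⟨c, ⟨s, hsR⟩, ?_⟩
    apply Subtype.ext
    rw [Subring.coe_add, Subring.coe_mul, hψRc]
    rw [AddSubgroupClass.coe_sub] at hs
    linear_combination hs
  have hfinR : ψR.Finite := by
    obtain ⟨G, hG, hspan⟩ := hfin
    let _ := ψR.toAlgebra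
    show Module.Finite L ↥R
    rw [Module.finite_def, Submodule.fg_def]
    refine ⟨{g : ↥R | (g : F) ∈ G},
      Set.Finite.preimage Subtype.val_injective.injOn G.finite_toSet, ?_⟩
    rw [eq_top_iff]
    intro r _
    obtain ⟨c, hc⟩ := hspan r r.2
    have hr : r = ∑ g ∈ G.attach, c g • (⟨g, hG g g.2⟩ : ↥R) := by
      apply Subtype.ext
      rw [AddSubmonoidClass.coe_finsetSum, hc]
      refine (Finset.sum_attach G (fun g => ψ (c g) * g)).symm.trans ?_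
      refine sum_congr rfl (fun g _ => ?_)
      rw [Algebra.smul_def]
      rfl
    rw [hr]
    exact Submodule.sum_mem _ (fun g _ => Submodule.smul_mem _ _ (Submodule.subset_span g.2))
  have hexact := s36ta_span ψR hfinR y hyM aR q hdec
  have h1 : ∀ r ∈ R, ∃ c : Fin q → L, r = ∑ i, ψ (c i) * a ^ (i : ℕ) := by
    intro r hr
    obtain ⟨c, hc⟩ := hexact ⟨r, hr⟩
    refine ⟨c, ?_⟩
    have h2 := congrArg Subtype.val hc
    rw [hcoe_sum] at h2
    exact h2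
  have h2 : ∀ r ∈ R, ∃ c0 : L, ∃ s ∈ R, r = ψ c0 + a * s := by
    intro r hr
    obtain ⟨c, hc⟩ := h1 r hr
    refine ⟨c ⟨0, hq⟩, ∑ i ∈ univ.erase (⟨0, hq⟩ : Fin q), ψ (c i) * a ^ ((i : ℕ) - 1),
      R.sum_mem (fun i _ => R.mul_mem (hψR _) (R.pow_mem ha _)), ?_⟩
    rw [hc, ← add_sum_erase univ _ (mem_univ (⟨0, hq⟩ : Fin q)), mul_sum]
    congr 1
    · simp
    · refine sum_congr rfl (fun i hi => ?_)
      have hi0 : (i : ℕ) ≠ 0 := by
        intro h0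
        exact (ne_of_mem_erase hi) (Fin.ext h0)
      have hpw : a ^ (i : ℕ) = a * a ^ ((i : ℕ) - 1) := by
        rw [← pow_succ']
        congr 1
        omega
      rw [hpw]
      ring
  refine ⟨h1, h2, ?_⟩
  intro r hr
  obtain ⟨c0, s, hs, hrs⟩ := h2 r hr
  rcases hmax c0 with hu | hm
  · left
    have hint : ψR.IsIntegral := hfinR.to_isIntegral
    have haq' : ∃ t : ↥R, aR ^ q = ψR x + ψR y * t := by
      refine ⟨⟨-s0, R.neg_mem hs0R⟩, ?_⟩
      apply Subtype.ext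
      rw [Subring.coe_pow, Subring.coe_add, Subring.coe_mul, hψRc, hψRc, haRc]
      show a ^ q = ψ x + ψ y * -s0
      linear_combination -hs0
    have hunit := s36ta_unit ψR hint x y hxM hyM aR q haq' c0 hu ⟨s, hs⟩ 0
    obtain ⟨w, hw⟩ := hunit.exists_right_inv
    have hw' : r * (w : F) = 1 := by
      have h3 := congrArg Subtype.val hw
      rw [Subring.coe_mul, Subring.coe_add, Subring.coe_add, Subring.coe_mul, Subring.coe_mul,
        hψRc, hψRc, haRc, Subring.coe_zero, Subring.coe_one, mul_zero, add_zero] at h3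
      rw [hrs]
      exact h3
    have hr0 : r ≠ 0 := by
      intro h0
      rw [h0, zero_mul] at hw'
      exact zero_ne_one hw'
    refine ⟨hr0, ?_⟩
    rw [← eq_inv_of_mul_eq_one_right hw']
    exact w.2
  · right
    obtain ⟨u, v, huv⟩ := Ideal.mem_span_pair.mp hm
    refine ⟨a ^ (q - 1) * ψ u + s, R.add_mem (R.mul_mem (R.pow_mem ha _) (hψR u)) hs,
      ψ v + ψ u * s0, R.add_mem (hψR v) (R.mul_mem (hψR u) hs0R), ?_⟩
    have h3 : ψ c0 = ψ u * ψ x + ψ v * ψ y := by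
      rw [← huv, map_add, map_mul, map_mul]
    rw [hrs, h3]
    linear_combination (ψ u) * hs0 - (ψ u) * hpow

end Side

section Tri

variable {F : Type*} [Field F]

theorem s36ta_nu_mul (W : ValuationSubring F) {x y : F} (hx : x ∈ W.nonunits) (hy : y ∈ W) :
    x * y ∈ W.nonunits := by
  rw [ValuationSubring.mem_nonunits_iff] at hx ⊢
  rw [map_mul]
  exact lt_of_le_of_lt (mul_le_of_le_one_right' ((W.valuation_le_one_iff y).mpr hy)) hx

theorem s36ta_nu_inv (W : ValuationSubring F) {x : F} (hx0 : x ≠ 0) (hx : x ∈ W.nonunits)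
    (hx' : x⁻¹ ∈ W) : False := by
  have h1 := s36ta_nu_mul W hx hx'
  rw [mul_inv_cancel₀ hx0, ValuationSubring.mem_nonunits_iff, map_one] at h1
  exact lt_irrefl _ h1

/-- **TRIPLE-ABS**: the local data `S36Tri` of the toric core at a triple point, from the two
one-sided structures (`s36ta_side` for `α ∘ ια` over `Wb` and for `β ∘ ιβ` over `Wa`). -/
theorem s36ta_tri {A E Lα Lβ : Type*} [CommRing A] [Field E] [Algebra A F]
    [CommRing Lα] [IsLocalRing Lα] [IsNoetherianRing Lα]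
    [CommRing Lβ] [IsLocalRing Lβ] [IsNoetherianRing Lβ]
    (α β : E →+* F) (Nα Nβ : F →* E) (Wa Wb Wc : ValuationSubring F) (m : ℕ) (R : Subring F)
    (ια : Lα →+* E) (ιβ : Lβ →+* E)
    -- general facts on `R`
    (hRW : ∀ x ∈ R, x ∈ Wa ∧ x ∈ Wb ∧ x ∈ Wc)
    (hAR : ∀ a : A, algebraMap A F a ∈ R)
    (hroot : ∀ x : F, x ^ m ∈ R → x ∈ R)
    (hNα : ∀ u ∈ R, ∃ c : Lα, Nα u = ια c) (hNβ : ∀ u ∈ R, ∃ c : Lβ, Nβ u = ιβ c)
    (q : ℕ) (hq : 0 < q)
    -- the `α`-side (purely inseparable over `Wb`)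
    (hαR : ∀ c, α (ια c) ∈ R)
    (hfinα : ∃ G : Finset F, (∀ g ∈ G, g ∈ R) ∧
      ∀ r ∈ R, ∃ c : F → Lα, r = ∑ g ∈ G, α (ια (c g)) * g)
    (xα yα : Lα) (hmaxα : ∀ c : Lα, IsUnit c ∨ c ∈ Ideal.span {xα, yα})
    (hyα0 : α (ια yα) ≠ 0)
    (xa : F) (hxaR : xa ∈ R) (hxaWa : xa ∈ Wa.nonunits)
    (hyαWb : α (ια yα) ∈ Wb.nonunits) (hxaWb : xa ∉ Wb.nonunits)
    (haqα : α (ια xα) - xa ^ q ∈ Wb.nonunits)
    (hPb : ∀ r ∈ R, r ∈ Wb.nonunits → ∃ s ∈ R, r = α (ια yα) * s)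
    (hnuα : ∀ r ∈ R, ∀ s ∈ R, xa * r + α (ια yα) * s ≠ 1)
    (hrankα : ∀ r ∈ R, ∃ (c : Fin q → Lα) (d : Lα), (d ≠ 0 ∨ ∃ i, c i ≠ 0) ∧
      ∑ i, α (ια (c i)) * xa ^ (i : ℕ) + α (ια d) * r = 0)
    -- the `β`-side (purely inseparable over `Wa`)
    (hβR : ∀ c, β (ιβ c) ∈ R)
    (hfinβ : ∃ G : Finset F, (∀ g ∈ G, g ∈ R) ∧
      ∀ r ∈ R, ∃ c : F → Lβ, r = ∑ g ∈ G, β (ιβ (c g)) * g)
    (xβ yβ : Lβ) (hmaxβ : ∀ c : Lβ, IsUnit c ∨ c ∈ Ideal.span {xβ, yβ})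
    (hyβ0 : β (ιβ yβ) ≠ 0)
    (xb : F) (hxbR : xb ∈ R) (hxbWb : xb ∈ Wb.nonunits)
    (hyβWa : β (ιβ yβ) ∈ Wa.nonunits) (hxbWa : xb ∉ Wa.nonunits)
    (haqβ : β (ιβ xβ) - xb ^ q ∈ Wa.nonunits)
    (hPa : ∀ r ∈ R, r ∈ Wa.nonunits → ∃ s ∈ R, r = β (ιβ yβ) * s)
    (hnuβ : ∀ r ∈ R, ∀ s ∈ R, xb * r + β (ιβ yβ) * s ≠ 1)
    (hrankβ : ∀ r ∈ R, ∃ (c : Fin q → Lβ) (d : Lβ), (d ≠ 0 ∨ ∃ i, c i ≠ 0) ∧
      ∑ i, β (ιβ (c i)) * xb ^ (i : ℕ) + β (ιβ d) * r = 0) :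
    S36Tri (A := A) α β Nα Nβ Wa Wb Wc m R := by
  obtain ⟨-, hα2, hα3⟩ := s36ta_side (α.comp ια) R hαR hfinα xα yα hmaxα hyα0 q hq xa hxaR Wb
    (fun r hr => (hRW r hr).2.1) hyαWb hxaWb haqα hPb hnuα hrankα
  obtain ⟨-, hβ2, -⟩ := s36ta_side (β.comp ιβ) R hβR hfinβ xβ yβ hmaxβ hyβ0 q hq xb hxbR Wa
    (fun r hr => (hRW r hr).1) hyβWa hxbWa haqβ hPa hnuβ hrankβ
  -- elements of `R ∩ 𝔪_W` lie in the maximal ideal `(xa, α yα)`
  have hMa : ∀ p ∈ R, p ∈ Wa.nonunits →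
      ∃ s ∈ R, ∃ s' ∈ R, p = xa * s + α (ια yα) * s' := by
    intro p hp hpW
    rcases hα3 p hp with ⟨hp0, hpinv⟩ | h
    · exact (s36ta_nu_inv Wa hp0 hpW (hRW _ hpinv).1).elim
    · exact h
  have hMb : ∀ p ∈ R, p ∈ Wb.nonunits →
      ∃ s ∈ R, ∃ s' ∈ R, p = xa * s + α (ια yα) * s' := by
    intro p hp hpW
    rcases hα3 p hp with ⟨hp0, hpinv⟩ | h
    · exact (s36ta_nu_inv Wb hp0 hpW (hRW _ hpinv).2.1).elim
    · exact h
  have hMc : ∀ p ∈ R, p ∈ Wc.nonunits →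
      ∃ s ∈ R, ∃ s' ∈ R, p = xa * s + α (ια yα) * s' := by
    intro p hp hpW
    rcases hα3 p hp with ⟨hp0, hpinv⟩ | h
    · exact (s36ta_nu_inv Wc hp0 hpW (hRW _ hpinv).2.2).elim
    · exact h
  have hN : ∀ (φ : E →+* F) (N : F →* E), (∀ u ∈ R, φ (N u) ∈ R) →
      ∀ u ∈ R, u⁻¹ ∈ R → φ (N u) ∈ R ∧ (φ (N u))⁻¹ ∈ R := by
    intro φ N hNR u hu hu'
    refine ⟨hNR u hu, ?_⟩
    by_cases hu0 : u = 0
    · have h1 : N 0 * N 0 = N 0 := by rw [← map_mul, mul_zero]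
      have h2 : N 0 = 0 ∨ N 0 = 1 := by
        by_cases h0 : N 0 = 0
        · exact Or.inl h0
        · exact Or.inr (mul_left_cancel₀ h0 (by rw [h1, mul_one]))
      rw [hu0]
      rcases h2 with h | h
      · rw [h, map_zero, inv_zero]
        exact R.zero_mem
      · rw [h, map_one, inv_one]
        exact R.one_mem
    · have h1 : N u * N u⁻¹ = 1 := by rw [← map_mul, mul_inv_cancel₀ hu0, map_one]
      have h2 : (N u)⁻¹ = N u⁻¹ := (eq_inv_of_mul_eq_one_right h1).symm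
      rw [← map_inv₀, h2]
      exact hNR _ hu'
  refine ⟨hRW, hAR, ?_, ?_, hroot, ?_, ?_, ?_, ?_⟩
  · intro x hx hx' hx0 p hp hpW p' hp' hpW'
    obtain ⟨s1, hs1, s1', hs1', h1⟩ := hMa p hp hpW
    obtain ⟨s2, hs2, s2', hs2', h2⟩ := hMb p' hp' hpW'
    rcases hα3 (x + p + p') (R.add_mem (R.add_mem hx hp) hp') with h | ⟨s3, hs3, s3', hs3', h3⟩
    · exact h
    · exfalso
      refine hnuα ((s3 - s1 - s2) * x⁻¹) (R.mul_mem (R.sub_mem (R.sub_mem hs3 hs1) hs2) hx')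
        ((s3' - s1' - s2') * x⁻¹) (R.mul_mem (R.sub_mem (R.sub_mem hs3' hs1') hs2') hx') ?_
      have hx1 : x = xa * (s3 - s1 - s2) + α (ια yα) * (s3' - s1' - s2') := by
        linear_combination h3 - h1 - h2
      have e : xa * ((s3 - s1 - s2) * x⁻¹) + α (ια yα) * ((s3' - s1' - s2') * x⁻¹) =
          (xa * (s3 - s1 - s2) + α (ια yα) * (s3' - s1' - s2')) * x⁻¹ := by ring
      rw [e, ← hx1, mul_inv_cancel₀ hx0]
  · intro z hz hzW
    obtain ⟨s, hs, s', hs', h⟩ := hMc z hz hzW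
    exact ⟨xa * s, R.mul_mem hxaR hs, s36ta_nu_mul Wa hxaWa (hRW _ hs).1,
      α (ια yα) * s', R.mul_mem (hαR yα) hs', s36ta_nu_mul Wb hyαWb (hRW _ hs').2.1, h⟩
  · exact hN α Nα (fun u hu => by obtain ⟨c, hc⟩ := hNα u hu; rw [hc]; exact hαR c)
  · exact hN β Nβ (fun u hu => by obtain ⟨c, hc⟩ := hNβ u hu; rw [hc]; exact hβR c)
  · intro a ha
    obtain ⟨c0, s, hs, h⟩ := hα2 a ha
    refine ⟨ια c0, hαR c0, ?_⟩
    have e : a - α (ια c0) = xa * s := by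
      rw [h]
      simp
    rw [e]
    exact s36ta_nu_mul Wa hxaWa (hRW _ hs).1
  · intro a ha
    obtain ⟨c0, s, hs, h⟩ := hβ2 a ha
    refine ⟨ιβ c0, hβR c0, ?_⟩
    have e : a - β (ιβ c0) = xb * s := by
      rw [h]
      simp
    rw [e]
    exact s36ta_nu_mul Wb hxbWb (hRW _ hs).2.1

end Tri

end Fermat.Agent.S36
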