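import Mathlib

/-!
# S36, leaf TRIPLE-GLUE-ABS (blueprint 4.C): gluing three branch units at a triple point

`Λ` a commutative ring, `𝔪` an ideal containing the prime number `q`, `p₁ p₂ p₃` ideals
(the three branches through the point).

* `s36tg_pow_iter`: `a ≡ b mod 𝔪` ⟹ `a ^ (q ^ k) ≡ b ^ (q ^ k) mod 𝔪 ^ (k + 1)`.
* `s36tg_patch`: if `𝔪 ^ N ≤ p₁ + p₂` and `𝔪 ^ N' ≤ p₁ ∩ p₂ + p₃`, three elements of
  `𝔪 ^ (N' + N)` are simultaneously congruent to ONE element modulo `p₁`, `p₂`, `p₃`.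
* `s36tg_three_pow`, `s36tg_main` (noetherian, `𝔪 ≤ rad (p_i + p_j)` pairwise): for
  `r₁ ≡ r₂ ≡ r₃ mod 𝔪` there are `k` and `r` with `r ≡ r_i ^ (q ^ k) mod p_i`, `i = 1, 2, 3`.
  No regularity, no principality of the `p_i` is needed.
* `s36tg_primary`: in a noetherian local ring, if `𝔪 = π Λ + p` with `p` prime ("the branch
  `Λ ⧸ p` is a discrete valuation ring") and `J ⊄ p`, then `𝔪 ≤ rad (p + J)`.
* `s36tg_triple`: the two combined.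
-/

set_option autoImplicit false

namespace Fermat.Agent.S36

open Finset

section Abs

variable {Λ : Type*} [CommRing Λ]

/-- `a ≡ b mod I`, `I ≤ 𝔪`, `q ∈ 𝔪` ⟹ `a ^ q ≡ b ^ q mod I * 𝔪`. -/
theorem s36tg_pow_step (𝔪 I : Ideal Λ) (hI : I ≤ 𝔪) (q : ℕ) (hq : (q : Λ) ∈ 𝔪) {a b : Λ}
    (hab : a - b ∈ I) : a ^ q - b ^ q ∈ I * 𝔪 := by
  have h1 := Commute.geom_sum₂_mul (Commute.all a b) q
  rw [← h1, mul_comm (∑ i ∈ range q, a ^ i * b ^ (q - 1 - i)) (a - b)]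
  refine Ideal.mul_mem_mul hab ?_
  rw [← Ideal.Quotient.eq_zero_iff_mem, map_sum]
  have hab' : Ideal.Quotient.mk 𝔪 a = Ideal.Quotient.mk 𝔪 b := by
    rw [Ideal.Quotient.eq]
    exact hI hab
  have h2 : ∀ i ∈ range q, Ideal.Quotient.mk 𝔪 (a ^ i * b ^ (q - 1 - i)) =
      Ideal.Quotient.mk 𝔪 b ^ (q - 1) := by
    intro i hi
    rw [map_mul, map_pow, map_pow, hab', ← pow_add]
    congr 1
    have := mem_range.mp hi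
    omega
  rw [sum_congr rfl h2, sum_const, card_range, nsmul_eq_mul]
  have h3 : ((q : Λ ⧸ 𝔪)) = Ideal.Quotient.mk 𝔪 (q : Λ) := by simp
  rw [h3, Ideal.Quotient.eq_zero_iff_mem.mpr hq, zero_mul]

/-- `a ≡ b mod 𝔪`, `q ∈ 𝔪` ⟹ `a ^ (q ^ k) ≡ b ^ (q ^ k) mod 𝔪 ^ (k + 1)`. -/
theorem s36tg_pow_iter (𝔪 : Ideal Λ) (q : ℕ) (hq : (q : Λ) ∈ 𝔪) {a b : Λ} (hab : a - b ∈ 𝔪)
    (k : ℕ) : a ^ (q ^ k) - b ^ (q ^ k) ∈ 𝔪 ^ (k + 1) := by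
  induction k with
  | zero => simpa using hab
  | succ k ih =>
    rw [pow_succ q k, pow_mul, pow_mul, pow_succ 𝔪 (k + 1)]
    exact s36tg_pow_step 𝔪 (𝔪 ^ (k + 1)) (Ideal.pow_le_self (by omega)) q hq ih

/-- Patching three deep elements along three branches. -/
theorem s36tg_patch (𝔪 p₁ p₂ p₃ : Ideal Λ) (N N' : ℕ) (h12 : 𝔪 ^ N ≤ p₁ ⊔ p₂)
    (h3 : 𝔪 ^ N' ≤ (p₁ ⊓ p₂) ⊔ p₃) (a₁ a₂ a₃ : Λ) (ha₁ : a₁ ∈ 𝔪 ^ (N' + N))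
    (ha₂ : a₂ ∈ 𝔪 ^ (N' + N)) (ha₃ : a₃ ∈ 𝔪 ^ (N' + N)) :
    ∃ r, r - a₁ ∈ p₁ ∧ r - a₂ ∈ p₂ ∧ r - a₃ ∈ p₃ := by
  have hle0 : 𝔪 ^ (N' + N) ≤ 𝔪 ^ N' * p₁ ⊔ 𝔪 ^ N' * p₂ := by
    calc 𝔪 ^ (N' + N) = 𝔪 ^ N' * 𝔪 ^ N := pow_add _ _ _
      _ ≤ 𝔪 ^ N' * (p₁ ⊔ p₂) := Ideal.mul_mono_right h12
      _ = 𝔪 ^ N' * p₁ ⊔ 𝔪 ^ N' * p₂ := Ideal.mul_sup _ _ _
  have h1 : a₁ - a₂ ∈ 𝔪 ^ N' * p₁ ⊔ 𝔪 ^ N' * p₂ := hle0 (sub_mem ha₁ ha₂)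
  obtain ⟨u₁, hu₁, u₂, hu₂, hu⟩ := Submodule.mem_sup.mp h1
  have hle : 𝔪 ^ (N' + N) ≤ 𝔪 ^ N' := Ideal.pow_le_pow_right (Nat.le_add_right N' N)
  have hu₁m : u₁ ∈ 𝔪 ^ N' := (Ideal.mul_le_left : 𝔪 ^ N' * p₁ ≤ 𝔪 ^ N') hu₁
  have hu₁p : u₁ ∈ p₁ := (Ideal.mul_le_right : 𝔪 ^ N' * p₁ ≤ p₁) hu₁
  have hu₂p : u₂ ∈ p₂ := (Ideal.mul_le_right : 𝔪 ^ N' * p₂ ≤ p₂) hu₂
  have hr12 : a₁ - u₁ - a₃ ∈ 𝔪 ^ N' :=
    sub_mem (sub_mem (hle ha₁) hu₁m) (hle ha₃)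
  obtain ⟨v, hv, u₃, hu₃, hvu⟩ := Submodule.mem_sup.mp (h3 hr12)
  have hv1 : v ∈ p₁ := hv.1
  have hv2 : v ∈ p₂ := hv.2
  refine ⟨a₁ - u₁ - v, ?_, ?_, ?_⟩
  · have e : a₁ - u₁ - v - a₁ = -(u₁ + v) := by ring
    rw [e]
    exact neg_mem (add_mem hu₁p hv1)
  · have e : a₁ - u₁ - v - a₂ = u₂ - v := by linear_combination -hu
    rw [e]
    exact sub_mem hu₂p hv2
  · have e : a₁ - u₁ - v - a₃ = u₃ := by linear_combination -hvu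
    rw [e]
    exact hu₃

/-- **TRIPLE-GLUE, power form.** -/
theorem s36tg_three_pow (𝔪 p₁ p₂ p₃ : Ideal Λ) (N N' : ℕ) (h12 : 𝔪 ^ N ≤ p₁ ⊔ p₂)
    (h3 : 𝔪 ^ N' ≤ (p₁ ⊓ p₂) ⊔ p₃) (q : ℕ) (hq : (q : Λ) ∈ 𝔪) (r₁ r₂ r₃ : Λ)
    (h21 : r₂ - r₁ ∈ 𝔪) (h31 : r₃ - r₁ ∈ 𝔪) :
    ∃ (k : ℕ) (r : Λ), r - r₁ ^ (q ^ k) ∈ p₁ ∧ r - r₂ ^ (q ^ k) ∈ p₂ ∧
      r - r₃ ^ (q ^ k) ∈ p₃ := by
  have hle : 𝔪 ^ (N' + N + 1) ≤ 𝔪 ^ (N' + N) := Ideal.pow_le_pow_right (by omega)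
  obtain ⟨r', h1, h2, h3'⟩ := s36tg_patch 𝔪 p₁ p₂ p₃ N N' h12 h3 0
    (r₂ ^ (q ^ (N' + N)) - r₁ ^ (q ^ (N' + N))) (r₃ ^ (q ^ (N' + N)) - r₁ ^ (q ^ (N' + N)))
    (zero_mem _) (hle (s36tg_pow_iter 𝔪 q hq h21 (N' + N)))
    (hle (s36tg_pow_iter 𝔪 q hq h31 (N' + N)))
  refine ⟨N' + N, r' + r₁ ^ (q ^ (N' + N)), ?_, ?_, ?_⟩
  · have e : r' + r₁ ^ (q ^ (N' + N)) - r₁ ^ (q ^ (N' + N)) = r' - 0 := by ring
    rw [e]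
    exact h1
  · have e : r' + r₁ ^ (q ^ (N' + N)) - r₂ ^ (q ^ (N' + N)) =
        r' - (r₂ ^ (q ^ (N' + N)) - r₁ ^ (q ^ (N' + N))) := by ring
    rw [e]
    exact h2
  · have e : r' + r₁ ^ (q ^ (N' + N)) - r₃ ^ (q ^ (N' + N)) =
        r' - (r₃ ^ (q ^ (N' + N)) - r₁ ^ (q ^ (N' + N))) := by ring
    rw [e]
    exact h3'

/-- `𝔪 ≤ rad (p₁ + p₃)`, `𝔪 ≤ rad (p₂ + p₃)` ⟹ `𝔪 ≤ rad (p₁ ∩ p₂ + p₃)`. -/
theorem s36tg_radical_inf (𝔪 p₁ p₂ p₃ : Ideal Λ) (h13 : 𝔪 ≤ (p₁ ⊔ p₃).radical)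
    (h23 : 𝔪 ≤ (p₂ ⊔ p₃).radical) : 𝔪 ≤ ((p₁ ⊓ p₂) ⊔ p₃).radical := by
  intro x hx
  obtain ⟨a, ha⟩ := h13 hx
  obtain ⟨b, hb⟩ := h23 hx
  obtain ⟨u, hu, w, hw, huw⟩ := Submodule.mem_sup.mp ha
  obtain ⟨u', hu', w', hw', huw'⟩ := Submodule.mem_sup.mp hb
  refine ⟨a + b, ?_⟩
  have e : x ^ (a + b) = u * u' + (u * w' + w * u' + w * w') := by
    rw [pow_add, ← huw, ← huw']
    ring
  rw [e]
  refine Submodule.add_mem_sup ⟨Ideal.mul_mem_right _ _ hu, Ideal.mul_mem_left _ _ hu'⟩ ?_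
  exact add_mem (add_mem (Ideal.mul_mem_left _ _ hw') (Ideal.mul_mem_right _ _ hw))
    (Ideal.mul_mem_left _ _ hw')

/-- **TRIPLE-GLUE, noetherian form**: three elements pairwise congruent modulo `𝔪`, three
ideals whose pairwise sums are `𝔪`-primary, `q ∈ 𝔪`: a `q ^ k`-th power of the three elements
is glued along the three ideals. -/
theorem s36tg_three [IsNoetherianRing Λ] (𝔪 p₁ p₂ p₃ : Ideal Λ)
    (h12 : 𝔪 ≤ (p₁ ⊔ p₂).radical) (h13 : 𝔪 ≤ (p₁ ⊔ p₃).radical)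
    (h23 : 𝔪 ≤ (p₂ ⊔ p₃).radical) (q : ℕ) (hq : (q : Λ) ∈ 𝔪) (r₁ r₂ r₃ : Λ)
    (h21 : r₂ - r₁ ∈ 𝔪) (h31 : r₃ - r₁ ∈ 𝔪) :
    ∃ (k : ℕ) (r : Λ), r - r₁ ^ (q ^ k) ∈ p₁ ∧ r - r₂ ^ (q ^ k) ∈ p₂ ∧
      r - r₃ ^ (q ^ k) ∈ p₃ := by
  have hfg : 𝔪.FG := (isNoetherianRing_iff_ideal_fg Λ).mp inferInstance 𝔪
  obtain ⟨N, hN⟩ := Ideal.exists_pow_le_of_le_radical_of_fg h12 hfg
  obtain ⟨N', hN'⟩ := Ideal.exists_pow_le_of_le_radical_of_fg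
    (s36tg_radical_inf 𝔪 p₁ p₂ p₃ h13 h23) hfg
  exact s36tg_three_pow 𝔪 p₁ p₂ p₃ N N' hN hN' q hq r₁ r₂ r₃ h21 h31

/-- In a noetherian local ring: `𝔪 = π Λ + p` and `J ⊄ p` imply `𝔪 ≤ rad (p + J)`
(Krull's intersection theorem on the branch `Λ ⧸ p`). -/
theorem s36tg_primary [IsLocalRing Λ] [IsNoetherianRing Λ] (p J : Ideal Λ) (π : Λ)
    (hπM : π ∈ IsLocalRing.maximalIdeal Λ)
    (hπ : ∀ x ∈ IsLocalRing.maximalIdeal Λ, ∃ a, x - π * a ∈ p) (hJ : ¬ J ≤ p) :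
    IsLocalRing.maximalIdeal Λ ≤ (p ⊔ J).radical := by
  obtain ⟨y, hyJ, hyp⟩ := Set.not_subset.mp hJ
  have hK := Ideal.iInf_pow_smul_eq_bot_of_isLocalRing (I := IsLocalRing.maximalIdeal Λ)
    (M := Λ ⧸ p) (IsLocalRing.maximalIdeal.isMaximal Λ).ne_top
  have hy0 : Ideal.Quotient.mk p y ≠ 0 := fun h => hyp (Ideal.Quotient.eq_zero_iff_mem.mp h)
  have hex : ∃ i : ℕ, Ideal.Quotient.mk p y ∉
      (IsLocalRing.maximalIdeal Λ ^ i • ⊤ : Submodule Λ (Λ ⧸ p)) := by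
    by_contra hcon
    push Not at hcon
    have h1 : Ideal.Quotient.mk p y ∈
        (⨅ i : ℕ, IsLocalRing.maximalIdeal Λ ^ i • ⊤ : Submodule Λ (Λ ⧸ p)) :=
      (Submodule.mem_iInf _).mpr hcon
    rw [hK] at h1
    exact hy0 ((Submodule.mem_bot _).mp h1)
  obtain ⟨i, hi⟩ := hex
  have hyi : ∀ a : Λ, y - π ^ i * a ∉ p := by
    intro a ha
    apply hi
    have h1 : Ideal.Quotient.mk p y = (π ^ i * a) • (1 : Λ ⧸ p) := by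
      rw [Algebra.smul_def, mul_one]
      exact Ideal.Quotient.eq.mpr ha
    rw [h1]
    exact Submodule.smul_mem_smul (Ideal.mul_mem_right _ _ (Ideal.pow_mem_pow hπM i))
      Submodule.mem_top
  have hdesc : ∀ e : ℕ, (∃ a, y - π ^ e * a ∈ p) ∨ ∃ (e' : ℕ) (u : Λ), IsUnit u ∧
      y - π ^ e' * u ∈ p := by
    intro e
    induction e with
    | zero => exact Or.inl ⟨y, by simp⟩
    | succ e ih =>
      rcases ih with ⟨a, ha⟩ | h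
      · by_cases hu : IsUnit a
        · exact Or.inr ⟨e, a, hu, ha⟩
        · have haM : a ∈ IsLocalRing.maximalIdeal Λ := (IsLocalRing.mem_maximalIdeal a).mpr hu
          obtain ⟨a', ha'⟩ := hπ a haM
          refine Or.inl ⟨a', ?_⟩
          have e1 : y - π ^ (e + 1) * a' = (y - π ^ e * a) + π ^ e * (a - π * a') := by ring
          rw [e1]
          exact add_mem ha (Ideal.mul_mem_left _ _ ha')
      · exact Or.inr h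
  rcases hdesc i with ⟨a, ha⟩ | ⟨e', u, hu, hyu⟩
  · exact absurd ha (hyi a)
  obtain ⟨u', hu'⟩ := hu.exists_right_inv
  have hπe : π ^ e' ∈ p ⊔ J := by
    have e1 : π ^ e' = -((y - π ^ e' * u) * u') + y * u' := by
      linear_combination (-(π ^ e')) * hu'
    rw [e1]
    exact Submodule.add_mem_sup (neg_mem (Ideal.mul_mem_right _ _ hyu))
      (Ideal.mul_mem_right _ _ hyJ)
  intro x hx
  obtain ⟨a, ha⟩ := hπ x hx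
  refine ⟨e', ?_⟩
  have h1 : x ^ e' - (π * a) ^ e' ∈ p :=
    Ideal.mem_of_dvd p (sub_dvd_pow_sub_pow x (π * a) e') ha
  have e2 : x ^ e' = (x ^ e' - (π * a) ^ e') + π ^ e' * a ^ e' := by ring
  rw [e2]
  exact add_mem (Ideal.mem_sup_left h1) (Ideal.mul_mem_right _ _ hπe)

/-- **TRIPLE-GLUE at a triple point with two branch uniformisers.** -/
theorem s36tg_triple [IsLocalRing Λ] [IsNoetherianRing Λ] (p₁ p₂ p₃ : Ideal Λ) (π₁ π₂ : Λ)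
    (hπ₁M : π₁ ∈ IsLocalRing.maximalIdeal Λ)
    (hπ₁ : ∀ x ∈ IsLocalRing.maximalIdeal Λ, ∃ a, x - π₁ * a ∈ p₁)
    (hπ₂M : π₂ ∈ IsLocalRing.maximalIdeal Λ)
    (hπ₂ : ∀ x ∈ IsLocalRing.maximalIdeal Λ, ∃ a, x - π₂ * a ∈ p₂)
    (h21 : ¬ p₂ ≤ p₁) (h31 : ¬ p₃ ≤ p₁) (h32 : ¬ p₃ ≤ p₂)
    (q : ℕ) (hq : (q : Λ) ∈ IsLocalRing.maximalIdeal Λ) (r₁ r₂ r₃ : Λ)
    (hr21 : r₂ - r₁ ∈ IsLocalRing.maximalIdeal Λ) (hr31 : r₃ - r₁ ∈ IsLocalRing.maximalIdeal Λ) :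
    ∃ (k : ℕ) (r : Λ), r - r₁ ^ (q ^ k) ∈ p₁ ∧ r - r₂ ^ (q ^ k) ∈ p₂ ∧
      r - r₃ ^ (q ^ k) ∈ p₃ :=
  s36tg_three (IsLocalRing.maximalIdeal Λ) p₁ p₂ p₃ (s36tg_primary p₁ p₂ π₁ hπ₁M hπ₁ h21)
    (s36tg_primary p₁ p₃ π₁ hπ₁M hπ₁ h31) (s36tg_primary p₂ p₃ π₂ hπ₂M hπ₂ h32) q hq
    r₁ r₂ r₃ hr21 hr31

end Abs

section Main

/-- **TRIPLE-GLUE-ABS** (contract form, finding 239). -/
theorem s36tg_main {Λ : Type*} [CommRing Λ] [IsNoetherianRing Λ] [IsLocalRing Λ]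
    (q : ℕ) (hq : (q : Λ) ∈ IsLocalRing.maximalIdeal Λ)
    {ι : Type*} [Finite ι] (p : ι → Ideal Λ) (hp : ∀ i, (p i).IsPrime)
    (hdim : ∀ i, ∀ P : Ideal Λ, P.IsPrime → p i ≤ P → P = p i ∨ P = IsLocalRing.maximalIdeal Λ)
    (hne : ∀ i j, i ≠ j → ¬ p i ≤ p j)
    (ρ : ι → Λ) (hρ : ∀ i, IsUnit (ρ i))
    (hcong : ∀ i j, ρ i - ρ j ∈ IsLocalRing.maximalIdeal Λ) :
    ∃ (k : ℕ) (r : Λ), ∀ i, r - ρ i ^ (q ^ k) ∈ p i := by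
  classical
  cases nonempty_fintype ι
  have _hunused := hp
  have _hunused' := hρ
  let Q : ι → Ideal Λ := fun i => (Finset.univ.erase i).inf p
  have hrad : ∀ i, IsLocalRing.maximalIdeal Λ ≤ (p i ⊔ Q i).radical := by
    intro i
    rw [Ideal.radical_eq_sInf]
    refine le_sInf ?_
    rintro P ⟨hle, hP⟩
    have h1 : p i ≤ P := le_trans le_sup_left hle
    have h2 : Q i ≤ P := le_trans le_sup_right hle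
    obtain ⟨j, hj, hjP⟩ := (Ideal.IsPrime.inf_le' hP).mp h2
    rcases hdim i P hP h1 with h | h
    · exfalso
      rw [h] at hjP
      exact hne j i (Finset.ne_of_mem_erase hj) hjP
    · rw [h]
  have hfg : (IsLocalRing.maximalIdeal Λ).FG :=
    (isNoetherianRing_iff_ideal_fg Λ).mp inferInstance _
  choose N hN using fun i => Ideal.exists_pow_le_of_le_radical_of_fg (hrad i) hfg
  rcases isEmpty_or_nonempty ι with hι | ⟨⟨i₀⟩⟩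
  · exact ⟨0, 0, fun i => (hι.false i).elim⟩
  have hx : ∀ i, ρ i ^ (q ^ (Finset.univ.sup N)) - ρ i₀ ^ (q ^ (Finset.univ.sup N)) ∈
      p i ⊔ Q i := by
    intro i
    apply hN i
    have h1 := s36tg_pow_iter (IsLocalRing.maximalIdeal Λ) q hq (hcong i i₀) (Finset.univ.sup N)
    exact Ideal.pow_le_pow_right
      (le_trans (Finset.le_sup (Finset.mem_univ i)) (Nat.le_succ _)) h1
  choose a ha e he hae using fun i => Submodule.mem_sup.mp (hx i)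
  refine ⟨Finset.univ.sup N, ρ i₀ ^ (q ^ (Finset.univ.sup N)) + ∑ j, e j, fun i => ?_⟩
  have hsum : ∑ j, e j = e i + ∑ j ∈ Finset.univ.erase i, e j :=
    (Finset.add_sum_erase _ _ (Finset.mem_univ i)).symm
  have e1 : ρ i₀ ^ (q ^ (Finset.univ.sup N)) + ∑ j, e j - ρ i ^ (q ^ (Finset.univ.sup N)) =
      -a i + ∑ j ∈ Finset.univ.erase i, e j := by
    rw [hsum]
    linear_combination hae i
  rw [e1]
  refine add_mem (neg_mem (ha i)) (Ideal.sum_mem _ ?_)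
  intro j hj
  have hQ : Q j ≤ p i :=
    Finset.inf_le (Finset.mem_erase.mpr ⟨(Finset.ne_of_mem_erase hj).symm, Finset.mem_univ i⟩)
  exact hQ (he j)

end Main

end Fermat.Agent.S36
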