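import Mathlib
import Fermat.Agent.S18.CuspConj
import Fermat.Agent.S18.GaussRing
import Fermat.Agent.S34.ThetaDelta
import Fermat.Agent.S36.NuExp

/-!
# S36, TW-CONG: congruences for the twist `f(t) ↦ f(ζ t)` by a `q`-th root of unity

`K` a field, `B` a subring of `K`, `ζ ∈ B` with `1 + ζ + ⋯ + ζ^(q-1) = 0` (`q` prime),
`π = ζ - 1`, `T = ccjTwist ζ` (S18/CuspConj), `θ = t d/dt` (`thdTheta`).  For a Laurent series
`f` with coefficients in `B`:

* `s36tq_cyc`   : `π^(q-1) = -q + q π u` with `u ∈ B`;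
* `s36tq_q`     : `q = π e` with `e ∈ B`;
* `s36tq_zpow`  : `ζ^n - 1 = π (n + π d)` with `d ∈ B`, for every `n : ℤ`;
* `s36tq_twist` : `T f - f = π (θ f + π g)` with `g` integral;
* `s36tq_pow`   : `(T f - f)^(q-1) = -q (θ f)^(q-1) + q π s` with `s` integral;
* `s36tq_nu`    : for `h ∈ ℤ((t))` with `h = t⁻¹(1 + ⋯)` and `ν = θ h / φ(θ h)` (`s36nxNu`):
  `(T h - h)^(q-1) ν + q = q π s` with `s` integral;
* `s36tq_inv`   : for `J Y = 1` with `Y` integral: `(J * T Y - 1)^(q-1) = -q (J θ Y)^(q-1) + q π s`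
  (with `s` integral if `J` is).
-/

set_option autoImplicit false

open ModularCurve Polynomial Finset
open Fermat.Agent.S18 Fermat.Agent.S34

namespace Fermat.Agent.S36

section Ring

variable {R : Type*} [CommRing R]

/-- the cyclotomic identity `π^(q-1) = -q + q π u` for `π = ζ - 1`, `Φ_q(ζ) = 0` -/
theorem s36tq_cyc (q : ℕ) (hq : q.Prime) (ζ : R) (hζ : ∑ i ∈ range q, ζ ^ i = 0) :
    ∃ u : R, (ζ - 1) ^ (q - 1) = -(q : R) + (q : R) * (ζ - 1) * u := by
  obtain ⟨n, rfl⟩ : ∃ n, q = n + 2 := ⟨q - 2, by have := hq.two_le; omega⟩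
  have key := congrArg (Polynomial.eval (ζ - 1))
    (Polynomial.geom_sum_X_comp_X_add_one_eq_sum (R := R) (n + 2))
  rw [Polynomial.eval_comp, Polynomial.eval_finsetSum, Polynomial.eval_finsetSum] at key
  simp only [Polynomial.eval_pow, Polynomial.eval_X, Polynomial.eval_add, Polynomial.eval_one,
    Polynomial.eval_mul, Polynomial.eval_natCast, sub_add_cancel] at key
  rw [hζ, Finset.sum_range_succ, Finset.sum_range_succ'] at key
  have hdvd : ∀ i ∈ range n, ((n + 2).choose (i + 1 + 1) : R) * (ζ - 1) ^ (i + 1) =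
      ((n + 2 : ℕ) : R) * (ζ - 1) * ((((n + 2).choose (i + 2) / (n + 2) : ℕ) : R) * (ζ - 1) ^ i) := by
    intro i hi
    rw [Finset.mem_range] at hi
    have h1 : (n + 2) ∣ (n + 2).choose (i + 2) := hq.dvd_choose_self (by omega) (by omega)
    have h2 : (n + 2) * ((n + 2).choose (i + 2) / (n + 2)) = (n + 2).choose (i + 2) :=
      Nat.mul_div_cancel' h1
    have h3 : (((n + 2).choose (i + 2) : ℕ) : R) =
        ((n + 2 : ℕ) : R) * (((n + 2).choose (i + 2) / (n + 2) : ℕ) : R) := by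
      rw [← Nat.cast_mul, h2]
    rw [show i + 1 + 1 = i + 2 from rfl, h3, pow_succ]
    ring
  rw [Finset.sum_congr rfl hdvd, ← Finset.mul_sum] at key
  simp only [Nat.choose_one_right, Nat.choose_self, Nat.cast_one, one_mul, pow_zero, mul_one,
    zero_add] at key
  refine ⟨-∑ i ∈ range n, (((n + 2).choose (i + 2) / (n + 2) : ℕ) : R) * (ζ - 1) ^ i, ?_⟩
  rw [show n + 2 - 1 = n + 1 from rfl]
  linear_combination -key

end Ring

section Field

variable {K : Type*} [Field K] (B : Subring K) (q : ℕ) (hq : q.Prime) (ζ : K) (hζB : ζ ∈ B)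
  (hζ : ∑ i ∈ range q, ζ ^ i = 0)

include hq hζB hζ

/-- `π^(q-1) = -q + q π u` with `u ∈ B` -/
theorem s36tq_cycB : ∃ u ∈ B, (ζ - 1) ^ (q - 1) = -(q : K) + (q : K) * (ζ - 1) * u := by
  have hζ' : ∑ i ∈ range q, (⟨ζ, hζB⟩ : B) ^ i = 0 := by
    apply Subtype.ext
    rw [AddSubmonoidClass.coe_finsetSum]
    simpa using hζ
  obtain ⟨u, hu⟩ := s36tq_cyc q hq (⟨ζ, hζB⟩ : B) hζ'
  refine ⟨u, u.2, ?_⟩
  have := congrArg (Subtype.val) hu
  simpa using this

omit hq hζB in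
theorem s36tq_pow_q : ζ ^ q = 1 := by
  have := geom_sum_mul ζ q
  rw [hζ, zero_mul] at this
  exact (sub_eq_zero.mp this.symm)

omit hq hζB in
theorem s36tq_ne_zero (hq0 : q ≠ 0) : ζ ≠ 0 := by
  rintro rfl
  have := s36tq_pow_q q (0 : K) hζ
  rw [zero_pow hq0] at this
  exact zero_ne_one this

omit hq hζ in
/-- `ζ^m - 1 = π (m + π d)` with `d ∈ B`, for `m : ℕ` -/
theorem s36tq_npow (m : ℕ) :
    ∃ d ∈ B, ζ ^ m - 1 = (ζ - 1) * ((m : K) + (ζ - 1) * d) := by
  induction m with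
  | zero => exact ⟨0, B.zero_mem, by simp⟩
  | succ m ih =>
    obtain ⟨d, hd, h⟩ := ih
    refine ⟨d * ζ + (m : K), B.add_mem (B.mul_mem hd hζB) (natCast_mem B m), ?_⟩
    have e : ζ ^ (m + 1) - 1 = ζ * (ζ ^ m - 1) + (ζ - 1) := by ring
    rw [e, h]
    push_cast
    ring

omit hq in
/-- `q = π e` with `e ∈ B` -/
theorem s36tq_q : ∃ e ∈ B, (q : K) = (ζ - 1) * e := by
  choose d hd h using fun m : ℕ => s36tq_npow B ζ hζB m
  refine ⟨-∑ i ∈ range q, ((i : K) + (ζ - 1) * d i), B.neg_mem (B.sum_mem fun i _ =>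
    B.add_mem (natCast_mem B i) (B.mul_mem (B.sub_mem hζB B.one_mem) (hd i))), ?_⟩
  have h1 : ∑ i ∈ range q, (ζ ^ i - 1) = -(q : K) := by
    rw [Finset.sum_sub_distrib, hζ]
    simp
  rw [mul_neg, Finset.mul_sum, ← Finset.sum_congr rfl (fun i _ => h i), h1, neg_neg]

/-- `ζ^n - 1 = π (n + π d)` with `d ∈ B`, for `n : ℤ` -/
theorem s36tq_zpow (n : ℤ) :
    ∃ d ∈ B, ζ ^ n - 1 = (ζ - 1) * ((n : K) + (ζ - 1) * d) := by
  have hq0 : q ≠ 0 := hq.ne_zero
  have hζ0 : ζ ≠ 0 := s36tq_ne_zero q ζ hζ hq0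
  have hζq : ζ ^ q = 1 := s36tq_pow_q q ζ hζ
  obtain ⟨e, he, hqe⟩ := s36tq_q B q ζ hζB hζ
  have hqpos : (0 : ℤ) < (q : ℤ) := by exact_mod_cast hq.pos
  have hr0 : 0 ≤ n % (q : ℤ) := Int.emod_nonneg n hqpos.ne'
  obtain ⟨r, hr⟩ := Int.eq_ofNat_of_zero_le hr0
  obtain ⟨d, hd, h⟩ := s36tq_npow B ζ hζB r
  have hn : n = (q : ℤ) * (n / (q : ℤ)) + (r : ℤ) := by
    rw [← hr]
    exact (Int.mul_ediv_add_emod n q).symm
  have hpow : ζ ^ n = ζ ^ r := by
    conv_lhs => rw [hn]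
    rw [zpow_add₀ hζ0, zpow_mul, zpow_natCast, hζq, one_zpow, one_mul, zpow_natCast]
  refine ⟨d - e * ((n / (q : ℤ) : ℤ) : K), B.sub_mem hd (B.mul_mem he (intCast_mem B _)), ?_⟩
  have hnK : (n : K) = (q : K) * ((n / (q : ℤ) : ℤ) : K) + (r : K) := by
    have := congrArg (fun z : ℤ => (z : K)) hn
    simpa using this
  rw [hpow, h, hnK, hqe]
  ring

/-- **Twist difference.** `T f - f = π (θ f + π g)` with `g` integral. -/
theorem s36tq_twist (hζ0 : ζ ≠ 0) (f : LaurentSeries ↥B) :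
    ∃ g : LaurentSeries ↥B,
      ccjTwist ζ hζ0 (coeffMap B.subtype f) - coeffMap B.subtype f =
        HahnSeries.C (ζ - 1) * (thdTheta K (coeffMap B.subtype f) +
          HahnSeries.C (ζ - 1) * coeffMap B.subtype g) := by
  choose d hd h using fun n : ℤ => s36tq_zpow B q hq ζ hζB hζ n
  let g : LaurentSeries ↥B :=
    ⟨fun n => (⟨d n, hd n⟩ : B) * f.coeff n, f.isPWO_support.mono fun n hn => by
      simp only [Function.mem_support, ne_eq] at hn
      exact fun h0 => hn (by rw [h0, mul_zero])⟩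
  have hg : ∀ n, g.coeff n = (⟨d n, hd n⟩ : B) * f.coeff n := fun n => rfl
  refine ⟨g, ?_⟩
  ext n
  rw [HahnSeries.coeff_sub, ccjTwist_coeff, HahnSeries.C_mul_eq_smul, HahnSeries.coeff_smul,
    HahnSeries.coeff_add, HahnSeries.C_mul_eq_smul, HahnSeries.coeff_smul, thdTheta_coeff,
    coeffMap_coeff, coeffMap_coeff, hg, smul_eq_mul, smul_eq_mul]
  have e : ζ ^ n * B.subtype (f.coeff n) - B.subtype (f.coeff n) =
      (ζ ^ n - 1) * B.subtype (f.coeff n) := by ring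
  rw [e, h n]
  simp only [Subring.subtype_apply, Subring.coe_mul]
  ring

/-- **The `(q-1)`-st power of the twist difference.**
`(T f - f)^(q-1) = -q (θ f)^(q-1) + q π s` with `s` integral. -/
theorem s36tq_pow (hζ0 : ζ ≠ 0) (f : LaurentSeries ↥B) :
    ∃ s : LaurentSeries ↥B,
      (ccjTwist ζ hζ0 (coeffMap B.subtype f) - coeffMap B.subtype f) ^ (q - 1) =
        -(q : LaurentSeries K) * thdTheta K (coeffMap B.subtype f) ^ (q - 1) +
          (q : LaurentSeries K) * (HahnSeries.C (ζ - 1) * coeffMap B.subtype s) := by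
  obtain ⟨g, hg⟩ := s36tq_twist B q hq ζ hζB hζ hζ0 f
  obtain ⟨u, hu, hcyc⟩ := s36tq_cycB B q hq ζ hζB hζ
  -- work over `B`
  set πB : B := ⟨ζ - 1, B.sub_mem hζB B.one_mem⟩ with hπB
  set uB : B := ⟨u, hu⟩ with huB
  obtain ⟨w, hw⟩ := sub_dvd_pow_sub_pow (thdTheta ↥B f + HahnSeries.C πB * g) (thdTheta ↥B f)
    (q - 1)
  rw [add_sub_cancel_left] at hw
  refine ⟨HahnSeries.C uB * thdTheta ↥B f ^ (q - 1) +
    HahnSeries.C (-1 + πB * uB) * (g * w), ?_⟩
  have hCπ : coeffMap B.subtype (HahnSeries.C πB) = HahnSeries.C (ζ - 1) := by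
    rw [HahnSeries.C_apply, coeffMap_single]
    rfl
  have hCu : coeffMap B.subtype (HahnSeries.C uB) = HahnSeries.C u := by
    rw [HahnSeries.C_apply, coeffMap_single]
    rfl
  have hCc : coeffMap B.subtype (HahnSeries.C (-1 + πB * uB)) =
      HahnSeries.C (-1 + (ζ - 1) * u) := by
    rw [HahnSeries.C_apply, coeffMap_single]
    rfl
  have hw' := congrArg (coeffMap B.subtype) hw
  rw [map_sub, map_pow, map_pow, map_add, map_mul, map_mul, map_mul, thdTheta_coeffMap, hCπ]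
    at hw'
  have hcycS : (HahnSeries.C (ζ - 1) : LaurentSeries K) ^ (q - 1) =
      -(q : LaurentSeries K) + (q : LaurentSeries K) * HahnSeries.C (ζ - 1) * HahnSeries.C u := by
    rw [← map_pow, hcyc, map_add, map_neg, map_mul, map_mul, map_natCast]
  have hq1 : (HahnSeries.C (ζ - 1) : LaurentSeries K) ^ (q - 1) * HahnSeries.C (ζ - 1) =
      (q : LaurentSeries K) * HahnSeries.C (ζ - 1) * HahnSeries.C (-1 + (ζ - 1) * u) := by
    rw [hcycS, map_add, map_neg, map_one, map_mul]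
    ring
  rw [hg, mul_pow, map_add, map_mul, map_mul, map_mul, map_pow, thdTheta_coeffMap, hCu, hCc]
  have e1 : (thdTheta K (coeffMap B.subtype f) +
      HahnSeries.C (ζ - 1) * coeffMap B.subtype g) ^ (q - 1) =
      thdTheta K (coeffMap B.subtype f) ^ (q - 1) +
        HahnSeries.C (ζ - 1) * coeffMap B.subtype g * coeffMap B.subtype w := by
    rw [← hw']
    ring
  rw [e1]
  linear_combination (thdTheta K (coeffMap B.subtype f) ^ (q - 1)) * hcycS +
    (coeffMap B.subtype g * coeffMap B.subtype w) * hq1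

omit hζB hζ in
/-- over `ℤ`: `ν (θ h)^(q-1) = 1 + q N` for `ν = θ h / φ(θ h)` -/
theorem s36tq_nu_int [NeZero q] (h : LaurentSeries ℤ) (hh : Hp4Lead h (-1)) :
    ∃ N : LaurentSeries ℤ,
      ((s36nxNu q h hh : (LaurentSeries ℤ)ˣ) : LaurentSeries ℤ) * thdTheta ℤ h ^ (q - 1) =
        1 + (q : LaurentSeries ℤ) * N := by
  have : Fact q.Prime := ⟨hq⟩
  obtain ⟨δ, hδ⟩ := thd_exists_delta q (thdTheta ℤ h)
  have hmul := s36nx_nu_mul q h hh
  obtain ⟨y, hy⟩ := (s36nx_theta_isUnit h hh).exists_right_inv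
  set ν : LaurentSeries ℤ := ((s36nxNu q h hh : (LaurentSeries ℤ)ˣ) : LaurentSeries ℤ) with hν
  refine ⟨ν * δ * y, ?_⟩
  have hφ : qExpand ℤ q (thdTheta ℤ h) = thdTheta ℤ h ^ q - (q : LaurentSeries ℤ) * δ := by
    rw [hδ]
    ring
  rw [hφ] at hmul
  have hpow : thdTheta ℤ h ^ q = thdTheta ℤ h ^ (q - 1) * thdTheta ℤ h := by
    rw [← pow_succ, Nat.sub_add_cancel hq.pos]
  rw [hpow] at hmul
  calc ν * thdTheta ℤ h ^ (q - 1)
      = ν * thdTheta ℤ h ^ (q - 1) * (thdTheta ℤ h * y) := by rw [hy, mul_one]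
    _ = (ν * (thdTheta ℤ h ^ (q - 1) * thdTheta ℤ h - (q : LaurentSeries ℤ) * δ)) * y +
          (q : LaurentSeries ℤ) * (ν * δ * y) := by ring
    _ = thdTheta ℤ h * y + (q : LaurentSeries ℤ) * (ν * δ * y) := by rw [hmul]
    _ = 1 + (q : LaurentSeries ℤ) * (ν * δ * y) := by rw [hy]

/-- **The certificate congruence.**  For `h = t⁻¹(1 + ⋯) ∈ ℤ((t))` and `ν = θ h / φ(θ h)`:
`(T h - h)^(q-1) * ν + q = q π s` with `s` integral. -/
theorem s36tq_nu [NeZero q] (hζ0 : ζ ≠ 0) (h : LaurentSeries ℤ) (hh : Hp4Lead h (-1)) :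
    ∃ s : LaurentSeries ↥B,
      (ccjTwist ζ hζ0 (coeffMap (Int.castRingHom K) h) - coeffMap (Int.castRingHom K) h) ^ (q - 1) *
          coeffMap (Int.castRingHom K)
            ((s36nxNu q h hh : (LaurentSeries ℤ)ˣ) : LaurentSeries ℤ) + (q : LaurentSeries K) =
        (q : LaurentSeries K) * (HahnSeries.C (ζ - 1) * coeffMap B.subtype s) := by
  have hcomp : ∀ x : LaurentSeries ℤ,
      coeffMap B.subtype (coeffMap (Int.castRingHom ↥B) x) = coeffMap (Int.castRingHom K) x := by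
    intro x
    rw [coeffMap_coeffMap]
    congr 1
  obtain ⟨s, hs⟩ := s36tq_pow B q hq ζ hζB hζ hζ0 (coeffMap (Int.castRingHom ↥B) h)
  rw [hcomp] at hs
  obtain ⟨N, hN⟩ := s36tq_nu_int q hq h hh
  obtain ⟨e, he, hqe⟩ := s36tq_q B q ζ hζB hζ
  have hNK := congrArg (coeffMap (Int.castRingHom K)) hN
  rw [map_mul, map_pow, thdTheta_coeffMap, map_add, map_one, map_mul, map_natCast] at hNK
  have hqC : (q : LaurentSeries K) = HahnSeries.C (ζ - 1) * HahnSeries.C e := by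
    rw [← map_mul, ← hqe, map_natCast]
  refine ⟨s * coeffMap (Int.castRingHom ↥B)
      ((s36nxNu q h hh : (LaurentSeries ℤ)ˣ) : LaurentSeries ℤ) -
    HahnSeries.C (⟨e, he⟩ : B) * coeffMap (Int.castRingHom ↥B) N, ?_⟩
  have hCe : coeffMap B.subtype (HahnSeries.C (⟨e, he⟩ : B)) = HahnSeries.C e := by
    rw [HahnSeries.C_apply, coeffMap_single]
    rfl
  have hS : coeffMap B.subtype (s * coeffMap (Int.castRingHom ↥B)
        ((s36nxNu q h hh : (LaurentSeries ℤ)ˣ) : LaurentSeries ℤ) -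
      HahnSeries.C (⟨e, he⟩ : B) * coeffMap (Int.castRingHom ↥B) N) =
      coeffMap B.subtype s * coeffMap (Int.castRingHom K)
        ((s36nxNu q h hh : (LaurentSeries ℤ)ˣ) : LaurentSeries ℤ) -
      HahnSeries.C e * coeffMap (Int.castRingHom K) N := by
    rw [map_sub, map_mul, map_mul, hcomp, hcomp, hCe]
  rw [hS]
  linear_combination
    (coeffMap (Int.castRingHom K) ((s36nxNu q h hh : (LaurentSeries ℤ)ˣ) : LaurentSeries ℤ)) * hs -
    (q : LaurentSeries K) * hNK - (q : LaurentSeries K) * coeffMap (Int.castRingHom K) N * hqC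

/-- **Cusp form.**  If `J Y = 1` with `Y` integral, then
`(J * T Y - 1)^(q-1) = J^(q-1) * (-q (θ Y)^(q-1) + q π s)` with `s` integral
(`J * T Y = J / T J` is the expansion of `j₀ / j₂` at the middle cusps). -/
theorem s36tq_inv (hζ0 : ζ ≠ 0) (J : LaurentSeries K) (Y : LaurentSeries ↥B)
    (hJY : J * coeffMap B.subtype Y = 1) :
    ∃ s : LaurentSeries ↥B,
      (J * ccjTwist ζ hζ0 (coeffMap B.subtype Y) - 1) ^ (q - 1) =
        J ^ (q - 1) * (-(q : LaurentSeries K) * thdTheta K (coeffMap B.subtype Y) ^ (q - 1) +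
          (q : LaurentSeries K) * (HahnSeries.C (ζ - 1) * coeffMap B.subtype s)) := by
  obtain ⟨s, hs⟩ := s36tq_pow B q hq ζ hζB hζ hζ0 Y
  refine ⟨s, ?_⟩
  rw [← hs, ← mul_pow]
  congr 1
  rw [mul_sub, hJY]

omit hq hζB hζ in
/-- `J Y = 1 ⟹ J θ(Y) = -(θ(J) Y)` -/
theorem s36tq_theta_inv (J Y : LaurentSeries K) (hJY : J * Y = 1) :
    J * thdTheta K Y = -(thdTheta K J * Y) := by
  have h := congrArg (thdTheta K) hJY
  rw [thdTheta_mul] at h
  have h1 : thdTheta K (1 : LaurentSeries K) = 0 := by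
    have := (thdTheta K).map_one_eq_zero
    exact this
  rw [h1] at h
  linear_combination h

end Field

/-! ### Gauss-ring forms (the shape consumed at the third valuation `W_c`) -/

section Gauss

variable {K : Type*} [Field K] (A : ValuationSubring K) (q : ℕ) (hq : q.Prime) (ζ : K)
  (hζA : ζ ∈ A) (hζ : ∑ i ∈ range q, ζ ^ i = 0) (hπ : ζ - 1 ∈ A.nonunits) (hq0 : (q : K) ≠ 0)

include hπ in
/-- `π · (integral series)` lies in the Gauss ring and has residue `0` -/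
theorem s36tq_gauss_zero (s : LaurentSeries ↥A) (x : LaurentSeries K)
    (hx : x = HahnSeries.C (ζ - 1) * coeffMap A.subtype s) :
    ∃ hm : x ∈ grV A, grRho A ⟨x, hm⟩ = 0 := by
  have hπA : ζ - 1 ∈ A := A.nonunits_le hπ
  have hC : coeffMap A.subtype (HahnSeries.C (⟨ζ - 1, hπA⟩ : A)) = HahnSeries.C (ζ - 1) := by
    rw [HahnSeries.C_apply, coeffMap_single]
    rfl
  have e : x = coeffMap A.subtype (HahnSeries.C (⟨ζ - 1, hπA⟩ : A) * s) := by
    rw [hx, map_mul, hC]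
  subst e
  refine ⟨gr_coeffMap_mem A _, ?_⟩
  have h0 : IsLocalRing.residue ↥A (⟨ζ - 1, hπA⟩ : A) = 0 := by
    rw [IsLocalRing.residue_eq_zero_iff, ← ValuationSubring.coe_mem_nonunits_iff]
    exact hπ
  have hC0 : coeffMap (IsLocalRing.residue ↥A) (HahnSeries.C (⟨ζ - 1, hπA⟩ : A)) = 0 := by
    rw [HahnSeries.C_apply, coeffMap_single, h0, HahnSeries.single_eq_zero]
  rw [grRho_coeffMap', map_mul, hC0, zero_mul]

include hq0 in
theorem s36tq_natCast_ne_zero : ((q : ℕ) : LaurentSeries K) ≠ 0 := by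
  intro h0
  have h1 : (HahnSeries.C (q : K) : LaurentSeries K) = 0 := by
    rw [map_natCast]
    exact h0
  rw [← map_zero (HahnSeries.C : K →+* LaurentSeries K)] at h1
  exact hq0 (HahnSeries.C_injective h1)

include hq hζA hζ hπ hq0

/-- **Gauss form of `s36tq_pow`**: `(T f - f)^(q-1) / q + (θ f)^(q-1)` is Gauss-integral with
residue `0`, i.e. the residue of `(T f - f)^(q-1) / q` is `-(θ f̄)^(q-1)`. -/
theorem s36tq_pow_gauss (hζ0 : ζ ≠ 0) (f : LaurentSeries ↥A) :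
    ∃ hm : (ccjTwist ζ hζ0 (coeffMap A.subtype f) - coeffMap A.subtype f) ^ (q - 1) *
        ((q : ℕ) : LaurentSeries K)⁻¹ + thdTheta K (coeffMap A.subtype f) ^ (q - 1) ∈ grV A,
      grRho A ⟨_, hm⟩ = 0 := by
  obtain ⟨s, hs⟩ := s36tq_pow A.toSubring q hq ζ hζA hζ hζ0 f
  have hqS := s36tq_natCast_ne_zero (K := K) q hq0
  refine s36tq_gauss_zero A ζ hπ s _ ?_
  have hs' : (ccjTwist ζ hζ0 (coeffMap A.subtype f) - coeffMap A.subtype f) ^ (q - 1) =
      -(q : LaurentSeries K) * thdTheta K (coeffMap A.subtype f) ^ (q - 1) +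
        (q : LaurentSeries K) * (HahnSeries.C (ζ - 1) * coeffMap A.subtype s) := hs
  rw [hs']
  field_simp
  ring

/-- `s36tq_pow_gauss` for a series with integer coefficients (`f = h` or `f = j`). -/
theorem s36tq_pow_gauss_int (hζ0 : ζ ≠ 0) (Z : LaurentSeries ℤ) :
    ∃ hm : (ccjTwist ζ hζ0 (coeffMap (Int.castRingHom K) Z) -
          coeffMap (Int.castRingHom K) Z) ^ (q - 1) * ((q : ℕ) : LaurentSeries K)⁻¹ +
        thdTheta K (coeffMap (Int.castRingHom K) Z) ^ (q - 1) ∈ grV A,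
      grRho A ⟨_, hm⟩ = 0 := by
  have hcomp : coeffMap A.subtype (coeffMap (Int.castRingHom ↥A) Z) =
      coeffMap (Int.castRingHom K) Z := by
    rw [coeffMap_coeffMap]
    congr 1
  have key : ∀ x y : LaurentSeries K, x = y → (∃ hm : x ∈ grV A, grRho A ⟨x, hm⟩ = 0) →
      ∃ hm : y ∈ grV A, grRho A ⟨y, hm⟩ = 0 := by
    rintro x y rfl h
    exact h
  refine key _ _ ?_ (s36tq_pow_gauss A q hq ζ hζA hζ hπ hq0 hζ0 (coeffMap (Int.castRingHom ↥A) Z))
  rw [hcomp]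

/-- **Gauss form of `s36tq_nu`** (the certificate at `W_c`): for `h = t⁻¹(1 + ⋯) ∈ ℤ((t))` and
`ν = θ h / φ(θ h)`, the series `(T h - h)^(q-1) / q * ν + 1` is Gauss-integral with residue `0`. -/
theorem s36tq_nu_gauss [NeZero q] (hζ0 : ζ ≠ 0) (h : LaurentSeries ℤ) (hh : Hp4Lead h (-1)) :
    ∃ hm : (ccjTwist ζ hζ0 (coeffMap (Int.castRingHom K) h) -
          coeffMap (Int.castRingHom K) h) ^ (q - 1) * ((q : ℕ) : LaurentSeries K)⁻¹ *
        coeffMap (Int.castRingHom K) ((s36nxNu q h hh : (LaurentSeries ℤ)ˣ) : LaurentSeries ℤ)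
          + 1 ∈ grV A,
      grRho A ⟨_, hm⟩ = 0 := by
  obtain ⟨s, hs⟩ := s36tq_nu A.toSubring q hq ζ hζA hζ hζ0 h hh
  have hqS := s36tq_natCast_ne_zero (K := K) q hq0
  refine s36tq_gauss_zero A ζ hπ s _ ?_
  have hs' : (ccjTwist ζ hζ0 (coeffMap (Int.castRingHom K) h) -
        coeffMap (Int.castRingHom K) h) ^ (q - 1) *
      coeffMap (Int.castRingHom K) ((s36nxNu q h hh : (LaurentSeries ℤ)ˣ) : LaurentSeries ℤ) +
      (q : LaurentSeries K) =
      (q : LaurentSeries K) * (HahnSeries.C (ζ - 1) * coeffMap A.subtype s) := hs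
  field_simp
  linear_combination hs'

end Gauss

end Fermat.Agent.S36
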