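import Mathlib
import Fermat.Agent.S36.Val3Swap
import Fermat.Agent.S36.Val3Tw
import Fermat.Prelude.Thm_ModularCurve_coeff_jqModC_neg_one

/-!
# S36 [VAL3-EC]: the expansion of level `M q²` at the middle cusp

`q ∤ M` a prime, `ζ ∈ ℚ̄` a `q`-th root of unity, `ζ ≠ 1`, `T_ζ = ccjTwist ζ` the coefficient
twist `t ↦ ζ t` of Laurent series.  There is a ring homomorphism

  `Ec : K0(X₀(M q²)) → ℚ̄((t))`

with `Ec ∘ α₁ = ` (the `t`-expansion of level `M q`, base-changed to `ℚ̄`) and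
`Ec ∘ β₁ = T_ζ ∘ (t-expansion) ∘ w₁`; in particular `j(t^{q²}) ↦ j(ζ t)`, `f(t^{q²}) ↦ f(ζ t)` for
every `f` of level `M`.  Construction: the "other root" lifting lemma `s36vl_lift` along `α₁`
over `ℚ̄` (`T_ζ` fixes every series in `t^q`, hence the coefficients of the modular polynomial).

* over `ℚ̄`: `s36ecBar`, `s36ecBar_al`, `s36ecBar_be`, `s36ecBar_gen`;
* over `K0`: `s36ecHom`, `s36ec_al`, `s36ec_be`, `s36ec_be_be`, `s36ec_be_al`, `s36ec_al_al`,
  `s36ec_z`, `s36ec_const`.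
-/

set_option autoImplicit false
set_option linter.unusedSectionVars false
set_option linter.style.haveILetI false

noncomputable section

open AlgebraicCurve ModularCurve Polynomial Fermat.Agent.S37 Fermat.Agent.S18 Fermat.Agent.S34
  Fermat.Agent.S35

open scoped IntermediateField

namespace Fermat.Agent.S36

local notation "Qb" => AlgebraicClosure ℚ

/-! ### The expansion over `ℚ̄` -/

section Bar

variable (M q : ℕ) [NeZero M] [hq : Fact q.Prime] (hM : ¬ q ∣ M)
  (ζ : Qb) (hζ0 : ζ ≠ 0) (hζq : ζ ^ q = 1) (hζ1 : ζ ≠ 1)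

/-- the `t`-expansion as a ring homomorphism -/
def s36ecIota (N : ℕ) : ↥(modularFunctionFieldBar N) →+* LaurentSeries Qb :=
  (modularFunctionFieldBar N).val.toRingHom

theorem s36ecIota_apply (N : ℕ) (x : ↥(modularFunctionFieldBar N)) :
    s36ecIota N x = (x : LaurentSeries Qb) := rfl

include hζ1 in
/-- `j(ζ t) ≠ j(t)` -/
theorem s36ec_twist_ne :
    ccjTwist ζ hζ0 (jqModC Qb) ≠ jqModC Qb := by
  intro h
  have h1 := congrArg (fun s : LaurentSeries Qb => s.coeff (-1)) h
  simp only [ccjTwist_coeff, ModularCurve.coeff_jqModC_neg_one, mul_one] at h1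
  apply hζ1
  have h2 : ζ⁻¹ = 1 := by
    rw [← zpow_neg_one]
    exact h1
  rw [← inv_inv ζ, h2, inv_one]

include hM hζq hζ1 in
/-- existence of the expansion over `ℚ̄` -/
theorem s36ec_bar_exists :
    ∃ Ec : ↥(modularFunctionFieldBar (M * q * q)) →+* LaurentSeries Qb,
      (∀ z : ↥(modularFunctionFieldBar (M * q)),
        Ec (heckeAlphaBar Qb (M * q) q z) = (z : LaurentSeries Qb)) ∧
      Ec (heckeBetaBar Qb (M * q) q (heckeBetaBar Qb M q (grJ Qb M)))
        = ccjTwist ζ hζ0 (jqModC Qb) := by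
  classical
  letI alg0 : Algebra ↥(modularFunctionFieldBar M) ↥(modularFunctionFieldBar (M * q)) :=
    algebraAlong (heckeAlphaBar Qb M q)
  letI alg1 : Algebra ↥(modularFunctionFieldBar (M * q)) ↥(modularFunctionFieldBar (M * q * q)) :=
    algebraAlong (heckeAlphaBar Qb (M * q) q)
  haveI hfin0 : Module.Finite ↥(modularFunctionFieldBar M) ↥(modularFunctionFieldBar (M * q)) :=
    va2d_finite Qb M hq.out hM
  haveI hfin1 : Module.Finite ↥(modularFunctionFieldBar (M * q))
      ↥(modularFunctionFieldBar (M * q * q)) :=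
    s36d_finite_alpha Qb (M * q) q hq.out (dvd_mul_left q M)
  have hdeg0 : Module.finrank ↥(modularFunctionFieldBar M) ↥(modularFunctionFieldBar (M * q))
      = q + 1 := va2d_finrank Qb M hq.out hM
  have hdeg1 : Module.finrank ↥(modularFunctionFieldBar (M * q))
      ↥(modularFunctionFieldBar (M * q * q)) = q :=
    s36d_finrank_alpha Qb (M * q) q hq.out (dvd_mul_left q M)
  set a0 : ↥(modularFunctionFieldBar M) →+* ↥(modularFunctionFieldBar (M * q)) :=
    (heckeAlphaBar Qb M q).toRingHom with ha0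
  set b0 : ↥(modularFunctionFieldBar M) →+* ↥(modularFunctionFieldBar (M * q)) :=
    (heckeBetaBar Qb M q).toRingHom with hb0
  set a1 : ↥(modularFunctionFieldBar (M * q)) →+* ↥(modularFunctionFieldBar (M * q * q)) :=
    (heckeAlphaBar Qb (M * q) q).toRingHom with ha1
  set b1 : ↥(modularFunctionFieldBar (M * q)) →+* ↥(modularFunctionFieldBar (M * q * q)) :=
    (heckeBetaBar Qb (M * q) q).toRingHom with hb1
  set w1 : ↥(modularFunctionFieldBar (M * q)) →+* ↥(modularFunctionFieldBar (M * q)) :=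
    swp M q hq.out hM with hw1
  set J : ↥(modularFunctionFieldBar M) := grJ Qb M with hJ
  set ι1 : ↥(modularFunctionFieldBar (M * q)) →+* LaurentSeries Qb := s36ecIota (M * q) with hι1
  set T : LaurentSeries Qb →+* LaurentSeries Qb := ccjTwist ζ hζ0 with hT
  have hba : ∀ z, b1 (a0 z) = a1 (b0 z) := fun z => s36d_beta_alpha Qb M q z
  have hwa : ∀ z, w1 (a0 z) = b0 z := fun z => swp_alpha M q hq.out hM z
  have hwb : ∀ z, w1 (b0 z) = a0 z := fun z => swp_beta M q hq.out hM z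
  have hgen0 : IntermediateField.adjoin ↥(modularFunctionFieldBar M)
      ({b0 J} : Set ↥(modularFunctionFieldBar (M * q))) = ⊤ := nsq_gen_grJ M q hq.out hM
  have hint : IsIntegral ↥(modularFunctionFieldBar M) (b0 J) := IsIntegral.of_finite _ _
  set Φ : (↥(modularFunctionFieldBar M))[X] := minpoly ↥(modularFunctionFieldBar M) (b0 J)
    with hΦ
  have hΦm : Φ.Monic := minpoly.monic hint
  have hΦdeg : Φ.natDegree = q + 1 := by
    rw [hΦ, ← IntermediateField.adjoin.finrank hint, hgen0, IntermediateField.finrank_top', hdeg0]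
  have hΦ0 : Φ.eval₂ a0 (b0 J) = 0 := by
    have h := minpoly.aeval ↥(modularFunctionFieldBar M) (b0 J)
    rw [aeval_def] at h
    exact h
  set P : (↥(modularFunctionFieldBar (M * q)))[X] := Φ.map b0 with hP
  have hgen1 : IntermediateField.adjoin ↥(modularFunctionFieldBar (M * q))
      ({b1 (b0 J)} : Set ↥(modularFunctionFieldBar (M * q * q))) = ⊤ :=
    s36d_gen_alpha Qb M q hq.out (grJ Qb M) (nsq_gen_closure M q hq.out hM)
  have hne : b1 (b0 J) ≠ a1 (a0 J) := s36vs_ne M q hM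
  have hPm : P.Monic := hΦm.map _
  have hPdeg : P.natDegree = Module.finrank ↥(modularFunctionFieldBar (M * q))
      ↥(modularFunctionFieldBar (M * q * q)) + 1 := by
    rw [hdeg1, hP, hΦm.natDegree_map, hΦdeg]
  have hΦb : Φ.eval₂ b0 (a0 J) = 0 := by
    have hcomp : b0 = w1.comp a0 := RingHom.ext fun z => (hwa z).symm
    have h1 := Polynomial.hom_eval₂ Φ a0 w1 (b0 J)
    rw [hΦ0, map_zero, hwb J, ← hcomp] at h1
    exact h1.symm
  have hPa : P.eval (a0 J) = 0 := by
    rw [hP, eval_map]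
    exact hΦb
  have hPx : aeval (b1 (b0 J)) P = 0 := by
    rw [hP, aeval_def, eval₂_map]
    have hcomp : (algebraMap ↥(modularFunctionFieldBar (M * q))
        ↥(modularFunctionFieldBar (M * q * q))).comp b0 = b1.comp a0 :=
      RingHom.ext fun z => (hba z).symm
    rw [hcomp]
    have h1 := Polynomial.hom_eval₂ Φ a0 b1 (b0 J)
    rw [hΦ0, map_zero] at h1
    exact h1.symm
  -- the new root
  have hJt : ι1 (a0 J) = jqModC Qb := rfl
  have hfix : T.comp (ι1.comp b0) = ι1.comp b0 := by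
    refine RingHom.ext fun g => ?_
    show ccjTwist ζ hζ0 (((heckeBetaBar Qb M q g : ↥(modularFunctionFieldBar (M * q))) :
      LaurentSeries Qb)) = ((heckeBetaBar Qb M q g : ↥(modularFunctionFieldBar (M * q))) :
      LaurentSeries Qb)
    rw [coe_heckeBetaBar]
    exact s36tw_qExpand ζ hζ0 q hζq _
  have hy : (P.map ι1).eval (T (jqModC Qb)) = 0 := by
    rw [hP, Polynomial.map_map, eval_map]
    have h1 := Polynomial.hom_eval₂ Φ b0 ι1 (a0 J)
    rw [hΦb, map_zero, hJt] at h1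
    have h2 := Polynomial.hom_eval₂ Φ (ι1.comp b0) T (jqModC Qb)
    rw [← h1, map_zero, hfix] at h2
    exact h2.symm
  have hya : T (jqModC Qb) ≠ ι1 (a0 J) := by
    rw [hJt]
    exact s36ec_twist_ne ζ hζ0 hζ1
  obtain ⟨Ec, hE1, hE2⟩ := s36vl_lift (E := ↥(modularFunctionFieldBar (M * q)))
    (F := ↥(modularFunctionFieldBar (M * q * q))) (b1 (b0 J)) hgen1 (a0 J) hne P hPm hPdeg hPx
    hPa ι1 (T (jqModC Qb)) hy hya
  exact ⟨Ec, fun z => hE1 z, hE2⟩

/-- **The expansion at the middle cusp, over `ℚ̄`.** -/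
def s36ecBar : ↥(modularFunctionFieldBar (M * q * q)) →+* LaurentSeries Qb :=
  Classical.choose (s36ec_bar_exists M q hM ζ hζ0 hζq hζ1)

/-- `Ec ∘ α₁ = ` the `t`-expansion -/
theorem s36ecBar_al (z : ↥(modularFunctionFieldBar (M * q))) :
    s36ecBar M q hM ζ hζ0 hζq hζ1 (heckeAlphaBar Qb (M * q) q z) = (z : LaurentSeries Qb) :=
  (Classical.choose_spec (s36ec_bar_exists M q hM ζ hζ0 hζq hζ1)).1 z

theorem s36ecBar_gen :
    s36ecBar M q hM ζ hζ0 hζq hζ1
        (heckeBetaBar Qb (M * q) q (heckeBetaBar Qb M q (grJ Qb M)))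
      = ccjTwist ζ hζ0 (jqModC Qb) :=
  (Classical.choose_spec (s36ec_bar_exists M q hM ζ hζ0 hζq hζ1)).2

/-- `Ec ∘ β₁ = T_ζ ∘ (t-expansion) ∘ w₁` -/
theorem s36ecBar_be (z : ↥(modularFunctionFieldBar (M * q))) :
    s36ecBar M q hM ζ hζ0 hζq hζ1 (heckeBetaBar Qb (M * q) q z)
      = ccjTwist ζ hζ0 ((swp M q hq.out hM z : ↥(modularFunctionFieldBar (M * q))) :
          LaurentSeries Qb) := by
  have hle : Subfield.closure (Set.range (heckeAlphaBar Qb M q) ∪
      {heckeBetaBar Qb M q (grJ Qb M)}) ≤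
      RingHom.eqLocusField
        ((s36ecBar M q hM ζ hζ0 hζq hζ1).comp (heckeBetaBar Qb (M * q) q).toRingHom)
        (((ccjTwist ζ hζ0).comp (s36ecIota (M * q))).comp (swp M q hq.out hM)) := by
    rw [Subfield.closure_le]
    rintro _ (⟨g, rfl⟩ | hb)
    · show s36ecBar M q hM ζ hζ0 hζq hζ1 (heckeBetaBar Qb (M * q) q (heckeAlphaBar Qb M q g))
        = ccjTwist ζ hζ0 ((swp M q hq.out hM (heckeAlphaBar Qb M q g) :
            ↥(modularFunctionFieldBar (M * q))) : LaurentSeries Qb)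
      rw [s36d_beta_alpha, s36ecBar_al, swp_alpha, coe_heckeBetaBar]
      exact (s36tw_qExpand ζ hζ0 q hζq _).symm
    · rw [Set.mem_singleton_iff] at hb
      rw [hb]
      show s36ecBar M q hM ζ hζ0 hζq hζ1
          (heckeBetaBar Qb (M * q) q (heckeBetaBar Qb M q (grJ Qb M)))
        = ccjTwist ζ hζ0 ((swp M q hq.out hM (heckeBetaBar Qb M q (grJ Qb M)) :
            ↥(modularFunctionFieldBar (M * q))) : LaurentSeries Qb)
      rw [s36ecBar_gen, swp_beta]
      rfl
  exact hle (nsq_gen_closure M q hq.out hM z)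

end Bar

/-! ### The expansion over `K0` -/

section K0

variable (M q : ℕ) [NeZero M] [hq : Fact q.Prime] (hM : ¬ q ∣ M)
  (K0 : Type*) [Field K0] [Algebra ℚ K0] [Algebra K0 Qb]
  (ζ : Qb) (hζ0 : ζ ≠ 0) (hζq : ζ ^ q = 1) (hζ1 : ζ ≠ 1)

/-- **The expansion of level `M q²` at the middle cusp**, over `K0` (values in `ℚ̄((t))`). -/
def s36ecHom :
    ↥(laurentBaseChange K0 (modularFunctionFieldFull (M * q * q))) →+* LaurentSeries Qb :=
  (s36ecBar M q hM ζ hζ0 hζq hζ1).comp (bcfHom K0 Qb (modularFunctionFieldFull (M * q * q)))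

theorem s36ecHom_apply (x : ↥(laurentBaseChange K0 (modularFunctionFieldFull (M * q * q)))) :
    s36ecHom M q hM K0 ζ hζ0 hζq hζ1 x
      = s36ecBar M q hM ζ hζ0 hζq hζ1 (bcfHom K0 Qb (modularFunctionFieldFull (M * q * q)) x) :=
  rfl

/-- `Ec ∘ α₁ = ` the base-changed `t`-expansion of level `M q` -/
theorem s36ec_al (x : ↥(laurentBaseChange K0 (modularFunctionFieldFull (M * q)))) :
    s36ecHom M q hM K0 ζ hζ0 hζq hζ1 (heckeAlphaBar K0 (M * q) q x)
      = coeffMap (algebraMap K0 Qb) (x : LaurentSeries K0) := by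
  rw [s36ecHom_apply, va2_bcf_alpha, s36ecBar_al, bcfHom_coe]

/-- `Ec ∘ β₁ = T_ζ ∘ (base-changed t-expansion) ∘ w₁` -/
theorem s36ec_be (x : ↥(laurentBaseChange K0 (modularFunctionFieldFull (M * q)))) :
    s36ecHom M q hM K0 ζ hζ0 hζq hζ1 (heckeBetaBar K0 (M * q) q x)
      = ccjTwist ζ hζ0 (coeffMap (algebraMap K0 Qb)
          ((va2Swap M q hq.out hM K0 x :
            ↥(laurentBaseChange K0 (modularFunctionFieldFull (M * q)))) : LaurentSeries K0)) := by
  rw [s36ecHom_apply, va2_bcf_beta, s36ecBar_be, ← va2Swap_spec, bcfHom_coe]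

/-- `f(t^{q²}) ↦ f(ζ t)` for `f` of level `M` -/
theorem s36ec_be_be (f : ↥(laurentBaseChange K0 (modularFunctionFieldFull M))) :
    s36ecHom M q hM K0 ζ hζ0 hζq hζ1 (heckeBetaBar K0 (M * q) q (heckeBetaBar K0 M q f))
      = ccjTwist ζ hζ0 (coeffMap (algebraMap K0 Qb) (f : LaurentSeries K0)) := by
  rw [s36ec_be, va2Swap_beta, coe_heckeAlphaBar]

/-- `f(t^q) ↦ f(t^q)` for `f` of level `M` -/
theorem s36ec_be_al (f : ↥(laurentBaseChange K0 (modularFunctionFieldFull M))) :
    s36ecHom M q hM K0 ζ hζ0 hζq hζ1 (heckeBetaBar K0 (M * q) q (heckeAlphaBar K0 M q f))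
      = qExpand Qb q (coeffMap (algebraMap K0 Qb) (f : LaurentSeries K0)) := by
  rw [s36d_beta_alpha, s36ec_al, coe_heckeBetaBar, coeffMap_qExpand]

/-- `f(t) ↦ f(t)` for `f` of level `M` -/
theorem s36ec_al_al (f : ↥(laurentBaseChange K0 (modularFunctionFieldFull M))) :
    s36ecHom M q hM K0 ζ hζ0 hζq hζ1 (heckeAlphaBar K0 (M * q) q (heckeAlphaBar K0 M q f))
      = coeffMap (algebraMap K0 Qb) (f : LaurentSeries K0) := by
  rw [s36ec_al, coe_heckeAlphaBar]

/-- the image of `z_f = f(t^{q²}) - f(t)` is `f(ζ t) - f(t)` -/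
theorem s36ec_z (f : ↥(laurentBaseChange K0 (modularFunctionFieldFull M))) :
    s36ecHom M q hM K0 ζ hζ0 hζq hζ1
        (heckeBetaBar K0 (M * q) q (heckeBetaBar K0 M q f)
          - heckeAlphaBar K0 (M * q) q (heckeAlphaBar K0 M q f))
      = ccjTwist ζ hζ0 (coeffMap (algebraMap K0 Qb) (f : LaurentSeries K0))
        - coeffMap (algebraMap K0 Qb) (f : LaurentSeries K0) := by
  rw [map_sub, s36ec_be_be, s36ec_al_al]

theorem s36ec_const (c : K0) :
    s36ecHom M q hM K0 ζ hζ0 hζq hζ1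
        (algebraMap K0 ↥(laurentBaseChange K0 (modularFunctionFieldFull (M * q * q))) c)
      = algebraMap Qb (LaurentSeries Qb) (algebraMap K0 Qb c) := by
  have h1 : algebraMap K0 ↥(laurentBaseChange K0 (modularFunctionFieldFull (M * q * q))) c
      = heckeAlphaBar K0 (M * q) q
          (algebraMap K0 ↥(laurentBaseChange K0 (modularFunctionFieldFull (M * q))) c) :=
    (AlgHom.commutes _ c).symm
  rw [h1, s36ec_al]
  exact bcf_coeffMap_algebraMap K0 Qb c

theorem s36ec_injective : Function.Injective (s36ecHom M q hM K0 ζ hζ0 hζq hζ1) :=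
  (s36ecHom M q hM K0 ζ hζ0 hζq hζ1).injective

end K0

end Fermat.Agent.S36
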