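import Mathlib

/-!
# S36, package VERT3 (abstract, Mathlib only): the component-group step

Setting (function field `F` of level `L q²`, function field `E` of level `L q`, the two norms
`N₁ N₂ : F →* E` along the two degeneracy maps): three discrete valuation subrings `Wa Wb Wc`
of `F` (uniformisers `τ, τ, π`, with `π ^ (q - 1) = τ * unit` at `Wc`), two discrete valuation
subrings `V₁ V₂` of `E` (uniformiser `τE`), such that

* for `N₁`: `Wa` (`e = f = 1`) and `Wc` (`e = q - 1`, `f = 1`) lie over `V₁`, `Wb` (`f = q`) over `V₂`;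
* for `N₂`: `Wa` (`f = q`) lies over `V₁`, `Wb` (`e = f = 1`) and `Wc` (`e = q - 1`) over `V₂`.

The only input on the norms is what the norm-residue formulas give: integrality, and
"non-unit ⇒ non-unit" for the two pairs.

`s36vt_main`: if `N₁ f = c₁ e₁ ^ m` and `N₂ f = c₂ e₂ ^ m` with `c₁, c₂` constants (a power of
`τE` times a common unit of `V₁`, `V₂`), then `f ^ (q + 1) * τ ^ i * (Xa ^ j * π ^ k) ^ m` is a
unit of `Wa`, `Wb` and `Wc` for suitable integers `i j k`.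
-/

set_option autoImplicit false

namespace Fermat.Agent.S36

section Vert3

variable {E F : Type*} [Field E] [Field F]

/-- a unit of a valuation subring has valuation one -/
theorem s36vt_val_one (V : ValuationSubring F) {x : F} (hx0 : x ≠ 0) (h1 : x ∈ V)
    (h2 : x⁻¹ ∈ V) : V.valuation x = 1 := by
  have a := (V.valuation_le_one_iff x).mpr h1
  have b := (V.valuation_le_one_iff x⁻¹).mpr h2
  rw [map_inv₀] at b
  have hv0 : V.valuation x ≠ 0 := (Valuation.ne_zero_iff _).mpr hx0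
  have c : 1 ≤ V.valuation x := (inv_le_one₀ (zero_lt_iff.mpr hv0)).mp b
  exact le_antisymm a c

/-- an element of valuation one is a unit of the valuation subring -/
theorem s36vt_unit_of_val_one (V : ValuationSubring F) {x : F} (h : V.valuation x = 1) :
    x ≠ 0 ∧ x ∈ V ∧ x⁻¹ ∈ V := by
  refine ⟨?_, (V.valuation_le_one_iff x).mp h.le, (V.valuation_le_one_iff x⁻¹).mp ?_⟩
  · rintro rfl
    rw [map_zero] at h
    exact zero_ne_one h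
  · rw [map_inv₀, h, inv_one]

/-- decomposition: every nonzero element has valuation a power of that of the uniformiser -/
theorem s36vt_dec (V : ValuationSubring F) (ϖ : F) (hϖ0 : ϖ ≠ 0)
    (hdec : ∀ z : F, z ≠ 0 → ∃ j : ℤ, z * ϖ ^ j ∈ V ∧ (z * ϖ ^ j)⁻¹ ∈ V)
    (z : F) (hz : z ≠ 0) : ∃ i : ℤ, V.valuation z = V.valuation ϖ ^ i := by
  obtain ⟨j, h1, h2⟩ := hdec z hz
  have h := s36vt_val_one V (mul_ne_zero hz (zpow_ne_zero j hϖ0)) h1 h2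
  rw [map_mul, map_zpow₀] at h
  refine ⟨-j, ?_⟩
  rw [zpow_neg]
  exact eq_inv_of_mul_eq_one_left h

/-- the exponent is unique -/
theorem s36vt_exp_inj {Γ : Type*} [LinearOrderedCommGroupWithZero Γ] {γ : Γ} (h0 : γ ≠ 0)
    (h1 : γ < 1) {i j : ℤ} (h : γ ^ i = γ ^ j) : i = j :=
  (zpow_right_strictAnti₀ (zero_lt_iff.mpr h0) h1).injective h

/-- a power of valuation `< 1` has positive exponent -/
theorem s36vt_exp_pos {Γ : Type*} [LinearOrderedCommGroupWithZero Γ] {γ : Γ} (h0 : γ ≠ 0)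
    (h1 : γ < 1) {i : ℤ} (h : γ ^ i < 1) : 0 < i := by
  have h2 : γ ^ i < γ ^ (0 : ℤ) := by rwa [zpow_zero]
  exact (StrictAnti.lt_iff_gt (zpow_right_strictAnti₀ (zero_lt_iff.mpr h0) h1)).mp h2

theorem s36vt_map_inv (N : F →* E) {x : F} (hx : x ≠ 0) : N x⁻¹ = (N x)⁻¹ := by
  apply eq_inv_of_mul_eq_one_left
  rw [← map_mul, inv_mul_cancel₀ hx, map_one]

theorem s36vt_map_ne_zero (N : F →* E) {x : F} (hx : x ≠ 0) : N x ≠ 0 := by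
  intro h
  have h1 : N x * N x⁻¹ = 1 := by rw [← map_mul, mul_inv_cancel₀ hx, map_one]
  rw [h, zero_mul] at h1
  exact zero_ne_one h1

theorem s36vt_map_zpow (N : F →* E) {x : F} (hx : x ≠ 0) (i : ℤ) : N (x ^ i) = N x ^ i := by
  cases i with
  | ofNat n =>
    rw [Int.ofNat_eq_natCast, zpow_natCast, zpow_natCast, map_pow]
  | negSucc n =>
    rw [zpow_negSucc, zpow_negSucc, s36vt_map_inv N (pow_ne_zero _ hx), map_pow]

/-- the norm of a common unit of `W`, `W'` is a unit of `V` -/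
theorem s36vt_unit_pair (W W' : ValuationSubring F) (V : ValuationSubring E) (N : F →* E)
    (hN : ∀ u : F, u ∈ W → u ∈ W' → N u ∈ V) {u : F}
    (h : W.valuation u = 1) (h' : W'.valuation u = 1) : V.valuation (N u) = 1 := by
  obtain ⟨u0, hu, hui⟩ := s36vt_unit_of_val_one W h
  obtain ⟨-, hu', hui'⟩ := s36vt_unit_of_val_one W' h'
  have h1 := hN u hu hu'
  have h2 := hN u⁻¹ hui hui'
  rw [s36vt_map_inv N u0] at h2
  exact s36vt_val_one V (s36vt_map_ne_zero N u0) h1 h2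

/-- the counting argument: `x y ^ (q - 1) = τE ^ q` with `x, y` non-units forces both to be
uniformisers -/
theorem s36vt_count (V : ValuationSubring E) (τE : E) (hτE0 : τE ≠ 0) (hτE : τE ∈ V.nonunits)
    (hdec : ∀ z : E, z ≠ 0 → ∃ j : ℤ, z * τE ^ j ∈ V ∧ (z * τE ^ j)⁻¹ ∈ V)
    (q : ℕ) (hq : 2 ≤ q) (x y : E) (hx0 : x ≠ 0) (hy0 : y ≠ 0) (hx : x ∈ V.nonunits)
    (hy : y ∈ V.nonunits) (hxy : x * y ^ (q - 1) = τE ^ q) :
    V.valuation x = V.valuation τE ∧ V.valuation y = V.valuation τE := by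
  set δ := V.valuation τE with hδ
  have hδ0 : δ ≠ 0 := (Valuation.ne_zero_iff _).mpr hτE0
  have hδ1 : δ < 1 := (V.mem_nonunits_iff).mp hτE
  obtain ⟨A, hA⟩ := s36vt_dec V τE hτE0 hdec x hx0
  obtain ⟨B, hB⟩ := s36vt_dec V τE hτE0 hdec y hy0
  have hA1 : 0 < A := by
    apply s36vt_exp_pos hδ0 hδ1
    rw [← hA]
    exact (V.mem_nonunits_iff).mp hx
  have hB1 : 0 < B := by
    apply s36vt_exp_pos hδ0 hδ1
    rw [← hB]
    exact (V.mem_nonunits_iff).mp hy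
  have h := congrArg V.valuation hxy
  rw [map_mul, map_pow, map_pow, hA, hB, ← zpow_natCast (δ ^ B), ← zpow_mul, ← zpow_add₀ hδ0,
    ← zpow_natCast δ q] at h
  have h3 := s36vt_exp_inj hδ0 hδ1 h
  have hq1 : ((q - 1 : ℕ) : ℤ) = (q : ℤ) - 1 := by
    rw [Nat.cast_sub (by omega)]
    simp
  rw [hq1] at h3
  have hq2 : (2 : ℤ) ≤ (q : ℤ) := by exact_mod_cast hq
  have hB' : B = 1 := by nlinarith
  have hA' : A = 1 := by
    rw [hB'] at h3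
    linarith
  rw [hA, hB, hA', hB', zpow_one]
  exact ⟨rfl, rfl⟩

/-- the valuation of a norm, two valuations `W` (uniformiser `X`, a unit at `W'`) and `W'`
(uniformiser `π`, a unit at `W`) over `V` -/
theorem s36vt_pair_formula (W W' : ValuationSubring F) (V : ValuationSubring E) (N : F →* E)
    (hN : ∀ u : F, u ∈ W → u ∈ W' → N u ∈ V)
    (X π : F) (hX0 : X ≠ 0) (hπ0 : π ≠ 0)
    (hXW' : W'.valuation X = 1) (hπW : W.valuation π = 1)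
    {u : F} (hu : u ≠ 0) (i k : ℤ) (hi : W.valuation u = W.valuation X ^ i)
    (hk : W'.valuation u = W'.valuation π ^ k) :
    V.valuation (N u) = V.valuation (N X) ^ i * V.valuation (N π) ^ k := by
  have hXv : W.valuation X ≠ 0 := (Valuation.ne_zero_iff _).mpr hX0
  have hπv : W'.valuation π ≠ 0 := (Valuation.ne_zero_iff _).mpr hπ0
  set u' : F := u * (X ^ i)⁻¹ * (π ^ k)⁻¹ with hu'
  have h1 : W.valuation u' = 1 := by
    rw [hu', map_mul, map_mul, map_inv₀, map_inv₀, map_zpow₀, map_zpow₀, hi, hπW, one_zpow,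
      inv_one, mul_one]
    exact mul_inv_cancel₀ (zpow_ne_zero _ hXv)
  have h2 : W'.valuation u' = 1 := by
    rw [hu', map_mul, map_mul, map_inv₀, map_inv₀, map_zpow₀, map_zpow₀, hk, hXW', one_zpow,
      inv_one, mul_one]
    exact mul_inv_cancel₀ (zpow_ne_zero _ hπv)
  have h3 := s36vt_unit_pair W W' V N hN h1 h2
  have h4 : u = u' * X ^ i * π ^ k := by
    rw [hu']
    have hXi : X ^ i ≠ 0 := zpow_ne_zero _ hX0
    have hπk : π ^ k ≠ 0 := zpow_ne_zero _ hπ0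
    field_simp
  have h5 : N u = N u' * N X ^ i * N π ^ k := by
    conv_lhs => rw [h4]
    rw [map_mul, map_mul, s36vt_map_zpow N hX0, s36vt_map_zpow N hπ0]
  rw [h5, map_mul, map_mul, h3, one_mul, map_zpow₀, map_zpow₀]

/-- the valuation of a norm, a single valuation `W` (uniformiser `X`) over `V` -/
theorem s36vt_single_formula (W : ValuationSubring F) (V : ValuationSubring E) (N : F →* E)
    (hN : ∀ u : F, u ∈ W → N u ∈ V) (X : F) (hX0 : X ≠ 0)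
    {u : F} (hu : u ≠ 0) (j : ℤ) (hj : W.valuation u = W.valuation X ^ j) :
    V.valuation (N u) = V.valuation (N X) ^ j := by
  have hXv : W.valuation X ≠ 0 := (Valuation.ne_zero_iff _).mpr hX0
  set u' : F := u * (X ^ j)⁻¹ with hu'
  have h1 : W.valuation u' = 1 := by
    rw [hu', map_mul, map_inv₀, map_zpow₀, hj]
    exact mul_inv_cancel₀ (zpow_ne_zero _ hXv)
  have h3 := s36vt_unit_pair W W V N (fun u hu _ => hN u hu) h1 h1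
  have h4 : u = u' * X ^ j := by
    rw [hu']
    have hXi : X ^ j ≠ 0 := zpow_ne_zero _ hX0
    field_simp
  have h5 : N u = N u' * N X ^ j := by
    conv_lhs => rw [h4]
    rw [map_mul, s36vt_map_zpow N hX0]
  rw [h5, map_mul, h3, one_mul, map_zpow₀]

/-- the valuation of the normalised function -/
theorem s36vt_final (W : ValuationSubring F) (γ : W.ValueGroup) (hγ0 : γ ≠ 0)
    (f τ Xa π : F) (q m : ℕ) (I J K nf nτ nX nπ : ℤ)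
    (hf : W.valuation f = γ ^ nf) (hτ : W.valuation τ = γ ^ nτ)
    (hX : W.valuation Xa = γ ^ nX) (hπ : W.valuation π = γ ^ nπ)
    (h0 : ((q : ℤ) + 1) * nf + I * nτ + (m : ℤ) * (J * nX + K * nπ) = 0) :
    W.valuation (f ^ (q + 1) * τ ^ I * (Xa ^ J * π ^ K) ^ m) = 1 := by
  rw [map_mul, map_mul, map_pow, map_zpow₀, map_pow, map_mul, map_zpow₀, map_zpow₀, hf, hτ, hX,
    hπ]
  have e1 : (γ ^ nf) ^ (q + 1) = γ ^ (nf * ((q : ℤ) + 1)) := by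
    rw [zpow_mul, ← Nat.cast_succ, zpow_natCast]
  have e2 : (γ ^ nτ) ^ I = γ ^ (nτ * I) := (zpow_mul γ nτ I).symm
  have e3 : ((γ ^ nX) ^ J * (γ ^ nπ) ^ K) ^ m = γ ^ ((nX * J + nπ * K) * (m : ℤ)) := by
    rw [← zpow_mul, ← zpow_mul, ← zpow_add₀ hγ0, zpow_mul, zpow_natCast]
  rw [e1, e2, e3, ← zpow_add₀ hγ0, ← zpow_add₀ hγ0]
  have h : nf * ((q : ℤ) + 1) + nτ * I + (nX * J + nπ * K) * (m : ℤ) = 0 := by
    linear_combination h0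
  rw [h, zpow_zero]

/-- **VERT3, the component-group step.**  See the module docstring. -/
theorem s36vt_main
    (Wa Wb Wc : ValuationSubring F) (V1 V2 : ValuationSubring E)
    (N1 N2 : F →* E) (q m : ℕ) (hq : 2 ≤ q) (hm : 0 < m)
    (τ π Xa : F) (τE : E)
    (hτ0 : τ ≠ 0) (hπ0 : π ≠ 0) (hXa0 : Xa ≠ 0) (hτE0 : τE ≠ 0)
    (hτa : τ ∈ Wa.nonunits) (hτb : τ ∈ Wb.nonunits) (hπc : π ∈ Wc.nonunits)
    (hτE1 : τE ∈ V1.nonunits) (hτE2 : τE ∈ V2.nonunits)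
    (hdeca : ∀ z : F, z ≠ 0 → ∃ j : ℤ, z * τ ^ j ∈ Wa ∧ (z * τ ^ j)⁻¹ ∈ Wa)
    (hdecb : ∀ z : F, z ≠ 0 → ∃ j : ℤ, z * τ ^ j ∈ Wb ∧ (z * τ ^ j)⁻¹ ∈ Wb)
    (hdecc : ∀ z : F, z ≠ 0 → ∃ j : ℤ, z * π ^ j ∈ Wc ∧ (z * π ^ j)⁻¹ ∈ Wc)
    (hdec1 : ∀ z : E, z ≠ 0 → ∃ j : ℤ, z * τE ^ j ∈ V1 ∧ (z * τE ^ j)⁻¹ ∈ V1)
    (hdec2 : ∀ z : E, z ≠ 0 → ∃ j : ℤ, z * τE ^ j ∈ V2 ∧ (z * τE ^ j)⁻¹ ∈ V2)
    (hπτ : π ^ (q - 1) * τ⁻¹ ∈ Wc ∧ (π ^ (q - 1) * τ⁻¹)⁻¹ ∈ Wc)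
    (hπa : π ∈ Wa ∧ π⁻¹ ∈ Wa) (hπb : π ∈ Wb ∧ π⁻¹ ∈ Wb)
    (hXaa : Xa * τ⁻¹ ∈ Wa ∧ (Xa * τ⁻¹)⁻¹ ∈ Wa)
    (hXab : Xa ∈ Wb ∧ Xa⁻¹ ∈ Wb) (hXac : Xa ∈ Wc ∧ Xa⁻¹ ∈ Wc)
    (hNτ1 : N1 τ = τE ^ q) (hNτ2 : N2 τ = τE ^ q)
    (hN1ac : ∀ u : F, u ∈ Wa → u ∈ Wc → N1 u ∈ V1)
    (hN1ac' : ∀ u : F, u ∈ Wa → u ∈ Wc → (u ∈ Wa.nonunits ∨ u ∈ Wc.nonunits) →
      N1 u ∈ V1.nonunits)
    (hN1b : ∀ u : F, u ∈ Wb → N1 u ∈ V2)
    (hN2a : ∀ u : F, u ∈ Wa → N2 u ∈ V1)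
    (hN2bc : ∀ u : F, u ∈ Wb → u ∈ Wc → N2 u ∈ V2)
    (hN2bc' : ∀ u : F, u ∈ Wb → u ∈ Wc → (u ∈ Wb.nonunits ∨ u ∈ Wc.nonunits) →
      N2 u ∈ V2.nonunits)
    (f : F) (hf : f ≠ 0) (c1 c2 e1 e2 : E)
    (hc1 : ∃ k : ℤ, (c1 * τE ^ k ∈ V1 ∧ (c1 * τE ^ k)⁻¹ ∈ V1) ∧
      (c1 * τE ^ k ∈ V2 ∧ (c1 * τE ^ k)⁻¹ ∈ V2))
    (hc2 : ∃ k : ℤ, (c2 * τE ^ k ∈ V1 ∧ (c2 * τE ^ k)⁻¹ ∈ V1) ∧
      (c2 * τE ^ k ∈ V2 ∧ (c2 * τE ^ k)⁻¹ ∈ V2))
    (h1 : N1 f = c1 * e1 ^ m) (h2 : N2 f = c2 * e2 ^ m) :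
    ∃ (i j k : ℤ) (x : F), x = f ^ (q + 1) * τ ^ i * (Xa ^ j * π ^ k) ^ m ∧ x ≠ 0 ∧
      (x ∈ Wa ∧ x⁻¹ ∈ Wa) ∧ (x ∈ Wb ∧ x⁻¹ ∈ Wb) ∧ (x ∈ Wc ∧ x⁻¹ ∈ Wc) := by
  -- the valuations of the uniformisers
  set γa := Wa.valuation τ with hγa
  set γb := Wb.valuation τ with hγb
  set γc := Wc.valuation π with hγc
  set δ1 := V1.valuation τE with hδ1
  set δ2 := V2.valuation τE with hδ2
  have hγa0 : γa ≠ 0 := (Valuation.ne_zero_iff _).mpr hτ0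
  have hγb0 : γb ≠ 0 := (Valuation.ne_zero_iff _).mpr hτ0
  have hγc0 : γc ≠ 0 := (Valuation.ne_zero_iff _).mpr hπ0
  have hδ10 : δ1 ≠ 0 := (Valuation.ne_zero_iff _).mpr hτE0
  have hδ20 : δ2 ≠ 0 := (Valuation.ne_zero_iff _).mpr hτE0
  have hγa1 : γa < 1 := (Wa.mem_nonunits_iff).mp hτa
  have hγb1 : γb < 1 := (Wb.mem_nonunits_iff).mp hτb
  have hγc1 : γc < 1 := (Wc.mem_nonunits_iff).mp hπc
  have hδ11 : δ1 < 1 := (V1.mem_nonunits_iff).mp hτE1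
  have hδ21 : δ2 < 1 := (V2.mem_nonunits_iff).mp hτE2
  have aπ : Wa.valuation π = 1 := s36vt_val_one Wa hπ0 hπa.1 hπa.2
  have bπ : Wb.valuation π = 1 := s36vt_val_one Wb hπ0 hπb.1 hπb.2
  have aX : Wa.valuation Xa = γa := by
    have h := s36vt_val_one Wa (mul_ne_zero hXa0 (inv_ne_zero hτ0)) hXaa.1 hXaa.2
    rw [map_mul, map_inv₀] at h
    exact (mul_inv_eq_one₀ hγa0).mp h
  have bX : Wb.valuation Xa = 1 := s36vt_val_one Wb hXa0 hXab.1 hXab.2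
  have cX : Wc.valuation Xa = 1 := s36vt_val_one Wc hXa0 hXac.1 hXac.2
  have cτ : Wc.valuation τ = γc ^ (q - 1) := by
    have h := s36vt_val_one Wc (mul_ne_zero (pow_ne_zero _ hπ0) (inv_ne_zero hτ0)) hπτ.1 hπτ.2
    rw [map_mul, map_inv₀, map_pow] at h
    exact ((mul_inv_eq_one₀ ((Valuation.ne_zero_iff _).mpr hτ0)).mp h).symm
  -- the element `X' = τ / π ^ (q - 1)`
  set X' : F := τ * (π ^ (q - 1))⁻¹ with hX'
  have hX'0 : X' ≠ 0 := mul_ne_zero hτ0 (inv_ne_zero (pow_ne_zero _ hπ0))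
  have aX' : Wa.valuation X' = γa := by
    rw [hX', map_mul, map_inv₀, map_pow, aπ, one_pow, inv_one, mul_one]
  have bX' : Wb.valuation X' = γb := by
    rw [hX', map_mul, map_inv₀, map_pow, bπ, one_pow, inv_one, mul_one]
  have cX' : Wc.valuation X' = 1 := by
    rw [hX', map_mul, map_inv₀, map_pow, cτ]
    exact mul_inv_cancel₀ (pow_ne_zero _ hγc0)
  have hX'π : X' * π ^ (q - 1) = τ := by
    rw [hX']
    exact inv_mul_cancel_right₀ (pow_ne_zero _ hπ0) τ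
  have hπWc : π ∈ Wc := (Wc.valuation_le_one_iff _).mp hγc1.le
  -- the counting for `N1` (pair `Wa`, `Wc` over `V1`)
  have hN1X' : N1 X' ∈ V1.nonunits :=
    hN1ac' X' ((Wa.valuation_le_one_iff _).mp (aX'.le.trans hγa1.le))
      ((Wc.valuation_le_one_iff _).mp cX'.le)
      (Or.inl ((Wa.mem_nonunits_iff).mpr (aX'.trans_lt hγa1)))
  have hN1π : N1 π ∈ V1.nonunits := hN1ac' π hπa.1 hπWc (Or.inr hπc)
  have hcount1 := s36vt_count V1 τE hτE0 hτE1 hdec1 q hq (N1 X') (N1 π)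
    (s36vt_map_ne_zero N1 hX'0) (s36vt_map_ne_zero N1 hπ0) hN1X' hN1π
    (by rw [← map_pow, ← map_mul, hX'π, hNτ1])
  -- the counting for `N2` (pair `Wb`, `Wc` over `V2`)
  have hN2X' : N2 X' ∈ V2.nonunits :=
    hN2bc' X' ((Wb.valuation_le_one_iff _).mp (bX'.le.trans hγb1.le))
      ((Wc.valuation_le_one_iff _).mp cX'.le)
      (Or.inl ((Wb.mem_nonunits_iff).mpr (bX'.trans_lt hγb1)))
  have hN2π : N2 π ∈ V2.nonunits := hN2bc' π hπb.1 hπWc (Or.inr hπc)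
  have hcount2 := s36vt_count V2 τE hτE0 hτE2 hdec2 q hq (N2 X') (N2 π)
    (s36vt_map_ne_zero N2 hX'0) (s36vt_map_ne_zero N2 hπ0) hN2X' hN2π
    (by rw [← map_pow, ← map_mul, hX'π, hNτ2])
  -- the exponents of `f`
  obtain ⟨i0, hi0⟩ := s36vt_dec Wa τ hτ0 hdeca f hf
  obtain ⟨j0, hj0⟩ := s36vt_dec Wb τ hτ0 hdecb f hf
  obtain ⟨k0, hk0⟩ := s36vt_dec Wc π hπ0 hdecc f hf
  -- the four valuations of the norms of `f`
  have F1 : V1.valuation (N1 f) = δ1 ^ (i0 + k0) := by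
    have h := s36vt_pair_formula Wa Wc V1 N1 hN1ac X' π hX'0 hπ0 cX' aπ hf i0 k0
      (by rw [aX']; exact hi0) hk0
    rw [h, hcount1.1, hcount1.2, ← zpow_add₀ hδ10]
  have F2 : V2.valuation (N1 f) = δ2 ^ ((q : ℤ) * j0) := by
    have h := s36vt_single_formula Wb V2 N1 hN1b τ hτ0 hf j0 hj0
    rw [h, hNτ1, map_pow, ← zpow_natCast, ← zpow_mul]
  have F3 : V1.valuation (N2 f) = δ1 ^ ((q : ℤ) * i0) := by
    have h := s36vt_single_formula Wa V1 N2 hN2a τ hτ0 hf i0 hi0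
    rw [h, hNτ2, map_pow, ← zpow_natCast, ← zpow_mul]
  have F4 : V2.valuation (N2 f) = δ2 ^ (j0 + k0) := by
    have h := s36vt_pair_formula Wb Wc V2 N2 hN2bc X' π hX'0 hπ0 cX' bπ hf j0 k0
      (by rw [bX']; exact hj0) hk0
    rw [h, hcount2.1, hcount2.2, ← zpow_add₀ hδ20]
  -- the right-hand sides
  have hN1f0 : N1 f ≠ 0 := s36vt_map_ne_zero N1 hf
  have hN2f0 : N2 f ≠ 0 := s36vt_map_ne_zero N2 hf
  have hc10 : c1 ≠ 0 := by
    rintro rfl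
    rw [zero_mul] at h1
    exact hN1f0 h1
  have hc20 : c2 ≠ 0 := by
    rintro rfl
    rw [zero_mul] at h2
    exact hN2f0 h2
  have he10 : e1 ≠ 0 := by
    rintro rfl
    rw [zero_pow hm.ne', mul_zero] at h1
    exact hN1f0 h1
  have he20 : e2 ≠ 0 := by
    rintro rfl
    rw [zero_pow hm.ne', mul_zero] at h2
    exact hN2f0 h2
  obtain ⟨κ1, ⟨hκ1a, hκ1b⟩, ⟨hκ1c, hκ1d⟩⟩ := hc1
  obtain ⟨κ2, ⟨hκ2a, hκ2b⟩, ⟨hκ2c, hκ2d⟩⟩ := hc2
  have cval : ∀ (V : ValuationSubring E) (c : E) (κ : ℤ), c ≠ 0 → c * τE ^ κ ∈ V →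
      (c * τE ^ κ)⁻¹ ∈ V → V.valuation c = V.valuation τE ^ (-κ) := by
    intro V c κ hc ha hb
    have h := s36vt_val_one V (mul_ne_zero hc (zpow_ne_zero _ hτE0)) ha hb
    rw [map_mul, map_zpow₀] at h
    rw [zpow_neg]
    exact eq_inv_of_mul_eq_one_left h
  have c1v1 : V1.valuation c1 = δ1 ^ (-κ1) := cval V1 c1 κ1 hc10 hκ1a hκ1b
  have c1v2 : V2.valuation c1 = δ2 ^ (-κ1) := cval V2 c1 κ1 hc10 hκ1c hκ1d
  have c2v1 : V1.valuation c2 = δ1 ^ (-κ2) := cval V1 c2 κ2 hc20 hκ2a hκ2b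
  have c2v2 : V2.valuation c2 = δ2 ^ (-κ2) := cval V2 c2 κ2 hc20 hκ2c hκ2d
  obtain ⟨s1, hs1⟩ := s36vt_dec V1 τE hτE0 hdec1 e1 he10
  obtain ⟨s2, hs2⟩ := s36vt_dec V2 τE hτE0 hdec2 e1 he10
  obtain ⟨t1, ht1⟩ := s36vt_dec V1 τE hτE0 hdec1 e2 he20
  obtain ⟨t2, ht2⟩ := s36vt_dec V2 τE hτE0 hdec2 e2 he20
  have R1a : i0 + k0 = -κ1 + s1 * (m : ℤ) := by
    apply s36vt_exp_inj hδ10 hδ11
    rw [← F1, h1, map_mul, map_pow, c1v1, hs1, ← zpow_natCast (δ1 ^ s1), ← zpow_mul,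
      ← zpow_add₀ hδ10]
  have R1b : (q : ℤ) * j0 = -κ1 + s2 * (m : ℤ) := by
    apply s36vt_exp_inj hδ20 hδ21
    rw [← F2, h1, map_mul, map_pow, c1v2, hs2, ← zpow_natCast (δ2 ^ s2), ← zpow_mul,
      ← zpow_add₀ hδ20]
  have R2a : (q : ℤ) * i0 = -κ2 + t1 * (m : ℤ) := by
    apply s36vt_exp_inj hδ10 hδ11
    rw [← F3, h2, map_mul, map_pow, c2v1, ht1, ← zpow_natCast (δ1 ^ t1), ← zpow_mul,
      ← zpow_add₀ hδ10]
  have R2b : j0 + k0 = -κ2 + t2 * (m : ℤ) := by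
    apply s36vt_exp_inj hδ20 hδ21
    rw [← F4, h2, map_mul, map_pow, c2v2, ht2, ← zpow_natCast (δ2 ^ t2), ← zpow_mul,
      ← zpow_add₀ hδ20]
  -- the output
  have hq1 : ((q - 1 : ℕ) : ℤ) = (q : ℤ) - 1 := by
    rw [Nat.cast_sub (by omega)]
    simp
  have cτ' : Wc.valuation τ = γc ^ ((q : ℤ) - 1) := by
    rw [cτ, ← hq1, zpow_natCast]
  have Ua := s36vt_final Wa γa hγa0 f τ Xa π q m (-((q : ℤ) + 1) * j0)
    (-((s1 - s2) + (t1 - t2))) (-((q : ℤ) * (s1 - s2) - (t1 - t2))) i0 1 1 0 hi0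
    (zpow_one _).symm (aX.trans (zpow_one _).symm) (aπ.trans (zpow_zero _).symm)
    (by linear_combination R1a - R1b + R2a - R2b)
  have Ub := s36vt_final Wb γb hγb0 f τ Xa π q m (-((q : ℤ) + 1) * j0)
    (-((s1 - s2) + (t1 - t2))) (-((q : ℤ) * (s1 - s2) - (t1 - t2))) j0 1 0 0 hj0
    (zpow_one _).symm (bX.trans (zpow_zero _).symm) (bπ.trans (zpow_zero _).symm)
    (by ring)
  have Uc := s36vt_final Wc γc hγc0 f τ Xa π q m (-((q : ℤ) + 1) * j0)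
    (-((s1 - s2) + (t1 - t2))) (-((q : ℤ) * (s1 - s2) - (t1 - t2))) k0 ((q : ℤ) - 1) 0 1 hk0
    cτ' (cX.trans (zpow_zero _).symm) (zpow_one _).symm
    (by linear_combination (q : ℤ) * (R1a - R1b) - (R2a - R2b))
  obtain ⟨x0, xa, xa'⟩ := s36vt_unit_of_val_one Wa Ua
  obtain ⟨-, xb, xb'⟩ := s36vt_unit_of_val_one Wb Ub
  obtain ⟨-, xc, xc'⟩ := s36vt_unit_of_val_one Wc Uc
  exact ⟨_, _, _, _, rfl, x0, ⟨xa, xa'⟩, ⟨xb, xb'⟩, ⟨xc, xc'⟩⟩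

/-- a uniformiser `Xa` of `Wa` that is a unit of `Wb` and `Wc`, from an element `t` of the
maximal ideal of `Wa` that is a unit of `Wb` and `Wc`: `Xa = τ + t ^ 2`. -/
theorem s36vt_sep (Wa Wb Wc : ValuationSubring F) (τ t : F) (hτ0 : τ ≠ 0)
    (hτb : τ ∈ Wb.nonunits) (hτc : τ ∈ Wc.nonunits)
    (hgen : ∀ x ∈ Wa.nonunits, x * τ⁻¹ ∈ Wa)
    (hta : t ∈ Wa.nonunits) (htb : t ∈ Wb ∧ t⁻¹ ∈ Wb) (htc : t ∈ Wc ∧ t⁻¹ ∈ Wc) (ht0 : t ≠ 0) :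
    τ + t ^ 2 ≠ 0 ∧
      ((τ + t ^ 2) * τ⁻¹ ∈ Wa ∧ ((τ + t ^ 2) * τ⁻¹)⁻¹ ∈ Wa) ∧
      (τ + t ^ 2 ∈ Wb ∧ (τ + t ^ 2)⁻¹ ∈ Wb) ∧ (τ + t ^ 2 ∈ Wc ∧ (τ + t ^ 2)⁻¹ ∈ Wc) := by
  have key : ∀ W : ValuationSubring F, τ ∈ W.nonunits → t ∈ W → t⁻¹ ∈ W →
      W.valuation (τ + t ^ 2) = 1 := by
    intro W hτW h1 h2
    have ht1 : W.valuation t = 1 := s36vt_val_one W ht0 h1 h2
    have h3 : W.valuation τ < W.valuation (t ^ 2) := by
      rw [map_pow, ht1, one_pow]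
      exact (W.mem_nonunits_iff).mp hτW
    rw [Valuation.map_add_eq_of_lt_right _ h3, map_pow, ht1, one_pow]
  have hb := s36vt_unit_of_val_one Wb (key Wb hτb htb.1 htb.2)
  have hc := s36vt_unit_of_val_one Wc (key Wc hτc htc.1 htc.2)
  have ha : Wa.valuation ((τ + t ^ 2) * τ⁻¹) = 1 := by
    have h1 : (τ + t ^ 2) * τ⁻¹ = 1 + t * (t * τ⁻¹) := by
      field_simp
    rw [h1]
    have h2 : Wa.valuation (t * (t * τ⁻¹)) < Wa.valuation 1 := by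
      rw [map_one, map_mul]
      have h3 : Wa.valuation (t * τ⁻¹) ≤ 1 := (Wa.valuation_le_one_iff _).mpr (hgen t hta)
      have h4 : Wa.valuation t < 1 := (Wa.mem_nonunits_iff).mp hta
      calc Wa.valuation t * Wa.valuation (t * τ⁻¹) ≤ Wa.valuation t * 1 :=
            mul_le_mul' le_rfl h3
        _ = Wa.valuation t := mul_one _
        _ < 1 := h4
    rw [Valuation.map_add_eq_of_lt_left _ h2, map_one]
  have ha' := s36vt_unit_of_val_one Wa ha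
  exact ⟨hb.1, ⟨ha'.2.1, ha'.2.2⟩, ⟨hb.2.1, hb.2.2⟩, ⟨hc.2.1, hc.2.2⟩⟩

end Vert3

end Fermat.Agent.S36
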