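import Mathlib
import Fermat.Agent.S36.Vert3

/-!
# S36, package VERT3, normalised export (requested by TORIC3, finding 236)

`s36vn_main`: in the setting of `s36vt_main`, with the constants given as
`N₁ f = C₁ τE ^ k₁ e₁ ^ m`, `N₂ f = C₂ τE ^ k₂ e₂ ^ m` (`C₁ C₂` units of the ring of constants
`A`), the normalised function `x = f ^ (q + 1) * τ ^ i * (Xa ^ j * π ^ k) ^ m` is a unit of
`Wa`, `Wb`, `Wc` AND its norms are `N₁ x = C₁ ^ (q + 1) * E₁ ^ m`, `N₂ x = C₂ ^ (q + 1) * E₂ ^ m`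
(unit constants times `m`-th powers).
-/

set_option autoImplicit false

namespace Fermat.Agent.S36

section Vert3Norm

variable {A E F : Type*} [CommRing A] [Field E] [Field F] [Algebra A E]

/-- the image of a unit constant is a unit of any valuation subring containing the constants -/
theorem s36vn_const (V : ValuationSubring E) (hA : ∀ a : A, algebraMap A E a ∈ V) (x : Aˣ) :
    V.valuation (algebraMap A E (x : A)) = 1 := by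
  have h1 : algebraMap A E (x : A) * algebraMap A E ((x⁻¹ : Aˣ) : A) = 1 := by
    rw [← map_mul, Units.mul_inv, map_one]
  have h0 : algebraMap A E (x : A) ≠ 0 := left_ne_zero_of_mul_eq_one h1
  have hinv : (algebraMap A E (x : A))⁻¹ = algebraMap A E ((x⁻¹ : Aˣ) : A) :=
    inv_eq_of_mul_eq_one_right h1
  exact s36vt_val_one V h0 (hA _) (hinv ▸ hA _)

/-- absorbing the power of the uniformiser: a unit of `V` of the form `C τE ^ K E ^ m` is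
`C E₁ ^ m` -/
theorem s36vn_step (V : ValuationSubring E) (τE : E) (hτE0 : τE ≠ 0) (hτE : τE ∈ V.nonunits)
    (hdec : ∀ z : E, z ≠ 0 → ∃ j : ℤ, z * τE ^ j ∈ V ∧ (z * τE ^ j)⁻¹ ∈ V)
    (hA : ∀ a : A, algebraMap A E a ∈ V) (C : Aˣ) (K : ℤ) (E' : E) (hE : E' ≠ 0) (m : ℕ)
    (y : E) (hy : y = algebraMap A E (C : A) * τE ^ K * E' ^ m) (hv : V.valuation y = 1) :
    ∃ E1 : E, y = algebraMap A E (C : A) * E1 ^ m := by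
  set δ := V.valuation τE with hδ
  have hδ0 : δ ≠ 0 := (Valuation.ne_zero_iff _).mpr hτE0
  have hδ1 : δ < 1 := (V.mem_nonunits_iff).mp hτE
  obtain ⟨s, hs⟩ := s36vt_dec V τE hτE0 hdec E' hE
  have h1 : δ ^ (K + s * (m : ℤ)) = δ ^ (0 : ℤ) := by
    rw [zpow_zero, ← hv, hy, map_mul, map_mul, map_pow, map_zpow₀, s36vn_const V hA C, hs,
      one_mul, ← zpow_natCast (δ ^ s) m, ← zpow_mul, ← zpow_add₀ hδ0]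
  have h2 : K + s * (m : ℤ) = 0 := s36vt_exp_inj hδ0 hδ1 h1
  refine ⟨τE ^ (-s) * E', ?_⟩
  have h3 : (τE ^ (-s) * E') ^ m = τE ^ K * E' ^ m := by
    rw [mul_pow, ← zpow_natCast (τE ^ (-s)) m, ← zpow_mul]
    have h4 : -s * (m : ℤ) = K := by linarith
    rw [h4]
  rw [hy, h3, mul_assoc]

/-- **VERT3, normalised form.** -/
theorem s36vn_main
    (Wa Wb Wc : ValuationSubring F) (V1 V2 : ValuationSubring E)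
    (hA1 : ∀ a : A, algebraMap A E a ∈ V1) (hA2 : ∀ a : A, algebraMap A E a ∈ V2)
    (N1 N2 : F →* E) (q m : ℕ) (hq : 2 ≤ q) (hm : 0 < m)
    (τ π Xa : F) (τE : E)
    (hτ0 : τ ≠ 0) (hπ0 : π ≠ 0) (hXa0 : Xa ≠ 0) (hτE0 : τE ≠ 0)
    (hτa : τ ∈ Wa.nonunits) (hτb : τ ∈ Wb.nonunits) (hπc : π ∈ Wc.nonunits)
    (hτE1 : τE ∈ V1.nonunits) (hτE2 : τE ∈ V2.nonunits)
    (hdeca : ∀ z : F, z ≠ 0 → ∃ j : ℤ, z * τ ^ j ∈ Wa ∧ (z * τ ^ j)⁻¹ ∈ Wa)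
    (hdecb : ∀ z : F, z ≠ 0 → ∃ j : ℤ, z * τ ^ j ∈ Wb ∧ (z * τ ^ j)⁻¹ ∈ Wb)
    (hdecc : ∀ z : F, z ≠ 0 → ∃ j : ℤ, z * π ^ j ∈ Wc ∧ (z * π ^ j)⁻¹ ∈ Wc)
    (hdec1 : ∀ z : E, z ≠ 0 → ∃ j : ℤ, z * τE ^ j ∈ V1 ∧ (z * τE ^ j)⁻¹ ∈ V1)
    (hdec2 : ∀ z : E, z ≠ 0 → ∃ j : ℤ, z * τE ^ j ∈ V2 ∧ (z * τE ^ j)⁻¹ ∈ V2)
    (hπτ : π ^ (q - 1) * τ⁻¹ ∈ Wc ∧ (π ^ (q - 1) * τ⁻¹)⁻¹ ∈ Wc)
    (hπa : π ∈ Wa ∧ π⁻¹ ∈ Wa) (hπb : π ∈ Wb ∧ π⁻¹ ∈ Wb)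
    (hXaa : Xa * τ⁻¹ ∈ Wa ∧ (Xa * τ⁻¹)⁻¹ ∈ Wa)
    (hXab : Xa ∈ Wb ∧ Xa⁻¹ ∈ Wb) (hXac : Xa ∈ Wc ∧ Xa⁻¹ ∈ Wc)
    (hNτ1 : N1 τ = τE ^ q) (hNτ2 : N2 τ = τE ^ q)
    (hN1ac : ∀ u : F, u ∈ Wa → u ∈ Wc → N1 u ∈ V1)
    (hN1ac' : ∀ u : F, u ∈ Wa → u ∈ Wc → (u ∈ Wa.nonunits ∨ u ∈ Wc.nonunits) →
      N1 u ∈ V1.nonunits)
    (hN1b : ∀ u : F, u ∈ Wb → N1 u ∈ V2)
    (hN2a : ∀ u : F, u ∈ Wa → N2 u ∈ V1)
    (hN2bc : ∀ u : F, u ∈ Wb → u ∈ Wc → N2 u ∈ V2)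
    (hN2bc' : ∀ u : F, u ∈ Wb → u ∈ Wc → (u ∈ Wb.nonunits ∨ u ∈ Wc.nonunits) →
      N2 u ∈ V2.nonunits)
    (f : F) (hf : f ≠ 0) (C1 C2 : Aˣ) (k1 k2 : ℤ) (e1 e2 : E)
    (h1 : N1 f = algebraMap A E (C1 : A) * τE ^ k1 * e1 ^ m)
    (h2 : N2 f = algebraMap A E (C2 : A) * τE ^ k2 * e2 ^ m) :
    ∃ (i j k : ℤ) (x : F) (E1 E2 : E),
      x = f ^ (q + 1) * τ ^ i * (Xa ^ j * π ^ k) ^ m ∧ x ≠ 0 ∧
      (x ∈ Wa ∧ x⁻¹ ∈ Wa) ∧ (x ∈ Wb ∧ x⁻¹ ∈ Wb) ∧ (x ∈ Wc ∧ x⁻¹ ∈ Wc) ∧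
      N1 x = algebraMap A E ((C1 ^ (q + 1) : Aˣ) : A) * E1 ^ m ∧
      N2 x = algebraMap A E ((C2 ^ (q + 1) : Aˣ) : A) * E2 ^ m := by
  -- the constants in the shape of `s36vt_main`
  have hcst : ∀ (C : Aˣ) (κ : ℤ), ∃ k : ℤ,
      (algebraMap A E (C : A) * τE ^ κ * τE ^ k ∈ V1 ∧
        (algebraMap A E (C : A) * τE ^ κ * τE ^ k)⁻¹ ∈ V1) ∧
      (algebraMap A E (C : A) * τE ^ κ * τE ^ k ∈ V2 ∧
        (algebraMap A E (C : A) * τE ^ κ * τE ^ k)⁻¹ ∈ V2) := by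
    intro C κ
    refine ⟨-κ, ?_⟩
    have h : algebraMap A E (C : A) * τE ^ κ * τE ^ (-κ) = algebraMap A E (C : A) := by
      rw [mul_assoc, ← zpow_add₀ hτE0, add_neg_cancel, zpow_zero, mul_one]
    rw [h]
    obtain ⟨-, a1, a2⟩ := s36vt_unit_of_val_one V1 (s36vn_const V1 hA1 C)
    obtain ⟨-, b1, b2⟩ := s36vt_unit_of_val_one V2 (s36vn_const V2 hA2 C)
    exact ⟨⟨a1, a2⟩, ⟨b1, b2⟩⟩
  obtain ⟨i, j, k, x, hx, x0, ⟨xa, xa'⟩, ⟨xb, xb'⟩, ⟨xc, xc'⟩⟩ :=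
    s36vt_main Wa Wb Wc V1 V2 N1 N2 q m hq hm τ π Xa τE hτ0 hπ0 hXa0 hτE0 hτa hτb hπc hτE1 hτE2
      hdeca hdecb hdecc hdec1 hdec2 hπτ hπa hπb hXaa hXab hXac hNτ1 hNτ2 hN1ac hN1ac' hN1b hN2a
      hN2bc hN2bc' f hf (algebraMap A E (C1 : A) * τE ^ k1) (algebraMap A E (C2 : A) * τE ^ k2)
      e1 e2 (hcst C1 k1) (hcst C2 k2) h1 h2
  set g : F := Xa ^ j * π ^ k with hg
  have hg0 : g ≠ 0 := mul_ne_zero (zpow_ne_zero _ hXa0) (zpow_ne_zero _ hπ0)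
  have hN1f0 : N1 f ≠ 0 := s36vt_map_ne_zero N1 hf
  have hN2f0 : N2 f ≠ 0 := s36vt_map_ne_zero N2 hf
  have he10 : e1 ≠ 0 := by
    rintro rfl
    rw [zero_pow hm.ne', mul_zero] at h1
    exact hN1f0 h1
  have he20 : e2 ≠ 0 := by
    rintro rfl
    rw [zero_pow hm.ne', mul_zero] at h2
    exact hN2f0 h2
  -- the shape of the norms of `x`
  have key : ∀ (N : F →* E) (C : Aˣ) (κ : ℤ) (e : E), N τ = τE ^ q →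
      N f = algebraMap A E (C : A) * τE ^ κ * e ^ m →
      N x = algebraMap A E ((C ^ (q + 1) : Aˣ) : A) * τE ^ (κ * ((q : ℤ) + 1) + (q : ℤ) * i) *
        (e ^ (q + 1) * N g) ^ m := by
    intro N C κ e hNτ hNf
    have e1' : τE ^ (κ * ((q : ℤ) + 1) + (q : ℤ) * i) = (τE ^ κ) ^ (q + 1) * (τE ^ q) ^ i := by
      rw [zpow_add₀ hτE0, zpow_mul, zpow_mul, zpow_natCast, ← Nat.cast_succ, zpow_natCast]
    rw [hx, map_mul, map_mul, map_pow, map_pow, s36vt_map_zpow N hτ0, hNf, hNτ, e1',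
      Units.val_pow_eq_pow_val, map_pow]
    ring
  have vxa : Wa.valuation x = 1 := s36vt_val_one Wa x0 xa xa'
  have vxc : Wc.valuation x = 1 := s36vt_val_one Wc x0 xc xc'
  have v1 : V1.valuation (N1 x) = 1 := s36vt_unit_pair Wa Wc V1 N1 hN1ac vxa vxc
  have v2 : V1.valuation (N2 x) = 1 :=
    s36vt_unit_pair Wa Wa V1 N2 (fun u hu _ => hN2a u hu) vxa vxa
  obtain ⟨E1, hE1⟩ := s36vn_step V1 τE hτE0 hτE1 hdec1 hA1 (C1 ^ (q + 1)) _ (e1 ^ (q + 1) * N1 g)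
    (mul_ne_zero (pow_ne_zero _ he10) (s36vt_map_ne_zero N1 hg0)) m (N1 x)
    (key N1 C1 k1 e1 hNτ1 h1) v1
  obtain ⟨E2, hE2⟩ := s36vn_step V1 τE hτE0 hτE1 hdec1 hA1 (C2 ^ (q + 1)) _ (e2 ^ (q + 1) * N2 g)
    (mul_ne_zero (pow_ne_zero _ he20) (s36vt_map_ne_zero N2 hg0)) m (N2 x)
    (key N2 C2 k2 e2 hNτ2 h2) v2
  exact ⟨i, j, k, x, E1, E2, hx, x0, ⟨xa, xa'⟩, ⟨xb, xb'⟩, ⟨xc, xc'⟩, hE1, hE2⟩

end Vert3Norm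

end Fermat.Agent.S36
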