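import Mathlib
import Fermat.Agent.S36.VertTorInst
import Fermat.Agent.S36.Val3Wc
import Fermat.Agent.S36.Val3Swap
import Fermat.Agent.S36.Val3Exh
import Fermat.Agent.S36.Val3Za
import Fermat.Agent.S36.Val3Insep
import Fermat.Agent.S36.NormResInst3
import Fermat.Agent.S36.App3Inst

/-!
# S36, [VT-INST], closed form: VERT3-NORM ∘ TORIC3 at the carrier, all hypotheses discharged

Carrier: `q ∤ M` a prime, `F₁ = K0(X₀(M q))`, `F₂ = K0(X₀(M q²))`, `A0` a discrete valuation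
subring of `K0` over `q`, `q` unramified (`hunr`), `τ` a uniformizer of `A0`;
`W_a = va2V1 (M q) q K0 A0` (`= s36v3Wa`), `W_b = W_a.comap (s36v3Swap M q hM K0)`,
`W_c = s36v3Wc M q hM K0 A0`.

`s36vk_main`: for `f₁ ≠ 0` of level `M q²` whose norms along `al`, `be` are constants times
`m`-th powers (`q ∤ m`), there are `i`, `g ≠ 0` such that `x = f₁^(q+1) τ^i g^m` is a unit at
`W_a`, `W_b`, `W_c` and satisfies the conclusion of `s36tor_main` (TORIC3).

Names are prefixed `s36vk`.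
-/

set_option autoImplicit false
set_option linter.unusedSectionVars false
set_option linter.style.haveILetI false

noncomputable section

open ModularCurve AlgebraicCurve
open Fermat.Agent.S18 Fermat.Agent.S34 Fermat.Agent.S35 Fermat.Agent.S37

namespace Fermat.Agent.S36

local notation "Qb" => AlgebraicClosure ℚ

section Carrier

variable (M q : ℕ) [NeZero M] [hq : Fact q.Prime] (hM : ¬ q ∣ M)
  (K0 : Type*) [Field K0] [Algebra ℚ K0] [Algebra K0 Qb]
  (A0 : ValuationSubring K0) [IsDiscreteValuationRing ↥A0]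

/-- the table row `al x ∈ W_b ↔ x ∈ V₂` for `W_b = W_a.comap w₂` -/
theorem s36vk_al_Wb (x : ↥(laurentBaseChange K0 (modularFunctionFieldFull (M * q)))) :
    heckeAlphaBar K0 (M * q) q x ∈ (va2V1 (M * q) q K0 A0).comap (s36v3Swap M q hM K0) ↔
      x ∈ va2V2 M q hM K0 A0 := by
  rw [ValuationSubring.mem_comap, s36v3Swap_al, mem_va2V2]
  exact s36v3_be_Wa M q K0 A0 _

/-- **[VT-INST], closed form.** -/
theorem s36vk_main
    [Algebra ↥A0 ↥(laurentBaseChange K0 (modularFunctionFieldFull (M * q)))]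
    [IsScalarTower ↥A0 K0 ↥(laurentBaseChange K0 (modularFunctionFieldFull (M * q)))]
    [Algebra ↥A0 ↥(laurentBaseChange K0 (modularFunctionFieldFull (M * q * q)))]
    [IsScalarTower ↥A0 K0 ↥(laurentBaseChange K0 (modularFunctionFieldFull (M * q * q)))]
    {a2 : ℕ} (H : HauptRec a2 q) (ha2 : a2 ∣ M)
    (hA0 : A0.LiesOverPrime q)
    (hunr : ∀ x ∈ A0.nonunits, x * ((q : ℕ) : K0)⁻¹ ∈ A0)
    (τ : A0) (hτ : Irreducible τ)
    (m : ℕ) (hm : 0 < m) (hmq : m.Coprime q)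
    (f1 : ↥(laurentBaseChange K0 (modularFunctionFieldFull (M * q * q)))) (hf1 : f1 ≠ 0)
    (hNa : ∃ (c : K0) (e : ↥(laurentBaseChange K0 (modularFunctionFieldFull (M * q)))),
      s35NormA K0 (M * q) q f1 =
        algebraMap K0 ↥(laurentBaseChange K0 (modularFunctionFieldFull (M * q))) c * e ^ m)
    (hNb : ∃ (c : K0) (e : ↥(laurentBaseChange K0 (modularFunctionFieldFull (M * q)))),
      s35NormB K0 (M * q) q f1 =
        algebraMap K0 ↥(laurentBaseChange K0 (modularFunctionFieldFull (M * q))) c * e ^ m) :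
    ∃ (i : ℤ) (g x : ↥(laurentBaseChange K0 (modularFunctionFieldFull (M * q * q)))),
      g ≠ 0 ∧
      x = f1 ^ (q + 1) *
        algebraMap ↥A0 ↥(laurentBaseChange K0 (modularFunctionFieldFull (M * q * q))) τ ^ i *
          g ^ m ∧
      x ≠ 0 ∧
      (x ∈ va2V1 (M * q) q K0 A0 ∧ x⁻¹ ∈ va2V1 (M * q) q K0 A0) ∧
      (x ∈ (va2V1 (M * q) q K0 A0).comap (s36v3Swap M q hM K0) ∧
        x⁻¹ ∈ (va2V1 (M * q) q K0 A0).comap (s36v3Swap M q hM K0)) ∧
      (x ∈ s36v3Wc M q hM K0 A0 ∧ x⁻¹ ∈ s36v3Wc M q hM K0 A0) ∧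
      ∃ (C : ↥A0) (ω : ↥(laurentBaseChange K0 (modularFunctionFieldFull (M * q * q)))),
        IsUnit C ∧ ω ≠ 0 ∧
        x ^ (q * (q - 1) * (q + 1)) *
          (algebraMap ↥A0 ↥(laurentBaseChange K0 (modularFunctionFieldFull (M * q * q))) C *
            ω ^ m)⁻¹ - 1 ∈ (va2V1 (M * q) q K0 A0).nonunits ∧
        x ^ (q * (q - 1) * (q + 1)) *
          (algebraMap ↥A0 ↥(laurentBaseChange K0 (modularFunctionFieldFull (M * q * q))) C *
            ω ^ m)⁻¹ - 1 ∈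
              ((va2V1 (M * q) q K0 A0).comap (s36v3Swap M q hM K0)).nonunits ∧
        x ^ (q * (q - 1) * (q + 1)) *
          (algebraMap ↥A0 ↥(laurentBaseChange K0 (modularFunctionFieldFull (M * q * q))) C *
            ω ^ m)⁻¹ - 1 ∈ (s36v3Wc M q hM K0 A0).nonunits ∧
        ∀ R : Subring ↥(laurentBaseChange K0 (modularFunctionFieldFull (M * q * q))),
          S36Tri (A := ↥A0) (heckeAlphaBar K0 (M * q) q).toRingHom
            (heckeBetaBar K0 (M * q) q).toRingHom (s35NormA K0 (M * q) q)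
            (s35NormB K0 (M * q) q) (va2V1 (M * q) q K0 A0)
            ((va2V1 (M * q) q K0 A0).comap (s36v3Swap M q hM K0))
            (s36v3Wc M q hM K0 A0) m R →
          ∀ u y : ↥(laurentBaseChange K0 (modularFunctionFieldFull (M * q * q))),
            u ∈ R → u⁻¹ ∈ R → x = u * y ^ m →
            ∃ γ : ↥(laurentBaseChange K0 (modularFunctionFieldFull (M * q * q))),
              γ - 1 ∈ (va2V1 (M * q) q K0 A0).nonunits ∧
              γ - 1 ∈ ((va2V1 (M * q) q K0 A0).comap (s36v3Swap M q hM K0)).nonunits ∧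
              γ - 1 ∈ (s36v3Wc M q hM K0 A0).nonunits ∧
              ∃ r : ↥(laurentBaseChange K0 (modularFunctionFieldFull (M * q * q))),
                r ∈ R ∧ r⁻¹ ∈ R ∧ r ≠ 0 ∧
                x ^ (q * (q - 1) * (q + 1)) *
                  (algebraMap ↥A0 ↥(laurentBaseChange K0 (modularFunctionFieldFull (M * q * q)))
                    C * ω ^ m)⁻¹ = r * γ ^ m := by
  classical
  have hmapF : ∀ a : ↥A0,
      algebraMap ↥A0 ↥(laurentBaseChange K0 (modularFunctionFieldFull (M * q * q))) a =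
        algebraMap K0 ↥(laurentBaseChange K0 (modularFunctionFieldFull (M * q * q))) (a : K0) :=
    fun a => IsScalarTower.algebraMap_apply ↥A0 K0 _ a
  -- the uniformiser `z` of `W_c`
  have hf : ((nunH K0 M H ha2 : ↥(laurentBaseChange K0 (modularFunctionFieldFull M))) :
      LaurentSeries K0) = coeffMap (Int.castRingHom K0) H.hZ := rfl
  have hZ : Hp4Lead H.hZ (-1) := H.leadZ
  have hz0 := s36ai_z_ne_zero M q K0 (nunH K0 M H ha2) H.hZ hf hZ
  obtain ⟨hza, hza'⟩ := s36za_Wa M q K0 A0 (nunH K0 M H ha2) H.hZ hf hZ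
  obtain ⟨hzb, hzb'⟩ := s36za_Wb M q hM K0 A0 (nunH K0 M H ha2) H.hZ hf hZ
  obtain ⟨hzc, hzq, hzq'⟩ := s36v3_z_Wc M q hM K0 A0 hA0 (nunH K0 M H ha2) H.hZ hf hZ
  -- the table
  have hαa := s36vx_al_Wa M q K0 A0
  have hβa := s36v3_be_Wa M q K0 A0
  have hαb := s36vk_al_Wb M q hM K0 A0
  have hβb := s36vx_be_Wb M q hM K0 A0
  have hαc := s36v3_al_Wc M q hM K0 A0
  have hβc := s36v3_be_Wc M q hM K0 A0 hA0
  have hgen := s36vx_unif_c M q K0 A0 hA0 hunr (s36v3Wc M q hM K0 A0) hαc _ hz0 hzq hzq'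
    hza hza'
  -- discreteness
  have hdeca := gsp_hdec₁ (M * q) q K0 A0 τ hτ
  have hdecb : ∀ z : ↥(laurentBaseChange K0 (modularFunctionFieldFull (M * q * q))), z ≠ 0 →
      ∃ j : ℤ,
        z * algebraMap ↥A0 ↥(laurentBaseChange K0 (modularFunctionFieldFull (M * q * q))) τ ^ j
          ∈ (va2V1 (M * q) q K0 A0).comap (s36v3Swap M q hM K0) ∧
        (z * algebraMap ↥A0 ↥(laurentBaseChange K0 (modularFunctionFieldFull (M * q * q))) τ ^ j)⁻¹
          ∈ (va2V1 (M * q) q K0 A0).comap (s36v3Swap M q hM K0) := by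
    intro z hz
    rw [hmapF]
    exact s36ai_dec_b M q K0 A0 (s36v3Swap M q hM K0) (s36v3Swap_const M q hM K0) _
      (fun _ => Iff.rfl) τ hτ z hz
  have hdecc := s36ai_dec_Wc M q K0 A0 hA0 (s36v3Wc M q hM K0 A0) hαc _ hz0 hgen hzq
  exact s36vc_main M q hM K0 A0 H ha2 hA0 hunr τ hτ (va2V1 (M * q) q K0 A0)
    ((va2V1 (M * q) q K0 A0).comap (s36v3Swap M q hM K0)) (s36v3Wc M q hM K0 A0)
    hαa hβa hαb hβb hαc hβc
    (s36vi_res_al_Wa M q hM K0 A0 hA0)
    (s36vx_res_al_Wc M q K0 A0 hA0 hunr (s36v3Wc M q hM K0 A0) hαc _ hz0 hzq hzq' hza hza')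
    (s36vi_res_be_Wb M q hM K0 A0 (s36v3Swap M q hM K0) (s36v3Swap_swap M q hM K0)
      (s36v3Swap_al M q hM K0) hA0)
    (s36vx_res_be_Wc M q hM K0 A0 hA0 hunr (s36v3Wc M q hM K0 A0) hβc _ hz0 hzq hzq' hzb hzb')
    _ hz0 hzc hzq hzq' hza hza' hzb hzb' hdeca hdecb hdecc m hm hmq
    (fun u ua uc hua huc h1 h2 => s36nri_alpha1 M q K0 A0 hA0 hunr _ _ hαa hαc _ hz0 hza hza'
      hzq hzq' u ua uc hua huc h1 h2)
    (s36nri_alpha2 M q hM K0 A0 hA0 (s36v3Swap M q hM K0) (s36v3Swap_swap M q hM K0)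
      (s36v3Swap_al M q hM K0))
    (fun u ub uc hub huc h1 h2 => s36nri_beta2 M q hM K0 A0 hA0 hunr _ _ hβb hβc _ hz0 hzb hzb'
      hzq hzq' u ub uc hub huc h1 h2)
    (s36nri_beta1 M q hM K0 A0 hA0)
    (s36ai_happ M q hM K0 A0 H ha2 hA0 (s36v3Swap M q hM K0) _ _ (fun _ => Iff.rfl)
      hαa hαc hαb hβa hβb hβc _ hz0 hzc hgen hzq)
    f1 hf1 hNa hNb

end Carrier

end Fermat.Agent.S36
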