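import Mathlib
import Fermat.Agent.S36.WcCar
import Fermat.Agent.S36.Comp3CarB

/-!
# S36, leaf WC-CAR, seam with COMP3-CAR

The clause `hC` (closed points on `W_c` only) of `s36kc_comp3` / `s36kc_comp3_dat` /
`s36kc_hC_car` at the carrier, in exactly their binder shapes (for every irreducible `τ` and
every chart coordinate `t`, both charts, `W_b` spelled `W_a.comap (s36v3Swap M q hM K0)`,
unramifiedness in the form `hunif`), from `s36wk_carrier_hC` (`S36/WcCar.lean`).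

* `s36wk_hC_branch`: the branch form (`S35IC` and `S35Unit`) = hypothesis `hC` of `s36kc_hC_car`;
* `s36wk_hC_kc`: the datum form (`S36inPtDat`) = hypothesis `hC` of `s36kc_comp3` and of
  `s36kc_comp3_dat`.
-/

set_option autoImplicit false
set_option linter.unusedSectionVars false
set_option linter.unusedVariables false

open AlgebraicCurve ModularCurve Polynomial
open Fermat.Agent.S28 Fermat.Agent.S18 Fermat.Agent.S34 Fermat.Agent.S35

namespace Fermat.Agent.S36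

local notation "Qb" => AlgebraicClosure ℚ

section Carrier

variable (M q : ℕ) [NeZero M] [hq : Fact q.Prime] (hM : ¬ q ∣ M)
  (K0 : Type) [Field K0] [Algebra ℚ K0] [Algebra K0 Qb]
  (A0 : ValuationSubring K0) [IsDiscreteValuationRing ↥A0]
  {a2 : ℕ} (H : HauptRec a2 q)

/-- the unramifiedness hypothesis in the quotient form -/
theorem s36wk_unr_of_unif (hunif : ∀ x ∈ A0.nonunits, ∃ a ∈ A0, x = (q : K0) * a) :
    ∀ x ∈ A0.nonunits, x * ((q : ℕ) : K0)⁻¹ ∈ A0 := by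
  have : CharZero K0 := algebraRat.charZero K0
  have hq0 : ((q : ℕ) : K0) ≠ 0 := Nat.cast_ne_zero.mpr hq.out.ne_zero
  intro x hx
  obtain ⟨a, ha, rfl⟩ := hunif x hx
  rw [mul_comm ((q : ℕ) : K0) a, mul_assoc, mul_inv_cancel₀ hq0, mul_one]
  exact ha

/-- **The clause `hC` at the carrier, branch form**, in the shape of the hypothesis `hC` of
`s36kc_hC_car`. -/
theorem s36wk_hC_branch
    [Algebra ↥A0 ↥(laurentBaseChange K0 (modularFunctionFieldFull (M * q * q)))]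
    [IsScalarTower ↥A0 K0 ↥(laurentBaseChange K0 (modularFunctionFieldFull (M * q * q)))]
    (ha2 : a2 ∣ M) (hA0 : A0.LiesOverPrime q)
    (hunif : ∀ x ∈ A0.nonunits, ∃ a ∈ A0, x = (q : K0) * a)
    (c0 c1 : A0) (hc : IsLocalRing.residue ↥A0 c0 ≠ IsLocalRing.residue ↥A0 c1)
    (hSM : cinstSMChart K0 A0 M H (c0 : K0) (c1 : K0))
    (hSM' : cinstSMChart K0 A0 M H (c1 : K0) (c0 : K0))
    (m : ℕ) (hm : 0 < m) :
    ∀ τ : A0, Irreducible τ →
      ∀ t : ↥(laurentBaseChange K0 (modularFunctionFieldFull (M * q * q))),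
      (t : LaurentSeries K0) = cinstU H K0 (c0 : K0) (c1 : K0) →
      (∀ 𝔫 : Ideal ↥(chtO A0 {t}), 𝔫.IsMaximal → algebraMap ↥A0 ↥(chtO A0 {t}) τ ∈ 𝔫 →
        (∀ x : ↥(chtO A0 {t}),
          (x : ↥(laurentBaseChange K0 (modularFunctionFieldFull (M * q * q)))) ∈
            (s36v3Wc M q hM K0 A0).nonunits → x ∈ 𝔫) →
        (∃ r : ↥(chtO A0 {t}),
          (r : ↥(laurentBaseChange K0 (modularFunctionFieldFull (M * q * q)))) ∈
            (va2V1 (M * q) q K0 A0).nonunits ∧ r ∉ 𝔫) →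
        (∃ r : ↥(chtO A0 {t}),
          (r : ↥(laurentBaseChange K0 (modularFunctionFieldFull (M * q * q)))) ∈
            ((va2V1 (M * q) q K0 A0).comap (s36v3Swap M q hM K0)).nonunits ∧ r ∉ 𝔫) →
        (S35IC m (chtO A0 {t}) 𝔫 (s36v3Wc M q hM K0 A0) ∧
          ∀ f : ↥(laurentBaseChange K0 (modularFunctionFieldFull (M * q * q))), f ≠ 0 →
            S36inOrd τ m f → f ∈ (s36v3Wc M q hM K0 A0) → f⁻¹ ∈ (s36v3Wc M q hM K0 A0) →
            S35Unit m (chtO A0 {t}) 𝔫 f)) ∧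
      (∀ 𝔫 : Ideal ↥(chtO A0 {t⁻¹}), 𝔫.IsMaximal → algebraMap ↥A0 ↥(chtO A0 {t⁻¹}) τ ∈ 𝔫 →
        (∀ x : ↥(chtO A0 {t⁻¹}),
          (x : ↥(laurentBaseChange K0 (modularFunctionFieldFull (M * q * q)))) ∈
            (s36v3Wc M q hM K0 A0).nonunits → x ∈ 𝔫) →
        (∃ r : ↥(chtO A0 {t⁻¹}),
          (r : ↥(laurentBaseChange K0 (modularFunctionFieldFull (M * q * q)))) ∈
            (va2V1 (M * q) q K0 A0).nonunits ∧ r ∉ 𝔫) →
        (∃ r : ↥(chtO A0 {t⁻¹}),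
          (r : ↥(laurentBaseChange K0 (modularFunctionFieldFull (M * q * q)))) ∈
            ((va2V1 (M * q) q K0 A0).comap (s36v3Swap M q hM K0)).nonunits ∧ r ∉ 𝔫) →
        (S35IC m (chtO A0 {t⁻¹}) 𝔫 (s36v3Wc M q hM K0 A0) ∧
          ∀ f : ↥(laurentBaseChange K0 (modularFunctionFieldFull (M * q * q))), f ≠ 0 →
            S36inOrd τ m f → f ∈ (s36v3Wc M q hM K0 A0) → f⁻¹ ∈ (s36v3Wc M q hM K0 A0) →
            S35Unit m (chtO A0 {t⁻¹}) 𝔫 f)) :=
  fun τ hτ t ht => s36wk_carrier_hC M q hM K0 A0 H ha2 hA0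
    (s36wk_unr_of_unif q K0 A0 hunif) c0 c1 hc hSM hSM' t ht τ hτ m hm

/-- **The clause `hC` at the carrier, datum form**, in the shape of the hypothesis `hC` of
`s36kc_comp3` and `s36kc_comp3_dat`. -/
theorem s36wk_hC_kc
    [Algebra ↥A0 ↥(laurentBaseChange K0 (modularFunctionFieldFull (M * q)))]
    [IsScalarTower ↥A0 K0 ↥(laurentBaseChange K0 (modularFunctionFieldFull (M * q)))]
    [Algebra ↥A0 ↥(laurentBaseChange K0 (modularFunctionFieldFull (M * q * q)))]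
    [IsScalarTower ↥A0 K0 ↥(laurentBaseChange K0 (modularFunctionFieldFull (M * q * q)))]
    (ha2 : a2 ∣ M) (hA0 : A0.LiesOverPrime q)
    (hunif : ∀ x ∈ A0.nonunits, ∃ a ∈ A0, x = (q : K0) * a)
    (c0 c1 : A0) (hc : IsLocalRing.residue ↥A0 c0 ≠ IsLocalRing.residue ↥A0 c1)
    (hSM : cinstSMChart K0 A0 M H (c0 : K0) (c1 : K0))
    (hSM' : cinstSMChart K0 A0 M H (c1 : K0) (c0 : K0))
    (m : ℕ) (hm : 0 < m) :
    ∀ τ : A0, Irreducible τ →
      ∀ t : ↥(laurentBaseChange K0 (modularFunctionFieldFull (M * q * q))),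
      (t : LaurentSeries K0) = cinstU H K0 (c0 : K0) (c1 : K0) →
      (∀ 𝔫 : Ideal ↥(chtO A0 {t}), 𝔫.IsMaximal → algebraMap ↥A0 ↥(chtO A0 {t}) τ ∈ 𝔫 →
        (∀ x : ↥(chtO A0 {t}),
          (x : ↥(laurentBaseChange K0 (modularFunctionFieldFull (M * q * q)))) ∈
            (s36v3Wc M q hM K0 A0).nonunits → x ∈ 𝔫) →
        (∃ r : ↥(chtO A0 {t}),
          (r : ↥(laurentBaseChange K0 (modularFunctionFieldFull (M * q * q)))) ∈
            (va2V1 (M * q) q K0 A0).nonunits ∧ r ∉ 𝔫) →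
        (∃ r : ↥(chtO A0 {t}),
          (r : ↥(laurentBaseChange K0 (modularFunctionFieldFull (M * q * q)))) ∈
            ((va2V1 (M * q) q K0 A0).comap (s36v3Swap M q hM K0)).nonunits ∧ r ∉ 𝔫) →
        S36inPtDat τ m q (va2V1 (M * q) q K0 A0)
          ((va2V1 (M * q) q K0 A0).comap (s36v3Swap M q hM K0)) (s36v3Wc M q hM K0 A0)
          (chtO A0 {t}) 𝔫) ∧
      (∀ 𝔫 : Ideal ↥(chtO A0 {t⁻¹}), 𝔫.IsMaximal → algebraMap ↥A0 ↥(chtO A0 {t⁻¹}) τ ∈ 𝔫 →
        (∀ x : ↥(chtO A0 {t⁻¹}),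
          (x : ↥(laurentBaseChange K0 (modularFunctionFieldFull (M * q * q)))) ∈
            (s36v3Wc M q hM K0 A0).nonunits → x ∈ 𝔫) →
        (∃ r : ↥(chtO A0 {t⁻¹}),
          (r : ↥(laurentBaseChange K0 (modularFunctionFieldFull (M * q * q)))) ∈
            (va2V1 (M * q) q K0 A0).nonunits ∧ r ∉ 𝔫) →
        (∃ r : ↥(chtO A0 {t⁻¹}),
          (r : ↥(laurentBaseChange K0 (modularFunctionFieldFull (M * q * q)))) ∈
            ((va2V1 (M * q) q K0 A0).comap (s36v3Swap M q hM K0)).nonunits ∧ r ∉ 𝔫) →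
        S36inPtDat τ m q (va2V1 (M * q) q K0 A0)
          ((va2V1 (M * q) q K0 A0).comap (s36v3Swap M q hM K0)) (s36v3Wc M q hM K0 A0)
          (chtO A0 {t⁻¹}) 𝔫) :=
  s36kc_hC_car M q hM K0 A0 H ha2 hA0 hunif c0 c1 hc m hm
    (s36wk_hC_branch M q hM K0 A0 H ha2 hA0 hunif c0 c1 hc hSM hSM' m hm)

end Carrier

end Fermat.Agent.S36
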