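import Mathlib
import Fermat.Agent.S34.DomInst
import Fermat.Agent.S36.NcCar
import Fermat.Agent.S36.CuspCert
import Fermat.Agent.S36.Val3Wc

/-!
# S36, package WC-CERT, closed: the certificate of the `ε`-criterion at EVERY `W_c`-only point

* `s36wz_dich`: the dichotomy at a prime `𝔫 ∋ q` of a ring `O` of level `N` containing the chart
  coordinate `(h - c₁)/(h - c₀)` of the Hauptmodul: `j ∈ O_𝔫` or `1/j ∈ 𝔫 O_𝔫`;
  `s36wz_dich_cht`: the same for the chart `chtO A0 {t}`;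
* `s36wz_cert`: for a chart `O` of level `M q²` (binders of `s36nc_cert`), a prime `𝔫 ∋ τ` through
  which `W_c = s36v3Wc M q hM K0 A0` passes and `W_a`, `W_b` do not, and the dichotomy at `𝔫`:
  there are `π ∈ O_𝔫 ∩ 𝔪_{W_c}`, `om ∈ O_𝔫`, `c ∈ O_𝔫ˣ` with `π^(q-1)/τ · om - c ∈ 𝔪_{W_c}`
  (cuspidal points: `s36cw_cert`; non-cuspidal points: `s36nk_cert`);
* `s36wz_cert_cht`: the same for `O = chtO A0 {t}` with the dichotomy discharged.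
-/

set_option autoImplicit false
set_option linter.unusedSectionVars false
set_option synthInstance.maxHeartbeats 400000

open AlgebraicCurve ModularCurve Polynomial Fermat.Agent.S18 Fermat.Agent.S34

namespace Fermat.Agent.S36

local notation "Qb" => AlgebraicClosure ℚ

section Dich

variable (K0 : Type*) [Field K0] [Algebra ℚ K0] [Algebra K0 Qb] (A0 : ValuationSubring K0)
  [IsDiscreteValuationRing ↥A0]
  (N q : ℕ) [NeZero N] {a2 : ℕ} (H : HauptRec a2 q) (ha2 : a2 ∣ N)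

/-- **The dichotomy at a prime over `q`**: `j ∈ O_𝔫` or `1/j ∈ 𝔫 O_𝔫`. -/
theorem s36wz_dich
    [Algebra ↥A0 ↥(laurentBaseChange K0 (modularFunctionFieldFull N))]
    (O : Subalgebra ↥A0 ↥(laurentBaseChange K0 (modularFunctionFieldFull N)))
    (𝔫 : Ideal ↥O) [𝔫.IsPrime] (hq𝔫 : ((q : ℕ) : ↥O) ∈ 𝔫)
    (c0 c1 : K0)
    (hc0 : algebraMap K0 ↥(laurentBaseChange K0 (modularFunctionFieldFull N)) c0 ∈ O)
    (hc1 : algebraMap K0 ↥(laurentBaseChange K0 (modularFunctionFieldFull N)) c1 ∈ O)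
    (hc01 : (algebraMap K0 ↥(laurentBaseChange K0 (modularFunctionFieldFull N)) c0 -
      algebraMap K0 ↥(laurentBaseChange K0 (modularFunctionFieldFull N)) c1)⁻¹ ∈ O)
    (hc : c0 ≠ c1)
    (ht : (dmiH K0 N H ha2 - algebraMap K0 _ c1) / (dmiH K0 N H ha2 - algebraMap K0 _ c0) ∈ O) :
    va2Jd K0 N 1 (one_dvd _) ∈ dmaLoc O 𝔫 ∨ (va2Jd K0 N 1 (one_dvd _))⁻¹ ∈ dmaMax O 𝔫 := by
  obtain ⟨U, V, W, hUV⟩ := cni_bezout H
  have hdeg : H.Q.natDegree < H.P.natDegree := by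
    rw [H.natDegree_P]
    exact H.natDegree_Q
  exact dma_j_dichotomy O 𝔫 q hq𝔫 H.P H.Q U V W H.P_monic hdeg hUV
    (dmi_jd_ne_zero K0 N 1 _) (dmi_rel K0 N H ha2) hc0 hc1 hc01
    ((algebraMap K0 _).injective.ne hc) (dmiH_sub_ne K0 N H ha2 c0) ht

include ha2 in
/-- **The dichotomy at a prime over `q` of the chart `chtO A0 {t}`**, `t = (h - c₁)/(h - c₀)`. -/
theorem s36wz_dich_cht
    [Algebra ↥A0 ↥(laurentBaseChange K0 (modularFunctionFieldFull N))]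
    [IsScalarTower ↥A0 K0 ↥(laurentBaseChange K0 (modularFunctionFieldFull N))]
    (c0 c1 : A0) (hc : ((c0 : K0) - (c1 : K0))⁻¹ ∈ A0) (hc' : (c0 : K0) ≠ (c1 : K0))
    (t : ↥(laurentBaseChange K0 (modularFunctionFieldFull N)))
    (ht : (t : LaurentSeries K0) = cinstU H K0 (c0 : K0) (c1 : K0))
    (𝔫 : Ideal ↥(chtO A0 {t})) [𝔫.IsPrime] (hq𝔫 : ((q : ℕ) : ↥(chtO A0 {t})) ∈ 𝔫) :
    va2Jd K0 N 1 (one_dvd _) ∈ dmaLoc (chtO A0 {t}) 𝔫 ∨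
      (va2Jd K0 N 1 (one_dvd _))⁻¹ ∈ dmaMax (chtO A0 {t}) 𝔫 := by
  refine s36wz_dich K0 A0 N q H ha2 (chtO A0 {t}) 𝔫 hq𝔫 (c0 : K0) (c1 : K0)
    (dmi_const_mem A0 _ c0.2) (dmi_const_mem A0 _ c1.2) ?_ hc' ?_
  · rw [← map_sub, ← map_inv₀]
    exact dmi_const_mem A0 _ hc
  · rw [← dmi_t_eq K0 N H ha2 (c0 : K0) (c1 : K0) t ht]
    exact (cht_h1 t).1

end Dich

section Carrier

variable (M q : ℕ) [NeZero M] [hq : Fact q.Prime] (hM : ¬ q ∣ M)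
  (K0 : Type*) [Field K0] [Algebra ℚ K0] [Algebra K0 Qb]
  (A0 : ValuationSubring K0) [IsDiscreteValuationRing ↥A0]
  {a2 : ℕ} (H : HauptRec a2 q)

include H in
/-- **[WC-CERT] The certificate of the `ε`-criterion at every `W_c`-only point.** -/
theorem s36wz_cert (ha2 : a2 ∣ M) (hA0 : A0.LiesOverPrime q)
    [Algebra ↥A0 ↥(laurentBaseChange K0 (modularFunctionFieldFull (M * q * q)))]
    [IsScalarTower ↥A0 K0 ↥(laurentBaseChange K0 (modularFunctionFieldFull (M * q * q)))]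
    (τ : A0) (hτ : Irreducible τ) (ε : A0) (hε : IsUnit ε) (hqτ : ((q : ℕ) : ↥A0) = τ * ε)
    (O : Subalgebra ↥A0 ↥(laurentBaseChange K0 (modularFunctionFieldFull (M * q * q))))
    [IsNoetherianRing ↥O]
    (hfrac : ∀ x : ↥(laurentBaseChange K0 (modularFunctionFieldFull (M * q * q))),
      ∃ a ∈ O, ∃ s ∈ O, s ≠ 0 ∧ x * s = a)
    (hic : ∀ x : ↥(laurentBaseChange K0 (modularFunctionFieldFull (M * q * q))),
      IsIntegral ↥O x → x ∈ O)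
    (Wa Wb : ValuationSubring ↥(laurentBaseChange K0 (modularFunctionFieldFull (M * q * q))))
    (hOc : ∀ y ∈ O, y ∈ s36v3Wc M q hM K0 A0) (hOa : ∀ y ∈ O, y ∈ Wa) (hOb : ∀ y ∈ O, y ∈ Wb)
    (hWctop : s36v3Wc M q hM K0 A0 ≠ ⊤) (hWatop : Wa ≠ ⊤) (hWbtop : Wb ≠ ⊤)
    (hred : ∀ x ∈ O, x ∈ (s36v3Wc M q hM K0 A0).nonunits → x ∈ Wa.nonunits → x ∈ Wb.nonunits →
      ∃ (N : ℕ), ∃ y ∈ O, x ^ N =
        algebraMap ↥A0 ↥(laurentBaseChange K0 (modularFunctionFieldFull (M * q * q))) τ * y)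
    (𝔫 : Ideal ↥O) [𝔫.IsPrime] (hτ𝔫 : algebraMap ↥A0 ↥O τ ∈ 𝔫)
    (h1 : ∀ x : ↥O, (x : ↥(laurentBaseChange K0 (modularFunctionFieldFull (M * q * q)))) ∈
      (s36v3Wc M q hM K0 A0).nonunits → x ∈ 𝔫)
    (ha : ∃ r : ↥O,
      (r : ↥(laurentBaseChange K0 (modularFunctionFieldFull (M * q * q)))) ∈ Wa.nonunits ∧ r ∉ 𝔫)
    (hb : ∃ r : ↥O,
      (r : ↥(laurentBaseChange K0 (modularFunctionFieldFull (M * q * q)))) ∈ Wb.nonunits ∧ r ∉ 𝔫)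
    (hdich : va2Jd K0 (M * q * q) 1 (one_dvd _) ∈ dmaLoc O 𝔫 ∨
      (va2Jd K0 (M * q * q) 1 (one_dvd _))⁻¹ ∈ dmaMax O 𝔫) :
    ∃ π om c : ↥(laurentBaseChange K0 (modularFunctionFieldFull (M * q * q))),
      (∃ a s : ↥O, s ∉ 𝔫 ∧ π * (s : _) = (a : _)) ∧
      π ∈ (s36v3Wc M q hM K0 A0).nonunits ∧
      (∃ a s : ↥O, s ∉ 𝔫 ∧ om * (s : _) = (a : _)) ∧
      (∃ a s : ↥O, a ∉ 𝔫 ∧ s ∉ 𝔫 ∧ c * (s : _) = (a : _)) ∧
      π ^ (q - 1) *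
          (algebraMap ↥A0 ↥(laurentBaseChange K0 (modularFunctionFieldFull (M * q * q))) τ)⁻¹ *
          om - c ∈ (s36v3Wc M q hM K0 A0).nonunits := by
  rcases hdich with hJ | hcusp
  · obtain ⟨hzO, hzc, om, c, homO, hcO, hcong⟩ :=
      s36nk_cert M q hM K0 A0 H ha2 hA0 (s36v3Ap K0 A0) (s36v3Ap_comap K0 A0) (s36v3Zeta q)
        (s36v3Zeta_spec q) (s36v3Zeta_ne_zero q) (s36v3Wc M q hM K0 A0) (s36v3Ec M q hM K0)
        (s36v3Ec_al M q hM K0)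
        (s36ec_be_be M q hM K0 (s36v3Zeta q) (s36v3Zeta_ne_zero q) (s36v3Zeta_pow q)
          (s36v3Zeta_ne_one q))
        (s36v3_Wc_nonunits_of_series M q hM K0 A0) (s36v3_al_Wc M q hM K0 A0) τ hτ ε hε hqτ
        O hfrac hic Wa Wb hOc hOa hOb hWctop hWatop hWbtop hred 𝔫 hτ𝔫 ha hb hJ
    exact ⟨_, om, c, hzO, hzc, homO, hcO, hcong⟩
  · exact s36cw_cert' M q K0 A0 hM hA0 τ ε hε hqτ O hic hOc 𝔫 h1 hcusp

/-- **[WC-CERT] at the chart `chtO A0 {t}`**, `t = (h₀ - c₁)/(h₀ - c₀)`: the dichotomy is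
discharged. -/
theorem s36wz_cert_cht (ha2 : a2 ∣ M) (hA0 : A0.LiesOverPrime q)
    [Algebra ↥A0 ↥(laurentBaseChange K0 (modularFunctionFieldFull (M * q * q)))]
    [IsScalarTower ↥A0 K0 ↥(laurentBaseChange K0 (modularFunctionFieldFull (M * q * q)))]
    (τ : A0) (hτ : Irreducible τ) (ε : A0) (hε : IsUnit ε) (hqτ : ((q : ℕ) : ↥A0) = τ * ε)
    (c0 c1 : A0) (hc : ((c0 : K0) - (c1 : K0))⁻¹ ∈ A0) (hc' : (c0 : K0) ≠ (c1 : K0))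
    (t : ↥(laurentBaseChange K0 (modularFunctionFieldFull (M * q * q))))
    (ht : (t : LaurentSeries K0) = cinstU H K0 (c0 : K0) (c1 : K0))
    [IsNoetherianRing ↥(chtO A0 {t})]
    (hfrac : ∀ x : ↥(laurentBaseChange K0 (modularFunctionFieldFull (M * q * q))),
      ∃ a ∈ chtO A0 {t}, ∃ s ∈ chtO A0 {t}, s ≠ 0 ∧ x * s = a)
    (Wa Wb : ValuationSubring ↥(laurentBaseChange K0 (modularFunctionFieldFull (M * q * q))))
    (hOc : ∀ y ∈ chtO A0 {t}, y ∈ s36v3Wc M q hM K0 A0) (hOa : ∀ y ∈ chtO A0 {t}, y ∈ Wa)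
    (hOb : ∀ y ∈ chtO A0 {t}, y ∈ Wb)
    (hWctop : s36v3Wc M q hM K0 A0 ≠ ⊤) (hWatop : Wa ≠ ⊤) (hWbtop : Wb ≠ ⊤)
    (hred : ∀ x ∈ chtO A0 {t}, x ∈ (s36v3Wc M q hM K0 A0).nonunits → x ∈ Wa.nonunits →
      x ∈ Wb.nonunits → ∃ (N : ℕ), ∃ y ∈ chtO A0 {t}, x ^ N =
        algebraMap ↥A0 ↥(laurentBaseChange K0 (modularFunctionFieldFull (M * q * q))) τ * y)
    (𝔫 : Ideal ↥(chtO A0 {t})) [𝔫.IsPrime] (hτ𝔫 : algebraMap ↥A0 ↥(chtO A0 {t}) τ ∈ 𝔫)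
    (h1 : ∀ x : ↥(chtO A0 {t}),
      (x : ↥(laurentBaseChange K0 (modularFunctionFieldFull (M * q * q)))) ∈
      (s36v3Wc M q hM K0 A0).nonunits → x ∈ 𝔫)
    (ha : ∃ r : ↥(chtO A0 {t}),
      (r : ↥(laurentBaseChange K0 (modularFunctionFieldFull (M * q * q)))) ∈ Wa.nonunits ∧ r ∉ 𝔫)
    (hb : ∃ r : ↥(chtO A0 {t}),
      (r : ↥(laurentBaseChange K0 (modularFunctionFieldFull (M * q * q)))) ∈ Wb.nonunits ∧
        r ∉ 𝔫) :
    ∃ π om c : ↥(laurentBaseChange K0 (modularFunctionFieldFull (M * q * q))),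
      (∃ a s : ↥(chtO A0 {t}), s ∉ 𝔫 ∧ π * (s : _) = (a : _)) ∧
      π ∈ (s36v3Wc M q hM K0 A0).nonunits ∧
      (∃ a s : ↥(chtO A0 {t}), s ∉ 𝔫 ∧ om * (s : _) = (a : _)) ∧
      (∃ a s : ↥(chtO A0 {t}), a ∉ 𝔫 ∧ s ∉ 𝔫 ∧ c * (s : _) = (a : _)) ∧
      π ^ (q - 1) *
          (algebraMap ↥A0 ↥(laurentBaseChange K0 (modularFunctionFieldFull (M * q * q))) τ)⁻¹ *
          om - c ∈ (s36v3Wc M q hM K0 A0).nonunits := by
  have hq𝔫 : ((q : ℕ) : ↥(chtO A0 {t})) ∈ 𝔫 := by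
    have e : ((q : ℕ) : ↥(chtO A0 {t})) =
        algebraMap ↥A0 ↥(chtO A0 {t}) τ * algebraMap ↥A0 ↥(chtO A0 {t}) ε := by
      rw [← map_mul, ← hqτ, map_natCast]
    rw [e]
    exact 𝔫.mul_mem_right _ hτ𝔫
  exact s36wz_cert M q hM K0 A0 H ha2 hA0 τ hτ ε hε hqτ (chtO A0 {t}) hfrac
    (fun x hx => cht_integral_closed {t} hx) Wa Wb hOc hOa hOb hWctop hWatop hWbtop hred 𝔫 hτ𝔫
    h1 ha hb
    (s36wz_dich_cht K0 A0 (M * q * q) q H ((ha2.mul_right q).mul_right q) c0 c1 hc hc' t ht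
      𝔫 hq𝔫)

end Carrier

end Fermat.Agent.S36
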